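/-
Project SS (statement S34), cell [M] (model), leaf [XFER]: CHANGE OF CHART.

`B₁, B₂ ≤ B₁₂` subalgebras of the field `F0` with `x ∈ B₁`, `x⁻¹ ∈ B₂`, `B₁₂ = B₁[1/x] = B₂[x]`,
`B₂` integral over `A0[x⁻¹]` (the three charts `fc_chart A0 {x}, {x⁻¹}, {x, x⁻¹}`).  A closed point
`𝔫` of the special fibre of `B₂` with `x⁻¹ ∉ 𝔫` is also a closed point `𝔫₁` of the special fibre of
`B₁`, with THE SAME local ring inside `F0`; the properties `ss_SmoothAt`, `ss_NodeAt` only depend on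
that local ring.  Hence nodes and generic smooth points are only ever computed on the chart `B₁`.

* `ssm_xf_loc B 𝔫`, `ssm_xf_max B 𝔫` : the local ring of `B` at `𝔫` and its maximal ideal, inside
  `F0`;
* `ssm_xf_smoothAt_iff`, `ssm_xf_nodeAt_iff` : `ss_SmoothAt`, `ss_NodeAt` in terms of them;
* **`ssm_xf_pts2_abs`** : the transfer; `ssm_xf_pts2` : the corollary for the three `fc_chart`s.
Prefix `ssm_xf_`.
-/
import Mathlib
import Fermat.Agent.SS.CoreModel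
import Fermat.Agent.JT3.FCore.Charts

set_option autoImplicit false
set_option linter.unusedSectionVars false
set_option linter.style.haveILetI false

namespace Fermat.Agent.SS

open Fermat.Agent.JT3 Polynomial

universe v

section Loc

variable {A0 : Type*} [CommRing A0] {F0 : Type v} [Field F0] [Algebra A0 F0]
variable (B : Subalgebra A0 F0) (𝔫 : Ideal B) [h𝔫 : 𝔫.IsPrime]

include h𝔫 in
theorem ssm_xf_one_not_mem : (1 : B) ∉ 𝔫 := (Ideal.ne_top_iff_one 𝔫).1 h𝔫.ne_top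

include h𝔫 in
theorem ssm_xf_mul_not_mem {s s' : B} (hs : s ∉ 𝔫) (hs' : s' ∉ 𝔫) : s * s' ∉ 𝔫 :=
  fun h => (h𝔫.mem_or_mem h).elim hs hs'

/-- the local ring of `B` at the prime `𝔫`, inside `F0`. -/
def ssm_xf_loc : Subring F0 where
  carrier := {z | ∃ s t : B, s ∉ 𝔫 ∧ (s : F0) * z = t}
  mul_mem' := by
    rintro a b ⟨s, t, hs, h⟩ ⟨s', t', hs', h'⟩
    refine ⟨s * s', t * t', ssm_xf_mul_not_mem B 𝔫 hs hs', ?_⟩
    push_cast
    rw [← h, ← h']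
    ring
  one_mem' := ⟨1, 1, ssm_xf_one_not_mem B 𝔫, by simp⟩
  add_mem' := by
    rintro a b ⟨s, t, hs, h⟩ ⟨s', t', hs', h'⟩
    refine ⟨s * s', t * s' + t' * s, ssm_xf_mul_not_mem B 𝔫 hs hs', ?_⟩
    push_cast
    rw [← h, ← h']
    ring
  zero_mem' := ⟨1, 0, ssm_xf_one_not_mem B 𝔫, by simp⟩
  neg_mem' := by
    rintro a ⟨s, t, hs, h⟩
    exact ⟨s, -t, hs, by push_cast; rw [← h]; ring⟩

theorem ssm_xf_mem_loc {z : F0} :
    z ∈ ssm_xf_loc B 𝔫 ↔ ∃ s t : B, s ∉ 𝔫 ∧ (s : F0) * z = t := Iff.rfl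

theorem ssm_xf_coe_mem_loc (b : B) : (b : F0) ∈ ssm_xf_loc B 𝔫 :=
  ⟨1, b, ssm_xf_one_not_mem B 𝔫, by simp⟩

/-- the maximal ideal of the local ring of `B` at `𝔫`, inside `F0`. -/
def ssm_xf_max : AddSubgroup F0 where
  carrier := {z | ∃ s t : B, s ∉ 𝔫 ∧ t ∈ 𝔫 ∧ (s : F0) * z = t}
  add_mem' := by
    rintro a b ⟨s, t, hs, ht, h⟩ ⟨s', t', hs', ht', h'⟩
    refine ⟨s * s', t * s' + t' * s, ssm_xf_mul_not_mem B 𝔫 hs hs',
      𝔫.add_mem (𝔫.mul_mem_right _ ht) (𝔫.mul_mem_right _ ht'), ?_⟩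
    push_cast
    rw [← h, ← h']
    ring
  zero_mem' := ⟨1, 0, ssm_xf_one_not_mem B 𝔫, 𝔫.zero_mem, by simp⟩
  neg_mem' := by
    rintro a ⟨s, t, hs, ht, h⟩
    exact ⟨s, -t, hs, 𝔫.neg_mem ht, by push_cast; rw [← h]; ring⟩

theorem ssm_xf_mem_max {z : F0} :
    z ∈ ssm_xf_max B 𝔫 ↔ ∃ s t : B, s ∉ 𝔫 ∧ t ∈ 𝔫 ∧ (s : F0) * z = t := Iff.rfl

theorem ssm_xf_max_le_loc {z : F0} (hz : z ∈ ssm_xf_max B 𝔫) : z ∈ ssm_xf_loc B 𝔫 := by
  obtain ⟨s, t, hs, -, h⟩ := hz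
  exact ⟨s, t, hs, h⟩

theorem ssm_xf_mul_mem_max {r z : F0} (hr : r ∈ ssm_xf_loc B 𝔫) (hz : z ∈ ssm_xf_max B 𝔫) :
    r * z ∈ ssm_xf_max B 𝔫 := by
  obtain ⟨s', t', hs', h'⟩ := hr
  obtain ⟨s, t, hs, ht, h⟩ := hz
  refine ⟨s' * s, t' * t, ssm_xf_mul_not_mem B 𝔫 hs' hs, 𝔫.mul_mem_left _ ht, ?_⟩
  push_cast
  rw [← h, ← h']
  ring

theorem ssm_xf_mul_mem_max' {r z : F0} (hz : z ∈ ssm_xf_max B 𝔫) (hr : r ∈ ssm_xf_loc B 𝔫) :
    z * r ∈ ssm_xf_max B 𝔫 := by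
  rw [mul_comm]
  exact ssm_xf_mul_mem_max B 𝔫 hr hz

theorem ssm_xf_coe_mem_max {b : B} (hb : b ∈ 𝔫) : (b : F0) ∈ ssm_xf_max B 𝔫 :=
  ⟨1, b, ssm_xf_one_not_mem B 𝔫, hb, by simp⟩

theorem ssm_xf_mem_of_coe_mem_max {b : B} (hb : (b : F0) ∈ ssm_xf_max B 𝔫) : b ∈ 𝔫 := by
  obtain ⟨s, t, hs, ht, h⟩ := hb
  have h' : s * b = t := Subtype.ext (by push_cast; exact h)
  have : s * b ∈ 𝔫 := by rw [h']; exact ht
  exact (h𝔫.mem_or_mem this).resolve_left hs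

theorem ssm_xf_coe_mem_max_iff {b : B} : (b : F0) ∈ ssm_xf_max B 𝔫 ↔ b ∈ 𝔫 :=
  ⟨ssm_xf_mem_of_coe_mem_max B 𝔫, ssm_xf_coe_mem_max B 𝔫⟩

theorem ssm_xf_one_not_mem_max : (1 : F0) ∉ ssm_xf_max B 𝔫 := by
  intro h
  have : ((1 : B) : F0) ∈ ssm_xf_max B 𝔫 := by simpa using h
  exact ssm_xf_one_not_mem B 𝔫 (ssm_xf_mem_of_coe_mem_max B 𝔫 this)

/-- the maximal ideal of the local ring is prime. -/
theorem ssm_xf_max_prime {a b : F0} (ha : a ∈ ssm_xf_loc B 𝔫) (hb : b ∈ ssm_xf_loc B 𝔫)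
    (hab : a * b ∈ ssm_xf_max B 𝔫) : a ∈ ssm_xf_max B 𝔫 ∨ b ∈ ssm_xf_max B 𝔫 := by
  obtain ⟨s1, t1, hs1, h1⟩ := ha
  obtain ⟨s2, t2, hs2, h2⟩ := hb
  obtain ⟨s, t, hs, ht, h⟩ := hab
  have hmem : s * (t1 * t2) ∈ 𝔫 := by
    have e : s * (t1 * t2) = s1 * s2 * t := by
      apply Subtype.ext
      push_cast
      rw [← h1, ← h2, ← h]
      ring
    rw [e]
    exact 𝔫.mul_mem_left _ ht
  rcases h𝔫.mem_or_mem ((h𝔫.mem_or_mem hmem).resolve_left hs) with h' | h'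
  · exact Or.inl ⟨s1, t1, hs1, h', h1⟩
  · exact Or.inr ⟨s2, t2, hs2, h', h2⟩

/-- a unit of the local ring: the inverse of an element of `B` outside `𝔫`. -/
theorem ssm_xf_inv_mem_loc {s : B} (hs : s ∉ 𝔫) : ((s : F0))⁻¹ ∈ ssm_xf_loc B 𝔫 := by
  have hs0 : (s : F0) ≠ 0 := by
    intro h0
    apply hs
    have : s = 0 := Subtype.ext (by simpa using h0)
    rw [this]
    exact 𝔫.zero_mem
  exact ⟨s, 1, hs, by push_cast; exact mul_inv_cancel₀ hs0⟩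

theorem ssm_xf_coe_ne_zero {s : B} (hs : s ∉ 𝔫) : (s : F0) ≠ 0 := by
  intro h0
  apply hs
  have : s = 0 := Subtype.ext (by simpa using h0)
  rw [this]
  exact 𝔫.zero_mem

end Loc

section Intrinsic

variable {A0 : Type*} [CommRing A0] {F0 : Type v} [Field F0] [Algebra A0 F0]

/-- smoothness of the special fibre at a point, in terms of the local ring `R` and its maximal
ideal `M`: `M = (ϖ, t) R` and `ϖ R` is prime. -/
def ssm_xf_Smooth (ϖ : F0) (R : Subring F0) (M : AddSubgroup F0) : Prop :=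
  (∃ t ∈ M, ∀ z ∈ M, ∃ c1 ∈ R, ∃ c2 ∈ R, z = ϖ * c1 + t * c2) ∧
  (∀ a ∈ R, ∀ b ∈ R, (∃ c ∈ R, a * b = ϖ * c) → (∃ c ∈ R, a = ϖ * c) ∨ (∃ c ∈ R, b = ϖ * c))

/-- ordinary double point, in terms of the local ring `R` and its maximal ideal `M`. -/
def ssm_xf_Node (ϖ : F0) (σ : F0 ≃+* F0) (σ0 : A0 ≃+* A0) (R : Subring F0) (M : AddSubgroup F0)
    {B12 : Subalgebra A0 F0} (P1 P2 : Ideal B12) : Prop :=
  ∃ (u v : F0) (a : A0), u * v = algebraMap A0 F0 a ∧ σ0 a = a ∧ σ u = u ∧ u ∈ M ∧ v ∈ M ∧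
    (∀ z ∈ M, ∃ c1 ∈ R, ∃ c2 ∈ R, ∃ c3 ∈ R, z = ϖ * c1 + u * c2 + v * c3) ∧
    (∃ s t : B12, s ∉ P1 ∧ t ∉ P1 ∧ (s : F0) * u = t) ∧
    (∃ s t : B12, s ∉ P2 ∧ t ∉ P2 ∧ (s : F0) * v = t)

variable (B : Subalgebra A0 F0) (𝔫 : Ideal B) [h𝔫 : 𝔫.IsPrime]

theorem ssm_xf_coe_algebraMap (π : A0) : ((algebraMap A0 B π : B) : F0) = algebraMap A0 F0 π := rfl

/-- the quotient of an element of `B` by an element of `B` outside `𝔫` lies in the local ring. -/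
theorem ssm_xf_div_mem_loc (c : B) {s : B} (hs : s ∉ 𝔫) :
    (c : F0) * ((s : F0))⁻¹ ∈ ssm_xf_loc B 𝔫 :=
  (ssm_xf_loc B 𝔫).mul_mem (ssm_xf_coe_mem_loc B 𝔫 c) (ssm_xf_inv_mem_loc B 𝔫 hs)

/-- **`ss_SmoothAt` only depends on the local ring.** -/
theorem ssm_xf_smoothAt_iff (π : A0) (hπ : algebraMap A0 B π ∈ 𝔫) :
    ss_SmoothAt π B 𝔫 ↔
      ssm_xf_Smooth (algebraMap A0 F0 π) (ssm_xf_loc B 𝔫) (ssm_xf_max B 𝔫) := by
  constructor
  · rintro ⟨⟨t, -, htP, hgen⟩, hdom⟩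
    refine ⟨⟨(t : F0), ssm_xf_coe_mem_max B 𝔫 htP, ?_⟩, ?_⟩
    · rintro z ⟨s0, t0, hs0, ht0, h0⟩
      obtain ⟨s, hs, hmem⟩ := hgen t0 ht0
      obtain ⟨c, d, hcd⟩ := Ideal.mem_span_pair.1 hmem
      have hss0 := ssm_xf_mul_not_mem B 𝔫 hs hs0
      have hne : ((s * s0 : B) : F0) ≠ 0 := ssm_xf_coe_ne_zero B 𝔫 hss0
      refine ⟨_, ssm_xf_div_mem_loc B 𝔫 c hss0, _, ssm_xf_div_mem_loc B 𝔫 d hss0, ?_⟩
      have hcd' : (c : F0) * algebraMap A0 F0 π + (d : F0) * (t : F0) = (s : F0) * (t0 : F0) := by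
        have := congrArg (fun b : B => (b : F0)) hcd
        simpa using this
      have hs0ne : (s0 : F0) ≠ 0 := ssm_xf_coe_ne_zero B 𝔫 hs0
      have hsne : (s : F0) ≠ 0 := ssm_xf_coe_ne_zero B 𝔫 hs
      push_cast
      field_simp
      rw [← h0] at hcd'
      linear_combination (-1 : F0) * hcd'
    · rintro a ⟨sa, ta, hsa, ha⟩ b ⟨sb, tb, hsb, hb⟩ ⟨c, ⟨sc, tc, hsc, hc⟩, habc⟩
      have hsane : (sa : F0) ≠ 0 := ssm_xf_coe_ne_zero B 𝔫 hsa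
      have hsbne : (sb : F0) ≠ 0 := ssm_xf_coe_ne_zero B 𝔫 hsb
      have hscne : (sc : F0) ≠ 0 := ssm_xf_coe_ne_zero B 𝔫 hsc
      have hprod : (sc * ta) * tb ∈ Ideal.span {algebraMap A0 B π} := by
        rw [Ideal.mem_span_singleton']
        refine ⟨sa * sb * tc, Subtype.ext ?_⟩
        push_cast
        rw [← ha, ← hb, ← hc]
        linear_combination (-(sa : F0) * sb * sc) * habc
      obtain ⟨s, hs, h | h⟩ := hdom _ _ hprod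
      · left
        obtain ⟨e, he⟩ := Ideal.mem_span_singleton'.1 h
        have hsne : (s : F0) ≠ 0 := ssm_xf_coe_ne_zero B 𝔫 hs
        have hnm := ssm_xf_mul_not_mem B 𝔫 (ssm_xf_mul_not_mem B 𝔫 hs hsc) hsa
        refine ⟨_, ssm_xf_div_mem_loc B 𝔫 e hnm, ?_⟩
        have he' : (e : F0) * algebraMap A0 F0 π = (s : F0) * ((sc : F0) * (ta : F0)) := by
          have := congrArg (fun b : B => (b : F0)) he
          simpa using this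
        push_cast
        field_simp
        rw [← ha] at he'
        linear_combination (-1 : F0) * he'
      · right
        obtain ⟨e, he⟩ := Ideal.mem_span_singleton'.1 h
        have hsne : (s : F0) ≠ 0 := ssm_xf_coe_ne_zero B 𝔫 hs
        have hnm := ssm_xf_mul_not_mem B 𝔫 hs hsb
        refine ⟨_, ssm_xf_div_mem_loc B 𝔫 e hnm, ?_⟩
        have he' : (e : F0) * algebraMap A0 F0 π = (s : F0) * (tb : F0) := by
          have := congrArg (fun b : B => (b : F0)) he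
          simpa using this
        push_cast
        field_simp
        rw [← hb] at he'
        linear_combination (-1 : F0) * he'
  · rintro ⟨⟨t, ⟨s0, t0, hs0, ht0, h0⟩, hgen⟩, hdom⟩
    refine ⟨⟨t0, hπ, ht0, ?_⟩, ?_⟩
    · intro x hx
      obtain ⟨c1, ⟨s1, a1, hs1, h1⟩, c2, ⟨s2, a2, hs2, h2⟩, hxc⟩ :=
        hgen (x : F0) (ssm_xf_coe_mem_max B 𝔫 hx)
      refine ⟨s0 * s1 * s2,
        ssm_xf_mul_not_mem B 𝔫 (ssm_xf_mul_not_mem B 𝔫 hs0 hs1) hs2, ?_⟩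
      rw [Ideal.mem_span_pair]
      refine ⟨s0 * s2 * a1, s1 * a2, Subtype.ext ?_⟩
      push_cast
      rw [← h0, ← h1, ← h2, hxc]
      ring
    · intro a b hab
      obtain ⟨e, he⟩ := Ideal.mem_span_singleton'.1 hab
      have he' : (a : F0) * (b : F0) = algebraMap A0 F0 π * (e : F0) := by
        have := congrArg (fun b : B => (b : F0)) he
        simp only [MulMemClass.coe_mul, ssm_xf_coe_algebraMap] at this
        rw [← this]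
        ring
      rcases hdom _ (ssm_xf_coe_mem_loc B 𝔫 a) _ (ssm_xf_coe_mem_loc B 𝔫 b)
        ⟨_, ssm_xf_coe_mem_loc B 𝔫 e, he'⟩ with ⟨c, ⟨sc, tc, hsc, hc⟩, hac⟩ | ⟨c, ⟨sc, tc, hsc, hc⟩, hbc⟩
      · refine ⟨sc, hsc, Or.inl ?_⟩
        rw [Ideal.mem_span_singleton']
        refine ⟨tc, Subtype.ext ?_⟩
        push_cast
        rw [← hc, hac]
        ring
      · refine ⟨sc, hsc, Or.inr ?_⟩
        rw [Ideal.mem_span_singleton']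
        refine ⟨tc, Subtype.ext ?_⟩
        push_cast
        rw [← hc, hbc]
        ring

/-- **`ss_NodeAt` only depends on the local ring.** -/
theorem ssm_xf_nodeAt_iff (π : A0) (σ : F0 ≃+* F0) (σ0 : A0 ≃+* A0) {B12 : Subalgebra A0 F0}
    (hle : B ≤ B12) (P1 P2 : Ideal B12) :
    ss_NodeAt π σ σ0 hle P1 P2 𝔫 ↔
      ssm_xf_Node (algebraMap A0 F0 π) σ σ0 (ssm_xf_loc B 𝔫) (ssm_xf_max B 𝔫) P1 P2 := by
  constructor
  · rintro ⟨u, v, a, huv, ha, hu, hu𝔫, hv𝔫, hgen, h1, h2⟩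
    refine ⟨u, v, a, huv, ha, hu, hu𝔫, hv𝔫, ?_, h1, h2⟩
    rintro z ⟨s0, t0, hs0, ht0, h0⟩
    obtain ⟨s, c1, c2, c3, hs, hz⟩ := hgen t0 ht0
    have hss0 := ssm_xf_mul_not_mem B 𝔫 hs hs0
    have hs0ne : (s0 : F0) ≠ 0 := ssm_xf_coe_ne_zero B 𝔫 hs0
    have hsne : (s : F0) ≠ 0 := ssm_xf_coe_ne_zero B 𝔫 hs
    refine ⟨_, ssm_xf_div_mem_loc B 𝔫 c1 hss0, _, ssm_xf_div_mem_loc B 𝔫 c2 hss0,
      _, ssm_xf_div_mem_loc B 𝔫 c3 hss0, ?_⟩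
    push_cast
    field_simp
    rw [← h0] at hz
    linear_combination hz
  · rintro ⟨u, v, a, huv, ha, hu, hu𝔫, hv𝔫, hgen, h1, h2⟩
    refine ⟨u, v, a, huv, ha, hu, hu𝔫, hv𝔫, ?_, h1, h2⟩
    intro z hz
    obtain ⟨c1, ⟨s1, a1, hs1, e1⟩, c2, ⟨s2, a2, hs2, e2⟩, c3, ⟨s3, a3, hs3, e3⟩, hzc⟩ :=
      hgen (z : F0) (ssm_xf_coe_mem_max B 𝔫 hz)
    refine ⟨s1 * s2 * s3, s2 * s3 * a1, s1 * s3 * a2, s1 * s2 * a3,
      ssm_xf_mul_not_mem B 𝔫 (ssm_xf_mul_not_mem B 𝔫 hs1 hs2) hs3, ?_⟩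
    push_cast
    rw [← e1, ← e2, ← e3, hzc]
    ring

end Intrinsic

section Units

variable {A0 : Type*} [CommRing A0] {F0 : Type v} [Field F0] [Algebra A0 F0]
variable (B : Subalgebra A0 F0) (𝔫 : Ideal B) [h𝔫 : 𝔫.IsPrime]

theorem ssm_xf_ne_zero_of_not_mem_max {a : F0} (ha' : a ∉ ssm_xf_max B 𝔫) : a ≠ 0 := by
  rintro rfl
  exact ha' (ssm_xf_max B 𝔫).zero_mem

/-- an element of the local ring outside the maximal ideal is a unit. -/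
theorem ssm_xf_inv_mem_loc_of_not_mem_max {a : F0} (ha : a ∈ ssm_xf_loc B 𝔫)
    (ha' : a ∉ ssm_xf_max B 𝔫) : a⁻¹ ∈ ssm_xf_loc B 𝔫 := by
  obtain ⟨s, t, hs, h⟩ := ha
  have ht : t ∉ 𝔫 := fun ht => ha' ⟨s, t, hs, ht, h⟩
  have ha0 : a ≠ 0 := ssm_xf_ne_zero_of_not_mem_max B 𝔫 ha'
  refine ⟨t, s, ht, ?_⟩
  rw [← h]
  field_simp

theorem ssm_xf_pow_sub_one_mem_max {u : F0} (hu : u ∈ ssm_xf_loc B 𝔫)
    (hu1 : u - 1 ∈ ssm_xf_max B 𝔫) (k : ℕ) : u ^ k - 1 ∈ ssm_xf_max B 𝔫 := by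
  induction k with
  | zero => simp
  | succ k ih =>
    have e : u ^ (k + 1) - 1 = u ^ k * (u - 1) + (u ^ k - 1) := by ring
    rw [e]
    exact (ssm_xf_max B 𝔫).add_mem
      (ssm_xf_mul_mem_max B 𝔫 ((ssm_xf_loc B 𝔫).pow_mem hu k) hu1) ih

/-- for a maximal ideal, every unit of the local ring is congruent to an element of `B`. -/
theorem ssm_xf_exists_inv_mod (h𝔫max : 𝔫.IsMaximal) {b : F0} (hb : b ∈ ssm_xf_loc B 𝔫)
    (hb' : b ∉ ssm_xf_max B 𝔫) : ∃ c : B, b * (c : F0) - 1 ∈ ssm_xf_max B 𝔫 := by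
  have hb0 : b ≠ 0 := ssm_xf_ne_zero_of_not_mem_max B 𝔫 hb'
  obtain ⟨s, t, hs, h⟩ := ssm_xf_inv_mem_loc_of_not_mem_max B 𝔫 hb hb'
  obtain ⟨s', i, hi, hsi⟩ := h𝔫max.exists_inv hs
  refine ⟨s' * t, ?_⟩
  have e : b * ((s' * t : B) : F0) - 1 = -(i : F0) := by
    have h1 : (s' : F0) * (s : F0) + (i : F0) = 1 := by
      have := congrArg (fun b : B => (b : F0)) hsi
      simpa using this
    push_cast
    rw [← h]
    field_simp
    linear_combination h1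
  rw [e]
  exact (ssm_xf_max B 𝔫).neg_mem (ssm_xf_coe_mem_max B 𝔫 hi)

end Units

section Pull

variable {A0 : Type*} [CommRing A0] {F0 : Type v} [Field F0] [Algebra A0 F0]
variable (B1 B2 : Subalgebra A0 F0) (𝔫 : Ideal B2) [h𝔫 : 𝔫.IsPrime]

/-- the centre on `B1` of the local ring of `B2` at `𝔫` (when `B1` lies in this local ring). -/
def ssm_xf_pull (hB : ∀ b : B1, (b : F0) ∈ ssm_xf_loc B2 𝔫) : Ideal B1 where
  carrier := {b | (b : F0) ∈ ssm_xf_max B2 𝔫}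
  add_mem' := by
    intro a b ha hb
    show ((a + b : B1) : F0) ∈ ssm_xf_max B2 𝔫
    push_cast
    exact (ssm_xf_max B2 𝔫).add_mem ha hb
  zero_mem' := by
    show ((0 : B1) : F0) ∈ ssm_xf_max B2 𝔫
    push_cast
    exact (ssm_xf_max B2 𝔫).zero_mem
  smul_mem' := by
    intro c b hb
    show ((c * b : B1) : F0) ∈ ssm_xf_max B2 𝔫
    push_cast
    exact ssm_xf_mul_mem_max B2 𝔫 (hB c) hb

variable (hB : ∀ b : B1, (b : F0) ∈ ssm_xf_loc B2 𝔫)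

theorem ssm_xf_mem_pull {b : B1} :
    b ∈ ssm_xf_pull B1 B2 𝔫 hB ↔ (b : F0) ∈ ssm_xf_max B2 𝔫 := Iff.rfl

theorem ssm_xf_pull_isPrime : (ssm_xf_pull B1 B2 𝔫 hB).IsPrime := by
  refine ⟨?_, ?_⟩
  · rw [Ideal.ne_top_iff_one, ssm_xf_mem_pull]
    push_cast
    exact ssm_xf_one_not_mem_max B2 𝔫
  · intro a b hab
    rw [ssm_xf_mem_pull] at hab
    push_cast at hab
    exact ssm_xf_max_prime B2 𝔫 (hB a) (hB b) hab

/-- **Same local ring**: if every element of `B2` becomes an element of `B1` after multiplication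
by an element of `B1` outside the centre, then `B1` at the centre and `B2` at `𝔫` have the same
local ring. -/
theorem ssm_xf_loc_max_eq
    (hclear : ∀ b : B2, ∃ e : B1, e ∉ ssm_xf_pull B1 B2 𝔫 hB ∧ (e : F0) * (b : F0) ∈ B1) :
    haveI := ssm_xf_pull_isPrime B1 B2 𝔫 hB
    ssm_xf_loc B1 (ssm_xf_pull B1 B2 𝔫 hB) = ssm_xf_loc B2 𝔫 ∧
      ssm_xf_max B1 (ssm_xf_pull B1 B2 𝔫 hB) = ssm_xf_max B2 𝔫 := by
  haveI := ssm_xf_pull_isPrime B1 B2 𝔫 hB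
  -- a common denominator for two elements
  have hclear2 : ∀ s t : B2, s ∉ 𝔫 → ∃ s1 t1 : B1, s1 ∉ ssm_xf_pull B1 B2 𝔫 hB ∧
      (∀ z : F0, (s : F0) * z = t → (s1 : F0) * z = t1) ∧ (t ∈ 𝔫 → t1 ∈ ssm_xf_pull B1 B2 𝔫 hB) := by
    intro s t hs
    obtain ⟨e1, he1, hm1⟩ := hclear s
    obtain ⟨e2, he2, hm2⟩ := hclear t
    have he : e1 * e2 ∉ ssm_xf_pull B1 B2 𝔫 hB := ssm_xf_mul_not_mem B1 _ he1 he2
    have heloc : ((e1 * e2 : B1) : F0) ∈ ssm_xf_loc B2 𝔫 := hB _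
    have hemax : ((e1 * e2 : B1) : F0) ∉ ssm_xf_max B2 𝔫 := he
    refine ⟨⟨((e1 * e2 : B1) : F0) * s, ?_⟩, ⟨((e1 * e2 : B1) : F0) * t, ?_⟩, ?_, ?_, ?_⟩
    · have : ((e1 * e2 : B1) : F0) * s = (e2 : F0) * ((e1 : F0) * (s : F0)) := by push_cast; ring
      rw [this]
      exact B1.mul_mem e2.2 hm1
    · have : ((e1 * e2 : B1) : F0) * t = (e1 : F0) * ((e2 : F0) * (t : F0)) := by push_cast; ring
      rw [this]
      exact B1.mul_mem e1.2 hm2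
    · intro hmem
      rw [ssm_xf_mem_pull] at hmem
      apply hs
      rw [← ssm_xf_coe_mem_max_iff]
      have hne := ssm_xf_ne_zero_of_not_mem_max B2 𝔫 hemax
      have hthis : ((e1 * e2 : B1) : F0)⁻¹ * (((e1 * e2 : B1) : F0) * (s : F0)) ∈
          ssm_xf_max B2 𝔫 :=
        ssm_xf_mul_mem_max B2 𝔫 (ssm_xf_inv_mem_loc_of_not_mem_max B2 𝔫 heloc hemax) hmem
      rwa [inv_mul_cancel_left₀ hne] at hthis
    · intro z hz
      show ((e1 * e2 : B1) : F0) * s * z = ((e1 * e2 : B1) : F0) * t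
      rw [mul_assoc, hz]
    · intro ht
      rw [ssm_xf_mem_pull]
      exact ssm_xf_mul_mem_max B2 𝔫 heloc (ssm_xf_coe_mem_max B2 𝔫 ht)
  have hsub : ∀ s t : B1, s ∉ ssm_xf_pull B1 B2 𝔫 hB → ∀ z : F0, (s : F0) * z = t →
      z = ((s : F0))⁻¹ * t ∧ ((s : F0))⁻¹ ∈ ssm_xf_loc B2 𝔫 := by
    intro s t hs z hz
    have hsmax : (s : F0) ∉ ssm_xf_max B2 𝔫 := hs
    have hne := ssm_xf_ne_zero_of_not_mem_max B2 𝔫 hsmax
    refine ⟨?_, ssm_xf_inv_mem_loc_of_not_mem_max B2 𝔫 (hB s) hsmax⟩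
    rw [← hz, inv_mul_cancel_left₀ hne]
  constructor
  · ext z
    constructor
    · rintro ⟨s, t, hs, hz⟩
      obtain ⟨e, hinv⟩ := hsub s t hs z hz
      rw [e]
      exact (ssm_xf_loc B2 𝔫).mul_mem hinv (hB t)
    · rintro ⟨s, t, hs, hz⟩
      obtain ⟨s1, t1, hs1, h1, -⟩ := hclear2 s t hs
      exact ⟨s1, t1, hs1, h1 z hz⟩
  · ext z
    constructor
    · rintro ⟨s, t, hs, ht, hz⟩
      obtain ⟨e, hinv⟩ := hsub s t hs z hz
      rw [e]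
      exact ssm_xf_mul_mem_max B2 𝔫 hinv ht
    · rintro ⟨s, t, hs, ht, hz⟩
      obtain ⟨s1, t1, hs1, h1, h2⟩ := hclear2 s t hs
      exact ⟨s1, t1, hs1, h2 ht, h1 z hz⟩

/-- **The centre of a closed point is a closed point**, if the denominators are invertible modulo
the centre. -/
theorem ssm_xf_pull_isMaximal (h𝔫max : 𝔫.IsMaximal)
    (hclear : ∀ b : B2, ∃ e p : B1, (e : F0) * (p : F0) - 1 ∈ ssm_xf_max B2 𝔫 ∧
      (e : F0) * (b : F0) ∈ B1) :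
    (ssm_xf_pull B1 B2 𝔫 hB).IsMaximal := by
  have hpr := ssm_xf_pull_isPrime B1 B2 𝔫 hB
  rw [Ideal.isMaximal_iff]
  refine ⟨(Ideal.ne_top_iff_one _).1 hpr.ne_top, ?_⟩
  intro J b hle hb hbJ
  have hbmax : (b : F0) ∉ ssm_xf_max B2 𝔫 := hb
  obtain ⟨c2, hc2⟩ := ssm_xf_exists_inv_mod B2 𝔫 h𝔫max (hB b) hbmax
  obtain ⟨e, p, hep, hmem⟩ := hclear c2
  -- `c := p * (e * c2) ∈ B1` is an inverse of `b` modulo the centre
  set c : B1 := p * ⟨(e : F0) * (c2 : F0), hmem⟩ with hc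
  have hbc : b * c - 1 ∈ ssm_xf_pull B1 B2 𝔫 hB := by
    rw [ssm_xf_mem_pull]
    have e1 : ((b * c - 1 : B1) : F0) =
        ((e : F0) * (p : F0) - 1) * ((b : F0) * (c2 : F0)) + ((b : F0) * (c2 : F0) - 1) := by
      rw [hc]
      push_cast
      ring
    rw [e1]
    exact (ssm_xf_max B2 𝔫).add_mem
      (ssm_xf_mul_mem_max' B2 𝔫 hep
        ((ssm_xf_loc B2 𝔫).mul_mem (hB b) (ssm_xf_coe_mem_loc B2 𝔫 c2))) hc2
  have h1 : (1 : B1) = b * c - (b * c - 1) := by ring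
  rw [h1]
  exact J.sub_mem (J.mul_mem_right _ hbJ) (hle hbc)

end Pull

section Poly

/-- a non-zero-divisor modulo a prime `𝔭` (over a maximal ideal `(π)` of the base) which is a root
modulo `𝔭` of a monic polynomial is invertible modulo `𝔭`. -/
theorem ssm_xf_inv_of_monic {A0 S : Type*} [CommRing A0] [CommRing S] [Algebra A0 S] (π : A0)
    (hπmax : (Ideal.span {π} : Ideal A0).IsMaximal) (𝔭 : Ideal S) [h𝔭 : 𝔭.IsPrime]
    (hπ : algebraMap A0 S π ∈ 𝔭) (x : S) (hx : x ∉ 𝔭) :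
    ∀ (n : ℕ) (h : A0[X]), h.natDegree = n → h.Monic → aeval x h ∈ 𝔭 →
      ∃ p : S, x * p - 1 ∈ 𝔭 := by
  have hspan : ∀ i ∈ (Ideal.span {π} : Ideal A0), algebraMap A0 S i ∈ 𝔭 := by
    intro i hi
    obtain ⟨c, rfl⟩ := Ideal.mem_span_singleton'.1 hi
    rw [map_mul]
    exact 𝔭.mul_mem_left _ hπ
  intro n
  induction n with
  | zero =>
    intro h hn hm hh
    rw [Polynomial.eq_one_of_monic_natDegree_zero hm hn, map_one] at hh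
    exact absurd hh ((Ideal.ne_top_iff_one 𝔭).1 h𝔭.ne_top)
  | succ n ih =>
    intro h hn hm hh
    have hdec : aeval x h = aeval x h.divX * x + algebraMap A0 S (h.coeff 0) := by
      conv_lhs => rw [← Polynomial.divX_mul_X_add h]
      simp
    by_cases ha : h.coeff 0 ∈ (Ideal.span {π} : Ideal A0)
    · have h1 : aeval x h.divX * x ∈ 𝔭 := by
        have := 𝔭.sub_mem hh (hspan _ ha)
        rwa [hdec, add_sub_cancel_right] at this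
      have h2 : aeval x h.divX ∈ 𝔭 := (h𝔭.mem_or_mem h1).resolve_right hx
      have hdeg : h.divX.natDegree = n := by
        rw [Polynomial.natDegree_divX_eq_natDegree_tsub_one, hn]
        rfl
      have hmon : h.divX.Monic := by
        rw [Polynomial.Monic, Polynomial.leadingCoeff, hdeg, Polynomial.coeff_divX, ← hn]
        exact hm
      exact ih h.divX hdeg hmon h2
    · obtain ⟨a', i, hi, hai⟩ := hπmax.exists_inv ha
      refine ⟨-(algebraMap A0 S a') * aeval x h.divX, ?_⟩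
      have e : x * (-(algebraMap A0 S a') * aeval x h.divX) - 1 =
          -(algebraMap A0 S a') * aeval x h + (-(algebraMap A0 S i)) := by
        have h1 : algebraMap A0 S a' * algebraMap A0 S (h.coeff 0) + algebraMap A0 S i = 1 := by
          rw [← map_mul, ← map_add, hai, map_one]
        rw [hdec]
        linear_combination (1 : S) * h1
      rw [e]
      exact 𝔭.add_mem (𝔭.mul_mem_left _ hh) (𝔭.neg_mem (hspan _ hi))

variable {A0 : Type*} [CommRing A0] {F0 : Type v} [Field F0] [Algebra A0 F0]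

/-- if `B2` is integral over `A0[y]` and `y` does not vanish at the closed point `𝔫` of `B2`, then
`y` is invertible modulo `𝔫` with an inverse in `A0[y]`. -/
theorem ssm_xf_exists_poly (B2 : Subalgebra A0 F0) (𝔫 : Ideal B2) (h𝔫 : 𝔫.IsMaximal) (y : F0)
    (hy2 : y ∈ B2) (hint2 : ∀ b ∈ B2, IsIntegral (Algebra.adjoin A0 ({y} : Set F0)) b)
    (hy : (⟨y, hy2⟩ : B2) ∉ 𝔫) :
    ∃ (R : A0[X]) (i : B2), i ∈ 𝔫 ∧ (i : F0) = 1 - y * aeval y R := by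
  have hle : Algebra.adjoin A0 ({y} : Set F0) ≤ B2 :=
    Algebra.adjoin_le (by simpa using hy2)
  let f : Algebra.adjoin A0 ({y} : Set F0) →+* B2 := (Subalgebra.inclusion hle).toRingHom
  have hfcoe : ∀ c : Algebra.adjoin A0 ({y} : Set F0), ((f c : B2) : F0) = (c : F0) := fun _ => rfl
  have hf : f.IsIntegral := by
    intro b
    obtain ⟨p, hp, hpe⟩ := hint2 b b.2
    refine ⟨p, hp, Subtype.ext ?_⟩
    have h1 := Polynomial.hom_eval₂ p f (B2.val : B2 →+* F0) b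
    have h2 : ((B2.val : B2 →+* F0).comp f) = algebraMap (Algebra.adjoin A0 ({y} : Set F0)) F0 :=
      RingHom.ext fun c => rfl
    rw [h2] at h1
    have h3 : ((Polynomial.eval₂ f b p : B2) : F0) = 0 := by
      have h4 : (B2.val : B2 →+* F0) (Polynomial.eval₂ f b p) = 0 := by
        rw [h1]
        exact hpe
      exact h4
    rw [h3]
    rfl
  haveI := h𝔫
  have hmax : (𝔫.comap f).IsMaximal :=
    Ideal.isMaximal_comap_of_isIntegral_of_isMaximal' f hf 𝔫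
  have hynot : (⟨y, Algebra.subset_adjoin (Set.mem_singleton y)⟩ :
      Algebra.adjoin A0 ({y} : Set F0)) ∉ 𝔫.comap f := by
    intro hmem
    apply hy
    have : f ⟨y, Algebra.subset_adjoin (Set.mem_singleton y)⟩ = (⟨y, hy2⟩ : B2) :=
      Subtype.ext rfl
    rw [← this]
    exact hmem
  obtain ⟨r, i, hi, hri⟩ := hmax.exists_inv hynot
  have hr : (r : F0) ∈ (Polynomial.aeval (R := A0) y).range := by
    rw [← Algebra.adjoin_singleton_eq_range_aeval]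
    exact r.2
  obtain ⟨R, hR⟩ := hr
  refine ⟨R, f i, hi, ?_⟩
  rw [hfcoe]
  have h1 : (r : F0) * y + (i : F0) = 1 := by
    have := congrArg (fun c : Algebra.adjoin A0 ({y} : Set F0) => (c : F0)) hri
    simpa using this
  have hR' : aeval y R = (r : F0) := hR
  rw [hR']
  linear_combination h1

end Poly

section Main

variable {A0 : Type*} [CommRing A0] {F0 : Type v} [Field F0] [Algebra A0 F0]

/-- **[XFER], abstract form.** `B₁, B₂ ≤ B₁₂` with `x ∈ B₁`, `x⁻¹ ∈ B₂`, `B₁₂ = B₁[1/x] = B₂[x]`, `B₂`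
integral over `A0[x⁻¹]`: a closed point of the special fibre of `B₂` where `x⁻¹` does not vanish is
a smooth point or an ordinary double point as soon as all the closed points of the special fibre
of `B₁` are. -/
theorem ssm_xf_pts2_abs (π : A0) (hπmax : (Ideal.span {π} : Ideal A0).IsMaximal)
    (σ : F0 ≃+* F0) (σ0 : A0 ≃+* A0) (B1 B2 B12 : Subalgebra A0 F0) (h1 : B1 ≤ B12)
    (h2 : B2 ≤ B12) (x : F0) (hx0 : x ≠ 0) (hx1 : x ∈ B1) (hx2 : x⁻¹ ∈ B2)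
    (hc1 : ∀ z ∈ B12, ∃ k : ℕ, x ^ k * z ∈ B1) (hc2 : ∀ z ∈ B12, ∃ k : ℕ, x⁻¹ ^ k * z ∈ B2)
    (hint2 : ∀ b ∈ B2, IsIntegral (Algebra.adjoin A0 ({x⁻¹} : Set F0)) b) (P1 P2 : Ideal B12)
    (hpts1 : ∀ 𝔫 : Ideal B1, 𝔫.IsMaximal → algebraMap A0 B1 π ∈ 𝔫 →
      ss_SmoothAt π B1 𝔫 ∨ ss_NodeAt π σ σ0 h1 P1 P2 𝔫)
    (𝔫 : Ideal B2) (h𝔫 : 𝔫.IsMaximal) (hπ : algebraMap A0 B2 π ∈ 𝔫)
    (hy : (⟨x⁻¹, hx2⟩ : B2) ∉ 𝔫) :
    ss_SmoothAt π B2 𝔫 ∨ ss_NodeAt π σ σ0 h2 P1 P2 𝔫 := by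
  haveI hpr : 𝔫.IsPrime := h𝔫.isPrime
  have hxy : x * x⁻¹ = 1 := mul_inv_cancel₀ hx0
  -- `B1` lies in the local ring of `B2` at `𝔫`
  have hypow : ∀ k : ℕ, (⟨x⁻¹, hx2⟩ : B2) ^ k ∉ 𝔫 := fun k hk => hy (hpr.mem_of_pow_mem k hk)
  have hB : ∀ b : B1, (b : F0) ∈ ssm_xf_loc B2 𝔫 := by
    intro b
    obtain ⟨k, hk⟩ := hc2 (b : F0) (h1 b.2)
    exact ⟨⟨x⁻¹, hx2⟩ ^ k, ⟨_, hk⟩, hypow k, by push_cast; rfl⟩
  haveI hpr1 : (ssm_xf_pull B1 B2 𝔫 hB).IsPrime := ssm_xf_pull_isPrime B1 B2 𝔫 hB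
  have hxloc : x ∈ ssm_xf_loc B2 𝔫 := hB ⟨x, hx1⟩
  have hyloc : x⁻¹ ∈ ssm_xf_loc B2 𝔫 := ssm_xf_coe_mem_loc B2 𝔫 ⟨x⁻¹, hx2⟩
  have hxnot : (⟨x, hx1⟩ : B1) ∉ ssm_xf_pull B1 B2 𝔫 hB := by
    intro hmem
    have : x * x⁻¹ ∈ ssm_xf_max B2 𝔫 := ssm_xf_mul_mem_max' B2 𝔫 hmem hyloc
    rw [hxy] at this
    exact ssm_xf_one_not_mem_max B2 𝔫 this
  have hπ1 : algebraMap A0 B1 π ∈ ssm_xf_pull B1 B2 𝔫 hB := by
    rw [ssm_xf_mem_pull]
    exact ssm_xf_coe_mem_max B2 𝔫 hπ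
  -- `x` is invertible modulo the centre
  haveI : Nontrivial A0 :=
    ⟨⟨0, 1, fun h => (Ideal.ne_top_iff_one _).1 hπmax.ne_top (h ▸ Ideal.zero_mem _)⟩⟩
  obtain ⟨R, i, hi, hiR⟩ := ssm_xf_exists_poly B2 𝔫 h𝔫 x⁻¹ hx2 hint2 hy
  have hcoeff : (1 - X * R : A0[X]).coeff 0 = 1 := by simp
  have hmonic : (1 - X * R : A0[X]).reverse.Monic := by
    have h0 : (1 - X * R : A0[X]).natTrailingDegree = 0 :=
      Nat.le_zero.1 (Polynomial.natTrailingDegree_le_of_ne_zero (by rw [hcoeff]; exact one_ne_zero))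
    rw [Polynomial.Monic, Polynomial.reverse_leadingCoeff, Polynomial.trailingCoeff, h0, hcoeff]
  have hev : aeval x (1 - X * R : A0[X]).reverse =
      aeval x⁻¹ (1 - X * R : A0[X]) * x ^ (1 - X * R : A0[X]).natDegree := by
    letI : Invertible (x⁻¹ : F0) := ⟨x, hxy, inv_mul_cancel₀ hx0⟩
    have hrev := Polynomial.eval₂_reverse_mul_pow (algebraMap A0 F0) (x⁻¹ : F0) (1 - X * R : A0[X])
    have hinv : ⅟(x⁻¹ : F0) = x := rfl
    rw [hinv] at hrev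
    rw [Polynomial.aeval_def, Polynomial.aeval_def, ← hrev, mul_assoc, ← mul_pow,
      inv_mul_cancel₀ hx0, one_pow, mul_one]
  have haev : aeval x⁻¹ (1 - X * R : A0[X]) = (i : F0) := by
    rw [hiR]
    simp
  have hmem : aeval (⟨x, hx1⟩ : B1) (1 - X * R : A0[X]).reverse ∈ ssm_xf_pull B1 B2 𝔫 hB := by
    rw [ssm_xf_mem_pull, Polynomial.aeval_subalgebra_coe]
    show aeval x (1 - X * R : A0[X]).reverse ∈ _
    rw [hev, haev]
    exact ssm_xf_mul_mem_max' B2 𝔫 (ssm_xf_coe_mem_max B2 𝔫 hi)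
      ((ssm_xf_loc B2 𝔫).pow_mem hxloc _)
  obtain ⟨p0, hp0⟩ := ssm_xf_inv_of_monic π hπmax (ssm_xf_pull B1 B2 𝔫 hB) hπ1 ⟨x, hx1⟩ hxnot _
    (1 - X * R : A0[X]).reverse rfl hmonic hmem
  have hp0' : x * (p0 : F0) - 1 ∈ ssm_xf_max B2 𝔫 := by
    have := (ssm_xf_mem_pull B1 B2 𝔫 hB).1 hp0
    push_cast at this
    exact this
  -- the centre is a closed point
  have hclearA : ∀ b : B2, ∃ e p : B1, (e : F0) * (p : F0) - 1 ∈ ssm_xf_max B2 𝔫 ∧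
      (e : F0) * (b : F0) ∈ B1 := by
    intro b
    obtain ⟨k, hk⟩ := hc1 (b : F0) (h2 b.2)
    refine ⟨⟨x, hx1⟩ ^ k, p0 ^ k, ?_, by push_cast; exact hk⟩
    push_cast
    rw [← mul_pow]
    exact ssm_xf_pow_sub_one_mem_max B2 𝔫 ((ssm_xf_loc B2 𝔫).mul_mem hxloc (hB p0)) hp0' k
  have hmax1 : (ssm_xf_pull B1 B2 𝔫 hB).IsMaximal :=
    ssm_xf_pull_isMaximal B1 B2 𝔫 hB h𝔫 hclearA
  -- the two local rings coincide
  have hclearB : ∀ b : B2, ∃ e : B1, e ∉ ssm_xf_pull B1 B2 𝔫 hB ∧ (e : F0) * (b : F0) ∈ B1 := by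
    intro b
    obtain ⟨k, hk⟩ := hc1 (b : F0) (h2 b.2)
    exact ⟨⟨x, hx1⟩ ^ k, fun hmem => hxnot (hpr1.mem_of_pow_mem k hmem), by push_cast; exact hk⟩
  obtain ⟨hloc, hmaxeq⟩ := ssm_xf_loc_max_eq B1 B2 𝔫 hB hclearB
  rcases hpts1 _ hmax1 hπ1 with hs | hn
  · left
    rw [ssm_xf_smoothAt_iff B2 𝔫 π hπ, ← hloc, ← hmaxeq]
    exact (ssm_xf_smoothAt_iff B1 _ π hπ1).1 hs
  · right
    rw [ssm_xf_nodeAt_iff B2 𝔫 π σ σ0 h2 P1 P2, ← hloc, ← hmaxeq]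
    exact (ssm_xf_nodeAt_iff B1 _ π σ σ0 h1 P1 P2).1 hn

/-- **[XFER]** for the three charts `fc_chart A0 {x}, {x⁻¹}, {x, x⁻¹}`: the points of the special
fibre of the chart at infinity where `x⁻¹` does not vanish. -/
theorem ssm_xf_pts2 (π : A0) (hπmax : (Ideal.span {π} : Ideal A0).IsMaximal)
    (σ : F0 ≃+* F0) (σ0 : A0 ≃+* A0) (x : F0) (hx0 : x ≠ 0)
    (P1 P2 : Ideal (fc_chart A0 ({x, x⁻¹} : Set F0)))
    (hpts1 : ∀ 𝔫 : Ideal (fc_chart A0 ({x} : Set F0)), 𝔫.IsMaximal →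
      algebraMap A0 (fc_chart A0 ({x} : Set F0)) π ∈ 𝔫 →
      ss_SmoothAt π (fc_chart A0 ({x} : Set F0)) 𝔫 ∨ ss_NodeAt π σ σ0 (fc_chart1_le x) P1 P2 𝔫)
    (𝔫 : Ideal (fc_chart A0 ({x⁻¹} : Set F0))) (h𝔫 : 𝔫.IsMaximal)
    (hπ : algebraMap A0 (fc_chart A0 ({x⁻¹} : Set F0)) π ∈ 𝔫)
    (hy : (⟨x⁻¹, fc_x_mem_chart x⁻¹⟩ : fc_chart A0 ({x⁻¹} : Set F0)) ∉ 𝔫) :
    ss_SmoothAt π (fc_chart A0 ({x⁻¹} : Set F0)) 𝔫 ∨
      ss_NodeAt π σ σ0 (fc_chart2_le x) P1 P2 𝔫 :=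
  ssm_xf_pts2_abs π hπmax σ σ0 _ _ _ (fc_chart1_le x) (fc_chart2_le x) x hx0 (fc_x_mem_chart x)
    (fc_x_mem_chart x⁻¹) (fun _ hz => fc_clear1 hx0 hz) (fun _ hz => fc_clear2 hx0 hz)
    (fun _ hb => fc_mem_chart.1 hb) P1 P2 hpts1 𝔫 h𝔫 hπ hy

end Main

end Fermat.Agent.SS
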