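/-
SS [M] leaf [CC-H] COORDINATE CHANGE AT LEVEL `N'` (helper29), prefix `ssm_cc_`.

For the Hesse twin (`q = 2`) the model is built with the coordinate `x = μ - 1` (option M of
#1936/#1951: the chart `{μ⁻¹}` is not `W`-stable because `μ = 0` is not a cusp).  S18 gives the
regularity `jt_RegAt` of the level-`N'` charts `fc_chart O {μ'}` and `fc_chart O {μ'⁻¹}`; this file
transports it to the charts `fc_chart O {μ' - 1}` and `fc_chart O {(μ' - 1)⁻¹}`:

* `ssm_cc_chart_le`, `ssm_cc_chart_eq`  : charts only depend on the generated subalgebra;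
  `ssm_cc_chart_sub_one : fc_chart A0 {m - 1} = fc_chart A0 {m}`.
* `ssm_cc_regAt_of_eq`, `ssm_cc_regAt_sub_one` : `jt_RegAt` on `{m}` ⟹ `jt_RegAt` on `{m - 1}`.
* `ssm_cc_regAt_inv` : `jt_RegAt` on `{m}` and on `{m⁻¹}` ⟹ `jt_RegAt` on `{(m - 1)⁻¹}`
  (two applications of helper23's `ssm_xf_pts2_abs`, used as a black box with `P1 := ⊤`, for which
  `ss_NodeAt` is absurd: the points with `(m-1)⁻¹ ≠ 0` come from the chart `{m}` via `x := m - 1`,
  the points with `(m-1)⁻¹ = 0` from the chart `{m⁻¹}` via `x := 1 - m⁻¹`, `x⁻¹ = 1 + (m-1)⁻¹`).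
* `ssm_cc_prime`, `ssm_cc_dedekind` (function-field form): `π` is a prime element of the three
  charts of `x = m - 1` (`cn_prime_funField`) and the two charts are Dedekind modulo `π`
  (`rrd_dedekind_of_regAt`).
-/
import Mathlib
import Fermat.Agent.SS.Model.ChartChange
import Fermat.Agent.JT3.Seams
import Fermat.Agent.JT3.PlaceMap.RegDedekind

set_option autoImplicit false

namespace Fermat.Agent.SS

open Fermat.Agent.JT3 Polynomial IntermediateField

universe v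

section Abstract

variable {A0 : Type*} [CommRing A0] {F0 : Type v} [Field F0] [Algebra A0 F0]

/-- charts are monotone in the generated subalgebra. -/
theorem ssm_cc_chart_le {S T : Set F0} (h : S ⊆ (Algebra.adjoin A0 T : Set F0)) :
    fc_chart A0 S ≤ fc_chart A0 T := by
  have hle : Algebra.adjoin A0 S ≤ Algebra.adjoin A0 T := Algebra.adjoin_le h
  intro z hz
  rw [fc_mem_chart] at hz ⊢
  exact IsIntegral.map_of_comp_eq (R := Algebra.adjoin A0 S) (S := F0)
    (T := Algebra.adjoin A0 T) (U := F0)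
    (Subalgebra.inclusion hle).toRingHom (RingHom.id F0) (by ext r; rfl) hz

/-- charts only depend on the generated subalgebra. -/
theorem ssm_cc_chart_eq {S T : Set F0} (h1 : S ⊆ (Algebra.adjoin A0 T : Set F0))
    (h2 : T ⊆ (Algebra.adjoin A0 S : Set F0)) : fc_chart A0 S = fc_chart A0 T :=
  le_antisymm (ssm_cc_chart_le h1) (ssm_cc_chart_le h2)

theorem ssm_cc_singleton_subset {a : F0} {T : Set F0} (h : a ∈ Algebra.adjoin A0 T) :
    ({a} : Set F0) ⊆ (Algebra.adjoin A0 T : Set F0) := by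
  intro z hz
  rw [Set.mem_singleton_iff.1 hz]
  exact h

/-- translation of the coordinate does not change the chart. -/
theorem ssm_cc_chart_sub_one (m : F0) :
    fc_chart A0 ({m - 1} : Set F0) = fc_chart A0 ({m} : Set F0) := by
  refine ssm_cc_chart_eq (ssm_cc_singleton_subset ?_) (ssm_cc_singleton_subset ?_)
  · exact Subalgebra.sub_mem _ (Algebra.subset_adjoin rfl) (Subalgebra.one_mem _)
  · have h := Subalgebra.add_mem (Algebra.adjoin A0 ({m - 1} : Set F0))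
      (Algebra.subset_adjoin rfl) (Subalgebra.one_mem _)
    rwa [sub_add_cancel] at h

/-- `jt_RegAt` transports along an equality of subalgebras. -/
theorem ssm_cc_regAt_of_eq {B B' : Subalgebra A0 F0} (h : B = B') (π : A0)
    (hr : jt_RegAt B (algebraMap A0 B π)) : jt_RegAt B' (algebraMap A0 B' π) := by
  subst h
  exact hr

/-- `Prime π` transports along an equality of subalgebras. -/
theorem ssm_cc_prime_of_eq {B B' : Subalgebra A0 F0} (h : B = B') (π : A0)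
    (hr : Prime (algebraMap A0 B π)) : Prime (algebraMap A0 B' π) := by
  subst h
  exact hr

/-- **(i)** regularity of the chart `{m}` gives regularity of the chart `{m - 1}` (same chart). -/
theorem ssm_cc_regAt_sub_one (π : A0) (m : F0)
    (h1 : jt_RegAt (fc_chart A0 ({m} : Set F0)) (algebraMap A0 (fc_chart A0 ({m} : Set F0)) π)) :
    jt_RegAt (fc_chart A0 ({m - 1} : Set F0))
      (algebraMap A0 (fc_chart A0 ({m - 1} : Set F0)) π) :=
  ssm_cc_regAt_of_eq (ssm_cc_chart_sub_one m).symm π h1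

/-- `ss_NodeAt` is absurd for the improper component `P1 = ⊤`. -/
theorem ssm_cc_not_nodeAt_top (π : A0) (σ : F0 ≃+* F0) (σ0 : A0 ≃+* A0)
    {B B12 : Subalgebra A0 F0} (hle : B ≤ B12) (P2 : Ideal B12) (𝔫 : Ideal B) :
    ¬ ss_NodeAt π σ σ0 hle ⊤ P2 𝔫 := by
  rintro ⟨u, v, a, -, -, -, -, -, -, ⟨s, t, hs, -⟩, -⟩
  exact hs Submodule.mem_top

/-- **(ii)** regularity of the charts `{m}` and `{m⁻¹}` gives regularity of the chart
`{(m - 1)⁻¹}`. -/
theorem ssm_cc_regAt_inv (π : A0) (hπmax : (Ideal.span {π} : Ideal A0).IsMaximal) (m : F0)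
    (hm : m ≠ 0) (hm1 : m - 1 ≠ 0)
    (h1 : jt_RegAt (fc_chart A0 ({m} : Set F0)) (algebraMap A0 (fc_chart A0 ({m} : Set F0)) π))
    (h2 : jt_RegAt (fc_chart A0 ({m⁻¹} : Set F0))
      (algebraMap A0 (fc_chart A0 ({m⁻¹} : Set F0)) π)) :
    jt_RegAt (fc_chart A0 ({(m - 1)⁻¹} : Set F0))
      (algebraMap A0 (fc_chart A0 ({(m - 1)⁻¹} : Set F0)) π) := by
  intro 𝔫 h𝔫 hπ
  by_cases hy : (⟨(m - 1)⁻¹, fc_x_mem_chart (m - 1)⁻¹⟩ : fc_chart A0 ({(m - 1)⁻¹} : Set F0)) ∈ 𝔫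
  · -- the points at infinity: `x := 1 - m⁻¹`, `x⁻¹ = 1 + (m - 1)⁻¹`, from the chart `{m⁻¹}`
    have hxinv : (1 - m⁻¹)⁻¹ = 1 + (m - 1)⁻¹ := by
      apply inv_eq_of_mul_eq_one_right
      field_simp
      ring
    have hx0 : (1 - m⁻¹ : F0) ≠ 0 := by
      intro h
      apply hm1
      have : m * (1 - m⁻¹) = m - 1 := by
        rw [mul_sub, mul_one, mul_inv_cancel₀ hm]
      rw [← this, h, mul_zero]
    have hyx : (m - 1)⁻¹ = (1 - m⁻¹)⁻¹ - 1 := by rw [hxinv]; ring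
    -- memberships in the generated subalgebras
    have ha1 : (1 - m⁻¹ : F0) ∈ Algebra.adjoin A0 ({m⁻¹} : Set F0) :=
      Subalgebra.sub_mem _ (Subalgebra.one_mem _) (Algebra.subset_adjoin rfl)
    have ha2 : (1 - m⁻¹ : F0)⁻¹ ∈ Algebra.adjoin A0 ({(m - 1)⁻¹} : Set F0) := by
      rw [hxinv]
      exact Subalgebra.add_mem _ (Subalgebra.one_mem _) (Algebra.subset_adjoin rfl)
    have ha3 : m⁻¹ ∈ Algebra.adjoin A0 ({1 - m⁻¹, (1 - m⁻¹)⁻¹} : Set F0) := by
      have h := Subalgebra.sub_mem (Algebra.adjoin A0 ({1 - m⁻¹, (1 - m⁻¹)⁻¹} : Set F0))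
        (Subalgebra.one_mem _) (Algebra.subset_adjoin (Set.mem_insert _ _))
      rwa [sub_sub_cancel] at h
    have ha4 : (m - 1)⁻¹ ∈ Algebra.adjoin A0 ({1 - m⁻¹, (1 - m⁻¹)⁻¹} : Set F0) := by
      rw [hyx]
      exact Subalgebra.sub_mem _
        (Algebra.subset_adjoin (Set.mem_insert_of_mem _ rfl)) (Subalgebra.one_mem _)
    have ha5 : (m - 1)⁻¹ ∈ Algebra.adjoin A0 ({(1 - m⁻¹)⁻¹} : Set F0) := by
      rw [hyx]
      exact Subalgebra.sub_mem _ (Algebra.subset_adjoin rfl) (Subalgebra.one_mem _)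
    have hx2 : (1 - m⁻¹ : F0)⁻¹ ∈ fc_chart A0 ({(m - 1)⁻¹} : Set F0) :=
      fc_adjoin_le_chart _ ha2
    have hnot : (⟨(1 - m⁻¹)⁻¹, hx2⟩ : fc_chart A0 ({(m - 1)⁻¹} : Set F0)) ∉ 𝔫 := by
      intro hmem
      have h1' : (1 : fc_chart A0 ({(m - 1)⁻¹} : Set F0)) =
          ⟨(1 - m⁻¹)⁻¹, hx2⟩ - ⟨(m - 1)⁻¹, fc_x_mem_chart (m - 1)⁻¹⟩ := by
        apply Subtype.ext
        push_cast
        rw [hxinv]; ring
      exact (Ideal.ne_top_iff_one 𝔫).1 h𝔫.ne_top (h1' ▸ 𝔫.sub_mem hmem hy)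
    have key := ssm_xf_pts2_abs π hπmax (RingEquiv.refl F0) (RingEquiv.refl A0)
      (fc_chart A0 ({m⁻¹} : Set F0)) (fc_chart A0 ({(m - 1)⁻¹} : Set F0))
      (fc_chart A0 ({1 - m⁻¹, (1 - m⁻¹)⁻¹} : Set F0))
      (ssm_cc_chart_le (ssm_cc_singleton_subset ha3))
      (ssm_cc_chart_le (ssm_cc_singleton_subset ha4)) (1 - m⁻¹) hx0
      (fc_adjoin_le_chart _ ha1) hx2
      (fun z hz => by
        obtain ⟨k, hk⟩ := fc_clear1 hx0 hz
        exact ⟨k, ssm_cc_chart_le (ssm_cc_singleton_subset ha1) hk⟩)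
      (fun z hz => by
        obtain ⟨k, hk⟩ := fc_clear2 hx0 hz
        exact ⟨k, ssm_cc_chart_le (ssm_cc_singleton_subset ha2) hk⟩)
      (fun b hb => fc_mem_chart.1 (ssm_cc_chart_le (ssm_cc_singleton_subset ha5) hb))
      ⊤ ⊤ (fun 𝔫' h' hπ' => Or.inl (h2 𝔫' h' hπ')) 𝔫 h𝔫 hπ hnot
    rcases key with hs | hn
    · exact hs
    · exact absurd hn (ssm_cc_not_nodeAt_top π _ _ _ _ _)
  · -- the finite points: `x := m - 1`, `x⁻¹ = (m - 1)⁻¹`, from the chart `{m}`
    have ha1 : m - 1 ∈ Algebra.adjoin A0 ({m} : Set F0) :=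
      Subalgebra.sub_mem _ (Algebra.subset_adjoin rfl) (Subalgebra.one_mem _)
    have ha3 : m ∈ Algebra.adjoin A0 ({m - 1, (m - 1)⁻¹} : Set F0) := by
      have h := Subalgebra.add_mem (Algebra.adjoin A0 ({m - 1, (m - 1)⁻¹} : Set F0))
        (Algebra.subset_adjoin (Set.mem_insert _ _)) (Subalgebra.one_mem _)
      rwa [sub_add_cancel] at h
    have key := ssm_xf_pts2_abs π hπmax (RingEquiv.refl F0) (RingEquiv.refl A0)
      (fc_chart A0 ({m} : Set F0)) (fc_chart A0 ({(m - 1)⁻¹} : Set F0))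
      (fc_chart A0 ({m - 1, (m - 1)⁻¹} : Set F0))
      (ssm_cc_chart_le (ssm_cc_singleton_subset ha3)) (fc_chart2_le (m - 1)) (m - 1) hm1
      (fc_adjoin_le_chart _ ha1) (fc_x_mem_chart (m - 1)⁻¹)
      (fun z hz => by
        obtain ⟨k, hk⟩ := fc_clear1 hm1 hz
        exact ⟨k, ssm_cc_chart_le (ssm_cc_singleton_subset ha1) hk⟩)
      (fun z hz => fc_clear2 hm1 hz)
      (fun b hb => fc_mem_chart.1 hb)
      ⊤ ⊤ (fun 𝔫' h' hπ' => Or.inl (h1 𝔫' h' hπ')) 𝔫 h𝔫 hπ hy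
    rcases key with hs | hn
    · exact hs
    · exact absurd hn (ssm_cc_not_nodeAt_top π _ _ _ _ _)

end Abstract

section FunField

variable {A0 K0 : Type*} {F0 : Type v} [CommRing A0] [IsDomain A0] [IsDiscreteValuationRing A0]
  [Field K0] [Field F0] [Algebra A0 K0] [IsFractionRing A0 K0] [Algebra K0 F0] [Algebra A0 F0]
  [IsScalarTower A0 K0 F0]

omit [IsDomain A0] [IsDiscreteValuationRing A0] [IsFractionRing A0 K0] [Algebra A0 F0]
  [IsScalarTower A0 K0 F0] [Algebra A0 K0] in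
theorem ssm_cc_transcendental_sub_one {m : F0} (hx : Transcendental K0 m) :
    Transcendental K0 (m - 1) := by
  intro h
  apply hx
  have h2 : IsAlgebraic K0 ((m - 1) + 1) := h.add isAlgebraic_one
  rwa [sub_add_cancel] at h2

omit [IsDomain A0] [IsDiscreteValuationRing A0] [IsFractionRing A0 K0] [Algebra A0 F0]
  [IsScalarTower A0 K0 F0] [Algebra A0 K0] in
theorem ssm_cc_adjoin_sub_one (m : F0) : K0⟮m - 1⟯ = K0⟮m⟯ := by
  apply le_antisymm
  · rw [IntermediateField.adjoin_simple_le_iff]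
    exact sub_mem (IntermediateField.mem_adjoin_simple_self K0 m) (one_mem _)
  · rw [IntermediateField.adjoin_simple_le_iff]
    have h := add_mem (IntermediateField.mem_adjoin_simple_self K0 (m - 1)) (one_mem K0⟮m - 1⟯)
    rwa [sub_add_cancel] at h

/-- **[CC-H], the outputs in function-field form**: from the regularity of the charts `{m}`,
`{m⁻¹}` (S18), for the coordinate `x = m - 1`: regularity of the charts `{x}`, `{x⁻¹}`, `π` is a
prime element of the three charts of `x`, and the two charts are Dedekind modulo `π`. -/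
theorem ssm_cc_main [CharZero K0] {π : A0} (hπ : Irreducible π) {m : F0}
    (hx : Transcendental K0 m) [FiniteDimensional K0⟮m⟯ F0]
    (hconst : ∀ z : F0, IsAlgebraic K0 z → z ∈ (algebraMap K0 F0).range)
    (hm1 : m - 1 ≠ 0)
    (h1 : jt_RegAt (fc_chart A0 ({m} : Set F0)) (algebraMap A0 (fc_chart A0 ({m} : Set F0)) π))
    (h2 : jt_RegAt (fc_chart A0 ({m⁻¹} : Set F0))
      (algebraMap A0 (fc_chart A0 ({m⁻¹} : Set F0)) π)) :
    jt_RegAt (fc_chart A0 ({m - 1} : Set F0)) (algebraMap A0 (fc_chart A0 ({m - 1} : Set F0)) π) ∧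
    jt_RegAt (fc_chart A0 ({(m - 1)⁻¹} : Set F0))
      (algebraMap A0 (fc_chart A0 ({(m - 1)⁻¹} : Set F0)) π) ∧
    Prime (algebraMap A0 (fc_chart A0 ({m - 1} : Set F0)) π) ∧
    Prime (algebraMap A0 (fc_chart A0 ({(m - 1)⁻¹} : Set F0)) π) ∧
    Prime (algebraMap A0 (fc_chart A0 ({m - 1, (m - 1)⁻¹} : Set F0)) π) ∧
    IsDedekindDomain (fc_chart A0 ({m - 1} : Set F0) ⧸
      Ideal.span {algebraMap A0 (fc_chart A0 ({m - 1} : Set F0)) π}) ∧
    IsDedekindDomain (fc_chart A0 ({(m - 1)⁻¹} : Set F0) ⧸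
      Ideal.span {algebraMap A0 (fc_chart A0 ({(m - 1)⁻¹} : Set F0)) π}) := by
  have hm0 : m ≠ 0 := fun h => hx (h ▸ isAlgebraic_zero)
  have hπmax : (Ideal.span {π} : Ideal A0).IsMaximal := by
    rw [← hπ.maximalIdeal_eq]
    exact IsLocalRing.maximalIdeal.isMaximal A0
  have hx' : Transcendental K0 (m - 1) := ssm_cc_transcendental_sub_one hx
  have : FiniteDimensional K0⟮m - 1⟯ F0 := by
    rw [ssm_cc_adjoin_sub_one]; infer_instance
  have r1 := ssm_cc_regAt_sub_one π m h1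
  have r2 := ssm_cc_regAt_inv π hπmax m hm0 hm1 h1 h2
  obtain ⟨p1, p2, p12⟩ := cn_prime_funField (K0 := K0) hπ hx' hconst
    (fun n hn hπn => (r1 n hn hπn).2) (fun n hn hπn => (r2 n hn hπn).2)
  obtain ⟨d1, d2⟩ := rrd_dedekind_of_regAt (K0 := K0) hπ hx' hconst r1 r2
  exact ⟨r1, r2, p1, p2, p12, d1, d2⟩

end FunField

end Fermat.Agent.SS
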