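/-
SS [M] leaf [EC] (generic half): EXPLICIT ETALE COORDINATE.

Re-run of the étale half of the generic model theorem (`el_chart → el_pb_sm_chart →
el_pb_chart_aux → el_pb_mdl_chart`, JT3/Model) KEEPING the local parameter: at a maximal ideal
`n ∋ ϖ` of the chart `fc_chart O {x}` off the cusps, every polynomial `G ∈ O[X]` with `G(x) ∈ n`
and `G'(x) ∉ n` gives a local parameter `G(x)`: `tq_GenBy ϖ (G x) n`.
-/
import Mathlib
import Fermat.Agent.JT3.Model.PolyEtale

set_option autoImplicit false
set_option linter.unusedSectionVars false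
set_option linter.style.haveILetI false

namespace Fermat.Agent.SS

open Fermat.Agent.JT3 Polynomial IsLocalRing Module

section Under

variable {R B : Type*} [CommRing R] [CommRing B] [Algebra R B]
  {ι : Type*} [Fintype ι] [DecidableEq ι]

/-- **Finite free with unit discriminant: generators of `n ∩ R` generate `n`.** If the maximal
ideal `n ∩ R` of the base is locally generated by `π, g`, then `n` is locally generated by their
images. -/
theorem ssm_ec_genBy_of_under (b : Basis ι R B) (hd : IsUnit (Algebra.discr R b))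
    (n : Ideal B) [hn : n.IsMaximal] {π g : R} (hπ : π ∈ n.under R) (hg : g ∈ n.under R)
    (hloc : ∀ y ∈ n.under R, ∃ c : R, c ∉ n.under R ∧ c * y ∈ Ideal.span {π, g}) :
    tq_GenBy (algebraMap R B π) (algebraMap R B g) n := by
  have hnp : n.IsPrime := hn.isPrime
  have hmp : (n.under R).IsPrime := Ideal.comap_isPrime _ n
  refine ⟨hπ, hg, fun x hx => ?_⟩
  obtain ⟨s, hs, hsx⟩ := el_maximal_under b hd n hx
  -- every element of `(n ∩ R) B` is, up to some `c ∉ n ∩ R`, in `(π, g) B`
  have key : ∀ z ∈ (n.under R).map (algebraMap R B), ∃ c : R, c ∉ n.under R ∧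
      algebraMap R B c * z ∈ Ideal.span {algebraMap R B π, algebraMap R B g} := by
    intro z hz
    refine Submodule.span_induction (p := fun z _ => ∃ c : R, c ∉ n.under R ∧
      algebraMap R B c * z ∈ Ideal.span {algebraMap R B π, algebraMap R B g}) ?_ ?_ ?_ ?_ hz
    · rintro _ ⟨y, hy, rfl⟩
      obtain ⟨c, hc, hcy⟩ := hloc y hy
      refine ⟨c, hc, ?_⟩
      have := Ideal.mem_map_of_mem (algebraMap R B) hcy
      rwa [Ideal.map_span, Set.image_pair, map_mul] at this
    · exact ⟨1, fun h1 => hmp.ne_top ((Ideal.eq_top_iff_one _).2 h1), by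
        rw [mul_zero]; exact Ideal.zero_mem _⟩
    · rintro z1 z2 - - ⟨c1, hc1, h1⟩ ⟨c2, hc2, h2⟩
      refine ⟨c1 * c2, fun hc => (hmp.mem_or_mem hc).elim hc1 hc2, ?_⟩
      have e : algebraMap R B (c1 * c2) * (z1 + z2) =
          algebraMap R B c2 * (algebraMap R B c1 * z1) +
            algebraMap R B c1 * (algebraMap R B c2 * z2) := by
        rw [map_mul]; ring
      rw [e]
      exact Ideal.add_mem _ (Ideal.mul_mem_left _ _ h1) (Ideal.mul_mem_left _ _ h2)
    · rintro a z - ⟨c, hc, h1⟩
      refine ⟨c, hc, ?_⟩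
      have e : algebraMap R B c * (a • z) = a * (algebraMap R B c * z) := by
        rw [smul_eq_mul]; ring
      rw [e]
      exact Ideal.mul_mem_left _ _ h1
  obtain ⟨c, hc, hcz⟩ := key _ hsx
  refine ⟨algebraMap R B c * s, fun hcs => ?_, by rwa [mul_assoc]⟩
  rcases hnp.mem_or_mem hcs with h1 | h1
  · exact hc h1
  · exact hs h1

end Under

section Poly

variable {A0 : Type*} [CommRing A0] [IsDomain A0] [IsDiscreteValuationRing A0]

/-- **The derivative criterion on the polynomial base.** A prime `m0 ∋ π` of `A0[X]` is, locally,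
generated by `π` and any `G ∈ m0` with `G' ∉ m0`. -/
theorem ssm_ec_poly_local {π : A0} (hπ : Irreducible π) (m0 : Ideal A0[X]) [m0.IsPrime]
    (hπm : C π ∈ m0) (G : A0[X]) (hG : G ∈ m0) (hG' : derivative G ∉ m0) :
    ∃ a : A0[X], a ∉ m0 ∧ ∀ y ∈ m0, a * y ∈ Ideal.span {C π, G} := by
  -- the image of `m0` in `k[X]` is principal
  obtain ⟨gbar, hgbar⟩ := (IsPrincipalIdealRing.principal
    (m0.map (el_pb_red (A0 := A0)))).principal
  obtain ⟨g, rfl⟩ := el_pb_red_surjective gbar
  have hker : RingHom.ker (el_pb_red (A0 := A0)) ≤ m0 := by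
    rw [el_pb_ker_red hπ, Ideal.span_le]
    intro x hx; rw [Set.mem_singleton_iff.1 hx]; exact hπm
  have hcm : (m0.map (el_pb_red (A0 := A0))).comap el_pb_red = m0 := by
    rw [Ideal.comap_map_of_surjective _ el_pb_red_surjective, ← RingHom.ker_eq_comap_bot]
    exact sup_eq_left.2 hker
  have hgm : g ∈ m0 := by
    rw [← hcm, Ideal.mem_comap, hgbar]
    exact Ideal.mem_span_singleton_self _
  -- every element of `m0` is `g c + π d`
  have hdec : ∀ y ∈ m0, ∃ c d : A0[X], y = g * c + C π * d := by
    intro y hy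
    have h1 : el_pb_red y ∈ m0.map (el_pb_red (A0 := A0)) := Ideal.mem_map_of_mem _ hy
    rw [hgbar, Ideal.submodule_span_eq, Ideal.mem_span_singleton] at h1
    obtain ⟨cbar, hc⟩ := h1
    obtain ⟨c, rfl⟩ := el_pb_red_surjective cbar
    have h2 : y - g * c ∈ RingHom.ker (el_pb_red (A0 := A0)) := by
      rw [RingHom.mem_ker, map_sub, map_mul, hc, sub_self]
    rw [el_pb_ker_red hπ, Ideal.mem_span_singleton] at h2
    obtain ⟨d, hd⟩ := h2
    exact ⟨c, d, by linear_combination hd⟩
  obtain ⟨a, b, hGab⟩ := hdec G hG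
  refine ⟨a, fun ha => hG' ?_, fun y hy => ?_⟩
  · -- `G' = g' a + g a' + π b'`
    have : derivative G = derivative g * a + g * derivative a + C π * derivative b := by
      rw [hGab, derivative_add, derivative_mul, derivative_mul, derivative_C, zero_mul, zero_add]
    rw [this]
    exact m0.add_mem (m0.add_mem (m0.mul_mem_left _ ha) (m0.mul_mem_right _ hgm))
      (m0.mul_mem_right _ hπm)
  · obtain ⟨c, d, rfl⟩ := hdec y hy
    rw [Ideal.mem_span_pair]
    exact ⟨a * d - b * c, c, by rw [hGab]; ring⟩

/-- The same over a localisation `R` of `A0[X]`: a prime `m ∋ π` of `R` is locally generated by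
`π` and `G`, for `G ∈ A0[X]` with `G ∈ m`, `G' ∉ m`. -/
theorem ssm_ec_loc_local {R : Type*} [CommRing R] [Algebra A0[X] R] (M : Submonoid A0[X])
    [IsLocalization M R] {π : A0} (hπ : Irreducible π) (m : Ideal R) [hm : m.IsPrime]
    (hπm : algebraMap A0[X] R (C π) ∈ m) (G : A0[X]) (hG : algebraMap A0[X] R G ∈ m)
    (hG' : algebraMap A0[X] R (derivative G) ∉ m) :
    ∀ y ∈ m, ∃ c : R, c ∉ m ∧
      c * y ∈ Ideal.span {algebraMap A0[X] R (C π), algebraMap A0[X] R G} := by
  have hm0 : (m.comap (algebraMap A0[X] R)).IsPrime := Ideal.comap_isPrime _ m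
  obtain ⟨a, ha, hay⟩ := ssm_ec_poly_local hπ (m.comap (algebraMap A0[X] R)) hπm G hG hG'
  intro y hy
  refine ⟨algebraMap A0[X] R a, ha, ?_⟩
  have hmap : (m.comap (algebraMap A0[X] R)).map (algebraMap A0[X] R) = m :=
    IsLocalization.map_under M R m
  rw [← hmap] at hy
  refine Submodule.span_induction (p := fun y _ => algebraMap A0[X] R a * y ∈
    Ideal.span {algebraMap A0[X] R (C π), algebraMap A0[X] R G}) ?_ ?_ ?_ ?_ hy
  · rintro _ ⟨y0, hy0, rfl⟩
    have := Ideal.mem_map_of_mem (algebraMap A0[X] R) (hay y0 hy0)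
    rwa [Ideal.map_span, Set.image_pair, map_mul] at this
  · rw [mul_zero]; exact Ideal.zero_mem _
  · intro z1 z2 _ _ h1 h2
    rw [mul_add]; exact Ideal.add_mem _ h1 h2
  · intro r z _ h1
    have e : algebraMap A0[X] R a * (r • z) = r * (algebraMap A0[X] R a * z) := by
      rw [smul_eq_mul]; ring
    rw [e]; exact Ideal.mul_mem_left _ _ h1

end Poly

section Descend

variable {B S : Type*} [CommRing B] [CommRing S] [Algebra B S] (M : Submonoid B)
  [IsLocalization M S]

/-- **`tq_GenBy` with a prescribed parameter descends from a localisation.** -/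
theorem ssm_ec_genBy_of_localization (n : Ideal B) [hn : n.IsPrime] (hdisj : ∀ s ∈ M, s ∉ n)
    {π u : B}
    (h : tq_GenBy (algebraMap B S π) (algebraMap B S u) (n.map (algebraMap B S))) :
    tq_GenBy π u n := by
  obtain ⟨hπ, hu, hgen⟩ := h
  have hcm := mch_comap_map (S := S) M n hdisj
  have hπn : π ∈ n := by rw [← hcm]; exact hπ
  have hun : u ∈ n := by rw [← hcm]; exact hu
  refine ⟨hπn, hun, fun x hx => ?_⟩
  obtain ⟨s', hs', hmem⟩ := hgen (algebraMap B S x) (Ideal.mem_map_of_mem _ hx)
  obtain ⟨s0, m0, hs0, hsm⟩ := mch_exists_num M n hdisj s' hs'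
  have h1 : algebraMap B S (s0 * x) ∈ Ideal.span {algebraMap B S π, algebraMap B S u} := by
    rw [map_mul, ← hsm, mul_right_comm]
    exact Ideal.mul_mem_right _ _ hmem
  obtain ⟨m1, hm1, hmem1⟩ := (mch_mem_span_pair_iff M π u (s0 * x)).1 h1
  refine ⟨m1 * s0, fun hc => ?_, by rwa [mul_assoc]⟩
  rcases hn.mem_or_mem hc with hc | hc
  · exact hdisj m1 hm1 hc
  · exact hs0 hc

end Descend

section SeamCoord

attribute [local instance] FractionRing.liftAlgebra

variable {R : Type*} [CommRing R] [IsDomain R] [IsNoetherianRing R] [IsIntegrallyClosed R]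
  (K : Type*) [Field K] [Algebra R K] [IsFractionRing R K]
  (E : Type*) [Field E] [Algebra K E] [Algebra R E] [IsScalarTower R K E]
  [FiniteDimensional K E] [Algebra.IsSeparable K E]

/-- `el_pb_sm_chart` with the local parameter prescribed: if `n ∩ R` is locally generated by
`π, g`, then `n` is locally generated by `π, g`. -/
theorem ssm_ec_sm_chart {π : R} (hπ : Prime π) (hjac : π ∈ (⊥ : Ideal R).jacobson)
    [IsPrincipalIdealRing (R ⧸ Ideal.span {π})]
    (h : ∀ (p : Ideal R) [p.IsPrime], p.height = 1 → jt_Unram (el_bd_loc K p) E)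
    (n : Ideal (integralClosure R E)) [hn : n.IsMaximal]
    (hπn : algebraMap R (integralClosure R E) π ∈ n) (g : R)
    (hg : algebraMap R (integralClosure R E) g ∈ n)
    (hloc : ∀ y ∈ n.under R, ∃ c : R, c ∉ n.under R ∧ c * y ∈ Ideal.span {π, g}) :
    tq_GenBy (algebraMap R (integralClosure R E) π) (algebraMap R (integralClosure R E) g) n := by
  have htf := el_sm_isTorsionFree (R := R) K E
  have hsep := el_sm_isSeparable (R := R) K E
  have hic : IsIntegrallyClosed (integralClosure R E) :=
    integralClosure.isIntegrallyClosedOfFiniteExtension K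
  have hfin : Module.Finite R (integralClosure R E) := IsIntegralClosure.finite R K E _
  have hfree : Module.Free R (integralClosure R E) := nfr_free K E (integralClosure R E) hπ hjac
  classical
  let b := Module.Free.chooseBasis R (integralClosure R E)
  have hd := el_isUnit_discr_of_unram_codim_one b (el_sm_unramCodimOne K E h)
  exact ssm_ec_genBy_of_under b hd n hπn hg hloc

end SeamCoord

section PForm

variable {A0 : Type*} [CommRing A0] [IsDomain A0] [IsDiscreteValuationRing A0] (h : A0[X])
  (K : Type*) [Field K] [Algebra A0[X] K] [IsFractionRing A0[X] K]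
  (E : Type*) [Field E] [Algebra K E] [Algebra A0[X] E] [IsScalarTower A0[X] K E]
  [FiniteDimensional K E] [Algebra.IsSeparable K E]

/-- auxiliary form of `ssm_ec_chart`, for an arbitrary model `R` of the localisation. -/
theorem ssm_ec_chart_aux (R : Type*) [CommRing R] [Algebra A0[X] R]
    [IsLocalization (el_pb_M h) R]
    {π : A0} (hπ : Irreducible π) (hh : el_pb_red h ≠ 0)
    (hunr : ∀ (p : Ideal A0[X]) [p.IsPrime], p.height = 1 → h ∉ p → jt_Unram (el_bd_loc K p) E)
    (n : Ideal (integralClosure A0[X] E)) [hn : n.IsMaximal]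
    (hπn : algebraMap A0[X] (integralClosure A0[X] E) (C π) ∈ n)
    (hhn : algebraMap A0[X] (integralClosure A0[X] E) h ∉ n)
    (G : A0[X]) (hG : algebraMap A0[X] (integralClosure A0[X] E) G ∈ n)
    (hG' : algebraMap A0[X] (integralClosure A0[X] E) (derivative G) ∉ n) :
    tq_GenBy (algebraMap A0[X] (integralClosure A0[X] E) (C π))
      (algebraMap A0[X] (integralClosure A0[X] E) G) n := by
  have hinjK : Function.Injective (algebraMap A0[X] K) := IsFractionRing.injective A0[X] K
  have hinjE : Function.Injective (algebraMap A0[X] E) := by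
    rw [IsScalarTower.algebraMap_eq A0[X] K E]
    exact (algebraMap K E).injective.comp hinjK
  have hunits : ∀ s : el_pb_M h, IsUnit (algebraMap A0[X] K s) := fun s =>
    isUnit_iff_ne_zero.2 ((map_ne_zero_iff _ hinjK).2 (el_pb_ne_zero_of_mem_M hh s.2))
  letI algRK : Algebra R K := (IsLocalization.lift (M := el_pb_M h) hunits).toAlgebra
  haveI t1 : IsScalarTower A0[X] R K :=
    IsScalarTower.of_algebraMap_eq fun x => (IsLocalization.lift_eq hunits x).symm
  letI algRE : Algebra R E := ((algebraMap K E).comp (algebraMap R K)).toAlgebra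
  haveI t2 : IsScalarTower R K E := IsScalarTower.of_algebraMap_eq fun x => rfl
  haveI t3 : IsScalarTower A0[X] R E := IsScalarTower.of_algebraMap_eq fun x => by
    rw [IsScalarTower.algebraMap_apply A0[X] K E, IsScalarTower.algebraMap_apply A0[X] R K]
    rfl
  haveI d1 : IsDomain R := el_pb_isDomain h R hh
  haveI d2 : IsNoetherianRing R := el_pb_isNoetherianRing h R
  haveI d3 : IsIntegrallyClosed R := el_pb_isIntegrallyClosed h R hh
  haveI d4 : IsFractionRing R K := el_pb_isFractionRing h R K
  haveI d5 := el_pb_quotSpan_isPrincipalIdealRing h R hπ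
  -- the multiplicative set avoids `n`
  have hM : ∀ s ∈ el_pb_M h, algebraMap A0[X] (integralClosure A0[X] E) s ∉ n := by
    intro s hs hsn
    obtain ⟨k, hk⟩ := el_pb_mem_M.1 hs
    have hker : h ^ k - s ∈ Ideal.span {C π} := by
      rw [← el_pb_ker_red hπ, RingHom.mem_ker, map_sub, map_pow, hk, sub_self]
    obtain ⟨g, hg⟩ := Ideal.mem_span_singleton'.1 hker
    have hpow : algebraMap A0[X] (integralClosure A0[X] E) (h ^ k) ∈ n := by
      have : h ^ k = s + g * C π := by rw [hg]; ring
      rw [this, map_add, map_mul]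
      exact n.add_mem hsn (n.mul_mem_left _ hπn)
    rw [map_pow] at hpow
    exact hhn (hn.isPrime.mem_of_pow_mem k hpow)
  have hM0 : ∀ s ∈ el_pb_M h, algebraMap A0[X] E s ≠ 0 := fun s hs =>
    (map_ne_zero_iff _ hinjE).2 (el_pb_ne_zero_of_mem_M hh hs)
  -- unramifiedness over the localisations of `R`
  have hunr' : ∀ (p : Ideal R) [p.IsPrime], p.height = 1 → jt_Unram (el_bd_loc K p) E := by
    intro p hp hp1
    have hp' : (p.under A0[X]).height = 1 := by
      rw [IsLocalization.height_under (el_pb_M h) p]; exact hp1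
    have hhp : h ∉ p.under A0[X] := by
      intro hmem
      exact hp.ne_top (Ideal.eq_top_of_isUnit_mem p (show algebraMap A0[X] R h ∈ p from hmem)
        (el_pb_isUnit_of_mem_M h R (el_pb_h_mem_M h)))
    exact el_pb_unram_congr E (el_bd_loc K (p.under A0[X])) (el_bd_loc K p)
      (fun x => el_pb_loc_eq_loc_under (el_pb_M h) K p x) (hunr (p.under A0[X]) hp' hhp)
  -- the localisation of the normalisation
  letI : Algebra (integralClosure A0[X] E) (integralClosure R E) :=
    (mch_incl (R0 := A0[X]) (Rm := R) (E := E)).toAlgebra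
  haveI : IsScalarTower (integralClosure A0[X] E) (integralClosure R E) E :=
    IsScalarTower.of_algebraMap_eq fun x => rfl
  haveI : IsScalarTower A0[X] (integralClosure A0[X] E) (integralClosure R E) :=
    IsScalarTower.of_algebraMap_eq fun x => by
      apply Subtype.ext
      change algebraMap A0[X] E x = algebraMap A0[X] E x
      rfl
  haveI : IsLocalization (Algebra.algebraMapSubmonoid E (el_pb_M h)) E := by
    apply IsLocalization.self
    rintro _ ⟨s, hs, rfl⟩
    exact (hM0 s hs).isUnit
  haveI hlocB : IsLocalization (Algebra.algebraMapSubmonoid (integralClosure A0[X] E) (el_pb_M h))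
      (integralClosure R E) := IsLocalization.integralClosure (S := E) (Sf := E) (el_pb_M h)
  have hdisj : ∀ s ∈ Algebra.algebraMapSubmonoid (integralClosure A0[X] E) (el_pb_M h),
      s ∉ n := by
    rintro _ ⟨s, hs, rfl⟩
    exact hM s hs
  haveI : n.IsPrime := hn.isPrime
  set MB := Algebra.algebraMapSubmonoid (integralClosure A0[X] E) (el_pb_M h) with hMB
  haveI hQmax := mch_map_isMaximal (S := integralClosure R E) MB n hdisj hn
  have hcm := mch_comap_map (S := integralClosure R E) MB n hdisj
  have heq : ∀ z : A0[X], algebraMap R (integralClosure R E) (algebraMap A0[X] R z) =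
      algebraMap (integralClosure A0[X] E) (integralClosure R E)
        (algebraMap A0[X] (integralClosure A0[X] E) z) := by
    intro z
    rw [← IsScalarTower.algebraMap_apply, ← IsScalarTower.algebraMap_apply]
  have hmem : ∀ z : A0[X], algebraMap R (integralClosure R E) (algebraMap A0[X] R z) ∈
      n.map (algebraMap (integralClosure A0[X] E) (integralClosure R E)) ↔
      algebraMap A0[X] (integralClosure A0[X] E) z ∈ n := by
    intro z
    rw [heq]
    constructor
    · intro hz
      rw [← hcm]
      exact hz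
    · exact fun hz => Ideal.mem_map_of_mem _ hz
  have hπQ := (hmem (C π)).2 hπn
  have hGQ := (hmem G).2 hG
  have hG'Q := fun hc => hG' ((hmem (derivative G)).1 hc)
  have hloc := ssm_ec_loc_local (R := R) (el_pb_M h) hπ
    ((n.map (algebraMap (integralClosure A0[X] E) (integralClosure R E))).under R) hπQ G hGQ hG'Q
  have key := ssm_ec_sm_chart K E (el_pb_prime h R hπ hh) (el_pb_mem_jacobson h R hπ) hunr'
    (n.map (algebraMap (integralClosure A0[X] E) (integralClosure R E))) hπQ
    (algebraMap A0[X] R G) hGQ hloc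
  rw [heq, heq] at key
  exact ssm_ec_genBy_of_localization MB n hdisj key

/-- **[EC] on the chart `A0[X]`, localisation-free form.** In the situation of `el_pb_chart`: at a
maximal ideal `n ∋ π`, `n ∌ h` of the normalisation of `A0[X]` in `E`, every `G ∈ A0[X]` with
`G ∈ n`, `G' ∉ n` is a local parameter. -/
theorem ssm_ec_chart {π : A0} (hπ : Irreducible π) (hh : el_pb_red h ≠ 0)
    (hunr : ∀ (p : Ideal A0[X]) [p.IsPrime], p.height = 1 → h ∉ p → jt_Unram (el_bd_loc K p) E)
    (n : Ideal (integralClosure A0[X] E)) [hn : n.IsMaximal]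
    (hπn : algebraMap A0[X] (integralClosure A0[X] E) (C π) ∈ n)
    (hhn : algebraMap A0[X] (integralClosure A0[X] E) h ∉ n)
    (G : A0[X]) (hG : algebraMap A0[X] (integralClosure A0[X] E) G ∈ n)
    (hG' : algebraMap A0[X] (integralClosure A0[X] E) (derivative G) ∉ n) :
    tq_GenBy (algebraMap A0[X] (integralClosure A0[X] E) (C π))
      (algebraMap A0[X] (integralClosure A0[X] E) G) n :=
  ssm_ec_chart_aux h K E (Localization (el_pb_M h)) hπ hh hunr n hπn hhn G hG hG'

end PForm

section Mdl

variable {O L : Type*} [CommRing O] [IsDomain O] [IsDiscreteValuationRing O]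
  [Field L] [Algebra O L] [IsFractionRing O L] [CharZero L]
  {K E : Type*} [Field K] [Field E] [Algebra L K] [Algebra K E] [Algebra L E]
  [IsScalarTower L K E] [Algebra O K] [Algebra O E] [IsScalarTower O L K] [IsScalarTower O L E]
  [IsScalarTower O K E] [FiniteDimensional K E]

/-- **[EC], generic form, arbitrary `h`** (context and hypotheses of `el_pb_mdl_chart` verbatim).
At a maximal ideal `n ∋ ϖ` of the chart `fc_chart O {x}` not containing `h(x)`, every
`G ∈ O[X]` with `G(x) ∈ n` and `G'(x) ∉ n` is a local parameter: `n` is locally `(ϖ, G(x))`. -/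
theorem ssm_ec_mdl_chart {ϖ : O} (hϖ : Irreducible ϖ)
    (x : K) (hx : Transcendental L x) (hgenK : IntermediateField.adjoin L {x} = ⊤)
    (h : O[X]) (hh : h.map (residue O) ≠ 0)
    (hV : ∀ (V : Subring K) [IsDiscreteValuationRing V] [IsFractionRing V K], x ∈ V →
      (∀ a : O[X], a.map (residue O) ≠ 0 → (aeval x a)⁻¹ ∈ V) → (algebraMap O K ϖ)⁻¹ ∉ V →
      jt_UnramAt V E)
    (hH : ∀ (V2 : Subring K) [IsDiscreteValuationRing V2] [IsFractionRing V2 K],
      (∀ a : L, algebraMap L K a ∈ V2) → x ∈ V2 → (aeval x h)⁻¹ ∈ V2 → jt_UnramAt V2 E)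
    (n : Ideal (fc_chart O ({algebraMap K E x} : Set E))) [hn : n.IsMaximal]
    (hπn : algebraMap O (fc_chart O ({algebraMap K E x} : Set E)) ϖ ∈ n)
    (hhn : ∀ y : fc_chart O ({algebraMap K E x} : Set E),
      (y : E) = aeval (algebraMap K E x) h → y ∉ n)
    (G : O[X]) (y : fc_chart O ({algebraMap K E x} : Set E))
    (hy : (y : E) = aeval (algebraMap K E x) G) (hyn : y ∈ n)
    (hG' : ∀ y' : fc_chart O ({algebraMap K E x} : Set E),
      (y' : E) = aeval (algebraMap K E x) (derivative G) → y' ∉ n) :
    tq_GenBy (algebraMap O (fc_chart O ({algebraMap K E x} : Set E)) ϖ) y n := by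
  classical
  haveI : CharZero K := charZero_of_injective_algebraMap (algebraMap L K).injective
  haveI : Algebra.IsSeparable K E := inferInstance
  letI aK : Algebra O[X] K := (aeval x : O[X] →ₐ[O] K).toRingHom.toAlgebra
  letI aE : Algebra O[X] E := ((algebraMap K E).comp (algebraMap O[X] K)).toAlgebra
  haveI tw : IsScalarTower O[X] K E := IsScalarTower.of_algebraMap_eq fun _ => rfl
  have hX : ∀ f : O[X], algebraMap O[X] K f = aeval x f := fun _ => rfl
  have hXE : ∀ f : O[X], algebraMap O[X] E f = aeval (algebraMap K E x) f := fun f => by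
    rw [IsScalarTower.algebraMap_apply O[X] K E, hX, aeval_algebraMap_apply]
  haveI hfr : IsFractionRing O[X] K := el_pb_isFractionRing_of_transcendental x hX hx hgenK
  have hCK : ∀ a : O, algebraMap O[X] K (Polynomial.C a) = algebraMap L K (algebraMap O L a) :=
    fun a => by rw [hX, aeval_C, IsScalarTower.algebraMap_apply O L K]
  have hh' : el_pb_red h ≠ 0 := hh
  have hπprime : Prime (Polynomial.C ϖ : O[X]) := Polynomial.prime_C_iff.2 hϖ.prime
  -- the ramification hypothesis of `el_pb_chart`
  have hunr : ∀ (p : Ideal O[X]) [p.IsPrime], p.height = 1 → h ∉ p →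
      jt_Unram (el_bd_loc K p) E := by
    intro p hp hp1 hhp
    have hdvr : IsDiscreteValuationRing (el_bd_loc K p).toSubring := el_bd_loc_isDVR K p hp1
    have hfrac : IsFractionRing (el_bd_loc K p).toSubring K := el_bd_loc_isFractionRing K p
    have hxV : x ∈ (el_bd_loc K p).toSubring := by
      have := (el_bd_loc K p).algebraMap_mem (X : O[X])
      rwa [hX, aeval_X] at this
    rcases el_bd_eq_span_or_notMem hπprime p hp1 with hpe | hπp
    · -- the Gauss prime
      refine hV (el_bd_loc K p).toSubring hxV ?_ ?_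
      · intro a ha
        have hap : a ∉ p := by
          rw [hpe, ← el_pb_ker_red hϖ, RingHom.mem_ker]
          exact ha
        have := el_bd_inv_mem K p hp1 hap
        rwa [hX] at this
      · have hmem : Polynomial.C ϖ ∈ p := hpe ▸ Ideal.mem_span_singleton_self _
        have := el_bd_inv_notMem K p hp1 hmem hπprime.ne_zero
        rwa [hX, aeval_C] at this
    · -- horizontal primes
      refine hH (el_bd_loc K p).toSubring (fun a => el_pb_const_mem_loc O[X] K hϖ p hπp hCK a)
        hxV ?_
      have := el_bd_inv_mem K p hp1 hhp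
      rwa [hX] at this
  -- the two presentations of the chart
  have hr : (algebraMap O[X] E).range =
      (algebraMap (Algebra.adjoin O ({algebraMap K E x} : Set E)) E).range := by
    ext z
    constructor
    · rintro ⟨f, rfl⟩
      rw [hXE]
      have : aeval (algebraMap K E x) f ∈ Algebra.adjoin O ({algebraMap K E x} : Set E) := by
        rw [Algebra.adjoin_singleton_eq_range_aeval]; exact ⟨f, rfl⟩
      exact ⟨⟨_, this⟩, rfl⟩
    · rintro ⟨⟨y, hy⟩, rfl⟩
      rw [Algebra.adjoin_singleton_eq_range_aeval] at hy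
      obtain ⟨f, rfl⟩ := hy
      exact ⟨f, hXE f⟩
  let e := el_pb_icEquiv hr
  let n' : Ideal (integralClosure (Algebra.adjoin O ({algebraMap K E x} : Set E)) E) := n
  have hn' : n'.IsMaximal := hn
  haveI hn0 : (n'.comap (e : integralClosure O[X] E →+*
      integralClosure (Algebra.adjoin O ({algebraMap K E x} : Set E)) E)).IsMaximal :=
    Ideal.comap_isMaximal_of_surjective (e : integralClosure O[X] E →+*
      integralClosure (Algebra.adjoin O ({algebraMap K E x} : Set E)) E) e.surjective
  -- `π`
  have heπ : e (algebraMap O[X] (integralClosure O[X] E) (Polynomial.C ϖ)) =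
      algebraMap O (fc_chart O ({algebraMap K E x} : Set E)) ϖ := by
    apply Subtype.ext
    change algebraMap O[X] E (Polynomial.C ϖ) = algebraMap O E ϖ
    rw [hXE, aeval_C]
  have heG : e (algebraMap O[X] (integralClosure O[X] E) G) = y := by
    apply Subtype.ext
    change algebraMap O[X] E G = (y : E)
    rw [hXE, hy]
  have hπn0 : algebraMap O[X] (integralClosure O[X] E) (Polynomial.C ϖ) ∈
      n'.comap (e : _ →+* _) := by
    rw [Ideal.mem_comap]
    change e _ ∈ n'
    rw [heπ]; exact hπn
  have hhn0 : algebraMap O[X] (integralClosure O[X] E) h ∉ n'.comap (e : _ →+* _) := by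
    rw [Ideal.mem_comap]
    change ¬ (e _ ∈ n')
    refine hhn _ ?_
    change algebraMap O[X] E h = _
    rw [hXE]
  have hG0 : algebraMap O[X] (integralClosure O[X] E) G ∈ n'.comap (e : _ →+* _) := by
    rw [Ideal.mem_comap]
    change e _ ∈ n'
    rw [heG]; exact hyn
  have hG'0 : algebraMap O[X] (integralClosure O[X] E) (derivative G) ∉
      n'.comap (e : _ →+* _) := by
    rw [Ideal.mem_comap]
    change ¬ (e _ ∈ n')
    refine hG' _ ?_
    change algebraMap O[X] E (derivative G) = _
    rw [hXE]
  have key := ssm_ec_chart h K E hϖ hh' hunr (n'.comap (e : _ →+* _)) hπn0 hhn0 G hG0 hG'0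
  have h1 := el_pb_genBy_equiv e n' key
  rw [heπ, heG] at h1
  exact h1

/-- **[EC], generic étale form** (context and hypotheses of `el_pb_mdl_etale` verbatim): at a
maximal ideal `n ∋ ϖ` of `fc_chart O {x}` containing none of the `x - c`, `c ∈ Cs`, every
`G ∈ O[X]` with `G(x) ∈ n`, `G'(x) ∉ n` is a local parameter. -/
theorem ssm_ec_mdl_etale {ϖ : O} (hϖ : Irreducible ϖ)
    (x : K) (hx : Transcendental L x) (hgenK : IntermediateField.adjoin L {x} = ⊤)
    (Cs : Finset O)
    (hV : ∀ (V : Subring K) [IsDiscreteValuationRing V] [IsFractionRing V K], x ∈ V →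
      (∀ a : O[X], a.map (residue O) ≠ 0 → (aeval x a)⁻¹ ∈ V) → (algebraMap O K ϖ)⁻¹ ∉ V →
      jt_UnramAt V E)
    (hH : ∀ (V2 : Subring K) [IsDiscreteValuationRing V2] [IsFractionRing V2 K],
      (∀ a : L, algebraMap L K a ∈ V2) → x ∈ V2 →
      (∀ c ∈ Cs, (x - algebraMap O K c)⁻¹ ∈ V2) → jt_UnramAt V2 E)
    (n : Ideal (fc_chart O ({algebraMap K E x} : Set E))) [hn : n.IsMaximal]
    (hπn : algebraMap O (fc_chart O ({algebraMap K E x} : Set E)) ϖ ∈ n)
    (hcn : ∀ c ∈ Cs, ∀ y : fc_chart O ({algebraMap K E x} : Set E),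
      (y : E) = algebraMap K E x - algebraMap O E c → y ∉ n)
    (G : O[X]) (y : fc_chart O ({algebraMap K E x} : Set E))
    (hy : (y : E) = aeval (algebraMap K E x) G) (hyn : y ∈ n)
    (hG' : ∀ y' : fc_chart O ({algebraMap K E x} : Set E),
      (y' : E) = aeval (algebraMap K E x) (derivative G) → y' ∉ n) :
    tq_GenBy (algebraMap O (fc_chart O ({algebraMap K E x} : Set E)) ϖ) y n := by
  classical
  set h : O[X] := ∏ c ∈ Cs, (X - Polynomial.C c) with hh_def
  have hmonic : h.Monic := monic_prod_of_monic _ _ fun c _ => monic_X_sub_C c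
  have hh : h.map (residue O) ≠ 0 := (hmonic.map _).ne_zero
  have hval : aeval x h = ∏ c ∈ Cs, (x - algebraMap O K c) := by
    rw [hh_def, map_prod]
    refine Finset.prod_congr rfl fun c _ => ?_
    rw [map_sub, aeval_X, aeval_C]
  refine ssm_ec_mdl_chart hϖ x hx hgenK h hh hV (fun V2 _ _ hL hxV hinv => ?_) n hπn ?_
    G y hy hyn hG'
  · refine hH V2 hL hxV fun c hc => ?_
    -- `(x - c)⁻¹ = h(x)⁻¹ * ∏_{c' ≠ c} (x - c')`
    rw [hval] at hinv
    have hmem : ∀ c' ∈ Cs, (x - algebraMap O K c') ∈ V2 := fun c' _ =>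
      V2.sub_mem hxV (by
        rw [IsScalarTower.algebraMap_apply O L K]; exact hL _)
    have hne : ∀ c' ∈ Cs, x - algebraMap O K c' ≠ 0 := by
      intro c' _ hc'0
      have : x = algebraMap L K (algebraMap O L c') := by
        rw [← IsScalarTower.algebraMap_apply O L K]; exact sub_eq_zero.1 hc'0
      exact hx (this ▸ isAlgebraic_algebraMap _)
    have hP' : ∏ c' ∈ Cs.erase c, (x - algebraMap O K c') ≠ 0 :=
      Finset.prod_ne_zero_iff.2 fun c' hc' => hne c' (Finset.mem_of_mem_erase hc')
    have hsplit : (x - algebraMap O K c)⁻¹ =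
        (∏ c' ∈ Cs, (x - algebraMap O K c'))⁻¹ * ∏ c' ∈ Cs.erase c, (x - algebraMap O K c') := by
      rw [← Finset.mul_prod_erase Cs _ hc, mul_inv, mul_assoc, inv_mul_cancel₀ hP', mul_one]
    rw [hsplit]
    exact V2.mul_mem hinv (Subring.prod_mem V2 fun c' hc' =>
      hmem c' (Finset.mem_of_mem_erase hc'))
  · -- `h(x) ∈ n` would put some `x - c` in `n`
    intro y hy hyn
    have hxmem : algebraMap K E x ∈ fc_chart O ({algebraMap K E x} : Set E) :=
      fc_adjoin_le_chart _ (Algebra.subset_adjoin (Set.mem_singleton _))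
    let yc : O → fc_chart O ({algebraMap K E x} : Set E) := fun c =>
      ⟨algebraMap K E x, hxmem⟩ - algebraMap O _ c
    have hyprod : y = ∏ c ∈ Cs, yc c := by
      apply Subtype.ext
      rw [hy, hh_def, map_prod]
      have : ((∏ c ∈ Cs, yc c : fc_chart O ({algebraMap K E x} : Set E)) : E) =
          ∏ c ∈ Cs, ((yc c : fc_chart O ({algebraMap K E x} : Set E)) : E) := by
        rw [← Subalgebra.coe_val, map_prod]
      rw [this]
      refine Finset.prod_congr rfl fun c _ => ?_
      rw [map_sub, aeval_X, aeval_C]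
      rfl
    rw [hyprod] at hyn
    obtain ⟨c, hc, hcmem⟩ := (hn.isPrime.prod_mem_iff).1 hyn
    exact hcn c hc (yc c) rfl hcmem

end Mdl

end Fermat.Agent.SS
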