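/-
SS [M] leaf [EC], HESSE TWIN (`q = 2`): EXPLICIT ETALE COORDINATE on the Hesse charts.

For the two standard charts `fc_chart O {μ}`, `fc_chart O {μ⁻¹}` of `E = hs_E L h3 N` (residue
characteristic `ℓ ≠ 3`, `ℓ ∤ N`): at a maximal ideal `n ∋ π` off the cusps (`x³ - 1 ∉ n`, and
`x ∉ n` on the chart at infinity), every `G ∈ O[X]` with `G(x) ∈ n`, `G'(x) ∉ n` is a local
parameter: `tq_GenBy π (G x) n`.
Inputs exactly as in `hs_regAt_apply3/4` (JT3/Inst/HesseRegApply.lean) without the tame part: the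
vertical hypothesis from `hsv_goodGen_mu(_inv)` + `ug_unramAt_poly`, the horizontal one from
`hs_RamHyp3.hH` / `hs_RamHyp4.hH`.
-/
import Mathlib
import Fermat.Agent.SS.Model.EtaleCoord
import Fermat.Agent.JT3.Inst.HesseRegApply
import Fermat.Agent.JT3.Inst.HesseVert

set_option autoImplicit false
set_option linter.style.haveILetI false
set_option linter.unusedSectionVars false

noncomputable section

open Polynomial IntermediateField ModularCurve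

namespace Fermat.Agent.SS

open Fermat.Agent.JT3

section Inst

variable {L : Type*} [Field L] [CharZero L] (h3 : (3 : L) ≠ 0) (O : ValuationSubring L)
  [IsDiscreteValuationRing O] (N : ℕ) [NeZero N]

attribute [local instance] hsh_algKE

/-- **[EC] for a coordinate `x` of `L(μ)` with cusps `{1, ω, ω²}`** (hypotheses of
`hs_regAt_apply3`, without the tame part). -/
theorem ssm_ech_apply3 {π : O} (hπ : Irreducible π) (ω : O)
    (x : hs_K L h3) (hx : Transcendental L x) (hgenK : IntermediateField.adjoin L {x} = ⊤)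
    (S : Finset (hs_E L h3 N))
    (hS : IntermediateField.adjoin (hs_K L h3) (S : Set (hs_E L h3 N)) = ⊤)
    (hV : ∀ θ ∈ S, mdl_GoodGen O (algebraMap (hs_K L h3) (hs_E L h3 N) x) θ)
    (hram : hs_RamHyp3 h3 N x (ω : L))
    (n : Ideal (fc_chart O ({algebraMap (hs_K L h3) (hs_E L h3 N) x} : Set (hs_E L h3 N))))
    [hn : n.IsMaximal]
    (hπn : algebraMap O
      (fc_chart O ({algebraMap (hs_K L h3) (hs_E L h3 N) x} : Set (hs_E L h3 N))) π ∈ n)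
    (hcusp : ∀ c : O, c = 1 ∨ c = ω ∨ c = ω ^ 2 →
      ∀ y : fc_chart O ({algebraMap (hs_K L h3) (hs_E L h3 N) x} : Set (hs_E L h3 N)),
      (y : hs_E L h3 N) = algebraMap (hs_K L h3) (hs_E L h3 N) x - algebraMap O (hs_E L h3 N) c →
      y ∉ n)
    (G : O[X])
    (y : fc_chart O ({algebraMap (hs_K L h3) (hs_E L h3 N) x} : Set (hs_E L h3 N)))
    (hy : (y : hs_E L h3 N) = aeval (algebraMap (hs_K L h3) (hs_E L h3 N) x) G) (hyn : y ∈ n)
    (hG' : ∀ y' : fc_chart O ({algebraMap (hs_K L h3) (hs_E L h3 N) x} : Set (hs_E L h3 N)),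
      (y' : hs_E L h3 N) = aeval (algebraMap (hs_K L h3) (hs_E L h3 N) x) (derivative G) →
      y' ∉ n) :
    tq_GenBy (algebraMap O
      (fc_chart O ({algebraMap (hs_K L h3) (hs_E L h3 N) x} : Set (hs_E L h3 N))) π) y n := by
  classical
  refine ssm_ec_mdl_etale hπ x hx hgenK {1, ω, ω ^ 2}
    (fun V _ _ hxV hunit hϖV => ug_unramAt_poly hπ x S hS hV V hxV hunit hϖV)
    ?_ n hπn (fun c hc => hcusp c (by simpa using hc)) G y hy hyn hG'
  intro V2 _ _ hL hxV hc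
  refine hram.hH V2 hL hxV ?_ ?_ ?_
  · have := hc 1 (by simp)
    rwa [map_one] at this
  · exact hc ω (by simp)
  · have := hc (ω ^ 2) (by simp)
    rwa [hs_algebraMap_O_K] at this

/-- **[EC] for a coordinate `x` of `L(μ)` with cusps `{0, 1, ω, ω²}`** (hypotheses of
`hs_regAt_apply4`, without the tame part). -/
theorem ssm_ech_apply4 {π : O} (hπ : Irreducible π) (ω : O)
    (x : hs_K L h3) (hx : Transcendental L x) (hgenK : IntermediateField.adjoin L {x} = ⊤)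
    (S : Finset (hs_E L h3 N))
    (hS : IntermediateField.adjoin (hs_K L h3) (S : Set (hs_E L h3 N)) = ⊤)
    (hV : ∀ θ ∈ S, mdl_GoodGen O (algebraMap (hs_K L h3) (hs_E L h3 N) x) θ)
    (hram : hs_RamHyp4 h3 N x (ω : L))
    (n : Ideal (fc_chart O ({algebraMap (hs_K L h3) (hs_E L h3 N) x} : Set (hs_E L h3 N))))
    [hn : n.IsMaximal]
    (hπn : algebraMap O
      (fc_chart O ({algebraMap (hs_K L h3) (hs_E L h3 N) x} : Set (hs_E L h3 N))) π ∈ n)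
    (hcusp : ∀ c : O, c = 0 ∨ c = 1 ∨ c = ω ∨ c = ω ^ 2 →
      ∀ y : fc_chart O ({algebraMap (hs_K L h3) (hs_E L h3 N) x} : Set (hs_E L h3 N)),
      (y : hs_E L h3 N) = algebraMap (hs_K L h3) (hs_E L h3 N) x - algebraMap O (hs_E L h3 N) c →
      y ∉ n)
    (G : O[X])
    (y : fc_chart O ({algebraMap (hs_K L h3) (hs_E L h3 N) x} : Set (hs_E L h3 N)))
    (hy : (y : hs_E L h3 N) = aeval (algebraMap (hs_K L h3) (hs_E L h3 N) x) G) (hyn : y ∈ n)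
    (hG' : ∀ y' : fc_chart O ({algebraMap (hs_K L h3) (hs_E L h3 N) x} : Set (hs_E L h3 N)),
      (y' : hs_E L h3 N) = aeval (algebraMap (hs_K L h3) (hs_E L h3 N) x) (derivative G) →
      y' ∉ n) :
    tq_GenBy (algebraMap O
      (fc_chart O ({algebraMap (hs_K L h3) (hs_E L h3 N) x} : Set (hs_E L h3 N))) π) y n := by
  classical
  refine ssm_ec_mdl_etale hπ x hx hgenK {0, 1, ω, ω ^ 2}
    (fun V _ _ hxV hunit hϖV => ug_unramAt_poly hπ x S hS hV V hxV hunit hϖV)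
    ?_ n hπn (fun c hc => hcusp c (by simpa using hc)) G y hy hyn hG'
  intro V2 _ _ hL hxV hc
  refine hram.hH V2 hL hxV ?_ ?_ ?_ ?_
  · have := hc 0 (by simp)
    rwa [map_zero, sub_zero] at this
  · have := hc 1 (by simp)
    rwa [map_one] at this
  · exact hc ω (by simp)
  · have := hc (ω ^ 2) (by simp)
    rwa [hs_algebraMap_O_K] at this

end Inst

section Cusp

variable {O E : Type*} [CommRing O] [Field E] [Algebra O E]

/-- off the cube roots of unity: if `x³ - 1 ∉ n` then `x - c ∉ n` for `c = 1, ω, ω²`. -/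
theorem ssm_ech_cusp3 (xE : E) (n : Ideal (fc_chart O ({xE} : Set E))) (ω : O)
    (hω : ω ^ 2 + ω + 1 = 0)
    (h : ∀ y : fc_chart O ({xE} : Set E), (y : E) = xE ^ 3 - 1 → y ∉ n) :
    ∀ c : O, c = 1 ∨ c = ω ∨ c = ω ^ 2 →
      ∀ y : fc_chart O ({xE} : Set E), (y : E) = xE - algebraMap O E c → y ∉ n := by
  intro c hc y hy hyn
  have hω3 : ω ^ 3 = 1 := by linear_combination (ω - 1) * hω
  have hc3 : c ^ 3 = 1 := by
    rcases hc with rfl | rfl | rfl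
    · ring
    · exact hω3
    · have : (ω ^ 2) ^ 3 = (ω ^ 3) ^ 2 := by ring
      rw [this, hω3]; ring
  have hxmem : xE ∈ fc_chart O ({xE} : Set E) :=
    fc_adjoin_le_chart _ (Algebra.subset_adjoin (Set.mem_singleton _))
  set x' : fc_chart O ({xE} : Set E) := ⟨xE, hxmem⟩ with hx'
  set c' : fc_chart O ({xE} : Set E) := algebraMap O _ c with hc'
  have hcE : ((c' : fc_chart O ({xE} : Set E)) : E) = algebraMap O E c := rfl
  refine h (y * (x' ^ 2 + x' * c' + c' ^ 2)) ?_ (n.mul_mem_right _ hyn)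
  have hc3E : (algebraMap O E c) ^ 3 = 1 := by rw [← map_pow, hc3, map_one]
  push_cast
  rw [hy, hcE]
  show (xE - algebraMap O E c) * (xE ^ 2 + xE * algebraMap O E c + (algebraMap O E c) ^ 2) = _
  linear_combination (-1 : E) * hc3E

/-- the same with the additional cusp `0`. -/
theorem ssm_ech_cusp4 (xE : E) (n : Ideal (fc_chart O ({xE} : Set E))) (ω : O)
    (hω : ω ^ 2 + ω + 1 = 0)
    (h0 : ∀ y : fc_chart O ({xE} : Set E), (y : E) = xE → y ∉ n)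
    (h : ∀ y : fc_chart O ({xE} : Set E), (y : E) = xE ^ 3 - 1 → y ∉ n) :
    ∀ c : O, c = 0 ∨ c = 1 ∨ c = ω ∨ c = ω ^ 2 →
      ∀ y : fc_chart O ({xE} : Set E), (y : E) = xE - algebraMap O E c → y ∉ n := by
  intro c hc y hy
  rcases hc with rfl | hc
  · rw [map_zero, sub_zero] at hy
    exact h0 y hy
  · exact ssm_ech_cusp3 xE n ω hω h c hc y hy

/-- the derivative of the Frobenius polynomial `X ^ m - X` is a unit at every proper ideal
containing `m`. -/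
theorem ssm_ech_frob_deriv (xE : E) (n : Ideal (fc_chart O ({xE} : Set E))) (hn : n ≠ ⊤)
    (m : ℕ) (hmn : algebraMap O (fc_chart O ({xE} : Set E)) ((m : ℕ) : O) ∈ n) :
    ∀ y' : fc_chart O ({xE} : Set E),
      (y' : E) = aeval xE (derivative (X ^ m - X : O[X])) → y' ∉ n := by
  intro y' hy' hy'n
  have hxmem : xE ∈ fc_chart O ({xE} : Set E) :=
    fc_adjoin_le_chart _ (Algebra.subset_adjoin (Set.mem_singleton _))
  have hy'eq : y' = algebraMap O _ ((m : ℕ) : O) *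
      (⟨xE, hxmem⟩ : fc_chart O ({xE} : Set E)) ^ (m - 1) - 1 := by
    apply Subtype.ext
    rw [hy', derivative_sub, derivative_X_pow, derivative_X, map_sub, map_mul, map_pow, aeval_X,
      aeval_C, map_one]
    rfl
  have h1n : (1 : fc_chart O ({xE} : Set E)) ∈ n := by
    have : (1 : fc_chart O ({xE} : Set E)) =
        algebraMap O _ ((m : ℕ) : O) *
          (⟨xE, hxmem⟩ : fc_chart O ({xE} : Set E)) ^ (m - 1) - y' := by
      rw [hy'eq]; ring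
    rw [this]
    exact n.sub_mem (n.mul_mem_right _ hmn) hy'n
  exact hn ((Ideal.eq_top_iff_one _).2 h1n)

/-- `m ∈ 𝔪_O = (π)` and `π ∈ n` give `m ∈ n`. -/
theorem ssm_ech_natCast_mem [IsDomain O] [IsDiscreteValuationRing O] {π : O}
    (hπ : Irreducible π) (xE : E) (n : Ideal (fc_chart O ({xE} : Set E)))
    (hπn : algebraMap O (fc_chart O ({xE} : Set E)) π ∈ n)
    (m : ℕ) (hm : ((m : ℕ) : O) ∈ IsLocalRing.maximalIdeal O) :
    algebraMap O (fc_chart O ({xE} : Set E)) ((m : ℕ) : O) ∈ n := by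
  rw [hπ.maximalIdeal_eq, Ideal.mem_span_singleton] at hm
  obtain ⟨a, ha⟩ := hm
  rw [ha, map_mul]
  exact n.mul_mem_right _ hπn

end Cusp


section HesseCharts

variable {L : Type*} [Field L] [CharZero L] (h3 : (3 : L) ≠ 0) (O : ValuationSubring L)
  [IsDiscreteValuationRing O] (N : ℕ) [NeZero N]

attribute [local instance] hsh_algKE

/-- **[EC] on the `μ`-chart.** -/
theorem ssm_ech_mu {π : O} (hπ : Irreducible π) (ℓ : ℕ) [Fact ℓ.Prime]
    (hℓ : ((ℓ : ℕ) : O) ∈ IsLocalRing.maximalIdeal O) (hℓ3 : ℓ ≠ 3) (hℓN : ¬ ℓ ∣ N)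
    (ω : O) (hω : ω ^ 2 + ω + 1 = 0)
    (hram : hs_RamHyp3 h3 N (hsh_muK L h3) (ω : L))
    (n : Ideal (fc_chart O ({hs_muE h3 N} : Set (hs_E L h3 N)))) [hn : n.IsMaximal]
    (hπn : algebraMap O (fc_chart O ({hs_muE h3 N} : Set (hs_E L h3 N))) π ∈ n)
    (hc : ∀ y : fc_chart O ({hs_muE h3 N} : Set (hs_E L h3 N)),
      (y : hs_E L h3 N) = hs_muE h3 N ^ 3 - 1 → y ∉ n)
    (G : O[X]) (y : fc_chart O ({hs_muE h3 N} : Set (hs_E L h3 N)))
    (hy : (y : hs_E L h3 N) = aeval (hs_muE h3 N : hs_E L h3 N) G) (hyn : y ∈ n)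
    (hG' : ∀ y' : fc_chart O ({hs_muE h3 N} : Set (hs_E L h3 N)),
      (y' : hs_E L h3 N) = aeval (hs_muE h3 N : hs_E L h3 N) (derivative G) → y' ∉ n) :
    tq_GenBy (algebraMap O (fc_chart O ({hs_muE h3 N} : Set (hs_E L h3 N))) π) y n :=
  ssm_ech_apply3 h3 O N hπ ω (hsh_muK L h3) (hs_muK_transcendental L h3) (hsh_adjoin_muK L h3)
    (hsv_S L h3 N) (hsv_adjoin_eq_top L h3 N)
    (fun _ hθ => hsv_goodGen_mu h3 O hℓ hℓ3 hℓN hθ) hram n (hn := hn) hπn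
    (ssm_ech_cusp3 (hs_muE h3 N) n ω hω hc) G y hy hyn hG'

/-- **[EC] on the `μ⁻¹`-chart** (cusps `0, 1, ω, ω²` of the coordinate `μ⁻¹`). -/
theorem ssm_ech_mu_inv {π : O} (hπ : Irreducible π) (ℓ : ℕ) [Fact ℓ.Prime]
    (hℓ : ((ℓ : ℕ) : O) ∈ IsLocalRing.maximalIdeal O) (hℓ3 : ℓ ≠ 3) (hℓN : ¬ ℓ ∣ N)
    (ω : O) (hω : ω ^ 2 + ω + 1 = 0)
    (hram : hs_RamHyp4 h3 N (hsh_muK L h3)⁻¹ (ω : L))
    (n : Ideal (fc_chart O ({(hs_muE h3 N)⁻¹} : Set (hs_E L h3 N)))) [hn : n.IsMaximal]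
    (hπn : algebraMap O (fc_chart O ({(hs_muE h3 N)⁻¹} : Set (hs_E L h3 N))) π ∈ n)
    (h0 : ∀ y : fc_chart O ({(hs_muE h3 N)⁻¹} : Set (hs_E L h3 N)),
      (y : hs_E L h3 N) = (hs_muE h3 N)⁻¹ → y ∉ n)
    (hc : ∀ y : fc_chart O ({(hs_muE h3 N)⁻¹} : Set (hs_E L h3 N)),
      (y : hs_E L h3 N) = (hs_muE h3 N)⁻¹ ^ 3 - 1 → y ∉ n)
    (G : O[X]) (y : fc_chart O ({(hs_muE h3 N)⁻¹} : Set (hs_E L h3 N)))
    (hy : (y : hs_E L h3 N) = aeval ((hs_muE h3 N)⁻¹ : hs_E L h3 N) G) (hyn : y ∈ n)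
    (hG' : ∀ y' : fc_chart O ({(hs_muE h3 N)⁻¹} : Set (hs_E L h3 N)),
      (y' : hs_E L h3 N) = aeval ((hs_muE h3 N)⁻¹ : hs_E L h3 N) (derivative G) → y' ∉ n) :
    tq_GenBy (algebraMap O (fc_chart O ({(hs_muE h3 N)⁻¹} : Set (hs_E L h3 N))) π) y n := by
  have key := ssm_ech_apply4 h3 O N hπ ω (hsh_muK L h3)⁻¹ (hs_muK_inv_transcendental L h3)
    (hs_adjoin_muK_inv L h3) (hsv_S L h3 N) (hsv_adjoin_eq_top L h3 N)
    (fun _ hθ => by
      rw [hs_algebraMap_muK_inv]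
      exact hsv_goodGen_mu_inv h3 O hℓ hℓ3 hℓN hθ) hram
  rw [hs_algebraMap_muK_inv] at key
  exact key n hπn (ssm_ech_cusp4 (hs_muE h3 N)⁻¹ n ω hω h0 hc) G y hy hyn hG'

/-- **[EC] on the `μ`-chart, Frobenius polynomial**: if `μ ^ m - μ ∈ n` (`m ≡ 0` in the residue
field, e.g. `m = ℓ ^ 2`) then it is a local parameter at `n`. -/
theorem ssm_ech_mu_frob {π : O} (hπ : Irreducible π) (ℓ : ℕ) [Fact ℓ.Prime]
    (hℓ : ((ℓ : ℕ) : O) ∈ IsLocalRing.maximalIdeal O) (hℓ3 : ℓ ≠ 3) (hℓN : ¬ ℓ ∣ N)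
    (ω : O) (hω : ω ^ 2 + ω + 1 = 0)
    (hram : hs_RamHyp3 h3 N (hsh_muK L h3) (ω : L))
    (n : Ideal (fc_chart O ({hs_muE h3 N} : Set (hs_E L h3 N)))) [hn : n.IsMaximal]
    (hπn : algebraMap O (fc_chart O ({hs_muE h3 N} : Set (hs_E L h3 N))) π ∈ n)
    (hc : ∀ y : fc_chart O ({hs_muE h3 N} : Set (hs_E L h3 N)),
      (y : hs_E L h3 N) = hs_muE h3 N ^ 3 - 1 → y ∉ n)
    (m : ℕ) (hm : ((m : ℕ) : O) ∈ IsLocalRing.maximalIdeal O)
    (y : fc_chart O ({hs_muE h3 N} : Set (hs_E L h3 N)))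
    (hy : (y : hs_E L h3 N) = (hs_muE h3 N : hs_E L h3 N) ^ m - hs_muE h3 N) (hyn : y ∈ n) :
    tq_GenBy (algebraMap O (fc_chart O ({hs_muE h3 N} : Set (hs_E L h3 N))) π) y n :=
  ssm_ech_mu h3 O N hπ ℓ hℓ hℓ3 hℓN ω hω hram n hπn hc (X ^ m - X) y
    (by rw [hy, map_sub, map_pow, aeval_X]) hyn
    (ssm_ech_frob_deriv _ n hn.ne_top m (ssm_ech_natCast_mem hπ _ n hπn m hm))

/-- **[EC] on the `μ⁻¹`-chart, Frobenius polynomial.** -/
theorem ssm_ech_mu_inv_frob {π : O} (hπ : Irreducible π) (ℓ : ℕ) [Fact ℓ.Prime]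
    (hℓ : ((ℓ : ℕ) : O) ∈ IsLocalRing.maximalIdeal O) (hℓ3 : ℓ ≠ 3) (hℓN : ¬ ℓ ∣ N)
    (ω : O) (hω : ω ^ 2 + ω + 1 = 0)
    (hram : hs_RamHyp4 h3 N (hsh_muK L h3)⁻¹ (ω : L))
    (n : Ideal (fc_chart O ({(hs_muE h3 N)⁻¹} : Set (hs_E L h3 N)))) [hn : n.IsMaximal]
    (hπn : algebraMap O (fc_chart O ({(hs_muE h3 N)⁻¹} : Set (hs_E L h3 N))) π ∈ n)
    (h0 : ∀ y : fc_chart O ({(hs_muE h3 N)⁻¹} : Set (hs_E L h3 N)),
      (y : hs_E L h3 N) = (hs_muE h3 N)⁻¹ → y ∉ n)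
    (hc : ∀ y : fc_chart O ({(hs_muE h3 N)⁻¹} : Set (hs_E L h3 N)),
      (y : hs_E L h3 N) = (hs_muE h3 N)⁻¹ ^ 3 - 1 → y ∉ n)
    (m : ℕ) (hm : ((m : ℕ) : O) ∈ IsLocalRing.maximalIdeal O)
    (y : fc_chart O ({(hs_muE h3 N)⁻¹} : Set (hs_E L h3 N)))
    (hy : (y : hs_E L h3 N) = ((hs_muE h3 N)⁻¹ : hs_E L h3 N) ^ m - (hs_muE h3 N)⁻¹)
    (hyn : y ∈ n) :
    tq_GenBy (algebraMap O (fc_chart O ({(hs_muE h3 N)⁻¹} : Set (hs_E L h3 N))) π) y n :=
  ssm_ech_mu_inv h3 O N hπ ℓ hℓ hℓ3 hℓN ω hω hram n hπn h0 hc (X ^ m - X) y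
    (by rw [hy, map_sub, map_pow, aeval_X]) hyn
    (ssm_ech_frob_deriv _ n hn.ne_top m (ssm_ech_natCast_mem hπ _ n hπn m hm))

end HesseCharts

end Fermat.Agent.SS
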