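/-
SS [M] leaf [EC], HESSE TWIN in OPTION-M form (`q = 2`, ruling #1951): the coordinate of the Hesse
model is `x = μ - 1`, whose special values `x = 0`, `x² + 3x + 3 = 0`, `x = ∞` are exactly the cusps
`μ = 1`, `μ ∈ {ω, ω²}`, `μ = ∞`.

For the finite chart `fc_chart O {μ - 1}` of `E = hs_E L h3 N` (residue characteristic `ℓ ≠ 3`,
`ℓ ∤ N`): at a maximal ideal `n ∋ π` off the cusps (`x ∉ n`, `x² + 3x + 3 ∉ n`), every `G ∈ O[X]`
with `G(x) ∈ n`, `G'(x) ∉ n` is a local parameter: `tq_GenBy π (G x) n`.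
Inputs as in `ssm_ech_mu`: the vertical hypothesis for `μ` (`hsv_goodGen_mu` + `ug_unramAt_poly`)
transported along `μ = x + 1`, the horizontal one from `hs_RamHyp3.hH`.
-/
import Mathlib
import Fermat.Agent.SS.Model.EtaleCoordHesse

set_option autoImplicit false
set_option linter.style.haveILetI false
set_option linter.unusedSectionVars false

noncomputable section

open Polynomial IntermediateField ModularCurve

namespace Fermat.Agent.SS

open Fermat.Agent.JT3

section Cusp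

variable {O E : Type*} [CommRing O] [Field E] [Algebra O E]

/-- off the cusps of the coordinate `x = μ - 1`: if `x ∉ n` and `x² + 3x + 3 ∉ n` then `x - c ∉ n`
for `c = 0, ω - 1, ω² - 1`. -/
theorem ssm_echm_cusp (xE : E) (n : Ideal (fc_chart O ({xE} : Set E))) (ω : O)
    (hω : ω ^ 2 + ω + 1 = 0)
    (h0 : ∀ y : fc_chart O ({xE} : Set E), (y : E) = xE → y ∉ n)
    (ht : ∀ y : fc_chart O ({xE} : Set E), (y : E) = xE ^ 2 + 3 * xE + 3 → y ∉ n) :
    ∀ c : O, c = 0 ∨ c = ω - 1 ∨ c = ω ^ 2 - 1 →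
      ∀ y : fc_chart O ({xE} : Set E), (y : E) = xE - algebraMap O E c → y ∉ n := by
  intro c hc y hy hyn
  have hxmem : xE ∈ fc_chart O ({xE} : Set E) := fc_x_mem_chart xE
  set x' : fc_chart O ({xE} : Set E) := ⟨xE, hxmem⟩ with hx'
  have hwE : (algebraMap O E ω) ^ 2 + algebraMap O E ω + 1 = 0 := by
    rw [← map_pow, ← map_add, ← map_one (algebraMap O E), ← map_add, hω, map_zero]
  rcases hc with rfl | rfl | rfl
  · rw [map_zero, sub_zero] at hy
    exact h0 y hy hyn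
  · refine ht (y * (x' - algebraMap O _ (ω ^ 2 - 1))) ?_ (n.mul_mem_right _ hyn)
    show (y : E) * (xE - algebraMap O E (ω ^ 2 - 1)) = _
    rw [hy, map_sub, map_sub, map_pow, map_one]
    linear_combination (-xE + algebraMap O E ω - 2) * hwE
  · refine ht (y * (x' - algebraMap O _ (ω - 1))) ?_ (n.mul_mem_right _ hyn)
    show (y : E) * (xE - algebraMap O E (ω - 1)) = _
    rw [hy, map_sub, map_sub, map_pow, map_one]
    linear_combination (-xE + algebraMap O E ω - 2) * hwE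

/-- `a(X + 1)` at `x - 1` is `a` at `x`. -/
theorem ssm_echm_aeval_shift {R A : Type*} [CommRing R] [CommRing A] [Algebra R A] (x : A)
    (a : R[X]) : aeval (x - 1) (a.comp (X + C 1)) = aeval x a := by
  rw [aeval_comp, map_add, aeval_X, aeval_C, map_one, sub_add_cancel]

end Cusp

section HesseM

variable {L : Type*} [Field L] [CharZero L] (h3 : (3 : L) ≠ 0) (O : ValuationSubring L)
  [IsDiscreteValuationRing O] (N : ℕ) [NeZero N]

attribute [local instance] hsh_algKE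

omit [CharZero L] in
theorem ssm_echm_algebraMap_xK :
    algebraMap (hs_K L h3) (hs_E L h3 N) (hsh_muK L h3 - 1) = hs_muE h3 N - 1 := by
  rw [map_sub, map_one]
  rfl

theorem ssm_echm_xK_transcendental : Transcendental L (hsh_muK L h3 - 1) := by
  intro h
  apply hs_muK_transcendental L h3
  have : hsh_muK L h3 = (hsh_muK L h3 - 1) + 1 := by ring
  rw [this]
  exact h.add isAlgebraic_one

omit [CharZero L] in
theorem ssm_echm_adjoin_xK : IntermediateField.adjoin L {hsh_muK L h3 - 1} = ⊤ := by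
  rw [eq_top_iff, ← hsh_adjoin_muK L h3, IntermediateField.adjoin_simple_le_iff]
  have h1 : hsh_muK L h3 - 1 ∈ IntermediateField.adjoin L {hsh_muK L h3 - 1} :=
    IntermediateField.mem_adjoin_simple_self L _
  have := add_mem h1 (one_mem _)
  rwa [sub_add_cancel] at this

theorem ssm_echm_sub_omega (ω : O) :
    hsh_muK L h3 - 1 - algebraMap O (hs_K L h3) (ω - 1)
      = hsh_muK L h3 - algebraMap L (hs_K L h3) (ω : L) := by
  rw [map_sub, map_one, hs_algebraMap_O_K]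
  ring

theorem ssm_echm_sub_omega_sq (ω : O) :
    hsh_muK L h3 - 1 - algebraMap O (hs_K L h3) (ω ^ 2 - 1)
      = hsh_muK L h3 - algebraMap L (hs_K L h3) ((ω : L) ^ 2) := by
  rw [map_sub, map_one, hs_algebraMap_O_K]
  push_cast
  ring

/-- **[EC] on the chart `x = μ - 1`** (Option M). -/
theorem ssm_echm_x {π : O} (hπ : Irreducible π) (ℓ : ℕ) [Fact ℓ.Prime]
    (hℓ : ((ℓ : ℕ) : O) ∈ IsLocalRing.maximalIdeal O) (hℓ3 : ℓ ≠ 3) (hℓN : ¬ ℓ ∣ N)
    (ω : O) (hω : ω ^ 2 + ω + 1 = 0)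
    (hram : hs_RamHyp3 h3 N (hsh_muK L h3) (ω : L))
    (n : Ideal (fc_chart O ({hs_muE h3 N - 1} : Set (hs_E L h3 N)))) [hn : n.IsMaximal]
    (hπn : algebraMap O (fc_chart O ({hs_muE h3 N - 1} : Set (hs_E L h3 N))) π ∈ n)
    (h0 : ∀ y : fc_chart O ({hs_muE h3 N - 1} : Set (hs_E L h3 N)),
      (y : hs_E L h3 N) = hs_muE h3 N - 1 → y ∉ n)
    (ht : ∀ y : fc_chart O ({hs_muE h3 N - 1} : Set (hs_E L h3 N)),
      (y : hs_E L h3 N) = (hs_muE h3 N - 1) ^ 2 + 3 * (hs_muE h3 N - 1) + 3 → y ∉ n)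
    (G : O[X]) (y : fc_chart O ({hs_muE h3 N - 1} : Set (hs_E L h3 N)))
    (hy : (y : hs_E L h3 N) = aeval (hs_muE h3 N - 1 : hs_E L h3 N) G) (hyn : y ∈ n)
    (hG' : ∀ y' : fc_chart O ({hs_muE h3 N - 1} : Set (hs_E L h3 N)),
      (y' : hs_E L h3 N) = aeval (hs_muE h3 N - 1 : hs_E L h3 N) (derivative G) → y' ∉ n) :
    tq_GenBy (algebraMap O (fc_chart O ({hs_muE h3 N - 1} : Set (hs_E L h3 N))) π) y n := by
  classical
  have key := ssm_ec_mdl_etale (E := hs_E L h3 N) hπ (hsh_muK L h3 - 1)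
    (ssm_echm_xK_transcendental h3) (ssm_echm_adjoin_xK h3) {0, ω - 1, ω ^ 2 - 1}
    (fun V _ _ hxV hunit hϖV => by
      have hmuV : hsh_muK L h3 ∈ V := by
        have := V.add_mem hxV V.one_mem
        rwa [sub_add_cancel] at this
      refine ug_unramAt_poly hπ (hsh_muK L h3) (hsv_S L h3 N) (hsv_adjoin_eq_top L h3 N)
        (fun _ hθ => hsv_goodGen_mu h3 O hℓ hℓ3 hℓN hθ) V hmuV ?_ hϖV
      intro a ha
      have h1 : (a.comp (X + C 1)).map (IsLocalRing.residue O) ≠ 0 := by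
        rw [Polynomial.map_comp, Polynomial.map_add, Polynomial.map_X, Polynomial.map_C, map_one]
        exact comp_X_add_C_ne_zero_iff.2 ha
      have h2 := hunit _ h1
      rwa [ssm_echm_aeval_shift] at h2)
    (fun V2 _ _ hL hxV hc => by
      have hmu : hsh_muK L h3 ∈ V2 := by
        have := V2.add_mem hxV V2.one_mem
        rwa [sub_add_cancel] at this
      refine hram.hH V2 hL hmu ?_ ?_ ?_
      · have := hc 0 (by simp)
        rwa [map_zero, sub_zero] at this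
      · have := hc (ω - 1) (by simp)
        rwa [ssm_echm_sub_omega] at this
      · have := hc (ω ^ 2 - 1) (by simp)
        rwa [ssm_echm_sub_omega_sq] at this)
  rw [ssm_echm_algebraMap_xK] at key
  exact key n hπn
    (fun c hc => ssm_echm_cusp (hs_muE h3 N - 1) n ω hω h0 ht c (by simpa using hc))
    G y hy hyn hG'

/-- **[EC] on the chart `x = μ - 1`, Frobenius polynomial**: if `x ^ m - x ∈ n` (`m ≡ 0` in the
residue field, e.g. `m = 4`) then it is a local parameter at `n`. -/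
theorem ssm_echm_x_frob {π : O} (hπ : Irreducible π) (ℓ : ℕ) [Fact ℓ.Prime]
    (hℓ : ((ℓ : ℕ) : O) ∈ IsLocalRing.maximalIdeal O) (hℓ3 : ℓ ≠ 3) (hℓN : ¬ ℓ ∣ N)
    (ω : O) (hω : ω ^ 2 + ω + 1 = 0)
    (hram : hs_RamHyp3 h3 N (hsh_muK L h3) (ω : L))
    (n : Ideal (fc_chart O ({hs_muE h3 N - 1} : Set (hs_E L h3 N)))) [hn : n.IsMaximal]
    (hπn : algebraMap O (fc_chart O ({hs_muE h3 N - 1} : Set (hs_E L h3 N))) π ∈ n)
    (h0 : ∀ y : fc_chart O ({hs_muE h3 N - 1} : Set (hs_E L h3 N)),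
      (y : hs_E L h3 N) = hs_muE h3 N - 1 → y ∉ n)
    (ht : ∀ y : fc_chart O ({hs_muE h3 N - 1} : Set (hs_E L h3 N)),
      (y : hs_E L h3 N) = (hs_muE h3 N - 1) ^ 2 + 3 * (hs_muE h3 N - 1) + 3 → y ∉ n)
    (m : ℕ) (hm : ((m : ℕ) : O) ∈ IsLocalRing.maximalIdeal O)
    (y : fc_chart O ({hs_muE h3 N - 1} : Set (hs_E L h3 N)))
    (hy : (y : hs_E L h3 N) = (hs_muE h3 N - 1 : hs_E L h3 N) ^ m - (hs_muE h3 N - 1))
    (hyn : y ∈ n) :
    tq_GenBy (algebraMap O (fc_chart O ({hs_muE h3 N - 1} : Set (hs_E L h3 N))) π) y n :=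
  ssm_echm_x h3 O N hπ ℓ hℓ hℓ3 hℓN ω hω hram n hπn h0 ht (X ^ m - X) y
    (by rw [hy, map_sub, map_pow, aeval_X]) hyn
    (ssm_ech_frob_deriv _ n hn.ne_top m (ssm_ech_natCast_mem hπ _ n hπn m hm))

end HesseM

end Fermat.Agent.SS
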