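import Mathlib
import Fermat.Agent.SS.SFC.FunField

/-!
# SS / model, leaf [TP]: the two vertical primes of a chart from the two valuations
(prefix `ssm_tp_`)

`R` an integrally closed domain (`R = O[x]`), `π ∈ R` a prime element, `E` a field algebraic over
`R`.  `V₁ ≠ V₂` valuation subrings of `E` **lying over the Gauss ring `R_(π)`** (`ssm_tp_Over`: they
contain `R` and their centre on `R` is `πR`), with uniformiser `π`, and the only such
(`ssm_tp_Hyp`).  A **chart** `B` (`ssm_tp_Chart`) is a subalgebra of `E` containing the integral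
closure `B₁` of `R` which is a localisation of `B₁` at elements of `R ∖ πR` (`B₁` itself, or the
overlap chart `B₁₂ = B₁[1/x]`).  With `P_i := 𝔪(V_i) ∩ B` (`ssm_tp_P B V_i : Ideal B`):

* `ssm_tp_Hyp.semilocal` : `V₁ ⊓ V₂ = B₁ · (R ∖ πR)⁻¹` (the integral closure of `R_(π)`);
* `ssm_tp_Hyp.inter`, `.chart_inter`, `.P_inf` : `P₁ ⊓ P₂ = π B` (the special fibre is reduced);
* `ssm_tp_Hyp.sep12/21`, `.P_not_le12/21`, `.P_ne` : `P₂ ⊄ P₁`, `P₁ ⊄ P₂`;
* `ssm_tp_Hyp.P1_isPrime/P2_isPrime`, `.P_le_of_mem`, `.P_minimalPrimes` : the primes of `B` minimal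
  over `π` are exactly `P₁`, `P₂`; `.P1_comap/.P2_comap` : `P_i ∩ R = π R`;
* `ssm_tp_Hyp.loc1/2`, `.chart_loc1/2`, `.mem_V1_iff/.mem_V2_iff` : `B_{P_i} = V_i`;
* `ssm_tp_Hyp.mem_S_iff`, `.coe_mem_S_iff`, `.mem_O_iff`, `.mem_piO_iff` : for the semistable F-core,
  `sfc_S B π = B ∖ (P₁ ∪ P₂)`, `sfc_O B π = V₁ ⊓ V₂`, `z ∈ sfc_piO B π ↔ z ∈ 𝔪(V₁) ∧ z ∈ 𝔪(V₂)`;
* `ssm_tp_Over.div_mem_iff` : `V ∩ Frac R = R_(π)`.

Function-field instances (`A0` a DVR with uniformiser `π`, `L = Frac A0`, `x` transcendental):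
`ssm_tp_ff_hyp` (`prime`, `fin`, `alg` are automatic for `R = A0[y]`), `ssm_tp_ff_chart`,
`ssm_tp_ff_chart12`, `ssm_tp_ff_chart21` (the three charts `fc_chart A0 {x}`, `{x⁻¹}`, `{x, x⁻¹}`),
`ssm_tp_over_inv`, `ssm_tp_ff_hyp_inv` (the hypotheses over `A0[x]` give those over `A0[x⁻¹]`),
`ssm_tp_ff_model` (the fields `prime1 prime2 hrad h12 h21` of `ss_Model` on the overlap chart).
-/

set_option autoImplicit false
set_option linter.unusedSectionVars false
set_option linter.style.haveILetI false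

namespace Fermat.Agent.SS

open Polynomial

section VS

variable {E : Type*} [Field E] (V : ValuationSubring E)

theorem ssm_tp_nonunits_add {a b : E} (ha : a ∈ V.nonunits) (hb : b ∈ V.nonunits) :
    a + b ∈ V.nonunits := by
  rw [ValuationSubring.mem_nonunits_iff] at ha hb ⊢
  exact Valuation.map_add_lt _ ha hb

theorem ssm_tp_nonunits_neg {a : E} (ha : a ∈ V.nonunits) : -a ∈ V.nonunits := by
  rw [ValuationSubring.mem_nonunits_iff] at ha ⊢
  rwa [Valuation.map_neg]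

theorem ssm_tp_nonunits_mul {a b : E} (ha : a ∈ V.nonunits) (hb : b ∈ V) :
    a * b ∈ V.nonunits := by
  rw [ValuationSubring.mem_nonunits_iff] at ha ⊢
  rw [map_mul]
  have hb' : V.valuation b ≤ 1 := (V.valuation_le_one_iff b).mpr hb
  calc V.valuation a * V.valuation b ≤ V.valuation a * 1 := mul_le_mul_right hb' _
    _ = V.valuation a := mul_one _
    _ < 1 := ha

theorem ssm_tp_one_not_mem_nonunits : (1 : E) ∉ V.nonunits := by
  rw [ValuationSubring.mem_nonunits_iff, map_one]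
  exact lt_irrefl 1

theorem ssm_tp_zero_mem_nonunits : (0 : E) ∈ V.nonunits := by
  rw [ValuationSubring.mem_nonunits_iff, map_zero]
  exact zero_lt_one

/-- a unit of `V`: an element of `V` outside the maximal ideal has its inverse in `V` -/
theorem ssm_tp_inv_mem {a : E} (hn : a ∉ V.nonunits) : a⁻¹ ∈ V := by
  rw [ValuationSubring.mem_nonunits_iff_or] at hn
  push Not at hn
  exact hn.2

theorem ssm_tp_ne_zero {a : E} (hn : a ∉ V.nonunits) : a ≠ 0 := by
  rintro rfl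
  exact hn (ssm_tp_zero_mem_nonunits V)

/-- the product of two units is a unit -/
theorem ssm_tp_mul_not_mem {a b : E} (ha' : a ∉ V.nonunits)
    (hb' : b ∉ V.nonunits) : a * b ∉ V.nonunits := by
  intro h
  have h1 := ssm_tp_nonunits_mul V h (V.mul_mem _ _ (ssm_tp_inv_mem V hb') (ssm_tp_inv_mem V ha'))
  have ha0 := ssm_tp_ne_zero V ha'
  have hb0 := ssm_tp_ne_zero V hb'
  have : a * b * (b⁻¹ * a⁻¹) = 1 := by field_simp
  rw [this] at h1
  exact ssm_tp_one_not_mem_nonunits V h1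

theorem ssm_tp_pow_not_mem {a : E} (ha' : a ∉ V.nonunits) (k : ℕ) :
    a ^ k ∉ V.nonunits := by
  induction k with
  | zero => rw [pow_zero]; exact ssm_tp_one_not_mem_nonunits V
  | succ k ih => rw [pow_succ]; exact ssm_tp_mul_not_mem V ih ha'

/-- `V` is integrally closed. -/
theorem ssm_tp_mem_of_isIntegral {R : Type*} [CommRing R] [Algebra R E]
    (h : ∀ a : R, algebraMap R E a ∈ V) {z : E} (hz : IsIntegral R z) : z ∈ V := by
  obtain ⟨p, hp, hpz⟩ := hz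
  let g : R →+* ↥V :=
    { toFun := fun r => ⟨algebraMap R E r, h r⟩
      map_one' := Subtype.ext (map_one _)
      map_mul' := fun _ _ => Subtype.ext (map_mul _ _ _)
      map_zero' := Subtype.ext (map_zero _)
      map_add' := fun _ _ => Subtype.ext (map_add _ _ _) }
  have hint : IsIntegral ↥V z := by
    refine ⟨p.map g, hp.map g, ?_⟩
    rw [Polynomial.eval₂_map]
    exact hpz
  obtain ⟨y, hy⟩ := IsIntegrallyClosed.isIntegral_iff.mp hint
  rw [← hy]
  exact y.2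

end VS

section Main

variable {R : Type*} [CommRing R] [IsDomain R] [IsIntegrallyClosed R]
  {E : Type*} [Field E] [Algebra R E] [FaithfulSMul R E]

/-- the valuation subring `V` of `E` lies over the Gauss ring `R_(π)`: it contains `R` and its
centre on `R` is `πR`. -/
structure ssm_tp_Over (π : R) (V : ValuationSubring E) : Prop where
  le : ∀ a : R, algebraMap R E a ∈ V
  cen : ∀ a : R, algebraMap R E a ∈ V.nonunits ↔ π ∣ a

/-- **Hypotheses of [TP].** -/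
structure ssm_tp_Hyp (π : R) (V1 V2 : ValuationSubring E) : Prop where
  prime : Prime π
  fin : ∀ a : R, a ≠ 0 → ∃ (k : ℕ) (s : R), ¬ π ∣ s ∧ a = π ^ k * s
  alg : ∀ z : E, IsAlgebraic R z
  over1 : ssm_tp_Over π V1
  over2 : ssm_tp_Over π V2
  unif1 : ∀ z ∈ V1.nonunits, (algebraMap R E π)⁻¹ * z ∈ V1
  unif2 : ∀ z ∈ V2.nonunits, (algebraMap R E π)⁻¹ * z ∈ V2
  ne : V1 ≠ V2
  only : ∀ V : ValuationSubring E, ssm_tp_Over π V → V = V1 ∨ V = V2

variable {π : R} {V V1 V2 : ValuationSubring E}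

theorem ssm_tp_Over.mem_of_isIntegral (h : ssm_tp_Over π V) {z : E} (hz : IsIntegral R z) :
    z ∈ V := ssm_tp_mem_of_isIntegral V h.le hz

theorem ssm_tp_Over.pi_mem (h : ssm_tp_Over π V) : algebraMap R E π ∈ V.nonunits :=
  (h.cen π).2 (dvd_refl π)

theorem ssm_tp_Over.not_mem_nonunits (h : ssm_tp_Over π V) {s : R} (hs : ¬ π ∣ s) :
    algebraMap R E s ∉ V.nonunits := fun hm => hs ((h.cen s).1 hm)

theorem ssm_tp_Over.inv_mem (h : ssm_tp_Over π V) {s : R} (hs : ¬ π ∣ s) :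
    (algebraMap R E s)⁻¹ ∈ V := ssm_tp_inv_mem V (h.not_mem_nonunits hs)

/-- `V` has rank one: every element of `E` is brought into `V` by a power of `π`. -/
theorem ssm_tp_Over.exists_pow_mul_mem (h : ssm_tp_Over π V)
    (hfin : ∀ a : R, a ≠ 0 → ∃ (k : ℕ) (s : R), ¬ π ∣ s ∧ a = π ^ k * s)
    (halg : ∀ z : E, IsAlgebraic R z) (z : E) :
    ∃ k : ℕ, algebraMap R E π ^ k * z ∈ V := by
  obtain ⟨y, hy0, hy⟩ := (halg z).exists_integral_multiple
  obtain ⟨k, s, hs, rfl⟩ := hfin y hy0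
  refine ⟨k, ?_⟩
  have h1 : algebraMap R E (π ^ k * s) * z ∈ V := by
    rw [← Algebra.smul_def]
    exact h.mem_of_isIntegral hy
  have hs0 : algebraMap R E s ≠ 0 := ssm_tp_ne_zero V (h.not_mem_nonunits hs)
  have : algebraMap R E π ^ k * z = (algebraMap R E s)⁻¹ * (algebraMap R E (π ^ k * s) * z) := by
    rw [map_mul, map_pow]
    field_simp
  rw [this]
  exact V.mul_mem _ _ (h.inv_mem hs) h1

/-- **`V₁ ⊓ V₂` is the integral closure of `R_(π)`**: an element of `V₁ ⊓ V₂` becomes integral over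
`R` after multiplication by some `s ∈ R ∖ πR`. -/
theorem ssm_tp_Hyp.semilocal (H : ssm_tp_Hyp π V1 V2) {z : E} (h1 : z ∈ V1) (h2 : z ∈ V2) :
    ∃ s : R, ¬ π ∣ s ∧ IsIntegral R (algebraMap R E s * z) := by
  haveI hP : (Ideal.span {π} : Ideal R).IsPrime :=
    (Ideal.span_singleton_prime H.prime.ne_zero).2 H.prime
  have hinj : Function.Injective (algebraMap R E) := FaithfulSMul.algebraMap_injective R E
  have hunit : ∀ y : (Ideal.span {π} : Ideal R).primeCompl, IsUnit (algebraMap R E y) := by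
    intro y
    refine IsUnit.mk0 _ ((map_ne_zero_iff _ hinj).2 ?_)
    intro h0
    exact y.2 (h0 ▸ Ideal.zero_mem _)
  letI : Algebra (Localization.AtPrime (Ideal.span {π} : Ideal R)) E :=
    (IsLocalization.lift hunit).toAlgebra
  haveI : IsScalarTower R (Localization.AtPrime (Ideal.span {π} : Ideal R)) E :=
    IsScalarTower.of_algebraMap_eq (fun x => (IsLocalization.lift_eq hunit x).symm)
  have hz : IsIntegral (Localization.AtPrime (Ideal.span {π} : Ideal R)) z := by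
    by_contra hni
    have hzT : z ∉ (integralClosure (Localization.AtPrime (Ideal.span {π} : Ideal R)) E).toSubring :=
      hni
    obtain ⟨W, hW, hzW⟩ := Subring.exists_le_valuationSubring_of_isIntegrallyClosedIn hzT
    have hWRp : ∀ c : Localization.AtPrime (Ideal.span {π} : Ideal R),
        algebraMap (Localization.AtPrime (Ideal.span {π} : Ideal R)) E c ∈ W :=
      fun c => hW isIntegral_algebraMap
    have hWR : ∀ a : R, algebraMap R E a ∈ W := fun a => by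
      rw [IsScalarTower.algebraMap_apply R (Localization.AtPrime (Ideal.span {π} : Ideal R)) E]
      exact hWRp _
    have hWinv : ∀ s : R, ¬ π ∣ s → (algebraMap R E s)⁻¹ ∈ W := by
      intro s hs
      have hsM : s ∈ (Ideal.span {π} : Ideal R).primeCompl :=
        fun hm => hs (Ideal.mem_span_singleton.1 hm)
      have h3 := hWRp (IsLocalization.mk' (Localization.AtPrime (Ideal.span {π} : Ideal R)) (1 : R)
        (⟨s, hsM⟩ : (Ideal.span {π} : Ideal R).primeCompl))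
      have h4 : algebraMap (Localization.AtPrime (Ideal.span {π} : Ideal R)) E
          (IsLocalization.mk' (Localization.AtPrime (Ideal.span {π} : Ideal R)) (1 : R)
            (⟨s, hsM⟩ : (Ideal.span {π} : Ideal R).primeCompl)) = (algebraMap R E s)⁻¹ := by
        have hs0 : algebraMap R E s ≠ 0 := (hunit ⟨s, hsM⟩).ne_zero
        apply eq_inv_of_mul_eq_one_left
        rw [IsScalarTower.algebraMap_apply R (Localization.AtPrime (Ideal.span {π} : Ideal R)) E s,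
          ← map_mul]
        have : IsLocalization.mk' (Localization.AtPrime (Ideal.span {π} : Ideal R)) (1 : R)
            (⟨s, hsM⟩ : (Ideal.span {π} : Ideal R).primeCompl) *
            algebraMap R (Localization.AtPrime (Ideal.span {π} : Ideal R)) s = 1 := by
          rw [IsLocalization.mk'_spec_mk, map_one]
        rw [this, map_one]
      rwa [h4] at h3
    by_cases hπW : algebraMap R E π ∈ W.nonunits
    · have hover : ssm_tp_Over π W := by
        refine ⟨hWR, fun a => ⟨fun ha => ?_, ?_⟩⟩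
        · by_contra hna
          have h5 := ssm_tp_nonunits_mul W ha (hWinv a hna)
          have ha0 : algebraMap R E a ≠ 0 := by
            intro h0
            apply hna
            rw [(map_eq_zero_iff _ hinj).1 h0]
            exact dvd_zero _
          rw [mul_inv_cancel₀ ha0] at h5
          exact ssm_tp_one_not_mem_nonunits W h5
        · rintro ⟨c, rfl⟩
          rw [map_mul]
          exact ssm_tp_nonunits_mul W hπW (hWR c)
      rcases H.only W hover with rfl | rfl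
      · exact hzW h1
      · exact hzW h2
    · -- `π` is a unit of `W`: then `Frac R ⊆ W`
      obtain ⟨y, hy0, hy⟩ := (H.alg z).exists_integral_multiple
      obtain ⟨k, s, hs, rfl⟩ := H.fin y hy0
      have h6 : algebraMap R E (π ^ k * s) * z ∈ W := by
        rw [← Algebra.smul_def]
        exact hW (hy.tower_top)
      have hπ0 : algebraMap R E π ≠ 0 := (map_ne_zero_iff _ hinj).2 H.prime.ne_zero
      have hs0 : algebraMap R E s ≠ 0 := by
        intro h0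
        apply hs
        rw [(map_eq_zero_iff _ hinj).1 h0]
        exact dvd_zero _
      have h7 : z = ((algebraMap R E π)⁻¹) ^ k * ((algebraMap R E s)⁻¹ *
          (algebraMap R E (π ^ k * s) * z)) := by
        rw [map_mul, map_pow, inv_pow]
        field_simp
      apply hzW
      rw [h7]
      exact W.mul_mem _ _ (W.pow_mem (ssm_tp_inv_mem W hπW) k) (W.mul_mem _ _ (hWinv s hs) h6)
  obtain ⟨m, hm⟩ := IsIntegral.exists_multiple_integral_of_isLocalization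
    (Ideal.span {π} : Ideal R).primeCompl z hz
  refine ⟨m, fun hd => m.2 (Ideal.mem_span_singleton.2 hd), ?_⟩
  rwa [Submonoid.smul_def, Algebra.smul_def] at hm

theorem ssm_tp_Hyp.algebraMap_ne_zero (H : ssm_tp_Hyp π V1 V2) : algebraMap R E π ≠ 0 :=
  (map_ne_zero_iff _ (FaithfulSMul.algebraMap_injective R E)).2 H.prime.ne_zero

/-- **`P₁ ∩ P₂ = π B`**: the special fibre is reduced. -/
theorem ssm_tp_Hyp.inter (H : ssm_tp_Hyp π V1 V2) {b : E} (hb : IsIntegral R b)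
    (h1 : b ∈ V1.nonunits) (h2 : b ∈ V2.nonunits) :
    ∃ c : E, IsIntegral R c ∧ b = algebraMap R E π * c := by
  have hϖ := H.algebraMap_ne_zero
  obtain ⟨s, hs, hint⟩ := H.semilocal (H.unif1 b h1) (H.unif2 b h2)
  refine sfc_ff_nzd H.prime hs hb hint ?_
  field_simp

/-- `V₁ ≤ V₂` is impossible (both have rank one). -/
theorem ssm_tp_not_le_aux (hu1 : ∀ z ∈ V1.nonunits, (algebraMap R E π)⁻¹ * z ∈ V1)
    (hπ0 : algebraMap R E π ≠ 0) (hπ2 : algebraMap R E π ∈ V2.nonunits) (hne : V1 ≠ V2) :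
    ¬ V1 ≤ V2 := by
  intro hle
  apply hne
  apply le_antisymm hle
  intro z hz2
  by_contra hz1
  have hz0 : z ≠ 0 := fun h0 => hz1 (h0 ▸ V1.zero_mem)
  have h3 : z⁻¹ ∈ V1.nonunits := by
    rw [ValuationSubring.inv_mem_nonunits_iff]
    exact Or.inr hz1
  have h4 := hle (hu1 _ h3)
  have h5 : z⁻¹ ∈ V2.nonunits := by
    have : z⁻¹ = algebraMap R E π * ((algebraMap R E π)⁻¹ * z⁻¹) := by field_simp
    rw [this]
    exact ssm_tp_nonunits_mul V2 hπ2 h4
  have h6 := ssm_tp_nonunits_mul V2 h5 hz2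
  rw [inv_mul_cancel₀ hz0] at h6
  exact ssm_tp_one_not_mem_nonunits V2 h6

/-- separation: there is an element of `V₁ ⊓ V₂` which is a unit of `V₁` and a non-unit of `V₂`. -/
theorem ssm_tp_exists_sep (hnle : ¬ V1 ≤ V2) :
    ∃ y : E, y ∈ V1 ∧ y ∉ V1.nonunits ∧ y ∈ V2.nonunits := by
  obtain ⟨z, hz1, hz2⟩ := Set.not_subset.1 hnle
  have hz0 : z ≠ 0 := fun h0 => hz2 (h0 ▸ V2.zero_mem)
  have hzi2 : z⁻¹ ∈ V2.nonunits := by
    rw [ValuationSubring.inv_mem_nonunits_iff]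
    exact Or.inr hz2
  by_cases hzn : z ∈ V1.nonunits
  · -- `y = 1 / (1 + z)`
    have h1z : (1 + z) ∉ V1.nonunits := by
      intro h
      have := ssm_tp_nonunits_add V1 h (ssm_tp_nonunits_neg V1 hzn)
      rw [add_neg_cancel_right] at this
      exact ssm_tp_one_not_mem_nonunits V1 this
    have h1z0 : 1 + z ≠ 0 := ssm_tp_ne_zero V1 h1z
    refine ⟨(1 + z)⁻¹, ssm_tp_inv_mem V1 h1z, ?_, ?_⟩
    · intro h
      have := ssm_tp_nonunits_mul V1 h (V1.add_mem _ _ V1.one_mem hz1)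
      rw [inv_mul_cancel₀ h1z0] at this
      exact ssm_tp_one_not_mem_nonunits V1 this
    · have h1 : (1 + z⁻¹) ∉ V2.nonunits := by
        intro h
        have := ssm_tp_nonunits_add V2 h (ssm_tp_nonunits_neg V2 hzi2)
        rw [add_neg_cancel_right] at this
        exact ssm_tp_one_not_mem_nonunits V2 this
      have h10 : 1 + z⁻¹ ≠ 0 := ssm_tp_ne_zero V2 h1
      have : (1 + z)⁻¹ = z⁻¹ * (1 + z⁻¹)⁻¹ := by
        rw [← mul_inv, mul_add, mul_one, mul_inv_cancel₀ hz0, add_comm]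
      rw [this]
      exact ssm_tp_nonunits_mul V2 hzi2 (ssm_tp_inv_mem V2 h1)
  · exact ⟨z⁻¹, ssm_tp_inv_mem V1 hzn, fun h => by
      have := ssm_tp_nonunits_mul V1 h hz1
      rw [inv_mul_cancel₀ hz0] at this
      exact ssm_tp_one_not_mem_nonunits V1 this, hzi2⟩

/-- **`P₂ ⊄ P₁`**: an element of `B` in `𝔪(V₂)` which is a unit of `V₁`. -/
theorem ssm_tp_Hyp.sep12 (H : ssm_tp_Hyp π V1 V2) :
    ∃ t : E, IsIntegral R t ∧ t ∉ V1.nonunits ∧ t ∈ V2.nonunits := by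
  have hnle := ssm_tp_not_le_aux H.unif1 H.algebraMap_ne_zero H.over2.pi_mem H.ne
  obtain ⟨y, hy1, hyn, hy2⟩ := ssm_tp_exists_sep hnle
  obtain ⟨s, hs, hint⟩ := H.semilocal hy1 (V2.nonunits_subset hy2)
  refine ⟨algebraMap R E s * y, hint, ?_, ?_⟩
  · exact ssm_tp_mul_not_mem V1 (H.over1.not_mem_nonunits hs) hyn
  · rw [mul_comm]
    exact ssm_tp_nonunits_mul V2 hy2 (H.over2.le s)

/-- the hypotheses are symmetric in `V₁`, `V₂` -/
theorem ssm_tp_Hyp.symm (H : ssm_tp_Hyp π V1 V2) : ssm_tp_Hyp π V2 V1 :=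
  ⟨H.prime, H.fin, H.alg, H.over2, H.over1, H.unif2, H.unif1, H.ne.symm,
    fun V hV => (H.only V hV).symm⟩

/-- **`P₁ ⊄ P₂`**. -/
theorem ssm_tp_Hyp.sep21 (H : ssm_tp_Hyp π V1 V2) :
    ∃ t : E, IsIntegral R t ∧ t ∉ V2.nonunits ∧ t ∈ V1.nonunits := H.symm.sep12

/-- **`B_{P₁} = V₁`**: every element of `V₁` has a denominator in `B ∖ P₁`. -/
theorem ssm_tp_Hyp.loc1 (H : ssm_tp_Hyp π V1 V2) {z : E} (hz : z ∈ V1) :
    ∃ t : E, IsIntegral R t ∧ t ∉ V1.nonunits ∧ IsIntegral R (t * z) := by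
  obtain ⟨t0, ht0, ht01, ht02⟩ := H.sep12
  obtain ⟨k, hk⟩ := H.over2.exists_pow_mul_mem H.fin H.alg z
  have hϖ := H.algebraMap_ne_zero
  -- `t0 ^ k * z ∈ V₁ ⊓ V₂`
  have h1 : t0 ^ k * z ∈ V1 := V1.mul_mem _ _ (V1.pow_mem (H.over1.mem_of_isIntegral ht0) k) hz
  have h2 : t0 ^ k * z ∈ V2 := by
    have h3 : t0 ^ k * z = ((algebraMap R E π)⁻¹ * t0) ^ k * (algebraMap R E π ^ k * z) := by
      rw [mul_pow, inv_pow]
      field_simp
    rw [h3]
    exact V2.mul_mem _ _ (V2.pow_mem (H.unif2 t0 ht02) k) hk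
  obtain ⟨s, hs, hint⟩ := H.semilocal h1 h2
  refine ⟨algebraMap R E s * t0 ^ k, isIntegral_algebraMap.mul (ht0.pow k), ?_, ?_⟩
  · exact ssm_tp_mul_not_mem V1 (H.over1.not_mem_nonunits hs) (ssm_tp_pow_not_mem V1 ht01 k)
  · rw [mul_assoc]
    exact hint

/-- **`B_{P₂} = V₂`**. -/
theorem ssm_tp_Hyp.loc2 (H : ssm_tp_Hyp π V1 V2) {z : E} (hz : z ∈ V2) :
    ∃ t : E, IsIntegral R t ∧ t ∉ V2.nonunits ∧ IsIntegral R (t * z) := H.symm.loc1 hz

/-- the restriction of `V` to `Frac R` is the Gauss ring `R_(π)`. -/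
theorem ssm_tp_Over.div_mem_iff (h : ssm_tp_Over π V) (hπ : Prime π)
    (hfin : ∀ a : R, a ≠ 0 → ∃ (k : ℕ) (s : R), ¬ π ∣ s ∧ a = π ^ k * s) {a s : R} (hs : s ≠ 0) :
    algebraMap R E a / algebraMap R E s ∈ V ↔ ∃ a' s' : R, ¬ π ∣ s' ∧ a * s' = a' * s := by
  have hinj : Function.Injective (algebraMap R E) := FaithfulSMul.algebraMap_injective R E
  have hs0 : algebraMap R E s ≠ 0 := (map_ne_zero_iff _ hinj).2 hs
  constructor
  · intro hmem
    by_cases ha : a = 0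
    · exact ⟨0, 1, fun hd => hπ.not_isUnit (isUnit_of_dvd_one hd), by rw [ha, zero_mul, zero_mul]⟩
    obtain ⟨i, a0, ha0, rfl⟩ := hfin a ha
    obtain ⟨j, s0, hs00, rfl⟩ := hfin s hs
    by_cases hij : j ≤ i
    · refine ⟨π ^ (i - j) * a0, s0, hs00, ?_⟩
      obtain ⟨d, rfl⟩ := Nat.exists_eq_add_of_le hij
      rw [Nat.add_sub_cancel_left, pow_add]
      ring
    · exfalso
      push Not at hij
      obtain ⟨d, rfl⟩ := Nat.exists_eq_add_of_lt hij
      -- `π^(d+1) * (a/s) = a0/s0` is a unit of `V`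
      have hπ0 : algebraMap R E π ≠ 0 := (map_ne_zero_iff _ hinj).2 hπ.ne_zero
      have hs00' : algebraMap R E s0 ≠ 0 := ssm_tp_ne_zero V (h.not_mem_nonunits hs00)
      have h1 : algebraMap R E π ^ (d + 1) *
          (algebraMap R E (π ^ i * a0) / algebraMap R E (π ^ (i + d + 1) * s0)) =
          algebraMap R E a0 * (algebraMap R E s0)⁻¹ := by
        rw [map_mul, map_mul, map_pow, map_pow, pow_add, pow_add]
        field_simp
        ring
      have h2 : algebraMap R E π ^ (d + 1) *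
          (algebraMap R E (π ^ i * a0) / algebraMap R E (π ^ (i + d + 1) * s0)) ∈ V.nonunits := by
        rw [pow_succ, mul_comm (algebraMap R E π ^ d), mul_assoc]
        exact ssm_tp_nonunits_mul V h.pi_mem (V.mul_mem _ _ (V.pow_mem (h.le π) d) hmem)
      rw [h1] at h2
      have h3 := ssm_tp_nonunits_mul V h2 (h.le s0)
      rw [mul_assoc, inv_mul_cancel₀ hs00', mul_one] at h3
      exact h.not_mem_nonunits ha0 h3
  · rintro ⟨a', s', hs', heq⟩
    have hs'0 : algebraMap R E s' ≠ 0 := ssm_tp_ne_zero V (h.not_mem_nonunits hs')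
    have : algebraMap R E a / algebraMap R E s = algebraMap R E a' * (algebraMap R E s')⁻¹ := by
      rw [div_eq_iff hs0, mul_assoc, mul_comm _ (algebraMap R E s), ← mul_assoc, ← map_mul, ← heq,
        map_mul, mul_assoc, mul_inv_cancel₀ hs'0, mul_one]
    rw [this]
    exact V.mul_mem _ _ (h.le a') (h.inv_mem hs')

end Main

section Chart

variable {R : Type*} [CommRing R] [IsDomain R] [IsIntegrallyClosed R]
  {E : Type*} [Field E] [Algebra R E] [FaithfulSMul R E]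
  {A : Type*} [CommRing A] [Algebra A E]
  {π : R} {V V1 V2 : ValuationSubring E}

/-- `B` is a **chart** over `R`: it contains the integral closure of `R` in `E` and is a
localisation of it at elements of `R ∖ πR` (e.g. the integral closure itself, or
`B₁₂ = B₁[1/x]`). -/
structure ssm_tp_Chart (π : R) (B : Subalgebra A E) : Prop where
  int_mem : ∀ z : E, IsIntegral R z → z ∈ B
  clear : ∀ b ∈ B, ∃ r : R, ¬ π ∣ r ∧ (algebraMap R E r)⁻¹ ∈ B ∧
    IsIntegral R (algebraMap R E r * b)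

variable {B : Subalgebra A E}

/-- the integral closure itself is a chart -/
theorem ssm_tp_chart_of_iff (hπ : Prime π) (hB : ∀ z : E, z ∈ B ↔ IsIntegral R z) :
    ssm_tp_Chart π B := by
  refine ⟨fun z hz => (hB z).2 hz, fun b hb => ⟨1, fun hd => hπ.not_isUnit (isUnit_of_dvd_one hd),
    ?_, ?_⟩⟩
  · rw [map_one, inv_one]
    exact B.one_mem
  · rw [map_one, one_mul]
    exact (hB b).1 hb

/-- a chart is contained in every valuation ring over `R_(π)` -/
theorem ssm_tp_Chart.le (hC : ssm_tp_Chart π B) (h : ssm_tp_Over π V) {b : E} (hb : b ∈ B) :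
    b ∈ V := by
  obtain ⟨r, hr, -, hint⟩ := hC.clear b hb
  have hr0 : algebraMap R E r ≠ 0 := ssm_tp_ne_zero V (h.not_mem_nonunits hr)
  have : b = (algebraMap R E r)⁻¹ * (algebraMap R E r * b) := by
    rw [← mul_assoc, inv_mul_cancel₀ hr0, one_mul]
  rw [this]
  exact V.mul_mem _ _ (h.inv_mem hr) (h.mem_of_isIntegral hint)

/-- **`P₁ ∩ P₂ = π B`** on a chart. -/
theorem ssm_tp_Hyp.chart_inter (H : ssm_tp_Hyp π V1 V2) (hC : ssm_tp_Chart π B) {b : E}
    (hb : b ∈ B) (h1 : b ∈ V1.nonunits) (h2 : b ∈ V2.nonunits) :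
    ∃ c ∈ B, b = algebraMap R E π * c := by
  obtain ⟨r, hr, hrB, hint⟩ := hC.clear b hb
  have hr0 : algebraMap R E r ≠ 0 := ssm_tp_ne_zero V1 (H.over1.not_mem_nonunits hr)
  have h1' : algebraMap R E r * b ∈ V1.nonunits := by
    rw [mul_comm]; exact ssm_tp_nonunits_mul V1 h1 (H.over1.le r)
  have h2' : algebraMap R E r * b ∈ V2.nonunits := by
    rw [mul_comm]; exact ssm_tp_nonunits_mul V2 h2 (H.over2.le r)
  obtain ⟨c, hc, hbc⟩ := H.inter hint h1' h2'
  refine ⟨(algebraMap R E r)⁻¹ * c, B.mul_mem hrB (hC.int_mem c hc), ?_⟩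
  rw [mul_left_comm, ← hbc, ← mul_assoc, inv_mul_cancel₀ hr0, one_mul]

theorem ssm_tp_Hyp.chart_sep12 (H : ssm_tp_Hyp π V1 V2) (hC : ssm_tp_Chart π B) :
    ∃ t ∈ B, t ∉ V1.nonunits ∧ t ∈ V2.nonunits := by
  obtain ⟨t, ht, h1, h2⟩ := H.sep12
  exact ⟨t, hC.int_mem t ht, h1, h2⟩

theorem ssm_tp_Hyp.chart_sep21 (H : ssm_tp_Hyp π V1 V2) (hC : ssm_tp_Chart π B) :
    ∃ t ∈ B, t ∉ V2.nonunits ∧ t ∈ V1.nonunits := by
  obtain ⟨t, ht, h1, h2⟩ := H.sep21
  exact ⟨t, hC.int_mem t ht, h1, h2⟩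

/-- **`B_{P₁} = V₁`** on a chart. -/
theorem ssm_tp_Hyp.chart_loc1 (H : ssm_tp_Hyp π V1 V2) (hC : ssm_tp_Chart π B) {z : E} :
    z ∈ V1 ↔ ∃ t ∈ B, t ∉ V1.nonunits ∧ t * z ∈ B := by
  constructor
  · intro hz
    obtain ⟨t, ht, h1, h2⟩ := H.loc1 hz
    exact ⟨t, hC.int_mem t ht, h1, hC.int_mem _ h2⟩
  · rintro ⟨t, -, h1, h2⟩
    have ht0 : t ≠ 0 := ssm_tp_ne_zero V1 h1
    have : z = t⁻¹ * (t * z) := by rw [← mul_assoc, inv_mul_cancel₀ ht0, one_mul]
    rw [this]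
    exact V1.mul_mem _ _ (ssm_tp_inv_mem V1 h1) (hC.le H.over1 h2)

/-- **`B_{P₂} = V₂`** on a chart. -/
theorem ssm_tp_Hyp.chart_loc2 (H : ssm_tp_Hyp π V1 V2) (hC : ssm_tp_Chart π B) {z : E} :
    z ∈ V2 ↔ ∃ t ∈ B, t ∉ V2.nonunits ∧ t * z ∈ B := H.symm.chart_loc1 hC

/-- **The multiplicative set `S` of the semistable F-core** of a chart is the set of elements of `B`
which are units at both generic points of the special fibre. -/
theorem ssm_tp_Hyp.mem_S_iff (H : ssm_tp_Hyp π V1 V2) (hC : ssm_tp_Chart π B) {s : E} :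
    s ∈ sfc_S B.toSubring (algebraMap R E π) ↔ s ∈ B ∧ s ∉ V1.nonunits ∧ s ∉ V2.nonunits := by
  constructor
  · rintro ⟨hsB, -, hs⟩
    have key : ∀ {W W' : ValuationSubring E}, ssm_tp_Hyp π W W' → s ∉ W.nonunits := by
      intro W W' H' hsW
      obtain ⟨t, htB, ht1, ht2⟩ := H'.chart_sep12 hC
      have h1 : s * t ∈ W.nonunits := ssm_tp_nonunits_mul W hsW (hC.le H'.over1 htB)
      have h2 : s * t ∈ W'.nonunits := by
        rw [mul_comm]; exact ssm_tp_nonunits_mul W' ht2 (hC.le H'.over2 hsB)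
      obtain ⟨c, hc, hstc⟩ := H'.chart_inter hC (B.mul_mem hsB htB) h1 h2
      obtain ⟨c', hc', htc'⟩ := hs t htB ⟨c, hc, hstc⟩
      apply ht1
      rw [htc']
      exact ssm_tp_nonunits_mul W H'.over1.pi_mem (hC.le H'.over1 hc')
    exact ⟨hsB, key H, key H.symm⟩
  · rintro ⟨hsB, hs1, hs2⟩
    have hs0 : s ≠ 0 := ssm_tp_ne_zero V1 hs1
    refine ⟨hsB, hs0, ?_⟩
    rintro b hb ⟨c, hc, hbc⟩
    have hb' : b = s⁻¹ * (algebraMap R E π * c) := by
      rw [← hbc, ← mul_assoc, inv_mul_cancel₀ hs0, one_mul]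
    have key : ∀ {W : ValuationSubring E}, ssm_tp_Over π W → s ∉ W.nonunits → b ∈ W.nonunits := by
      intro W hW hsW
      rw [hb', mul_left_comm]
      exact ssm_tp_nonunits_mul W hW.pi_mem (W.mul_mem _ _ (ssm_tp_inv_mem W hsW) (hC.le hW hc))
    exact H.chart_inter hC hb (key H.over1 hs1) (key H.over2 hs2)

/-- **The semilocal Gauss ring of the semistable F-core is `V₁ ⊓ V₂`.** -/
theorem ssm_tp_Hyp.mem_O_iff (H : ssm_tp_Hyp π V1 V2) (hC : ssm_tp_Chart π B) {z : E} :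
    z ∈ sfc_O B.toSubring (algebraMap R E π) ↔ z ∈ V1 ∧ z ∈ V2 := by
  constructor
  · rintro ⟨s, hs, hsz⟩
    obtain ⟨-, hs1, hs2⟩ := (H.mem_S_iff hC).1 hs
    have hs0 : s ≠ 0 := ssm_tp_ne_zero V1 hs1
    have : z = s⁻¹ * (s * z) := by rw [← mul_assoc, inv_mul_cancel₀ hs0, one_mul]
    rw [this]
    exact ⟨V1.mul_mem _ _ (ssm_tp_inv_mem V1 hs1) (hC.le H.over1 hsz),
      V2.mul_mem _ _ (ssm_tp_inv_mem V2 hs2) (hC.le H.over2 hsz)⟩
  · rintro ⟨h1, h2⟩
    obtain ⟨s, hs, hint⟩ := H.semilocal h1 h2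
    exact ⟨algebraMap R E s, (H.mem_S_iff hC).2 ⟨hC.int_mem _ isIntegral_algebraMap,
      H.over1.not_mem_nonunits hs, H.over2.not_mem_nonunits hs⟩, hC.int_mem _ hint⟩

/-- **`π O = 𝔪(V₁) ∩ 𝔪(V₂)`.** -/
theorem ssm_tp_Hyp.mem_piO_iff (H : ssm_tp_Hyp π V1 V2) (hC : ssm_tp_Chart π B) {z : E} :
    z ∈ sfc_piO B.toSubring (algebraMap R E π) ↔ z ∈ V1.nonunits ∧ z ∈ V2.nonunits := by
  have hϖ := H.algebraMap_ne_zero
  constructor
  · rintro ⟨y, hy, rfl⟩
    obtain ⟨h1, h2⟩ := (H.mem_O_iff hC).1 hy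
    exact ⟨ssm_tp_nonunits_mul V1 H.over1.pi_mem h1, ssm_tp_nonunits_mul V2 H.over2.pi_mem h2⟩
  · rintro ⟨h1, h2⟩
    refine ⟨(algebraMap R E π)⁻¹ * z, (H.mem_O_iff hC).2 ⟨H.unif1 z h1, H.unif2 z h2⟩, ?_⟩
    rw [← mul_assoc, mul_inv_cancel₀ hϖ, one_mul]

/-- `π` is not a unit of a chart -/
theorem ssm_tp_Hyp.pi_inv_not_mem (H : ssm_tp_Hyp π V1 V2) (hC : ssm_tp_Chart π B) :
    (algebraMap R E π)⁻¹ ∉ B := by
  intro h
  have h1 := ssm_tp_nonunits_mul V1 H.over1.pi_mem (hC.le H.over1 h)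
  rw [mul_inv_cancel₀ H.algebraMap_ne_zero] at h1
  exact ssm_tp_one_not_mem_nonunits V1 h1

end Chart

section Ideals

variable {R : Type*} [CommRing R] [IsDomain R] [IsIntegrallyClosed R]
  {E : Type*} [Field E] [Algebra R E] [FaithfulSMul R E]
  {A : Type*} [CommRing A] [Algebra A E]
  {π : R} {V V1 V2 : ValuationSubring E}

/-- **The vertical prime `𝔪(V) ∩ B`** of a chart `B ⊆ V` (defined for every subalgebra `B` as
`{b | B b ⊆ 𝔪(V)}`, see `ssm_tp_mem_P`). -/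
def ssm_tp_P (B : Subalgebra A E) (V : ValuationSubring E) : Ideal B where
  carrier := {b | ∀ c : B, (c : E) * (b : E) ∈ V.nonunits}
  add_mem' := by
    intro a b ha hb c
    have : (c : E) * ((a + b : B) : E) = (c : E) * (a : E) + (c : E) * (b : E) := by
      rw [← mul_add]; rfl
    rw [this]
    exact ssm_tp_nonunits_add V (ha c) (hb c)
  zero_mem' := by
    intro c
    have : (c : E) * ((0 : B) : E) = 0 := by rw [ZeroMemClass.coe_zero, mul_zero]
    rw [this]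
    exact ssm_tp_zero_mem_nonunits V
  smul_mem' := by
    intro c' b hb c
    have : (c : E) * ((c' • b : B) : E) = ((c * c' : B) : E) * (b : E) := by
      rw [smul_eq_mul, MulMemClass.coe_mul, MulMemClass.coe_mul, mul_assoc]
    rw [this]
    exact hb (c * c')

variable {B : Subalgebra A E}

theorem ssm_tp_mem_P (hle : ∀ b ∈ B, b ∈ V) {b : B} :
    b ∈ ssm_tp_P B V ↔ (b : E) ∈ V.nonunits := by
  constructor
  · intro h
    have := h 1
    rwa [OneMemClass.coe_one, one_mul] at this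
  · intro h c
    rw [mul_comm]
    exact ssm_tp_nonunits_mul V h (hle _ c.2)

theorem ssm_tp_P_isPrime (hle : ∀ b ∈ B, b ∈ V) : (ssm_tp_P B V).IsPrime := by
  refine ⟨?_, ?_⟩
  · intro h
    have h1 : (1 : B) ∈ ssm_tp_P B V := by rw [h]; exact Submodule.mem_top
    rw [ssm_tp_mem_P hle, OneMemClass.coe_one] at h1
    exact ssm_tp_one_not_mem_nonunits V h1
  · intro a b hab
    rw [ssm_tp_mem_P hle, MulMemClass.coe_mul] at hab
    by_contra hcon
    push Not at hcon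
    rw [ssm_tp_mem_P hle, ssm_tp_mem_P hle] at hcon
    exact ssm_tp_mul_not_mem V hcon.1 hcon.2 hab

theorem ssm_tp_Hyp.mem_P1 (H : ssm_tp_Hyp π V1 V2) (hC : ssm_tp_Chart π B) {b : B} : b ∈ ssm_tp_P B V1 ↔ (b : E) ∈ V1.nonunits :=
  ssm_tp_mem_P (fun _ hb => hC.le H.over1 hb)

theorem ssm_tp_Hyp.mem_P2 (H : ssm_tp_Hyp π V1 V2) (hC : ssm_tp_Chart π B) {b : B} : b ∈ ssm_tp_P B V2 ↔ (b : E) ∈ V2.nonunits :=
  ssm_tp_mem_P (fun _ hb => hC.le H.over2 hb)

theorem ssm_tp_Hyp.P1_isPrime (H : ssm_tp_Hyp π V1 V2) (hC : ssm_tp_Chart π B) : (ssm_tp_P B V1).IsPrime :=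
  ssm_tp_P_isPrime (fun _ hb => hC.le H.over1 hb)

theorem ssm_tp_Hyp.P2_isPrime (H : ssm_tp_Hyp π V1 V2) (hC : ssm_tp_Chart π B) : (ssm_tp_P B V2).IsPrime :=
  ssm_tp_P_isPrime (fun _ hb => hC.le H.over2 hb)

/-- **`π B = P₁ ⊓ P₂`** (the special fibre of the chart is reduced with the two components
`P₁`, `P₂`). -/
theorem ssm_tp_Hyp.P_inf (H : ssm_tp_Hyp π V1 V2) (hC : ssm_tp_Chart π B) (ϖ : B) (hϖ : (ϖ : E) = algebraMap R E π) :
    Ideal.span {ϖ} = ssm_tp_P B V1 ⊓ ssm_tp_P B V2 := by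
  apply le_antisymm
  · rw [Ideal.span_singleton_le_iff_mem]
    refine ⟨(H.mem_P1 hC).2 ?_, (H.mem_P2 hC).2 ?_⟩
    · rw [hϖ]; exact H.over1.pi_mem
    · rw [hϖ]; exact H.over2.pi_mem
  · rintro b ⟨h1, h2⟩
    obtain ⟨c, hc, hbc⟩ := H.chart_inter hC b.2 ((H.mem_P1 hC).1 h1) ((H.mem_P2 hC).1 h2)
    rw [Ideal.mem_span_singleton]
    refine ⟨⟨c, hc⟩, Subtype.ext ?_⟩
    rw [MulMemClass.coe_mul, hϖ]
    exact hbc

/-- **`P₁ ⊄ P₂`** -/
theorem ssm_tp_Hyp.P_not_le12 (H : ssm_tp_Hyp π V1 V2) (hC : ssm_tp_Chart π B) : ¬ ssm_tp_P B V1 ≤ ssm_tp_P B V2 := by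
  intro hle
  obtain ⟨t, htB, h2, h1⟩ := H.chart_sep21 hC
  exact h2 ((H.mem_P2 hC).1 (hle ((H.mem_P1 hC (b := ⟨t, htB⟩)).2 h1)))

/-- **`P₂ ⊄ P₁`** -/
theorem ssm_tp_Hyp.P_not_le21 (H : ssm_tp_Hyp π V1 V2) (hC : ssm_tp_Chart π B) : ¬ ssm_tp_P B V2 ≤ ssm_tp_P B V1 := by
  intro hle
  obtain ⟨t, htB, h1, h2⟩ := H.chart_sep12 hC
  exact h1 ((H.mem_P1 hC).1 (hle ((H.mem_P2 hC (b := ⟨t, htB⟩)).2 h2)))

theorem ssm_tp_Hyp.P_ne (H : ssm_tp_Hyp π V1 V2) (hC : ssm_tp_Chart π B) : ssm_tp_P B V1 ≠ ssm_tp_P B V2 :=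
  fun h => H.P_not_le12 hC h.le

/-- every prime of the chart containing `π` contains `P₁` or `P₂` -/
theorem ssm_tp_Hyp.P_le_of_mem (H : ssm_tp_Hyp π V1 V2) (hC : ssm_tp_Chart π B) (ϖ : B) (hϖ : (ϖ : E) = algebraMap R E π) (Q : Ideal B)
    [Q.IsPrime] (hQ : ϖ ∈ Q) : ssm_tp_P B V1 ≤ Q ∨ ssm_tp_P B V2 ≤ Q := by
  have h1 : ssm_tp_P B V1 * ssm_tp_P B V2 ≤ Q := by
    refine Ideal.mul_le_inf.trans ?_
    rw [← H.P_inf hC ϖ hϖ, Ideal.span_singleton_le_iff_mem]
    exact hQ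
  exact (Ideal.IsPrime.mul_le inferInstance).1 h1

/-- **the primes of the chart minimal over `π` are `P₁` and `P₂`** -/
theorem ssm_tp_Hyp.P_minimalPrimes (H : ssm_tp_Hyp π V1 V2) (hC : ssm_tp_Chart π B) (ϖ : B) (hϖ : (ϖ : E) = algebraMap R E π) :
    (Ideal.span {ϖ}).minimalPrimes = {ssm_tp_P B V1, ssm_tp_P B V2} := by
  haveI := H.P1_isPrime hC
  haveI := H.P2_isPrime hC
  have hinf := H.P_inf hC ϖ hϖ
  ext Q
  simp only [Set.mem_insert_iff, Set.mem_singleton_iff]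
  constructor
  · intro hQ
    haveI : Q.IsPrime := hQ.1.1
    have hQϖ : ϖ ∈ Q := hQ.1.2 (Ideal.subset_span rfl)
    rcases H.P_le_of_mem hC ϖ hϖ Q hQϖ with h | h
    · left
      refine le_antisymm (hQ.2 ⟨inferInstance, ?_⟩ h) h
      rw [hinf]; exact inf_le_left
    · right
      refine le_antisymm (hQ.2 ⟨inferInstance, ?_⟩ h) h
      rw [hinf]; exact inf_le_right
  · rintro (rfl | rfl)
    · refine ⟨⟨inferInstance, by rw [hinf]; exact inf_le_left⟩, ?_⟩
      rintro Q' ⟨hQ'p, hQ'⟩ hle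
      haveI : Q'.IsPrime := hQ'p
      have hQϖ : ϖ ∈ Q' := hQ' (Ideal.subset_span rfl)
      rcases H.P_le_of_mem hC ϖ hϖ Q' hQϖ with h | h
      · exact h
      · exact absurd (h.trans hle) (H.P_not_le21 hC)
    · refine ⟨⟨inferInstance, by rw [hinf]; exact inf_le_right⟩, ?_⟩
      rintro Q' ⟨hQ'p, hQ'⟩ hle
      haveI : Q'.IsPrime := hQ'p
      have hQϖ : ϖ ∈ Q' := hQ' (Ideal.subset_span rfl)
      rcases H.P_le_of_mem hC ϖ hϖ Q' hQϖ with h | h
      · exact absurd (h.trans hle) (H.P_not_le12 hC)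
      · exact h

/-- **`B_{P₁} = V₁`** (ideal form) -/
theorem ssm_tp_Hyp.mem_V1_iff (H : ssm_tp_Hyp π V1 V2) (hC : ssm_tp_Chart π B) {z : E} :
    z ∈ V1 ↔ ∃ t : B, t ∉ ssm_tp_P B V1 ∧ (t : E) * z ∈ B := by
  rw [H.chart_loc1 hC]
  constructor
  · rintro ⟨t, htB, h1, h2⟩
    exact ⟨⟨t, htB⟩, fun h => h1 ((H.mem_P1 hC).1 h), h2⟩
  · rintro ⟨t, h1, h2⟩
    exact ⟨t, t.2, fun h => h1 ((H.mem_P1 hC).2 h), h2⟩

/-- **`B_{P₂} = V₂`** (ideal form) -/
theorem ssm_tp_Hyp.mem_V2_iff (H : ssm_tp_Hyp π V1 V2) (hC : ssm_tp_Chart π B) {z : E} :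
    z ∈ V2 ↔ ∃ t : B, t ∉ ssm_tp_P B V2 ∧ (t : E) * z ∈ B :=
  H.symm.mem_V1_iff hC

/-- `P_i ∩ R = π R` -/
theorem ssm_tp_Hyp.P1_comap (H : ssm_tp_Hyp π V1 V2) (hC : ssm_tp_Chart π B) {a : R} {b : B} (hab : (b : E) = algebraMap R E a) :
    b ∈ ssm_tp_P B V1 ↔ π ∣ a := by
  rw [H.mem_P1 hC, hab]
  exact H.over1.cen a

theorem ssm_tp_Hyp.P2_comap (H : ssm_tp_Hyp π V1 V2) (hC : ssm_tp_Chart π B) {a : R} {b : B} (hab : (b : E) = algebraMap R E a) :
    b ∈ ssm_tp_P B V2 ↔ π ∣ a := by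
  rw [H.mem_P2 hC, hab]
  exact H.over2.cen a

/-- the multiplicative set `S` of the semistable F-core is the complement of `P₁ ∪ P₂` -/
theorem ssm_tp_Hyp.coe_mem_S_iff (H : ssm_tp_Hyp π V1 V2) (hC : ssm_tp_Chart π B) {s : B} :
    (s : E) ∈ sfc_S B.toSubring (algebraMap R E π) ↔
      s ∉ ssm_tp_P B V1 ∧ s ∉ ssm_tp_P B V2 := by
  rw [H.mem_S_iff hC, H.mem_P1 hC, H.mem_P2 hC]
  exact ⟨fun h => h.2, fun h => ⟨s.2, h⟩⟩

end Ideals

/-! ### the three charts of a function field -/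

section Inv

universe v

variable {A0 : Type*} {F0 : Type v} [CommRing A0] [IsDomain A0] [Field F0] [Algebra A0 F0]

/-- in `A0[y]`, `y` transcendental: `π ∣ p(y) ↔ C π ∣ p` -/
theorem ssm_tp_dvd_aeval_iff {y : F0} (hy : Transcendental A0 y) (π : A0) (p : A0[X])
    (b : Algebra.adjoin A0 ({y} : Set F0)) (hb : (b : F0) = aeval y p) :
    algebraMap A0 (Algebra.adjoin A0 ({y} : Set F0)) π ∣ b ↔ C π ∣ p := by
  have he : Polynomial.algEquivOfTranscendental A0 y hy p = b := by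
    apply Subtype.ext
    rw [hb, Polynomial.algEquivOfTranscendental_apply]
    exact (Subalgebra.aeval_coe _ _ _).symm
  have heC : Polynomial.algEquivOfTranscendental A0 y hy (C π) =
      algebraMap A0 (Algebra.adjoin A0 ({y} : Set F0)) π := by
    rw [← Polynomial.algebraMap_eq, AlgEquiv.commutes]
  rw [← he, ← heC]
  exact map_dvd_iff (Polynomial.algEquivOfTranscendental A0 y hy)

theorem ssm_tp_C_dvd_reflect_iff (π : A0) (N : ℕ) (p : A0[X]) :
    C π ∣ reflect N p ↔ C π ∣ p := by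
  rw [Polynomial.C_dvd_iff_dvd_coeff, Polynomial.C_dvd_iff_dvd_coeff]
  constructor
  · intro h i
    have := h (revAt N i)
    rwa [Polynomial.coeff_reflect, Polynomial.revAt_invol] at this
  · intro h i
    rw [Polynomial.coeff_reflect]
    exact h _

/-- `p(y⁻¹) y^N = (reflect N p)(y)` for `N ≥ deg p` -/
theorem ssm_tp_aeval_inv_mul_pow {y : F0} (hy0 : y ≠ 0) (p : A0[X]) {N : ℕ}
    (hN : p.natDegree ≤ N) : aeval y⁻¹ p * y ^ N = aeval y (reflect N p) := by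
  letI : Invertible y := invertibleOfNonzero hy0
  have h1 : (reflect N p).natDegree ≤ N :=
    Polynomial.natDegree_reflect_le.trans (max_le le_rfl hN)
  have h2 := Polynomial.eval₂_reflect_mul_pow (algebraMap A0 F0) y N (reflect N p) h1
  rw [Polynomial.reflect_reflect, invOf_eq_inv] at h2
  exact h2

/-- **A valuation ring over the Gauss ring of `A0[y]` is over the Gauss ring of `A0[y⁻¹]`**
(they are the same ring). -/
theorem ssm_tp_over_inv {y : F0} (hy : Transcendental A0 y) (hyi : Transcendental A0 y⁻¹)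
    {π : A0} (hπ : ¬ IsUnit π) {V : ValuationSubring F0}
    (h : ssm_tp_Over (algebraMap A0 (Algebra.adjoin A0 ({y} : Set F0)) π) V) :
    ssm_tp_Over (algebraMap A0 (Algebra.adjoin A0 ({y⁻¹} : Set F0)) π) V := by
  have hy0 : y ≠ 0 := by
    rintro rfl
    exact hy isAlgebraic_zero
  have hmemR : ∀ p : A0[X], aeval y p ∈ Algebra.adjoin A0 ({y} : Set F0) := fun p => by
    rw [Algebra.adjoin_singleton_eq_range_aeval]; exact ⟨p, rfl⟩
  -- `y` is a unit of `V`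
  have hyV : y ∈ V := h.le ⟨y, Algebra.subset_adjoin rfl⟩
  have hyn : y ∉ V.nonunits := by
    intro hm
    have h1 := (h.cen ⟨y, Algebra.subset_adjoin rfl⟩).1 hm
    rw [ssm_tp_dvd_aeval_iff hy π X _ (by rw [aeval_X]), Polynomial.C_dvd_iff_dvd_coeff] at h1
    have h2 := h1 1
    rw [Polynomial.coeff_X_one] at h2
    exact hπ (isUnit_of_dvd_one h2)
  have hyiV : y⁻¹ ∈ V := ssm_tp_inv_mem V hyn
  have hyNn : ∀ N : ℕ, y ^ N ∉ V.nonunits := ssm_tp_pow_not_mem V hyn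
  have key : ∀ p : A0[X], aeval y⁻¹ p = y⁻¹ ^ p.natDegree * aeval y (reflect p.natDegree p) := by
    intro p
    rw [← ssm_tp_aeval_inv_mul_pow hy0 p le_rfl, inv_pow]
    field_simp
  have hrange : ∀ a : Algebra.adjoin A0 ({y⁻¹} : Set F0), ∃ p : A0[X], (a : F0) = aeval y⁻¹ p := by
    intro a
    have ha : (a : F0) ∈ (aeval y⁻¹ : A0[X] →ₐ[A0] F0).range := by
      rw [← Algebra.adjoin_singleton_eq_range_aeval]
      exact a.2
    obtain ⟨p, hp⟩ := ha
    exact ⟨p, hp.symm⟩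
  constructor
  · intro a
    obtain ⟨p, hp⟩ := hrange a
    change (a : F0) ∈ V
    rw [hp, key p]
    exact V.mul_mem _ _ (V.pow_mem hyiV _) (h.le ⟨_, hmemR _⟩)
  · intro a
    obtain ⟨p, hp'⟩ := hrange a
    rw [ssm_tp_dvd_aeval_iff hyi π p a hp', ← ssm_tp_C_dvd_reflect_iff π p.natDegree p,
      ← ssm_tp_dvd_aeval_iff hy π (reflect p.natDegree p) ⟨_, hmemR _⟩ rfl, ← h.cen]
    change (a : F0) ∈ V.nonunits ↔ aeval y (reflect p.natDegree p) ∈ V.nonunits
    rw [hp', ← ssm_tp_aeval_inv_mul_pow hy0 p le_rfl]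
    constructor
    · intro hm
      exact ssm_tp_nonunits_mul V hm (V.pow_mem hyV _)
    · intro hm
      have h3 := ssm_tp_nonunits_mul V hm (V.pow_mem hyiV p.natDegree)
      have h4 : aeval y⁻¹ p * y ^ p.natDegree * y⁻¹ ^ p.natDegree = aeval y⁻¹ p := by
        rw [inv_pow]
        field_simp
      rwa [h4] at h3

end Inv

section FunFieldInst

open IntermediateField Fermat.Agent.JT3

universe v

variable {A0 L : Type*} {F0 : Type v} [CommRing A0] [IsDomain A0] [IsDiscreteValuationRing A0]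
  [Field L] [Field F0] [Algebra A0 L] [IsFractionRing A0 L] [Algebra L F0] [Algebra A0 F0]
  [IsScalarTower A0 L F0]

/-- **The hypotheses of [TP] in the function-field case** `R = A0[y]`: `prime`, `fin`, `alg` are
automatic. -/
theorem ssm_tp_ff_hyp {π : A0} (hπ : Irreducible π) {y : F0} (hy : Transcendental L y)
    [FiniteDimensional L⟮y⟯ F0] {V1 V2 : ValuationSubring F0}
    (over1 : ssm_tp_Over (algebraMap A0 (Algebra.adjoin A0 ({y} : Set F0)) π) V1)
    (over2 : ssm_tp_Over (algebraMap A0 (Algebra.adjoin A0 ({y} : Set F0)) π) V2)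
    (unif1 : ∀ z ∈ V1.nonunits, (algebraMap A0 F0 π)⁻¹ * z ∈ V1)
    (unif2 : ∀ z ∈ V2.nonunits, (algebraMap A0 F0 π)⁻¹ * z ∈ V2)
    (ne : V1 ≠ V2)
    (only : ∀ V : ValuationSubring F0,
      ssm_tp_Over (algebraMap A0 (Algebra.adjoin A0 ({y} : Set F0)) π) V → V = V1 ∨ V = V2) :
    ssm_tp_Hyp (algebraMap A0 (Algebra.adjoin A0 ({y} : Set F0)) π) V1 V2 := by
  have hyA : Transcendental A0 y := fc_ff_transcendental (L := L) hy
  have hp := (sfc_ff_prime_pi hπ hyA).1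
  have hFT : Algebra.FiniteType A0 (Algebra.adjoin A0 ({y} : Set F0)) := by
    rw [← Subalgebra.fg_iff_finiteType]
    exact ⟨{y}, by rw [Finset.coe_singleton]⟩
  haveI : IsNoetherianRing (Algebra.adjoin A0 ({y} : Set F0)) :=
    Algebra.FiniteType.isNoetherianRing A0 _
  haveI : Algebra.IsAlgebraic (Algebra.adjoin A0 ({y} : Set F0)) F0 := fc_ff_isAlgebraic (L := L) y
  exact ⟨hp, fun a ha => WfDvdMonoid.max_power_factor ha hp.irreducible,
    fun z => Algebra.IsAlgebraic.isAlgebraic z, over1, over2, unif1, unif2, ne, only⟩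

/-- the chart `B_y` (normalisation of `A0[y]`) is a chart over `A0[y]` -/
theorem ssm_tp_ff_chart {π : A0} (hπ : Irreducible π) {y : F0} (hy : Transcendental L y) :
    ssm_tp_Chart (algebraMap A0 (Algebra.adjoin A0 ({y} : Set F0)) π)
      (fc_chart A0 ({y} : Set F0)) := by
  have hyA : Transcendental A0 y := fc_ff_transcendental (L := L) hy
  haveI : IsIntegrallyClosed (Algebra.adjoin A0 ({y} : Set F0)) := fc_ff_isIntegrallyClosed hyA
  haveI : FaithfulSMul (Algebra.adjoin A0 ({y} : Set F0)) F0 :=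
    (faithfulSMul_iff_algebraMap_injective _ _).2 Subtype.val_injective
  exact ssm_tp_chart_of_iff (sfc_ff_prime_pi hπ hyA).1 (fun _ => Iff.rfl)

/-- the overlap chart `B₁₂ = B₁[1/x]` is a chart over `A0[x]` -/
theorem ssm_tp_ff_chart12 {π : A0} (hπ : Irreducible π) {x : F0} (hx : Transcendental L x) :
    ssm_tp_Chart (algebraMap A0 (Algebra.adjoin A0 ({x} : Set F0)) π)
      (fc_chart A0 ({x, x⁻¹} : Set F0)) := by
  have hxA : Transcendental A0 x := fc_ff_transcendental (L := L) hx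
  have hx0 : x ≠ 0 := by
    rintro rfl
    exact hx isAlgebraic_zero
  obtain ⟨hp, hpx⟩ := sfc_ff_prime_pi hπ hxA
  refine ⟨fun z hz => fc_chart1_le x hz, fun b hb => ?_⟩
  obtain ⟨k, hk⟩ := fc_clear1 hx0 hb
  refine ⟨(⟨x, Algebra.subset_adjoin rfl⟩ : Algebra.adjoin A0 ({x} : Set F0)) ^ k,
    fun hd => hpx (hp.dvd_of_dvd_pow hd), ?_, ?_⟩
  · rw [map_pow, ← inv_pow]
    exact (fc_chart A0 ({x, x⁻¹} : Set F0)).pow_mem
      (fc_adjoin_le_chart _ (Algebra.subset_adjoin (Set.mem_insert_of_mem _ rfl))) k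
  · rw [map_pow]
    exact hk

/-- the overlap chart `B₁₂ = B₂[x]` is a chart over `A0[x⁻¹]` -/
theorem ssm_tp_ff_chart21 {π : A0} (hπ : Irreducible π) {x : F0} (hx : Transcendental L x) :
    ssm_tp_Chart (algebraMap A0 (Algebra.adjoin A0 ({x⁻¹} : Set F0)) π)
      (fc_chart A0 ({x, x⁻¹} : Set F0)) := by
  have hxi : Transcendental L x⁻¹ := fun h => hx (IsAlgebraic.inv_iff.mp h)
  have hxA : Transcendental A0 x⁻¹ := fc_ff_transcendental (L := L) hxi
  have hx0 : x ≠ 0 := by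
    rintro rfl
    exact hx isAlgebraic_zero
  obtain ⟨hp, hpx⟩ := sfc_ff_prime_pi hπ hxA
  refine ⟨fun z hz => fc_chart2_le x hz, fun b hb => ?_⟩
  obtain ⟨k, hk⟩ := fc_clear2 hx0 hb
  refine ⟨(⟨x⁻¹, Algebra.subset_adjoin rfl⟩ : Algebra.adjoin A0 ({x⁻¹} : Set F0)) ^ k,
    fun hd => hpx (hp.dvd_of_dvd_pow hd), ?_, ?_⟩
  · rw [map_pow, ← inv_pow]
    refine (fc_chart A0 ({x, x⁻¹} : Set F0)).pow_mem ?_ k
    change (x⁻¹)⁻¹ ∈ fc_chart A0 ({x, x⁻¹} : Set F0)
    rw [inv_inv]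
    exact fc_adjoin_le_chart _ (Algebra.subset_adjoin (Set.mem_insert _ _))
  · rw [map_pow]
    exact hk

/-- **from the coordinate `x` to the coordinate `x⁻¹`**: the hypotheses of [TP] over `A0[x]` give
the hypotheses over `A0[x⁻¹]` (the Gauss rings `A0[x]_(π)` and `A0[x⁻¹]_(π)` coincide). -/
theorem ssm_tp_ff_hyp_inv {π : A0} (hπ : Irreducible π) {x : F0} (hx : Transcendental L x)
    [FiniteDimensional L⟮x⟯ F0] {V1 V2 : ValuationSubring F0}
    (H : ssm_tp_Hyp (algebraMap A0 (Algebra.adjoin A0 ({x} : Set F0)) π) V1 V2) :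
    ssm_tp_Hyp (algebraMap A0 (Algebra.adjoin A0 ({x⁻¹} : Set F0)) π) V1 V2 := by
  have hxi : Transcendental L x⁻¹ := fun h => hx (IsAlgebraic.inv_iff.mp h)
  have hxA : Transcendental A0 x := fc_ff_transcendental (L := L) hx
  have hxiA : Transcendental A0 x⁻¹ := fc_ff_transcendental (L := L) hxi
  haveI hfd2 : FiniteDimensional L⟮x⁻¹⟯ F0 := by
    rw [rt_adjoin_inv]; infer_instance
  refine ssm_tp_ff_hyp (L := L) hπ hxi (ssm_tp_over_inv hxA hxiA hπ.not_isUnit H.over1)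
    (ssm_tp_over_inv hxA hxiA hπ.not_isUnit H.over2) H.unif1 H.unif2 H.ne ?_
  intro V hV
  apply H.only V
  have h1 := ssm_tp_over_inv hxiA (by rwa [inv_inv]) hπ.not_isUnit hV
  rwa [inv_inv] at h1

/-- **[TP], model form**: the fields `prime1 prime2 hrad h12 h21` of the abstract two-component
model on the overlap chart `B₁₂`, with `P_i := ssm_tp_P B₁₂ V_i = 𝔪(V_i) ∩ B₁₂`, and the
identification of the semilocal Gauss ring of the semistable F-core. -/
theorem ssm_tp_ff_model {π : A0} (hπ : Irreducible π) {x : F0} (hx : Transcendental L x)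
    {V1 V2 : ValuationSubring F0}
    (H : ssm_tp_Hyp (algebraMap A0 (Algebra.adjoin A0 ({x} : Set F0)) π) V1 V2) :
    (ssm_tp_P (fc_chart A0 ({x, x⁻¹} : Set F0)) V1).IsPrime ∧
    (ssm_tp_P (fc_chart A0 ({x, x⁻¹} : Set F0)) V2).IsPrime ∧
    Ideal.span {algebraMap A0 (fc_chart A0 ({x, x⁻¹} : Set F0)) π} =
      ssm_tp_P (fc_chart A0 ({x, x⁻¹} : Set F0)) V1 ⊓
        ssm_tp_P (fc_chart A0 ({x, x⁻¹} : Set F0)) V2 ∧
    ¬ ssm_tp_P (fc_chart A0 ({x, x⁻¹} : Set F0)) V1 ≤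
        ssm_tp_P (fc_chart A0 ({x, x⁻¹} : Set F0)) V2 ∧
    ¬ ssm_tp_P (fc_chart A0 ({x, x⁻¹} : Set F0)) V2 ≤
        ssm_tp_P (fc_chart A0 ({x, x⁻¹} : Set F0)) V1 ∧
    (∀ b : fc_chart A0 ({x, x⁻¹} : Set F0),
      (b ∈ ssm_tp_P (fc_chart A0 ({x, x⁻¹} : Set F0)) V1 ↔ (b : F0) ∈ V1.nonunits) ∧
      (b ∈ ssm_tp_P (fc_chart A0 ({x, x⁻¹} : Set F0)) V2 ↔ (b : F0) ∈ V2.nonunits)) ∧
    (∀ z : F0, z ∈ sfc_O (fc_chart A0 ({x, x⁻¹} : Set F0)).toSubring (algebraMap A0 F0 π) ↔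
      z ∈ V1 ∧ z ∈ V2) ∧
    (∀ z : F0, z ∈ sfc_piO (fc_chart A0 ({x, x⁻¹} : Set F0)).toSubring (algebraMap A0 F0 π) ↔
      z ∈ V1.nonunits ∧ z ∈ V2.nonunits) := by
  have hxA : Transcendental A0 x := fc_ff_transcendental (L := L) hx
  haveI : IsIntegrallyClosed (Algebra.adjoin A0 ({x} : Set F0)) := fc_ff_isIntegrallyClosed hxA
  haveI : FaithfulSMul (Algebra.adjoin A0 ({x} : Set F0)) F0 :=
    (faithfulSMul_iff_algebraMap_injective _ _).2 Subtype.val_injective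
  have hC := ssm_tp_ff_chart12 (L := L) hπ hx
  exact ⟨H.P1_isPrime hC, H.P2_isPrime hC, H.P_inf hC _ rfl, H.P_not_le12 hC, H.P_not_le21 hC,
    fun b => ⟨H.mem_P1 hC, H.mem_P2 hC⟩, fun z => H.mem_O_iff hC, fun z => H.mem_piO_iff hC⟩

end FunFieldInst

end Fermat.Agent.SS
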