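/-
SS [M](a): the abstract "two valuations" lemma (Mathlib only).

Setting: `R` a Dedekind domain (in the application a DVR: the Gauss valuation ring of the
function field `E''` of level `N/q`, embedded by `τ ↦ qτ`), `p` a maximal ideal, `S` a Dedekind
domain which is a finite torsion-free `R`-algebra of rank `q + 1` (the integral closure of `R` in
the function field `E` of level `N`).  `Q` is a prime of `S` over `p` (the Gauss valuation of `E`)
whose residue field contains an element `t̄ ∉ κ(p)` with `t̄ ^ q ∈ κ(p)`, in characteristic `q`.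

Conclusions (`ssm_tv_main`): `f(Q|p) = q`, `e(Q|p) = 1`, there is exactly one other prime `Q2`
over `p`, it has `e = f = 1`, `pS = Q ⊓ Q2 = Q * Q2`, the residue map `R → S/Q2` is onto, and
it is computed by the trace: `Tr_{S/R}(s) ≡ s mod Q2`.
-/
import Mathlib

namespace Fermat.Agent.SS

open Ideal Module Polynomial

/-- Field lemma: in characteristic `q` (prime), a finite extension `κ/k` containing an element
`t ∉ k` with `t ^ q ∈ k` has degree divisible by `q` and is not separable. -/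
theorem ssm_tv_field {k κ : Type*} [Field k] [Field κ] [Algebra k κ]
    [FiniteDimensional k κ] {q : ℕ} (hq : q.Prime) (hchar : (q : κ) = 0) (t : κ) (a : k)
    (hta : t ^ q = algebraMap k κ a) (ht : ∀ b : k, t ≠ algebraMap k κ b) :
    q ∣ finrank k κ ∧ ¬ Algebra.IsSeparable k κ := by
  have : Fact q.Prime := ⟨hq⟩
  have : CharP κ q := by
    have h1 : ringChar κ ∣ q := ringChar.dvd hchar
    have h2 : ringChar κ = q := by
      rcases (Nat.dvd_prime hq).1 h1 with h | h
      · exact absurd h (CharP.ringChar_ne_one)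
      · exact h
    rw [← h2]; exact ringChar.charP κ
  have hk : (q : k) = 0 := by
    apply (algebraMap k κ).injective
    rw [map_natCast, hchar, map_zero]
  have hirr : Irreducible (X ^ q - C a : k[X]) := by
    refine X_pow_sub_C_irreducible_of_prime hq fun b hb => ht b ?_
    have h3 : (t - algebraMap k κ b) ^ q = 0 := by
      rw [sub_pow_char, hta, ← map_pow, hb, sub_self]
    exact sub_eq_zero.1 (pow_eq_zero_iff hq.ne_zero |>.1 h3)
  have hroot : aeval t (X ^ q - C a : k[X]) = 0 := by simp [hta]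
  have hmin : minpoly k t = X ^ q - C a :=
    (minpoly.eq_of_irreducible_of_monic hirr hroot (monic_X_pow_sub_C a hq.ne_zero)).symm
  refine ⟨?_, fun hsep => ?_⟩
  · have hdvd := minpoly.degree_dvd (K := k) (L := κ) (x := t) (Algebra.IsIntegral.isIntegral t)
    rwa [hmin, natDegree_X_pow_sub_C] at hdvd
  · have h1 : (minpoly k t).Separable := Algebra.IsSeparable.isSeparable k t
    rw [hmin, separable_def] at h1
    have h2 : derivative (X ^ q - C a : k[X]) = 0 := by
      rw [derivative_sub, derivative_C, sub_zero, derivative_X_pow, hk, C_0, zero_mul]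
    rw [h2, isCoprime_zero_right] at h1
    exact hirr.not_isUnit h1

section Dedekind

variable {R S : Type*} [CommRing R] [IsDedekindDomain R] [CommRing S] [IsDedekindDomain S]
  [Algebra R S] [Module.Finite R S] [Module.IsTorsionFree R S]

/-- The inertia degree of a prime is at most the rank. -/
theorem ssm_tv_inertiaDeg_le (p : Ideal R) [p.IsMaximal] (Q : Ideal S) [Q.IsPrime]
    [Q.LiesOver p] : Q.inertiaDeg R ≤ finrank R S := by
  classical
  have hsum := Ideal.sum_ramification_inertia_eq_finrank p S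
  let Q0 : p.primesOver S := ⟨Q, ‹_›, ‹_›⟩
  rw [← Finset.add_sum_erase _ _ (Finset.mem_univ Q0)] at hsum
  change Q.ramificationIdx R * Q.inertiaDeg R + _ = _ at hsum
  have he1 : 1 ≤ Q.ramificationIdx R := ramificationIdx_pos Q R
  calc Q.inertiaDeg R = 1 * Q.inertiaDeg R := (one_mul _).symm
    _ ≤ Q.ramificationIdx R * Q.inertiaDeg R := Nat.mul_le_mul_right _ he1
    _ ≤ _ := by omega

omit [IsDedekindDomain R] [IsDedekindDomain S] [Module.IsTorsionFree R S] in
/-- The residue field extension at `Q` contains a purely inseparable element of degree `q`: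
it is not separable. -/
theorem ssm_tv_insep (p : Ideal R) [p.IsMaximal] {q : ℕ} (hq : q.Prime)
    (Q : Ideal S) [Q.IsPrime] [Q.LiesOver p]
    (hchar : (q : S) ∈ Q) (t : S) (r : R) (ht1 : t ^ q - algebraMap R S r ∈ Q)
    (ht2 : ∀ r : R, t - algebraMap R S r ∉ Q) :
    q ∣ Q.inertiaDeg R ∧ ¬ Algebra.IsSeparable (R ⧸ p) (S ⧸ Q) := by
  have : Q.IsMaximal := Ideal.IsMaximal.of_liesOver_isMaximal Q p
  letI : Field (R ⧸ p) := Quotient.field p
  letI : Field (S ⧸ Q) := Quotient.field Q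
  have hf : Q.inertiaDeg R = finrank (R ⧸ p) (S ⧸ Q) := inertiaDeg_eq_of_isMaximal p Q
  rw [hf]
  refine ssm_tv_field hq ?_ (Ideal.Quotient.mk Q t) (Ideal.Quotient.mk p r) ?_ ?_
  · rw [← map_natCast (Ideal.Quotient.mk Q)]
    exact Ideal.Quotient.eq_zero_iff_mem.2 hchar
  · rw [← map_pow, Ideal.Quotient.algebraMap_mk_of_liesOver]
    exact (Ideal.Quotient.eq).2 ht1
  · intro b hb
    obtain ⟨b, rfl⟩ := Ideal.Quotient.mk_surjective b
    rw [Ideal.Quotient.algebraMap_mk_of_liesOver] at hb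
    exact ht2 b ((Ideal.Quotient.eq).1 hb)

/-- `f(Q|p) = q`. -/
theorem ssm_tv_inertiaDeg (p : Ideal R) [p.IsMaximal] {q : ℕ} (hq : q.Prime)
    (hrank : finrank R S = q + 1) (Q : Ideal S) [Q.IsPrime] [Q.LiesOver p]
    (hchar : (q : S) ∈ Q) (t : S) (r : R) (ht1 : t ^ q - algebraMap R S r ∈ Q)
    (ht2 : ∀ r : R, t - algebraMap R S r ∉ Q) : Q.inertiaDeg R = q := by
  have hle := ssm_tv_inertiaDeg_le p Q
  rw [hrank] at hle
  have hpos : 0 < Q.inertiaDeg R := inertiaDeg_pos Q R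
  obtain ⟨m, hm⟩ := (ssm_tv_insep p hq Q hchar t r ht1 ht2).1
  have hq2 := hq.two_le
  have hm1 : m = 1 := by
    rcases Nat.lt_or_ge m 2 with h | h
    · interval_cases m
      · omega
      · rfl
    · have : q * 2 ≤ q * m := Nat.mul_le_mul_left q h
      omega
  rw [hm, hm1, mul_one]

/-- Counting: if one prime `Q` over `p` has inertia degree `q ≥ 2` and the extension has rank
`q + 1`, then `Q` is unramified and there is exactly one other prime over `p`, with
`e = f = 1`. -/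
theorem ssm_tv_count (p : Ideal R) [p.IsMaximal] {q : ℕ} (hq : 2 ≤ q)
    (hrank : finrank R S = q + 1) (Q : Ideal S) [Q.IsPrime] [Q.LiesOver p]
    (hf : Q.inertiaDeg R = q) :
    Q.ramificationIdx R = 1 ∧ ∃ Q2 : Ideal S, Q2.IsPrime ∧ Q2.LiesOver p ∧ Q2 ≠ Q ∧
      Q2.ramificationIdx R = 1 ∧ Q2.inertiaDeg R = 1 ∧
      ∀ P : Ideal S, P.IsPrime → P.LiesOver p → P = Q ∨ P = Q2 := by
  classical
  have hsum := Ideal.sum_ramification_inertia_eq_finrank p S
  rw [hrank] at hsum
  let Q0 : p.primesOver S := ⟨Q, ‹_›, ‹_›⟩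
  rw [← Finset.add_sum_erase _ _ (Finset.mem_univ Q0)] at hsum
  have hpos : ∀ P : p.primesOver S, 1 ≤ P.1.ramificationIdx R * P.1.inertiaDeg R := by
    intro P
    have := P.2.1
    exact Nat.succ_le_of_lt (Nat.mul_pos (ramificationIdx_pos P.1 R) (inertiaDeg_pos P.1 R))
  have he1 : 1 ≤ Q.ramificationIdx R := ramificationIdx_pos Q R
  change Q.ramificationIdx R * Q.inertiaDeg R + _ = _ at hsum
  rw [hf] at hsum
  have heq : Q.ramificationIdx R = 1 := by
    by_contra hne
    have h2 : 2 ≤ Q.ramificationIdx R := by omega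
    have : 2 * q ≤ Q.ramificationIdx R * q := Nat.mul_le_mul_right q h2
    omega
  rw [heq, one_mul] at hsum
  have hrest : ∑ P ∈ Finset.univ.erase Q0, P.1.ramificationIdx R * P.1.inertiaDeg R = 1 := by
    omega
  have hne : (Finset.univ.erase Q0).Nonempty := by
    rw [Finset.nonempty_iff_ne_empty]
    intro h
    rw [h, Finset.sum_empty] at hrest
    exact absurd hrest (by norm_num)
  obtain ⟨P2, hP2⟩ := hne
  have hP2' : ∀ P ∈ Finset.univ.erase Q0, P = P2 := by
    intro P hP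
    by_contra hPne
    have h3 : P2 ∈ (Finset.univ.erase Q0).erase P := Finset.mem_erase.2 ⟨Ne.symm hPne, hP2⟩
    rw [← Finset.add_sum_erase _ _ hP, ← Finset.add_sum_erase _ _ h3] at hrest
    have := hpos P
    have := hpos P2
    omega
  have hP2val : P2.1.ramificationIdx R * P2.1.inertiaDeg R = 1 := by
    rw [← Finset.add_sum_erase _ _ hP2] at hrest
    have := hpos P2
    omega
  have hmul := Nat.eq_one_of_mul_eq_one_right hP2val
  have hmul' := Nat.eq_one_of_mul_eq_one_left hP2val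
  refine ⟨heq, P2.1, P2.2.1, P2.2.2, ?_, hmul, hmul', ?_⟩
  · intro h
    have : P2 = Q0 := Subtype.ext h
    exact (Finset.mem_erase.1 hP2).1 this
  · intro P hP1 hP2''
    by_cases hPQ : P = Q
    · exact Or.inl hPQ
    · right
      have hmem : (⟨P, hP1, hP2''⟩ : p.primesOver S) ∈ Finset.univ.erase Q0 :=
        Finset.mem_erase.2 ⟨fun h => hPQ (congrArg Subtype.val h), Finset.mem_univ _⟩
      exact congrArg Subtype.val (hP2' _ hmem)

/-- The factorisation of `p S` when there are exactly two unramified primes above `p`. -/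
theorem ssm_tv_map_eq (p : Ideal R) [p.IsMaximal] (hp0 : p ≠ ⊥) (Q Q2 : Ideal S)
    [Q.IsPrime] [Q.LiesOver p] [Q2.IsPrime] [Q2.LiesOver p] (hne : Q2 ≠ Q)
    (he : Q.ramificationIdx R = 1) (he2 : Q2.ramificationIdx R = 1)
    (hall : ∀ P : Ideal S, P.IsPrime → P.LiesOver p → P = Q ∨ P = Q2) :
    p.map (algebraMap R S) = Q * Q2 ∧ IsCoprime Q Q2 ∧ Q * Q2 = Q ⊓ Q2 := by
  classical
  have : Q.IsMaximal := Ideal.IsMaximal.of_liesOver_isMaximal Q p
  have : Q2.IsMaximal := Ideal.IsMaximal.of_liesOver_isMaximal Q2 p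
  have hcop : IsCoprime Q Q2 := Ideal.isCoprime_of_isMaximal (Ne.symm hne)
  refine ⟨?_, hcop, Ideal.mul_eq_inf_of_isCoprime hcop⟩
  rw [Ideal.map_algebraMap_eq_finsetProd_pow (R := S) hp0]
  have hset : (p.primesOver S).toFinset = {Q, Q2} := by
    ext P
    simp only [Set.mem_toFinset, Finset.mem_insert, Finset.mem_singleton]
    constructor
    · rintro ⟨h1, h2⟩
      exact hall P h1 h2
    · rintro (rfl | rfl)
      · exact ⟨‹_›, ‹_›⟩
      · exact ⟨‹_›, ‹_›⟩
  rw [hset, Finset.prod_pair (Ne.symm hne), he, he2, pow_one, pow_one]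

omit [IsDedekindDomain R] [IsDedekindDomain S] [Module.IsTorsionFree R S] in
/-- Inertia degree one means that the residue map from the base is onto. -/
theorem ssm_tv_surj_of_inertiaDeg_one (p : Ideal R) [p.IsMaximal] (Q2 : Ideal S) [Q2.IsPrime]
    [Q2.LiesOver p] (hf2 : Q2.inertiaDeg R = 1) (s : S) :
    ∃ r : R, s - algebraMap R S r ∈ Q2 := by
  have : Q2.IsMaximal := Ideal.IsMaximal.of_liesOver_isMaximal Q2 p
  letI : Field (R ⧸ p) := Quotient.field p
  letI : Field (S ⧸ Q2) := Quotient.field Q2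
  rw [inertiaDeg_eq_of_isMaximal p Q2] at hf2
  have h1 : (⊥ : Subalgebra (R ⧸ p) (S ⧸ Q2)) = ⊤ := Subalgebra.bot_eq_top_of_finrank_eq_one hf2
  have h2 : Ideal.Quotient.mk Q2 s ∈ (⊥ : Subalgebra (R ⧸ p) (S ⧸ Q2)) := by
    rw [h1]; exact Algebra.mem_top
  obtain ⟨b, hb⟩ := Algebra.mem_bot.1 h2
  obtain ⟨r, rfl⟩ := Ideal.Quotient.mk_surjective b
  refine ⟨r, ?_⟩
  rw [Ideal.Quotient.algebraMap_mk_of_liesOver] at hb
  exact (Ideal.Quotient.eq).1 hb.symm

/-- The trace computes the residue at the second prime: `Tr_{S/R}(s) ≡ s mod Q2` when the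
residue extension at `Q` is inseparable and `f(Q2|p) = 1`. -/
theorem ssm_tv_trace (p : Ideal R) [p.IsMaximal] (Q Q2 : Ideal S)
    [Q.IsPrime] [Q.LiesOver p] [Q2.IsPrime] [Q2.LiesOver p]
    (hmap : p.map (algebraMap R S) = Q * Q2) (hcop : IsCoprime Q Q2)
    (hinsep : ¬ Algebra.IsSeparable (R ⧸ p) (S ⧸ Q)) (hf2 : Q2.inertiaDeg R = 1) (s : S) :
    algebraMap R S (Algebra.intTrace R S s) - s ∈ Q2 := by
  have : Q.IsMaximal := Ideal.IsMaximal.of_liesOver_isMaximal Q p
  have : Q2.IsMaximal := Ideal.IsMaximal.of_liesOver_isMaximal Q2 p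
  letI : Field (R ⧸ p) := Quotient.field p
  letI : Field (S ⧸ Q) := Quotient.field Q
  letI : Field (S ⧸ Q2) := Quotient.field Q2
  let e : (S ⧸ p.map (algebraMap R S)) ≃ₐ[R ⧸ p] ((S ⧸ Q) × S ⧸ Q2) :=
    { __ := (Ideal.quotEquivOfEq hmap).trans (Ideal.quotientMulEquivQuotientProd Q Q2 hcop),
      commutes' := Quotient.ind fun _ ↦ rfl }
  have h1 := Algebra.trace_quotient_eq_of_isDedekindDomain (S := S) p s
  rw [← Algebra.trace_eq_of_algEquiv e, Algebra.trace_prod_apply] at h1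
  have h2 : Algebra.trace (R ⧸ p) (S ⧸ Q) = 0 := Algebra.trace_eq_zero_of_not_isSeparable hinsep
  rw [h2, LinearMap.zero_apply, zero_add] at h1
  obtain ⟨r, hr⟩ := ssm_tv_surj_of_inertiaDeg_one p Q2 hf2 s
  have h3 : (e (Ideal.Quotient.mk _ s)).2 =
      algebraMap (R ⧸ p) (S ⧸ Q2) (Ideal.Quotient.mk p r) := by
    rw [Ideal.Quotient.algebraMap_mk_of_liesOver]
    exact (Ideal.Quotient.eq).2 hr
  rw [h3, Algebra.trace_algebraMap] at h1
  rw [inertiaDeg_eq_of_isMaximal p Q2] at hf2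
  rw [hf2, one_smul] at h1
  have h4 := (Ideal.Quotient.eq).1 h1
  have h5 : algebraMap R S (r - Algebra.intTrace R S s) ∈ Q2 := by
    have : r - Algebra.intTrace R S s ∈ Q2.under R := by rwa [← Q2.over_def p]
    exact this
  rw [map_sub] at h5
  have : algebraMap R S (Algebra.intTrace R S s) - s =
      -(algebraMap R S r - algebraMap R S (Algebra.intTrace R S s)) - (s - algebraMap R S r) := by
    ring
  rw [this]
  exact Q2.sub_mem (Q2.neg_mem h5) hr

omit [IsDedekindDomain R] [IsDedekindDomain S] [Module.IsTorsionFree R S] in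
/-- The other side: if a second ring `R'` maps to `S`, its residue image at `Q` contains that of
`R` and one element outside it, and `f(Q|p)` is prime, then `R' → S/Q` is onto
(`f(Q|p') = 1`). -/
theorem ssm_tv_residue_top {R' : Type*} [CommRing R'] [Algebra R' S] (p : Ideal R) [p.IsMaximal]
    {q : ℕ} (hq : q.Prime) (Q : Ideal S) [Q.IsPrime] [Q.LiesOver p] (hf : Q.inertiaDeg R = q)
    (h1 : ∀ x : R, ∃ y : R', algebraMap R S x - algebraMap R' S y ∈ Q)
    (t' : R') (ht2 : ∀ r : R, algebraMap R' S t' - algebraMap R S r ∉ Q) (s : S) :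
    ∃ y : R', s - algebraMap R' S y ∈ Q := by
  have : Q.IsMaximal := Ideal.IsMaximal.of_liesOver_isMaximal Q p
  letI : Field (R ⧸ p) := Quotient.field p
  letI : Field (S ⧸ Q) := Quotient.field Q
  rw [inertiaDeg_eq_of_isMaximal p Q] at hf
  let f : R' →+* S ⧸ Q := (Ideal.Quotient.mk Q).comp (algebraMap R' S)
  let A' : Subalgebra (R ⧸ p) (S ⧸ Q) :=
    { f.rangeS with
      algebraMap_mem' := by
        intro b
        obtain ⟨x, rfl⟩ := Ideal.Quotient.mk_surjective b
        obtain ⟨y, hy⟩ := h1 x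
        refine ⟨y, ?_⟩
        rw [Ideal.Quotient.algebraMap_mk_of_liesOver]
        exact ((Ideal.Quotient.eq).2 hy).symm }
  have hsimple := Subalgebra.isSimpleOrder_of_finrank_prime (R ⧸ p) (S ⧸ Q) (hf ▸ hq)
  rcases hsimple.eq_bot_or_eq_top A' with h | h
  · exfalso
    have hmem : f t' ∈ A' := ⟨t', rfl⟩
    rw [h] at hmem
    obtain ⟨b, hb⟩ := Algebra.mem_bot.1 hmem
    obtain ⟨r, rfl⟩ := Ideal.Quotient.mk_surjective b
    rw [Ideal.Quotient.algebraMap_mk_of_liesOver] at hb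
    exact ht2 r ((Ideal.Quotient.eq).1 hb.symm)
  · have hmem : Ideal.Quotient.mk Q s ∈ A' := by rw [h]; exact Algebra.mem_top
    obtain ⟨y, hy⟩ := hmem
    exact ⟨y, (Ideal.Quotient.eq).1 hy.symm⟩

/-- **The two valuations lemma** (Dedekind form).  `R ⊆ S` Dedekind, `S` finite torsion-free of
rank `q + 1`, `Q` a prime over the maximal ideal `p` of residue characteristic `q` whose residue
field contains `t̄ ∉ κ(p)` with `t̄ ^ q ∈ κ(p)`.  Then `f(Q|p) = q`, `e(Q|p) = 1`, and there is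
exactly one other prime `Q2` over `p`; it has `e = f = 1`, `pS = Q * Q2 = Q ⊓ Q2`, the residue
map `R → S/Q2` is onto and `Tr_{S/R}(s) ≡ s mod Q2`. -/
theorem ssm_tv_main (p : Ideal R) [p.IsMaximal] (hp0 : p ≠ ⊥) {q : ℕ} (hq : q.Prime)
    (hrank : finrank R S = q + 1) (Q : Ideal S) [Q.IsPrime] [Q.LiesOver p]
    (hchar : (q : S) ∈ Q) (t : S) (r : R) (ht1 : t ^ q - algebraMap R S r ∈ Q)
    (ht2 : ∀ r : R, t - algebraMap R S r ∉ Q) :
    Q.inertiaDeg R = q ∧ Q.ramificationIdx R = 1 ∧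
    ∃ Q2 : Ideal S, Q2.IsPrime ∧ Q2.LiesOver p ∧ Q2 ≠ Q ∧
      Q2.ramificationIdx R = 1 ∧ Q2.inertiaDeg R = 1 ∧
      (∀ P : Ideal S, P.IsPrime → P.LiesOver p → P = Q ∨ P = Q2) ∧
      p.map (algebraMap R S) = Q * Q2 ∧ IsCoprime Q Q2 ∧ p.map (algebraMap R S) = Q ⊓ Q2 ∧
      (∀ s : S, ∃ r : R, s - algebraMap R S r ∈ Q2) ∧
      (∀ s : S, algebraMap R S (Algebra.intTrace R S s) - s ∈ Q2) := by
  have hf := ssm_tv_inertiaDeg p hq hrank Q hchar t r ht1 ht2
  obtain ⟨he, Q2, hQ2p, hQ2o, hne, he2, hf2, hall⟩ := ssm_tv_count p hq.two_le hrank Q hf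
  obtain ⟨hmap, hcop, hinf⟩ := ssm_tv_map_eq p hp0 Q Q2 hne he he2 hall
  refine ⟨hf, he, Q2, hQ2p, hQ2o, hne, he2, hf2, hall, hmap, hcop, hmap.trans hinf, ?_, ?_⟩
  · exact ssm_tv_surj_of_inertiaDeg_one p Q2 hf2
  · exact ssm_tv_trace p Q Q2 hmap hcop (ssm_tv_insep p hq Q hchar t r ht1 ht2).2 hf2

omit [IsDedekindDomain R] [IsDedekindDomain S] [Module.Finite R S] [Module.IsTorsionFree R S] in
/-- Uniformiser form of `pS = Q ⊓ Q2`. -/
theorem ssm_tv_dvd_iff (p : Ideal R) (Q Q2 : Ideal S) (π : R) (hπ : p = Ideal.span {π})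
    (hmap : p.map (algebraMap R S) = Q ⊓ Q2) (x : S) :
    algebraMap R S π ∣ x ↔ x ∈ Q ∧ x ∈ Q2 := by
  rw [← Ideal.mem_inf, ← hmap, hπ, Ideal.map_span, Set.image_singleton,
    Ideal.mem_span_singleton]

end Dedekind

end Fermat.Agent.SS
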