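/-
SS [M] leaf [TV-W]: the "two valuations" lemma in VALUATION-SUBRING + ATKIN-LEHNER form.

`K ⊆ E` fields, `[E : K] = q + 1` separable, `R` a DVR with fraction field `K`, `W` an involution
of `E`, `V1` a valuation subring of `E` with `V1 ∩ K = R` and `V1 ∩ W(K) = W(R)`;
`V2 := V1.comap W`.  Hypotheses (a) `W lam - lam ^ q ∈ 𝔪(V1)`, (b) `lam - (W lam) ^ q ∉ 𝔪(V1)`,
(c) `∀ z ∈ R, lam - W z ∉ 𝔪(V1)`.  Conclusions: `V1 ≠ V2`, they are the only valuation subrings of
`E` over `R`, a uniformiser of `R` generates both maximal ideals, `κ(V1) = κ(R)`,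
`κ(V2) = κ(W R)`, `κ(V2) ^ q ⊆ κ(R)`, and `integralClosure R E = V1 ∩ V2`, `π S = P1 ⊓ P2`.
The ideal-theoretic core is `ssm_tv_main` (SS/Model/TwoVal.lean).
-/
import Mathlib
import Fermat.Agent.JT3.Algebra.AbhyankarSeam
import Fermat.Agent.SS.Model.TwoVal
set_option autoImplicit false
set_option linter.unusedSectionVars false
set_option linter.style.haveILetI false
open Fermat.Agent.JT3 IsLocalRing

namespace Fermat.Agent.SS

section Nonunits

variable {E : Type*} [Field E]

theorem ssm_tw_nonunits_iff (A : ValuationSubring E) (a : E) :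
    a ∈ A.nonunits ↔ a ∈ A ∧ (a = 0 ∨ a⁻¹ ∉ A) := by
  rw [ValuationSubring.mem_nonunits_iff, ← A.valuation_le_one_iff, ← A.valuation_le_one_iff]
  by_cases ha : a = 0
  · subst ha; simp
  · have hv : A.valuation a ≠ 0 := (Valuation.ne_zero_iff _).2 ha
    rw [map_inv₀, inv_le_one₀ (zero_lt_iff.2 hv)]
    constructor
    · intro h; exact ⟨h.le, Or.inr (not_le.2 h)⟩
    · rintro ⟨h1, h2 | h2⟩
      · exact absurd h2 ha
      · exact not_le.1 h2

theorem ssm_tw_nonunits_comap (A : ValuationSubring E) (W : E ≃+* E) (a : E) :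
    a ∈ (A.comap (W : E →+* E)).nonunits ↔ W a ∈ A.nonunits := by
  rw [ssm_tw_nonunits_iff, ssm_tw_nonunits_iff, ValuationSubring.mem_comap,
    ValuationSubring.mem_comap]
  simp only [RingEquiv.coe_toRingHom, map_inv₀, EmbeddingLike.map_eq_zero_iff]

theorem ssm_tw_nonunits_le (A : ValuationSubring E) {a : E} (h : a ∈ A.nonunits) : a ∈ A :=
  ((ssm_tw_nonunits_iff A a).1 h).1

end Nonunits

section Bridge

variable (K : Type*) {E : Type*} [Field K] [Field E] [Algebra K E]
  (R : Type*) [CommRing R] [IsDomain R] [IsDiscreteValuationRing R] [Algebra R K]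
  [IsFractionRing R K] [Algebra R E] [IsScalarTower R K E]

/-- `V` lies over `R`: `V ∩ K = R`. -/
def ssm_tw_Over (V : ValuationSubring E) : Prop :=
  ∀ z : K, algebraMap K E z ∈ V ↔ z ∈ (algebraMap R K).range

variable {K R}

theorem ssm_tw_over_mem {V : ValuationSubring E} (hV : ssm_tw_Over K R V) (r : R) :
    algebraMap R E r ∈ V := by
  rw [IsScalarTower.algebraMap_apply R K E]
  exact (hV _).2 ⟨r, rfl⟩

theorem ssm_tw_over_nonunits {V : ValuationSubring E} (hV : ssm_tw_Over K R V) (r : R) :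
    algebraMap R E r ∈ V.nonunits ↔ r ∈ maximalIdeal R := by
  rw [ssm_tw_nonunits_iff, mem_maximalIdeal, mem_nonunits_iff]
  constructor
  · rintro ⟨-, h | h⟩ hu
    · have : r = 0 := by
        have hinj : Function.Injective (algebraMap R E) := by
          rw [IsScalarTower.algebraMap_eq R K E]
          exact (algebraMap K E).injective.comp (IsFractionRing.injective R K)
        exact hinj (by rw [h, map_zero])
      rw [this] at hu
      exact not_isUnit_zero hu
    · apply h
      obtain ⟨u, rfl⟩ := hu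
      have : (algebraMap R E (u : R))⁻¹ = algebraMap R E ((u⁻¹ : Rˣ) : R) := by
        have h1 : algebraMap R E (u : R) * algebraMap R E ((u⁻¹ : Rˣ) : R) = 1 := by
          rw [← map_mul, Units.mul_inv, map_one]
        exact (eq_inv_of_mul_eq_one_right h1).symm
      rw [this]
      exact ssm_tw_over_mem hV _
  · intro hr
    refine ⟨ssm_tw_over_mem hV r, ?_⟩
    by_cases h0 : algebraMap R E r = 0
    · exact Or.inl h0
    · right
      intro hinv
      apply hr
      have h1 : algebraMap K E (algebraMap R K r)⁻¹ ∈ V := by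
        rw [map_inv₀, ← IsScalarTower.algebraMap_apply R K E]; exact hinv
      obtain ⟨s, hs⟩ := (hV _).1 h1
      have hr0 : algebraMap R K r ≠ 0 := by
        intro h
        apply h0
        rw [IsScalarTower.algebraMap_apply R K E, h, map_zero]
      have h2 : algebraMap R K (r * s) = 1 := by
        rw [map_mul, hs, mul_inv_cancel₀ hr0]
      have h3 : r * s = 1 := (IsFractionRing.injective R K) (by rw [h2, map_one])
      exact IsUnit.of_mul_eq_one _ h3

/-- the integral closure of `R` lies in every valuation subring over `R`. -/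
theorem ssm_tw_le {V : ValuationSubring E} (hV : ssm_tw_Over K R V) (x : E)
    (hx : x ∈ integralClosure R E) : x ∈ V := by
  obtain ⟨p, hp, hpx⟩ := hx
  let g : R →+* ↥V := (algebraMap R E).codRestrict V.toSubring (ssm_tw_over_mem hV)
  have hint : IsIntegral ↥V x := by
    refine ⟨p.map g, hp.map g, ?_⟩
    rw [Polynomial.eval₂_map]
    exact hpx
  obtain ⟨y, hy⟩ := IsIntegrallyClosed.isIntegral_iff.mp hint
  rw [← hy]
  exact y.2

end Bridge

section Main

variable (K : Type*) {E : Type*} [Field K] [Field E] [Algebra K E] [FiniteDimensional K E]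
  [Algebra.IsSeparable K E]
  (R : Type*) [CommRing R] [IsDomain R] [IsDiscreteValuationRing R] [Algebra R K]
  [IsFractionRing R K] [Algebra R E] [IsScalarTower R K E]

include K in
/-- the standard facts on the integral closure of a DVR in a finite separable extension -/
theorem ssm_tw_inst : IsDedekindDomain ↥(integralClosure R E) ∧
    IsFractionRing ↥(integralClosure R E) E ∧ Module.Finite R ↥(integralClosure R E) ∧
    Module.Free R ↥(integralClosure R E) ∧
    Module.finrank R ↥(integralClosure R E) = Module.finrank K E := by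
  have hinj : Function.Injective (algebraMap R E) := by
    rw [IsScalarTower.algebraMap_eq R K E]
    exact (algebraMap K E).injective.comp (IsFractionRing.injective R K)
  haveI : FaithfulSMul R E := (faithfulSMul_iff_algebraMap_injective R E).2 hinj
  haveI : Module.IsTorsionFree R E := inferInstance
  exact ⟨integralClosure.isDedekindDomain R K E,
    integralClosure.isFractionRing_of_finite_extension K E,
    IsIntegralClosure.finite R K E _, IsIntegralClosure.module_free R K E _,
    IsIntegralClosure.rank R K E _⟩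

/-- the centre on the integral closure `S` of a valuation subring over `R` -/
noncomputable def ssm_tw_centre (V : ValuationSubring E) (hV : ssm_tw_Over K R V) :
    Ideal ↥(integralClosure R E) :=
  haveI : IsLocalRing ↥V.toSubring := inferInstanceAs (IsLocalRing ↥V)
  ti_centre V.toSubring (fun b => ssm_tw_le hV b.1 b.2)

variable {K R}

theorem ssm_tw_mem_centre {V : ValuationSubring E} (hV : ssm_tw_Over K R V)
    (b : ↥(integralClosure R E)) : b ∈ ssm_tw_centre K R V hV ↔ (b : E) ∈ V.nonunits := by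
  rw [ValuationSubring.mem_nonunits_iff_exists_mem_maximalIdeal]
  constructor
  · intro h
    exact ⟨ssm_tw_le hV b.1 b.2, h⟩
  · rintro ⟨_, h⟩
    exact h

theorem ssm_tw_centre_isPrime {V : ValuationSubring E} (hV : ssm_tw_Over K R V) :
    (ssm_tw_centre K R V hV).IsPrime := by
  haveI : IsLocalRing ↥V.toSubring := inferInstanceAs (IsLocalRing ↥V)
  exact Ideal.comap_isPrime _ _

theorem ssm_tw_map_le_centre {V : ValuationSubring E} (hV : ssm_tw_Over K R V) :
    (maximalIdeal R).map (algebraMap R ↥(integralClosure R E)) ≤ ssm_tw_centre K R V hV := by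
  rw [Ideal.map_le_iff_le_comap]
  intro r hr
  rw [Ideal.mem_comap, ssm_tw_mem_centre]
  exact (ssm_tw_over_nonunits hV r).2 hr

theorem ssm_tw_centre_under {V : ValuationSubring E} (hV : ssm_tw_Over K R V) (r : R)
    (h : algebraMap R ↥(integralClosure R E) r ∈ ssm_tw_centre K R V hV) :
    r ∈ maximalIdeal R := by
  rw [ssm_tw_mem_centre] at h
  exact (ssm_tw_over_nonunits hV r).1 h

include K in
theorem ssm_tw_centre_ne_bot {V : ValuationSubring E} (hV : ssm_tw_Over K R V) :
    ssm_tw_centre K R V hV ≠ ⊥ := by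
  obtain ⟨π, hπ⟩ := IsDiscreteValuationRing.exists_irreducible R
  intro h0
  have h1 : algebraMap R ↥(integralClosure R E) π ∈ ssm_tw_centre K R V hV :=
    ssm_tw_map_le_centre hV (Ideal.mem_map_of_mem _ ((mem_maximalIdeal _).2 hπ.not_isUnit))
  rw [h0, Ideal.mem_bot] at h1
  have hinj : Function.Injective (algebraMap R E) := by
    rw [IsScalarTower.algebraMap_eq R K E]
    exact (algebraMap K E).injective.comp (IsFractionRing.injective R K)
  have h2 : algebraMap R E π = 0 := congrArg Subtype.val h1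
  exact hπ.ne_zero (hinj (by rw [h2, map_zero]))

include K in
theorem ssm_tw_centre_isMaximal {V : ValuationSubring E} (hV : ssm_tw_Over K R V) :
    (ssm_tw_centre K R V hV).IsMaximal := by
  obtain ⟨hD, -, -, -, -⟩ := ssm_tw_inst K (E := E) R
  haveI := hD
  exact (ssm_tw_centre_isPrime hV).isMaximal (ssm_tw_centre_ne_bot hV)

include K in
/-- the bridge: `V` is the localisation of `S` at its centre. -/
theorem ssm_tw_bridge {V : ValuationSubring E} (hV : ssm_tw_Over K R V) (a : E) :
    a ∈ V ↔ ∃ x t : ↥(integralClosure R E), t ∉ ssm_tw_centre K R V hV ∧ a * (t : E) = x := by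
  obtain ⟨hD, hF, -, -, -⟩ := ssm_tw_inst K (E := E) R
  haveI := hD
  haveI := hF
  haveI : IsLocalRing ↥V.toSubring := inferInstanceAs (IsLocalRing ↥V)
  have hBV : ∀ b : ↥(integralClosure R E), algebraMap ↥(integralClosure R E) E b ∈ V.toSubring :=
    fun b => ssm_tw_le hV b.1 b.2
  constructor
  · intro ha
    have h1 := ti_le_centreLoc V.toSubring hBV (ssm_tw_centre_ne_bot hV) a ha
    obtain ⟨x, t, ht, hxt⟩ := (ti_mem_centreLoc V.toSubring hBV a).1 h1
    refine ⟨x, t, ht, ?_⟩
    have ht0 : (t : E) ≠ 0 := by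
      intro h0
      apply ht
      have : t = 0 := Subtype.ext h0
      rw [this]; exact Ideal.zero_mem _
    rw [hxt]
    show (x : E) * (t : E)⁻¹ * (t : E) = x
    rw [mul_assoc, inv_mul_cancel₀ ht0, mul_one]
  · rintro ⟨x, t, ht, hxt⟩
    apply ti_centreLoc_le V.toSubring hBV
    rw [ti_mem_centreLoc]
    refine ⟨x, t, ht, ?_⟩
    have ht0 : (t : E) ≠ 0 := by
      intro h0
      apply ht
      have : t = 0 := Subtype.ext h0
      rw [this]; exact Ideal.zero_mem _
    show a = (x : E) * (t : E)⁻¹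
    rw [← hxt, mul_assoc, mul_inv_cancel₀ ht0, mul_one]

include K in
theorem ssm_tw_eq_of_centre_eq {V V' : ValuationSubring E} (hV : ssm_tw_Over K R V)
    (hV' : ssm_tw_Over K R V') (h : ssm_tw_centre K R V hV = ssm_tw_centre K R V' hV') :
    V = V' := by
  ext a
  rw [ssm_tw_bridge hV, ssm_tw_bridge hV', h]


theorem ssm_tw_nonunits_add (A : ValuationSubring E) {a b : E} (ha : a ∈ A.nonunits)
    (hb : b ∈ A.nonunits) : a + b ∈ A.nonunits := by
  rw [ValuationSubring.mem_nonunits_iff_exists_mem_maximalIdeal] at ha hb ⊢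
  obtain ⟨ha1, ha2⟩ := ha
  obtain ⟨hb1, hb2⟩ := hb
  exact ⟨A.add_mem _ _ ha1 hb1, (maximalIdeal ↥A).add_mem ha2 hb2⟩

theorem ssm_tw_nonunits_mul (A : ValuationSubring E) {a b : E} (ha : a ∈ A)
    (hb : b ∈ A.nonunits) : a * b ∈ A.nonunits := by
  rw [ValuationSubring.mem_nonunits_iff_exists_mem_maximalIdeal] at hb ⊢
  obtain ⟨hb1, hb2⟩ := hb
  exact ⟨A.mul_mem _ _ ha hb1, (maximalIdeal ↥A).mul_mem_left ⟨a, ha⟩ hb2⟩

theorem ssm_tw_nonunits_neg (A : ValuationSubring E) {a : E} (ha : a ∈ A.nonunits) :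
    -a ∈ A.nonunits := by
  have := ssm_tw_nonunits_mul A (A.neg_mem _ A.one_mem) ha
  simpa using this

theorem ssm_tw_nonunits_sub (A : ValuationSubring E) {a b : E} (ha : a ∈ A.nonunits)
    (hb : b ∈ A.nonunits) : a - b ∈ A.nonunits := by
  rw [sub_eq_add_neg]
  exact ssm_tw_nonunits_add A ha (ssm_tw_nonunits_neg A hb)

theorem ssm_tw_nonunits_pow_sub (A : ValuationSubring E) {a b : E} (ha : a ∈ A) (hb : b ∈ A)
    (h : a - b ∈ A.nonunits) (n : ℕ) : a ^ n - b ^ n ∈ A.nonunits := by
  rw [← (Commute.all a b).geom_sum₂_mul n]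
  refine ssm_tw_nonunits_mul A ?_ h
  refine A.toSubring.sum_mem fun i _ => ?_
  exact A.mul_mem _ _ (A.pow_mem ha _) (A.pow_mem hb _)

theorem ssm_tw_inv_mem (A : ValuationSubring E) {a : E} (ha : a ∈ A) (hn : a ∉ A.nonunits) :
    a⁻¹ ∈ A := by
  by_contra h
  exact hn ((ssm_tw_nonunits_iff A a).2 ⟨ha, Or.inr h⟩)

/-- Field lemma: a degree-`q` extension in characteristic `q` generated by a `q`-th root has all
`q`-th powers in the base. -/
theorem ssm_tw_field_pow {k κ : Type*} [Field k] [Field κ] [Algebra k κ] {q : ℕ} (hq : q.Prime)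
    (hchar : (q : κ) = 0) (hfr : Module.finrank k κ = q) (t : κ) (a : k)
    (hta : t ^ q = algebraMap k κ a) (ht : ∀ b : k, t ≠ algebraMap k κ b) (x : κ) :
    ∃ b : k, algebraMap k κ b = x ^ q := by
  haveI : Fact q.Prime := ⟨hq⟩
  haveI : CharP κ q := by
    have h1 : ringChar κ ∣ q := ringChar.dvd hchar
    have h2 : ringChar κ = q := by
      rcases (Nat.dvd_prime hq).1 h1 with h | h
      · exact absurd h (CharP.ringChar_ne_one)
      · exact h
    rw [← h2]; exact ringChar.charP κ
  let B : Subalgebra k κ :=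
    { carrier := {x | ∃ b : k, algebraMap k κ b = x ^ q}
      mul_mem' := by
        rintro x y ⟨b, hb⟩ ⟨c, hc⟩
        exact ⟨b * c, by rw [map_mul, hb, hc, mul_pow]⟩
      add_mem' := by
        rintro x y ⟨b, hb⟩ ⟨c, hc⟩
        exact ⟨b + c, by rw [map_add, hb, hc, add_pow_char]⟩
      algebraMap_mem' := fun c => ⟨c ^ q, by rw [map_pow]⟩ }
  have hsimple := Subalgebra.isSimpleOrder_of_finrank_prime k κ (hfr ▸ hq)
  rcases hsimple.eq_bot_or_eq_top B with h | h
  · exfalso
    have hmem : t ∈ B := ⟨a, hta.symm⟩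
    rw [h] at hmem
    obtain ⟨b, hb⟩ := Algebra.mem_bot.1 hmem
    exact ht b hb.symm
  · have hmem : x ∈ B := by rw [h]; exact Algebra.mem_top
    exact hmem

include K in
/-- `S → κ(V)` is onto. -/
theorem ssm_tw_exists_lift {V : ValuationSubring E} (hV : ssm_tw_Over K R V) (a : E)
    (ha : a ∈ V) : ∃ s : ↥(integralClosure R E), (s : E) - a ∈ V.nonunits := by
  obtain ⟨x, t, ht, hxt⟩ := (ssm_tw_bridge hV a).1 ha
  obtain ⟨u, i, hi, hui⟩ := Ideal.IsMaximal.exists_inv (ssm_tw_centre_isMaximal hV) ht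
  refine ⟨x * u, ?_⟩
  have h2 : (u : E) * (t : E) + (i : E) = 1 := by exact_mod_cast congrArg Subtype.val hui
  have h1 : ((x * u : ↥(integralClosure R E)) : E) - a = a * (-(i : E)) := by
    push_cast
    rw [← hxt]
    linear_combination a * h2
  rw [h1]
  exact ssm_tw_nonunits_mul V ha (ssm_tw_nonunits_neg V ((ssm_tw_mem_centre hV i).1 hi))

variable (K R) in
/-- The hypotheses of the two-valuations lemma (W-form). -/
structure ssm_tw_Data (q : ℕ) (V1 : ValuationSubring E) (W : E ≃+* E) (lam : R) : Prop where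
  q_prime : q.Prime
  q_mem : (q : R) ∈ maximalIdeal R
  finrank_eq : Module.finrank K E = q + 1
  invol : ∀ x, W (W x) = x
  over1 : ssm_tw_Over K R V1
  over2 : ∀ z : K, W (algebraMap K E z) ∈ V1 ↔ z ∈ (algebraMap R K).range
  frob : W (algebraMap R E lam) - algebraMap R E lam ^ q ∈ V1.nonunits
  nfrob : algebraMap R E lam - W (algebraMap R E lam) ^ q ∉ V1.nonunits
  nres : ∀ z : R, algebraMap R E lam - W (algebraMap R E z) ∉ V1.nonunits

variable {q : ℕ} {V1 : ValuationSubring E} {W : E ≃+* E} {lam : R}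

theorem ssm_tw_over2 (D : ssm_tw_Data K R q V1 W lam) :
    ssm_tw_Over K R (V1.comap (W : E →+* E)) := fun z => by
  rw [ValuationSubring.mem_comap]
  exact D.over2 z

/-- `λ - λ_q ^ q ∈ 𝔪(V2)`. -/
theorem ssm_tw_frob2 (D : ssm_tw_Data K R q V1 W lam) :
    algebraMap R E lam - W (algebraMap R E lam) ^ q ∈ (V1.comap (W : E →+* E)).nonunits := by
  rw [ssm_tw_nonunits_comap, map_sub, map_pow, D.invol]
  exact D.frob

theorem ssm_tw_ne (D : ssm_tw_Data K R q V1 W lam) : V1 ≠ V1.comap (W : E →+* E) := by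
  intro hVV
  have h2 := ssm_tw_frob2 D
  have h3 := congrArg ValuationSubring.nonunits hVV
  exact D.nfrob (by rw [h3]; exact h2)

include K in
theorem ssm_tw_comap_centre {V : ValuationSubring E} (hV : ssm_tw_Over K R V) :
    (ssm_tw_centre K R V hV).comap (algebraMap R ↥(integralClosure R E)) = maximalIdeal R := by
  ext r
  rw [Ideal.mem_comap]
  exact ⟨ssm_tw_centre_under hV r, fun h => ssm_tw_map_le_centre hV (Ideal.mem_map_of_mem _ h)⟩

include K in
/-- **Core** (ideal form on `S := integralClosure R E`): the centres `P1`, `P2` of `V1`, `V2` are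
distinct, coprime, `𝔪_R S = P1 ⊓ P2`, they are the only primes over `𝔪_R`, `R → S/P1` is onto and
`(S/P2) ^ q ⊆ R/𝔪`. -/
theorem ssm_tw_core (D : ssm_tw_Data K R q V1 W lam) :
    ssm_tw_centre K R V1 D.over1 ≠ ssm_tw_centre K R (V1.comap (W : E →+* E)) (ssm_tw_over2 D) ∧
    (maximalIdeal R).map (algebraMap R ↥(integralClosure R E)) =
      ssm_tw_centre K R V1 D.over1 ⊓
        ssm_tw_centre K R (V1.comap (W : E →+* E)) (ssm_tw_over2 D) ∧
    IsCoprime (ssm_tw_centre K R V1 D.over1)
      (ssm_tw_centre K R (V1.comap (W : E →+* E)) (ssm_tw_over2 D)) ∧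
    (∀ P : Ideal ↥(integralClosure R E), P.IsPrime →
      P.comap (algebraMap R ↥(integralClosure R E)) = maximalIdeal R →
      P = ssm_tw_centre K R V1 D.over1 ∨
        P = ssm_tw_centre K R (V1.comap (W : E →+* E)) (ssm_tw_over2 D)) ∧
    (∀ s : ↥(integralClosure R E), ∃ r : R,
      s - algebraMap R ↥(integralClosure R E) r ∈ ssm_tw_centre K R V1 D.over1) ∧
    (∀ s : ↥(integralClosure R E), ∃ r : R,
      s ^ q - algebraMap R ↥(integralClosure R E) r ∈
        ssm_tw_centre K R (V1.comap (W : E →+* E)) (ssm_tw_over2 D)) := by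
  obtain ⟨hD, hF, hfin, hfree, hrk⟩ := ssm_tw_inst K (E := E) R
  haveI := hD
  haveI := hfin
  haveI := hfree
  have hinj : Function.Injective (algebraMap R E) := by
    rw [IsScalarTower.algebraMap_eq R K E]
    exact (algebraMap K E).injective.comp (IsFractionRing.injective R K)
  haveI : FaithfulSMul R E := (faithfulSMul_iff_algebraMap_injective R E).2 hinj
  haveI : Module.IsTorsionFree R E := inferInstance
  haveI : Module.IsTorsionFree R ↥(integralClosure R E) := inferInstance
  have hp0 : maximalIdeal R ≠ ⊥ := IsDiscreteValuationRing.not_a_field R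
  have hV2 := ssm_tw_over2 D
  haveI hP1 : (ssm_tw_centre K R V1 D.over1).IsPrime := ssm_tw_centre_isPrime D.over1
  haveI hP2 : (ssm_tw_centre K R (V1.comap (W : E →+* E)) hV2).IsPrime :=
    ssm_tw_centre_isPrime hV2
  haveI : (ssm_tw_centre K R V1 D.over1).LiesOver (maximalIdeal R) :=
    ⟨(ssm_tw_comap_centre D.over1).symm⟩
  haveI : (ssm_tw_centre K R (V1.comap (W : E →+* E)) hV2).LiesOver (maximalIdeal R) :=
    ⟨(ssm_tw_comap_centre hV2).symm⟩
  have hWl_mem : W (algebraMap R E lam) ∈ V1.comap (W : E →+* E) := by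
    rw [ValuationSubring.mem_comap]
    show W (W (algebraMap R E lam)) ∈ V1
    rw [D.invol]
    exact ssm_tw_over_mem D.over1 lam
  obtain ⟨t, ht⟩ := ssm_tw_exists_lift hV2 _ hWl_mem
  have hchar : (q : ↥(integralClosure R E)) ∈
      ssm_tw_centre K R (V1.comap (W : E →+* E)) hV2 := by
    have h1 : (q : ↥(integralClosure R E)) = algebraMap R ↥(integralClosure R E) (q : R) := by
      simp
    rw [h1]
    exact ssm_tw_map_le_centre hV2 (Ideal.mem_map_of_mem _ D.q_mem)
  have ht1 : t ^ q - algebraMap R ↥(integralClosure R E) lam ∈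
      ssm_tw_centre K R (V1.comap (W : E →+* E)) hV2 := by
    rw [ssm_tw_mem_centre]
    have e1 : ((t ^ q - algebraMap R ↥(integralClosure R E) lam : ↥(integralClosure R E)) : E) =
        ((t : E) ^ q - W (algebraMap R E lam) ^ q) +
          (W (algebraMap R E lam) ^ q - algebraMap R E lam) := by
      push_cast
      ring
    rw [e1]
    refine ssm_tw_nonunits_add _
      (ssm_tw_nonunits_pow_sub _ (ssm_tw_le hV2 t.1 t.2) hWl_mem ht q) ?_
    have := ssm_tw_nonunits_neg _ (ssm_tw_frob2 D)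
    rwa [neg_sub] at this
  have ht2 : ∀ r : R, t - algebraMap R ↥(integralClosure R E) r ∉
      ssm_tw_centre K R (V1.comap (W : E →+* E)) hV2 := by
    intro r hr
    rw [ssm_tw_mem_centre] at hr
    have h1 : W (algebraMap R E lam) - algebraMap R E r ∈
        (V1.comap (W : E →+* E)).nonunits := by
      have h2 := ssm_tw_nonunits_sub _ hr ht
      have e2 : ((t - algebraMap R ↥(integralClosure R E) r : ↥(integralClosure R E)) : E) -
          ((t : E) - W (algebraMap R E lam)) = W (algebraMap R E lam) - algebraMap R E r := by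
        push_cast
        ring
      rwa [e2] at h2
    rw [ssm_tw_nonunits_comap, map_sub, D.invol] at h1
    exact D.nres r h1
  obtain ⟨hf, he, Q2, hQ2p, hQ2o, hne, he2, hf2, hall, hmap, hcop, hinf, hsurj, -⟩ :=
    ssm_tv_main (maximalIdeal R) hp0 D.q_prime (hrk.trans D.finrank_eq)
      (ssm_tw_centre K R (V1.comap (W : E →+* E)) hV2) hchar t lam ht1 ht2
  have hP1ne : ssm_tw_centre K R V1 D.over1 ≠
      ssm_tw_centre K R (V1.comap (W : E →+* E)) hV2 := fun h =>
    ssm_tw_ne D (ssm_tw_eq_of_centre_eq D.over1 hV2 h)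
  have hP1eq : ssm_tw_centre K R V1 D.over1 = Q2 :=
    (hall _ inferInstance inferInstance).resolve_left hP1ne
  refine ⟨hP1ne, ?_, ?_, ?_, ?_, ?_⟩
  · rw [hinf, hP1eq, inf_comm]
  · rw [hP1eq]; exact hcop.symm
  · intro P hP hPc
    rcases hall P hP ⟨hPc.symm⟩ with h | h
    · exact Or.inr h
    · exact Or.inl (h.trans hP1eq.symm)
  · rw [hP1eq]; exact hsurj
  · haveI : (ssm_tw_centre K R (V1.comap (W : E →+* E)) hV2).IsMaximal :=
      ssm_tw_centre_isMaximal hV2
    letI : Field (R ⧸ maximalIdeal R) := Ideal.Quotient.field _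
    letI : Field (↥(integralClosure R E) ⧸ ssm_tw_centre K R (V1.comap (W : E →+* E)) hV2) :=
      Ideal.Quotient.field _
    have hfr : Module.finrank (R ⧸ maximalIdeal R)
        (↥(integralClosure R E) ⧸ ssm_tw_centre K R (V1.comap (W : E →+* E)) hV2) = q := by
      rw [← Ideal.inertiaDeg_eq_of_isMaximal]; exact hf
    intro s
    obtain ⟨b, hb⟩ := ssm_tw_field_pow D.q_prime
      (by
        rw [← map_natCast (Ideal.Quotient.mk _)]
        exact Ideal.Quotient.eq_zero_iff_mem.2 hchar) hfr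
      (Ideal.Quotient.mk _ t) (Ideal.Quotient.mk _ lam)
      (by
        rw [← map_pow, Ideal.Quotient.algebraMap_mk_of_liesOver]
        exact (Ideal.Quotient.eq).2 ht1)
      (by
        intro b hb
        obtain ⟨b, rfl⟩ := Ideal.Quotient.mk_surjective b
        rw [Ideal.Quotient.algebraMap_mk_of_liesOver] at hb
        exact ht2 b ((Ideal.Quotient.eq).1 hb))
      (Ideal.Quotient.mk _ s)
    obtain ⟨r, rfl⟩ := Ideal.Quotient.mk_surjective b
    refine ⟨r, ?_⟩
    rw [Ideal.Quotient.algebraMap_mk_of_liesOver, ← map_pow] at hb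
    exact (Ideal.Quotient.eq).1 hb.symm

include K in
/-- (C2) `V1` and `V2` are the only valuation subrings of `E` over `R`. -/
theorem ssm_tw_cases (D : ssm_tw_Data K R q V1 W lam) (V : ValuationSubring E)
    (hV : ssm_tw_Over K R V) : V = V1 ∨ V = V1.comap (W : E →+* E) := by
  obtain ⟨-, -, -, hall, -, -⟩ := ssm_tw_core D
  rcases hall _ (ssm_tw_centre_isPrime hV) (ssm_tw_comap_centre hV) with h | h
  · exact Or.inl (ssm_tw_eq_of_centre_eq hV D.over1 h)
  · exact Or.inr (ssm_tw_eq_of_centre_eq hV (ssm_tw_over2 D) h)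

include K in
theorem ssm_tw_unif_aux {V : ValuationSubring E} (hV : ssm_tw_Over K R V) (π : R)
    (P' : Ideal ↥(integralClosure R E))
    (ht2 : ∃ t2 ∈ P', t2 ∉ ssm_tw_centre K R V hV)
    (hinf : ∀ x : ↥(integralClosure R E), x ∈ ssm_tw_centre K R V hV → x ∈ P' →
      algebraMap R ↥(integralClosure R E) π ∣ x)
    (a : E) (ha : a ∈ V.nonunits) : ∃ b ∈ V, a = algebraMap R E π * b := by
  obtain ⟨x, t, ht, hxt⟩ := (ssm_tw_bridge hV a).1 (ssm_tw_nonunits_le V ha)
  obtain ⟨t2, ht2P, ht2c⟩ := ht2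
  have hx : x ∈ ssm_tw_centre K R V hV := by
    rw [ssm_tw_mem_centre, ← hxt, mul_comm]
    exact ssm_tw_nonunits_mul V (ssm_tw_le hV t.1 t.2) ha
  obtain ⟨y, hy⟩ := hinf (x * t2) (Ideal.mul_mem_right _ _ hx) (Ideal.mul_mem_left _ _ ht2P)
  haveI := ssm_tw_centre_isPrime hV
  have htt : t * t2 ∉ ssm_tw_centre K R V hV := fun h =>
    (Ideal.IsPrime.mem_or_mem inferInstance h).elim ht ht2c
  have htt' : ((t * t2 : ↥(integralClosure R E)) : E) ∉ V.nonunits := fun h =>
    htt ((ssm_tw_mem_centre hV _).2 h)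
  have hinv := ssm_tw_inv_mem V (ssm_tw_le hV _ (t * t2).2) htt'
  have h0 : ((t * t2 : ↥(integralClosure R E)) : E) ≠ 0 := by
    intro h0
    apply htt
    have : t * t2 = 0 := Subtype.ext h0
    rw [this]; exact Ideal.zero_mem _
  have hyE : (x : E) * (t2 : E) = algebraMap R E π * (y : E) := by
    have h := congrArg (fun z : ↥(integralClosure R E) => (z : E)) hy
    push_cast at h
    exact h
  have h1 : a * ((t * t2 : ↥(integralClosure R E)) : E) = algebraMap R E π * (y : E) := by
    push_cast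
    rw [← mul_assoc, hxt, hyE]
  refine ⟨(y : E) * ((t * t2 : ↥(integralClosure R E)) : E)⁻¹,
    V.mul_mem _ _ (ssm_tw_le hV y.1 y.2) hinv, ?_⟩
  calc a = a * ((t * t2 : ↥(integralClosure R E)) : E) *
        ((t * t2 : ↥(integralClosure R E)) : E)⁻¹ := (mul_inv_cancel_right₀ h0 a).symm
    _ = algebraMap R E π * (y : E) * ((t * t2 : ↥(integralClosure R E)) : E)⁻¹ := by rw [h1]
    _ = _ := mul_assoc _ _ _

include K in
/-- `π S = P1 ⊓ P2`, element form. -/
theorem ssm_tw_dvd (D : ssm_tw_Data K R q V1 W lam) (π : R) (hπ : Irreducible π)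
    (x : ↥(integralClosure R E)) :
    algebraMap R ↥(integralClosure R E) π ∣ x ↔
      x ∈ ssm_tw_centre K R V1 D.over1 ∧
        x ∈ ssm_tw_centre K R (V1.comap (W : E →+* E)) (ssm_tw_over2 D) := by
  obtain ⟨-, hmap, -, -, -, -⟩ := ssm_tw_core D
  exact ssm_tv_dvd_iff (maximalIdeal R) _ _ π hπ.maximalIdeal_eq hmap x

include K in
theorem ssm_tw_exists_not_mem (D : ssm_tw_Data K R q V1 W lam) :
    (∃ t2 ∈ ssm_tw_centre K R (V1.comap (W : E →+* E)) (ssm_tw_over2 D),
      t2 ∉ ssm_tw_centre K R V1 D.over1) ∧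
    (∃ t1 ∈ ssm_tw_centre K R V1 D.over1,
      t1 ∉ ssm_tw_centre K R (V1.comap (W : E →+* E)) (ssm_tw_over2 D)) := by
  obtain ⟨-, -, hcop, -, -, -⟩ := ssm_tw_core D
  obtain ⟨i, hi, j, hj, hij⟩ := Ideal.isCoprime_iff_exists.1 hcop
  have hP1 := ssm_tw_centre_isPrime D.over1
  have hP2 := ssm_tw_centre_isPrime (ssm_tw_over2 D)
  constructor
  · refine ⟨j, hj, fun h => hP1.ne_top ((Ideal.eq_top_iff_one _).2 ?_)⟩
    rw [← hij]; exact Ideal.add_mem _ hi h
  · refine ⟨i, hi, fun h => hP2.ne_top ((Ideal.eq_top_iff_one _).2 ?_)⟩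
    rw [← hij]; exact Ideal.add_mem _ h hj

include K in
/-- (C4) a uniformiser of `R` generates `𝔪(V1)`. -/
theorem ssm_tw_unif1 (D : ssm_tw_Data K R q V1 W lam) (π : R) (hπ : Irreducible π) (a : E) :
    a ∈ V1.nonunits ↔ ∃ b ∈ V1, a = algebraMap R E π * b := by
  constructor
  · intro ha
    refine ssm_tw_unif_aux D.over1 π _ (ssm_tw_exists_not_mem D).1 ?_ a ha
    intro x h1 h2
    exact (ssm_tw_dvd D π hπ x).2 ⟨h1, h2⟩
  · rintro ⟨b, hb, rfl⟩
    rw [mul_comm]
    exact ssm_tw_nonunits_mul V1 hb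
      ((ssm_tw_over_nonunits D.over1 π).2 ((mem_maximalIdeal _).2 hπ.not_isUnit))

include K in
/-- (C4') a uniformiser of `R` generates `𝔪(V2)`. -/
theorem ssm_tw_unif2 (D : ssm_tw_Data K R q V1 W lam) (π : R) (hπ : Irreducible π) (a : E) :
    a ∈ (V1.comap (W : E →+* E)).nonunits ↔
      ∃ b ∈ V1.comap (W : E →+* E), a = algebraMap R E π * b := by
  constructor
  · intro ha
    refine ssm_tw_unif_aux (ssm_tw_over2 D) π _ (ssm_tw_exists_not_mem D).2 ?_ a ha
    intro x h1 h2
    exact (ssm_tw_dvd D π hπ x).2 ⟨h2, h1⟩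
  · rintro ⟨b, hb, rfl⟩
    rw [mul_comm]
    exact ssm_tw_nonunits_mul _ hb
      ((ssm_tw_over_nonunits (ssm_tw_over2 D) π).2 ((mem_maximalIdeal _).2 hπ.not_isUnit))

include K in
/-- (C5) `κ(V1) = κ(R)`. -/
theorem ssm_tw_res1 (D : ssm_tw_Data K R q V1 W lam) (a : E) (ha : a ∈ V1) :
    ∃ r : R, a - algebraMap R E r ∈ V1.nonunits := by
  obtain ⟨-, -, -, -, hsurj, -⟩ := ssm_tw_core D
  obtain ⟨s, hs⟩ := ssm_tw_exists_lift D.over1 a ha
  obtain ⟨r, hr⟩ := hsurj s
  refine ⟨r, ?_⟩
  rw [ssm_tw_mem_centre] at hr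
  have e : a - algebraMap R E r =
      ((s - algebraMap R ↥(integralClosure R E) r : ↥(integralClosure R E)) : E) -
        ((s : E) - a) := by
    push_cast
    ring
  rw [e]
  exact ssm_tw_nonunits_sub V1 hr hs

include K in
/-- (C6) `κ(V2) = κ(W R)`. -/
theorem ssm_tw_res2 (D : ssm_tw_Data K R q V1 W lam) (a : E)
    (ha : a ∈ V1.comap (W : E →+* E)) :
    ∃ r : R, a - W (algebraMap R E r) ∈ (V1.comap (W : E →+* E)).nonunits := by
  obtain ⟨r, hr⟩ := ssm_tw_res1 D (W a) ha
  refine ⟨r, ?_⟩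
  rw [ssm_tw_nonunits_comap, map_sub, D.invol]
  exact hr

include K in
/-- (C8) `κ(V2) ^ q ⊆ κ(R)`. -/
theorem ssm_tw_pow2 (D : ssm_tw_Data K R q V1 W lam) (a : E)
    (ha : a ∈ V1.comap (W : E →+* E)) :
    ∃ r : R, a ^ q - algebraMap R E r ∈ (V1.comap (W : E →+* E)).nonunits := by
  obtain ⟨-, -, -, -, -, hpow⟩ := ssm_tw_core D
  obtain ⟨s, hs⟩ := ssm_tw_exists_lift (ssm_tw_over2 D) a ha
  obtain ⟨r, hr⟩ := hpow s
  refine ⟨r, ?_⟩
  rw [ssm_tw_mem_centre] at hr
  have h1 := ssm_tw_nonunits_pow_sub _ (ssm_tw_le (ssm_tw_over2 D) s.1 s.2) ha hs q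
  have e : a ^ q - algebraMap R E r =
      ((s ^ q - algebraMap R ↥(integralClosure R E) r : ↥(integralClosure R E)) : E) -
        ((s : E) ^ q - a ^ q) := by
    push_cast
    ring
  rw [e]
  exact ssm_tw_nonunits_sub _ hr h1

include K in
/-- (C7) `integralClosure R E = V1 ∩ V2`. -/
theorem ssm_tw_integral (D : ssm_tw_Data K R q V1 W lam) (a : E) :
    IsIntegral R a ↔ a ∈ V1 ∧ a ∈ V1.comap (W : E →+* E) := by
  constructor
  · intro h
    exact ⟨ssm_tw_le D.over1 a h, ssm_tw_le (ssm_tw_over2 D) a h⟩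
  · rintro ⟨ha1, ha2⟩
    obtain ⟨-, -, -, hall, -, -⟩ := ssm_tw_core D
    obtain ⟨x1, t1, ht1, h1⟩ := (ssm_tw_bridge D.over1 a).1 ha1
    obtain ⟨x2, t2, ht2, h2⟩ := (ssm_tw_bridge (ssm_tw_over2 D) a).1 ha2
    let I : Ideal ↥(integralClosure R E) :=
      { carrier := {d | (d : E) * a ∈ integralClosure R E}
        add_mem' := by
          intro d e hd he
          show ((d + e : ↥(integralClosure R E)) : E) * a ∈ integralClosure R E
          push_cast
          rw [add_mul]
          exact (integralClosure R E).add_mem hd he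
        zero_mem' := by
          show ((0 : ↥(integralClosure R E)) : E) * a ∈ integralClosure R E
          push_cast
          rw [zero_mul]
          exact (integralClosure R E).zero_mem
        smul_mem' := by
          intro c d hd
          show ((c * d : ↥(integralClosure R E)) : E) * a ∈ integralClosure R E
          push_cast
          rw [mul_assoc]
          exact (integralClosure R E).mul_mem c.2 hd }
    have hI1 : t1 ∈ I := by
      show (t1 : E) * a ∈ integralClosure R E
      rw [mul_comm, h1]; exact x1.2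
    have hI2 : t2 ∈ I := by
      show (t2 : E) * a ∈ integralClosure R E
      rw [mul_comm, h2]; exact x2.2
    have hItop : I = ⊤ := by
      by_contra hne
      obtain ⟨M, hM, hIM⟩ := Ideal.exists_le_maximal I hne
      haveI := hM
      have hMc : M.comap (algebraMap R ↥(integralClosure R E)) = maximalIdeal R :=
        IsLocalRing.eq_maximalIdeal (Ideal.isMaximal_comap_of_isIntegral_of_isMaximal M)
      rcases hall M hM.isPrime hMc with h | h
      · exact ht1 (h ▸ hIM hI1)
      · exact ht2 (h ▸ hIM hI2)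
    have h1I : (1 : ↥(integralClosure R E)) ∈ I := by rw [hItop]; exact Submodule.mem_top
    have : ((1 : ↥(integralClosure R E)) : E) * a ∈ integralClosure R E := h1I
    rw [OneMemClass.coe_one, one_mul] at this
    exact this

include K in
/-- (C10) `π S = P1 ⊓ P2` in `E`. -/
theorem ssm_tw_inf (D : ssm_tw_Data K R q V1 W lam) (π : R) (hπ : Irreducible π) (x : E)
    (hx : IsIntegral R x) (h1 : x ∈ V1.nonunits)
    (h2 : x ∈ (V1.comap (W : E →+* E)).nonunits) :
    ∃ y : E, IsIntegral R y ∧ x = algebraMap R E π * y := by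
  obtain ⟨y, hy⟩ := (ssm_tw_dvd D π hπ ⟨x, hx⟩).2
    ⟨(ssm_tw_mem_centre D.over1 _).2 h1, (ssm_tw_mem_centre (ssm_tw_over2 D) _).2 h2⟩
  refine ⟨y, y.2, ?_⟩
  have h := congrArg (fun z : ↥(integralClosure R E) => (z : E)) hy
  push_cast at h
  exact h

end Main
end Fermat.Agent.SS
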