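import Mathlib
import Fermat.Agent.SS.Model.TwoPrimes
import Fermat.Agent.SS.Model.TwoValW

/-!
# SS / model, leaf [TP-W]: from the two-valuations lemma (W-form) to the two primes of a chart
(prefix `ssm_tpw_`)

* `ssm_tpw_unique` ([OP], one prime ⟹ one valuation): `R` an integrally closed domain, `π ≠ 0`,
  `K` a field algebraic over `R`; if `π` is a prime element of the integral closure of `R` in `K`
  (`ssm_tpw_PrimeInt`, element form; `ssm_tpw_primeInt_of_prime` from `Prime ϖ` on a chart) then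
  any two valuation subrings of `K` over the Gauss ring `R_(π)` coincide; `ssm_tpw_mem_iff`:
  `z ∈ V ↔ z = b / s`, `b, s` integral, `π ∤ s`.
* `ssm_tpw_hyp` (the composite): `ssm_tw_Data K R' q V1 W lam` + "the DVR `R'` of `K` is the only
  valuation ring of `K` over the Gauss ring of `A0[x]`" ⟹ `ssm_tp_Hyp π V1 (V1.comap W)` for
  the coordinate ring `A0[x] ⊆ E`.
-/

set_option autoImplicit false
set_option linter.unusedSectionVars false
set_option linter.style.haveILetI false

namespace Fermat.Agent.SS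

open Polynomial

section OnePrime

/-- `π` is a prime element of the integral closure of `R` in `K` (element form). -/
def ssm_tpw_PrimeInt (R : Type*) [CommRing R] (K : Type*) [Field K] [Algebra R K] (π : R) : Prop :=
  ∀ b c : K, IsIntegral R b → IsIntegral R c →
    (∃ d : K, IsIntegral R d ∧ b * c = algebraMap R K π * d) →
    (∃ d : K, IsIntegral R d ∧ b = algebraMap R K π * d) ∨
      (∃ d : K, IsIntegral R d ∧ c = algebraMap R K π * d)

variable {R : Type*} [CommRing R] [IsDomain R] [IsIntegrallyClosed R]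
  {K : Type*} [Field K] [Algebra R K] [FaithfulSMul R K] {π : R} {V V' : ValuationSubring K}

/-- from `Prime ϖ` on a chart `B` (= the integral closure of `R`, as a subalgebra over any base) -/
theorem ssm_tpw_primeInt_of_prime {A : Type*} [CommRing A] [Algebra A K] (B : Subalgebra A K)
    (hB : ∀ z : K, z ∈ B ↔ IsIntegral R z) (ϖ : B) (hϖ : (ϖ : K) = algebraMap R K π)
    (hp : Prime ϖ) : ssm_tpw_PrimeInt R K π := by
  rintro b c hb hc ⟨d, hd, hbcd⟩
  have h1 : ϖ ∣ (⟨b, (hB b).2 hb⟩ : B) * ⟨c, (hB c).2 hc⟩ :=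
    ⟨⟨d, (hB d).2 hd⟩, Subtype.ext (by
      rw [MulMemClass.coe_mul, MulMemClass.coe_mul, hϖ]; exact hbcd)⟩
  rcases hp.dvd_or_dvd h1 with ⟨e, he⟩ | ⟨e, he⟩
  · left
    refine ⟨e, (hB _).1 e.2, ?_⟩
    have := congrArg Subtype.val he
    rw [MulMemClass.coe_mul, hϖ] at this
    exact this
  · right
    refine ⟨e, (hB _).1 e.2, ?_⟩
    have := congrArg Subtype.val he
    rw [MulMemClass.coe_mul, hϖ] at this
    exact this

/-- **the centre on the integral closure of a valuation ring over `R_(π)` is `π B'`** when `π` is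
prime in `B'` (incomparability). -/
theorem ssm_tpw_centre (hV : ssm_tp_Over π V) (hπ0 : π ≠ 0) (hp : ssm_tpw_PrimeInt R K π) {s : K}
    (hs : IsIntegral R s) (hsV : s ∈ V.nonunits) :
    ∃ d : K, IsIntegral R d ∧ s = algebraMap R K π * d := by
  have hinj : Function.Injective (algebraMap R K) := FaithfulSMul.algebraMap_injective R K
  have hϖ0 : algebraMap R K π ≠ 0 := (map_ne_zero_iff _ hinj).2 hπ0
  have hle : ∀ b ∈ integralClosure R K, b ∈ V := fun b hb => hV.mem_of_isIntegral hb
  set ϖ0 : integralClosure R K := algebraMap R (integralClosure R K) π with hϖ0def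
  have hcoe : (ϖ0 : K) = algebraMap R K π := rfl
  have hprime : Prime ϖ0 := by
    refine ⟨fun h0 => hϖ0 (by rw [← hcoe, h0]; rfl), ?_, ?_⟩
    · intro hu
      obtain ⟨u, hu⟩ := hu.exists_right_inv
      have h1 : algebraMap R K π * (u : K) = 1 := by
        have := congrArg Subtype.val hu
        rw [MulMemClass.coe_mul, hcoe] at this
        exact this
      have h2 := ssm_tp_nonunits_mul V hV.pi_mem (hle _ u.2)
      rw [h1] at h2
      exact ssm_tp_one_not_mem_nonunits V h2
    · rintro a b ⟨d, hd⟩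
      have h1 : (a : K) * (b : K) = algebraMap R K π * (d : K) := by
        have := congrArg Subtype.val hd
        rw [MulMemClass.coe_mul, MulMemClass.coe_mul, hcoe] at this
        exact this
      rcases hp a b a.2 b.2 ⟨d, d.2, h1⟩ with ⟨e, he, hae⟩ | ⟨e, he, hbe⟩
      · exact Or.inl ⟨⟨e, he⟩, Subtype.ext (by rw [MulMemClass.coe_mul, hcoe]; exact hae)⟩
      · exact Or.inr ⟨⟨e, he⟩, Subtype.ext (by rw [MulMemClass.coe_mul, hcoe]; exact hbe)⟩
  haveI hI : (Ideal.span {ϖ0}).IsPrime := (Ideal.span_singleton_prime hprime.ne_zero).2 hprime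
  have hIJ : Ideal.span {ϖ0} ≤ ssm_tp_P (integralClosure R K) V := by
    rw [Ideal.span_singleton_le_iff_mem, ssm_tp_mem_P hle, hcoe]
    exact hV.pi_mem
  by_contra hcon
  have hmem : (⟨s, hs⟩ : integralClosure R K) ∈
      ((ssm_tp_P (integralClosure R K) V : Ideal (integralClosure R K)) :
        Set (integralClosure R K)) \ (Ideal.span {ϖ0} : Ideal (integralClosure R K)) := by
    refine ⟨(ssm_tp_mem_P hle).2 hsV, fun h => hcon ?_⟩
    obtain ⟨d, hd⟩ := Ideal.mem_span_singleton.1 h
    refine ⟨d, d.2, ?_⟩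
    have := congrArg Subtype.val hd
    rw [MulMemClass.coe_mul, hcoe] at this
    exact this
  have hlt := Ideal.comap_lt_comap_of_integral_mem_sdiff (R := R) hIJ hmem
    (integralClosure.isIntegral _)
  obtain ⟨-, a, haJ, haI⟩ := SetLike.lt_iff_le_and_exists.1 hlt
  apply haI
  rw [Ideal.mem_comap] at haJ ⊢
  rw [ssm_tp_mem_P hle] at haJ
  have h1 : π ∣ a := (hV.cen a).1 haJ
  obtain ⟨c, rfl⟩ := h1
  rw [map_mul]
  exact Ideal.mul_mem_right _ _ (Ideal.subset_span rfl)

/-- **[OP]** the valuation ring over `R_(π)` is `B'_(π B')`. -/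
theorem ssm_tpw_mem_iff (hV : ssm_tp_Over π V) (hπ : Prime π)
    (hfin : ∀ a : R, a ≠ 0 → ∃ (k : ℕ) (s : R), ¬ π ∣ s ∧ a = π ^ k * s)
    (halg : ∀ z : K, IsAlgebraic R z) (hp : ssm_tpw_PrimeInt R K π) {z : K} :
    z ∈ V ↔ ∃ b s : K, IsIntegral R b ∧ IsIntegral R s ∧
      (¬ ∃ d : K, IsIntegral R d ∧ s = algebraMap R K π * d) ∧ z * s = b := by
  have hinj : Function.Injective (algebraMap R K) := FaithfulSMul.algebraMap_injective R K
  have hϖ0 : algebraMap R K π ≠ 0 := (map_ne_zero_iff _ hinj).2 hπ.ne_zero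
  constructor
  · intro hz
    obtain ⟨y, hy0, hy⟩ := (halg z).exists_integral_multiple
    obtain ⟨k, s0, hs0, rfl⟩ := hfin y hy0
    rw [Algebra.smul_def, map_mul, map_pow] at hy
    -- descending induction
    have key : ∀ (k : ℕ) (b : K), IsIntegral R b → (algebraMap R K π ^ k)⁻¹ * b ∈ V →
        ∃ b' : K, IsIntegral R b' ∧ b = algebraMap R K π ^ k * b' := by
      intro k
      induction k with
      | zero => intro b hb _; exact ⟨b, hb, by rw [pow_zero, one_mul]⟩
      | succ k ih =>
        intro b hb hbV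
        have h1 : b ∈ V.nonunits := by
          have : b = algebraMap R K π * (algebraMap R K π ^ k *
              ((algebraMap R K π ^ (k + 1))⁻¹ * b)) := by
            rw [pow_succ]
            field_simp
          rw [this]
          exact ssm_tp_nonunits_mul V hV.pi_mem (V.mul_mem _ _ (V.pow_mem (hV.le π) k) hbV)
        obtain ⟨b1, hb1, rfl⟩ := ssm_tpw_centre hV hπ.ne_zero hp hb h1
        have h2 : (algebraMap R K π ^ k)⁻¹ * b1 ∈ V := by
          have : (algebraMap R K π ^ k)⁻¹ * b1 =
              (algebraMap R K π ^ (k + 1))⁻¹ * (algebraMap R K π * b1) := by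
            rw [pow_succ]
            field_simp
          rw [this]
          exact hbV
        obtain ⟨b', hb', rfl⟩ := ih b1 hb1 h2
        exact ⟨b', hb', by rw [pow_succ]; ring⟩
    have hs0' : algebraMap R K s0 ≠ 0 := ssm_tp_ne_zero V (hV.not_mem_nonunits hs0)
    have h3 : (algebraMap R K π ^ k)⁻¹ * (algebraMap R K π ^ k * algebraMap R K s0 * z) ∈ V := by
      have : (algebraMap R K π ^ k)⁻¹ * (algebraMap R K π ^ k * algebraMap R K s0 * z) =
          algebraMap R K s0 * z := by
        field_simp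
      rw [this]
      exact V.mul_mem _ _ (hV.le s0) hz
    obtain ⟨b', hb', hbb'⟩ := key k _ hy h3
    refine ⟨b', algebraMap R K s0, hb', isIntegral_algebraMap, ?_, ?_⟩
    · rintro ⟨d, hd, hsd⟩
      apply hV.not_mem_nonunits hs0
      rw [hsd]
      exact ssm_tp_nonunits_mul V hV.pi_mem (hV.mem_of_isIntegral hd)
    · have hk0 : algebraMap R K π ^ k ≠ 0 := pow_ne_zero _ hϖ0
      apply mul_left_cancel₀ hk0
      rw [← hbb']
      ring
  · rintro ⟨b, s, hb, hs, hns, hzs⟩
    have hsn : s ∉ V.nonunits := fun h => hns (ssm_tpw_centre hV hπ.ne_zero hp hs h)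
    have hs0 : s ≠ 0 := ssm_tp_ne_zero V hsn
    have : z = b * s⁻¹ := by rw [← hzs, mul_assoc, mul_inv_cancel₀ hs0, mul_one]
    rw [this]
    exact V.mul_mem _ _ (hV.mem_of_isIntegral hb) (ssm_tp_inv_mem V hsn)

/-- **[OP] one prime ⟹ one valuation**: when `π` is prime in the integral closure of `R` in `K`,
there is at most one valuation subring of `K` over the Gauss ring `R_(π)`. -/
theorem ssm_tpw_unique (hV : ssm_tp_Over π V) (hV' : ssm_tp_Over π V') (hπ : Prime π)
    (hfin : ∀ a : R, a ≠ 0 → ∃ (k : ℕ) (s : R), ¬ π ∣ s ∧ a = π ^ k * s)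
    (halg : ∀ z : K, IsAlgebraic R z) (hp : ssm_tpw_PrimeInt R K π) : V = V' := by
  ext z
  rw [ssm_tpw_mem_iff hV hπ hfin halg hp, ssm_tpw_mem_iff hV' hπ hfin halg hp]

end OnePrime

/-! ### the polynomial form of `ssm_tp_Over` for a coordinate ring `A0[y]` -/

section Poly

universe v

variable {A0 : Type*} [CommRing A0] [IsDomain A0] {F : Type v} [Field F] [Algebra A0 F]

/-- **polynomial form**: `V` lies over the Gauss ring of `A0[y]` iff `p(y) ∈ V` for every
`p ∈ A0[X]`, and `p(y) ∈ 𝔪(V) ↔ C π ∣ p`. -/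
theorem ssm_tpw_over_iff_poly {y : F} (hy : Transcendental A0 y) (π : A0)
    (V : ValuationSubring F) :
    ssm_tp_Over (algebraMap A0 (Algebra.adjoin A0 ({y} : Set F)) π) V ↔
      ∀ p : A0[X], aeval y p ∈ V ∧ (aeval y p ∈ V.nonunits ↔ C π ∣ p) := by
  have hmemR : ∀ p : A0[X], aeval y p ∈ Algebra.adjoin A0 ({y} : Set F) := fun p => by
    rw [Algebra.adjoin_singleton_eq_range_aeval]; exact ⟨p, rfl⟩
  have hrange : ∀ a : Algebra.adjoin A0 ({y} : Set F), ∃ p : A0[X], (a : F) = aeval y p := by
    intro a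
    have ha : (a : F) ∈ (aeval y : A0[X] →ₐ[A0] F).range := by
      rw [← Algebra.adjoin_singleton_eq_range_aeval]
      exact a.2
    obtain ⟨p, hp⟩ := ha
    exact ⟨p, hp.symm⟩
  constructor
  · intro h p
    refine ⟨h.le ⟨_, hmemR p⟩, ?_⟩
    rw [← ssm_tp_dvd_aeval_iff hy π p ⟨_, hmemR p⟩ rfl]
    exact h.cen ⟨_, hmemR p⟩
  · intro h
    constructor
    · intro a
      obtain ⟨p, hp⟩ := hrange a
      change (a : F) ∈ V
      rw [hp]
      exact (h p).1
    · intro a
      obtain ⟨p, hp⟩ := hrange a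
      rw [ssm_tp_dvd_aeval_iff hy π p a hp, ← (h p).2]
      change (a : F) ∈ V.nonunits ↔ _
      rw [hp]

end Poly

section Comap

variable {K E : Type*} [Field K] [Field E]

/-- non-units of the restriction of a valuation subring to a subfield -/
theorem ssm_tpw_nonunits_comap (V : ValuationSubring E) (f : K →+* E) (z : K) :
    z ∈ (V.comap f).nonunits ↔ f z ∈ V.nonunits := by
  rw [ssm_tw_nonunits_iff, ssm_tw_nonunits_iff, ValuationSubring.mem_comap,
    ValuationSubring.mem_comap, map_inv₀, map_eq_zero]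

variable [Algebra K E] {A0 : Type*} [CommRing A0] [IsDomain A0] [Algebra A0 K] [Algebra A0 E]
  [IsScalarTower A0 K E]

/-- `V` lies over the Gauss ring of `A0[x] ⊆ E` iff its restriction to `K` lies over the Gauss
ring of `A0[x] ⊆ K` (`x ∈ K`). -/
theorem ssm_tpw_over_comap_iff {x : K} (hx : Transcendental A0 x) (π : A0)
    (V : ValuationSubring E) :
    ssm_tp_Over (algebraMap A0 (Algebra.adjoin A0 ({algebraMap K E x} : Set E)) π) V ↔
      ssm_tp_Over (algebraMap A0 (Algebra.adjoin A0 ({x} : Set K)) π)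
        (V.comap (algebraMap K E)) := by
  have hxE : Transcendental A0 (algebraMap K E x) :=
    (transcendental_algebraMap_iff (algebraMap K E).injective).2 hx
  rw [ssm_tpw_over_iff_poly hxE, ssm_tpw_over_iff_poly hx]
  refine forall_congr' fun p => ?_
  rw [ssm_tpw_nonunits_comap, ValuationSubring.mem_comap, Polynomial.aeval_algebraMap_apply]

end Comap

/-! ### the composite -/

section BridgeW

open IntermediateField Fermat.Agent.JT3

universe v

variable {K : Type*} {E : Type v} [Field K] [Field E] [Algebra K E] [FiniteDimensional K E]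
  [Algebra.IsSeparable K E]
  {R' : Type*} [CommRing R'] [IsDomain R'] [IsDiscreteValuationRing R'] [Algebra R' K]
  [IsFractionRing R' K] [Algebra R' E] [IsScalarTower R' K E]
  {A0 L : Type*} [CommRing A0] [IsDomain A0] [IsDiscreteValuationRing A0]
  [Field L] [Algebra A0 L] [IsFractionRing A0 L] [Algebra L E] [Algebra A0 E]
  [IsScalarTower A0 L E] [Algebra A0 K] [IsScalarTower A0 K E]
  {q : ℕ} {V1 : ValuationSubring E} {W : E ≃+* E} {lam : R'}

/-- **[TP-W] the composite**: the two-valuations lemma in W-form over the DVR `R'` of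
`K` (`= lg_E L N'`), the fact that `R'` (as the valuation subring `VK` of `K`) lies over the Gauss
ring of `A0[x]` with the same uniformiser, and the uniqueness of `VK` over that Gauss ring give the
hypotheses `ssm_tp_Hyp` of [TP] for the coordinate ring `A0[x] ⊆ E`, with `V₂ = W(V₁)`. -/
theorem ssm_tpw_hyp (D : ssm_tw_Data K R' q V1 W lam) {π : A0} (hπ : Irreducible π) {x : K}
    (hxE : Transcendental L (algebraMap K E x)) [FiniteDimensional L⟮algebraMap K E x⟯ E]
    (VK : ValuationSubring K) (hVK : ∀ z : K, z ∈ VK ↔ z ∈ (algebraMap R' K).range)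
    (hover : ssm_tp_Over (algebraMap A0 (Algebra.adjoin A0 ({x} : Set K)) π) VK)
    (π' : R') (hπ' : Irreducible π') (hππ' : algebraMap R' K π' = algebraMap A0 K π)
    (hun : ∀ V' : ValuationSubring K,
      ssm_tp_Over (algebraMap A0 (Algebra.adjoin A0 ({x} : Set K)) π) V' → V' = VK) :
    ssm_tp_Hyp (algebraMap A0 (Algebra.adjoin A0 ({algebraMap K E x} : Set E)) π) V1
      (V1.comap (W : E →+* E)) := by
  have hxEA : Transcendental A0 (algebraMap K E x) := fc_ff_transcendental (L := L) hxE
  have hxA : Transcendental A0 x :=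
    (transcendental_algebraMap_iff (algebraMap K E).injective).1 hxEA
  have hcomap : ∀ V : ValuationSubring E, ssm_tw_Over K R' V →
      V.comap (algebraMap K E) = VK := by
    intro V hV
    ext z
    rw [ValuationSubring.mem_comap, hV z, hVK z]
  have hover_of : ∀ V : ValuationSubring E, ssm_tw_Over K R' V →
      ssm_tp_Over (algebraMap A0 (Algebra.adjoin A0 ({algebraMap K E x} : Set E)) π) V := by
    intro V hV
    rw [ssm_tpw_over_comap_iff hxA, hcomap V hV]
    exact hover
  have hπE : algebraMap R' E π' = algebraMap A0 E π := by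
    rw [IsScalarTower.algebraMap_apply R' K E, hππ', ← IsScalarTower.algebraMap_apply]
  have hϖ0 : algebraMap A0 E π ≠ 0 := by
    rw [IsScalarTower.algebraMap_apply A0 L E]
    exact (map_ne_zero_iff _ (algebraMap L E).injective).2
      ((map_ne_zero_iff _ (IsFractionRing.injective A0 L)).2 hπ.ne_zero)
  refine ssm_tp_ff_hyp (L := L) hπ hxE (hover_of V1 D.over1) (hover_of _ (ssm_tw_over2 D)) ?_ ?_
    (ssm_tw_ne D) ?_
  · intro z hz
    obtain ⟨b, hb, rfl⟩ := (ssm_tw_unif1 D π' hπ' z).1 hz
    rw [hπE, ← mul_assoc, inv_mul_cancel₀ hϖ0, one_mul]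
    exact hb
  · intro z hz
    obtain ⟨b, hb, rfl⟩ := (ssm_tw_unif2 D π' hπ' z).1 hz
    rw [hπE, ← mul_assoc, inv_mul_cancel₀ hϖ0, one_mul]
    exact hb
  · intro V hV
    apply ssm_tw_cases D V
    intro z
    rw [← hVK z, ← hun _ ((ssm_tpw_over_comap_iff hxA π V).1 hV), ValuationSubring.mem_comap]

/-- **[OP] in function-field form**: if `π` is a prime element of the chart `fc_chart A0 {x}` of `K`
(`cn_prime_funField`), the valuation subring of `K` over the Gauss ring of `A0[x]` is unique. -/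
theorem ssm_tpw_ff_unique [Algebra L K] [IsScalarTower A0 L K] {π : A0} (hπ : Irreducible π)
    {x : K} (hx : Transcendental L x) [FiniteDimensional L⟮x⟯ K]
    (hprime : Prime (algebraMap A0 (fc_chart A0 ({x} : Set K)) π)) {V V' : ValuationSubring K}
    (hV : ssm_tp_Over (algebraMap A0 (Algebra.adjoin A0 ({x} : Set K)) π) V)
    (hV' : ssm_tp_Over (algebraMap A0 (Algebra.adjoin A0 ({x} : Set K)) π) V') : V = V' := by
  have hxA : Transcendental A0 x := fc_ff_transcendental (L := L) hx
  haveI : IsIntegrallyClosed (Algebra.adjoin A0 ({x} : Set K)) := fc_ff_isIntegrallyClosed hxA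
  haveI : FaithfulSMul (Algebra.adjoin A0 ({x} : Set K)) K :=
    (faithfulSMul_iff_algebraMap_injective _ _).2 Subtype.val_injective
  have hp := (sfc_ff_prime_pi hπ hxA).1
  have hFT : Algebra.FiniteType A0 (Algebra.adjoin A0 ({x} : Set K)) := by
    rw [← Subalgebra.fg_iff_finiteType]
    exact ⟨{x}, by rw [Finset.coe_singleton]⟩
  haveI : IsNoetherianRing (Algebra.adjoin A0 ({x} : Set K)) :=
    Algebra.FiniteType.isNoetherianRing A0 _
  haveI : Algebra.IsAlgebraic (Algebra.adjoin A0 ({x} : Set K)) K := fc_ff_isAlgebraic (L := L) x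
  exact ssm_tpw_unique hV hV' hp (fun a ha => WfDvdMonoid.max_power_factor ha hp.irreducible)
    (fun z => Algebra.IsAlgebraic.isAlgebraic z)
    (ssm_tpw_primeInt_of_prime (fc_chart A0 ({x} : Set K)) (fun _ => Iff.rfl) _ rfl hprime)

/-- **[TP-W] the composite, with the level-`K` uniqueness from `π` prime on the chart of `K`.** -/
theorem ssm_tpw_hyp_of_prime [Algebra L K] [IsScalarTower A0 L K]
    (D : ssm_tw_Data K R' q V1 W lam) {π : A0} (hπ : Irreducible π) {x : K}
    (hx : Transcendental L x) [FiniteDimensional L⟮x⟯ K]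
    (hxE : Transcendental L (algebraMap K E x)) [FiniteDimensional L⟮algebraMap K E x⟯ E]
    (hprime : Prime (algebraMap A0 (fc_chart A0 ({x} : Set K)) π))
    (VK : ValuationSubring K) (hVK : ∀ z : K, z ∈ VK ↔ z ∈ (algebraMap R' K).range)
    (hover : ssm_tp_Over (algebraMap A0 (Algebra.adjoin A0 ({x} : Set K)) π) VK)
    (π' : R') (hπ' : Irreducible π') (hππ' : algebraMap R' K π' = algebraMap A0 K π) :
    ssm_tp_Hyp (algebraMap A0 (Algebra.adjoin A0 ({algebraMap K E x} : Set E)) π) V1
      (V1.comap (W : E →+* E)) :=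
  ssm_tpw_hyp (L := L) D hπ hxE VK hVK hover π' hπ' hππ'
    (fun _ hV' => ssm_tpw_ff_unique (L := L) hπ hx hprime hV' hover)

end BridgeW

end Fermat.Agent.SS
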