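/-
SS [M] / [TH-I] sub-cell, leaf [TH-S]: THE LOCAL BASE.

`S := fc_locAt F n`, the local ring (inside the fraction field `F`) of a chart `R` at a prime `n`.
* Section `Local`: from the regularity seam `tq_GenBy π u n ∧ tq_Dom π n` of the chart:
  `𝔪_S = (π, u)`, `π` is a prime element of `S`; `S` is noetherian / integrally closed / has
  fraction field `F` when `R` is.
* Section `Gauss`: a valuation subring `V` of `F` over the Gauss ring `R0_(π)` of the coordinate
  ring `R0` (`ssm_tp_Over π V`), with `π` prime on the chart, lies over the Gauss ring `S_(π)` of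
  `S`, and is the only such valuation subring ([OP] at `R := S`).
* Section `FunField`, `Legendre`: the function-field charts `fc_chart A0 {y}` and the Legendre
  instance (`lg_regAt_lam`, `ssm_ec_lam`).
-/
import Mathlib
import Fermat.Agent.JT3.FCore.LocalUFD
import Fermat.Agent.SS.Model.TwoPrimesW
import Fermat.Agent.JT3.FCore.FunField
import Fermat.Agent.JT3.FCore.Main

set_option autoImplicit false
set_option linter.unusedSectionVars false
set_option linter.style.haveILetI false

noncomputable section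

namespace Fermat.Agent.SS

open Fermat.Agent.JT3

/-! ### the local ring of a chart at a regular point -/

section Local

variable {R : Type*} [CommRing R] [IsDomain R]
  (F : Type*) [Field F] [Algebra R F] [IsFractionRing R F] (n : Ideal R) [hn : n.IsPrime]

instance ssm_ths_isLocalRing : IsLocalRing ↥(fc_locAt F n) :=
  IsLocalization.AtPrime.isLocalRing (fc_locAt F n) n

theorem ssm_ths_isNoetherianRing [IsNoetherianRing R] : IsNoetherianRing ↥(fc_locAt F n) :=
  IsLocalization.isNoetherianRing n.primeCompl _ inferInstance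

theorem ssm_ths_isIntegrallyClosed [IsIntegrallyClosed R] :
    IsIntegrallyClosed ↥(fc_locAt F n) :=
  isIntegrallyClosed_of_isLocalization _ n.primeCompl n.primeCompl_le_nonZeroDivisors

theorem ssm_ths_isFractionRing : IsFractionRing ↥(fc_locAt F n) F :=
  IsFractionRing.isFractionRing_of_isDomain_of_isLocalization n.primeCompl _ F

/-- elements outside `n` are units of the local ring -/
theorem ssm_ths_isUnit {s : R} (hs : s ∉ n) : IsUnit (algebraMap R ↥(fc_locAt F n) s) :=
  IsLocalization.map_units (M := n.primeCompl) _ ⟨s, hs⟩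

theorem ssm_ths_algebraMap_injective : Function.Injective (algebraMap R ↥(fc_locAt F n)) :=
  IsLocalization.injective _ n.primeCompl_le_nonZeroDivisors

/-- every element of the local ring is `a / s` with `s ∉ n`. -/
theorem ssm_ths_exists_frac (z : ↥(fc_locAt F n)) :
    ∃ a s : R, s ∉ n ∧ z * algebraMap R ↥(fc_locAt F n) s = algebraMap R ↥(fc_locAt F n) a := by
  obtain ⟨⟨a, s⟩, h⟩ := IsLocalization.surj n.primeCompl z
  exact ⟨a, s, s.2, h⟩

/-- **(reg)** `𝔪_S = (π, u)` from `tq_GenBy π u n`. -/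
theorem ssm_ths_maximalIdeal_eq {π u : R} (h : tq_GenBy π u n) :
    IsLocalRing.maximalIdeal ↥(fc_locAt F n) =
      Ideal.span {algebraMap R ↥(fc_locAt F n) π, algebraMap R ↥(fc_locAt F n) u} := by
  obtain ⟨hπ, hu, hgen⟩ := h
  rw [← IsLocalization.AtPrime.map_eq_maximalIdeal n ↥(fc_locAt F n)]
  apply le_antisymm
  · rw [Ideal.map_le_iff_le_comap]
    intro x hx
    obtain ⟨s, hs, hsx⟩ := hgen x hx
    rw [Ideal.mem_comap]
    have h1 := Ideal.mem_map_of_mem (algebraMap R ↥(fc_locAt F n)) hsx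
    rw [Ideal.map_span, Set.image_pair, map_mul] at h1
    obtain ⟨t, ht⟩ := (ssm_ths_isUnit F n hs).exists_left_inv
    have : algebraMap R ↥(fc_locAt F n) x =
        t * (algebraMap R ↥(fc_locAt F n) s * algebraMap R ↥(fc_locAt F n) x) := by
      rw [← mul_assoc, ht, one_mul]
    rw [this]
    exact Ideal.mul_mem_left _ _ h1
  · rw [Ideal.span_le]
    rintro _ (rfl | rfl)
    · exact Ideal.mem_map_of_mem _ hπ
    · exact Ideal.mem_map_of_mem _ hu

/-- **(dom)** `π` is a prime element of `S` from `tq_Dom π n`. -/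
theorem ssm_ths_prime {π : R} (hπn : π ∈ n) (hπ0 : π ≠ 0) (hdom : tq_Dom π n) :
    Prime (algebraMap R ↥(fc_locAt F n) π) := by
  have hinj := ssm_ths_algebraMap_injective F n
  refine ⟨(map_ne_zero_iff _ hinj).2 hπ0, ?_, ?_⟩
  · intro hu
    have h1 : algebraMap R ↥(fc_locAt F n) π ∈ IsLocalRing.maximalIdeal ↥(fc_locAt F n) := by
      rw [← IsLocalization.AtPrime.map_eq_maximalIdeal n ↥(fc_locAt F n)]
      exact Ideal.mem_map_of_mem _ hπn
    exact (IsLocalRing.mem_maximalIdeal _).1 h1 hu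
  · intro a b hab
    obtain ⟨a0, s, hs, ha⟩ := ssm_ths_exists_frac F n a
    obtain ⟨b0, t, ht, hb⟩ := ssm_ths_exists_frac F n b
    obtain ⟨c, hc⟩ := hab
    obtain ⟨c0, w, hw, hcw⟩ := ssm_ths_exists_frac F n c
    -- `a0 * b0 * w = π * c0 * s * t` in `R`
    have h1 : a0 * b0 * w = π * (c0 * s * t) := by
      apply hinj
      simp only [map_mul]
      rw [← ha, ← hb, ← hcw]
      linear_combination (algebraMap R ↥(fc_locAt F n) s * algebraMap R ↥(fc_locAt F n) t *
        algebraMap R ↥(fc_locAt F n) w) * hc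
    have h2 : (w * a0) * b0 ∈ Ideal.span {π} :=
      Ideal.mem_span_singleton.2 ⟨c0 * s * t, by rw [← h1]; ring⟩
    obtain ⟨s', hs', hor⟩ := hdom (w * a0) b0 h2
    have hdvd : ∀ {x : ↥(fc_locAt F n)} {x0 v r : R}, v ∉ n → r ∉ n →
        x * algebraMap R ↥(fc_locAt F n) r = algebraMap R ↥(fc_locAt F n) x0 →
        v * x0 ∈ Ideal.span {π} → algebraMap R ↥(fc_locAt F n) π ∣ x := by
      intro x x0 v r hv hr hx hmem
      obtain ⟨d, hd⟩ := Ideal.mem_span_singleton.1 hmem
      have hu : IsUnit (algebraMap R ↥(fc_locAt F n) (v * r)) :=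
        ssm_ths_isUnit F n (fun h => (hn.mem_or_mem h).elim hv hr)
      obtain ⟨e, he⟩ := hu.exists_left_inv
      refine ⟨e * algebraMap R ↥(fc_locAt F n) d, ?_⟩
      have h3 : algebraMap R ↥(fc_locAt F n) (v * r) * x =
          algebraMap R ↥(fc_locAt F n) π * algebraMap R ↥(fc_locAt F n) d := by
        rw [← map_mul, ← hd, map_mul, map_mul, ← hx]; ring
      calc x = e * (algebraMap R ↥(fc_locAt F n) (v * r) * x) := by
            rw [← mul_assoc, he, one_mul]
        _ = algebraMap R ↥(fc_locAt F n) π * (e * algebraMap R ↥(fc_locAt F n) d) := by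
            rw [h3]; ring
    rcases hor with hor | hor
    · left
      exact hdvd (v := s' * w) (fun h => (hn.mem_or_mem h).elim hs' hw) hs ha
        (by rwa [mul_assoc])
    · right
      exact hdvd hs' ht hb hor

/-- **finite `π`-adic order** in the noetherian local ring `S`. -/
theorem ssm_ths_fin [IsNoetherianRing R] {π : R}
    (hp : Prime (algebraMap R ↥(fc_locAt F n) π)) (a : ↥(fc_locAt F n)) (ha : a ≠ 0) :
    ∃ (k : ℕ) (s : ↥(fc_locAt F n)), ¬ algebraMap R ↥(fc_locAt F n) π ∣ s ∧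
      a = algebraMap R ↥(fc_locAt F n) π ^ k * s := by
  haveI := ssm_ths_isNoetherianRing F n
  exact WfDvdMonoid.max_power_factor ha hp.irreducible

end Local

/-! ### the Gauss valuation over the local ring -/

section Gauss

variable {R0 : Type*} [CommRing R0] [IsDomain R0] [IsIntegrallyClosed R0]
  {K : Type*} [Field K] [Algebra R0 K] [FaithfulSMul R0 K]
  {R : Type*} [CommRing R] [IsDomain R] [Algebra R K] [IsFractionRing R K]
  (n : Ideal R) [hn : n.IsPrime]

/-- **The Gauss valuation lies over `S_(π)`.** `R0` the coordinate ring, `R` a presentation of its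
integral closure in `K` (`hle`, `hge`), `V` a valuation subring of `K` over the Gauss ring
`R0_(π0)`, `π0` prime on the chart, `π ∈ n` the image of `π0` in `R`. Then `V` lies over the Gauss
ring of the local ring `S = fc_locAt K n`. -/
theorem ssm_ths_over {π0 : R0} {V : ValuationSubring K} (hV : ssm_tp_Over π0 V) (hπ0 : π0 ≠ 0)
    (hp : ssm_tpw_PrimeInt R0 K π0)
    (hle : ∀ r : R, IsIntegral R0 (algebraMap R K r))
    (hge : ∀ z : K, IsIntegral R0 z → ∃ r : R, algebraMap R K r = z)
    {π : R} (hπ : algebraMap R K π = algebraMap R0 K π0) (hπn : π ∈ n) :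
    ssm_tp_Over (algebraMap R ↥(fc_locAt K n) π) V := by
  have hinj : Function.Injective (algebraMap R K) := IsFractionRing.injective R K
  have hcoe : ∀ r : R, ((algebraMap R ↥(fc_locAt K n) r : ↥(fc_locAt K n)) : K) =
      algebraMap R K r := fun r => rfl
  have hval : ∀ z : ↥(fc_locAt K n), algebraMap ↥(fc_locAt K n) K z = (z : K) := fun z => rfl
  -- elements outside `n` are units of `V`
  have hunit : ∀ s : R, s ∉ n → algebraMap R K s ∉ V.nonunits := by
    intro s hs hsV
    obtain ⟨d, hd, hsd⟩ := ssm_tpw_centre hV hπ0 hp (hle s) hsV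
    obtain ⟨d0, rfl⟩ := hge d hd
    apply hs
    have : s = π * d0 := hinj (by rw [map_mul, hπ, hsd])
    rw [this]
    exact n.mul_mem_right _ hπn
  have hRV : ∀ r : R, algebraMap R K r ∈ V := fun r => hV.mem_of_isIntegral (hle r)
  have hπV : algebraMap R K π ∈ V.nonunits := by rw [hπ]; exact hV.pi_mem
  have hmemV : ∀ z : ↥(fc_locAt K n), (z : K) ∈ V := by
    intro z
    obtain ⟨a, s, hs, h⟩ := (fc_mem_locAt K n (z : K)).1 z.2
    have hs0 : algebraMap R K s ≠ 0 := ssm_tp_ne_zero V (hunit s hs)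
    have : (z : K) = algebraMap R K a * (algebraMap R K s)⁻¹ := by
      rw [← h, mul_assoc, mul_inv_cancel₀ hs0, mul_one]
    rw [this]
    exact V.mul_mem _ _ (hRV a) (ssm_tp_inv_mem V (hunit s hs))
  refine ⟨fun z => by rw [hval]; exact hmemV z, fun z => ?_⟩
  rw [hval]
  constructor
  · intro hz
    obtain ⟨a, s, hs, h⟩ := (fc_mem_locAt K n (z : K)).1 z.2
    have hs0 : algebraMap R K s ≠ 0 := ssm_tp_ne_zero V (hunit s hs)
    have haV : algebraMap R K a ∈ V.nonunits := by
      rw [← h]; exact ssm_tp_nonunits_mul V hz (hRV s)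
    obtain ⟨d, hd, had⟩ := ssm_tpw_centre hV hπ0 hp (hle a) haV
    obtain ⟨d0, rfl⟩ := hge d hd
    have hmem : algebraMap R K d0 * (algebraMap R K s)⁻¹ ∈ fc_locAt K n := by
      rw [fc_mem_locAt]
      exact ⟨d0, s, hs, by rw [mul_assoc, inv_mul_cancel₀ hs0, mul_one]⟩
    refine ⟨⟨_, hmem⟩, Subtype.ext ?_⟩
    rw [MulMemClass.coe_mul, hcoe, hπ]
    have : (z : K) = algebraMap R K a * (algebraMap R K s)⁻¹ := by
      rw [← h, mul_assoc, mul_inv_cancel₀ hs0, mul_one]
    rw [this, had]
    ring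
  · rintro ⟨c, rfl⟩
    rw [MulMemClass.coe_mul, hcoe]
    exact ssm_tp_nonunits_mul V hπV (hmemV c)

/-- **[OP] at `R := S`**: a prime element `π` of the noetherian integrally closed local ring `S`
carries at most one valuation subring of `K` over `S_(π)`. -/
theorem ssm_ths_unique [IsNoetherianRing R] [IsIntegrallyClosed R] {π : R}
    (hprime : Prime (algebraMap R ↥(fc_locAt K n) π)) {V V' : ValuationSubring K}
    (hV : ssm_tp_Over (algebraMap R ↥(fc_locAt K n) π) V)
    (hV' : ssm_tp_Over (algebraMap R ↥(fc_locAt K n) π) V') : V = V' := by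
  haveI := ssm_ths_isIntegrallyClosed K n
  haveI := ssm_ths_isFractionRing K n
  haveI : FaithfulSMul ↥(fc_locAt K n) K :=
    (faithfulSMul_iff_algebraMap_injective _ _).2 Subtype.val_injective
  have hinjS : Function.Injective (algebraMap ↥(fc_locAt K n) K) := Subtype.val_injective
  refine ssm_tpw_unique hV hV' hprime (fun a ha => ssm_ths_fin K n hprime a ha)
    (fun z => (IsFractionRing.isAlgebraic_iff ↥(fc_locAt K n) K K).2
      (isAlgebraic_algebraMap (R := K) (A := K) z)) ?_
  rintro b c hb hc ⟨d, hd, hbcd⟩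
  obtain ⟨b0, rfl⟩ := IsIntegrallyClosed.isIntegral_iff.1 hb
  obtain ⟨c0, rfl⟩ := IsIntegrallyClosed.isIntegral_iff.1 hc
  obtain ⟨d0, rfl⟩ := IsIntegrallyClosed.isIntegral_iff.1 hd
  have h1 : b0 * c0 = algebraMap R ↥(fc_locAt K n) π * d0 :=
    hinjS (by rw [map_mul, map_mul]; exact hbcd)
  rcases hprime.dvd_or_dvd ⟨d0, h1⟩ with ⟨e, he⟩ | ⟨e, he⟩
  · exact Or.inl ⟨algebraMap ↥(fc_locAt K n) K e, isIntegral_algebraMap, by rw [he, map_mul]⟩
  · exact Or.inr ⟨algebraMap ↥(fc_locAt K n) K e, isIntegral_algebraMap, by rw [he, map_mul]⟩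

end Gauss

/-! ### function-field charts -/

section FunField

open IntermediateField

universe v

variable {A0 L : Type*} {F0 : Type v} [CommRing A0] [IsDomain A0] [IsDiscreteValuationRing A0]
  [Field L] [Field F0] [Algebra A0 L] [IsFractionRing A0 L] [CharZero L] [Algebra L F0]
  [Algebra A0 F0] [IsScalarTower A0 L F0]

/-- the chart `fc_chart A0 {y}` of a function field is noetherian -/
theorem ssm_ths_chart_isNoetherianRing {y : F0} (hy : Transcendental L y)
    [FiniteDimensional L⟮y⟯ F0] : IsNoetherianRing ↥(fc_chart A0 ({y} : Set F0)) := by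
  have h := fc_chart_isNoetherianRing (A0 := A0) ({y} : Finset F0)
    (by rw [Finset.coe_singleton]; exact fc_ff_finite (L := L) hy)
  rwa [Finset.coe_singleton] at h

/-- the chart `fc_chart A0 {y}` of a function field is integrally closed -/
theorem ssm_ths_chart_isIntegrallyClosed (y : F0) [FiniteDimensional L⟮y⟯ F0] :
    IsIntegrallyClosed ↥(fc_chart A0 ({y} : Set F0)) := by
  letI : Algebra (Algebra.adjoin A0 ({y} : Set F0)) L⟮y⟯ := (fc_ff_incl (L := L) y).toAlgebra
  haveI : IsScalarTower (Algebra.adjoin A0 ({y} : Set F0)) L⟮y⟯ F0 :=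
    IsScalarTower.of_algebraMap_eq fun _ => rfl
  haveI : IsFractionRing (Algebra.adjoin A0 ({y} : Set F0)) L⟮y⟯ := fc_ff_isFractionRing y
  exact (integralClosure.isIntegrallyClosedOfFiniteExtension L⟮y⟯ :
    IsIntegrallyClosed (integralClosure (Algebra.adjoin A0 ({y} : Set F0)) F0))

/-- the chart `fc_chart A0 {y}` of a function field has fraction field `F0` -/
theorem ssm_ths_chart_isFractionRing (y : F0) [FiniteDimensional L⟮y⟯ F0] :
    IsFractionRing ↥(fc_chart A0 ({y} : Set F0)) F0 := by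
  haveI : Algebra.IsAlgebraic (Algebra.adjoin A0 ({y} : Set F0)) F0 := fc_ff_isAlgebraic (L := L) y
  infer_instance

/-- **[TH-S], function-field form.** `B := fc_chart A0 {y}`, `n` a prime of `B` containing `π` at
which the regularity seam holds with parameter `u`, `π` prime on `B`, `V` a valuation subring of
`F0` over the Gauss ring of `A0[y]`. Then the local ring `S := fc_locAt F0 n` is a noetherian
integrally closed local domain with fraction field `F0`, `𝔪_S = (π, u)`, `π` is a prime element of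
`S`, `V` lies over the Gauss ring `S_(π)` and is the only valuation subring of `F0` doing so. -/
theorem ssm_ths_ff {π : A0} {y : F0} (hy : Transcendental L y)
    [FiniteDimensional L⟮y⟯ F0]
    (hπB : Prime (algebraMap A0 ↥(fc_chart A0 ({y} : Set F0)) π))
    (n : Ideal ↥(fc_chart A0 ({y} : Set F0))) [hn : n.IsPrime]
    {u : ↥(fc_chart A0 ({y} : Set F0))}
    (hgen : tq_GenBy (algebraMap A0 ↥(fc_chart A0 ({y} : Set F0)) π) u n)
    (hdom : tq_Dom (algebraMap A0 ↥(fc_chart A0 ({y} : Set F0)) π) n)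
    {V : ValuationSubring F0}
    (hV : ssm_tp_Over (algebraMap A0 (Algebra.adjoin A0 ({y} : Set F0)) π) V) :
    haveI := ssm_ths_chart_isFractionRing (A0 := A0) (L := L) y
    IsNoetherianRing ↥(fc_locAt F0 n) ∧ IsIntegrallyClosed ↥(fc_locAt F0 n) ∧
      IsFractionRing ↥(fc_locAt F0 n) F0 ∧
      IsLocalRing.maximalIdeal ↥(fc_locAt F0 n) =
        Ideal.span {algebraMap ↥(fc_chart A0 ({y} : Set F0)) ↥(fc_locAt F0 n)
            (algebraMap A0 ↥(fc_chart A0 ({y} : Set F0)) π),
          algebraMap ↥(fc_chart A0 ({y} : Set F0)) ↥(fc_locAt F0 n) u} ∧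
      Prime (algebraMap ↥(fc_chart A0 ({y} : Set F0)) ↥(fc_locAt F0 n)
        (algebraMap A0 ↥(fc_chart A0 ({y} : Set F0)) π)) ∧
      ssm_tp_Over (algebraMap ↥(fc_chart A0 ({y} : Set F0)) ↥(fc_locAt F0 n)
        (algebraMap A0 ↥(fc_chart A0 ({y} : Set F0)) π)) V ∧
      ∀ V' : ValuationSubring F0,
        ssm_tp_Over (algebraMap ↥(fc_chart A0 ({y} : Set F0)) ↥(fc_locAt F0 n)
          (algebraMap A0 ↥(fc_chart A0 ({y} : Set F0)) π)) V' → V' = V := by
  haveI hfr := ssm_ths_chart_isFractionRing (A0 := A0) (L := L) y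
  haveI hno := ssm_ths_chart_isNoetherianRing (A0 := A0) (L := L) hy
  haveI hic := ssm_ths_chart_isIntegrallyClosed (A0 := A0) (L := L) y
  have hyA : Transcendental A0 y := fc_ff_transcendental (L := L) hy
  haveI : IsIntegrallyClosed (Algebra.adjoin A0 ({y} : Set F0)) := fc_ff_isIntegrallyClosed hyA
  haveI : FaithfulSMul (Algebra.adjoin A0 ({y} : Set F0)) F0 :=
    (faithfulSMul_iff_algebraMap_injective _ _).2 Subtype.val_injective
  have hπ0 : algebraMap A0 ↥(fc_chart A0 ({y} : Set F0)) π ≠ 0 := hπB.ne_zero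
  have hπ00 : algebraMap A0 (Algebra.adjoin A0 ({y} : Set F0)) π ≠ 0 := by
    intro h0
    apply hπ0
    apply Subtype.ext
    have := congrArg Subtype.val h0
    exact this
  have hp : ssm_tpw_PrimeInt (Algebra.adjoin A0 ({y} : Set F0)) F0
      (algebraMap A0 (Algebra.adjoin A0 ({y} : Set F0)) π) :=
    ssm_tpw_primeInt_of_prime (fc_chart A0 ({y} : Set F0)) (fun _ => Iff.rfl)
      (algebraMap A0 ↥(fc_chart A0 ({y} : Set F0)) π) rfl hπB
  have hprime := ssm_ths_prime F0 n hgen.1 hπ0 hdom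
  have hover := ssm_ths_over (R0 := Algebra.adjoin A0 ({y} : Set F0)) n hV hπ00 hp
    (fun r => r.2) (fun z hz => ⟨⟨z, hz⟩, rfl⟩)
    (π := algebraMap A0 ↥(fc_chart A0 ({y} : Set F0)) π) rfl hgen.1
  exact ⟨ssm_ths_isNoetherianRing F0 n, ssm_ths_isIntegrallyClosed F0 n,
    ssm_ths_isFractionRing F0 n, ssm_ths_maximalIdeal_eq F0 n hgen, hprime, hover,
    fun V' hV' => ssm_ths_unique n hprime hV' hover⟩

/-- **The conclusion of [TH-S], bundled** (so that instance files never elaborate the local ring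
at concrete types): for `B := fc_chart A0 {y}`, `S := fc_locAt F0 n`. -/
def ssm_ths_Out {A0 : Type*} {F0 : Type v} [CommRing A0] [Field F0] [Algebra A0 F0]
    (π : A0) (y : F0) [IsFractionRing ↥(fc_chart A0 ({y} : Set F0)) F0]
    (n : Ideal ↥(fc_chart A0 ({y} : Set F0))) [n.IsPrime]
    (u : ↥(fc_chart A0 ({y} : Set F0))) (V : ValuationSubring F0) : Prop :=
  IsNoetherianRing ↥(fc_locAt F0 n) ∧ IsIntegrallyClosed ↥(fc_locAt F0 n) ∧
    IsFractionRing ↥(fc_locAt F0 n) F0 ∧
    IsLocalRing.maximalIdeal ↥(fc_locAt F0 n) =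
      Ideal.span {algebraMap ↥(fc_chart A0 ({y} : Set F0)) ↥(fc_locAt F0 n)
          (algebraMap A0 ↥(fc_chart A0 ({y} : Set F0)) π),
        algebraMap ↥(fc_chart A0 ({y} : Set F0)) ↥(fc_locAt F0 n) u} ∧
    Prime (algebraMap ↥(fc_chart A0 ({y} : Set F0)) ↥(fc_locAt F0 n)
      (algebraMap A0 ↥(fc_chart A0 ({y} : Set F0)) π)) ∧
    ssm_tp_Over (algebraMap ↥(fc_chart A0 ({y} : Set F0)) ↥(fc_locAt F0 n)
      (algebraMap A0 ↥(fc_chart A0 ({y} : Set F0)) π)) V ∧
    ∀ V' : ValuationSubring F0,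
      ssm_tp_Over (algebraMap ↥(fc_chart A0 ({y} : Set F0)) ↥(fc_locAt F0 n)
        (algebraMap A0 ↥(fc_chart A0 ({y} : Set F0)) π)) V' → V' = V

/-- `ssm_ths_ff` in bundled form. -/
theorem ssm_ths_ff_out {π : A0} {y : F0} (hy : Transcendental L y)
    [FiniteDimensional L⟮y⟯ F0] [IsFractionRing ↥(fc_chart A0 ({y} : Set F0)) F0]
    (hπB : Prime (algebraMap A0 ↥(fc_chart A0 ({y} : Set F0)) π))
    (n : Ideal ↥(fc_chart A0 ({y} : Set F0))) [hn : n.IsPrime]
    {u : ↥(fc_chart A0 ({y} : Set F0))}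
    (hgen : tq_GenBy (algebraMap A0 ↥(fc_chart A0 ({y} : Set F0)) π) u n)
    (hdom : tq_Dom (algebraMap A0 ↥(fc_chart A0 ({y} : Set F0)) π) n)
    {V : ValuationSubring F0}
    (hV : ssm_tp_Over (algebraMap A0 (Algebra.adjoin A0 ({y} : Set F0)) π) V) :
    ssm_ths_Out π y n u V :=
  ssm_ths_ff (L := L) hy hπB n hgen hdom hV

end FunField

end Fermat.Agent.SS
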