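/-
SS [M] / [TH-I] sub-cell, leaf [TH-S], HESSE TWIN (`q = 2`): the local base at a point of the special
fibre of the `μ`-chart (resp. `μ⁻¹`-chart) of `E' = hs_E L h3 N` off the cusps.

Inputs: `hs_regAt_apply3` / `hs_regAt_apply4` (S18 regularity of the Hesse charts),
`cn_prime_funField` (`π` prime on the charts), `ssm_ech_mu` / `ssm_ech_mu_inv` ([EC], Hesse twin:
the explicit parameter `G(μ)`), `ssm_ths_ff_out`.
-/
import Mathlib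
import Fermat.Agent.SS.Model.ThickBase
import Fermat.Agent.SS.Model.EtaleCoordHesse
import Fermat.Agent.JT3.Inst.HesseFunFieldFacts
import Fermat.Agent.JT3.Model.Connected

set_option autoImplicit false
set_option linter.unusedSectionVars false
set_option linter.style.haveILetI false

noncomputable section

open Polynomial IntermediateField ModularCurve

namespace Fermat.Agent.SS

open Fermat.Agent.JT3

section Inst

variable {L : Type*} [Field L] [CharZero L] (h3 : (3 : L) ≠ 0) (O : ValuationSubring L)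
  [IsDiscreteValuationRing O] (N : ℕ) [NeZero N]

attribute [local instance] hsh_algKE

/-- the S18 regularity of the two standard Hesse charts (as in `rpw_hes_dedekind`). -/
theorem ssm_thsh_regAt {π : O} (hπ : Irreducible π) (ℓ : ℕ) [Fact ℓ.Prime]
    (hℓ : ((ℓ : ℕ) : O) ∈ IsLocalRing.maximalIdeal O) (hℓ3 : ℓ ≠ 3) (hℓN : ¬ ℓ ∣ N)
    (ζ : L) (hζ : IsPrimitiveRoot ζ N) (ω : O) (hω : ω ^ 2 + ω + 1 = 0)
    (hram : hs_RamHyp3 h3 N (hsh_muK L h3) (ω : L))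
    (hram' : hs_RamHyp4 h3 N (hsh_muK L h3)⁻¹ (ω : L)) :
    jt_RegAt (fc_chart O ({hs_muE h3 N} : Set (hs_E L h3 N)))
        (algebraMap O (fc_chart O ({hs_muE h3 N} : Set (hs_E L h3 N))) π) ∧
      jt_RegAt (fc_chart O ({(hs_muE h3 N)⁻¹} : Set (hs_E L h3 N)))
        (algebraMap O (fc_chart O ({(hs_muE h3 N)⁻¹} : Set (hs_E L h3 N))) π) := by
  constructor
  · exact hs_regAt_apply3 h3 N hπ ℓ hℓ hℓ3 hℓN ζ hζ ω hω (hsh_muK L h3)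
      (hs_muK_transcendental L h3) (hsh_adjoin_muK L h3) (hsv_S L h3 N)
      (hsv_adjoin_eq_top L h3 N) (fun _ hθ => hsv_goodGen_mu h3 O hℓ hℓ3 hℓN hθ) hram
  · have := hs_regAt_apply4 h3 N hπ ℓ hℓ hℓ3 hℓN ζ hζ ω hω (hsh_muK L h3)⁻¹
      (hs_muK_inv_transcendental L h3) (hs_adjoin_muK_inv L h3) (hsv_S L h3 N)
      (hsv_adjoin_eq_top L h3 N)
      (fun _ hθ => by
        rw [hs_algebraMap_muK_inv]
        exact hsv_goodGen_mu_inv h3 O hℓ hℓ3 hℓN hθ) hram'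
    rwa [hs_algebraMap_muK_inv] at this

/-- `π` is prime on the two standard Hesse charts (from the S18 regularity). -/
theorem ssm_thsh_mu_prime {π : O} (hπ : Irreducible π) (ℓ : ℕ) [Fact ℓ.Prime]
    (hℓ : ((ℓ : ℕ) : O) ∈ IsLocalRing.maximalIdeal O) (hℓ3 : ℓ ≠ 3) (hℓN : ¬ ℓ ∣ N)
    (ζ : L) (hζ : IsPrimitiveRoot ζ N) (ω : O) (hω : ω ^ 2 + ω + 1 = 0)
    (hram : hs_RamHyp3 h3 N (hsh_muK L h3) (ω : L))
    (hram' : hs_RamHyp4 h3 N (hsh_muK L h3)⁻¹ (ω : L)) :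
    Prime (algebraMap O (fc_chart O ({hs_muE h3 N} : Set (hs_E L h3 N))) π) ∧
      Prime (algebraMap O (fc_chart O ({(hs_muE h3 N)⁻¹} : Set (hs_E L h3 N))) π) := by
  obtain ⟨hr1, hr2⟩ := ssm_thsh_regAt h3 O N hπ ℓ hℓ hℓ3 hℓN ζ hζ ω hω hram hram'
  have hx : Transcendental L (hs_muE h3 N) := hsf_mu_transcendental L h3 N
  haveI := hsf_finite L h3 N
  have hconst : ∀ z : hs_E L h3 N, IsAlgebraic L z → z ∈ (algebraMap L (hs_E L h3 N)).range :=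
    fun z hz => lgf_hconst (hs_E L h3 N) z hz
  obtain ⟨hp1, hp2, -⟩ := cn_prime_funField (K0 := L) hπ hx hconst
    (fun n hn hπn => (hr1 n hn hπn).2) (fun n hn hπn => (hr2 n hn hπn).2)
  exact ⟨hp1, hp2⟩

/-- `E'` is finite over `L(μ⁻¹)`. -/
theorem ssm_thsh_mu_inv_finite :
    FiniteDimensional L⟮((hs_muE h3 N)⁻¹ : hs_E L h3 N)⟯ (hs_E L h3 N) := by
  haveI := hsf_finite L h3 N
  rw [rt_adjoin_inv]
  infer_instance

/-- **[TH-S] on the `μ`-chart** (Hesse twin of `ssm_ths_lam`). At a maximal ideal `n ∋ π` of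
`B' = fc_chart O {μ}` off the cusps (`μ³ - 1 ∉ n`), for `G ∈ O[X]` with `G(μ) ∈ n`, `G'(μ) ∉ n`,
and `V` a valuation subring of `E'` over the Gauss ring of `O[μ]`: the bundle `ssm_ths_Out`. -/
theorem ssm_thsh_mu {π : O} (hπ : Irreducible π) (ℓ : ℕ) [Fact ℓ.Prime]
    (hℓ : ((ℓ : ℕ) : O) ∈ IsLocalRing.maximalIdeal O) (hℓ3 : ℓ ≠ 3) (hℓN : ¬ ℓ ∣ N)
    (ζ : L) (hζ : IsPrimitiveRoot ζ N) (ω : O) (hω : ω ^ 2 + ω + 1 = 0)
    (hram : hs_RamHyp3 h3 N (hsh_muK L h3) (ω : L))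
    (hram' : hs_RamHyp4 h3 N (hsh_muK L h3)⁻¹ (ω : L))
    (n : Ideal (fc_chart O ({hs_muE h3 N} : Set (hs_E L h3 N)))) [hn : n.IsMaximal]
    (hπn : algebraMap O (fc_chart O ({hs_muE h3 N} : Set (hs_E L h3 N))) π ∈ n)
    (hc : ∀ y : fc_chart O ({hs_muE h3 N} : Set (hs_E L h3 N)),
      (y : hs_E L h3 N) = hs_muE h3 N ^ 3 - 1 → y ∉ n)
    (G : O[X]) (y : fc_chart O ({hs_muE h3 N} : Set (hs_E L h3 N)))
    (hy : (y : hs_E L h3 N) = aeval (hs_muE h3 N : hs_E L h3 N) G) (hyn : y ∈ n)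
    (hG' : ∀ y' : fc_chart O ({hs_muE h3 N} : Set (hs_E L h3 N)),
      (y' : hs_E L h3 N) = aeval (hs_muE h3 N : hs_E L h3 N) (derivative G) → y' ∉ n)
    {V : ValuationSubring (hs_E L h3 N)}
    (hV : ssm_tp_Over (algebraMap O (Algebra.adjoin O ({hs_muE h3 N} : Set (hs_E L h3 N))) π) V) :
    haveI := hsf_finite L h3 N
    haveI := ssm_ths_chart_isFractionRing (A0 := O) (L := L) (hs_muE h3 N : hs_E L h3 N)
    haveI : n.IsPrime := hn.isPrime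
    ssm_ths_Out (A0 := ↥O) π (hs_muE h3 N : hs_E L h3 N) n y V := by
  haveI := hsf_finite L h3 N
  haveI := ssm_ths_chart_isFractionRing (A0 := O) (L := L) (hs_muE h3 N : hs_E L h3 N)
  haveI : n.IsPrime := hn.isPrime
  have hx : Transcendental L (hs_muE h3 N) := hsf_mu_transcendental L h3 N
  have hp := (ssm_thsh_mu_prime h3 O N hπ ℓ hℓ hℓ3 hℓN ζ hζ ω hω hram hram').1
  have hr1 := (ssm_thsh_regAt h3 O N hπ ℓ hℓ hℓ3 hℓN ζ hζ ω hω hram hram').1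
  have hgen := ssm_ech_mu h3 O N hπ ℓ hℓ hℓ3 hℓN ω hω hram n hπn hc G y hy hyn hG'
  exact ssm_ths_ff_out (L := L) hx hp n hgen (hr1 n hn hπn).2 hV

/-- **[TH-S] on the `μ⁻¹`-chart** (cusps `μ⁻¹ = 0, 1, ω, ω²`). -/
theorem ssm_thsh_mu_inv {π : O} (hπ : Irreducible π) (ℓ : ℕ) [Fact ℓ.Prime]
    (hℓ : ((ℓ : ℕ) : O) ∈ IsLocalRing.maximalIdeal O) (hℓ3 : ℓ ≠ 3) (hℓN : ¬ ℓ ∣ N)
    (ζ : L) (hζ : IsPrimitiveRoot ζ N) (ω : O) (hω : ω ^ 2 + ω + 1 = 0)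
    (hram : hs_RamHyp3 h3 N (hsh_muK L h3) (ω : L))
    (hram' : hs_RamHyp4 h3 N (hsh_muK L h3)⁻¹ (ω : L))
    (n : Ideal (fc_chart O ({(hs_muE h3 N)⁻¹} : Set (hs_E L h3 N)))) [hn : n.IsMaximal]
    (hπn : algebraMap O (fc_chart O ({(hs_muE h3 N)⁻¹} : Set (hs_E L h3 N))) π ∈ n)
    (h0 : ∀ y : fc_chart O ({(hs_muE h3 N)⁻¹} : Set (hs_E L h3 N)),
      (y : hs_E L h3 N) = (hs_muE h3 N)⁻¹ → y ∉ n)
    (hc : ∀ y : fc_chart O ({(hs_muE h3 N)⁻¹} : Set (hs_E L h3 N)),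
      (y : hs_E L h3 N) = (hs_muE h3 N)⁻¹ ^ 3 - 1 → y ∉ n)
    (G : O[X]) (y : fc_chart O ({(hs_muE h3 N)⁻¹} : Set (hs_E L h3 N)))
    (hy : (y : hs_E L h3 N) = aeval ((hs_muE h3 N)⁻¹ : hs_E L h3 N) G) (hyn : y ∈ n)
    (hG' : ∀ y' : fc_chart O ({(hs_muE h3 N)⁻¹} : Set (hs_E L h3 N)),
      (y' : hs_E L h3 N) = aeval ((hs_muE h3 N)⁻¹ : hs_E L h3 N) (derivative G) → y' ∉ n)
    {V : ValuationSubring (hs_E L h3 N)}
    (hV : ssm_tp_Over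
      (algebraMap O (Algebra.adjoin O ({(hs_muE h3 N)⁻¹} : Set (hs_E L h3 N))) π) V) :
    haveI := ssm_thsh_mu_inv_finite (L := L) h3 N
    haveI := ssm_ths_chart_isFractionRing (A0 := O) (L := L) ((hs_muE h3 N)⁻¹ : hs_E L h3 N)
    haveI : n.IsPrime := hn.isPrime
    ssm_ths_Out (A0 := ↥O) π ((hs_muE h3 N)⁻¹ : hs_E L h3 N) n y V := by
  haveI := ssm_thsh_mu_inv_finite (L := L) h3 N
  haveI := ssm_ths_chart_isFractionRing (A0 := O) (L := L) ((hs_muE h3 N)⁻¹ : hs_E L h3 N)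
  haveI : n.IsPrime := hn.isPrime
  have hx : Transcendental L (hs_muE h3 N) := hsf_mu_transcendental L h3 N
  have hxi : Transcendental L ((hs_muE h3 N)⁻¹ : hs_E L h3 N) :=
    fun h => hx (IsAlgebraic.inv_iff.mp h)
  have hp := (ssm_thsh_mu_prime h3 O N hπ ℓ hℓ hℓ3 hℓN ζ hζ ω hω hram hram').2
  have hr2 := (ssm_thsh_regAt h3 O N hπ ℓ hℓ hℓ3 hℓN ζ hζ ω hω hram hram').2
  have hgen := ssm_ech_mu_inv h3 O N hπ ℓ hℓ hℓ3 hℓN ω hω hram' n hπn h0 hc G y hy hyn hG'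
  exact ssm_ths_ff_out (L := L) hxi hp n hgen (hr2 n hn hπn).2 hV

/-- **[TH-S] on the `μ`-chart, Frobenius parameter** `u = μ ^ m - μ` (`m ∈ 𝔪_O`, e.g. `m = 4`). -/
theorem ssm_thsh_mu_frob {π : O} (hπ : Irreducible π) (ℓ : ℕ) [Fact ℓ.Prime]
    (hℓ : ((ℓ : ℕ) : O) ∈ IsLocalRing.maximalIdeal O) (hℓ3 : ℓ ≠ 3) (hℓN : ¬ ℓ ∣ N)
    (ζ : L) (hζ : IsPrimitiveRoot ζ N) (ω : O) (hω : ω ^ 2 + ω + 1 = 0)
    (hram : hs_RamHyp3 h3 N (hsh_muK L h3) (ω : L))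
    (hram' : hs_RamHyp4 h3 N (hsh_muK L h3)⁻¹ (ω : L))
    (n : Ideal (fc_chart O ({hs_muE h3 N} : Set (hs_E L h3 N)))) [hn : n.IsMaximal]
    (hπn : algebraMap O (fc_chart O ({hs_muE h3 N} : Set (hs_E L h3 N))) π ∈ n)
    (hc : ∀ y : fc_chart O ({hs_muE h3 N} : Set (hs_E L h3 N)),
      (y : hs_E L h3 N) = hs_muE h3 N ^ 3 - 1 → y ∉ n)
    (m : ℕ) (hm : ((m : ℕ) : O) ∈ IsLocalRing.maximalIdeal O)
    (y : fc_chart O ({hs_muE h3 N} : Set (hs_E L h3 N)))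
    (hy : (y : hs_E L h3 N) = (hs_muE h3 N : hs_E L h3 N) ^ m - hs_muE h3 N) (hyn : y ∈ n)
    {V : ValuationSubring (hs_E L h3 N)}
    (hV : ssm_tp_Over (algebraMap O (Algebra.adjoin O ({hs_muE h3 N} : Set (hs_E L h3 N))) π) V) :
    haveI := hsf_finite L h3 N
    haveI := ssm_ths_chart_isFractionRing (A0 := O) (L := L) (hs_muE h3 N : hs_E L h3 N)
    haveI : n.IsPrime := hn.isPrime
    ssm_ths_Out (A0 := ↥O) π (hs_muE h3 N : hs_E L h3 N) n y V :=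
  ssm_thsh_mu h3 O N hπ ℓ hℓ hℓ3 hℓN ζ hζ ω hω hram hram' n hπn hc (X ^ m - X) y
    (by rw [hy, map_sub, map_pow, aeval_X]) hyn
    (ssm_ech_frob_deriv _ n hn.ne_top m (ssm_ech_natCast_mem hπ _ n hπn m hm)) hV

/-- **[TH-S] on the `μ⁻¹`-chart, Frobenius parameter** `u = μ⁻¹ ^ m - μ⁻¹`. -/
theorem ssm_thsh_mu_inv_frob {π : O} (hπ : Irreducible π) (ℓ : ℕ) [Fact ℓ.Prime]
    (hℓ : ((ℓ : ℕ) : O) ∈ IsLocalRing.maximalIdeal O) (hℓ3 : ℓ ≠ 3) (hℓN : ¬ ℓ ∣ N)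
    (ζ : L) (hζ : IsPrimitiveRoot ζ N) (ω : O) (hω : ω ^ 2 + ω + 1 = 0)
    (hram : hs_RamHyp3 h3 N (hsh_muK L h3) (ω : L))
    (hram' : hs_RamHyp4 h3 N (hsh_muK L h3)⁻¹ (ω : L))
    (n : Ideal (fc_chart O ({(hs_muE h3 N)⁻¹} : Set (hs_E L h3 N)))) [hn : n.IsMaximal]
    (hπn : algebraMap O (fc_chart O ({(hs_muE h3 N)⁻¹} : Set (hs_E L h3 N))) π ∈ n)
    (h0 : ∀ y : fc_chart O ({(hs_muE h3 N)⁻¹} : Set (hs_E L h3 N)),
      (y : hs_E L h3 N) = (hs_muE h3 N)⁻¹ → y ∉ n)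
    (hc : ∀ y : fc_chart O ({(hs_muE h3 N)⁻¹} : Set (hs_E L h3 N)),
      (y : hs_E L h3 N) = (hs_muE h3 N)⁻¹ ^ 3 - 1 → y ∉ n)
    (m : ℕ) (hm : ((m : ℕ) : O) ∈ IsLocalRing.maximalIdeal O)
    (y : fc_chart O ({(hs_muE h3 N)⁻¹} : Set (hs_E L h3 N)))
    (hy : (y : hs_E L h3 N) = ((hs_muE h3 N)⁻¹ : hs_E L h3 N) ^ m - (hs_muE h3 N)⁻¹)
    (hyn : y ∈ n)
    {V : ValuationSubring (hs_E L h3 N)}
    (hV : ssm_tp_Over
      (algebraMap O (Algebra.adjoin O ({(hs_muE h3 N)⁻¹} : Set (hs_E L h3 N))) π) V) :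
    haveI := ssm_thsh_mu_inv_finite (L := L) h3 N
    haveI := ssm_ths_chart_isFractionRing (A0 := O) (L := L) ((hs_muE h3 N)⁻¹ : hs_E L h3 N)
    haveI : n.IsPrime := hn.isPrime
    ssm_ths_Out (A0 := ↥O) π ((hs_muE h3 N)⁻¹ : hs_E L h3 N) n y V :=
  ssm_thsh_mu_inv h3 O N hπ ℓ hℓ hℓ3 hℓN ζ hζ ω hω hram hram' n hπn h0 hc (X ^ m - X) y
    (by rw [hy, map_sub, map_pow, aeval_X]) hyn
    (ssm_ech_frob_deriv _ n hn.ne_top m (ssm_ech_natCast_mem hπ _ n hπn m hm)) hV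

end Inst

end Fermat.Agent.SS
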