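/-
SS [M] / [TH-I] sub-cell, leaf [TH-S], HESSE TWIN in OPTION-M form (`q = 2`, ruling #1951):
the local base at a point of the special fibre of the finite chart `fc_chart O {μ - 1}` of
`E' = hs_E L h3 N` off the cusps (`x ∉ n`, `x² + 3x + 3 ∉ n` for `x = μ - 1`).

The chart `fc_chart O {μ - 1}` IS the chart `fc_chart O {μ}` (same subalgebra of `E'`), so the S18
regularity and the primality of `π` are transported along this equality (`subst`).
-/
import Mathlib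
import Fermat.Agent.SS.Model.ThickBaseHesse
import Fermat.Agent.SS.Model.EtaleCoordHesseM

set_option autoImplicit false
set_option linter.unusedSectionVars false
set_option linter.style.haveILetI false

noncomputable section

open Polynomial IntermediateField ModularCurve

namespace Fermat.Agent.SS

open Fermat.Agent.JT3

universe v

section Transport

variable {A0 : Type*} [CommRing A0] {F0 : Type v} [Field F0] [Algebra A0 F0]

/-- `A0[x - 1] = A0[x]`. -/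
theorem ssm_thshm_adjoin_eq (x : F0) :
    Algebra.adjoin A0 ({x - 1} : Set F0) = Algebra.adjoin A0 ({x} : Set F0) := by
  apply le_antisymm
  · refine Algebra.adjoin_le ?_
    intro z hz
    rw [Set.mem_singleton_iff] at hz
    rw [hz]
    exact Subalgebra.sub_mem _ (Algebra.subset_adjoin (Set.mem_singleton x)) (one_mem _)
  · refine Algebra.adjoin_le ?_
    intro z hz
    rw [Set.mem_singleton_iff] at hz
    rw [hz]
    have := Subalgebra.add_mem _ (Algebra.subset_adjoin (Set.mem_singleton (x - 1)))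
      (one_mem (Algebra.adjoin A0 ({x - 1} : Set F0)))
    rwa [sub_add_cancel] at this

/-- the charts of the coordinates `x - 1` and `x` coincide. -/
theorem ssm_thshm_chart_eq (x : F0) :
    fc_chart A0 ({x - 1} : Set F0) = fc_chart A0 ({x} : Set F0) :=
  congrArg (fun S : Subalgebra A0 F0 => (integralClosure S F0).restrictScalars A0)
    (ssm_thshm_adjoin_eq (A0 := A0) x)

/-- transport of the regularity seam along an equality of charts. -/
theorem ssm_thshm_regAt_congr {B B' : Subalgebra A0 F0} (h : B = B') (π : A0)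
    (hr : jt_RegAt B (algebraMap A0 B π)) : jt_RegAt B' (algebraMap A0 B' π) := by
  subst h
  exact hr

/-- transport of the primality of `π` along an equality of charts. -/
theorem ssm_thshm_prime_congr {B B' : Subalgebra A0 F0} (h : B = B') (π : A0)
    (hp : Prime (algebraMap A0 B π)) : Prime (algebraMap A0 B' π) := by
  subst h
  exact hp

end Transport

section Inst

variable {L : Type*} [Field L] [CharZero L] (h3 : (3 : L) ≠ 0) (O : ValuationSubring L)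
  [IsDiscreteValuationRing O] (N : ℕ) [NeZero N]

attribute [local instance] hsh_algKE

/-- the S18 regularity of the finite chart of the coordinate `x = μ - 1`. -/
theorem ssm_thshm_regAt {π : O} (hπ : Irreducible π) (ℓ : ℕ) [Fact ℓ.Prime]
    (hℓ : ((ℓ : ℕ) : O) ∈ IsLocalRing.maximalIdeal O) (hℓ3 : ℓ ≠ 3) (hℓN : ¬ ℓ ∣ N)
    (ζ : L) (hζ : IsPrimitiveRoot ζ N) (ω : O) (hω : ω ^ 2 + ω + 1 = 0)
    (hram : hs_RamHyp3 h3 N (hsh_muK L h3) (ω : L))
    (hram' : hs_RamHyp4 h3 N (hsh_muK L h3)⁻¹ (ω : L)) :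
    jt_RegAt (fc_chart O ({hs_muE h3 N - 1} : Set (hs_E L h3 N)))
      (algebraMap O (fc_chart O ({hs_muE h3 N - 1} : Set (hs_E L h3 N))) π) :=
  ssm_thshm_regAt_congr (ssm_thshm_chart_eq (A0 := O) (hs_muE h3 N)).symm π
    (ssm_thsh_regAt h3 O N hπ ℓ hℓ hℓ3 hℓN ζ hζ ω hω hram hram').1

/-- `π` is prime on the finite chart of the coordinate `x = μ - 1`. -/
theorem ssm_thshm_prime {π : O} (hπ : Irreducible π) (ℓ : ℕ) [Fact ℓ.Prime]
    (hℓ : ((ℓ : ℕ) : O) ∈ IsLocalRing.maximalIdeal O) (hℓ3 : ℓ ≠ 3) (hℓN : ¬ ℓ ∣ N)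
    (ζ : L) (hζ : IsPrimitiveRoot ζ N) (ω : O) (hω : ω ^ 2 + ω + 1 = 0)
    (hram : hs_RamHyp3 h3 N (hsh_muK L h3) (ω : L))
    (hram' : hs_RamHyp4 h3 N (hsh_muK L h3)⁻¹ (ω : L)) :
    Prime (algebraMap O (fc_chart O ({hs_muE h3 N - 1} : Set (hs_E L h3 N))) π) :=
  ssm_thshm_prime_congr (ssm_thshm_chart_eq (A0 := O) (hs_muE h3 N)).symm π
    (ssm_thsh_mu_prime h3 O N hπ ℓ hℓ hℓ3 hℓN ζ hζ ω hω hram hram').1

/-- `x = μ - 1` is transcendental over `L`. -/
theorem ssm_thshm_transcendental : Transcendental L (hs_muE h3 N - 1 : hs_E L h3 N) := by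
  intro h
  apply hsf_mu_transcendental L h3 N
  have : hs_muE h3 N = (hs_muE h3 N - 1) + 1 := by ring
  rw [this]
  exact h.add isAlgebraic_one

/-- `E'` is finite over `L(μ - 1)`. -/
theorem ssm_thshm_finite :
    FiniteDimensional L⟮(hs_muE h3 N - 1 : hs_E L h3 N)⟯ (hs_E L h3 N) := by
  haveI := hsf_finite L h3 N
  have h : L⟮(hs_muE h3 N - 1 : hs_E L h3 N)⟯ = L⟮(hs_muE h3 N : hs_E L h3 N)⟯ := by
    apply le_antisymm
    · rw [adjoin_simple_le_iff]
      exact sub_mem (mem_adjoin_simple_self L _) (one_mem _)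
    · rw [adjoin_simple_le_iff]
      have := add_mem (mem_adjoin_simple_self L (hs_muE h3 N - 1 : hs_E L h3 N))
        (one_mem L⟮(hs_muE h3 N - 1 : hs_E L h3 N)⟯)
      rwa [sub_add_cancel] at this
  rw [h]
  infer_instance

/-- **[TH-S] on the chart `x = μ - 1`** (Option M). At a maximal ideal `n ∋ π` of
`B' = fc_chart O {x}` off the cusps (`x ∉ n`, `x² + 3x + 3 ∉ n`), for `G ∈ O[X]` with `G(x) ∈ n`,
`G'(x) ∉ n`, and `V` a valuation subring of `E'` over the Gauss ring of `O[x]`: the bundle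
`ssm_ths_Out`. -/
theorem ssm_thshm_x {π : O} (hπ : Irreducible π) (ℓ : ℕ) [Fact ℓ.Prime]
    (hℓ : ((ℓ : ℕ) : O) ∈ IsLocalRing.maximalIdeal O) (hℓ3 : ℓ ≠ 3) (hℓN : ¬ ℓ ∣ N)
    (ζ : L) (hζ : IsPrimitiveRoot ζ N) (ω : O) (hω : ω ^ 2 + ω + 1 = 0)
    (hram : hs_RamHyp3 h3 N (hsh_muK L h3) (ω : L))
    (hram' : hs_RamHyp4 h3 N (hsh_muK L h3)⁻¹ (ω : L))
    (n : Ideal (fc_chart O ({hs_muE h3 N - 1} : Set (hs_E L h3 N)))) [hn : n.IsMaximal]
    (hπn : algebraMap O (fc_chart O ({hs_muE h3 N - 1} : Set (hs_E L h3 N))) π ∈ n)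
    (h0 : ∀ y : fc_chart O ({hs_muE h3 N - 1} : Set (hs_E L h3 N)),
      (y : hs_E L h3 N) = hs_muE h3 N - 1 → y ∉ n)
    (ht : ∀ y : fc_chart O ({hs_muE h3 N - 1} : Set (hs_E L h3 N)),
      (y : hs_E L h3 N) = (hs_muE h3 N - 1) ^ 2 + 3 * (hs_muE h3 N - 1) + 3 → y ∉ n)
    (G : O[X]) (y : fc_chart O ({hs_muE h3 N - 1} : Set (hs_E L h3 N)))
    (hy : (y : hs_E L h3 N) = aeval (hs_muE h3 N - 1 : hs_E L h3 N) G) (hyn : y ∈ n)
    (hG' : ∀ y' : fc_chart O ({hs_muE h3 N - 1} : Set (hs_E L h3 N)),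
      (y' : hs_E L h3 N) = aeval (hs_muE h3 N - 1 : hs_E L h3 N) (derivative G) → y' ∉ n)
    {V : ValuationSubring (hs_E L h3 N)}
    (hV : ssm_tp_Over
      (algebraMap O (Algebra.adjoin O ({hs_muE h3 N - 1} : Set (hs_E L h3 N))) π) V) :
    haveI := ssm_thshm_finite (L := L) h3 N
    haveI := ssm_ths_chart_isFractionRing (A0 := O) (L := L) (hs_muE h3 N - 1 : hs_E L h3 N)
    haveI : n.IsPrime := hn.isPrime
    ssm_ths_Out (A0 := ↥O) π (hs_muE h3 N - 1 : hs_E L h3 N) n y V := by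
  haveI := ssm_thshm_finite (L := L) h3 N
  haveI := ssm_ths_chart_isFractionRing (A0 := O) (L := L) (hs_muE h3 N - 1 : hs_E L h3 N)
  haveI : n.IsPrime := hn.isPrime
  have hx := ssm_thshm_transcendental (L := L) h3 N
  have hp := ssm_thshm_prime h3 O N hπ ℓ hℓ hℓ3 hℓN ζ hζ ω hω hram hram'
  have hr := ssm_thshm_regAt h3 O N hπ ℓ hℓ hℓ3 hℓN ζ hζ ω hω hram hram'
  have hgen := ssm_echm_x h3 O N hπ ℓ hℓ hℓ3 hℓN ω hω hram n hπn h0 ht G y hy hyn hG'
  exact ssm_ths_ff_out (L := L) hx hp n hgen (hr n hn hπn).2 hV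

/-- **[TH-S] on the chart `x = μ - 1`, Frobenius parameter** `u = x ^ m - x` (`m ∈ 𝔪_O`, e.g.
`m = 4`). -/
theorem ssm_thshm_x_frob {π : O} (hπ : Irreducible π) (ℓ : ℕ) [Fact ℓ.Prime]
    (hℓ : ((ℓ : ℕ) : O) ∈ IsLocalRing.maximalIdeal O) (hℓ3 : ℓ ≠ 3) (hℓN : ¬ ℓ ∣ N)
    (ζ : L) (hζ : IsPrimitiveRoot ζ N) (ω : O) (hω : ω ^ 2 + ω + 1 = 0)
    (hram : hs_RamHyp3 h3 N (hsh_muK L h3) (ω : L))
    (hram' : hs_RamHyp4 h3 N (hsh_muK L h3)⁻¹ (ω : L))
    (n : Ideal (fc_chart O ({hs_muE h3 N - 1} : Set (hs_E L h3 N)))) [hn : n.IsMaximal]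
    (hπn : algebraMap O (fc_chart O ({hs_muE h3 N - 1} : Set (hs_E L h3 N))) π ∈ n)
    (h0 : ∀ y : fc_chart O ({hs_muE h3 N - 1} : Set (hs_E L h3 N)),
      (y : hs_E L h3 N) = hs_muE h3 N - 1 → y ∉ n)
    (ht : ∀ y : fc_chart O ({hs_muE h3 N - 1} : Set (hs_E L h3 N)),
      (y : hs_E L h3 N) = (hs_muE h3 N - 1) ^ 2 + 3 * (hs_muE h3 N - 1) + 3 → y ∉ n)
    (m : ℕ) (hm : ((m : ℕ) : O) ∈ IsLocalRing.maximalIdeal O)
    (y : fc_chart O ({hs_muE h3 N - 1} : Set (hs_E L h3 N)))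
    (hy : (y : hs_E L h3 N) = (hs_muE h3 N - 1 : hs_E L h3 N) ^ m - (hs_muE h3 N - 1))
    (hyn : y ∈ n)
    {V : ValuationSubring (hs_E L h3 N)}
    (hV : ssm_tp_Over
      (algebraMap O (Algebra.adjoin O ({hs_muE h3 N - 1} : Set (hs_E L h3 N))) π) V) :
    haveI := ssm_thshm_finite (L := L) h3 N
    haveI := ssm_ths_chart_isFractionRing (A0 := O) (L := L) (hs_muE h3 N - 1 : hs_E L h3 N)
    haveI : n.IsPrime := hn.isPrime
    ssm_ths_Out (A0 := ↥O) π (hs_muE h3 N - 1 : hs_E L h3 N) n y V :=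
  ssm_thshm_x h3 O N hπ ℓ hℓ hℓ3 hℓN ζ hζ ω hω hram hram' n hπn h0 ht (X ^ m - X) y
    (by rw [hy, map_sub, map_pow, aeval_X]) hyn
    (ssm_ech_frob_deriv _ n hn.ne_top m (ssm_ech_natCast_mem hπ _ n hπn m hm)) hV

end Inst

end Fermat.Agent.SS
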