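/-
SS [M] leaf [LVL-H] (helper20), prefix `ssm_hl_`: THE LEVEL-`N'` INPUTS OF THE HESSE TWIN (`q = 2`)
in the OPTION-M coordinate `x = μ' - 1` (ruling #1951), `E' = hs_E L h3 N`.

From the S18 regularity of the charts `{μ'}`, `{μ'⁻¹}` (`ssm_thsh_regAt`, helper28) and the coordinate
change [CC-H] (`ssm_cc_main`, helper29):

* `ssm_hl_main`      : the bundle: `jt_RegAt` on `{x}`, `{x⁻¹}`, `π` prime on `{x}`, `{x⁻¹}`,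
                       `{x, x⁻¹}`, both charts Dedekind modulo `π`;
* `ssm_hl_regAt1/2`, `ssm_hl_prime1/2/12`, `ssm_hl_ded1/2`, `ssm_hl_ic1/2` : its components
  (`hreg`, `hprime`, `hic` of `ssm_cpi_ff`, `ssm_cpi_ff_smooth2`, `ssm_glh_hyp`);
* `ssm_hl_EC`, `ssm_hl_EC_sq`, `ssm_hl_EC_aeval` : the clause `hEC` of the crossing theorem
  (`ssm_cri_main` shape, cusp clauses `x' ∉ 𝔫'`, `x'² + 3x' + 3 ∉ 𝔫'`), from `ssm_echm_x_frob`;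
* `ssm_hl_transcendental(_inv)`, `ssm_hl_finite(_inv)`, `ssm_hl_hconst`, `ssm_hl_x_ne_zero` :
  the function-field facts for `x`.
-/
import Mathlib
import Fermat.Agent.SS.Model.CoordChange
import Fermat.Agent.SS.Model.ThickBaseHesseM

set_option autoImplicit false
set_option linter.unusedSectionVars false
set_option linter.style.haveILetI false

noncomputable section

open Polynomial IntermediateField ModularCurve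

namespace Fermat.Agent.SS

open Fermat.Agent.JT3

/-- the middle cusp polynomial `t = X² + 3X + 3` (`t(μ - 1) = μ² + μ + 1`) evaluated. -/
theorem ssm_hl_aeval_mid {B : Type*} [CommRing B] (b : B) :
    aeval b (X ^ 2 + 3 * X + 3 : ℤ[X]) = b ^ 2 + 3 * b + 3 := by
  have h3 : aeval b (3 : ℤ[X]) = 3 := map_ofNat (aeval b) 3
  rw [map_add, map_add, map_mul, map_pow, aeval_X, h3]

section FunField

variable (L : Type*) [Field L] [CharZero L] (h3 : (3 : L) ≠ 0) (N : ℕ) [NeZero N]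

/-- `x = μ - 1` is transcendental over `L`. -/
theorem ssm_hl_transcendental : Transcendental L (hs_muE h3 N - 1 : hs_E L h3 N) :=
  ssm_thshm_transcendental (L := L) h3 N

theorem ssm_hl_x_ne_zero : (hs_muE h3 N - 1 : hs_E L h3 N) ≠ 0 := fun h =>
  ssm_hl_transcendental L h3 N (h ▸ isAlgebraic_zero)

/-- `x⁻¹` is transcendental over `L`. -/
theorem ssm_hl_transcendental_inv : Transcendental L ((hs_muE h3 N - 1)⁻¹ : hs_E L h3 N) :=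
  fun h => ssm_hl_transcendental L h3 N (IsAlgebraic.inv_iff.mp h)

/-- `E'` is finite over `L(x)`. -/
theorem ssm_hl_finite : FiniteDimensional L⟮(hs_muE h3 N - 1 : hs_E L h3 N)⟯ (hs_E L h3 N) :=
  ssm_thshm_finite (L := L) h3 N

/-- `E'` is finite over `L(x⁻¹)`. -/
theorem ssm_hl_finite_inv :
    FiniteDimensional L⟮((hs_muE h3 N - 1)⁻¹ : hs_E L h3 N)⟯ (hs_E L h3 N) := by
  haveI := ssm_hl_finite L h3 N
  rw [rt_adjoin_inv]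
  infer_instance

/-- `L` is algebraically closed in `E'`. -/
theorem ssm_hl_hconst :
    ∀ z : hs_E L h3 N, IsAlgebraic L z → z ∈ (algebraMap L (hs_E L h3 N)).range :=
  fun z hz => lgf_hconst (hs_E L h3 N) z hz

end FunField

section Inst

variable {L : Type*} [Field L] [CharZero L] (h3 : (3 : L) ≠ 0) (O : ValuationSubring L)
  [IsDiscreteValuationRing O] (N : ℕ) [NeZero N]

attribute [local instance] hsh_algKE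

/-- **[LVL-H], the bundle**: regularity of the two charts of `x = μ - 1`, primality of `π` on the
three charts, Dedekind modulo `π`. -/
theorem ssm_hl_main {π : O} (hπ : Irreducible π) (ℓ : ℕ) [Fact ℓ.Prime]
    (hℓ : ((ℓ : ℕ) : O) ∈ IsLocalRing.maximalIdeal O) (hℓ3 : ℓ ≠ 3) (hℓN : ¬ ℓ ∣ N)
    (ζ : L) (hζ : IsPrimitiveRoot ζ N) (ω : O) (hω : ω ^ 2 + ω + 1 = 0)
    (hram : hs_RamHyp3 h3 N (hsh_muK L h3) (ω : L))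
    (hram' : hs_RamHyp4 h3 N (hsh_muK L h3)⁻¹ (ω : L)) :
    jt_RegAt (fc_chart O ({hs_muE h3 N - 1} : Set (hs_E L h3 N)))
      (algebraMap O (fc_chart O ({hs_muE h3 N - 1} : Set (hs_E L h3 N))) π) ∧
    jt_RegAt (fc_chart O ({(hs_muE h3 N - 1)⁻¹} : Set (hs_E L h3 N)))
      (algebraMap O (fc_chart O ({(hs_muE h3 N - 1)⁻¹} : Set (hs_E L h3 N))) π) ∧
    Prime (algebraMap O (fc_chart O ({hs_muE h3 N - 1} : Set (hs_E L h3 N))) π) ∧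
    Prime (algebraMap O (fc_chart O ({(hs_muE h3 N - 1)⁻¹} : Set (hs_E L h3 N))) π) ∧
    Prime (algebraMap O
      (fc_chart O ({hs_muE h3 N - 1, (hs_muE h3 N - 1)⁻¹} : Set (hs_E L h3 N))) π) ∧
    IsDedekindDomain (fc_chart O ({hs_muE h3 N - 1} : Set (hs_E L h3 N)) ⧸
      Ideal.span {algebraMap O (fc_chart O ({hs_muE h3 N - 1} : Set (hs_E L h3 N))) π}) ∧
    IsDedekindDomain (fc_chart O ({(hs_muE h3 N - 1)⁻¹} : Set (hs_E L h3 N)) ⧸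
      Ideal.span {algebraMap O (fc_chart O ({(hs_muE h3 N - 1)⁻¹} : Set (hs_E L h3 N))) π}) := by
  obtain ⟨hr1, hr2⟩ := ssm_thsh_regAt h3 O N hπ ℓ hℓ hℓ3 hℓN ζ hζ ω hω hram hram'
  haveI := hsf_finite L h3 N
  exact ssm_cc_main (K0 := L) hπ (hsf_mu_transcendental L h3 N) (ssm_hl_hconst L h3 N)
    (ssm_hl_x_ne_zero L h3 N) hr1 hr2

/-- `hreg` on the chart `{x}`. -/
theorem ssm_hl_regAt1 {π : O} (hπ : Irreducible π) (ℓ : ℕ) [Fact ℓ.Prime]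
    (hℓ : ((ℓ : ℕ) : O) ∈ IsLocalRing.maximalIdeal O) (hℓ3 : ℓ ≠ 3) (hℓN : ¬ ℓ ∣ N)
    (ζ : L) (hζ : IsPrimitiveRoot ζ N) (ω : O) (hω : ω ^ 2 + ω + 1 = 0)
    (hram : hs_RamHyp3 h3 N (hsh_muK L h3) (ω : L))
    (hram' : hs_RamHyp4 h3 N (hsh_muK L h3)⁻¹ (ω : L)) :
    jt_RegAt (fc_chart O ({hs_muE h3 N - 1} : Set (hs_E L h3 N)))
      (algebraMap O (fc_chart O ({hs_muE h3 N - 1} : Set (hs_E L h3 N))) π) :=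
  (ssm_hl_main h3 O N hπ ℓ hℓ hℓ3 hℓN ζ hζ ω hω hram hram').1

/-- `hreg` on the chart `{x⁻¹}`. -/
theorem ssm_hl_regAt2 {π : O} (hπ : Irreducible π) (ℓ : ℕ) [Fact ℓ.Prime]
    (hℓ : ((ℓ : ℕ) : O) ∈ IsLocalRing.maximalIdeal O) (hℓ3 : ℓ ≠ 3) (hℓN : ¬ ℓ ∣ N)
    (ζ : L) (hζ : IsPrimitiveRoot ζ N) (ω : O) (hω : ω ^ 2 + ω + 1 = 0)
    (hram : hs_RamHyp3 h3 N (hsh_muK L h3) (ω : L))
    (hram' : hs_RamHyp4 h3 N (hsh_muK L h3)⁻¹ (ω : L)) :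
    jt_RegAt (fc_chart O ({(hs_muE h3 N - 1)⁻¹} : Set (hs_E L h3 N)))
      (algebraMap O (fc_chart O ({(hs_muE h3 N - 1)⁻¹} : Set (hs_E L h3 N))) π) :=
  (ssm_hl_main h3 O N hπ ℓ hℓ hℓ3 hℓN ζ hζ ω hω hram hram').2.1

/-- `hprime` on the chart `{x}`. -/
theorem ssm_hl_prime1 {π : O} (hπ : Irreducible π) (ℓ : ℕ) [Fact ℓ.Prime]
    (hℓ : ((ℓ : ℕ) : O) ∈ IsLocalRing.maximalIdeal O) (hℓ3 : ℓ ≠ 3) (hℓN : ¬ ℓ ∣ N)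
    (ζ : L) (hζ : IsPrimitiveRoot ζ N) (ω : O) (hω : ω ^ 2 + ω + 1 = 0)
    (hram : hs_RamHyp3 h3 N (hsh_muK L h3) (ω : L))
    (hram' : hs_RamHyp4 h3 N (hsh_muK L h3)⁻¹ (ω : L)) :
    Prime (algebraMap O (fc_chart O ({hs_muE h3 N - 1} : Set (hs_E L h3 N))) π) :=
  (ssm_hl_main h3 O N hπ ℓ hℓ hℓ3 hℓN ζ hζ ω hω hram hram').2.2.1

/-- `hprime` on the chart `{x⁻¹}`. -/
theorem ssm_hl_prime2 {π : O} (hπ : Irreducible π) (ℓ : ℕ) [Fact ℓ.Prime]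
    (hℓ : ((ℓ : ℕ) : O) ∈ IsLocalRing.maximalIdeal O) (hℓ3 : ℓ ≠ 3) (hℓN : ¬ ℓ ∣ N)
    (ζ : L) (hζ : IsPrimitiveRoot ζ N) (ω : O) (hω : ω ^ 2 + ω + 1 = 0)
    (hram : hs_RamHyp3 h3 N (hsh_muK L h3) (ω : L))
    (hram' : hs_RamHyp4 h3 N (hsh_muK L h3)⁻¹ (ω : L)) :
    Prime (algebraMap O (fc_chart O ({(hs_muE h3 N - 1)⁻¹} : Set (hs_E L h3 N))) π) :=
  (ssm_hl_main h3 O N hπ ℓ hℓ hℓ3 hℓN ζ hζ ω hω hram hram').2.2.2.1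

/-- `hprime` on the chart `{x, x⁻¹}`. -/
theorem ssm_hl_prime12 {π : O} (hπ : Irreducible π) (ℓ : ℕ) [Fact ℓ.Prime]
    (hℓ : ((ℓ : ℕ) : O) ∈ IsLocalRing.maximalIdeal O) (hℓ3 : ℓ ≠ 3) (hℓN : ¬ ℓ ∣ N)
    (ζ : L) (hζ : IsPrimitiveRoot ζ N) (ω : O) (hω : ω ^ 2 + ω + 1 = 0)
    (hram : hs_RamHyp3 h3 N (hsh_muK L h3) (ω : L))
    (hram' : hs_RamHyp4 h3 N (hsh_muK L h3)⁻¹ (ω : L)) :
    Prime (algebraMap O
      (fc_chart O ({hs_muE h3 N - 1, (hs_muE h3 N - 1)⁻¹} : Set (hs_E L h3 N))) π) :=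
  (ssm_hl_main h3 O N hπ ℓ hℓ hℓ3 hℓN ζ hζ ω hω hram hram').2.2.2.2.1

/-- the chart `{x}` is Dedekind modulo `π`. -/
theorem ssm_hl_ded1 {π : O} (hπ : Irreducible π) (ℓ : ℕ) [Fact ℓ.Prime]
    (hℓ : ((ℓ : ℕ) : O) ∈ IsLocalRing.maximalIdeal O) (hℓ3 : ℓ ≠ 3) (hℓN : ¬ ℓ ∣ N)
    (ζ : L) (hζ : IsPrimitiveRoot ζ N) (ω : O) (hω : ω ^ 2 + ω + 1 = 0)
    (hram : hs_RamHyp3 h3 N (hsh_muK L h3) (ω : L))
    (hram' : hs_RamHyp4 h3 N (hsh_muK L h3)⁻¹ (ω : L)) :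
    IsDedekindDomain (fc_chart O ({hs_muE h3 N - 1} : Set (hs_E L h3 N)) ⧸
      Ideal.span {algebraMap O (fc_chart O ({hs_muE h3 N - 1} : Set (hs_E L h3 N))) π}) :=
  (ssm_hl_main h3 O N hπ ℓ hℓ hℓ3 hℓN ζ hζ ω hω hram hram').2.2.2.2.2.1

/-- the chart `{x⁻¹}` is Dedekind modulo `π`. -/
theorem ssm_hl_ded2 {π : O} (hπ : Irreducible π) (ℓ : ℕ) [Fact ℓ.Prime]
    (hℓ : ((ℓ : ℕ) : O) ∈ IsLocalRing.maximalIdeal O) (hℓ3 : ℓ ≠ 3) (hℓN : ¬ ℓ ∣ N)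
    (ζ : L) (hζ : IsPrimitiveRoot ζ N) (ω : O) (hω : ω ^ 2 + ω + 1 = 0)
    (hram : hs_RamHyp3 h3 N (hsh_muK L h3) (ω : L))
    (hram' : hs_RamHyp4 h3 N (hsh_muK L h3)⁻¹ (ω : L)) :
    IsDedekindDomain (fc_chart O ({(hs_muE h3 N - 1)⁻¹} : Set (hs_E L h3 N)) ⧸
      Ideal.span {algebraMap O (fc_chart O ({(hs_muE h3 N - 1)⁻¹} : Set (hs_E L h3 N))) π}) :=
  (ssm_hl_main h3 O N hπ ℓ hℓ hℓ3 hℓN ζ hζ ω hω hram hram').2.2.2.2.2.2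

/-- `hic` on the chart `{x}` (the form consumed by `ssm_cpi_ff`, `ssm_cpi_ff_smooth2`). -/
theorem ssm_hl_ic1 {π : O} (hπ : Irreducible π) (ℓ : ℕ) [Fact ℓ.Prime]
    (hℓ : ((ℓ : ℕ) : O) ∈ IsLocalRing.maximalIdeal O) (hℓ3 : ℓ ≠ 3) (hℓN : ¬ ℓ ∣ N)
    (ζ : L) (hζ : IsPrimitiveRoot ζ N) (ω : O) (hω : ω ^ 2 + ω + 1 = 0)
    (hram : hs_RamHyp3 h3 N (hsh_muK L h3) (ω : L))
    (hram' : hs_RamHyp4 h3 N (hsh_muK L h3)⁻¹ (ω : L)) :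
    IsIntegrallyClosed (fc_chart O ({hs_muE h3 N - 1} : Set (hs_E L h3 N)) ⧸
      (Ideal.span {algebraMap O (fc_chart O ({hs_muE h3 N - 1} : Set (hs_E L h3 N))) π} :
        Ideal (fc_chart O ({hs_muE h3 N - 1} : Set (hs_E L h3 N))))) := by
  haveI := ssm_hl_ded1 h3 O N hπ ℓ hℓ hℓ3 hℓN ζ hζ ω hω hram hram'
  infer_instance

/-- `hic` on the chart `{x⁻¹}`. -/
theorem ssm_hl_ic2 {π : O} (hπ : Irreducible π) (ℓ : ℕ) [Fact ℓ.Prime]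
    (hℓ : ((ℓ : ℕ) : O) ∈ IsLocalRing.maximalIdeal O) (hℓ3 : ℓ ≠ 3) (hℓN : ¬ ℓ ∣ N)
    (ζ : L) (hζ : IsPrimitiveRoot ζ N) (ω : O) (hω : ω ^ 2 + ω + 1 = 0)
    (hram : hs_RamHyp3 h3 N (hsh_muK L h3) (ω : L))
    (hram' : hs_RamHyp4 h3 N (hsh_muK L h3)⁻¹ (ω : L)) :
    IsIntegrallyClosed (fc_chart O ({(hs_muE h3 N - 1)⁻¹} : Set (hs_E L h3 N)) ⧸
      (Ideal.span {algebraMap O (fc_chart O ({(hs_muE h3 N - 1)⁻¹} : Set (hs_E L h3 N))) π} :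
        Ideal (fc_chart O ({(hs_muE h3 N - 1)⁻¹} : Set (hs_E L h3 N))))) := by
  haveI := ssm_hl_ded2 h3 O N hπ ℓ hℓ hℓ3 hℓN ζ hζ ω hω hram hram'
  infer_instance

/-- the coordinate `x = μ - 1` as an element of its chart. -/
abbrev ssm_hl_x : fc_chart O ({hs_muE h3 N - 1} : Set (hs_E L h3 N)) :=
  ⟨hs_muE h3 N - 1, fc_x_mem_chart _⟩

omit [CharZero L] [IsDiscreteValuationRing ↥O] in
theorem ssm_hl_coe_x : ((ssm_hl_x h3 O N : fc_chart O ({hs_muE h3 N - 1} : Set (hs_E L h3 N))) :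
    hs_E L h3 N) = hs_muE h3 N - 1 := rfl

omit [CharZero L] [IsDiscreteValuationRing ↥O] in
/-- a power of an element of the maximal ideal -/
theorem ssm_hl_natCast_pow_mem {ℓ : ℕ} (hℓ : ((ℓ : ℕ) : O) ∈ IsLocalRing.maximalIdeal O)
    {k : ℕ} (hk : k ≠ 0) : (((ℓ ^ k : ℕ)) : O) ∈ IsLocalRing.maximalIdeal O := by
  rw [Nat.cast_pow]
  exact Ideal.pow_mem_of_mem _ hℓ k (Nat.pos_of_ne_zero hk)

/-- **`hEC`, general exponent** (`ssm_cri_main` shape, cusp clauses `x' ∉ 𝔫'`,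
`x'² + 3x' + 3 ∉ 𝔫'`): at a maximal `𝔫' ∋ π` of `B' = fc_chart O {x'}` off the cusps, if
`x' ^ m - x' ∈ 𝔫'` (`m ∈ 𝔪_O`) then it is a local parameter at `𝔫'`. -/
theorem ssm_hl_EC {π : O} (hπ : Irreducible π) (ℓ : ℕ) [Fact ℓ.Prime]
    (hℓ : ((ℓ : ℕ) : O) ∈ IsLocalRing.maximalIdeal O) (hℓ3 : ℓ ≠ 3) (hℓN : ¬ ℓ ∣ N)
    (ω : O) (hω : ω ^ 2 + ω + 1 = 0)
    (hram : hs_RamHyp3 h3 N (hsh_muK L h3) (ω : L))
    (m : ℕ) (hm : ((m : ℕ) : O) ∈ IsLocalRing.maximalIdeal O) :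
    ∀ 𝔫' : Ideal (fc_chart O ({hs_muE h3 N - 1} : Set (hs_E L h3 N))), 𝔫'.IsMaximal →
      algebraMap O (fc_chart O ({hs_muE h3 N - 1} : Set (hs_E L h3 N))) π ∈ 𝔫' →
      ssm_hl_x h3 O N ∉ 𝔫' →
      ssm_hl_x h3 O N ^ 2 + 3 * ssm_hl_x h3 O N + 3 ∉ 𝔫' →
      ssm_hl_x h3 O N ^ m - ssm_hl_x h3 O N ∈ 𝔫' →
      tq_GenBy (algebraMap O (fc_chart O ({hs_muE h3 N - 1} : Set (hs_E L h3 N))) π)
        (ssm_hl_x h3 O N ^ m - ssm_hl_x h3 O N) 𝔫' := by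
  intro 𝔫' h𝔫' hπ𝔫' h0 ht hmem
  haveI := h𝔫'
  refine ssm_echm_x_frob h3 O N hπ ℓ hℓ hℓ3 hℓN ω hω hram 𝔫' hπ𝔫' ?_ ?_ m hm _ rfl hmem
  · intro y hy hyn
    apply h0
    have : y = ssm_hl_x h3 O N := Subtype.ext hy
    rwa [← this]
  · intro y hy hyn
    apply ht
    have : y = ssm_hl_x h3 O N ^ 2 + 3 * ssm_hl_x h3 O N + 3 := Subtype.ext (by rw [hy]; rfl)
    rwa [← this]

/-- **`hEC` for the Frobenius polynomial `X^(ℓ²) - X`** (the clause of `ssm_cri_main` with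
`q := ℓ`). -/
theorem ssm_hl_EC_sq {π : O} (hπ : Irreducible π) (ℓ : ℕ) [Fact ℓ.Prime]
    (hℓ : ((ℓ : ℕ) : O) ∈ IsLocalRing.maximalIdeal O) (hℓ3 : ℓ ≠ 3) (hℓN : ¬ ℓ ∣ N)
    (ω : O) (hω : ω ^ 2 + ω + 1 = 0)
    (hram : hs_RamHyp3 h3 N (hsh_muK L h3) (ω : L)) :
    ∀ 𝔫' : Ideal (fc_chart O ({hs_muE h3 N - 1} : Set (hs_E L h3 N))), 𝔫'.IsMaximal →
      algebraMap O (fc_chart O ({hs_muE h3 N - 1} : Set (hs_E L h3 N))) π ∈ 𝔫' →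
      ssm_hl_x h3 O N ∉ 𝔫' →
      ssm_hl_x h3 O N ^ 2 + 3 * ssm_hl_x h3 O N + 3 ∉ 𝔫' →
      ssm_hl_x h3 O N ^ (ℓ ^ 2) - ssm_hl_x h3 O N ∈ 𝔫' →
      tq_GenBy (algebraMap O (fc_chart O ({hs_muE h3 N - 1} : Set (hs_E L h3 N))) π)
        (ssm_hl_x h3 O N ^ (ℓ ^ 2) - ssm_hl_x h3 O N) 𝔫' :=
  ssm_hl_EC h3 O N hπ ℓ hℓ hℓ3 hℓN ω hω hram (ℓ ^ 2)
    (ssm_hl_natCast_pow_mem O hℓ two_ne_zero)

/-- **`hEC` with the middle cusp function as `aeval x' p`, `p = X² + 3X + 3 ∈ ℤ[X]`** (the shape of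
a crossing theorem with polynomial cusp functions). -/
theorem ssm_hl_EC_aeval {π : O} (hπ : Irreducible π) (ℓ : ℕ) [Fact ℓ.Prime]
    (hℓ : ((ℓ : ℕ) : O) ∈ IsLocalRing.maximalIdeal O) (hℓ3 : ℓ ≠ 3) (hℓN : ¬ ℓ ∣ N)
    (ω : O) (hω : ω ^ 2 + ω + 1 = 0)
    (hram : hs_RamHyp3 h3 N (hsh_muK L h3) (ω : L)) :
    ∀ 𝔫' : Ideal (fc_chart O ({hs_muE h3 N - 1} : Set (hs_E L h3 N))), 𝔫'.IsMaximal →
      algebraMap O (fc_chart O ({hs_muE h3 N - 1} : Set (hs_E L h3 N))) π ∈ 𝔫' →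
      ssm_hl_x h3 O N ∉ 𝔫' →
      aeval (ssm_hl_x h3 O N) (X ^ 2 + 3 * X + 3 : ℤ[X]) ∉ 𝔫' →
      ssm_hl_x h3 O N ^ (ℓ ^ 2) - ssm_hl_x h3 O N ∈ 𝔫' →
      tq_GenBy (algebraMap O (fc_chart O ({hs_muE h3 N - 1} : Set (hs_E L h3 N))) π)
        (ssm_hl_x h3 O N ^ (ℓ ^ 2) - ssm_hl_x h3 O N) 𝔫' := by
  intro 𝔫' h𝔫' hπ𝔫' h0 ht hmem
  refine ssm_hl_EC_sq h3 O N hπ ℓ hℓ hℓ3 hℓN ω hω hram 𝔫' h𝔫' hπ𝔫' h0 ?_ hmem
  rwa [ssm_hl_aeval_mid] at ht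

end Inst

end Fermat.Agent.SS
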