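/-
SS [M] leaf [LVL-H] (helper20), second file, prefix `ssm_hlr_`: THE LEVEL-`N'` INPUTS OF THE HESSE
TWIN WITH THE RAMIFICATION HYPOTHESES DISCHARGED.

For `L ⊆ Q̄` (`[Algebra L Q̄]`) containing a primitive `3N`-th root of unity `ζ`:
`ω := ζ^N ∈ O`, `ζ_N := ζ³`, and `hs_RamHyp3`, `hs_RamHyp4` hold (`hsrc_cores`, `hsrw_ramHyp3/4`);
so every statement of `HesLevel.lean` becomes a closed term:

* `ssm_hlr_ram`       : `∃ ω : O, ω² + ω + 1 = 0 ∧ IsPrimitiveRoot ω 3 ∧ hs_RamHyp3 … ∧ hs_RamHyp4 …`;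
* `ssm_hlr_main`      : the bundle of `ssm_hl_main`;
* `ssm_hlr_EC_sq`     : the clause `hEC` of the crossing theorem.
-/
import Mathlib
import Fermat.Agent.SS.Model.HesLevel
import Fermat.Agent.JT3.Inst.HesseRamHyp

set_option autoImplicit false
set_option linter.unusedSectionVars false
set_option linter.style.haveILetI false

noncomputable section

open Polynomial IntermediateField ModularCurve

namespace Fermat.Agent.SS

open Fermat.Agent.JT3 Fermat.Agent.S24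

/-- a cube root of unity lies in every valuation subring. -/
theorem ssm_hlr_root_mem {L : Type*} [Field L] (O : ValuationSubring L) (ω : L) (h : ω ^ 3 = 1) :
    ω ∈ O := by
  rcases O.mem_or_inv_mem ω with h1 | h1
  · exact h1
  · have hω0 : ω ≠ 0 := by
      rintro rfl
      norm_num at h
    have h2 : ω = (ω⁻¹) ^ 2 := by
      field_simp
      exact h
    rw [h2]
    exact O.pow_mem h1 2

section Ram

variable {L : Type*} [Field L] [CharZero L] [Algebra ℚ L] [Algebra L Kbar] [IsScalarTower ℚ L Kbar]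
  (h3 : (3 : L) ≠ 0) (O : ValuationSubring L) (N : ℕ) [NeZero N]

attribute [local instance] hsh_algKjK hsh_algKjF3 hsh_algKjE hsh_algF3E hsh_algKE

omit [Algebra ℚ L] [Algebra L Kbar] [IsScalarTower ℚ L Kbar] [CharZero L] in
/-- `ζ³` is a primitive `N`-th root of unity. -/
theorem ssm_hlr_zeta {ζ : L} (hζ : IsPrimitiveRoot ζ (3 * N)) : IsPrimitiveRoot (ζ ^ 3) N :=
  hζ.pow (Nat.pos_of_ne_zero (Nat.mul_ne_zero (by norm_num) (NeZero.ne N))) rfl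

/-- **the cube root of unity `ω = ζ^N ∈ O` and the ramification hypotheses of the Hesse cover**. -/
theorem ssm_hlr_ram {ζ : L} (hζ : IsPrimitiveRoot ζ (3 * N)) :
    ∃ ω : O, ω ^ 2 + ω + 1 = 0 ∧ IsPrimitiveRoot ω 3 ∧
      hs_RamHyp3 h3 N (hsh_muK L h3) (ω : L) ∧ hs_RamHyp4 h3 N (hsh_muK L h3)⁻¹ (ω : L) := by
  have hN0 : 0 < 3 * N := Nat.pos_of_ne_zero (Nat.mul_ne_zero (by norm_num) (NeZero.ne N))
  have hω : IsPrimitiveRoot (ζ ^ N) 3 := hζ.pow hN0 (mul_comm 3 N)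
  have hω3 : (ζ ^ N) ^ 3 = 1 := hω.pow_eq_one
  have hωsum : (ζ ^ N) ^ 2 + ζ ^ N + 1 = 0 := by
    have := hω.geom_sum_eq_zero (by norm_num)
    simp only [Finset.sum_range_succ, Finset.sum_range_zero, pow_zero, pow_one, zero_add] at this
    linear_combination this
  obtain ⟨cH, cT, cTinf⟩ := hsrc_cores (L := L) h3 N
  refine ⟨⟨ζ ^ N, ssm_hlr_root_mem O _ hω3⟩, Subtype.ext hωsum,
    IsPrimitiveRoot.coe_submonoidClass_iff.1 hω, hsrw_ramHyp3 h3 N (ζ ^ N) hωsum cH cT,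
    hsrw_ramHyp4 h3 N (ζ ^ N) hωsum cH cT cTinf⟩

variable [IsDiscreteValuationRing O]

/-- **[LVL-H], the bundle, closed form** (`ζ_{3N} ∈ L ⊆ Q̄`). -/
theorem ssm_hlr_main {π : O} (hπ : Irreducible π) (ℓ : ℕ) [Fact ℓ.Prime]
    (hℓ : ((ℓ : ℕ) : O) ∈ IsLocalRing.maximalIdeal O) (hℓ3 : ℓ ≠ 3) (hℓN : ¬ ℓ ∣ N)
    (ζ : L) (hζ : IsPrimitiveRoot ζ (3 * N)) :
    jt_RegAt (fc_chart O ({hs_muE h3 N - 1} : Set (hs_E L h3 N)))
      (algebraMap O (fc_chart O ({hs_muE h3 N - 1} : Set (hs_E L h3 N))) π) ∧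
    jt_RegAt (fc_chart O ({(hs_muE h3 N - 1)⁻¹} : Set (hs_E L h3 N)))
      (algebraMap O (fc_chart O ({(hs_muE h3 N - 1)⁻¹} : Set (hs_E L h3 N))) π) ∧
    Prime (algebraMap O (fc_chart O ({hs_muE h3 N - 1} : Set (hs_E L h3 N))) π) ∧
    Prime (algebraMap O (fc_chart O ({(hs_muE h3 N - 1)⁻¹} : Set (hs_E L h3 N))) π) ∧
    Prime (algebraMap O
      (fc_chart O ({hs_muE h3 N - 1, (hs_muE h3 N - 1)⁻¹} : Set (hs_E L h3 N))) π) ∧
    IsDedekindDomain (fc_chart O ({hs_muE h3 N - 1} : Set (hs_E L h3 N)) ⧸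
      Ideal.span {algebraMap O (fc_chart O ({hs_muE h3 N - 1} : Set (hs_E L h3 N))) π}) ∧
    IsDedekindDomain (fc_chart O ({(hs_muE h3 N - 1)⁻¹} : Set (hs_E L h3 N)) ⧸
      Ideal.span {algebraMap O (fc_chart O ({(hs_muE h3 N - 1)⁻¹} : Set (hs_E L h3 N))) π}) := by
  obtain ⟨ω, hω, -, hram, hram'⟩ := ssm_hlr_ram h3 O N hζ
  exact ssm_hl_main h3 O N hπ ℓ hℓ hℓ3 hℓN (ζ ^ 3) (ssm_hlr_zeta N hζ) ω hω hram hram'

/-- **`hEC`, closed form**: the clause of the crossing theorem at level `N'` for the Frobenius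
polynomial `X^(ℓ²) - X`, cusp clauses `x' ∉ 𝔫'`, `x'² + 3x' + 3 ∉ 𝔫'`. -/
theorem ssm_hlr_EC_sq {π : O} (hπ : Irreducible π) (ℓ : ℕ) [Fact ℓ.Prime]
    (hℓ : ((ℓ : ℕ) : O) ∈ IsLocalRing.maximalIdeal O) (hℓ3 : ℓ ≠ 3) (hℓN : ¬ ℓ ∣ N)
    (ζ : L) (hζ : IsPrimitiveRoot ζ (3 * N)) :
    ∀ 𝔫' : Ideal (fc_chart O ({hs_muE h3 N - 1} : Set (hs_E L h3 N))), 𝔫'.IsMaximal →
      algebraMap O (fc_chart O ({hs_muE h3 N - 1} : Set (hs_E L h3 N))) π ∈ 𝔫' →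
      ssm_hl_x h3 O N ∉ 𝔫' →
      ssm_hl_x h3 O N ^ 2 + 3 * ssm_hl_x h3 O N + 3 ∉ 𝔫' →
      ssm_hl_x h3 O N ^ (ℓ ^ 2) - ssm_hl_x h3 O N ∈ 𝔫' →
      tq_GenBy (algebraMap O (fc_chart O ({hs_muE h3 N - 1} : Set (hs_E L h3 N))) π)
        (ssm_hl_x h3 O N ^ (ℓ ^ 2) - ssm_hl_x h3 O N) 𝔫' := by
  obtain ⟨ω, hω, -, hram, -⟩ := ssm_hlr_ram h3 O N hζ
  exact ssm_hl_EC_sq h3 O N hπ ℓ hℓ hℓ3 hℓN ω hω hram

end Ram

end Fermat.Agent.SS
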