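/-
Project SS (S34), cell [M] (model), leaf [F4], complement: the level-`M ℓ` function field is the
compositum of the two degeneracy images of the level-`M` field (`ℓ` prime, EVERY coefficient field),
and the corresponding statement for the rigidified Legendre tower `lg_E` (characteristic zero):

  `F_{M ℓ} = F_M ⊔ β_ℓ (F_M)`,      `lg_E L (N' ℓ) = lg_E L N' ⊔ β_ℓ (lg_E L N')`  (`ℓ` odd prime),

where `β_ℓ = (q ↦ q^ℓ)`.

Prefix `ssm_f4_`.
-/
import Mathlib
import Fermat.Agent.SS.Model.F4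

set_option autoImplicit false

noncomputable section

open ModularCurve IntermediateField
open Fermat.Agent.JT3

namespace Fermat.Agent.SS

section Sup

variable (K : Type*) [Field K] (M ℓ : ℕ) [NeZero M] [NeZero ℓ]

/-- `F_{M ℓ} = F_M ⊔ β_ℓ (F_M)` for `ℓ` prime, over every field. -/
theorem ssm_f4_full_eq_sup (hℓ : ℓ.Prime) :
    modularFunctionFieldFullC K (M * ℓ) =
      modularFunctionFieldFullC K M ⊔
        (modularFunctionFieldFullC K M).map (qExpandAlgHomC K ℓ) := by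
  apply le_antisymm
  · rw [modularFunctionFieldFullC, IntermediateField.adjoin_le_iff]
    rintro _ ⟨d, hdne, hd, rfl⟩
    by_cases hld : ℓ ∣ d
    · obtain ⟨d', rfl⟩ := hld
      have hd'0 : d' ≠ 0 := by
        rintro rfl
        exact (NeZero.ne (ℓ * 0)) (by simp)
      have : NeZero d' := ⟨hd'0⟩
      have hd'M : d' ∣ M := by
        rw [mul_comm M ℓ] at hd
        exact Nat.dvd_of_mul_dvd_mul_left hℓ.pos hd
      refine (le_sup_right : _ ≤ modularFunctionFieldFullC K M ⊔ _) ?_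
      refine ⟨qExpand K d' (jqModC K), jqModCd_mem_full K M hd'M, ?_⟩
      show qExpandAlgHomC K ℓ (qExpand K d' (jqModC K)) = _
      rw [qExpandAlgHomC_apply, qExpand_qExpand]
    · have hcop : Nat.Coprime d ℓ := (Nat.Coprime.symm ((Nat.Prime.coprime_iff_not_dvd hℓ).2 hld))
      have hdM : d ∣ M := hcop.dvd_of_dvd_mul_right hd
      exact (le_sup_left : _ ≤ _ ⊔ (modularFunctionFieldFullC K M).map _)
        (jqModCd_mem_full K M hdM)
  · refine sup_le (full_degeneracyC_le K (Dvd.intro _ rfl)) (full_degeneracyC_map_le K M ℓ)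

end Sup

section Tower

variable (L : Type*) [Field L] [CharZero L] (N' ℓ : ℕ) [NeZero N'] [NeZero ℓ]

omit [NeZero N'] [NeZero ℓ] in
/-- `lcm(4, 2 N' ℓ) = lcm(4, 2 N') ℓ` for odd `ℓ`. -/
theorem ssm_f4_level_mul (hℓ2 : ¬ 2 ∣ ℓ) : ssm_f4_level (N' * ℓ) = ssm_f4_level N' * ℓ := by
  have hcop : Nat.Coprime 4 ℓ := by
    have : Nat.Coprime 2 ℓ := (Nat.Prime.coprime_iff_not_dvd Nat.prime_two).2 hℓ2
    exact Nat.Coprime.pow_left 2 this
  rw [ssm_f4_level, ssm_f4_level]
  have h1 : 2 * (N' * ℓ) = (2 * N') * ℓ := by ring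
  rw [h1, ← Nat.lcm_mul_right]
  apply Nat.dvd_antisymm
  · exact Nat.lcm_dvd ((Dvd.intro _ rfl).trans (Nat.dvd_lcm_left _ _)) (Nat.dvd_lcm_right _ _)
  · refine Nat.lcm_dvd ?_ (Nat.dvd_lcm_right _ _)
    exact Nat.Coprime.mul_dvd_of_dvd_of_dvd hcop (Nat.dvd_lcm_left _ _)
      ((Dvd.intro_left _ rfl).trans (Nat.dvd_lcm_right _ _))

/-- **`E = E' E''`**: the rigidified field at level `N' ℓ` (`ℓ` an odd prime) is the compositum of the
two degeneracy images of the rigidified field at level `N'`. -/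
theorem ssm_f4_E_eq_sup (hℓ : ℓ.Prime) (hℓ2 : ¬ 2 ∣ ℓ) :
    lg_E L (N' * ℓ) = lg_E L N' ⊔ (lg_E L N').map (qExpandAlgHomC L ℓ) := by
  rw [ssm_f4 L (N' * ℓ), ssm_f4 L N']
  have h := ssm_f4_full_eq_sup L (ssm_f4_level N') ℓ hℓ
  rw [← h]
  congr 1
  exact ssm_f4_level_mul N' ℓ hℓ2

end Tower

end Fermat.Agent.SS
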