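/-
Project SS (S34), cell [M] (model), leaf [AL]: the ATKIN–LEHNER INVOLUTION `W_q` on the level-`M q`
function field `lg_F L (M q) = L(j(X^d) : d ∣ M q) ⊆ L((X))` over a field `L ⊆ Q̄` of characteristic
zero (`q ∤ M` prime).

`helper24`'s `nls_exists_W` (JT3/NL/Swap.lean) provides a `Q̄`-algebra endomorphism `W` of
`F̄_{M q}` with `W ∘ α = β`, `W ∘ β = α` (`α` = inclusion of `F̄_M`, `β = (X ↦ X^q)`).  Since `W`
is `Q̄`-linear and permutes the generators `j(X^d) ↔ j(X^{q d})` (`d ∣ M`), it maps the image of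
`lg_F L (M q)` under the coefficient embedding `L((X)) → Q̄((X))` to itself; the restriction is the
`L`-algebra involution `ssm_al_W` with

* `ssm_al_W_of_mem`        : `W x = x(X^q)`   for `x ∈ lg_F L M`,
* `ssm_al_W_expand_of_mem` : `W (x(X^q)) = x` for `x ∈ lg_F L M`,
* `ssm_al_W_W`             : `W ∘ W = id`,
* `ssm_al_W_coeffMap`      : `W` commutes with the coefficientwise action of any `σ : L →+* L`.

Prefix `ssm_al_`.
-/
import Mathlib
import Fermat.Agent.JT3.NL.Swap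
import Fermat.Agent.JT3.Inst.Defs
import Fermat.Agent.S28.Bridge.Descent
import Fermat.Agent.SS.Model.F4Sup

set_option autoImplicit false
set_option linter.unusedSectionVars false
set_option linter.unusedVariables false

noncomputable section

open ModularCurve IntermediateField
open Fermat.Agent.JT3 Fermat.Agent.S24 Fermat.Agent.S28

namespace Fermat.Agent.SS

/-! ### coefficient base change of the level-`N` field -/

section BaseChange

variable {k K : Type*} [Field k] [Field K] (f : k →+* K) (N : ℕ)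

theorem ssm_al_coeffMap_gen (d : ℕ) [NeZero d] :
    coeffMap f (qExpand k d (jqModC k)) = qExpand K d (jqModC K) := by
  rw [coeffMap_qExpand, coeffMap_jqModC]

/-- `coeffMap f` maps `F_N(k)` into `F_N(K)`. -/
theorem ssm_al_coeffMap_mem {x : LaurentSeries k} (hx : x ∈ modularFunctionFieldFullC k N) :
    coeffMap f x ∈ modularFunctionFieldFullC K N := by
  rw [modularFunctionFieldFullC] at hx
  induction hx using IntermediateField.adjoin_induction with
  | mem y hy =>
    obtain ⟨d, hd, hdN, rfl⟩ := hy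
    have := hd
    rw [ssm_al_coeffMap_gen]
    exact jqModCd_mem_full K N hdN
  | algebraMap r =>
    rw [bd_coeffMap_algebraMap]
    exact (modularFunctionFieldFullC K N).algebraMap_mem _
  | add x y _ _ hx hy => rw [map_add]; exact add_mem hx hy
  | inv x _ hx => rw [map_inv₀]; exact inv_mem hx
  | mul x y _ _ hx hy => rw [map_mul]; exact mul_mem hx hy

/-- two ring homomorphisms out of `k(S)` into a division ring which agree on `k` and on `S` are
equal. -/
theorem ssm_al_ringHom_ext {E R : Type*} [Field E] [Algebra k E] [DivisionRing R] (S : Set E)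
    (φ ψ : IntermediateField.adjoin k S →+* R)
    (hk : ∀ c : k, φ (algebraMap k _ c) = ψ (algebraMap k _ c))
    (hS : ∀ x (hx : x ∈ S), φ ⟨x, IntermediateField.subset_adjoin k S hx⟩ =
      ψ ⟨x, IntermediateField.subset_adjoin k S hx⟩) : φ = ψ := by
  refine RingHom.ext fun ⟨x, hx⟩ => ?_
  induction hx using IntermediateField.adjoin_induction with
  | mem y hy => exact hS y hy
  | algebraMap r => exact hk r
  | add x y hx hy ihx ihy =>
    have : (⟨x + y, add_mem hx hy⟩ : IntermediateField.adjoin k S) = ⟨x, hx⟩ + ⟨y, hy⟩ := rfl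
    rw [this, map_add, map_add, ihx, ihy]
  | inv x hx ihx =>
    have : (⟨x⁻¹, inv_mem hx⟩ : IntermediateField.adjoin k S) = (⟨x, hx⟩)⁻¹ := rfl
    rw [this, map_inv₀, map_inv₀, ihx]
  | mul x y hx hy ihx ihy =>
    have : (⟨x * y, mul_mem hx hy⟩ : IntermediateField.adjoin k S) = ⟨x, hx⟩ * ⟨y, hy⟩ := rfl
    rw [this, map_mul, map_mul, ihx, ihy]

end BaseChange

/-! ### the coefficient embedding `L((X)) → Q̄((X))` -/

section Iota

variable (L : Type*) [Field L] [CharZero L] [Algebra L (AlgebraicClosure ℚ)]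

/-- the coefficient embedding `L((X)) → Q̄((X))` -/
abbrev ssm_al_iota : LaurentSeries L →+* LaurentSeries (AlgebraicClosure ℚ) :=
  coeffMap (algebraMap L (AlgebraicClosure ℚ))

theorem ssm_al_iota_injective : Function.Injective (ssm_al_iota L) :=
  bd_coeffMap_injective (algebraMap L (AlgebraicClosure ℚ)).injective

theorem ssm_al_iota_mem (N : ℕ) [NeZero N] {x : LaurentSeries L} (hx : x ∈ lg_F L N) :
    ssm_al_iota L x ∈ modularFunctionFieldBar N := by
  rw [← lg_F_eq_bar]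
  exact ssm_al_coeffMap_mem _ N hx

theorem ssm_al_iota_algebraMap (r : L) :
    ssm_al_iota L (algebraMap L (LaurentSeries L) r) =
      algebraMap (AlgebraicClosure ℚ) (LaurentSeries (AlgebraicClosure ℚ))
        (algebraMap L (AlgebraicClosure ℚ) r) :=
  bd_coeffMap_algebraMap _ r

theorem ssm_al_iota_qExpand (n : ℕ) [NeZero n] (x : LaurentSeries L) :
    ssm_al_iota L (qExpand L n x) = qExpand (AlgebraicClosure ℚ) n (ssm_al_iota L x) :=
  coeffMap_qExpand _ n x

/-- the coefficient embedding on the level-`N` field -/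
def ssm_al_iotaF (N : ℕ) [NeZero N] : lg_F L N →+* Fbar N where
  toFun x := ⟨ssm_al_iota L x, ssm_al_iota_mem L N x.2⟩
  map_one' := Subtype.ext (map_one _)
  map_mul' _ _ := Subtype.ext (map_mul _ _ _)
  map_zero' := Subtype.ext (map_zero _)
  map_add' _ _ := Subtype.ext (map_add _ _ _)

theorem ssm_al_coe_iotaF (N : ℕ) [NeZero N] (x : lg_F L N) :
    ((ssm_al_iotaF L N x : Fbar N) : LaurentSeries (AlgebraicClosure ℚ)) =
      ssm_al_iota L (x : LaurentSeries L) := rfl

theorem ssm_al_iotaF_injective (N : ℕ) [NeZero N] : Function.Injective (ssm_al_iotaF L N) := by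
  intro x y h
  apply Subtype.ext
  apply ssm_al_iota_injective L
  exact congrArg Subtype.val h

theorem ssm_al_iotaF_algebraMap (N : ℕ) [NeZero N] (r : L) :
    ssm_al_iotaF L N (algebraMap L (lg_F L N) r) =
      algebraMap (AlgebraicClosure ℚ) (Fbar N) (algebraMap L (AlgebraicClosure ℚ) r) :=
  Subtype.ext (ssm_al_iota_algebraMap L r)

end Iota

/-! ### the Atkin–Lehner endomorphism over `Q̄` -/

section Wbar

variable (M q : ℕ) [NeZero M] [NeZero q] (hq : q.Prime) (hqM : ¬ q ∣ M)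

/-- helper24's Atkin–Lehner endomorphism of `F̄_{M q}`. -/
def ssm_al_Wbar : Fbar (M * q) →ₐ[AlgebraicClosure ℚ] Fbar (M * q) :=
  (nls_exists_W M q hq hqM).choose

theorem ssm_al_Wbar_alpha (x : Fbar M) :
    ssm_al_Wbar M q hq hqM (heckeAlphaBar (AlgebraicClosure ℚ) M q x) =
      heckeBetaBar (AlgebraicClosure ℚ) M q x :=
  (nls_exists_W M q hq hqM).choose_spec.1 x

theorem ssm_al_Wbar_beta (x : Fbar M) :
    ssm_al_Wbar M q hq hqM (heckeBetaBar (AlgebraicClosure ℚ) M q x) =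
      heckeAlphaBar (AlgebraicClosure ℚ) M q x :=
  (nls_exists_W M q hq hqM).choose_spec.2 x

end Wbar

/-! ### restriction to `L` -/

section Restrict

variable (L : Type*) [Field L] [CharZero L] [Algebra L (AlgebraicClosure ℚ)]
  (M q : ℕ) [NeZero M] [NeZero q] (hq : q.Prime) (hqM : ¬ q ∣ M)

/-- `W̄ (ι x) = ι (x(X^q))` for `x ∈ F_M(L)`. -/
theorem ssm_al_Wbar_iota_of_mem {x : LaurentSeries L} (hx : x ∈ lg_F L M)
    (h : ssm_al_iota L x ∈ modularFunctionFieldBar (M * q)) :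
    ((ssm_al_Wbar M q hq hqM ⟨ssm_al_iota L x, h⟩ : Fbar (M * q)) :
      LaurentSeries (AlgebraicClosure ℚ)) = ssm_al_iota L (qExpand L q x) := by
  have e : (⟨ssm_al_iota L x, h⟩ : Fbar (M * q)) =
      heckeAlphaBar (AlgebraicClosure ℚ) M q ⟨ssm_al_iota L x, ssm_al_iota_mem L M hx⟩ :=
    Subtype.ext rfl
  rw [e, ssm_al_Wbar_alpha, coe_heckeBetaBar, ssm_al_iota_qExpand]

/-- `W̄ (ι (x(X^q))) = ι x` for `x ∈ F_M(L)`. -/
theorem ssm_al_Wbar_iota_expand_of_mem {x : LaurentSeries L} (hx : x ∈ lg_F L M)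
    (h : ssm_al_iota L (qExpand L q x) ∈ modularFunctionFieldBar (M * q)) :
    ((ssm_al_Wbar M q hq hqM ⟨ssm_al_iota L (qExpand L q x), h⟩ : Fbar (M * q)) :
      LaurentSeries (AlgebraicClosure ℚ)) = ssm_al_iota L x := by
  have e : (⟨ssm_al_iota L (qExpand L q x), h⟩ : Fbar (M * q)) =
      heckeBetaBar (AlgebraicClosure ℚ) M q ⟨ssm_al_iota L x, ssm_al_iota_mem L M hx⟩ := by
    apply Subtype.ext
    rw [coe_heckeBetaBar]
    exact ssm_al_iota_qExpand L q x
  rw [e, ssm_al_Wbar_beta, coe_heckeAlphaBar]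

/-- `x(X^q) ∈ F_{M q}(L)` for `x ∈ F_M(L)`. -/
theorem ssm_al_expand_mem {x : LaurentSeries L} (hx : x ∈ lg_F L M) :
    qExpand L q x ∈ lg_F L (M * q) :=
  full_degeneracyC_map_le L M q ⟨x, hx, rfl⟩

theorem ssm_al_mem_of_mem {x : LaurentSeries L} (hx : x ∈ lg_F L M) : x ∈ lg_F L (M * q) :=
  full_degeneracyC_le L (Dvd.intro _ rfl) hx

/-- **stability**: `W̄` maps the image of `F_{M q}(L)` into itself. -/
theorem ssm_al_exists {x : LaurentSeries L} (hx : x ∈ lg_F L (M * q)) :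
    ∀ h : ssm_al_iota L x ∈ modularFunctionFieldBar (M * q),
      ∃ y ∈ lg_F L (M * q),
        ((ssm_al_Wbar M q hq hqM ⟨ssm_al_iota L x, h⟩ : Fbar (M * q)) :
          LaurentSeries (AlgebraicClosure ℚ)) = ssm_al_iota L y := by
  have hx' : x ∈ IntermediateField.adjoin L (divisorExpansionsC L (M * q)) := hx
  clear hx
  induction hx' using IntermediateField.adjoin_induction with
  | mem y hy =>
    intro h
    obtain ⟨d, hd, hdN, rfl⟩ := hy
    have := hd
    rcases nls_dvd_cases hq hqM hdN with hdM | ⟨e, rfl, heM⟩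
    · have hm : qExpand L d (jqModC L) ∈ lg_F L M := jqModCd_mem_full L M hdM
      exact ⟨_, ssm_al_expand_mem L M q hm, ssm_al_Wbar_iota_of_mem L M q hq hqM hm h⟩
    · have he0 : NeZero e := ⟨fun h0 => by subst h0; exact NeZero.ne (q * 0) (by simp)⟩
      have hm : qExpand L e (jqModC L) ∈ lg_F L M := jqModCd_mem_full L M heM
      have e1 : qExpand L (q * e) (jqModC L) = qExpand L q (qExpand L e (jqModC L)) := by
        rw [qExpand_qExpand]
      refine ⟨_, ssm_al_mem_of_mem L M q hm, ?_⟩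
      have h' := h
      rw [e1] at h'
      have := ssm_al_Wbar_iota_expand_of_mem L M q hq hqM hm h'
      rw [← this]
      congr 2
      exact Subtype.ext (congrArg (ssm_al_iota L) e1)
  | algebraMap r =>
    intro h
    refine ⟨algebraMap L (LaurentSeries L) r, (lg_F L (M * q)).algebraMap_mem r, ?_⟩
    have e : (⟨ssm_al_iota L (algebraMap L (LaurentSeries L) r), h⟩ : Fbar (M * q)) =
        algebraMap (AlgebraicClosure ℚ) (Fbar (M * q)) (algebraMap L (AlgebraicClosure ℚ) r) :=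
      Subtype.ext (ssm_al_iota_algebraMap L r)
    rw [e, AlgHom.commutes, ssm_al_iota_algebraMap]
    rfl
  | add x y hx hy ihx ihy =>
    intro h
    have hx1 : x ∈ lg_F L (M * q) := hx
    have hy1 : y ∈ lg_F L (M * q) := hy
    obtain ⟨x', hx', ex⟩ := ihx (ssm_al_iota_mem L (M * q) hx1)
    obtain ⟨y', hy', ey⟩ := ihy (ssm_al_iota_mem L (M * q) hy1)
    refine ⟨x' + y', add_mem hx' hy', ?_⟩
    have e : (⟨ssm_al_iota L (x + y), h⟩ : Fbar (M * q)) =
        ⟨ssm_al_iota L x, ssm_al_iota_mem L (M * q) hx1⟩ +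
          ⟨ssm_al_iota L y, ssm_al_iota_mem L (M * q) hy1⟩ := Subtype.ext (map_add _ _ _)
    rw [e, map_add, map_add, ← ex, ← ey]
    rfl
  | inv x hx ihx =>
    intro h
    have hx1 : x ∈ lg_F L (M * q) := hx
    obtain ⟨x', hx', ex⟩ := ihx (ssm_al_iota_mem L (M * q) hx1)
    refine ⟨x'⁻¹, inv_mem hx', ?_⟩
    have e : (⟨ssm_al_iota L x⁻¹, h⟩ : Fbar (M * q)) =
        (⟨ssm_al_iota L x, ssm_al_iota_mem L (M * q) hx1⟩ : Fbar (M * q))⁻¹ :=
      Subtype.ext (map_inv₀ _ _)
    rw [e, map_inv₀, map_inv₀, ← ex]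
    rfl
  | mul x y hx hy ihx ihy =>
    intro h
    have hx1 : x ∈ lg_F L (M * q) := hx
    have hy1 : y ∈ lg_F L (M * q) := hy
    obtain ⟨x', hx', ex⟩ := ihx (ssm_al_iota_mem L (M * q) hx1)
    obtain ⟨y', hy', ey⟩ := ihy (ssm_al_iota_mem L (M * q) hy1)
    refine ⟨x' * y', mul_mem hx' hy', ?_⟩
    have e : (⟨ssm_al_iota L (x * y), h⟩ : Fbar (M * q)) =
        ⟨ssm_al_iota L x, ssm_al_iota_mem L (M * q) hx1⟩ *
          ⟨ssm_al_iota L y, ssm_al_iota_mem L (M * q) hy1⟩ := Subtype.ext (map_mul _ _ _)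
    rw [e, map_mul, map_mul, ← ex, ← ey]
    rfl

/-- the underlying function of the Atkin–Lehner involution over `L` -/
def ssm_al_Wfun (x : lg_F L (M * q)) : lg_F L (M * q) :=
  ⟨(ssm_al_exists L M q hq hqM x.2 (ssm_al_iota_mem L (M * q) x.2)).choose,
    (ssm_al_exists L M q hq hqM x.2 (ssm_al_iota_mem L (M * q) x.2)).choose_spec.1⟩

theorem ssm_al_Wfun_spec (x : lg_F L (M * q)) :
    ssm_al_iotaF L (M * q) (ssm_al_Wfun L M q hq hqM x) =
      ssm_al_Wbar M q hq hqM (ssm_al_iotaF L (M * q) x) :=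
  Subtype.ext
    (ssm_al_exists L M q hq hqM x.2 (ssm_al_iota_mem L (M * q) x.2)).choose_spec.2.symm

theorem ssm_al_Wfun_eq (x y : lg_F L (M * q))
    (h : ssm_al_iotaF L (M * q) y = ssm_al_Wbar M q hq hqM (ssm_al_iotaF L (M * q) x)) :
    ssm_al_Wfun L M q hq hqM x = y := by
  apply ssm_al_iotaF_injective L (M * q)
  rw [ssm_al_Wfun_spec, h]

/-- the Atkin–Lehner involution over `L`, as an `L`-algebra endomorphism of `F_{M q}(L)` -/
def ssm_al_Whom : lg_F L (M * q) →ₐ[L] lg_F L (M * q) where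
  toFun := ssm_al_Wfun L M q hq hqM
  map_one' := ssm_al_Wfun_eq L M q hq hqM _ _ (by rw [map_one, map_one])
  map_mul' x y := ssm_al_Wfun_eq L M q hq hqM _ _ (by
    rw [map_mul, map_mul, map_mul, ssm_al_Wfun_spec, ssm_al_Wfun_spec])
  map_zero' := ssm_al_Wfun_eq L M q hq hqM _ _ (by rw [map_zero, map_zero])
  map_add' x y := ssm_al_Wfun_eq L M q hq hqM _ _ (by
    rw [map_add, map_add, map_add, ssm_al_Wfun_spec, ssm_al_Wfun_spec])
  commutes' r := ssm_al_Wfun_eq L M q hq hqM _ _ (by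
    rw [ssm_al_iotaF_algebraMap, AlgHom.commutes])

theorem ssm_al_Whom_spec (x : lg_F L (M * q)) :
    ssm_al_iotaF L (M * q) (ssm_al_Whom L M q hq hqM x) =
      ssm_al_Wbar M q hq hqM (ssm_al_iotaF L (M * q) x) :=
  ssm_al_Wfun_spec L M q hq hqM x

/-- `W x = x(X^q)` for `x ∈ F_M(L)`. -/
theorem ssm_al_Whom_of_mem {x : LaurentSeries L} (hx : x ∈ lg_F L M) :
    ssm_al_Whom L M q hq hqM ⟨x, ssm_al_mem_of_mem L M q hx⟩ =
      ⟨qExpand L q x, ssm_al_expand_mem L M q hx⟩ := by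
  refine ssm_al_Wfun_eq L M q hq hqM _ _ (Subtype.ext ?_)
  exact (ssm_al_Wbar_iota_of_mem L M q hq hqM hx _).symm

/-- `W (x(X^q)) = x` for `x ∈ F_M(L)`. -/
theorem ssm_al_Whom_expand_of_mem {x : LaurentSeries L} (hx : x ∈ lg_F L M) :
    ssm_al_Whom L M q hq hqM ⟨qExpand L q x, ssm_al_expand_mem L M q hx⟩ =
      ⟨x, ssm_al_mem_of_mem L M q hx⟩ := by
  refine ssm_al_Wfun_eq L M q hq hqM _ _ (Subtype.ext ?_)
  exact (ssm_al_Wbar_iota_expand_of_mem L M q hq hqM hx _).symm

/-- `W ∘ W = id`. -/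
theorem ssm_al_Whom_comp_self :
    (ssm_al_Whom L M q hq hqM).comp (ssm_al_Whom L M q hq hqM) = AlgHom.id L _ := by
  refine IntermediateField.algHom_ext_of_eq_adjoin L (S := lg_F L (M * q))
    (s := divisorExpansionsC L (M * q)) rfl ?_
  rintro _ ⟨d, hd, hdN, rfl⟩
  have := hd
  rw [AlgHom.comp_apply, AlgHom.id_apply]
  rcases nls_dvd_cases hq hqM hdN with hdM | ⟨e, rfl, heM⟩
  · have hm : qExpand L d (jqModC L) ∈ lg_F L M := jqModCd_mem_full L M hdM
    have h1 := ssm_al_Whom_of_mem L M q hq hqM hm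
    have h2 := ssm_al_Whom_expand_of_mem L M q hq hqM hm
    exact (congrArg _ h1).trans h2
  · have he0 : NeZero e := ⟨fun h0 => by subst h0; exact NeZero.ne (q * 0) (by simp)⟩
    have hm : qExpand L e (jqModC L) ∈ lg_F L M := jqModCd_mem_full L M heM
    have e1 : qExpand L (q * e) (jqModC L) = qExpand L q (qExpand L e (jqModC L)) := by
      rw [qExpand_qExpand]
    have h1 := ssm_al_Whom_of_mem L M q hq hqM hm
    have h2 := ssm_al_Whom_expand_of_mem L M q hq hqM hm
    have e2 : (⟨qExpand L (q * e) (jqModC L), jqModCd_mem_full L (M * q) hdN⟩ :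
        lg_F L (M * q)) =
        ⟨qExpand L q (qExpand L e (jqModC L)), ssm_al_expand_mem L M q hm⟩ := Subtype.ext e1
    exact (congrArg _ ((congrArg _ e2).trans h2)).trans (h1.trans e2.symm)

theorem ssm_al_Whom_Whom (x : lg_F L (M * q)) :
    ssm_al_Whom L M q hq hqM (ssm_al_Whom L M q hq hqM x) = x :=
  DFunLike.congr_fun (ssm_al_Whom_comp_self L M q hq hqM) x

/-- **[AL] (i)**: the Atkin–Lehner involution `W_q` of `F_{M q}(L) = lg_F L (M q)`. -/
def ssm_al_W : lg_F L (M * q) ≃ₐ[L] lg_F L (M * q) :=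
  AlgEquiv.ofAlgHom (ssm_al_Whom L M q hq hqM) (ssm_al_Whom L M q hq hqM)
    (ssm_al_Whom_comp_self L M q hq hqM) (ssm_al_Whom_comp_self L M q hq hqM)

theorem ssm_al_W_apply (x : lg_F L (M * q)) :
    ssm_al_W L M q hq hqM x = ssm_al_Whom L M q hq hqM x := rfl

theorem ssm_al_W_symm : (ssm_al_W L M q hq hqM).symm = ssm_al_W L M q hq hqM :=
  AlgEquiv.ext fun _ => rfl

/-- `W ∘ W = id`. -/
theorem ssm_al_W_W (x : lg_F L (M * q)) :
    ssm_al_W L M q hq hqM (ssm_al_W L M q hq hqM x) = x :=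
  ssm_al_Whom_Whom L M q hq hqM x

/-- `W x = x(X^q)` for `x ∈ F_M(L)`. -/
theorem ssm_al_W_of_mem {x : LaurentSeries L} (hx : x ∈ lg_F L M) :
    ssm_al_W L M q hq hqM ⟨x, ssm_al_mem_of_mem L M q hx⟩ =
      ⟨qExpand L q x, ssm_al_expand_mem L M q hx⟩ :=
  ssm_al_Whom_of_mem L M q hq hqM hx

/-- `W (x(X^q)) = x` for `x ∈ F_M(L)`. -/
theorem ssm_al_W_expand_of_mem {x : LaurentSeries L} (hx : x ∈ lg_F L M) :
    ssm_al_W L M q hq hqM ⟨qExpand L q x, ssm_al_expand_mem L M q hx⟩ =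
      ⟨x, ssm_al_mem_of_mem L M q hx⟩ :=
  ssm_al_Whom_expand_of_mem L M q hq hqM hx

/-- coercion forms, with arbitrary membership proofs -/
theorem ssm_al_coe_W_of_mem {x : LaurentSeries L} (hx : x ∈ lg_F L M)
    (h : x ∈ lg_F L (M * q)) :
    ((ssm_al_W L M q hq hqM ⟨x, h⟩ : lg_F L (M * q)) : LaurentSeries L) = qExpand L q x :=
  congrArg Subtype.val (ssm_al_W_of_mem L M q hq hqM hx)

theorem ssm_al_coe_W_expand_of_mem {x : LaurentSeries L} (hx : x ∈ lg_F L M)
    (h : qExpand L q x ∈ lg_F L (M * q)) :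
    ((ssm_al_W L M q hq hqM ⟨qExpand L q x, h⟩ : lg_F L (M * q)) : LaurentSeries L) = x :=
  congrArg Subtype.val (ssm_al_W_expand_of_mem L M q hq hqM hx)

/-- the link with `Q̄`: `ι (W x) = W̄ (ι x)`. -/
theorem ssm_al_W_spec (x : lg_F L (M * q)) :
    ssm_al_iotaF L (M * q) (ssm_al_W L M q hq hqM x) =
      ssm_al_Wbar M q hq hqM (ssm_al_iotaF L (M * q) x) :=
  ssm_al_Wfun_spec L M q hq hqM x

/-! ### compatibility with the coefficientwise action of endomorphisms of `L` -/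

/-- `coeffMap σ` restricted to the level-`N` field -/
def ssm_al_coeffMapF (σ : L →+* L) (N : ℕ) [NeZero N] : lg_F L N →+* lg_F L N where
  toFun x := ⟨coeffMap σ x, ssm_al_coeffMap_mem σ N x.2⟩
  map_one' := Subtype.ext (map_one _)
  map_mul' _ _ := Subtype.ext (map_mul _ _ _)
  map_zero' := Subtype.ext (map_zero _)
  map_add' _ _ := Subtype.ext (map_add _ _ _)

theorem ssm_al_coe_coeffMapF (σ : L →+* L) (N : ℕ) [NeZero N] (x : lg_F L N) :
    ((ssm_al_coeffMapF L σ N x : lg_F L N) : LaurentSeries L) = coeffMap σ (x : LaurentSeries L) :=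
  rfl

theorem ssm_al_coeffMapF_algebraMap (σ : L →+* L) (N : ℕ) [NeZero N] (c : L) :
    ssm_al_coeffMapF L σ N (algebraMap L (lg_F L N) c) = algebraMap L (lg_F L N) (σ c) :=
  Subtype.ext (bd_coeffMap_algebraMap σ c)

theorem ssm_al_W_coeffMapF_of_mem (σ : L →+* L) {x : LaurentSeries L} (hx : x ∈ lg_F L M)
    (h : x ∈ lg_F L (M * q)) :
    ssm_al_W L M q hq hqM (ssm_al_coeffMapF L σ (M * q) ⟨x, h⟩) =
      ssm_al_coeffMapF L σ (M * q) (ssm_al_W L M q hq hqM ⟨x, h⟩) := by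
  apply Subtype.ext
  have hσ : coeffMap σ x ∈ lg_F L M := ssm_al_coeffMap_mem σ M hx
  rw [ssm_al_coe_coeffMapF, ssm_al_coe_W_of_mem L M q hq hqM hx h]
  have e : ssm_al_coeffMapF L σ (M * q) ⟨x, h⟩ =
      ⟨coeffMap σ x, ssm_al_mem_of_mem L M q hσ⟩ := rfl
  rw [e, ssm_al_coe_W_of_mem L M q hq hqM hσ, coeffMap_qExpand]

theorem ssm_al_W_coeffMapF_expand_of_mem (σ : L →+* L) {x : LaurentSeries L}
    (hx : x ∈ lg_F L M) (h : qExpand L q x ∈ lg_F L (M * q)) :
    ssm_al_W L M q hq hqM (ssm_al_coeffMapF L σ (M * q) ⟨qExpand L q x, h⟩) =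
      ssm_al_coeffMapF L σ (M * q) (ssm_al_W L M q hq hqM ⟨qExpand L q x, h⟩) := by
  apply Subtype.ext
  have hσ : coeffMap σ x ∈ lg_F L M := ssm_al_coeffMap_mem σ M hx
  rw [ssm_al_coe_coeffMapF, ssm_al_coe_W_expand_of_mem L M q hq hqM hx h]
  have e : ssm_al_coeffMapF L σ (M * q) ⟨qExpand L q x, h⟩ =
      ⟨qExpand L q (coeffMap σ x), ssm_al_expand_mem L M q hσ⟩ :=
    Subtype.ext (coeffMap_qExpand σ q x)
  rw [e, ssm_al_coe_W_expand_of_mem L M q hq hqM hσ]

/-- **[AL] (iii)**: `W` commutes with the coefficientwise action of every ring endomorphism `σ`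
of `L` (in particular of every `σ ∈ Aut(L)`). -/
theorem ssm_al_W_coeffMapF (σ : L →+* L) (x : lg_F L (M * q)) :
    ssm_al_W L M q hq hqM (ssm_al_coeffMapF L σ (M * q) x) =
      ssm_al_coeffMapF L σ (M * q) (ssm_al_W L M q hq hqM x) := by
  have key : ((ssm_al_W L M q hq hqM : lg_F L (M * q) →+* lg_F L (M * q)).comp
        (ssm_al_coeffMapF L σ (M * q)) :
        IntermediateField.adjoin L (divisorExpansionsC L (M * q)) →+* lg_F L (M * q)) =
      (ssm_al_coeffMapF L σ (M * q)).comp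
        (ssm_al_W L M q hq hqM : lg_F L (M * q) →+* lg_F L (M * q)) := by
    refine ssm_al_ringHom_ext (divisorExpansionsC L (M * q)) _ _ (fun c => ?_) ?_
    · change ssm_al_W L M q hq hqM
          (ssm_al_coeffMapF L σ (M * q) (algebraMap L (lg_F L (M * q)) c)) =
        ssm_al_coeffMapF L σ (M * q)
          (ssm_al_W L M q hq hqM (algebraMap L (lg_F L (M * q)) c))
      rw [ssm_al_coeffMapF_algebraMap, AlgEquiv.commutes, AlgEquiv.commutes,
        ssm_al_coeffMapF_algebraMap]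
    · rintro _ ⟨d, hd, hdN, rfl⟩
      have := hd
      rcases nls_dvd_cases hq hqM hdN with hdM | ⟨e, rfl, heM⟩
      · exact ssm_al_W_coeffMapF_of_mem L M q hq hqM σ (jqModCd_mem_full L M hdM) _
      · have he0 : NeZero e := ⟨fun h0 => by subst h0; exact NeZero.ne (q * 0) (by simp)⟩
        have hm : qExpand L e (jqModC L) ∈ lg_F L M := jqModCd_mem_full L M heM
        have e1 : qExpand L (q * e) (jqModC L) = qExpand L q (qExpand L e (jqModC L)) := by
          rw [qExpand_qExpand]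
        have e2 : (⟨qExpand L (q * e) (jqModC L), jqModCd_mem_full L (M * q) hdN⟩ :
            lg_F L (M * q)) =
            ⟨qExpand L q (qExpand L e (jqModC L)), ssm_al_expand_mem L M q hm⟩ := Subtype.ext e1
        change ssm_al_W L M q hq hqM (ssm_al_coeffMapF L σ (M * q)
            ⟨qExpand L (q * e) (jqModC L), jqModCd_mem_full L (M * q) hdN⟩) =
          ssm_al_coeffMapF L σ (M * q) (ssm_al_W L M q hq hqM
            ⟨qExpand L (q * e) (jqModC L), jqModCd_mem_full L (M * q) hdN⟩)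
        rw [e2]
        exact ssm_al_W_coeffMapF_expand_of_mem L M q hq hqM σ hm _
  exact DFunLike.congr_fun key x

/-- coercion form of `ssm_al_W_coeffMapF` -/
theorem ssm_al_coe_W_coeffMap (σ : L →+* L) (x : lg_F L (M * q))
    (h : coeffMap σ (x : LaurentSeries L) ∈ lg_F L (M * q)) :
    ((ssm_al_W L M q hq hqM ⟨coeffMap σ (x : LaurentSeries L), h⟩ : lg_F L (M * q)) :
        LaurentSeries L) =
      coeffMap σ ((ssm_al_W L M q hq hqM x : lg_F L (M * q)) : LaurentSeries L) :=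
  congrArg Subtype.val (ssm_al_W_coeffMapF L M q hq hqM σ x)

end Restrict

end Fermat.Agent.SS
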