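/-
Project SS (S34), cell [M] (model), leaf [F4], part (b): TWO-GENERATOR GENERATION of the level-`M`
function field.  If `a ∣ M`, `b ∣ M` and `M = lcm(a, b)` (in the form: every integer divisible by
`a` and by `b` is divisible by `M`), then

  `ℚ(j(q^d) : d ∣ M) = ℚ(j, j(q^a), j(q^b))`,

and the same over every field `L` of characteristic zero.

This is helper5's argument of `S28/Bridge/Generation.lean` (`ℚ(j(q^d) : d ∣ N) = ℚ(j, j(q^N))`) run
with the primitive element `θ = j(q^a) + c · j(q^b)`, `c ∈ ℕ` chosen so that the `ψ(M)` Taylor-germ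
embeddings of `F̄_M` over `Q̄(j)` stay pairwise distinct on `θ`: two cosets whose embeddings agree on
`j(q^a)` and on `j(q^b)` differ by an element of `Γ₀(a) ∩ Γ₀(b) = Γ₀(M)`.  Hence
`[Q̄(j, θ) : Q̄(j)] ≥ ψ(M) = [F̄_M : Q̄(j)]`, and the rank descent `Q̄ → ℚ` of
`S28/Bridge/Indep.lean` finishes.

Prefix `ssm_f4_`.
-/
import Mathlib
import Fermat.Agent.S28.Bridge.Generation

set_option autoImplicit false

open UpperHalfPlane CongruenceSubgroup ModularCurve Polynomial
open scoped MatrixGroups IntermediateField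
open Fermat.Agent.S24 Fermat.Agent.S24.Br Fermat.Agent.S28

namespace Fermat.Agent.SS

/-! ### A separating linear combination -/

/-- If `i ↦ (u i, v i)` is injective on a finite index set, then so is `i ↦ u i + c · v i` for some
natural number `c` (characteristic zero). -/
theorem ssm_f4_exists_sep {ι V : Type*} [Finite ι] [Field V] [CharZero V] (u v : ι → V)
    (h : ∀ i j, u i = u j → v i = v j → i = j) :
    ∃ c : ℕ, Function.Injective (fun i => u i + (c : V) * v i) := by
  classical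
  set B : ι × ι → Set ℕ := fun p =>
    {c | p.1 ≠ p.2 ∧ u p.1 + (c : V) * v p.1 = u p.2 + (c : V) * v p.2} with hB
  have hsub : ∀ p, (B p).Subsingleton := by
    rintro ⟨i, j⟩ c ⟨hij, hc⟩ c' ⟨-, hc'⟩
    simp only at hij hc hc'
    by_contra hne
    have hv : v i = v j := by
      have h1 : ((c : V) - (c' : V)) * (v i - v j) = 0 := by linear_combination hc - hc'
      rcases mul_eq_zero.1 h1 with h2 | h2
      · exact absurd (Nat.cast_injective (sub_eq_zero.1 h2)) hne
      · exact sub_eq_zero.1 h2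
    have hu : u i = u j := by
      rw [hv] at hc
      exact add_right_cancel hc
    exact hij (h i j hu hv)
  have hfin : (⋃ p, B p).Finite := Set.finite_iUnion fun p => (hsub p).finite
  obtain ⟨c, hc⟩ := hfin.exists_notMem
  refine ⟨c, fun i j hij => ?_⟩
  by_contra hne
  exact hc (Set.mem_iUnion.2 ⟨(i, j), hne, hij⟩)

/-! ### Distinctness of the germ embeddings on a pair of generators -/

section Pair

variable (M : ℕ) [NeZero M]

/-- If the embeddings attached to the cosets of `g` and `g'` agree on `j(q^d)`, `d ∣ M`, then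
`g⁻¹ g' ∈ Γ₀(d)`. -/
theorem ssm_f4_mem_Gamma0_of_phi_eq (z0 : ℍ) (d : ℕ) [NeZero d] (hd : d ∣ M) (g g' : SL(2, ℤ))
    (h : ff_phi M z0 (g : Comb.Q M) (barGenF M d hd) =
      ff_phi M z0 (g' : Comb.Q M) (barGenF M d hd)) : g⁻¹ * g' ∈ Gamma0 d := by
  set e : A0 M := ⟨barGen d, Algebra.subset_adjoin (barGen_mem_barGens hd)⟩ with he
  have h1 : fam_phi0 (F := Fbar M) (ff_isGerm z0) (ff_isRealisation M) g
        (algebraMap (A0 M) (Fbar M) e) =
      fam_phi0 (F := Fbar M) (ff_isGerm z0) (ff_isRealisation M) g'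
        (algebraMap (A0 M) (Fbar M) e) := h
  rw [fam_phi0_algebraMap, fam_phi0_algebraMap] at h1
  have h2 := (ff_isGerm z0).inj _ _ ((ff_isRealisation M).adm e g⁻¹)
    ((ff_isRealisation M).adm e g'⁻¹) h1
  have han : ff_an M e = jd d := by
    rw [ff_an_apply]
    exact br_an_barGen M hd
  rw [han] at h2
  have h3 : g⁻¹ * g'⁻¹⁻¹ ∈ Gamma0 d := (jd_smul_eq_iff d g⁻¹ g'⁻¹).mp fun z => congrFun h2 z
  rwa [inv_inv] at h3

variable (a b : ℕ) [NeZero a] [NeZero b] (ha : a ∣ M) (hb : b ∣ M)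
  (hM : ∀ c : ℤ, (a : ℤ) ∣ c → (b : ℤ) ∣ c → (M : ℤ) ∣ c)

include hM in
/-- The germ embeddings are pairwise distinct on the pair `(j(q^a), j(q^b))`. -/
theorem ssm_f4_phi_pair_injective (z0 : ℍ) (x y : Comb.Q M)
    (h1 : ff_phi M z0 x (barGenF M a ha) = ff_phi M z0 y (barGenF M a ha))
    (h2 : ff_phi M z0 x (barGenF M b hb) = ff_phi M z0 y (barGenF M b hb)) : x = y := by
  induction x using Quotient.inductionOn' with
  | h g =>
  induction y using Quotient.inductionOn' with
  | h g' =>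
    have ka := ssm_f4_mem_Gamma0_of_phi_eq M z0 a ha g g' h1
    have kb := ssm_f4_mem_Gamma0_of_phi_eq M z0 b hb g g' h2
    rw [Gamma0_mem, ZMod.intCast_zmod_eq_zero_iff_dvd] at ka kb
    have kM : g⁻¹ * g' ∈ Gamma0 M := by
      rw [Gamma0_mem, ZMod.intCast_zmod_eq_zero_iff_dvd]
      exact hM _ ka kb
    exact QuotientGroup.eq.mpr kM

include hM in
/-- A natural number `c` such that the embeddings are pairwise distinct on
`j(q^a) + c · j(q^b)`. -/
theorem ssm_f4_exists_c (z0 : ℍ) :
    ∃ c : ℕ, Function.Injective (fun x : Comb.Q M =>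
      ff_phi M z0 x (barGenF M a ha + (c : Fbar M) * barGenF M b hb)) := by
  have : CharZero (LaurentSeries ℂ) :=
    charZero_of_injective_ringHom (f := (HahnSeries.C : ℂ →+* LaurentSeries ℂ))
      HahnSeries.C_injective
  obtain ⟨c, hc⟩ := ssm_f4_exists_sep (ι := Comb.Q M)
    (fun x => ff_phi M z0 x (barGenF M a ha)) (fun x => ff_phi M z0 x (barGenF M b hb))
    (fun x y h1 h2 => ssm_f4_phi_pair_injective M a b ha hb hM z0 x y h1 h2)
  refine ⟨c, fun x y hxy => hc ?_⟩
  simpa only [map_add, map_mul, map_natCast] using hxy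

end Pair

/-! ### A primitive element: degree, independence, generation over `Q̄` -/

section Theta

variable (M : ℕ) [NeZero M] (θ : Fbar M)

theorem ssm_f4_isIntegral : IsIntegral Kbar⟮ff_jF M⟯ θ := by
  have := an_finiteDimensional M
  exact IsIntegral.of_finite _ _

variable {M θ} {z0 : ℍ} (hθ : Function.Injective (fun x : Comb.Q M => ff_phi M z0 x θ))

include hθ

/-- If the `ψ(M)` germ embeddings are pairwise distinct on `θ`, the degree of `θ` over `Q̄(j)` is
at least `ψ(M)`. -/
theorem ssm_f4_card_le_natDegree_minpoly :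
    Nat.card (Comb.Q M) ≤ (minpoly Kbar⟮ff_jF M⟯ θ).natDegree := by
  classical
  have hfin : Finite (Comb.Q M) := inferInstance
  have := Fintype.ofFinite (Comb.Q M)
  obtain ⟨x₀⟩ : Nonempty (Comb.Q M) := ⟨((1 : SL(2, ℤ)) : Comb.Q M)⟩
  set P := minpoly Kbar⟮ff_jF M⟯ θ with hP
  set ψ : Kbar⟮ff_jF M⟯ →+* LaurentSeries ℂ :=
    (ff_phi M z0 x₀ : Fbar M →+* LaurentSeries ℂ).comp (algebraMap Kbar⟮ff_jF M⟯ (Fbar M)) with hψ
  have hmonic : (P.map ψ).Monic := (minpoly.monic (ssm_f4_isIntegral M θ)).map ψ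
  have hroot : ∀ x : Comb.Q M, (P.map ψ).IsRoot (ff_phi M z0 x θ) := by
    intro x
    rw [IsRoot.def, eval_map]
    have h1 : ψ = (ff_phi M z0 x : Fbar M →+* LaurentSeries ℂ).comp
        (algebraMap Kbar⟮ff_jF M⟯ (Fbar M)) := by
      exact RingHom.ext fun e => bd_ff_phi_agree M z0 x₀ x e
    rw [h1]
    have h2 := hom_eval₂ P (algebraMap Kbar⟮ff_jF M⟯ (Fbar M))
      (ff_phi M z0 x : Fbar M →+* LaurentSeries ℂ) θ
    have h3 : eval₂ (algebraMap Kbar⟮ff_jF M⟯ (Fbar M)) θ P = 0 := by
      rw [← aeval_def, hP, minpoly.aeval]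
    rw [h3, map_zero] at h2
    exact h2.symm
  set Z : Finset (LaurentSeries ℂ) :=
    Finset.univ.image (fun x : Comb.Q M => ff_phi M z0 x θ) with hZ
  have hZcard : Z.card = Nat.card (Comb.Q M) := by
    rw [hZ, Finset.card_image_of_injective _ hθ, Finset.card_univ, Nat.card_eq_fintype_card]
  have hsub : Z.val ⊆ (P.map ψ).roots := by
    intro r hr
    rw [Finset.mem_val, hZ, Finset.mem_image] at hr
    obtain ⟨x, -, rfl⟩ := hr
    exact (mem_roots hmonic.ne_zero).mpr (hroot x)
  have h4 := card_le_degree_of_subset_roots hsub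
  rw [hZcard, (minpoly.monic (ssm_f4_isIntegral M θ)).natDegree_map ψ] at h4
  exact h4

/-- independence of `1, θ, …, θ^(n-1)` over `Q̄[j]`, inside the prelude field -/
theorem ssm_f4_polyIndep_Fbar :
    bd_PolyIndep Kbar (ff_jF M) θ (Nat.card (Comb.Q M)) := by
  have hx : Transcendental Kbar
      (algebraMap Kbar⟮ff_jF M⟯ (Fbar M) (IntermediateField.AdjoinSimple.gen Kbar (ff_jF M))) := by
    rw [IntermediateField.AdjoinSimple.algebraMap_gen]
    exact an_transcendental M
  have h1 := bd_polyIndep_of_le_natDegree_minpoly (K := Kbar) (F := Kbar⟮ff_jF M⟯) (E := Fbar M)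
    (IntermediateField.AdjoinSimple.gen Kbar (ff_jF M)) (y := θ) hx
    (ssm_f4_card_le_natDegree_minpoly hθ)
  rw [IntermediateField.AdjoinSimple.algebraMap_gen] at h1
  exact h1

/-- independence of `1, θ, …, θ^(n-1)` over `Q̄[j]`, inside `Q̄((q))` -/
theorem ssm_f4_polyIndep_bar :
    bd_PolyIndep Kbar (barGen 1) (bd_incl M θ) (Nat.card (Comb.Q M)) := by
  have h2 := bd_polyIndep_ringHom (bd_incl M) (bd_incl_algebraMap M) (bd_incl_injective M)
    (ssm_f4_polyIndep_Fbar hθ)
  rw [bd_incl_jF] at h2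
  exact h2

set_option synthInstance.maxHeartbeats 400000 in
theorem ssm_f4_natDegree_minpoly :
    (minpoly Kbar⟮ff_jF M⟯ θ).natDegree = Nat.card (Comb.Q M) := by
  refine le_antisymm ?_ (ssm_f4_card_le_natDegree_minpoly hθ)
  have := an_finiteDimensional M
  rw [← an_finrank M]
  exact minpoly.natDegree_le _

set_option synthInstance.maxHeartbeats 400000 in
/-- every element of the prelude field over `Q̄` is a polynomial of degree `< n` in `θ` with
coefficients in `Q̄(j)` -/
theorem ssm_f4_exists_poly (z : Fbar M) :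
    ∃ p : (Kbar⟮ff_jF M⟯)[X], p.natDegree < Nat.card (Comb.Q M) ∧ aeval θ p = z := by
  have hfd := an_finiteDimensional M
  have hint := ssm_f4_isIntegral M θ
  have htop : Kbar⟮ff_jF M⟯⟮θ⟯ = ⊤ := by
    refine IntermediateField.eq_of_le_of_finrank_le le_top ?_
    rw [IntermediateField.finrank_top', IntermediateField.adjoin.finrank hint,
      ssm_f4_natDegree_minpoly hθ, an_finrank]
  have hz : z ∈ Kbar⟮ff_jF M⟯⟮θ⟯ := by rw [htop]; exact IntermediateField.mem_top
  have hz' : z ∈ Algebra.adjoin Kbar⟮ff_jF M⟯ {θ} := by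
    rw [← IntermediateField.adjoin_simple_toSubalgebra_of_isAlgebraic hint.isAlgebraic]
    exact hz
  rw [Algebra.adjoin_singleton_eq_range_aeval] at hz'
  obtain ⟨p, hp⟩ := hz'
  have hmonic := minpoly.monic hint
  refine ⟨p %ₘ minpoly Kbar⟮ff_jF M⟯ θ, ?_, ?_⟩
  · rw [← ssm_f4_natDegree_minpoly hθ]
    refine natDegree_modByMonic_lt p hmonic ?_
    intro h1
    have h2 := ssm_f4_natDegree_minpoly hθ
    rw [h1, natDegree_one] at h2
    exact absurd h2.symm (bd_card_pos M).ne'
  · rw [aeval_modByMonic_eq_self_of_root (minpoly.aeval _ _)]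
    exact hp

/-- **descent**: if `θ` comes from the rational series `θq`, every `j(q^d)`, `d ∣ M`, lies in
`ℚ(j, θq)`. -/
theorem ssm_f4_mem_adjoin_rat (θq : LaurentSeries ℚ)
    (hθq : bd_incl M θ = coeffMap (algebraMap ℚ Kbar) θq) (d : ℕ) (hd : d ∣ M) [NeZero d] :
    qExpand ℚ d jq ∈ IntermediateField.adjoin ℚ {jq, θq} := by
  have hind : bd_PolyIndep ℚ jq θq (Nat.card (Comb.Q M)) := by
    refine bd_polyIndep_of_coeffMap (f := algebraMap ℚ Kbar) (RingHom.injective _) ?_
    rw [← bd_barGen_one_eq, ← hθq]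
    exact ssm_f4_polyIndep_bar hθ
  obtain ⟨p, hpdeg, hp⟩ := ssm_f4_exists_poly hθ (barGenF M d hd)
  obtain ⟨s, r, hs0, hsr⟩ := bd_exists_common_denom M
    (fun i : Fin (Nat.card (Comb.Q M)) => p.coeff i)
  have hrelF : aeval (ff_jF M) s * barGenF M d hd =
      ∑ i : Fin (Nat.card (Comb.Q M)), aeval (ff_jF M) (r i) * θ ^ (i : ℕ) := by
    rw [← hp, aeval_eq_sum_range' hpdeg, Finset.mul_sum,
      ← Fin.sum_univ_eq_sum_range
        (fun i => aeval (ff_jF M) s * (p.coeff i • θ ^ i)) (Nat.card (Comb.Q M))]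
    refine Finset.sum_congr rfl fun i _ => ?_
    rw [Algebra.smul_def, ← mul_assoc]
    congr 1
    exact hsr i
  have hrelL := congrArg (bd_incl M) hrelF
  rw [map_mul, map_sum, bd_map_aeval (bd_incl M) (bd_incl_algebraMap M), bd_incl_jF] at hrelL
  have hn := bd_card_pos M
  refine bd_mem_adjoin_of_rel (f := algebraMap ℚ Kbar) hind
    (fun i => if (i : ℕ) = 0 then s else 0) r ?_ ?_
  · intro h0
    have := congrFun h0 ⟨0, hn⟩
    simp only [if_pos, Pi.zero_apply] at this
    exact hs0 this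
  · rw [← bd_barGen_one_eq, ← bd_barGen_eq, ← hθq]
    have hsum : ∑ i : Fin (Nat.card (Comb.Q M)),
        aeval (barGen 1) (if (i : ℕ) = 0 then s else 0) * bd_incl M θ ^ (i : ℕ)
          = aeval (barGen 1) s := by
      rw [Finset.sum_eq_single (⟨0, hn⟩ : Fin (Nat.card (Comb.Q M)))]
      · simp
      · intro i _ hi
        have : (i : ℕ) ≠ 0 := fun h => hi (Fin.ext h)
        rw [if_neg this, map_zero, zero_mul]
      · intro h
        exact absurd (Finset.mem_univ _) h
    rw [hsum]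
    rw [show bd_incl M (barGenF M d hd) = barGen d from rfl] at hrelL
    rw [hrelL]
    refine Finset.sum_congr rfl fun i _ => ?_
    rw [map_mul, map_pow, bd_map_aeval (bd_incl M) (bd_incl_algebraMap M), bd_incl_jF]

end Theta

/-! ### Generation over `ℚ` and over every field of characteristic zero -/

section Generation

variable (M a b : ℕ) [NeZero M] [NeZero a] [NeZero b]

/-- **two-generator generation over `ℚ`**: if `a ∣ M`, `b ∣ M` and every integer divisible by `a`
and `b` is divisible by `M`, then `j(q^d) ∈ ℚ(j, j(q^a), j(q^b))` for all `d ∣ M`. -/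
theorem ssm_f4_gen_rat (ha : a ∣ M) (hb : b ∣ M)
    (hM : ∀ c : ℤ, (a : ℤ) ∣ c → (b : ℤ) ∣ c → (M : ℤ) ∣ c) (d : ℕ) (hd : d ∣ M) [NeZero d] :
    qExpand ℚ d jq ∈ IntermediateField.adjoin ℚ {jq, qExpand ℚ a jq, qExpand ℚ b jq} := by
  obtain ⟨c, hc⟩ := ssm_f4_exists_c M a b ha hb hM UpperHalfPlane.I
  set θq : LaurentSeries ℚ := qExpand ℚ a jq + (c : LaurentSeries ℚ) * qExpand ℚ b jq with hθq
  have hinc : bd_incl M (barGenF M a ha + (c : Fbar M) * barGenF M b hb) =
      coeffMap (algebraMap ℚ Kbar) θq := by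
    rw [hθq, map_add, map_mul, map_natCast, map_add, map_mul, map_natCast, ← bd_barGen_eq,
      ← bd_barGen_eq]
    rfl
  have h1 := ssm_f4_mem_adjoin_rat hc θq hinc d hd
  have hle : IntermediateField.adjoin ℚ {jq, θq} ≤
      IntermediateField.adjoin ℚ {jq, qExpand ℚ a jq, qExpand ℚ b jq} := by
    rw [IntermediateField.adjoin_le_iff]
    rintro x (rfl | rfl)
    · exact IntermediateField.subset_adjoin ℚ _ (Set.mem_insert _ _)
    · have ha' : qExpand ℚ a jq ∈
          IntermediateField.adjoin ℚ {jq, qExpand ℚ a jq, qExpand ℚ b jq} :=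
        IntermediateField.subset_adjoin ℚ _ (Set.mem_insert_of_mem _ (Set.mem_insert _ _))
      have hb' : qExpand ℚ b jq ∈
          IntermediateField.adjoin ℚ {jq, qExpand ℚ a jq, qExpand ℚ b jq} :=
        IntermediateField.subset_adjoin ℚ _
          (Set.mem_insert_of_mem _ (Set.mem_insert_of_mem _ rfl))
      exact add_mem ha' (mul_mem (natCast_mem _ c) hb')
  exact hle h1

/-- `coeffMap f` maps `k(S)` into `K(f(S))`. -/
theorem ssm_f4_coeffMap_mem_adjoin {k K : Type*} [Field k] [Field K] (f : k →+* K)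
    (S : Set (LaurentSeries k)) {x : LaurentSeries k} (hx : x ∈ IntermediateField.adjoin k S) :
    coeffMap f x ∈ IntermediateField.adjoin K (⇑(coeffMap f) '' S) := by
  induction hx using IntermediateField.adjoin_induction with
  | mem y hy => exact IntermediateField.subset_adjoin K _ ⟨y, hy, rfl⟩
  | algebraMap r =>
    rw [bd_coeffMap_algebraMap]
    exact (IntermediateField.adjoin K _).algebraMap_mem _
  | add x y _ _ hx hy => rw [map_add]; exact add_mem hx hy
  | inv x _ hx => rw [map_inv₀]; exact inv_mem hx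
  | mul x y _ _ hx hy => rw [map_mul]; exact mul_mem hx hy

variable (L : Type*) [Field L] [CharZero L]

/-- **[F4] (b), two-generator generation**: over a field `L` of characteristic zero,
`L(j(q^d) : d ∣ M) = L(j, j(q^a), j(q^b))` whenever `a ∣ M`, `b ∣ M` and `M = lcm(a, b)`. -/
theorem ssm_f4_gen (ha : a ∣ M) (hb : b ∣ M)
    (hM : ∀ c : ℤ, (a : ℤ) ∣ c → (b : ℤ) ∣ c → (M : ℤ) ∣ c) :
    modularFunctionFieldFullC L M =
      IntermediateField.adjoin L
        {jqModC L, qExpand L a (jqModC L), qExpand L b (jqModC L)} := by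
  apply le_antisymm
  · rw [modularFunctionFieldFullC, IntermediateField.adjoin_le_iff]
    rintro _ ⟨d, hdne, hd, rfl⟩
    have h1 := ssm_f4_gen_rat M a b ha hb hM d hd
    have h2 := ssm_f4_coeffMap_mem_adjoin (Rat.castHom L) _ h1
    have hj : coeffMap (Rat.castHom L) jq = jqModC L := by
      rw [← jqModC_rat, coeffMap_jqModC]
    have himg : ⇑(coeffMap (Rat.castHom L)) '' {jq, qExpand ℚ a jq, qExpand ℚ b jq} =
        {jqModC L, qExpand L a (jqModC L), qExpand L b (jqModC L)} := by
      rw [Set.image_insert_eq, Set.image_insert_eq, Set.image_singleton, coeffMap_qExpand,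
        coeffMap_qExpand, hj]
    rw [himg, coeffMap_qExpand, hj] at h2
    exact h2
  · rw [IntermediateField.adjoin_le_iff]
    rintro x (rfl | rfl | rfl)
    · exact jqModC_mem_full L M
    · exact jqModCd_mem_full L M ha
    · exact jqModCd_mem_full L M hb

/-- The `lcm` form. -/
theorem ssm_f4_gen_lcm :
    modularFunctionFieldFullC L (Nat.lcm a b) =
      IntermediateField.adjoin L
        {jqModC L, qExpand L a (jqModC L), qExpand L b (jqModC L)} := by
  have : NeZero (Nat.lcm a b) := ⟨Nat.lcm_ne_zero (NeZero.ne a) (NeZero.ne b)⟩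
  refine ssm_f4_gen (Nat.lcm a b) a b L (Nat.dvd_lcm_left a b) (Nat.dvd_lcm_right a b) ?_
  intro c hac hbc
  have h : ((Int.lcm (a : ℤ) (b : ℤ) : ℕ) : ℤ) ∣ c := Int.coe_lcm_dvd hac hbc
  rwa [Int.lcm_natCast_natCast] at h

end Generation

end Fermat.Agent.SS
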