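/-
Project SS (S34), cell [M] (model), leaf [AL], part (ii): DEGREES in the tower of level fields, over
EVERY field `L` of characteristic zero:

* `ssm_al_natDegree_minpoly` : `deg (minpoly_{L(j)} j(X^N)) = ψ(N)`,
* `ssm_al_relfinrank_j`      : `[F_N(L) : L(j)] = ψ(N)`  (`F_N(L) = lg_F L N`),
* `ssm_al_relfinrank`        : `[F_{M q}(L) : F_M(L)] = q + 1` for a prime `q ∤ M`.

Route: helper5's polynomial independence `bd_PolyIndep` (S28/Bridge/Indep.lean) of
`1, j_N, …, j_N^(ψ-1)` over `L[j]` is insensitive to the coefficient field (`bd_polyIndep_coeffMap`,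
`bd_polyIndep_of_coeffMap`), and over `Q̄` the degree is `ψ(N)` (S24 `an_finrank`); so the minimal
polynomial of `j_N` over `L(j)` has degree exactly `ψ(N)`; `F_N(L) = L(j, j_N)` (S28
`bd_functionFieldGeneration`); tower law.

Prefix `ssm_al_`.
-/
import Mathlib
import Fermat.Agent.S28.Bridge.Generation
import Fermat.Agent.S24.Comb.Index
import Fermat.Agent.SS.Model.F4Gen

set_option autoImplicit false
set_option linter.unusedSectionVars false
set_option linter.unusedVariables false

noncomputable section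

open ModularCurve Polynomial
open scoped IntermediateField
open Fermat.Agent.S24 Fermat.Agent.S24.Br Fermat.Agent.S28

namespace Fermat.Agent.SS

/-! ### polynomial independence versus the degree of the minimal polynomial -/

section Generic

variable {K E : Type*} [Field K] [Field E] [Algebra K E]

/-- an element of `K(x)` has a denominator in `K[x]` -/
theorem ssm_al_exists_denom (x : E) (c : K⟮x⟯) :
    ∃ r s : K[X], aeval x s ≠ 0 ∧ aeval x s * (c : E) = aeval x r := by
  obtain ⟨r, s, h⟩ := (IntermediateField.mem_adjoin_simple_iff K (c : E)).mp c.2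
  by_cases hs : aeval x s = 0
  · refine ⟨0, 1, by simp, ?_⟩
    rw [h, hs, div_zero, mul_zero, map_zero]
  · exact ⟨r, s, hs, by rw [h, mul_div_cancel₀ _ hs]⟩

/-- finitely many elements of `K(x)` have a common denominator in `K[x]` -/
theorem ssm_al_exists_common_denom (x : E) {n : ℕ} (c : Fin n → K⟮x⟯) :
    ∃ (s : K[X]) (r : Fin n → K[X]), aeval x s ≠ 0 ∧
      ∀ i, aeval x s * (c i : E) = aeval x (r i) := by
  classical
  choose r s hs h using fun i => ssm_al_exists_denom x (c i)
  refine ⟨∏ i, s i, fun i => r i * ∏ j ∈ Finset.univ.erase i, s j, ?_, fun i => ?_⟩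
  · rw [map_prod]
    exact Finset.prod_ne_zero_iff.mpr fun i _ => hs i
  · rw [← Finset.mul_prod_erase Finset.univ s (Finset.mem_univ i), map_mul, map_mul, ← h i]
    ring

/-- if `1, y, …, y^(n-1)` are linearly independent over `K[x]`, the degree of `y` over `K(x)` is at
least `n`. -/
theorem ssm_al_le_natDegree_of_polyIndep {x y : E} (hy : IsIntegral K⟮x⟯ y) {n : ℕ}
    (h : bd_PolyIndep K x y n) : n ≤ (minpoly K⟮x⟯ y).natDegree := by
  by_contra hlt
  rw [not_le] at hlt
  set P := minpoly K⟮x⟯ y with hP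
  obtain ⟨s, r, hs, hr⟩ := ssm_al_exists_common_denom x (fun i : Fin n => P.coeff i)
  have hsum : ∑ i : Fin n, aeval x (r i) * y ^ (i : ℕ) = 0 := by
    have h1 : aeval y P = 0 := minpoly.aeval _ _
    rw [aeval_eq_sum_range' hlt, ← Fin.sum_univ_eq_sum_range (fun i => P.coeff i • y ^ i) n] at h1
    have h2 : ∑ i : Fin n, aeval x (r i) * y ^ (i : ℕ) =
        aeval x s * ∑ i : Fin n, P.coeff (i : ℕ) • y ^ (i : ℕ) := by
      rw [Finset.mul_sum]
      refine Finset.sum_congr rfl fun i _ => ?_
      rw [← hr i, Algebra.smul_def, mul_assoc]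
      rfl
    rw [h2, h1, mul_zero]
  have hr0 := h r hsum
  have h3 := hr ⟨P.natDegree, hlt⟩
  have hmonic : P.coeff P.natDegree = 1 := (minpoly.monic hy).coeff_natDegree
  rw [hr0, Pi.zero_apply, map_zero] at h3
  simp only [hmonic, IntermediateField.coe_one, mul_one] at h3
  exact hs h3

/-- if `1, y, …, y^n` are linearly dependent over `K[x]` and `x` is transcendental, then `y` is
algebraic over `K(x)` of degree at most `n`. -/
theorem ssm_al_natDegree_le_of_not_polyIndep {x y : E} (hx : Transcendental K x) {n : ℕ}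
    (h : ¬ bd_PolyIndep K x y (n + 1)) :
    IsIntegral K⟮x⟯ y ∧ (minpoly K⟮x⟯ y).natDegree ≤ n := by
  classical
  simp only [bd_PolyIndep, not_forall] at h
  obtain ⟨a, ha, hne⟩ := h
  set c : Fin (n + 1) → K⟮x⟯ := fun i =>
    ⟨aeval x (a i), IntermediateField.algebra_adjoin_le_adjoin K {x}
      (aeval_mem_adjoin_singleton K x)⟩ with hc
  set p : (K⟮x⟯)[X] := ∑ i : Fin (n + 1), C (c i) * X ^ (i : ℕ) with hp
  have hpy : aeval y p = 0 := by
    rw [hp, map_sum, ← ha]
    refine Finset.sum_congr rfl fun i _ => ?_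
    rw [map_mul, aeval_C, map_pow, aeval_X]
    rfl
  have hpcoeff : ∀ i : Fin (n + 1), p.coeff i = c i := by
    intro i
    simp only [hp, finsetSum_coeff, coeff_C_mul, coeff_X_pow]
    rw [Finset.sum_eq_single i]
    · simp
    · intro j _ hji
      rw [if_neg (fun h => hji (Fin.ext h.symm)), mul_zero]
    · intro h
      exact absurd (Finset.mem_univ i) h
  have hp0 : p ≠ 0 := by
    intro h0
    apply hne
    funext i
    have h1 : c i = 0 := by rw [← hpcoeff i, h0, coeff_zero]
    have h2 : aeval x (a i) = 0 := congrArg Subtype.val h1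
    exact (transcendental_iff.mp hx) (a i) h2
  have hdeg : p.natDegree ≤ n := by
    rw [hp]
    refine natDegree_sum_le_of_forall_le _ _ fun i _ => ?_
    refine (natDegree_C_mul_X_pow_le _ _).trans ?_
    have := i.2
    omega
  have hint : IsIntegral K⟮x⟯ y := IsAlgebraic.isIntegral ⟨p, hp0, hpy⟩
  refine ⟨hint, ?_⟩
  exact (natDegree_le_natDegree (minpoly.degree_le_of_ne_zero K⟮x⟯ y hp0 hpy)).trans hdeg

/-- `bd_PolyIndep K x y 1` is the transcendence of `x`. -/
theorem ssm_al_transcendental_of_polyIndep {x y : E} {n : ℕ} (hn : 0 < n)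
    (h : bd_PolyIndep K x y n) : Transcendental K x := by
  rw [transcendental_iff]
  intro p hp
  have h1 := h (fun i => if (i : ℕ) = 0 then p else 0) ?_
  · have := congrFun h1 ⟨0, hn⟩
    simpa using this
  · rw [Finset.sum_eq_single (⟨0, hn⟩ : Fin n)]
    · simp [hp]
    · intro i _ hi
      have : (i : ℕ) ≠ 0 := fun h => hi (Fin.ext h)
      rw [if_neg this, map_zero, zero_mul]
    · intro h
      exact absurd (Finset.mem_univ _) h

end Generic

/-! ### the degree of `j(X^N)` over `L(j)` -/

section Degree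

variable (L : Type*) [Field L] [CharZero L] (N : ℕ) [NeZero N]

theorem ssm_al_coeffMap_jq : coeffMap (algebraMap ℚ L) jq = jqModC L := by
  rw [← jqModC_rat, coeffMap_jqModC]

theorem ssm_al_coeffMap_jqN :
    coeffMap (algebraMap ℚ L) (qExpand ℚ N jq) = qExpand L N (jqModC L) := by
  rw [coeffMap_qExpand, ssm_al_coeffMap_jq]

/-- `1, j_N, …, j_N^(ψ-1)` are independent over `L[j]`. -/
theorem ssm_al_polyIndep :
    bd_PolyIndep L (jqModC L) (qExpand L N (jqModC L)) (Nat.card (Comb.Q N)) := by
  have h := bd_polyIndep_coeffMap (algebraMap ℚ L) (bd_polyIndep_rat N)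
  rwa [ssm_al_coeffMap_jq, ssm_al_coeffMap_jqN] at h

/-- `1, j_N, …, j_N^ψ` are dependent over `L[j]`. -/
theorem ssm_al_not_polyIndep :
    ¬ bd_PolyIndep L (jqModC L) (qExpand L N (jqModC L)) (Nat.card (Comb.Q N) + 1) := by
  intro h
  have h1 : bd_PolyIndep ℚ jq (qExpand ℚ N jq) (Nat.card (Comb.Q N) + 1) := by
    refine bd_polyIndep_of_coeffMap (f := algebraMap ℚ L) (RingHom.injective _) ?_
    rwa [ssm_al_coeffMap_jq, ssm_al_coeffMap_jqN]
  have h2 : bd_PolyIndep Kbar (barGen 1) (barGen N) (Nat.card (Comb.Q N) + 1) := by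
    have := bd_polyIndep_coeffMap (algebraMap ℚ Kbar) h1
    rwa [← bd_barGen_one_eq, ← bd_barGen_eq] at this
  have h3 : bd_PolyIndep Kbar (ff_jF N) (bd_jNF N) (Nat.card (Comb.Q N) + 1) := by
    refine bd_polyIndep_of_ringHom (bd_incl N) (bd_incl_algebraMap N) ?_
    rw [bd_incl_jF, bd_incl_jNF]
    exact h2
  have h4 := ssm_al_le_natDegree_of_polyIndep (bd_isIntegral_jNF N) h3
  rw [bd_natDegree_minpoly] at h4
  omega

theorem ssm_al_transcendental_j : Transcendental L (jqModC L) :=
  ssm_al_transcendental_of_polyIndep (bd_card_pos 1) (ssm_al_polyIndep L 1)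

theorem ssm_al_isIntegral_jN : IsIntegral L⟮jqModC L⟯ (qExpand L N (jqModC L)) :=
  (ssm_al_natDegree_le_of_not_polyIndep (ssm_al_transcendental_j L)
    (ssm_al_not_polyIndep L N)).1

/-- **the degree of `j(X^N)` over `L(j)` is `ψ(N)`**, for every field `L` of characteristic `0`. -/
theorem ssm_al_natDegree_minpoly :
    (minpoly L⟮jqModC L⟯ (qExpand L N (jqModC L))).natDegree = Nat.card (Comb.Q N) :=
  le_antisymm
    (ssm_al_natDegree_le_of_not_polyIndep (ssm_al_transcendental_j L)
      (ssm_al_not_polyIndep L N)).2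
    (ssm_al_le_natDegree_of_polyIndep (ssm_al_isIntegral_jN L N) (ssm_al_polyIndep L N))

/-- `F_N(L) = L(j, j_N)`. -/
theorem ssm_al_F_eq_adjoin_pair :
    modularFunctionFieldFullC L N =
      IntermediateField.adjoin L {jqModC L, qExpand L N (jqModC L)} := by
  have h := ssm_f4_gen N N N L dvd_rfl dvd_rfl (fun c h _ => h)
  rw [h]
  congr 1
  ext x
  simp only [Set.mem_insert_iff, Set.mem_singleton_iff]
  tauto

theorem ssm_al_j_le : L⟮jqModC L⟯ ≤ modularFunctionFieldFullC L N :=
  IntermediateField.adjoin_simple_le_iff.mpr (jqModC_mem_full L N)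

/-- **`[F_N(L) : L(j)] = ψ(N)`** (index form). -/
theorem ssm_al_relfinrank_j_card :
    IntermediateField.relfinrank L⟮jqModC L⟯ (modularFunctionFieldFullC L N) =
      Nat.card (Comb.Q N) := by
  rw [IntermediateField.relfinrank_eq_finrank_of_le (ssm_al_j_le L N)]
  have h : IntermediateField.extendScalars (ssm_al_j_le L N) =
      (L⟮jqModC L⟯)⟮qExpand L N (jqModC L)⟯ := by
    apply IntermediateField.restrictScalars_injective L
    rw [IntermediateField.extendScalars_restrictScalars, IntermediateField.adjoin_adjoin_left,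
      ssm_al_F_eq_adjoin_pair]
    rfl
  rw [h, IntermediateField.adjoin.finrank (ssm_al_isIntegral_jN L N), ssm_al_natDegree_minpoly]

/-- **`[F_N(L) : L(j)] = ψ(N)`**. -/
theorem ssm_al_relfinrank_j :
    IntermediateField.relfinrank L⟮jqModC L⟯ (modularFunctionFieldFullC L N) =
      dedekindPsi N := by
  rw [ssm_al_relfinrank_j_card, Comb.card_quotient_Gamma0]

theorem ssm_al_dedekindPsi_pos : 0 < dedekindPsi N := by
  rw [← Comb.card_quotient_Gamma0]
  exact bd_card_pos N

end Degree

/-! ### the relative degree `[F_{M q} : F_M] = q + 1` -/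

section Tower

variable (L : Type*) [Field L] [CharZero L] (M q : ℕ) [NeZero M] [NeZero q]

theorem ssm_al_F_le : modularFunctionFieldFullC L M ≤ modularFunctionFieldFullC L (M * q) :=
  full_degeneracyC_le L (Dvd.intro _ rfl)

/-- **[AL] (ii)**: `[F_{M q}(L) : F_M(L)] = q + 1` for a prime `q ∤ M`, over every field of
characteristic zero. -/
theorem ssm_al_relfinrank (hq : q.Prime) (hqM : ¬ q ∣ M) :
    IntermediateField.relfinrank (modularFunctionFieldFullC L M)
      (modularFunctionFieldFullC L (M * q)) = q + 1 := by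
  have h1 := IntermediateField.relfinrank_mul_relfinrank (ssm_al_j_le L M) (ssm_al_F_le L M q)
  rw [ssm_al_relfinrank_j, ssm_al_relfinrank_j, mul_comm M q,
    Comb.dedekindPsi_prime_mul_of_not_dvd hq hqM, mul_comm (q + 1)] at h1
  rw [mul_comm M q]
  exact Nat.eq_of_mul_eq_mul_left (ssm_al_dedekindPsi_pos M) h1

/-- the level-`M` field as an intermediate field of `F_{M q}(L)/L` -/
abbrev ssm_al_sub : IntermediateField L (modularFunctionFieldFullC L (M * q)) :=
  (modularFunctionFieldFullC L M).comap (modularFunctionFieldFullC L (M * q)).val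

theorem ssm_al_mem_sub (x : modularFunctionFieldFullC L (M * q)) :
    x ∈ ssm_al_sub L M q ↔ (x : LaurentSeries L) ∈ modularFunctionFieldFullC L M := Iff.rfl

/-- **[AL] (ii)**, `finrank` form: `F_{M q}(L)` has dimension `q + 1` over its subfield `F_M(L)`. -/
theorem ssm_al_finrank_sub (hq : q.Prime) (hqM : ¬ q ∣ M) :
    Module.finrank (ssm_al_sub L M q) (modularFunctionFieldFullC L (M * q)) = q + 1 := by
  rw [ssm_al_sub, IntermediateField.finrank_comap, IntermediateField.fieldRange_val,
    ssm_al_relfinrank L M q hq hqM]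

theorem ssm_al_finiteDimensional_sub (hq : q.Prime) (hqM : ¬ q ∣ M) :
    FiniteDimensional (ssm_al_sub L M q) (modularFunctionFieldFullC L (M * q)) :=
  FiniteDimensional.of_finrank_pos (by rw [ssm_al_finrank_sub L M q hq hqM]; omega)

/-- `extendScalars` form -/
theorem ssm_al_finrank_extendScalars (hq : q.Prime) (hqM : ¬ q ∣ M) :
    Module.finrank (modularFunctionFieldFullC L M)
      (IntermediateField.extendScalars (ssm_al_F_le L M q)) = q + 1 := by
  rw [← IntermediateField.relfinrank_eq_finrank_of_le, ssm_al_relfinrank L M q hq hqM]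

theorem ssm_al_finiteDimensional_extendScalars (hq : q.Prime) (hqM : ¬ q ∣ M) :
    FiniteDimensional (modularFunctionFieldFullC L M)
      (IntermediateField.extendScalars (ssm_al_F_le L M q)) :=
  FiniteDimensional.of_finrank_pos (by rw [ssm_al_finrank_extendScalars L M q hq hqM]; omega)

end Tower

end Fermat.Agent.SS
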