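/-
Project SS (S34), cell [M] (model), leaf [F4], part (a): the Legendre field `L(λ)` is the level-`4`
function field.

`lg_K L = L(λ)` and `modularFunctionFieldFullC L 4 = L(j(q), j(q²), j(q⁴))` as subfields of `L((q))`,
for every field `L` with `2 ≠ 0`.  Purely algebraic, from the identities of
`JT3/Hauptmodul/Level{2,4}.lean`:
`j t₂² = (t₂ + 256)³`, `j(q²) t₂ = (t₂ + 16)³`, `t₄ (t₂ + 16) = t₂(q²) - 16 t₂`, `t₂ (t₄ + 16) = t₄²`,
`t₂(q²) = t₄ (t₄ + 16)`, `λ (t₄ + 16) = 16`.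

The only non-obvious step is `t₂ ∈ L(j, j(q²))`: with `w = 4096 / t₂` (the Fricke conjugate) one has
`j = w² + 48 w + 768 + t₂` and `j(q²) = t₂² + 48 t₂ + 768 + w`, whence the LINEAR system
`(j - 720) t₂ - 4095 w = j(q²) + 195840`, `-4095 t₂ + (j(q²) - 720) w = j + 195840` whose determinant
`(j - 720)(j(q²) - 720) - 4095²` has a pole of order `3`.

Prefix `ssm_f4_`.
-/
import Mathlib
import Fermat.Agent.JT3.Inst.Defs
import Fermat.Agent.S28.Formal.Subst
import Fermat.Prelude.Thm_ModularCurve_coeff_jqModC_neg_one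

set_option autoImplicit false

noncomputable section

open ModularCurve IntermediateField
open Fermat.Agent.S28 Fermat.Agent.JT3

namespace Fermat.Agent.SS

/-! ### Pure algebra -/

/-- Cramer's rule for the linear system satisfied by `t₂` and `4096 / t₂`. -/
theorem ssm_f4_t2_formula {Ω : Type*} [Field Ω] (j j2 t : Ω) (ht : t ≠ 0)
    (h1 : j * t ^ 2 = (t + 256) ^ 3) (h2 : j2 * t = (t + 16) ^ 3) :
    ((j - 720) * (j2 - 720) - 4095 ^ 2) * t =
      (j2 + 195840) * (j2 - 720) + 4095 * (j + 195840) := by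
  have hj : j = (t + 256) ^ 3 / t ^ 2 := by
    rw [eq_div_iff (pow_ne_zero 2 ht)]; exact h1
  have hj2 : j2 = (t + 16) ^ 3 / t := by
    rw [eq_div_iff ht]; exact h2
  rw [hj, hj2]
  field_simp
  ring

/-- Membership form: `t ∈ K(j, j2)` as soon as the determinant does not vanish. -/
theorem ssm_f4_t2_mem {k Ω : Type*} [Field k] [Field Ω] [Algebra k Ω]
    (K : IntermediateField k Ω) (j j2 t : Ω) (ht : t ≠ 0)
    (h1 : j * t ^ 2 = (t + 256) ^ 3) (h2 : j2 * t = (t + 16) ^ 3)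
    (hD : (j - 720) * (j2 - 720) - 4095 ^ 2 ≠ 0) (hj : j ∈ K) (hj2 : j2 ∈ K) : t ∈ K := by
  have h := ssm_f4_t2_formula j j2 t ht h1 h2
  have ht' : t = ((j2 + 195840) * (j2 - 720) + 4095 * (j + 195840)) /
      ((j - 720) * (j2 - 720) - 4095 ^ 2) := by
    rw [eq_div_iff hD, ← h]; ring
  rw [ht']
  have hn : ∀ n : ℕ, (n : Ω) ∈ K := fun n => _root_.natCast_mem K n
  have h720 : (720 : Ω) ∈ K := by exact_mod_cast hn 720
  have h4095 : (4095 : Ω) ∈ K := by exact_mod_cast hn 4095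
  have h195840 : (195840 : Ω) ∈ K := by exact_mod_cast hn 195840
  refine div_mem (add_mem (mul_mem (add_mem hj2 h195840) (sub_mem hj2 h720))
    (mul_mem h4095 (add_mem hj h195840))) ?_
  exact sub_mem (mul_mem (sub_mem hj h720) (sub_mem hj2 h720)) (pow_mem h4095 2)

/-! ### Orders -/

section Order

variable {L : Type*} [Field L]

theorem ssm_f4_coeff_natCast_of_ne (n : ℕ) {m : ℤ} (hm : m ≠ 0) :
    ((n : LaurentSeries L)).coeff m = 0 := by
  have : ((n : LaurentSeries L)) = HahnSeries.C (n : L) := by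
    rw [map_natCast]
  rw [this, HahnSeries.C_apply, HahnSeries.coeff_single_of_ne hm]

/-- Subtracting a constant from a series with a pole does not change the order. -/
theorem ssm_f4_order_sub_natCast {x : LaurentSeries L} (hx : x.order < 0) (n : ℕ) :
    (x - (n : LaurentSeries L)).order = x.order := by
  have hx0 : x ≠ 0 := by
    rintro rfl
    simp at hx
  refine fs_order_eq_of ?_ ?_
  · rw [HahnSeries.coeff_sub, ssm_f4_coeff_natCast_of_ne n hx.ne, sub_zero]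
    exact fun h => hx0 (HahnSeries.coeff_order_eq_zero.mp h)
  · intro m hm
    rw [HahnSeries.coeff_sub, ssm_f4_coeff_natCast_of_ne n (hm.trans hx).ne, sub_zero]
    exact HahnSeries.coeff_eq_zero_of_lt_order hm

/-- The determinant of the linear system does not vanish. -/
theorem ssm_f4_det_ne_zero {x y : LaurentSeries L} (hx : x.order < 0) (hy : y.order < 0) :
    (x - 720) * (y - 720) - 4095 ^ 2 ≠ 0 := by
  intro h
  have hx' := ssm_f4_order_sub_natCast hx 720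
  have hy' := ssm_f4_order_sub_natCast hy 720
  have hx0 : x - ((720 : ℕ) : LaurentSeries L) ≠ 0 := by
    intro h0
    rw [h0] at hx'
    simp at hx'
    omega
  have hy0 : y - ((720 : ℕ) : LaurentSeries L) ≠ 0 := by
    intro h0
    rw [h0] at hy'
    simp at hy'
    omega
  have hmul := HahnSeries.order_mul hx0 hy0
  have hc : (x - ((720 : ℕ) : LaurentSeries L)) * (y - ((720 : ℕ) : LaurentSeries L)) =
      HahnSeries.C ((4095 : L) ^ 2) := by
    rw [map_pow, map_ofNat]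
    push_cast
    linear_combination h
  rw [hc, HahnSeries.order_C, hx', hy'] at hmul
  omega

end Order

/-! ### The level-four field -/

section Level4

variable (L : Type*) [Field L]

theorem ssm_f4_j_mem : jqModC L ∈ modularFunctionFieldFullC L 4 := jqModC_mem_full L 4

theorem ssm_f4_j2_mem : qExpand L 2 (jqModC L) ∈ modularFunctionFieldFullC L 4 :=
  jqModCd_mem_full L 4 (by norm_num)

theorem ssm_f4_j4_mem : qExpand L 4 (jqModC L) ∈ modularFunctionFieldFullC L 4 :=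
  jqModCd_mem_full L 4 dvd_rfl

theorem ssm_f4_t2_ne_zero : hm_t2 L ≠ 0 := (hm_isUnit_t2 L).ne_zero

theorem ssm_f4_t2two_ne_zero : hm_t2two L ≠ 0 := by
  rw [hm_t2two]
  exact ((hm_isUnit_t2 L).map (qExpand L 2)).ne_zero

theorem ssm_f4_order_j : (jqModC L).order = -1 :=
  fs_order_eq_of (by rw [coeff_jqModC_neg_one]; exact one_ne_zero)
    (fun _ hn => coeff_jqModC_of_lt L hn)

theorem ssm_f4_order_j2 : (qExpand L 2 (jqModC L)).order = -2 := by
  rw [fs_qExpand_order, ssm_f4_order_j]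
  norm_num

theorem ssm_f4_order_j4 : (qExpand L 4 (jqModC L)).order = -4 := by
  rw [fs_qExpand_order, ssm_f4_order_j]
  norm_num

/-- `j(q⁴) t₂(q²) = (t₂(q²) + 16)³`. -/
theorem ssm_f4_t2two_id2 :
    qExpand L 4 (jqModC L) * hm_t2two L = (hm_t2two L + 16) ^ 3 := by
  have h := congrArg (qExpand L 2) (hm_t2_id2 L)
  rw [map_mul, map_pow, map_add, map_ofNat, qExpand_qExpand] at h
  exact h

/-- `t₂ ∈ L(j, j(q²))`. -/
theorem ssm_f4_t2_mem_F4 : hm_t2 L ∈ modularFunctionFieldFullC L 4 :=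
  ssm_f4_t2_mem _ _ _ _ (ssm_f4_t2_ne_zero L) (hm_t2_id1 L) (hm_t2_id2 L)
    (ssm_f4_det_ne_zero (by rw [ssm_f4_order_j]; norm_num) (by rw [ssm_f4_order_j2]; norm_num))
    (ssm_f4_j_mem L) (ssm_f4_j2_mem L)

/-- `t₂(q²) ∈ L(j(q²), j(q⁴))`. -/
theorem ssm_f4_t2two_mem_F4 : hm_t2two L ∈ modularFunctionFieldFullC L 4 :=
  ssm_f4_t2_mem _ _ _ _ (ssm_f4_t2two_ne_zero L) (hm_t2two_id1 L) (ssm_f4_t2two_id2 L)
    (ssm_f4_det_ne_zero (by rw [ssm_f4_order_j2]; norm_num) (by rw [ssm_f4_order_j4]; norm_num))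
    (ssm_f4_j2_mem L) (ssm_f4_j4_mem L)

theorem ssm_f4_t4_mem_F4 : hm_t4 L ∈ modularFunctionFieldFullC L 4 := by
  have h := hm_t4_mul L
  have hu : hm_t2 L + 16 ≠ 0 := (hm_isUnit_a_add L).ne_zero
  have ht : hm_t4 L = (hm_t2two L - 16 * hm_t2 L) / (hm_t2 L + 16) := by
    rw [eq_div_iff hu]; exact h
  rw [ht]
  have h16 : (16 : LaurentSeries L) ∈ modularFunctionFieldFullC L 4 := by
    exact_mod_cast _root_.natCast_mem (modularFunctionFieldFullC L 4) 16
  exact div_mem (sub_mem (ssm_f4_t2two_mem_F4 L) (mul_mem h16 (ssm_f4_t2_mem_F4 L)))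
    (add_mem (ssm_f4_t2_mem_F4 L) h16)

/-- `λ ∈ L(j, j(q²), j(q⁴))`. -/
theorem ssm_f4_lam_mem_F4 : lg_lam L ∈ modularFunctionFieldFullC L 4 := by
  have h := hm_lam_mul L
  have hu : hm_t4 L + 16 ≠ 0 := (hm_isUnit_t4_add L).ne_zero
  have ht : lg_lam L = 16 / (hm_t4 L + 16) := by
    rw [eq_div_iff hu]; exact h
  rw [ht]
  have h16 : (16 : LaurentSeries L) ∈ modularFunctionFieldFullC L 4 := by
    exact_mod_cast _root_.natCast_mem (modularFunctionFieldFullC L 4) 16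
  exact div_mem h16 (add_mem (ssm_f4_t4_mem_F4 L) h16)

theorem ssm_f4_K_le : lg_K L ≤ modularFunctionFieldFullC L 4 := by
  rw [lg_K, IntermediateField.adjoin_simple_le_iff]
  exact ssm_f4_lam_mem_F4 L

variable {L}

theorem ssm_f4_sixteen_ne_zero (h2 : (2 : L) ≠ 0) : (16 : LaurentSeries L) ≠ 0 := by
  have h : (16 : LaurentSeries L) = HahnSeries.C ((2 : L) ^ 4) := by
    rw [map_pow, map_ofNat]; norm_num
  rw [h]
  intro h0
  have := HahnSeries.C_injective (h0.trans (map_zero _).symm)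
  exact pow_ne_zero 4 h2 this

theorem ssm_f4_lam_ne_zero (h2 : (2 : L) ≠ 0) : lg_lam L ≠ 0 := by
  intro h0
  have h := hm_lam_mul L
  rw [show hm_lam L = lg_lam L from rfl, h0, zero_mul] at h
  exact ssm_f4_sixteen_ne_zero h2 h.symm

theorem ssm_f4_t4_mem_K (h2 : (2 : L) ≠ 0) : hm_t4 L ∈ lg_K L := by
  have h := hm_lam_mul L
  have hl := ssm_f4_lam_ne_zero h2
  have ht : hm_t4 L = 16 / lg_lam L - 16 := by
    rw [eq_sub_iff_add_eq, eq_div_iff hl, mul_comm]; exact h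
  rw [ht]
  have h16 : (16 : LaurentSeries L) ∈ lg_K L := by
    exact_mod_cast _root_.natCast_mem (lg_K L) 16
  exact sub_mem (div_mem h16 (lg_lam_mem_K L)) h16

theorem ssm_f4_t2_mem_K (h2 : (2 : L) ≠ 0) : hm_t2 L ∈ lg_K L := by
  have h := hm_t4_id_a L
  have hu : hm_t4 L + 16 ≠ 0 := (hm_isUnit_t4_add L).ne_zero
  have ht : hm_t2 L = hm_t4 L ^ 2 / (hm_t4 L + 16) := by
    rw [eq_div_iff hu]; exact h
  rw [ht]
  have h16 : (16 : LaurentSeries L) ∈ lg_K L := by
    exact_mod_cast _root_.natCast_mem (lg_K L) 16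
  exact div_mem (pow_mem (ssm_f4_t4_mem_K h2) 2) (add_mem (ssm_f4_t4_mem_K h2) h16)

theorem ssm_f4_t2two_mem_K (h2 : (2 : L) ≠ 0) : hm_t2two L ∈ lg_K L := by
  rw [hm_t4_id_b]
  have h16 : (16 : LaurentSeries L) ∈ lg_K L := by
    exact_mod_cast _root_.natCast_mem (lg_K L) 16
  exact mul_mem (ssm_f4_t4_mem_K h2) (add_mem (ssm_f4_t4_mem_K h2) h16)

theorem ssm_f4_j_mem_K (h2 : (2 : L) ≠ 0) : jqModC L ∈ lg_K L := by
  have h := hm_t2_id1 L
  have ht0 := pow_ne_zero 2 (ssm_f4_t2_ne_zero L)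
  have hj : jqModC L = (hm_t2 L + 256) ^ 3 / hm_t2 L ^ 2 := by
    rw [eq_div_iff ht0]; exact h
  rw [hj]
  have h256 : (256 : LaurentSeries L) ∈ lg_K L := by
    exact_mod_cast _root_.natCast_mem (lg_K L) 256
  exact div_mem (pow_mem (add_mem (ssm_f4_t2_mem_K h2) h256) 3) (pow_mem (ssm_f4_t2_mem_K h2) 2)

theorem ssm_f4_j2_mem_K (h2 : (2 : L) ≠ 0) : qExpand L 2 (jqModC L) ∈ lg_K L := by
  have h := hm_t2_id2 L
  have ht0 := ssm_f4_t2_ne_zero L
  have hj : qExpand L 2 (jqModC L) = (hm_t2 L + 16) ^ 3 / hm_t2 L := by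
    rw [eq_div_iff ht0]; exact h
  rw [hj]
  have h16 : (16 : LaurentSeries L) ∈ lg_K L := by
    exact_mod_cast _root_.natCast_mem (lg_K L) 16
  exact div_mem (pow_mem (add_mem (ssm_f4_t2_mem_K h2) h16) 3) (ssm_f4_t2_mem_K h2)

theorem ssm_f4_j4_mem_K (h2 : (2 : L) ≠ 0) : qExpand L 4 (jqModC L) ∈ lg_K L := by
  have h := ssm_f4_t2two_id2 L
  have ht0 := ssm_f4_t2two_ne_zero L
  have hj : qExpand L 4 (jqModC L) = (hm_t2two L + 16) ^ 3 / hm_t2two L := by
    rw [eq_div_iff ht0]; exact h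
  rw [hj]
  have h16 : (16 : LaurentSeries L) ∈ lg_K L := by
    exact_mod_cast _root_.natCast_mem (lg_K L) 16
  exact div_mem (pow_mem (add_mem (ssm_f4_t2two_mem_K h2) h16) 3) (ssm_f4_t2two_mem_K h2)

theorem ssm_f4_le_K (h2 : (2 : L) ≠ 0) : modularFunctionFieldFullC L 4 ≤ lg_K L := by
  rw [modularFunctionFieldFullC, IntermediateField.adjoin_le_iff]
  rintro _ ⟨d, hd, hd4, rfl⟩
  have hle : d ≤ 4 := Nat.le_of_dvd (by norm_num) hd4
  have hpos : 0 < d := Nat.pos_of_ne_zero (NeZero.ne d)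
  interval_cases d
  · rw [SetLike.mem_coe, qExpand_one_apply]
    exact ssm_f4_j_mem_K h2
  · exact ssm_f4_j2_mem_K h2
  · exact absurd hd4 (by norm_num)
  · exact ssm_f4_j4_mem_K h2

/-- **[F4] (a)**: the Legendre field `L(λ)` is the level-four function field
`L(j(q), j(q²), j(q⁴))`. -/
theorem ssm_f4_K (h2 : (2 : L) ≠ 0) : lg_K L = modularFunctionFieldFullC L 4 :=
  le_antisymm (ssm_f4_K_le L) (ssm_f4_le_K h2)

end Level4

end Fermat.Agent.SS
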