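/-
Project SS (S34), cell [M] (model), leaf [AL], parts (ii β-side) and (iv): compatibility of the
Atkin–Lehner involutions `ssm_al_W` at different levels, the degree over the second degeneracy image,
and the TRANSPORT TO THE RIGIDIFIED LEGENDRE FIELD `lg_E L (N' q) = F_{lcm(4, 2N') q}(L)` (`q` an odd
prime, `q ∤ N'`, `L ⊆ Q̄` of characteristic zero):

* `ssm_al_W_compat`        : `W_{M'} | F_{M q} = W_M` for `M ∣ M'`;
* `ssm_al_relfinrank_beta` : `[F_{M q} : β_q F_M] = q + 1`;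
* `ssm_al_WE`              : the involution `W` of `E = lg_E L (N' q)` with `W x = x(X^q)` and
  `W (x(X^q)) = x` for `x ∈ E' = lg_E L N'` (in particular `W λ = λ(X^q)`), `W ∘ W = id`,
  compatibility with `coeffMap σ`, with `φ = (X ↦ X²)` and with the `W` of the subfields
  `F_{4q}, F_{2q}, F_q`;
* `ssm_al_relfinrank_E`    : `[E : E'] = q + 1 = [E : β_q E']`;
* the genus-zero bases `F_4 = L(t₄)`, `F_2 = L(t₂)`, `F_1 = L(j)` with
  `[F_{M q} : L(t)] = q + 1` in `finrank L⟮t⟯ K1` form.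

Prefix `ssm_al_`.
-/
import Mathlib
import Fermat.Agent.SS.Model.AL
import Fermat.Agent.SS.Model.ALDeg
import Fermat.Agent.SS.Model.F4K

set_option autoImplicit false
set_option linter.unusedSectionVars false
set_option linter.unusedVariables false

noncomputable section

open ModularCurve IntermediateField
open Fermat.Agent.JT3 Fermat.Agent.S24 Fermat.Agent.S28

namespace Fermat.Agent.SS

/-! ### compatibility between levels -/

section Compat

variable (L : Type*) [Field L] [CharZero L] [Algebra L (AlgebraicClosure ℚ)]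
  (M M' q : ℕ) [NeZero M] [NeZero M'] [NeZero q] (hq : q.Prime) (hqM : ¬ q ∣ M)
  (hqM' : ¬ q ∣ M')

theorem ssm_al_F_mono (h : M ∣ M') : lg_F L (M * q) ≤ lg_F L (M' * q) :=
  full_degeneracyC_le L (mul_dvd_mul_right h q)

/-- `W_{M'}` restricted to `F_{M q}` is `W_M` (`M ∣ M'`). -/
theorem ssm_al_W_compat (h : M ∣ M') (x : lg_F L (M * q)) :
    ((ssm_al_W L M' q hq hqM' ⟨x, ssm_al_F_mono L M M' q h x.2⟩ : lg_F L (M' * q)) :
        LaurentSeries L) =
      ((ssm_al_W L M q hq hqM x : lg_F L (M * q)) : LaurentSeries L) := by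
  have hMM' : lg_F L M ≤ lg_F L M' := full_degeneracyC_le L h
  have key : ((lg_F L (M' * q)).val.comp
        ((ssm_al_W L M' q hq hqM' : lg_F L (M' * q) →ₐ[L] lg_F L (M' * q)).comp
          (IntermediateField.inclusion (ssm_al_F_mono L M M' q h)))) =
      (lg_F L (M * q)).val.comp
        (ssm_al_W L M q hq hqM : lg_F L (M * q) →ₐ[L] lg_F L (M * q)) := by
    refine IntermediateField.algHom_ext_of_eq_adjoin L (S := lg_F L (M * q))
      (s := divisorExpansionsC L (M * q)) rfl ?_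
    rintro _ ⟨d, hd, hdN, rfl⟩
    have := hd
    rcases nls_dvd_cases hq hqM hdN with hdM | ⟨e, rfl, heM⟩
    · have hm : qExpand L d (jqModC L) ∈ lg_F L M := jqModCd_mem_full L M hdM
      have h1 := ssm_al_coe_W_of_mem L M q hq hqM hm (jqModCd_mem_full L (M * q) hdN)
      have h2 := ssm_al_coe_W_of_mem L M' q hq hqM' (hMM' hm)
        (ssm_al_F_mono L M M' q h (jqModCd_mem_full L (M * q) hdN))
      exact h2.trans h1.symm
    · have he0 : NeZero e := ⟨fun h0 => by subst h0; exact NeZero.ne (q * 0) (by simp)⟩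
      have hm : qExpand L e (jqModC L) ∈ lg_F L M := jqModCd_mem_full L M heM
      have e1 : qExpand L (q * e) (jqModC L) = qExpand L q (qExpand L e (jqModC L)) := by
        rw [qExpand_qExpand]
      have hmem : qExpand L q (qExpand L e (jqModC L)) ∈ lg_F L (M * q) :=
        ssm_al_expand_mem L M q hm
      have h1 := ssm_al_coe_W_expand_of_mem L M q hq hqM hm hmem
      have h2 := ssm_al_coe_W_expand_of_mem L M' q hq hqM' (hMM' hm)
        (ssm_al_F_mono L M M' q h hmem)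
      have e2 : (⟨qExpand L (q * e) (jqModC L), jqModCd_mem_full L (M * q) hdN⟩ :
          lg_F L (M * q)) = ⟨qExpand L q (qExpand L e (jqModC L)), hmem⟩ := Subtype.ext e1
      change ((ssm_al_W L M' q hq hqM' (IntermediateField.inclusion (ssm_al_F_mono L M M' q h)
          ⟨qExpand L (q * e) (jqModC L), jqModCd_mem_full L (M * q) hdN⟩) :
            lg_F L (M' * q)) : LaurentSeries L) =
        ((ssm_al_W L M q hq hqM
          ⟨qExpand L (q * e) (jqModC L), jqModCd_mem_full L (M * q) hdN⟩ : lg_F L (M * q)) :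
            LaurentSeries L)
      rw [e2]
      exact h2.trans h1.symm
  exact DFunLike.congr_fun key x

end Compat

/-! ### the degree over the second degeneracy image -/

section Beta

variable (L : Type*) [Field L] [CharZero L] [Algebra L (AlgebraicClosure ℚ)]
  (M q : ℕ) [NeZero M] [NeZero q] (hq : q.Prime) (hqM : ¬ q ∣ M)

/-- for an automorphism `σ` of `K1/L`, `[K1 : σ(A)] = [K1 : A]`. -/
theorem ssm_al_finrank_map_equiv {K1 : Type*} [Field K1] [Algebra L K1] (σ : K1 ≃ₐ[L] K1)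
    (A : IntermediateField L K1) :
    Module.finrank (A.map (σ : K1 →ₐ[L] K1)) K1 = Module.finrank A K1 := by
  have h := IntermediateField.relfinrank_map_map A ⊤ (σ : K1 →ₐ[L] K1)
  have htop : (⊤ : IntermediateField L K1).map (σ : K1 →ₐ[L] K1) = ⊤ := by
    rw [← AlgHom.fieldRange_eq_map, AlgHom.fieldRange_eq_top]
    exact σ.surjective
  rw [htop, IntermediateField.relfinrank_top_right, IntermediateField.relfinrank_top_right] at h
  exact h

/-- the second degeneracy image `β_q (F_M)` as an intermediate field of `F_{M q}(L)/L` -/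
abbrev ssm_al_subBeta : IntermediateField L (lg_F L (M * q)) :=
  ((lg_F L M).map (qExpandAlgHomC L q)).comap (lg_F L (M * q)).val

theorem ssm_al_mem_subBeta (x : lg_F L (M * q)) :
    x ∈ ssm_al_subBeta L M q ↔
      (x : LaurentSeries L) ∈ (lg_F L M).map (qExpandAlgHomC L q) := Iff.rfl

/-- `W (F_M) = β_q (F_M)`. -/
theorem ssm_al_map_W_sub :
    (ssm_al_sub L M q).map (ssm_al_W L M q hq hqM : lg_F L (M * q) →ₐ[L] lg_F L (M * q)) =
      ssm_al_subBeta L M q := by
  ext x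
  constructor
  · rintro ⟨y, hy, rfl⟩
    have hy' : (y : LaurentSeries L) ∈ lg_F L M := hy
    refine ⟨(y : LaurentSeries L), hy', ?_⟩
    exact (ssm_al_coe_W_of_mem L M q hq hqM hy' y.2).symm
  · rintro ⟨y0, hy0, hxy⟩
    refine ⟨⟨y0, ssm_al_mem_of_mem L M q hy0⟩, hy0, ?_⟩
    apply Subtype.ext
    have := ssm_al_coe_W_of_mem L M q hq hqM hy0 (ssm_al_mem_of_mem L M q hy0)
    exact this.trans hxy

include hq hqM in
/-- **[AL] (ii), β-side**, `finrank` form: `[F_{M q} : β_q F_M] = q + 1`. -/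
theorem ssm_al_finrank_subBeta :
    Module.finrank (ssm_al_subBeta L M q) (lg_F L (M * q)) = q + 1 := by
  rw [← ssm_al_map_W_sub L M q hq hqM, ssm_al_finrank_map_equiv]
  exact ssm_al_finrank_sub L M q hq hqM

include hq hqM in
theorem ssm_al_finiteDimensional_subBeta :
    FiniteDimensional (ssm_al_subBeta L M q) (lg_F L (M * q)) :=
  FiniteDimensional.of_finrank_pos (by rw [ssm_al_finrank_subBeta L M q hq hqM]; omega)

include hq hqM in
/-- **[AL] (ii), β-side**: `[F_{M q} : β_q F_M] = q + 1`. -/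
theorem ssm_al_relfinrank_beta :
    IntermediateField.relfinrank ((lg_F L M).map (qExpandAlgHomC L q)) (lg_F L (M * q)) =
      q + 1 := by
  have h := IntermediateField.finrank_comap ((lg_F L M).map (qExpandAlgHomC L q))
    (lg_F L (M * q)).val
  rw [IntermediateField.fieldRange_val] at h
  rw [← h]
  exact ssm_al_finrank_subBeta L M q hq hqM

end Beta

/-! ### the rigidified Legendre tower: levels and degrees (every field of characteristic zero) -/

section ELevel

variable (L : Type*) [Field L] [CharZero L] (N' q : ℕ) [NeZero N'] [NeZero q]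

omit [NeZero N'] [NeZero q] in
/-- an odd prime `q ∤ N'` does not divide `lcm(4, 2N')`. -/
theorem ssm_al_not_dvd_level (hq : q.Prime) (hq2 : ¬ 2 ∣ q) (hqN' : ¬ q ∣ N') :
    ¬ q ∣ ssm_f4_level N' := by
  intro h
  rw [ssm_f4_level] at h
  have hq2' : ¬ q ∣ 2 := fun h2 =>
    hq2 (by rw [(Nat.prime_dvd_prime_iff_eq hq Nat.prime_two).1 h2])
  have h1 : q ∣ 4 * (2 * N') := h.trans (Nat.lcm_dvd_mul 4 (2 * N'))
  rcases (Nat.Prime.dvd_mul hq).1 h1 with h4 | h2
  · have h4' : q ∣ 2 ^ 2 := by norm_num; exact h4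
    exact hq2' (hq.dvd_of_dvd_pow h4')
  · rcases (Nat.Prime.dvd_mul hq).1 h2 with h2 | hN
    · exact hq2' h2
    · exact hqN' hN

/-- `lg_E L (N' q) = F_{lcm(4, 2N') q}(L)` for odd `q`. -/
theorem ssm_al_E_eq (hq2 : ¬ 2 ∣ q) :
    lg_E L (N' * q) = modularFunctionFieldFullC L (ssm_f4_level N' * q) := by
  rw [ssm_f4 L (N' * q)]
  congr 1
  exact ssm_f4_level_mul N' q hq2

theorem ssm_al_E_le : lg_E L N' ≤ lg_E L (N' * q) := ssm_f4_E_mono L (N' * q) (Dvd.intro _ rfl)

theorem ssm_al_E_beta_le (hq2 : ¬ 2 ∣ q) :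
    (lg_E L N').map (qExpandAlgHomC L q) ≤ lg_E L (N' * q) :=
  ssm_f4_E_map_le L (N' * q) dvd_rfl hq2

/-- **[AL] (iv)**: `[lg_E L (N' q) : lg_E L N'] = q + 1` for an odd prime `q ∤ N'`. -/
theorem ssm_al_relfinrank_E (hq : q.Prime) (hq2 : ¬ 2 ∣ q) (hqN' : ¬ q ∣ N') :
    IntermediateField.relfinrank (lg_E L N') (lg_E L (N' * q)) = q + 1 := by
  rw [ssm_al_E_eq L N' q hq2, ssm_f4 L N']
  exact ssm_al_relfinrank L (ssm_f4_level N') q hq (ssm_al_not_dvd_level N' q hq hq2 hqN')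

/-- `lg_E L N'` as an intermediate field of `lg_E L (N' q) / L` -/
abbrev ssm_al_subE : IntermediateField L (lg_E L (N' * q)) :=
  (lg_E L N').comap (lg_E L (N' * q)).val

theorem ssm_al_mem_subE (x : lg_E L (N' * q)) :
    x ∈ ssm_al_subE L N' q ↔ (x : LaurentSeries L) ∈ lg_E L N' := Iff.rfl

theorem ssm_al_finrank_subE (hq : q.Prime) (hq2 : ¬ 2 ∣ q) (hqN' : ¬ q ∣ N') :
    Module.finrank (ssm_al_subE L N' q) (lg_E L (N' * q)) = q + 1 := by
  rw [ssm_al_subE, IntermediateField.finrank_comap, IntermediateField.fieldRange_val,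
    ssm_al_relfinrank_E L N' q hq hq2 hqN']

theorem ssm_al_finiteDimensional_subE (hq : q.Prime) (hq2 : ¬ 2 ∣ q) (hqN' : ¬ q ∣ N') :
    FiniteDimensional (ssm_al_subE L N' q) (lg_E L (N' * q)) :=
  FiniteDimensional.of_finrank_pos (by rw [ssm_al_finrank_subE L N' q hq hq2 hqN']; omega)

end ELevel

/-! ### the Atkin–Lehner involution of the rigidified Legendre field -/

section Transport

variable {F E : Type*} [Field F] [Field E] [Algebra F E] {S T : IntermediateField F E}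

/-- transport of an automorphism along an equality of intermediate fields -/
def ssm_al_transport (h : S = T) (e : T ≃ₐ[F] T) : S ≃ₐ[F] S :=
  (IntermediateField.equivOfEq h).trans (e.trans (IntermediateField.equivOfEq h).symm)

theorem ssm_al_coe_transport (h : S = T) (e : T ≃ₐ[F] T) (x : E) (hx : x ∈ S) (hx' : x ∈ T) :
    ((ssm_al_transport h e ⟨x, hx⟩ : S) : E) = ((e ⟨x, hx'⟩ : T) : E) := by
  subst h
  rfl

end Transport

section ETransport

variable (L : Type*) [Field L] [CharZero L] [Algebra L (AlgebraicClosure ℚ)]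
  (N' q : ℕ) [NeZero N'] [NeZero q] (hq : q.Prime) (hq2 : ¬ 2 ∣ q) (hqN' : ¬ q ∣ N')

/-- **[AL] (iv)**: the Atkin–Lehner involution `W_q` of `E = lg_E L (N' q)`, `q ∤ N'` an odd
prime. -/
def ssm_al_WE : lg_E L (N' * q) ≃ₐ[L] lg_E L (N' * q) :=
  ssm_al_transport (ssm_al_E_eq L N' q hq2)
    (ssm_al_W L (ssm_f4_level N') q hq (ssm_al_not_dvd_level N' q hq hq2 hqN'))

include hq2 in
theorem ssm_al_mem_F_of_mem_E {x : LaurentSeries L} (h : x ∈ lg_E L (N' * q)) :
    x ∈ lg_F L (ssm_f4_level N' * q) := by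
  have e := ssm_al_E_eq L N' q hq2
  rw [e] at h
  exact h

theorem ssm_al_coe_WE (x : LaurentSeries L) (h : x ∈ lg_E L (N' * q)) :
    ((ssm_al_WE L N' q hq hq2 hqN' ⟨x, h⟩ : lg_E L (N' * q)) : LaurentSeries L) =
      ((ssm_al_W L (ssm_f4_level N') q hq (ssm_al_not_dvd_level N' q hq hq2 hqN')
        ⟨x, ssm_al_mem_F_of_mem_E L N' q hq2 h⟩ : lg_F L (ssm_f4_level N' * q)) :
          LaurentSeries L) :=
  ssm_al_coe_transport (ssm_al_E_eq L N' q hq2) _ x h _

/-- `W ∘ W = id`. -/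
theorem ssm_al_WE_WE (x : lg_E L (N' * q)) :
    ssm_al_WE L N' q hq hq2 hqN' (ssm_al_WE L N' q hq hq2 hqN' x) = x := by
  apply Subtype.ext
  rw [ssm_al_coe_WE]
  have e : (⟨((ssm_al_WE L N' q hq hq2 hqN' x : lg_E L (N' * q)) : LaurentSeries L),
      ssm_al_mem_F_of_mem_E L N' q hq2 (Subtype.mem _)⟩ : lg_F L (ssm_f4_level N' * q)) =
      ssm_al_W L (ssm_f4_level N') q hq (ssm_al_not_dvd_level N' q hq hq2 hqN')
        ⟨x, ssm_al_mem_F_of_mem_E L N' q hq2 x.2⟩ := rfl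
  rw [e, ssm_al_W_W]

theorem ssm_al_WE_symm :
    (ssm_al_WE L N' q hq hq2 hqN').symm = ssm_al_WE L N' q hq hq2 hqN' := by
  refine AlgEquiv.ext fun x => ?_
  rw [AlgEquiv.symm_apply_eq, ssm_al_WE_WE]

/-- `W x = x(X^q)` for `x ∈ E' = lg_E L N'`. -/
theorem ssm_al_coe_WE_of_mem {x : LaurentSeries L} (hx : x ∈ lg_E L N')
    (h : x ∈ lg_E L (N' * q)) :
    ((ssm_al_WE L N' q hq hq2 hqN' ⟨x, h⟩ : lg_E L (N' * q)) : LaurentSeries L) =
      qExpand L q x := by
  rw [ssm_al_coe_WE]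
  refine ssm_al_coe_W_of_mem L (ssm_f4_level N') q hq _ ?_ _
  have e := ssm_f4 L N'
  rw [e] at hx
  exact hx

/-- `W (x(X^q)) = x` for `x ∈ E' = lg_E L N'`. -/
theorem ssm_al_coe_WE_expand_of_mem {x : LaurentSeries L} (hx : x ∈ lg_E L N')
    (h : qExpand L q x ∈ lg_E L (N' * q)) :
    ((ssm_al_WE L N' q hq hq2 hqN' ⟨qExpand L q x, h⟩ : lg_E L (N' * q)) : LaurentSeries L) =
      x := by
  rw [ssm_al_coe_WE]
  refine ssm_al_coe_W_expand_of_mem L (ssm_f4_level N') q hq _ ?_ _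
  have e := ssm_f4 L N'
  rw [e] at hx
  exact hx

/-- `W λ = λ(X^q)`. -/
theorem ssm_al_coe_WE_lam (h : lg_lam L ∈ lg_E L (N' * q)) :
    ((ssm_al_WE L N' q hq hq2 hqN' ⟨lg_lam L, h⟩ : lg_E L (N' * q)) : LaurentSeries L) =
      qExpand L q (lg_lam L) :=
  ssm_al_coe_WE_of_mem L N' q hq hq2 hqN' (lg_lam_mem_E L N') h

/-- `W (λ(X^q)) = λ`. -/
theorem ssm_al_coe_WE_lam_expand (h : qExpand L q (lg_lam L) ∈ lg_E L (N' * q)) :
    ((ssm_al_WE L N' q hq hq2 hqN' ⟨qExpand L q (lg_lam L), h⟩ : lg_E L (N' * q)) :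
      LaurentSeries L) = lg_lam L :=
  ssm_al_coe_WE_expand_of_mem L N' q hq hq2 hqN' (lg_lam_mem_E L N') h

/-- `coeffMap σ` preserves `lg_E L N`. -/
theorem ssm_al_coeffMap_mem_E (σ : L →+* L) (N : ℕ) [NeZero N] {x : LaurentSeries L}
    (hx : x ∈ lg_E L N) : coeffMap σ x ∈ lg_E L N := by
  rw [ssm_f4 L N] at hx ⊢
  exact ssm_al_coeffMap_mem σ _ hx

/-- `W` commutes with the coefficientwise action of every ring endomorphism of `L`. -/
theorem ssm_al_coe_WE_coeffMap (σ : L →+* L) (x : lg_E L (N' * q))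
    (h : coeffMap σ (x : LaurentSeries L) ∈ lg_E L (N' * q)) :
    ((ssm_al_WE L N' q hq hq2 hqN' ⟨coeffMap σ (x : LaurentSeries L), h⟩ : lg_E L (N' * q)) :
        LaurentSeries L) =
      coeffMap σ ((ssm_al_WE L N' q hq hq2 hqN' x : lg_E L (N' * q)) : LaurentSeries L) := by
  rw [ssm_al_coe_WE]
  exact ssm_al_coe_W_coeffMap L (ssm_f4_level N') q hq _ σ
    ⟨x, ssm_al_mem_F_of_mem_E L N' q hq2 x.2⟩ _

include hq2 in
/-- `F_{M₁ q} ≤ lg_E L (N' q)` for `M₁ ∣ lcm(4, 2N')`. -/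
theorem ssm_al_F_le_E (M₁ : ℕ) [NeZero M₁] (hM₁ : M₁ ∣ ssm_f4_level N') :
    lg_F L (M₁ * q) ≤ lg_E L (N' * q) := by
  rw [ssm_al_E_eq L N' q hq2]
  exact full_degeneracyC_le L (mul_dvd_mul_right hM₁ q)

/-- on `F_{M₁ q}`, `M₁ ∣ lcm(4, 2N')`, the involution of `E` restricts to `ssm_al_W L M₁ q`
(in particular for `M₁ = 4, 2, 1, N'`). -/
theorem ssm_al_coe_WE_compat (M₁ : ℕ) [NeZero M₁] (hM₁ : M₁ ∣ ssm_f4_level N')
    (hqM₁ : ¬ q ∣ M₁) (x : lg_F L (M₁ * q)) (h : (x : LaurentSeries L) ∈ lg_E L (N' * q)) :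
    ((ssm_al_WE L N' q hq hq2 hqN' ⟨x, h⟩ : lg_E L (N' * q)) : LaurentSeries L) =
      ((ssm_al_W L M₁ q hq hqM₁ x : lg_F L (M₁ * q)) : LaurentSeries L) := by
  rw [ssm_al_coe_WE]
  exact ssm_al_W_compat L M₁ (ssm_f4_level N') q hq hqM₁ _ hM₁ x

end ETransport

end Fermat.Agent.SS
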