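/-
Project SS (S34), cell [M] (model), leaf [AL], HESSE TWIN of part (iv) (helper20): the TRANSPORT OF
THE ATKIN–LEHNER INVOLUTION TO THE RIGIDIFIED HESSE FIELD `hs_E L h3 (N' q)` (`q` a prime, `3 ∤ q`,
`q ∤ N'`; in the application `q = 2`), twin of `SS/Model/ALE.lean`.

Everything is proved against the HYPOTHESIS (helper12's leaf [F9], `ssm_f9`)

  `hF9 : ∀ (N : ℕ) [NeZero N], hs_E L h3 N = modularFunctionFieldFullC L (Nat.lcm 9 (3 * N))`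

(`hs_E L h3 N = φ₃(F_N)(μ) = F_{lcm(9, 3N)}`), to be discharged when [F9] lands.

* `ssm_alh_level N = lcm(9, 3N)`, `ssm_alh_level_mul`, `ssm_alh_not_dvd_level`;
* `ssm_alh_E_le`, `ssm_alh_E_beta_le`, `ssm_alh_mu_expand_mem` (`μ(X^q) ∈ hs_E L h3 (N' q)`);
* `ssm_alh_WE` : the involution `W` of `E = hs_E L h3 (N' q)` with `W x = x(X^q)`, `W (x(X^q)) = x` for
  `x ∈ E' = hs_E L h3 N'` (in particular `W μ = μ(X^q)`), `W ∘ W = id`, compatibility with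
  `coeffMap σ` and with the `W` of the subfields `F_{M₁ q}`, `M₁ ∣ lcm(9, 3N')`;
* `ssm_alh_relfinrank_E` : `[E : E'] = q + 1`.

Prefix `ssm_alh_`.
-/
import Mathlib
import Fermat.Agent.SS.Model.ALE
import Fermat.Agent.JT3.Inst.HesseDefs

set_option autoImplicit false
set_option linter.unusedSectionVars false
set_option linter.unusedVariables false

noncomputable section

open ModularCurve IntermediateField
open Fermat.Agent.JT3 Fermat.Agent.S24 Fermat.Agent.S28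

namespace Fermat.Agent.SS

/-! ### the level -/

section Level

variable (N N' q : ℕ) [NeZero N] [NeZero N'] [NeZero q]

/-- The level `lcm(9, 3N)` of the rigidified Hesse field. -/
def ssm_alh_level : ℕ := Nat.lcm 9 (3 * N)

instance ssm_alh_level_neZero : NeZero (ssm_alh_level N) :=
  ⟨Nat.lcm_ne_zero (by norm_num) (Nat.mul_ne_zero (by norm_num) (NeZero.ne N))⟩

omit [NeZero N] in
theorem ssm_alh_nine_dvd_level : 9 ∣ ssm_alh_level N := Nat.dvd_lcm_left _ _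

omit [NeZero N] in
theorem ssm_alh_three_mul_dvd_level : 3 * N ∣ ssm_alh_level N := Nat.dvd_lcm_right _ _

omit [NeZero N] in
theorem ssm_alh_dvd_level : N ∣ ssm_alh_level N :=
  (Dvd.intro_left 3 rfl).trans (ssm_alh_three_mul_dvd_level N)

omit [NeZero N'] [NeZero q] in
/-- `lcm(9, 3 N' q) = lcm(9, 3 N') q` for `q` prime to `3`. -/
theorem ssm_alh_level_mul (hq3 : ¬ 3 ∣ q) : ssm_alh_level (N' * q) = ssm_alh_level N' * q := by
  have hcop : Nat.Coprime 9 q := by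
    have : Nat.Coprime 3 q := (Nat.Prime.coprime_iff_not_dvd Nat.prime_three).2 hq3
    exact Nat.Coprime.pow_left 2 this
  rw [ssm_alh_level, ssm_alh_level]
  have h1 : 3 * (N' * q) = (3 * N') * q := by ring
  rw [h1, ← Nat.lcm_mul_right]
  apply Nat.dvd_antisymm
  · exact Nat.lcm_dvd ((Dvd.intro _ rfl).trans (Nat.dvd_lcm_left _ _)) (Nat.dvd_lcm_right _ _)
  · refine Nat.lcm_dvd ?_ (Nat.dvd_lcm_right _ _)
    exact Nat.Coprime.mul_dvd_of_dvd_of_dvd hcop (Nat.dvd_lcm_left _ _)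
      ((Dvd.intro_left _ rfl).trans (Nat.dvd_lcm_right _ _))

omit [NeZero N'] [NeZero q] in
/-- a prime `q ≠ 3`, `q ∤ N'` does not divide `lcm(9, 3N')`. -/
theorem ssm_alh_not_dvd_level (hq : q.Prime) (hq3 : ¬ 3 ∣ q) (hqN' : ¬ q ∣ N') :
    ¬ q ∣ ssm_alh_level N' := by
  intro h
  rw [ssm_alh_level] at h
  have hq3' : ¬ q ∣ 3 := fun h3 =>
    hq3 (by rw [(Nat.prime_dvd_prime_iff_eq hq Nat.prime_three).1 h3])
  have h1 : q ∣ 9 * (3 * N') := h.trans (Nat.lcm_dvd_mul 9 (3 * N'))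
  rcases (Nat.Prime.dvd_mul hq).1 h1 with h9 | h2
  · have h9' : q ∣ 3 ^ 2 := by norm_num; exact h9
    exact hq3' (hq.dvd_of_dvd_pow h9')
  · rcases (Nat.Prime.dvd_mul hq).1 h2 with h2 | hN
    · exact hq3' h2
    · exact hqN' hN

end Level

/-! ### the rigidified Hesse tower: levels and degrees -/

section ELevel

variable (L : Type*) [Field L] [CharZero L] (h3 : (3 : L) ≠ 0)
  (hF9 : ∀ (N : ℕ) [NeZero N], hs_E L h3 N = modularFunctionFieldFullC L (Nat.lcm 9 (3 * N)))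
  (N N' q : ℕ) [NeZero N] [NeZero N'] [NeZero q]

include hF9

theorem ssm_alh_E_eq_level : hs_E L h3 N = modularFunctionFieldFullC L (ssm_alh_level N) :=
  hF9 N

/-- `hs_E L h3 (N' q) = F_{lcm(9, 3N') q}(L)` for `q` prime to `3`. -/
theorem ssm_alh_E_eq (hq3 : ¬ 3 ∣ q) :
    hs_E L h3 (N' * q) = modularFunctionFieldFullC L (ssm_alh_level N' * q) := by
  rw [ssm_alh_E_eq_level L h3 hF9 (N' * q)]
  congr 1
  exact ssm_alh_level_mul N' q hq3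

/-- First degeneracy: `hs_E L h3 N' ≤ hs_E L h3 N` for `N' ∣ N`. -/
theorem ssm_alh_E_mono (h : N' ∣ N) : hs_E L h3 N' ≤ hs_E L h3 N := by
  rw [ssm_alh_E_eq_level L h3 hF9 N, ssm_alh_E_eq_level L h3 hF9 N']
  refine full_degeneracyC_le L ?_
  exact Nat.lcm_dvd_lcm_of_dvd_right 9 (mul_dvd_mul_left 3 h)

/-- Second degeneracy: `β_ℓ (hs_E L h3 N') ≤ hs_E L h3 N` for `N' ℓ ∣ N`, `ℓ` prime to `3`. -/
theorem ssm_alh_E_map_le {ℓ : ℕ} [NeZero ℓ] (h : N' * ℓ ∣ N) (hℓ : ¬ 3 ∣ ℓ) :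
    (hs_E L h3 N').map (qExpandAlgHomC L ℓ) ≤ hs_E L h3 N := by
  rw [ssm_alh_E_eq_level L h3 hF9 N, ssm_alh_E_eq_level L h3 hF9 N']
  refine le_trans (full_degeneracyC_map_le L (ssm_alh_level N') ℓ) ?_
  refine full_degeneracyC_le L ?_
  rw [← ssm_alh_level_mul N' ℓ hℓ]
  exact Nat.lcm_dvd_lcm_of_dvd_right 9 (mul_dvd_mul_left 3 h)

/-- `μ(q^ℓ) ∈ hs_E L h3 N` for `ℓ ∣ N` prime to `3`. -/
theorem ssm_alh_mu_expand_mem {ℓ : ℕ} [NeZero ℓ] (h : ℓ ∣ N) (hℓ : ¬ 3 ∣ ℓ) :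
    qExpand L ℓ (hs_mu L h3) ∈ hs_E L h3 N := by
  have h1 : (hs_E L h3 1).map (qExpandAlgHomC L ℓ) ≤ hs_E L h3 N :=
    ssm_alh_E_map_le L h3 hF9 N 1 (by rwa [one_mul]) hℓ
  exact h1 ⟨hs_mu L h3, hs_mu_mem_E L h3 1, rfl⟩

theorem ssm_alh_E_le : hs_E L h3 N' ≤ hs_E L h3 (N' * q) :=
  ssm_alh_E_mono L h3 hF9 (N' * q) N' (Dvd.intro _ rfl)

theorem ssm_alh_E_beta_le (hq3 : ¬ 3 ∣ q) :
    (hs_E L h3 N').map (qExpandAlgHomC L q) ≤ hs_E L h3 (N' * q) :=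
  ssm_alh_E_map_le L h3 hF9 (N' * q) N' dvd_rfl hq3

/-- **[AL] (iv), Hesse twin**: `[hs_E L h3 (N' q) : hs_E L h3 N'] = q + 1` for a prime `q ≠ 3`,
`q ∤ N'`. -/
theorem ssm_alh_relfinrank_E (hq : q.Prime) (hq3 : ¬ 3 ∣ q) (hqN' : ¬ q ∣ N') :
    IntermediateField.relfinrank (hs_E L h3 N') (hs_E L h3 (N' * q)) = q + 1 := by
  rw [ssm_alh_E_eq L h3 hF9 N' q hq3, ssm_alh_E_eq_level L h3 hF9 N']
  exact ssm_al_relfinrank L (ssm_alh_level N') q hq (ssm_alh_not_dvd_level N' q hq hq3 hqN')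

omit hF9 in
/-- `hs_E L h3 N'` as an intermediate field of `hs_E L h3 (N' q) / L` -/
abbrev ssm_alh_subE : IntermediateField L (hs_E L h3 (N' * q)) :=
  (hs_E L h3 N').comap (hs_E L h3 (N' * q)).val

omit hF9 in
theorem ssm_alh_mem_subE (x : hs_E L h3 (N' * q)) :
    x ∈ ssm_alh_subE L h3 N' q ↔ (x : LaurentSeries L) ∈ hs_E L h3 N' := Iff.rfl

theorem ssm_alh_finrank_subE (hq : q.Prime) (hq3 : ¬ 3 ∣ q) (hqN' : ¬ q ∣ N') :
    Module.finrank (ssm_alh_subE L h3 N' q) (hs_E L h3 (N' * q)) = q + 1 := by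
  rw [ssm_alh_subE, IntermediateField.finrank_comap, IntermediateField.fieldRange_val,
    ssm_alh_relfinrank_E L h3 hF9 N' q hq hq3 hqN']

theorem ssm_alh_finiteDimensional_subE (hq : q.Prime) (hq3 : ¬ 3 ∣ q) (hqN' : ¬ q ∣ N') :
    FiniteDimensional (ssm_alh_subE L h3 N' q) (hs_E L h3 (N' * q)) :=
  FiniteDimensional.of_finrank_pos (by rw [ssm_alh_finrank_subE L h3 hF9 N' q hq hq3 hqN']; omega)

end ELevel

/-! ### the Atkin–Lehner involution of the rigidified Hesse field -/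

section ETransport

variable (L : Type*) [Field L] [CharZero L] [Algebra L (AlgebraicClosure ℚ)] (h3 : (3 : L) ≠ 0)
  (hF9 : ∀ (N : ℕ) [NeZero N], hs_E L h3 N = modularFunctionFieldFullC L (Nat.lcm 9 (3 * N)))
  (N' q : ℕ) [NeZero N'] [NeZero q] (hq : q.Prime) (hq3 : ¬ 3 ∣ q) (hqN' : ¬ q ∣ N')

/-- **[AL] (iv), Hesse twin**: the Atkin–Lehner involution `W_q` of `E = hs_E L h3 (N' q)`, `q ∤ N'`
a prime different from `3`. -/
def ssm_alh_WE : hs_E L h3 (N' * q) ≃ₐ[L] hs_E L h3 (N' * q) :=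
  ssm_al_transport (ssm_alh_E_eq L h3 hF9 N' q hq3)
    (ssm_al_W L (ssm_alh_level N') q hq (ssm_alh_not_dvd_level N' q hq hq3 hqN'))

include hF9 hq3 in
theorem ssm_alh_mem_F_of_mem_E {x : LaurentSeries L} (h : x ∈ hs_E L h3 (N' * q)) :
    x ∈ lg_F L (ssm_alh_level N' * q) := by
  have e := ssm_alh_E_eq L h3 hF9 N' q hq3
  rw [e] at h
  exact h

theorem ssm_alh_coe_WE (x : LaurentSeries L) (h : x ∈ hs_E L h3 (N' * q)) :
    ((ssm_alh_WE L h3 hF9 N' q hq hq3 hqN' ⟨x, h⟩ : hs_E L h3 (N' * q)) : LaurentSeries L) =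
      ((ssm_al_W L (ssm_alh_level N') q hq (ssm_alh_not_dvd_level N' q hq hq3 hqN')
        ⟨x, ssm_alh_mem_F_of_mem_E L h3 hF9 N' q hq3 h⟩ : lg_F L (ssm_alh_level N' * q)) :
          LaurentSeries L) :=
  ssm_al_coe_transport (ssm_alh_E_eq L h3 hF9 N' q hq3) _ x h _

/-- `W ∘ W = id`. -/
theorem ssm_alh_WE_WE (x : hs_E L h3 (N' * q)) :
    ssm_alh_WE L h3 hF9 N' q hq hq3 hqN' (ssm_alh_WE L h3 hF9 N' q hq hq3 hqN' x) = x := by
  apply Subtype.ext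
  rw [ssm_alh_coe_WE]
  have e : (⟨((ssm_alh_WE L h3 hF9 N' q hq hq3 hqN' x : hs_E L h3 (N' * q)) : LaurentSeries L),
      ssm_alh_mem_F_of_mem_E L h3 hF9 N' q hq3 (Subtype.mem _)⟩ :
        lg_F L (ssm_alh_level N' * q)) =
      ssm_al_W L (ssm_alh_level N') q hq (ssm_alh_not_dvd_level N' q hq hq3 hqN')
        ⟨x, ssm_alh_mem_F_of_mem_E L h3 hF9 N' q hq3 x.2⟩ := rfl
  rw [e, ssm_al_W_W]

theorem ssm_alh_WE_symm :
    (ssm_alh_WE L h3 hF9 N' q hq hq3 hqN').symm = ssm_alh_WE L h3 hF9 N' q hq hq3 hqN' := by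
  refine AlgEquiv.ext fun x => ?_
  rw [AlgEquiv.symm_apply_eq, ssm_alh_WE_WE]

/-- `W x = x(X^q)` for `x ∈ E' = hs_E L h3 N'`. -/
theorem ssm_alh_coe_WE_of_mem {x : LaurentSeries L} (hx : x ∈ hs_E L h3 N')
    (h : x ∈ hs_E L h3 (N' * q)) :
    ((ssm_alh_WE L h3 hF9 N' q hq hq3 hqN' ⟨x, h⟩ : hs_E L h3 (N' * q)) : LaurentSeries L) =
      qExpand L q x := by
  rw [ssm_alh_coe_WE]
  refine ssm_al_coe_W_of_mem L (ssm_alh_level N') q hq _ ?_ _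
  have e := ssm_alh_E_eq_level L h3 hF9 N'
  rw [e] at hx
  exact hx

/-- `W (x(X^q)) = x` for `x ∈ E' = hs_E L h3 N'`. -/
theorem ssm_alh_coe_WE_expand_of_mem {x : LaurentSeries L} (hx : x ∈ hs_E L h3 N')
    (h : qExpand L q x ∈ hs_E L h3 (N' * q)) :
    ((ssm_alh_WE L h3 hF9 N' q hq hq3 hqN' ⟨qExpand L q x, h⟩ : hs_E L h3 (N' * q)) :
      LaurentSeries L) = x := by
  rw [ssm_alh_coe_WE]
  refine ssm_al_coe_W_expand_of_mem L (ssm_alh_level N') q hq _ ?_ _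
  have e := ssm_alh_E_eq_level L h3 hF9 N'
  rw [e] at hx
  exact hx

/-- `W μ = μ(X^q)`. -/
theorem ssm_alh_coe_WE_mu (h : hs_mu L h3 ∈ hs_E L h3 (N' * q)) :
    ((ssm_alh_WE L h3 hF9 N' q hq hq3 hqN' ⟨hs_mu L h3, h⟩ : hs_E L h3 (N' * q)) :
      LaurentSeries L) = qExpand L q (hs_mu L h3) :=
  ssm_alh_coe_WE_of_mem L h3 hF9 N' q hq hq3 hqN' (hs_mu_mem_E L h3 N') h

/-- `W (μ(X^q)) = μ`. -/
theorem ssm_alh_coe_WE_mu_expand (h : qExpand L q (hs_mu L h3) ∈ hs_E L h3 (N' * q)) :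
    ((ssm_alh_WE L h3 hF9 N' q hq hq3 hqN' ⟨qExpand L q (hs_mu L h3), h⟩ :
      hs_E L h3 (N' * q)) : LaurentSeries L) = hs_mu L h3 :=
  ssm_alh_coe_WE_expand_of_mem L h3 hF9 N' q hq hq3 hqN' (hs_mu_mem_E L h3 N') h

/-- `W` commutes with the coefficientwise action of every ring endomorphism of `L`. -/
theorem ssm_alh_coe_WE_coeffMap (σ : L →+* L) (x : hs_E L h3 (N' * q))
    (h : coeffMap σ (x : LaurentSeries L) ∈ hs_E L h3 (N' * q)) :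
    ((ssm_alh_WE L h3 hF9 N' q hq hq3 hqN' ⟨coeffMap σ (x : LaurentSeries L), h⟩ :
        hs_E L h3 (N' * q)) : LaurentSeries L) =
      coeffMap σ ((ssm_alh_WE L h3 hF9 N' q hq hq3 hqN' x : hs_E L h3 (N' * q)) :
        LaurentSeries L) := by
  rw [ssm_alh_coe_WE]
  exact ssm_al_coe_W_coeffMap L (ssm_alh_level N') q hq _ σ
    ⟨x, ssm_alh_mem_F_of_mem_E L h3 hF9 N' q hq3 x.2⟩ _

include hF9 hq3 in
/-- `F_{M₁ q} ≤ hs_E L h3 (N' q)` for `M₁ ∣ lcm(9, 3N')`. -/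
theorem ssm_alh_F_le_E (M₁ : ℕ) [NeZero M₁] (hM₁ : M₁ ∣ ssm_alh_level N') :
    lg_F L (M₁ * q) ≤ hs_E L h3 (N' * q) := by
  rw [ssm_alh_E_eq L h3 hF9 N' q hq3]
  exact full_degeneracyC_le L (mul_dvd_mul_right hM₁ q)

/-- on `F_{M₁ q}`, `M₁ ∣ lcm(9, 3N')`, the involution of `E` restricts to `ssm_al_W L M₁ q`
(in particular for `M₁ = 9, 3, 1, N'`). -/
theorem ssm_alh_coe_WE_compat (M₁ : ℕ) [NeZero M₁] (hM₁ : M₁ ∣ ssm_alh_level N')
    (hqM₁ : ¬ q ∣ M₁) (x : lg_F L (M₁ * q))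
    (h : (x : LaurentSeries L) ∈ hs_E L h3 (N' * q)) :
    ((ssm_alh_WE L h3 hF9 N' q hq hq3 hqN' ⟨x, h⟩ : hs_E L h3 (N' * q)) : LaurentSeries L) =
      ((ssm_al_W L M₁ q hq hqM₁ x : lg_F L (M₁ * q)) : LaurentSeries L) := by
  rw [ssm_alh_coe_WE]
  exact ssm_al_W_compat L M₁ (ssm_alh_level N') q hq hqM₁ _ hM₁ x

end ETransport

end Fermat.Agent.SS
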