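/-
Project SS (S34), cell [M], leaf [BC] (helper2): the BASE-CHANGE DICTIONARY between the models over
the unramified base `(L0, O0)` and over the base `(L, O)` — the hypothesis block
`(j j0 hj0 hjB hσj hP1 hP2 h𝔫)` of `ssm_tht_node` ([TH-T]).

Part I (abstract: `j : F00 →+* F0` a homomorphism of fields over `j0 : A00 →+* A0`):
* `ssm_bc_chart`      : `j` maps `fc_chart A00 S` into `fc_chart A0 (j '' S)`;
* `ssm_bc_res`        : the restricted homomorphism `B0 →+* B`;
* `ssm_bc_mem_P_iff`  : `b ∈ ssm_tp_P B0 V0 ↔ j b ∈ ssm_tp_P B V` when `𝔪(V0) = j⁻¹ 𝔪(V)`;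
* `ssm_bc_isMaximal`  : a prime of a chart over `A00[x0]` containing `π0` (with `(π0)` maximal) and
  a monic polynomial in `x0` is maximal.

Part II (Legendre towers, `f : L0 →+* L`, `j = coeffMap f`) is in `BaseChangeLeg.lean`.

Prefix `ssm_bc_`.
-/
import Mathlib
import Fermat.Agent.JT3.FCore.Charts
import Fermat.Agent.SS.Model.TwoPrimes

set_option autoImplicit false
set_option linter.unusedSectionVars false
set_option linter.unusedVariables false
set_option linter.style.haveILetI false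

namespace Fermat.Agent.SS

open Fermat.Agent.JT3 Polynomial

section Abs

variable {A00 A0 : Type*} [CommRing A00] [CommRing A0] {F00 : Type*} {F0 : Type*} [Field F00]
  [Field F0] [Algebra A00 F00] [Algebra A0 F0]
  (j : F00 →+* F0) (j0 : A00 →+* A0)
  (hj0 : ∀ a, j (algebraMap A00 F00 a) = algebraMap A0 F0 (j0 a))

include hj0 in
/-- `j` maps `A00[S]` into `A0[j S]`. -/
theorem ssm_bc_adjoin_mem (S : Set F00) {z : F00} (hz : z ∈ Algebra.adjoin A00 S) :
    j z ∈ Algebra.adjoin A0 (j '' S) := by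
  induction hz using Algebra.adjoin_induction with
  | mem x hx => exact Algebra.subset_adjoin ⟨x, hx, rfl⟩
  | algebraMap r =>
    rw [hj0]
    exact Subalgebra.algebraMap_mem _ _
  | add x y _ _ hx hy =>
    rw [map_add]
    exact add_mem hx hy
  | mul x y _ _ hx hy =>
    rw [map_mul]
    exact mul_mem hx hy

/-- the restriction `A00[S] → A0[j S]` of `j` -/
def ssm_bc_adjoinHom (S : Set F00) : Algebra.adjoin A00 S →+* Algebra.adjoin A0 (j '' S) where
  toFun z := ⟨j z, ssm_bc_adjoin_mem j j0 hj0 S z.2⟩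
  map_one' := Subtype.ext (by simp)
  map_mul' a b := Subtype.ext (by simp)
  map_zero' := Subtype.ext (by simp)
  map_add' a b := Subtype.ext (by simp)

include hj0 in
/-- **`j` maps the chart `fc_chart A00 S` into the chart `fc_chart A0 (j S)`.** -/
theorem ssm_bc_chart (S : Set F00) {b : F00} (hb : b ∈ fc_chart A00 S) :
    j b ∈ fc_chart A0 (j '' S) := by
  rw [fc_mem_chart] at hb ⊢
  exact IsIntegral.map_of_comp_eq (ssm_bc_adjoinHom j j0 hj0 S) j (by ext r; rfl) hb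

/-- the restriction of `j` to two subalgebras -/
def ssm_bc_res (B0 : Subalgebra A00 F00) (B : Subalgebra A0 F0) (hjB : ∀ b ∈ B0, j b ∈ B) :
    B0 →+* B where
  toFun b := ⟨j b, hjB b b.2⟩
  map_one' := Subtype.ext (by simp)
  map_mul' a b := Subtype.ext (by simp)
  map_zero' := Subtype.ext (by simp)
  map_add' a b := Subtype.ext (by simp)

theorem ssm_bc_res_coe (B0 : Subalgebra A00 F00) (B : Subalgebra A0 F0)
    (hjB : ∀ b ∈ B0, j b ∈ B) (b : B0) : ((ssm_bc_res j B0 B hjB b : B) : F0) = j b := rfl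

include hj0 in
theorem ssm_bc_res_algebraMap (B0 : Subalgebra A00 F00) (B : Subalgebra A0 F0)
    (hjB : ∀ b ∈ B0, j b ∈ B) (a : A00) :
    ssm_bc_res j B0 B hjB (algebraMap A00 B0 a) = algebraMap A0 B (j0 a) :=
  Subtype.ext (hj0 a)

/-- **the vertical primes correspond**: `P^{B0}(V0) = j⁻¹ P^{B}(V)`. -/
theorem ssm_bc_mem_P_iff (B0 : Subalgebra A00 F00) (B : Subalgebra A0 F0)
    (hjB : ∀ b ∈ B0, j b ∈ B) (V0 : ValuationSubring F00) (V : ValuationSubring F0)
    (hle0 : ∀ b ∈ B0, b ∈ V0) (hle : ∀ b ∈ B, b ∈ V)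
    (hV : ∀ z : F00, z ∈ V0.nonunits ↔ j z ∈ V.nonunits) (b : B0) :
    b ∈ ssm_tp_P B0 V0 ↔ (⟨j b, hjB b b.2⟩ : B) ∈ ssm_tp_P B V := by
  rw [ssm_tp_mem_P hle0, ssm_tp_mem_P hle, hV]

end Abs

section Maximal

variable {A00 : Type*} [CommRing A00] {B0 : Type*} [CommRing B0] [Algebra A00 B0]

/-- **maximality of the crossing point over the small base**: a prime `𝔫0` of a ring `B0` integral
over `A00[x0]`, containing `π0` (with `(π0)` maximal in `A00`) and the value at `x0` of a monic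
polynomial, is maximal. -/
theorem ssm_bc_isMaximal (π0 : A00) (hπ0 : (Ideal.span {π0} : Ideal A00).IsMaximal) (x0 : B0)
    (hint : ∀ b : B0, IsIntegral (Algebra.adjoin A00 ({x0} : Set B0)) b)
    (𝔫0 : Ideal B0) [h𝔫0 : 𝔫0.IsPrime] (hπ : algebraMap A00 B0 π0 ∈ 𝔫0)
    (p : A00[X]) (hp : p.Monic) (hpx : aeval x0 p ∈ 𝔫0) : 𝔫0.IsMaximal := by
  -- `Q := B0 / 𝔫0` is integral over `A00`
  have hx : IsIntegral A00 (Ideal.Quotient.mkₐ A00 𝔫0 x0) := by
    refine ⟨p, hp, ?_⟩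
    rw [← aeval_def, aeval_algHom_apply]
    exact Ideal.Quotient.eq_zero_iff_mem.2 hpx
  have hR : ∀ r ∈ Algebra.adjoin A00 ({x0} : Set B0),
      IsIntegral A00 (Ideal.Quotient.mkₐ A00 𝔫0 r) := by
    intro r hr
    have h1 : Ideal.Quotient.mkₐ A00 𝔫0 r ∈
        (Algebra.adjoin A00 ({x0} : Set B0)).map (Ideal.Quotient.mkₐ A00 𝔫0) :=
      Subalgebra.mem_map.2 ⟨r, hr, rfl⟩
    rw [AlgHom.map_adjoin, Set.image_singleton] at h1
    exact adjoin_le_integralClosure hx h1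
  have hQ : ∀ b : B0, IsIntegral A00 (Ideal.Quotient.mkₐ A00 𝔫0 b) := by
    intro b
    let φ : Algebra.adjoin A00 ({x0} : Set B0) →+* integralClosure A00 (B0 ⧸ 𝔫0) :=
      { toFun := fun r => ⟨Ideal.Quotient.mkₐ A00 𝔫0 r, hR r r.2⟩
        map_one' := Subtype.ext (by simp)
        map_mul' := fun a c => Subtype.ext (by simp)
        map_zero' := Subtype.ext (by simp)
        map_add' := fun a c => Subtype.ext (by simp) }
    have h1 : IsIntegral (integralClosure A00 (B0 ⧸ 𝔫0)) (Ideal.Quotient.mkₐ A00 𝔫0 b) :=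
      IsIntegral.map_of_comp_eq φ (Ideal.Quotient.mkₐ A00 𝔫0 : B0 →+* B0 ⧸ 𝔫0)
        (by ext r; rfl) (hint b)
    exact isIntegral_trans _ h1
  -- the structure map `A00 → Q` is integral with maximal kernel
  have hf : (algebraMap A00 (B0 ⧸ 𝔫0)).IsIntegral := by
    intro y
    obtain ⟨b, rfl⟩ := Ideal.Quotient.mk_surjective y
    exact hQ b
  haveI : (⊥ : Ideal (B0 ⧸ 𝔫0)).IsPrime := Ideal.isPrime_bot
  have hker : (⊥ : Ideal (B0 ⧸ 𝔫0)).comap (algebraMap A00 (B0 ⧸ 𝔫0)) = Ideal.span {π0} := by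
    symm
    apply hπ0.eq_of_le
    · exact Ideal.comap_ne_top _ bot_ne_top
    · rw [Ideal.span_singleton_le_iff_mem, Ideal.mem_comap, Ideal.mem_bot]
      exact Ideal.Quotient.eq_zero_iff_mem.2 hπ
  have hbot : (⊥ : Ideal (B0 ⧸ 𝔫0)).IsMaximal :=
    Ideal.isMaximal_of_isIntegral_of_isMaximal_comap' _ hf ⊥ (hker ▸ hπ0)
  have h2 : (⊥ : Ideal (B0 ⧸ 𝔫0)).comap (Ideal.Quotient.mk 𝔫0) = 𝔫0 := by
    rw [← RingHom.ker_eq_comap_bot, Ideal.mk_ker]
  rw [← h2]
  exact Ideal.comap_isMaximal_of_surjective _ Ideal.Quotient.mk_surjective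

end Maximal

end Fermat.Agent.SS
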