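/-
SS (S34), cell [M] MODEL, leaf [GA] GAUSS INSTANCE (helper8).

The `X`-Gauss valuation rings `V(E) = gq_valSubOf π _ _ E _` of subfields `E` of the field of
bounded quotients `gq_quotField O K ⊆ K((X))`, and the substitution `β = qExpand K q : X ↦ X^q`.

* (G0) `β` preserves the field of quotients and Gauss norms, and commutes with reduction:
  `ssm_ga_beta_isQuot`, `ssm_ga_beta_isBdd`, `ssm_ga_beta_isBdd_iff`, `ssm_ga_res_beta`;
  at the level of subfields `ssm_ga_beta_mem_iff` (`V(E) ∩ β(E') = β(V(E'))`),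
  `ssm_ga_beta_mem_nonunits_iff`.
* (G1) Frobenius congruence `y(X^q) ≡ y^q` for series `y` over `O` whose reduction has
  `𝔽_q`-coefficients (`ssm_ga_FrobFixed`): `ssm_ga_frob_red`, `ssm_ga_frob`,
  `ssm_ga_frob_mem_nonunits`.
* (G2) `y - y(X^q)^q ∉ 𝔪(V)`, (G3) `y - z(X^q) ∉ 𝔪(V)` when the reduction of `y` has nonzero
  `X¹`-coefficient: `ssm_ga_sub_pow_not_mem`, `ssm_ga_sub_beta_not_mem`.
* (G4) `V(E)` is a discrete valuation ring with uniformiser `π`: `ssm_ga_isDVR`,
  `ssm_ga_unif_prime`, `ssm_ga_unif_irreducible`, `ssm_ga_exists_pow_unit`.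
* the instance `y = λ = hm_lam`: `ssm_ga_lam_frob`, `ssm_ga_lam_b`, `ssm_ga_lam_c` (= hypotheses
  (a), (b), (c) of the two-valuations lemma [TV]), and `ssm_ga_E_le_quotField`.
-/
import Mathlib
import Fermat.Agent.JT3.Bridge.GaussCenter
import Fermat.Agent.JT3.ES.CoeffAut
import Fermat.Agent.JT3.Inst.Defs

set_option autoImplicit false

noncomputable section

open ModularCurve IsLocalRing

namespace Fermat.Agent.SS

open Fermat.Agent.JT3

/-! ## (G0) `β = (X ↦ X^q)` preserves Gauss norms and commutes with reduction -/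

section Beta

variable {O : Type*} [CommRing O] [IsDomain O] [IsLocalRing O]
variable {K : Type*} [Field K] [Algebra O K] [IsFractionRing O K]
variable (q : ℕ) [NeZero q]

omit [IsDomain O] [IsLocalRing O] [IsFractionRing O K] in
theorem ssm_ga_beta_isQuot {z : LaurentSeries K} (h : gq_IsQuot O K z) :
    gq_IsQuot O K (qExpand K q z) := by
  obtain ⟨z1, z2, hz2, hz⟩ := h
  refine ⟨qExpand O q z1, qExpand O q z2, ?_, ?_⟩
  · intro h0
    exact hz2 (qExpand_injective q (by rw [h0, map_zero]))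
  · rw [coeffMap_qExpand, coeffMap_qExpand, ← map_mul, hz]

omit [IsDomain O] [IsFractionRing O K] in
theorem ssm_ga_beta_isBdd {z : LaurentSeries K} (h : gq_IsBdd O K z) :
    gq_IsBdd O K (qExpand K q z) := by
  obtain ⟨z1, z2, hz2, hz⟩ := h
  refine ⟨qExpand O q z1, qExpand O q z2, ?_, ?_⟩
  · rw [coeffMap_qExpand]
    intro h0
    exact hz2 (qExpand_injective q (by rw [h0, map_zero]))
  · rw [coeffMap_qExpand, coeffMap_qExpand, ← map_mul, hz]

/-- reduction commutes with `β`. -/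
theorem ssm_ga_res_beta (z : ↥(gq_bddSubring O K)) :
    gq_res O K ⟨qExpand K q (z : LaurentSeries K), ssm_ga_beta_isBdd q z.2⟩ =
      qExpand (ResidueField O) q (gq_res O K z) := by
  obtain ⟨z1, z2, hz2, hz⟩ := z.2
  rw [gq_res_eq z hz2 hz, map_div₀]
  have hz2' : coeffMap (residue O) (qExpand O q z2) ≠ 0 := by
    rw [coeffMap_qExpand]
    intro h0
    exact hz2 (qExpand_injective q (by rw [h0, map_zero]))
  rw [gq_res_eq _ (z1 := qExpand O q z1) (z2 := qExpand O q z2) hz2'
    (by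
      show qExpand K q (z : LaurentSeries K) * _ = _
      rw [coeffMap_qExpand, coeffMap_qExpand, ← map_mul, hz]),
    coeffMap_qExpand, coeffMap_qExpand]

variable [WfDvdMonoid O]

/-- `β` reflects boundedness on the field of quotients. -/
theorem ssm_ga_beta_isBdd_iff (π : O) (hπ0 : π ≠ 0) (hπ : maximalIdeal O = Ideal.span {π})
    {z : LaurentSeries K} (hz : gq_IsQuot O K z) :
    gq_IsBdd O K (qExpand K q z) ↔ gq_IsBdd O K z := by
  refine ⟨fun h => ?_, ssm_ga_beta_isBdd q⟩
  rcases gq_isBdd_or_inv π hπ0 hπ hz with h1 | h1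
  · exact h1
  · by_cases hz0 : z = 0
    · rw [hz0]
      exact (gq_bddSubring O K).zero_mem
    -- `z⁻¹` and `β z`, `β z⁻¹` bounded: residues are nonzero
    have hβz0 : qExpand K q z ≠ 0 := fun h0 => hz0 (qExpand_injective q (by rw [h0, map_zero]))
    have hβinv : gq_IsBdd O K (qExpand K q z)⁻¹ := by
      rw [← map_inv₀]
      exact ssm_ga_beta_isBdd q h1
    have hinv0 : z⁻¹ ≠ 0 := inv_ne_zero hz0
    -- residue of `β z⁻¹` is nonzero
    have hne : gq_res O K ⟨qExpand K q z⁻¹, ssm_ga_beta_isBdd q h1⟩ ≠ 0 := by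
      refine gq_res_ne_zero_of_inv _ ?_ ?_
      · show gq_IsBdd O K (qExpand K q z⁻¹)⁻¹
        rw [map_inv₀, inv_inv]
        exact h
      · show qExpand K q z⁻¹ ≠ 0
        rw [map_inv₀]
        exact inv_ne_zero hβz0
    have hres := ssm_ga_res_beta q (⟨z⁻¹, h1⟩ : ↥(gq_bddSubring O K))
    have hne' : gq_res O K (⟨z⁻¹, h1⟩ : ↥(gq_bddSubring O K)) ≠ 0 := by
      intro h0
      apply hne
      rw [hres, h0, map_zero]
    have := gq_isBdd_inv_of_res_ne_zero _ hne'
    simpa using this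

end Beta
/-! ## (G1)–(G3) Frobenius congruence and the two non-congruences -/

section Frob

variable {O : Type*} [CommRing O] [IsDomain O] [IsLocalRing O]
variable {K : Type*} [Field K] [Algebra O K] [IsFractionRing O K]
variable (q : ℕ) [NeZero q] [hq : Fact q.Prime] [CharP (ResidueField O) q]

/-- the reduction of `y` has coefficients in `𝔽_q`. -/
def ssm_ga_FrobFixed (y : LaurentSeries O) : Prop :=
  coeffMap (frobenius (ResidueField O) q) (coeffMap (residue O) y) = coeffMap (residue O) y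

omit [IsDomain O] in
/-- `y(X^q) ≡ y^q` modulo the maximal ideal, coefficientwise. -/
theorem ssm_ga_frob_red (y : LaurentSeries O) (hy : ssm_ga_FrobFixed q y) :
    coeffMap (residue O) (qExpand O q y - y ^ q) = 0 := by
  have h := ca_pow_eq_qExpand_frobenius (ResidueField O) q (coeffMap (residue O) y)
  rw [map_sub, map_pow, coeffMap_qExpand, h, hy, sub_self]

omit [IsDomain O] in
theorem ssm_ga_frob (π : O) (hπ : maximalIdeal O = Ideal.span {π}) (y : LaurentSeries O)
    (hy : ssm_ga_FrobFixed q y) :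
    ∃ w : LaurentSeries O, qExpand O q y - y ^ q = algebraMap O (LaurentSeries O) π * w :=
  gq_exists_smul_of_red_eq_zero π hπ _ (ssm_ga_frob_red q y hy)

omit [IsDomain O] [NeZero q] in
/-- coefficient `1` of `y(X^q)^q` vanishes in characteristic `q`. -/
theorem ssm_ga_coeff_one_pow (x : LaurentSeries (ResidueField O)) :
    (x ^ q).coeff 1 = 0 := by
  have h := ca_pow_eq_qExpand_frobenius (ResidueField O) q x
  rw [h]
  refine qExpand_coeff_of_not_dvd q _ ?_
  intro hdvd
  have h1 : (q : ℤ) = 1 ∨ (q : ℤ) = -1 := Int.isUnit_iff.mp (isUnit_of_dvd_one hdvd)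
  have hq2 := hq.out.two_le
  omega

variable [WfDvdMonoid O]
variable (π : O) (hπ0 : π ≠ 0) (hπ : maximalIdeal O = Ideal.span {π})
  (E : IntermediateField K (LaurentSeries K)) (hE : E ≤ gq_quotField O K)

omit [NeZero q] hq [CharP (ResidueField O) q] in
/-- an element of `E` which is the image of a series over `O` with zero reduction is a non-unit
of the Gauss ring. -/
theorem ssm_ga_mem_nonunits_of_iota (t : ↥E) (x : LaurentSeries O)
    (ht : (t : LaurentSeries K) = coeffMap (algebraMap O K) x)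
    (hx : coeffMap (residue O) x = 0) : t ∈ (gq_valSubOf π hπ0 hπ E hE).nonunits := by
  have hb : gq_IsBdd O K (t : LaurentSeries K) := by
    rw [ht]
    exact gq_isBdd_iota x
  rw [gq_mem_nonunits_iff_res π hπ0 hπ E hE t hb, gq_res_of_eq_iota _ x ht, hx]

/-- **(G1) Frobenius**: `y(X^q) - y^q ∈ 𝔪(V)` for every series `y` over `O` whose reduction has
`𝔽_q`-coefficients. -/
theorem ssm_ga_frob_mem_nonunits (y : LaurentSeries O) (hy : ssm_ga_FrobFixed q y) (t : ↥E)
    (ht : (t : LaurentSeries K) = qExpand K q (coeffMap (algebraMap O K) y) -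
      (coeffMap (algebraMap O K) y) ^ q) :
    t ∈ (gq_valSubOf π hπ0 hπ E hE).nonunits := by
  refine ssm_ga_mem_nonunits_of_iota π hπ0 hπ E hE t (qExpand O q y - y ^ q) ?_
    (ssm_ga_frob_red q y hy)
  rw [ht, map_sub, map_pow, coeffMap_qExpand]

omit [NeZero q] hq [CharP (ResidueField O) q] in
/-- an element of `E` which is bounded with nonzero reduction is not in `𝔪(V)`. -/
theorem ssm_ga_not_mem_nonunits_of_res (t : ↥E) (hb : gq_IsBdd O K (t : LaurentSeries K))
    (hres : gq_res O K ⟨(t : LaurentSeries K), hb⟩ ≠ 0) :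
    t ∉ (gq_valSubOf π hπ0 hπ E hE).nonunits := by
  rw [gq_mem_nonunits_iff_res π hπ0 hπ E hE t hb]
  exact hres

/-- **(G2)**: `y - y(X^q)^q ∉ 𝔪(V)` if the reduction of `y` has nonzero `X¹`-coefficient. -/
theorem ssm_ga_sub_pow_not_mem (y : LaurentSeries O)
    (hy1 : residue O (y.coeff 1) ≠ 0) (t : ↥E)
    (ht : (t : LaurentSeries K) = coeffMap (algebraMap O K) y -
      (qExpand K q (coeffMap (algebraMap O K) y)) ^ q) :
    t ∉ (gq_valSubOf π hπ0 hπ E hE).nonunits := by
  have ht' : (t : LaurentSeries K) = coeffMap (algebraMap O K) (y - (qExpand O q y) ^ q) := by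
    rw [ht, map_sub, map_pow, coeffMap_qExpand]
  have hb : gq_IsBdd O K (t : LaurentSeries K) := by
    rw [ht']
    exact gq_isBdd_iota _
  refine ssm_ga_not_mem_nonunits_of_res π hπ0 hπ E hE t hb ?_
  rw [gq_res_of_eq_iota _ _ ht', map_sub, map_pow]
  intro h0
  have h1 := congrArg (fun z : LaurentSeries (ResidueField O) => z.coeff 1) h0
  simp only [HahnSeries.coeff_sub, HahnSeries.coeff_zero, coeffMap_coeff] at h1
  rw [ssm_ga_coeff_one_pow q, sub_zero] at h1
  exact hy1 h1

omit [CharP (ResidueField O) q] in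
/-- **(G3)**: `y - z(X^q) ∉ 𝔪(V)` for every `z` in the field of quotients with `z(X^q)` bounded,
if the reduction of `y` has nonzero `X¹`-coefficient. -/
theorem ssm_ga_sub_beta_not_mem (y : LaurentSeries O) (hy1 : residue O (y.coeff 1) ≠ 0)
    (z : LaurentSeries K) (hz : gq_IsQuot O K z) (hzb : gq_IsBdd O K (qExpand K q z)) (t : ↥E)
    (ht : (t : LaurentSeries K) = coeffMap (algebraMap O K) y - qExpand K q z) :
    t ∉ (gq_valSubOf π hπ0 hπ E hE).nonunits := by
  have hzb' : gq_IsBdd O K z := (ssm_ga_beta_isBdd_iff q π hπ0 hπ hz).mp hzb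
  have hyb : gq_IsBdd O K (coeffMap (algebraMap O K) y) := gq_isBdd_iota y
  have hb : gq_IsBdd O K (t : LaurentSeries K) := by
    rw [ht]
    exact (gq_bddSubring O K).sub_mem hyb hzb
  refine ssm_ga_not_mem_nonunits_of_res π hπ0 hπ E hE t hb ?_
  have hsplit : (⟨(t : LaurentSeries K), hb⟩ : ↥(gq_bddSubring O K)) =
      ⟨coeffMap (algebraMap O K) y, hyb⟩ - ⟨qExpand K q z, hzb⟩ := Subtype.ext ht
  rw [hsplit, map_sub, gq_res_iota]
  have hβ := ssm_ga_res_beta q (⟨z, hzb'⟩ : ↥(gq_bddSubring O K))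
  intro h0
  have h1 := congrArg (fun z : LaurentSeries (ResidueField O) => z.coeff 1) h0
  simp only [HahnSeries.coeff_sub, HahnSeries.coeff_zero, coeffMap_coeff] at h1
  have h2 : (gq_res O K ⟨qExpand K q z, hzb⟩).coeff 1 = 0 := by
    have : (⟨qExpand K q z, hzb⟩ : ↥(gq_bddSubring O K)) =
        ⟨qExpand K q z, ssm_ga_beta_isBdd q hzb'⟩ := rfl
    rw [this, hβ]
    refine qExpand_coeff_of_not_dvd q _ ?_
    intro hdvd
    have h1 : (q : ℤ) = 1 ∨ (q : ℤ) = -1 := Int.isUnit_iff.mp (isUnit_of_dvd_one hdvd)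
    have hq2 := hq.out.two_le
    omega
  rw [h2, sub_zero] at h1
  exact hy1 h1

end Frob

/-! ## (G4) the Gauss ring of any subfield of the field of quotients is a DVR with uniformiser `π` -/

section DVR

variable {O : Type*} [CommRing O] [IsDomain O] [IsLocalRing O] [WfDvdMonoid O]
variable {K : Type*} [Field K] [Algebra O K] [IsFractionRing O K]
variable (π : O) (hπ0 : π ≠ 0) (hπ : maximalIdeal O = Ideal.span {π})
  (E : IntermediateField K (LaurentSeries K)) (hE : E ≤ gq_quotField O K)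

theorem ssm_ga_unif_ne_zero : gq_unif π hπ0 hπ E hE ≠ 0 := by
  intro h0
  have h1 := congrArg (fun z : ↥(gq_valSubOf π hπ0 hπ E hE) => ((z : ↥E) : LaurentSeries K)) h0
  exact gq_const_ne_zero (K := K) π hπ0 (IsFractionRing.injective O K) h1

/-- `π` is a prime element of the Gauss ring. -/
theorem ssm_ga_unif_prime : Prime (gq_unif π hπ0 hπ E hE) := by
  have hmax := gq_maximalIdeal_eq π hπ0 hπ E hE
  have hprime : (Ideal.span {gq_unif π hπ0 hπ E hE}).IsPrime := by
    rw [← hmax]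
    exact (maximalIdeal.isMaximal _).isPrime
  exact (Ideal.span_singleton_prime (ssm_ga_unif_ne_zero π hπ0 hπ E hE)).mp hprime

/-- every nonzero element of the Gauss ring is a unit times a power of `π`. -/
theorem ssm_ga_exists_pow_unit (x : ↥(gq_valSubOf π hπ0 hπ E hE)) (hx : x ≠ 0) :
    ∃ n : ℕ, Associated (gq_unif π hπ0 hπ E hE ^ n) x := by
  have hx0 : (x : ↥E) ≠ 0 := fun h => hx (Subtype.ext h)
  obtain ⟨e, he⟩ := gq_pow_bound_valSubOf π hπ0 hπ E hE (x : ↥E) x.2 hx0
  obtain ⟨m, b', hb', hxb, hnot⟩ := gq_exists_max_pow (algebraMap K ↥E (algebraMap O K π))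
    (gq_valSubOf π hπ0 hπ E hE).toSubring (x : ↥E) x.2 e
    (fun k w hw hxw => he k w hw hxw)
  -- `b'` is a unit of the Gauss ring
  have hunit : IsUnit (⟨b', hb'⟩ : ↥(gq_valSubOf π hπ0 hπ E hE)) := by
    by_contra hnu
    have hmem : (⟨b', hb'⟩ : ↥(gq_valSubOf π hπ0 hπ E hE)) ∈
        maximalIdeal ↥(gq_valSubOf π hπ0 hπ E hE) := (mem_maximalIdeal _).mpr hnu
    rw [gq_mem_maximalIdeal_iff] at hmem
    obtain ⟨w, hw, hbw⟩ := hmem
    exact hnot ⟨w, hw, hbw⟩
  refine ⟨m, ?_⟩
  obtain ⟨u, hu⟩ := hunit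
  refine ⟨u, ?_⟩
  apply Subtype.ext
  rw [hu]
  show (algebraMap K ↥E (algebraMap O K π)) ^ m * b' = (x : ↥E)
  exact hxb.symm

/-- **(G4)** the Gauss ring of `E` is a discrete valuation ring. -/
theorem ssm_ga_isDVR : IsDiscreteValuationRing ↥(gq_valSubOf π hπ0 hπ E hE) :=
  IsDiscreteValuationRing.ofHasUnitMulPowIrreducibleFactorization
    ⟨gq_unif π hπ0 hπ E hE, (ssm_ga_unif_prime π hπ0 hπ E hE).irreducible,
      fun {x} hx => ssm_ga_exists_pow_unit π hπ0 hπ E hE x hx⟩

theorem ssm_ga_unif_irreducible : Irreducible (gq_unif π hπ0 hπ E hE) :=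
  (ssm_ga_unif_prime π hπ0 hπ E hE).irreducible

/-- the Gauss ring of a subfield is the intersection with the Gauss ring of the big field. -/
theorem ssm_ga_valSubOf_mono (E' : IntermediateField K (LaurentSeries K)) (hE'E : E' ≤ E)
    (z : ↥E') : z ∈ gq_valSubOf π hπ0 hπ E' (hE'E.trans hE) ↔
      IntermediateField.inclusion hE'E z ∈ gq_valSubOf π hπ0 hπ E hE := Iff.rfl

end DVR

/-! ## transport along `β` at the level of subfields -/

section BetaE

variable {O : Type*} [CommRing O] [IsDomain O] [IsLocalRing O] [WfDvdMonoid O]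
variable {K : Type*} [Field K] [Algebra O K] [IsFractionRing O K]
variable (q : ℕ) [NeZero q]
variable (π : O) (hπ0 : π ≠ 0) (hπ : maximalIdeal O = Ideal.span {π})
  (E E' : IntermediateField K (LaurentSeries K)) (hE : E ≤ gq_quotField O K)
  (hE' : E' ≤ gq_quotField O K)

/-- `V(E) ∩ β(E') = β(V(E'))`. -/
theorem ssm_ga_beta_mem_iff (y : ↥E') (t : ↥E)
    (ht : (t : LaurentSeries K) = qExpand K q (y : LaurentSeries K)) :
    t ∈ gq_valSubOf π hπ0 hπ E hE ↔ y ∈ gq_valSubOf π hπ0 hπ E' hE' := by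
  rw [gq_mem_valSubOf, gq_mem_valSubOf, ht]
  exact ssm_ga_beta_isBdd_iff q π hπ0 hπ (hE' y.2)

/-- `𝔪(V(E)) ∩ β(E') = β(𝔪(V(E')))`. -/
theorem ssm_ga_beta_mem_nonunits_iff (y : ↥E') (t : ↥E)
    (ht : (t : LaurentSeries K) = qExpand K q (y : LaurentSeries K)) :
    t ∈ (gq_valSubOf π hπ0 hπ E hE).nonunits ↔ y ∈ (gq_valSubOf π hπ0 hπ E' hE').nonunits := by
  constructor
  · intro h
    have htV : t ∈ gq_valSubOf π hπ0 hπ E hE := ValuationSubring.nonunits_subset h
    have hyV : y ∈ gq_valSubOf π hπ0 hπ E' hE' :=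
      (ssm_ga_beta_mem_iff q π hπ0 hπ E E' hE hE' y t ht).mp htV
    have hyb : gq_IsBdd O K (y : LaurentSeries K) := hyV
    rw [gq_mem_nonunits_iff_res π hπ0 hπ E' hE' y hyb]
    have htb : gq_IsBdd O K (t : LaurentSeries K) := htV
    rw [gq_mem_nonunits_iff_res π hπ0 hπ E hE t htb] at h
    have hβ := ssm_ga_res_beta q (⟨(y : LaurentSeries K), hyb⟩ : ↥(gq_bddSubring O K))
    have heq : (⟨(t : LaurentSeries K), htb⟩ : ↥(gq_bddSubring O K)) =
        ⟨qExpand K q (y : LaurentSeries K), ssm_ga_beta_isBdd q hyb⟩ := Subtype.ext ht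
    rw [heq, hβ] at h
    exact qExpand_injective q (by rw [h, map_zero])
  · intro h
    have hyV : y ∈ gq_valSubOf π hπ0 hπ E' hE' := ValuationSubring.nonunits_subset h
    have hyb : gq_IsBdd O K (y : LaurentSeries K) := hyV
    have htV : t ∈ gq_valSubOf π hπ0 hπ E hE :=
      (ssm_ga_beta_mem_iff q π hπ0 hπ E E' hE hE' y t ht).mpr hyV
    have htb : gq_IsBdd O K (t : LaurentSeries K) := htV
    rw [gq_mem_nonunits_iff_res π hπ0 hπ E' hE' y hyb] at h
    rw [gq_mem_nonunits_iff_res π hπ0 hπ E hE t htb]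
    have hβ := ssm_ga_res_beta q (⟨(y : LaurentSeries K), hyb⟩ : ↥(gq_bddSubring O K))
    have heq : (⟨(t : LaurentSeries K), htb⟩ : ↥(gq_bddSubring O K)) =
        ⟨qExpand K q (y : LaurentSeries K), ssm_ga_beta_isBdd q hyb⟩ := Subtype.ext ht
    rw [heq, hβ, h, map_zero]

end BetaE

/-! ## the instance: `λ` and the fields `lg_E L N` -/

section Lam

variable {L : Type*} [Field L] (O : ValuationSubring L)

/-- every element of `E = φ(F_N)(λ)` is a quotient of series with coefficients in `O`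
(= `lg_E_le_quotField` of `JT3/Inst/Assemble.lean`, restated here to keep the imports light). -/
theorem ssm_ga_E_le_quotField (N : ℕ) [NeZero N] : lg_E L N ≤ gq_quotField O L := by
  rw [lg_E, sup_le_iff]
  constructor
  · rw [lg_F2, lg_F, modularFunctionFieldFullC, IntermediateField.adjoin_map,
      IntermediateField.adjoin_le_iff]
    rintro _ ⟨_, ⟨d, hd, -, rfl⟩, rfl⟩
    have : (lg_phi L) (qExpand L d (jqModC L))
        = coeffMap (algebraMap O L) (qExpand O 2 (qExpand O d (jqModC O))) := by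
      rw [coeffMap_qExpand, coeffMap_qExpand, coeffMap_jqModC, lg_phi_apply]
    show (lg_phi L) (qExpand L d (jqModC L)) ∈ gq_quotField O L
    rw [this]
    exact gq_iota_mem_quotField _
  · rw [lg_K, IntermediateField.adjoin_le_iff]
    rintro _ rfl
    have : lg_lam L = coeffMap (algebraMap O L) (hm_lam O) := (hm_coeffMap_lam _).symm
    show lg_lam L ∈ gq_quotField O L
    rw [this]
    exact gq_iota_mem_quotField _

variable (q : ℕ) [NeZero q] [hq : Fact q.Prime] [CharP (ResidueField O) q]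

omit [NeZero q] in
theorem ssm_ga_lam_frobFixed : ssm_ga_FrobFixed q (hm_lam O) := by
  unfold ssm_ga_FrobFixed
  rw [hm_coeffMap_lam, hm_coeffMap_lam]

omit [CharP (ResidueField O) q] in
theorem ssm_ga_lam_coeff_one (h2 : (2 : ResidueField O) ≠ 0) :
    residue O ((hm_lam O).coeff 1) ≠ 0 := by
  rw [hm_lam_coeff_one, map_ofNat]
  have : (16 : ResidueField O) = 2 ^ 4 := by norm_num
  rw [this]
  exact pow_ne_zero _ h2

variable [IsDiscreteValuationRing O] {π : O} (hπ : Irreducible π)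
  (E : IntermediateField L (LaurentSeries L)) (hE : E ≤ gq_quotField O L)

/-- **hypothesis (a) of [TV]**: `λ(X^q) - λ^q ∈ 𝔪(V)`. -/
theorem ssm_ga_lam_frob (t : ↥E)
    (ht : (t : LaurentSeries L) = qExpand L q (hm_lam L) - (hm_lam L) ^ q) :
    t ∈ (gq_valSubOf π hπ.ne_zero hπ.maximalIdeal_eq E hE).nonunits := by
  refine ssm_ga_frob_mem_nonunits q π hπ.ne_zero hπ.maximalIdeal_eq E hE (hm_lam O)
    (ssm_ga_lam_frobFixed O q) t ?_
  rw [ht, hm_coeffMap_lam]

/-- **hypothesis (b) of [TV]**: `λ - λ(X^q)^q ∉ 𝔪(V)`. -/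
theorem ssm_ga_lam_b (h2 : (2 : ResidueField O) ≠ 0) (t : ↥E)
    (ht : (t : LaurentSeries L) = hm_lam L - (qExpand L q (hm_lam L)) ^ q) :
    t ∉ (gq_valSubOf π hπ.ne_zero hπ.maximalIdeal_eq E hE).nonunits := by
  refine ssm_ga_sub_pow_not_mem q π hπ.ne_zero hπ.maximalIdeal_eq E hE (hm_lam O)
    (ssm_ga_lam_coeff_one O h2) t ?_
  rw [ht, hm_coeffMap_lam]

omit [CharP (ResidueField O) q] in
/-- **hypothesis (c) of [TV]**: `λ - z(X^q) ∉ 𝔪(V)` for every `z` in the field of quotients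
with `z(X^q)` Gauss-bounded. -/
theorem ssm_ga_lam_c (h2 : (2 : ResidueField O) ≠ 0) (z : LaurentSeries L)
    (hz : z ∈ gq_quotField O L) (hzb : gq_IsBdd O L (qExpand L q z)) (t : ↥E)
    (ht : (t : LaurentSeries L) = hm_lam L - qExpand L q z) :
    t ∉ (gq_valSubOf π hπ.ne_zero hπ.maximalIdeal_eq E hE).nonunits := by
  refine ssm_ga_sub_beta_not_mem q π hπ.ne_zero hπ.maximalIdeal_eq E hE (hm_lam O)
    (ssm_ga_lam_coeff_one O h2) z hz hzb t ?_
  rw [ht, hm_coeffMap_lam]

end Lam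

end Fermat.Agent.SS
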