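/-
Project SS (S34), cell [M] (model), leaf [GA], BASE CHANGE of the Gauss valuation (helper8).

`f : L0 →+* L` a homomorphism of fields, `O ⊆ L` a valuation subring, `O0 = f⁻¹(O) ⊆ L0`
(hypothesis `hO : ∀ x, x ∈ O0 ↔ f x ∈ O`; e.g. `O0 = O.comap f`, the unramified base of [UB]).
The coefficientwise map `coeffMap f : L0((X)) → L((X))`

* maps `Quot(O0((X)))` into `Quot(O((X)))` (`ssm_gb_isQuot`) and Gauss-bounded quotients to
  Gauss-bounded quotients (`ssm_gb_isBdd`),
* commutes with the Gauss reductions via the residue field map `κ(O0) → κ(O)` (`ssm_gb_res`),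
* REFLECTS boundedness on `Quot(O0((X)))` when `O0` is a DVR (`ssm_gb_isBdd_iff`),

hence for subfields `E0 ≤ Quot(O0((X)))`, `E ≤ Quot(O((X)))` and `t0 ∈ E0`, `t ∈ E` with
`↑t = coeffMap f ↑t0`:  `t ∈ V(E) ↔ t0 ∈ V(E0)` and `t ∈ 𝔪(V(E)) ↔ t0 ∈ 𝔪(V(E0))`
(`ssm_gb_mem_valSubOf_iff`, `ssm_gb_mem_nonunits_iff`).  Prefix `ssm_gb_`.
-/
import Mathlib
import Fermat.Agent.SS.Model.Gauss

set_option autoImplicit false
set_option linter.unusedSectionVars false
set_option linter.unusedVariables false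

noncomputable section

open ModularCurve IsLocalRing

namespace Fermat.Agent.SS

open Fermat.Agent.JT3

section Inj

/-- `coeffMap` of an injective ring homomorphism is injective. -/
theorem ssm_gb_coeffMap_injective {R S : Type*} [CommRing R] [CommRing S] (g : R →+* S)
    (hg : Function.Injective g) : Function.Injective (coeffMap g) := by
  intro x y hxy
  apply HahnSeries.ext
  funext n
  have := congrArg (fun z : LaurentSeries S => z.coeff n) hxy
  exact hg this

end Inj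

section MaxIdeal

variable {K : Type*} [Field K]

/-- the maximal ideal of a valuation subring, elementwise. -/
theorem ssm_gb_mem_maximalIdeal_iff (A : ValuationSubring K) (a : A) :
    a ∈ maximalIdeal A ↔ (a : K) = 0 ∨ (a : K)⁻¹ ∉ A := by
  rw [A.valuation_lt_one_iff, ← A.valuation_le_one_iff]
  by_cases ha : (a : K) = 0
  · simp [ha]
  · have hv : A.valuation (a : K) ≠ 0 := (Valuation.ne_zero_iff _).2 ha
    rw [map_inv₀, inv_le_one₀ (zero_lt_iff.2 hv)]
    constructor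
    · intro h
      exact Or.inr (not_le.2 h)
    · rintro (h | h)
      · exact absurd h ha
      · exact not_le.1 h

end MaxIdeal

section BC

variable {L0 L : Type*} [Field L0] [Field L] (f : L0 →+* L)
  (O0 : ValuationSubring L0) (O : ValuationSubring L) (hO : ∀ x : L0, x ∈ O0 ↔ f x ∈ O)

/-- the restriction `O0 → O` of `f`. -/
def ssm_gb_resHom : O0 →+* O where
  toFun x := ⟨f x, (hO x).1 x.2⟩
  map_one' := Subtype.ext (map_one f)
  map_mul' x y := Subtype.ext (map_mul f (x : L0) (y : L0))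
  map_zero' := Subtype.ext (map_zero f)
  map_add' x y := Subtype.ext (map_add f (x : L0) (y : L0))

@[simp] theorem ssm_gb_resHom_coe (x : O0) :
    ((ssm_gb_resHom f O0 O hO x : O) : L) = f x := rfl

theorem ssm_gb_resHom_injective : Function.Injective (ssm_gb_resHom f O0 O hO) := by
  intro x y hxy
  have := congrArg (fun z : O => (z : L)) hxy
  exact Subtype.ext (f.injective this)

/-- `O0 → O` is local. -/
theorem ssm_gb_mem_maximalIdeal_iff' (x : O0) :
    ssm_gb_resHom f O0 O hO x ∈ maximalIdeal O ↔ x ∈ maximalIdeal O0 := by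
  rw [ssm_gb_mem_maximalIdeal_iff, ssm_gb_mem_maximalIdeal_iff, ssm_gb_resHom_coe,
    map_eq_zero, ← map_inv₀, ← hO]

theorem ssm_gb_residue_eq_zero_iff (x : O0) :
    residue O (ssm_gb_resHom f O0 O hO x) = 0 ↔ residue O0 x = 0 := by
  rw [residue_eq_zero_iff, residue_eq_zero_iff]
  exact ssm_gb_mem_maximalIdeal_iff' f O0 O hO x

instance ssm_gb_isLocalHom : IsLocalHom (ssm_gb_resHom f O0 O hO) := by
  constructor
  intro a ha
  by_contra hna
  have h1 : a ∈ maximalIdeal O0 := (mem_maximalIdeal a).2 hna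
  have h2 := (ssm_gb_mem_maximalIdeal_iff' f O0 O hO a).2 h1
  exact (mem_maximalIdeal _).1 h2 ha

/-- the induced map of residue fields. -/
def ssm_gb_kappa : ResidueField O0 →+* ResidueField O :=
  ResidueField.map (ssm_gb_resHom f O0 O hO)

theorem ssm_gb_kappa_residue (x : O0) :
    ssm_gb_kappa f O0 O hO (residue O0 x) = residue O (ssm_gb_resHom f O0 O hO x) :=
  ResidueField.map_residue _ x

theorem ssm_gb_kappa_injective : Function.Injective (ssm_gb_kappa f O0 O hO) :=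
  (ssm_gb_kappa f O0 O hO).injective

theorem ssm_gb_coeffMap_iota (y : LaurentSeries O0) :
    coeffMap f (coeffMap (algebraMap O0 L0) y) =
      coeffMap (algebraMap O L) (coeffMap (ssm_gb_resHom f O0 O hO) y) := by
  ext n
  rfl

theorem ssm_gb_red (y : LaurentSeries O0) :
    coeffMap (residue O) (coeffMap (ssm_gb_resHom f O0 O hO) y) =
      coeffMap (ssm_gb_kappa f O0 O hO) (coeffMap (residue O0) y) := by
  ext n
  exact (ssm_gb_kappa_residue f O0 O hO (y.coeff n)).symm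

theorem ssm_gb_coeffMap_kappa_injective :
    Function.Injective (coeffMap (ssm_gb_kappa f O0 O hO)) :=
  ssm_gb_coeffMap_injective _ (ssm_gb_kappa_injective f O0 O hO)

theorem ssm_gb_red_ne_zero {y : LaurentSeries O0} (hy : coeffMap (residue O0) y ≠ 0) :
    coeffMap (residue O) (coeffMap (ssm_gb_resHom f O0 O hO) y) ≠ 0 := by
  rw [ssm_gb_red]
  intro h0
  exact hy (ssm_gb_coeffMap_kappa_injective f O0 O hO (by rw [h0, map_zero]))

theorem ssm_gb_coeffMap_resHom_injective :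
    Function.Injective (coeffMap (ssm_gb_resHom f O0 O hO)) :=
  ssm_gb_coeffMap_injective _ (ssm_gb_resHom_injective f O0 O hO)

include hO

/-- `coeffMap f` maps quotients to quotients. -/
theorem ssm_gb_isQuot {z : LaurentSeries L0} (hz : gq_IsQuot O0 L0 z) :
    gq_IsQuot O L (coeffMap f z) := by
  obtain ⟨z1, z2, hz2, hzz⟩ := hz
  refine ⟨coeffMap (ssm_gb_resHom f O0 O hO) z1, coeffMap (ssm_gb_resHom f O0 O hO) z2, ?_, ?_⟩
  · intro h0
    exact hz2 (ssm_gb_coeffMap_resHom_injective f O0 O hO (by rw [h0, map_zero]))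
  · rw [← ssm_gb_coeffMap_iota f O0 O hO, ← ssm_gb_coeffMap_iota f O0 O hO, ← map_mul, hzz]

/-- `coeffMap f` preserves Gauss-boundedness. -/
theorem ssm_gb_isBdd {z : LaurentSeries L0} (hz : gq_IsBdd O0 L0 z) :
    gq_IsBdd O L (coeffMap f z) := by
  obtain ⟨z1, z2, hz2, hzz⟩ := hz
  refine ⟨coeffMap (ssm_gb_resHom f O0 O hO) z1, coeffMap (ssm_gb_resHom f O0 O hO) z2, ?_, ?_⟩
  · exact ssm_gb_red_ne_zero f O0 O hO hz2
  · rw [← ssm_gb_coeffMap_iota f O0 O hO, ← ssm_gb_coeffMap_iota f O0 O hO, ← map_mul, hzz]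

/-- **`coeffMap f` commutes with the Gauss reductions.** -/
theorem ssm_gb_res (z : ↥(gq_bddSubring O0 L0)) :
    gq_res O L ⟨coeffMap f (z : LaurentSeries L0), ssm_gb_isBdd f O0 O hO z.2⟩ =
      coeffMap (ssm_gb_kappa f O0 O hO) (gq_res O0 L0 z) := by
  obtain ⟨z1, z2, hz2, hzz⟩ := z.2
  rw [gq_res_eq z hz2 hzz, map_div₀]
  rw [gq_res_eq _ (z1 := coeffMap (ssm_gb_resHom f O0 O hO) z1)
    (z2 := coeffMap (ssm_gb_resHom f O0 O hO) z2) (ssm_gb_red_ne_zero f O0 O hO hz2)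
    (by
      show coeffMap f (z : LaurentSeries L0) * _ = _
      rw [← ssm_gb_coeffMap_iota f O0 O hO, ← ssm_gb_coeffMap_iota f O0 O hO, ← map_mul, hzz]),
    ssm_gb_red f O0 O hO, ssm_gb_red f O0 O hO]

theorem ssm_gb_res_eq_zero_iff (z : ↥(gq_bddSubring O0 L0)) :
    gq_res O L ⟨coeffMap f (z : LaurentSeries L0), ssm_gb_isBdd f O0 O hO z.2⟩ = 0 ↔
      gq_res O0 L0 z = 0 := by
  rw [ssm_gb_res f O0 O hO]
  constructor
  · intro h
    exact ssm_gb_coeffMap_kappa_injective f O0 O hO (by rw [h, map_zero])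
  · intro h
    rw [h, map_zero]

variable [WfDvdMonoid O0]

/-- **`coeffMap f` reflects Gauss-boundedness on the field of quotients.** -/
theorem ssm_gb_isBdd_iff (π0 : O0) (hπ0 : π0 ≠ 0) (hπ : maximalIdeal O0 = Ideal.span {π0})
    {z : LaurentSeries L0} (hz : gq_IsQuot O0 L0 z) :
    gq_IsBdd O L (coeffMap f z) ↔ gq_IsBdd O0 L0 z := by
  refine ⟨fun h => ?_, ssm_gb_isBdd f O0 O hO⟩
  rcases gq_isBdd_or_inv π0 hπ0 hπ hz with h1 | h1
  · exact h1
  · by_cases hz0 : z = 0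
    · rw [hz0]
      exact (gq_bddSubring O0 L0).zero_mem
    have hinj : Function.Injective (coeffMap f) := ssm_gb_coeffMap_injective f f.injective
    have hfz0 : coeffMap f z ≠ 0 := fun h0 => hz0 (hinj (by rw [h0, map_zero]))
    have hne : gq_res O L ⟨coeffMap f z⁻¹, ssm_gb_isBdd f O0 O hO h1⟩ ≠ 0 := by
      refine gq_res_ne_zero_of_inv _ ?_ ?_
      · show gq_IsBdd O L (coeffMap f z⁻¹)⁻¹
        rw [map_inv₀, inv_inv]
        exact h
      · show coeffMap f z⁻¹ ≠ 0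
        rw [map_inv₀]
        exact inv_ne_zero hfz0
    have hne' : gq_res O0 L0 (⟨z⁻¹, h1⟩ : ↥(gq_bddSubring O0 L0)) ≠ 0 := by
      intro h0
      exact hne ((ssm_gb_res_eq_zero_iff f O0 O hO ⟨z⁻¹, h1⟩).2 h0)
    have := gq_isBdd_inv_of_res_ne_zero _ hne'
    simpa using this

end BC

section BCE

variable {L0 L : Type*} [Field L0] [Field L] (f : L0 →+* L)
  {O0 : ValuationSubring L0} {O : ValuationSubring L} (hO : ∀ x : L0, x ∈ O0 ↔ f x ∈ O)
  [WfDvdMonoid O0] [WfDvdMonoid O]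
  (π0 : O0) (hπ00 : π0 ≠ 0) (hπ0 : maximalIdeal O0 = Ideal.span {π0})
  (π : O) (hπ0' : π ≠ 0) (hπ : maximalIdeal O = Ideal.span {π})
  (E0 : IntermediateField L0 (LaurentSeries L0)) (hE0 : E0 ≤ gq_quotField O0 L0)
  (E : IntermediateField L (LaurentSeries L)) (hE : E ≤ gq_quotField O L)

include hO in
/-- **base change of the Gauss ring**: `coeffMap f z ∈ V^L(E) ↔ z ∈ V^{L0}(E0)`. -/
theorem ssm_gb_mem_valSubOf_iff (t0 : ↥E0) (t : ↥E)
    (ht : (t : LaurentSeries L) = coeffMap f (t0 : LaurentSeries L0)) :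
    t ∈ gq_valSubOf π hπ0' hπ E hE ↔ t0 ∈ gq_valSubOf π0 hπ00 hπ0 E0 hE0 := by
  rw [gq_mem_valSubOf, gq_mem_valSubOf, ht]
  exact ssm_gb_isBdd_iff f O0 O hO π0 hπ00 hπ0 (hE0 t0.2)

include hO in
/-- **base change of the maximal ideal of the Gauss ring.** -/
theorem ssm_gb_mem_nonunits_iff (t0 : ↥E0) (t : ↥E)
    (ht : (t : LaurentSeries L) = coeffMap f (t0 : LaurentSeries L0)) :
    t ∈ (gq_valSubOf π hπ0' hπ E hE).nonunits ↔
      t0 ∈ (gq_valSubOf π0 hπ00 hπ0 E0 hE0).nonunits := by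
  have hiff := ssm_gb_mem_valSubOf_iff f hO π0 hπ00 hπ0 π hπ0' hπ E0 hE0 E hE t0 t ht
  constructor
  · intro h
    have htV : t ∈ gq_valSubOf π hπ0' hπ E hE := ValuationSubring.nonunits_subset h
    have ht0V : t0 ∈ gq_valSubOf π0 hπ00 hπ0 E0 hE0 := hiff.1 htV
    have ht0b : gq_IsBdd O0 L0 (t0 : LaurentSeries L0) := ht0V
    have htb : gq_IsBdd O L (t : LaurentSeries L) := htV
    rw [gq_mem_nonunits_iff_res π0 hπ00 hπ0 E0 hE0 t0 ht0b]
    rw [gq_mem_nonunits_iff_res π hπ0' hπ E hE t htb] at h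
    have heq : (⟨(t : LaurentSeries L), htb⟩ : ↥(gq_bddSubring O L)) =
        ⟨coeffMap f (t0 : LaurentSeries L0), ssm_gb_isBdd f O0 O hO ht0b⟩ := Subtype.ext ht
    rw [heq] at h
    exact (ssm_gb_res_eq_zero_iff f O0 O hO ⟨(t0 : LaurentSeries L0), ht0b⟩).1 h
  · intro h
    have ht0V : t0 ∈ gq_valSubOf π0 hπ00 hπ0 E0 hE0 := ValuationSubring.nonunits_subset h
    have htV : t ∈ gq_valSubOf π hπ0' hπ E hE := hiff.2 ht0V
    have ht0b : gq_IsBdd O0 L0 (t0 : LaurentSeries L0) := ht0V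
    have htb : gq_IsBdd O L (t : LaurentSeries L) := htV
    rw [gq_mem_nonunits_iff_res π0 hπ00 hπ0 E0 hE0 t0 ht0b] at h
    rw [gq_mem_nonunits_iff_res π hπ0' hπ E hE t htb]
    have heq : (⟨(t : LaurentSeries L), htb⟩ : ↥(gq_bddSubring O L)) =
        ⟨coeffMap f (t0 : LaurentSeries L0), ssm_gb_isBdd f O0 O hO ht0b⟩ := Subtype.ext ht
    rw [heq]
    exact (ssm_gb_res_eq_zero_iff f O0 O hO ⟨(t0 : LaurentSeries L0), ht0b⟩).2 h

end BCE

section Comap

variable {L0 L : Type*} [Field L0] [Field L] (f : L0 →+* L) (O : ValuationSubring L)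

/-- the hypothesis `hO` for `O0 = O.comap f`. -/
theorem ssm_gb_comap (x : L0) : x ∈ O.comap f ↔ f x ∈ O := Iff.rfl

end Comap

end Fermat.Agent.SS
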