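/-
SS (S34), cell [M] MODEL, Gauss half of leaf [SIG] (helper8).

For a ring automorphism `σ` of `L` which is inert at the valuation ring `O` (`ss_Inert O σ`:
`σ`, `σ⁻¹` preserve `O` and act trivially on its residue field), the coefficientwise action
`coeffMap σ` on `L((X))` preserves the field of bounded quotients, the Gauss ring, and acts
trivially on the Gauss residue field: `gq_res (coeffMap σ z) = gq_res z`.  Hence for every subfield
`E ≤ gq_quotField O L`: `coeffMap σ z - z ∈ 𝔪(V(E))` for `z ∈ V(E)`, and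
`coeffMap σ z / z - 1 ∈ 𝔪(V(E))` for units `z`.
-/
import Mathlib
import Fermat.Agent.SS.Model.Gauss
import Fermat.Agent.SS.CoreSeam

set_option autoImplicit false

noncomputable section

open ModularCurve IsLocalRing

namespace Fermat.Agent.SS

open Fermat.Agent.JT3

section Sigma

variable {L : Type*} [Field L] (O : ValuationSubring L) (σ : L ≃+* L)

theorem ssm_gs_inert_symm (h : ss_Inert O σ) : ss_Inert O σ.symm := by
  intro x hx
  exact ⟨(h x hx).2, by simpa using (h x hx).1⟩

variable {O σ}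

theorem ssm_gs_mem (h : ss_Inert O σ) {x : L} (hx : x ∈ O) : σ x ∈ O := by
  have h1 : σ x - x ∈ O := ValuationSubring.nonunits_subset (h x hx).1
  have : σ x = (σ x - x) + x := by ring
  rw [this]
  exact O.add_mem _ _ h1 hx

/-- the restriction of an inert `σ` to `O`. -/
def ssm_gs_resHom (h : ss_Inert O σ) : O →+* O where
  toFun x := ⟨σ x, ssm_gs_mem h x.2⟩
  map_one' := Subtype.ext (map_one σ)
  map_mul' x y := Subtype.ext (map_mul σ (x : L) (y : L))
  map_zero' := Subtype.ext (map_zero σ)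
  map_add' x y := Subtype.ext (map_add σ (x : L) (y : L))

@[simp] theorem ssm_gs_resHom_coe (h : ss_Inert O σ) (x : O) :
    ((ssm_gs_resHom h x : O) : L) = σ x := rfl

theorem ssm_gs_resHom_injective (h : ss_Inert O σ) : Function.Injective (ssm_gs_resHom h) := by
  intro x y hxy
  have := congrArg (fun z : O => (z : L)) hxy
  exact Subtype.ext (σ.injective this)

/-- an inert `σ` is trivial on the residue field. -/
theorem ssm_gs_residue (h : ss_Inert O σ) (x : O) :
    residue O (ssm_gs_resHom h x) = residue O x := by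
  rw [← sub_eq_zero, ← map_sub, residue_eq_zero_iff, ← ValuationSubring.coe_mem_nonunits_iff]
  exact (h x x.2).1

theorem ssm_gs_coeffMap_iota (h : ss_Inert O σ) (y : LaurentSeries O) :
    coeffMap (σ : L →+* L) (coeffMap (algebraMap O L) y) =
      coeffMap (algebraMap O L) (coeffMap (ssm_gs_resHom h) y) := by
  ext n
  rfl

theorem ssm_gs_red (h : ss_Inert O σ) (y : LaurentSeries O) :
    coeffMap (residue O) (coeffMap (ssm_gs_resHom h) y) = coeffMap (residue O) y := by
  ext n
  exact ssm_gs_residue h (y.coeff n)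

theorem ssm_gs_coeffMap_injective (h : ss_Inert O σ) :
    Function.Injective (coeffMap (ssm_gs_resHom h)) := by
  intro x y hxy
  apply HahnSeries.ext
  funext n
  have := congrArg (fun z : LaurentSeries O => z.coeff n) hxy
  exact ssm_gs_resHom_injective h this

/-- `coeffMap σ` preserves the field of quotients. -/
theorem ssm_gs_isQuot (h : ss_Inert O σ) {z : LaurentSeries L} (hz : gq_IsQuot O L z) :
    gq_IsQuot O L (coeffMap (σ : L →+* L) z) := by
  obtain ⟨z1, z2, hz2, hzz⟩ := hz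
  refine ⟨coeffMap (ssm_gs_resHom h) z1, coeffMap (ssm_gs_resHom h) z2, ?_, ?_⟩
  · intro h0
    exact hz2 (ssm_gs_coeffMap_injective h (by rw [h0, map_zero]))
  · rw [← ssm_gs_coeffMap_iota, ← ssm_gs_coeffMap_iota, ← map_mul, hzz]

/-- `coeffMap σ` preserves Gauss-boundedness. -/
theorem ssm_gs_isBdd (h : ss_Inert O σ) {z : LaurentSeries L} (hz : gq_IsBdd O L z) :
    gq_IsBdd O L (coeffMap (σ : L →+* L) z) := by
  obtain ⟨z1, z2, hz2, hzz⟩ := hz
  refine ⟨coeffMap (ssm_gs_resHom h) z1, coeffMap (ssm_gs_resHom h) z2, ?_, ?_⟩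
  · rw [ssm_gs_red]
    exact hz2
  · rw [← ssm_gs_coeffMap_iota, ← ssm_gs_coeffMap_iota, ← map_mul, hzz]

/-- **`σ` is trivial on the Gauss residue field.** -/
theorem ssm_gs_res (h : ss_Inert O σ) (z : ↥(gq_bddSubring O L)) :
    gq_res O L ⟨coeffMap (σ : L →+* L) (z : LaurentSeries L), ssm_gs_isBdd h z.2⟩ =
      gq_res O L z := by
  obtain ⟨z1, z2, hz2, hzz⟩ := z.2
  rw [gq_res_eq z hz2 hzz]
  have hz2' : coeffMap (residue O) (coeffMap (ssm_gs_resHom h) z2) ≠ 0 := by
    rw [ssm_gs_red]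
    exact hz2
  rw [gq_res_eq _ (z1 := coeffMap (ssm_gs_resHom h) z1) (z2 := coeffMap (ssm_gs_resHom h) z2) hz2'
    (by
      show coeffMap (σ : L →+* L) (z : LaurentSeries L) * _ = _
      rw [← ssm_gs_coeffMap_iota, ← ssm_gs_coeffMap_iota, ← map_mul, hzz]),
    ssm_gs_red, ssm_gs_red]

theorem ssm_gs_isBdd_iff (h : ss_Inert O σ) {z : LaurentSeries L} :
    gq_IsBdd O L (coeffMap (σ : L →+* L) z) ↔ gq_IsBdd O L z := by
  refine ⟨fun hz => ?_, ssm_gs_isBdd h⟩
  have h' := ssm_gs_isBdd (ssm_gs_inert_symm O σ h) hz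
  have : coeffMap (σ.symm : L →+* L) (coeffMap (σ : L →+* L) z) = z := by
    ext n
    simp
  rwa [this] at h'

end Sigma

section SigmaE

variable {L : Type*} [Field L] {O : ValuationSubring L} [WfDvdMonoid O] {σ : L ≃+* L}
variable (π : O) (hπ0 : π ≠ 0) (hπ : maximalIdeal O = Ideal.span {π})
  (E : IntermediateField L (LaurentSeries L)) (hE : E ≤ gq_quotField O L)

/-- `σ` preserves the Gauss ring of `E` (for elements whose `σ`-image lies in `E`). -/
theorem ssm_gs_mem_valSubOf_iff (h : ss_Inert O σ) (t t' : ↥E)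
    (ht : (t' : LaurentSeries L) = coeffMap (σ : L →+* L) (t : LaurentSeries L)) :
    t' ∈ gq_valSubOf π hπ0 hπ E hE ↔ t ∈ gq_valSubOf π hπ0 hπ E hE := by
  rw [gq_mem_valSubOf, gq_mem_valSubOf, ht]
  exact ssm_gs_isBdd_iff h

/-- **`σ z - z ∈ 𝔪(V(E))`**: `σ` acts trivially on the residue field of the Gauss ring. -/
theorem ssm_gs_sub_mem_nonunits (h : ss_Inert O σ) (t t' : ↥E)
    (ht : (t' : LaurentSeries L) = coeffMap (σ : L →+* L) (t : LaurentSeries L))
    (htV : t ∈ gq_valSubOf π hπ0 hπ E hE) :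
    t' - t ∈ (gq_valSubOf π hπ0 hπ E hE).nonunits := by
  have htb : gq_IsBdd O L (t : LaurentSeries L) := htV
  have ht'b : gq_IsBdd O L (t' : LaurentSeries L) := by
    rw [ht]
    exact ssm_gs_isBdd h htb
  have hb : gq_IsBdd O L ((t' - t : ↥E) : LaurentSeries L) :=
    (gq_bddSubring O L).sub_mem ht'b htb
  rw [gq_mem_nonunits_iff_res π hπ0 hπ E hE _ hb]
  have hsplit : (⟨((t' - t : ↥E) : LaurentSeries L), hb⟩ : ↥(gq_bddSubring O L)) =
      ⟨(t' : LaurentSeries L), ht'b⟩ - ⟨(t : LaurentSeries L), htb⟩ := rfl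
  rw [hsplit, map_sub, sub_eq_zero]
  have h1 := ssm_gs_res h (⟨(t : LaurentSeries L), htb⟩ : ↥(gq_bddSubring O L))
  rw [← h1]
  congr 1
  exact Subtype.ext ht

/-- `σ` preserves the maximal ideal of the Gauss ring of `E`. -/
theorem ssm_gs_mem_nonunits_iff (h : ss_Inert O σ) (t t' : ↥E)
    (ht : (t' : LaurentSeries L) = coeffMap (σ : L →+* L) (t : LaurentSeries L)) :
    t' ∈ (gq_valSubOf π hπ0 hπ E hE).nonunits ↔ t ∈ (gq_valSubOf π hπ0 hπ E hE).nonunits := by
  constructor
  · intro h'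
    have ht'V : t' ∈ gq_valSubOf π hπ0 hπ E hE := ValuationSubring.nonunits_subset h'
    have htV : t ∈ gq_valSubOf π hπ0 hπ E hE :=
      (ssm_gs_mem_valSubOf_iff π hπ0 hπ E hE h t t' ht).mp ht'V
    have h2 := ssm_gs_sub_mem_nonunits π hπ0 hπ E hE h t t' ht htV
    have : t = t' + -(t' - t) := by ring
    rw [this]
    exact gq_nonunits_add _ h' (gq_nonunits_neg _ h2)
  · intro h'
    have htV : t ∈ gq_valSubOf π hπ0 hπ E hE := ValuationSubring.nonunits_subset h'
    have h2 := ssm_gs_sub_mem_nonunits π hπ0 hπ E hE h t t' ht htV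
    have : t' = (t' - t) + t := by ring
    rw [this]
    exact gq_nonunits_add _ h2 h'

/-- **`σ z / z - 1 ∈ 𝔪(V(E))`** for units `z` of the Gauss ring. -/
theorem ssm_gs_div_sub_one_mem_nonunits (h : ss_Inert O σ) (t t' : ↥E)
    (ht : (t' : LaurentSeries L) = coeffMap (σ : L →+* L) (t : LaurentSeries L))
    (htV : t ∈ gq_valSubOf π hπ0 hπ E hE) (htinv : t⁻¹ ∈ gq_valSubOf π hπ0 hπ E hE)
    (ht0 : t ≠ 0) :
    t' / t - 1 ∈ (gq_valSubOf π hπ0 hπ E hE).nonunits := by
  have h2 := ssm_gs_sub_mem_nonunits π hπ0 hπ E hE h t t' ht htV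
  have : t' / t - 1 = (t' - t) * t⁻¹ := by
    field_simp
  rw [this]
  exact gq_nonunits_mul _ h2 htinv

end SigmaE

/-! ## `coeffMap σ` preserves `lg_E L N` -/

section PreserveE

variable {L : Type*} [Field L] (N : ℕ) [NeZero N]

theorem ssm_gs_coeffMap_mem_F2 (φ : L →+* L) {x : LaurentSeries L} (hx : x ∈ lg_F2 L N) :
    coeffMap φ x ∈ lg_F2 L N := by
  rw [lg_F2] at hx
  obtain ⟨y, hy, rfl⟩ := hx
  have : coeffMap φ (lg_phi L y) = lg_phi L (coeffMap φ y) := lg_coeffMap_phi L φ y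
  show coeffMap φ (lg_phi L y) ∈ lg_F2 L N
  rw [this]
  exact lg_phi_mem_F2 L N (ca_mem φ hy)

theorem ssm_gs_coeffMap_mem_K (φ : L →+* L) {x : LaurentSeries L} (hx : x ∈ lg_K L) :
    coeffMap φ x ∈ lg_K L := by
  rw [lg_K] at hx
  induction hx using IntermediateField.adjoin_induction with
  | mem y hy =>
    rw [Set.mem_singleton_iff] at hy
    rw [hy, lg_coeffMap_lam L φ]
    exact lg_lam_mem_K L
  | algebraMap a =>
    rw [ca_coeffMap_algebraMap]
    exact (lg_K L).algebraMap_mem _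
  | add x y _ _ hx hy => rw [map_add]; exact add_mem hx hy
  | inv x _ hx => rw [map_inv₀]; exact inv_mem hx
  | mul x y _ _ hx hy => rw [map_mul]; exact mul_mem hx hy

/-- the coefficientwise action of a ring endomorphism of `L` preserves `E = φ(F_N)(λ)`. -/
theorem ssm_gs_coeffMap_mem_E (φ : L →+* L) {x : LaurentSeries L} (hx : x ∈ lg_E L N) :
    coeffMap φ x ∈ lg_E L N := by
  -- the preimage of `E` under `coeffMap φ` is a subfield containing `φ(F_N)`, `L(λ)` … do it via
  -- the closure description of `⊔`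
  rw [lg_E] at hx ⊢
  have hsup : lg_F2 L N ⊔ lg_K L =
      IntermediateField.adjoin L ((lg_F2 L N : Set (LaurentSeries L)) ∪ (lg_K L : Set _)) := by
    rw [IntermediateField.adjoin_union, IntermediateField.adjoin_self, IntermediateField.adjoin_self]
  rw [hsup] at hx
  induction hx using IntermediateField.adjoin_induction with
  | mem y hy =>
    rcases hy with hy | hy
    · exact (le_sup_left : lg_F2 L N ≤ _) (ssm_gs_coeffMap_mem_F2 N φ hy)
    · exact (le_sup_right : lg_K L ≤ _) (ssm_gs_coeffMap_mem_K φ hy)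
  | algebraMap a =>
    rw [ca_coeffMap_algebraMap]
    exact (lg_F2 L N ⊔ lg_K L).algebraMap_mem _
  | add x y _ _ hx hy => rw [map_add]; exact add_mem hx hy
  | inv x _ hx => rw [map_inv₀]; exact inv_mem hx
  | mul x y _ _ hx hy => rw [map_mul]; exact mul_mem hx hy

end PreserveE

end Fermat.Agent.SS
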