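/-
Project SS (statement S34), cell [M], leaf [SIG] (helper20), on top of helper8's Gauss half
(`SS/Model/GaussSigma.lean`): THE ACTION OF AN INERT AUTOMORPHISM `σ` OF THE COEFFICIENT FIELD ON THE
COVER FIELD `lg_E L N`, ITS CHARTS AND ITS TWO VALUATIONS.

(S2) For `σ : L ≃+* L` (coefficientwise action on `L((X))`):
* `ssm_sg_aut N σ`        : the ring automorphism of `lg_E L N`; `ssm_sg_aut_coe` (`rfl`),
                            `ssm_sg_aut_symm`, `ssm_sg_aut_algebraMap`, `ssm_sg_aut_lam`,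
                            `ssm_sg_aut_lam_inv`, `ssm_sg_aut_fix` (`σ` fixes `coeffMap f z` when
                            `σ ∘ f = f`);
* `ssm_sg_base O σ hσ`    : for `ss_Inert O σ`, the induced automorphism of `O`; `ssm_sg_base_coe`,
                            `ssm_sg_base_residue` (trivial on the residue field),
                            `ssm_sg_base_dvd` (`π ∣ σ0 a - a`), `ssm_sg_aut_base` (`σ_base`);
* `ssm_sg_chart`          : (abstract) a ring endomorphism mapping `A0[S]` into itself preserves the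
                            chart `fc_chart A0 S`;
* `ssm_sg_aut_mem_chart…` : `ssm_sg_aut N σ` and its inverse preserve the three charts of the `λ`-line;
* `ssm_sg_aut_gauss`      : `ssm_sg_aut N σ` preserves the Gauss valuation ring `V1` of `lg_E L N` and is
                            trivial on its residue field.

(S3) abstract transport (`E` any field, `σ, W` commuting automorphisms, `V1` a valuation subring,
`V2 := V1.comap W`): `ssm_sg_comap` (the same for `V2`), `ssm_sg_triv_of_inf` (`σ b - b ∈ π B` on a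
`σ`-stable set `B ⊆ V1 ⊓ V2` with `𝔪(V1) ∩ 𝔪(V2) ∩ B ⊆ π B`), `ssm_sg_quot_sub_one`
(`σ z / z - 1 ∈ 𝔪(V)` for units `z` of `V`).

(S4) the instance: `ssm_sg_triv` = the fields `σ_triv1`, `σ_triv2` of `ss_Model` (and the same on the
overlap chart), from the element forms of [TP] (`ssm_tp_Chart.le`, `ssm_tp_Hyp.chart_inter`) and the
commutation of `W` with `σ` ([AL]).
Prefix `ssm_sg_`.
-/
import Mathlib
import Fermat.Agent.JT3.Inst.Statements
import Fermat.Agent.JT3.FCore.Charts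
import Fermat.Agent.SS.Model.GaussSigma

set_option autoImplicit false
set_option linter.unusedSectionVars false

noncomputable section

namespace Fermat.Agent.SS

open Fermat.Agent.JT3 ModularCurve IsLocalRing IntermediateField

/-! ### (S2) the automorphism of the cover field -/

section Aut

variable {L : Type*} [Field L] (N : ℕ) [NeZero N]

theorem ssm_sg_coeffMap_algebraMap (φ : L →+* L) (a : L) :
    coeffMap φ (algebraMap L (LaurentSeries L) a) = algebraMap L (LaurentSeries L) (φ a) := by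
  rw [algebraMap_laurentSeries_eq_single, coeffMap_single, algebraMap_laurentSeries_eq_single]

/-- the coefficientwise ring automorphism of `lg_E L N`. -/
def ssm_sg_aut (σ : L ≃+* L) : lg_E L N ≃+* lg_E L N where
  toFun x := ⟨coeffMap (σ : L →+* L) (x : LaurentSeries L), ssm_gs_coeffMap_mem_E N _ x.2⟩
  invFun x := ⟨coeffMap (σ.symm : L →+* L) (x : LaurentSeries L), ssm_gs_coeffMap_mem_E N _ x.2⟩
  left_inv x := Subtype.ext <| by
    show coeffMap (σ.symm : L →+* L) (coeffMap (σ : L →+* L) (x : LaurentSeries L))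
      = (x : LaurentSeries L)
    rw [coeffMap_coeffMap,
      coeffMap_congr (g := RingHom.id L) (RingHom.ext fun a => σ.symm_apply_apply a)
        (x : LaurentSeries L),
      coeffMap_id]
  right_inv x := Subtype.ext <| by
    show coeffMap (σ : L →+* L) (coeffMap (σ.symm : L →+* L) (x : LaurentSeries L))
      = (x : LaurentSeries L)
    rw [coeffMap_coeffMap,
      coeffMap_congr (g := RingHom.id L) (RingHom.ext fun a => σ.apply_symm_apply a)
        (x : LaurentSeries L),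
      coeffMap_id]
  map_mul' x y :=
    Subtype.ext (map_mul (coeffMap (σ : L →+* L)) (x : LaurentSeries L) (y : LaurentSeries L))
  map_add' x y :=
    Subtype.ext (map_add (coeffMap (σ : L →+* L)) (x : LaurentSeries L) (y : LaurentSeries L))

@[simp] theorem ssm_sg_aut_coe (σ : L ≃+* L) (x : lg_E L N) :
    ((ssm_sg_aut N σ x : lg_E L N) : LaurentSeries L) =
      coeffMap (σ : L →+* L) (x : LaurentSeries L) := rfl

theorem ssm_sg_aut_symm_coe (σ : L ≃+* L) (x : lg_E L N) :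
    (((ssm_sg_aut N σ).symm x : lg_E L N) : LaurentSeries L) =
      coeffMap (σ.symm : L →+* L) (x : LaurentSeries L) := rfl

/-- the inverse of `ssm_sg_aut N σ` is `ssm_sg_aut N σ⁻¹`. -/
theorem ssm_sg_aut_symm (σ : L ≃+* L) : (ssm_sg_aut N σ).symm = ssm_sg_aut N σ.symm :=
  RingEquiv.ext fun _ => rfl

theorem ssm_sg_aut_algebraMap (σ : L ≃+* L) (a : L) :
    ssm_sg_aut N σ (algebraMap L (lg_E L N) a) = algebraMap L (lg_E L N) (σ a) :=
  Subtype.ext (ssm_sg_coeffMap_algebraMap (σ : L →+* L) a)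

theorem ssm_sg_aut_lam (σ : L ≃+* L) : ssm_sg_aut N σ (lg_lamE N) = lg_lamE N :=
  Subtype.ext (lg_coeffMap_lam L (σ : L →+* L))

theorem ssm_sg_aut_lam_inv (σ : L ≃+* L) : ssm_sg_aut N σ (lg_lamE N)⁻¹ = (lg_lamE N)⁻¹ := by
  rw [map_inv₀, ssm_sg_aut_lam]

/-- `σ` fixes pointwise the image of a base change `coeffMap f` with `σ ∘ f = f` (e.g. the cover
field over the unramified subfield `L0 = ℚ(ζ)` of `L`). -/
theorem ssm_sg_aut_fix {L0 : Type*} [CommRing L0] (σ : L ≃+* L) (f : L0 →+* L)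
    (hf : ∀ a, σ (f a) = f a) (z : LaurentSeries L0) (hz : coeffMap f z ∈ lg_E L N) :
    ssm_sg_aut N σ ⟨coeffMap f z, hz⟩ = ⟨coeffMap f z, hz⟩ := by
  apply Subtype.ext
  show coeffMap (σ : L →+* L) (coeffMap f z) = coeffMap f z
  rw [coeffMap_coeffMap]
  exact coeffMap_congr (RingHom.ext fun a => hf a) z

end Aut

/-! ### the induced automorphism of the base -/

section Base

variable {L : Type*} [Field L] (O : ValuationSubring L) (σ : L ≃+* L)

/-- the automorphism of `O` induced by an inert `σ`. -/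
def ssm_sg_base (hσ : ss_Inert O σ) : O ≃+* O where
  toFun a := ⟨σ (a : L), ssm_gs_mem hσ a.2⟩
  invFun a := ⟨σ.symm (a : L), ssm_gs_mem (ssm_gs_inert_symm O σ hσ) a.2⟩
  left_inv _ := Subtype.ext (σ.symm_apply_apply _)
  right_inv _ := Subtype.ext (σ.apply_symm_apply _)
  map_mul' _ _ := Subtype.ext (map_mul σ _ _)
  map_add' _ _ := Subtype.ext (map_add σ _ _)

@[simp] theorem ssm_sg_base_coe (hσ : ss_Inert O σ) (a : O) :
    ((ssm_sg_base O σ hσ a : O) : L) = σ (a : L) := rfl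

theorem ssm_sg_base_sub_mem (hσ : ss_Inert O σ) (a : O) :
    ssm_sg_base O σ hσ a - a ∈ maximalIdeal O := by
  have h := (hσ (a : L) a.2).1
  exact ValuationSubring.coe_mem_nonunits_iff.1 h

/-- `σ0` is trivial on the residue field of `O`. -/
theorem ssm_sg_base_residue (hσ : ss_Inert O σ) (a : O) :
    residue O (ssm_sg_base O σ hσ a) = residue O a := by
  rw [← sub_eq_zero, ← map_sub, residue_eq_zero_iff]
  exact ssm_sg_base_sub_mem O σ hσ a

/-- the field `σ0_triv` of `ss_Model`. -/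
theorem ssm_sg_base_dvd (hσ : ss_Inert O σ) {π : O}
    (hπ : maximalIdeal O = Ideal.span {π}) (a : O) : π ∣ ssm_sg_base O σ hσ a - a := by
  rw [← Ideal.mem_span_singleton, ← hπ]
  exact ssm_sg_base_sub_mem O σ hσ a

end Base

/-! ### charts -/

section Chart

universe v

variable {A0 : Type*} [CommRing A0] {F0 : Type v} [Field F0] [Algebra A0 F0]

/-- (abstract) a ring endomorphism `σ` of `F0` inducing `σ0` on the base and mapping the coordinates
`S` into `A0[S]` preserves the chart `fc_chart A0 S`. -/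
theorem ssm_sg_chart (σ : F0 →+* F0) (σ0 : A0 →+* A0)
    (hc : ∀ a, σ (algebraMap A0 F0 a) = algebraMap A0 F0 (σ0 a)) (S : Set F0)
    (hS : ∀ s ∈ S, σ s ∈ Algebra.adjoin A0 S) {z : F0} (hz : z ∈ fc_chart A0 S) :
    σ z ∈ fc_chart A0 S := by
  have hadj : ∀ y ∈ Algebra.adjoin A0 S, σ y ∈ Algebra.adjoin A0 S := by
    intro y hy
    induction hy using Algebra.adjoin_induction with
    | mem s hs => exact hS s hs
    | algebraMap a => rw [hc]; exact Subalgebra.algebraMap_mem _ _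
    | add x y _ _ hx hy => rw [map_add]; exact add_mem hx hy
    | mul x y _ _ hx hy => rw [map_mul]; exact mul_mem hx hy
  let τ : Algebra.adjoin A0 S →+* Algebra.adjoin A0 S :=
    (σ.comp (Algebra.adjoin A0 S).val.toRingHom).codRestrict
      (Algebra.adjoin A0 S).toSubring (fun y => hadj y y.2)
  rw [fc_mem_chart] at hz ⊢
  exact hz.map_of_comp_eq τ σ (RingHom.ext fun y => rfl)

end Chart

section ChartInst

variable {L : Type*} [Field L] (O : ValuationSubring L) (N : ℕ) [NeZero N] (σ : L ≃+* L)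

/-- the field `σ_base` of `ss_Model`. -/
theorem ssm_sg_aut_base (hσ : ss_Inert O σ) (a : O) :
    ssm_sg_aut N σ (algebraMap O (lg_E L N) a) =
      algebraMap O (lg_E L N) (ssm_sg_base O σ hσ a) :=
  ssm_sg_aut_algebraMap N σ (a : L)

/-- `σ` preserves every chart whose coordinates it fixes. -/
theorem ssm_sg_aut_mem_chart (hσ : ss_Inert O σ) (S : Set (lg_E L N))
    (hS : ∀ s ∈ S, ssm_sg_aut N σ s = s) {z : lg_E L N} (hz : z ∈ fc_chart O S) :
    ssm_sg_aut N σ z ∈ fc_chart O S :=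
  ssm_sg_chart (ssm_sg_aut N σ : lg_E L N →+* lg_E L N) (ssm_sg_base O σ hσ : O →+* O)
    (ssm_sg_aut_base O N σ hσ) S
    (fun s hs => by
      show ssm_sg_aut N σ s ∈ _
      rw [hS s hs]
      exact Algebra.subset_adjoin hs) hz

/-- `σ⁻¹` preserves every chart whose coordinates `σ` fixes. -/
theorem ssm_sg_aut_symm_mem_chart (hσ : ss_Inert O σ) (S : Set (lg_E L N))
    (hS : ∀ s ∈ S, ssm_sg_aut N σ s = s) {z : lg_E L N} (hz : z ∈ fc_chart O S) :
    (ssm_sg_aut N σ).symm z ∈ fc_chart O S := by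
  rw [ssm_sg_aut_symm]
  refine ssm_sg_aut_mem_chart O N σ.symm (ssm_gs_inert_symm O σ hσ) S (fun s hs => ?_) hz
  rw [← ssm_sg_aut_symm, RingEquiv.symm_apply_eq]
  exact (hS s hs).symm

/-- the three coordinate sets of the `λ`-line are fixed by `σ`. -/
theorem ssm_sg_aut_fix1 (s : lg_E L N) (hs : s ∈ ({lg_lamE N} : Set (lg_E L N))) :
    ssm_sg_aut N σ s = s := by
  rw [Set.mem_singleton_iff.1 hs]; exact ssm_sg_aut_lam N σ

theorem ssm_sg_aut_fix2 (s : lg_E L N) (hs : s ∈ ({(lg_lamE N)⁻¹} : Set (lg_E L N))) :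
    ssm_sg_aut N σ s = s := by
  rw [Set.mem_singleton_iff.1 hs]; exact ssm_sg_aut_lam_inv N σ

theorem ssm_sg_aut_fix12 (s : lg_E L N)
    (hs : s ∈ ({lg_lamE N, (lg_lamE N)⁻¹} : Set (lg_E L N))) :
    ssm_sg_aut N σ s = s := by
  rcases Set.mem_insert_iff.1 hs with hs | hs
  · rw [hs]; exact ssm_sg_aut_lam N σ
  · rw [Set.mem_singleton_iff.1 hs]; exact ssm_sg_aut_lam_inv N σ

theorem ssm_sg_aut_mem_chart1 (hσ : ss_Inert O σ) {z : lg_E L N}
    (hz : z ∈ fc_chart O ({lg_lamE N} : Set (lg_E L N))) :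
    ssm_sg_aut N σ z ∈ fc_chart O ({lg_lamE N} : Set (lg_E L N)) :=
  ssm_sg_aut_mem_chart O N σ hσ _ (ssm_sg_aut_fix1 N σ) hz

theorem ssm_sg_aut_mem_chart2 (hσ : ss_Inert O σ) {z : lg_E L N}
    (hz : z ∈ fc_chart O ({(lg_lamE N)⁻¹} : Set (lg_E L N))) :
    ssm_sg_aut N σ z ∈ fc_chart O ({(lg_lamE N)⁻¹} : Set (lg_E L N)) :=
  ssm_sg_aut_mem_chart O N σ hσ _ (ssm_sg_aut_fix2 N σ) hz

theorem ssm_sg_aut_mem_chart12 (hσ : ss_Inert O σ) {z : lg_E L N}
    (hz : z ∈ fc_chart O ({lg_lamE N, (lg_lamE N)⁻¹} : Set (lg_E L N))) :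
    ssm_sg_aut N σ z ∈ fc_chart O ({lg_lamE N, (lg_lamE N)⁻¹} : Set (lg_E L N)) :=
  ssm_sg_aut_mem_chart O N σ hσ _ (ssm_sg_aut_fix12 N σ) hz

end ChartInst

/-! ### the Gauss valuation -/

section GaussInst

variable {L : Type*} [Field L] (O : ValuationSubring L) [IsDiscreteValuationRing O]
  (N : ℕ) [NeZero N] (σ : L ≃+* L) {π : O} (hπ : Irreducible π)

/-- `σ` preserves the Gauss valuation ring `V1` of `lg_E L N` and is trivial on its residue
field. -/
theorem ssm_sg_aut_gauss (hσ : ss_Inert O σ) (t : lg_E L N)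
    (ht : t ∈ gq_valSubOf π hπ.ne_zero hπ.maximalIdeal_eq (lg_E L N)
      (ssm_ga_E_le_quotField O N)) :
    ssm_sg_aut N σ t ∈ gq_valSubOf π hπ.ne_zero hπ.maximalIdeal_eq (lg_E L N)
        (ssm_ga_E_le_quotField O N) ∧
      ssm_sg_aut N σ t - t ∈ (gq_valSubOf π hπ.ne_zero hπ.maximalIdeal_eq (lg_E L N)
        (ssm_ga_E_le_quotField O N)).nonunits :=
  ⟨(ssm_gs_mem_valSubOf_iff π hπ.ne_zero hπ.maximalIdeal_eq (lg_E L N)
      (ssm_ga_E_le_quotField O N) hσ t (ssm_sg_aut N σ t) rfl).2 ht,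
    ssm_gs_sub_mem_nonunits π hπ.ne_zero hπ.maximalIdeal_eq (lg_E L N)
      (ssm_ga_E_le_quotField O N) hσ t (ssm_sg_aut N σ t) rfl ht⟩

end GaussInst

/-! ### (S3) abstract transport to the second valuation -/

section Transport

variable {E : Type*} [Field E] (σ W : E ≃+* E) (V1 : ValuationSubring E)

/-- if `σ` commutes with `W`, preserves `V1` and is trivial on its residue field, the same holds
for `V2 = V1.comap W`. -/
theorem ssm_sg_comap (hcomm : ∀ z, W (σ z) = σ (W z))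
    (h1 : ∀ t ∈ V1, σ t ∈ V1 ∧ σ t - t ∈ V1.nonunits) :
    ∀ t ∈ V1.comap (W : E →+* E),
      σ t ∈ V1.comap (W : E →+* E) ∧ σ t - t ∈ (V1.comap (W : E →+* E)).nonunits := by
  intro t ht
  have ht' : W t ∈ V1 := ht
  obtain ⟨ha, hb⟩ := h1 (W t) ht'
  refine ⟨?_, ?_⟩
  · show W (σ t) ∈ V1
    rw [hcomm]; exact ha
  · rw [ValuationSubring.mem_nonunits_iff_or] at hb ⊢
    rcases hb with hb | hb
    · left
      have : W (σ t - t) = 0 := by rw [map_sub, hcomm]; exact hb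
      exact (map_eq_zero_iff W W.injective).1 this
    · right
      intro h
      apply hb
      have : W ((σ t - t)⁻¹) ∈ V1 := h
      rwa [map_inv₀, map_sub, hcomm] at this

/-- `σ z / z - 1 ∈ 𝔪(V)` for a unit `z` of a valuation ring on whose residue field `σ` is
trivial. -/
theorem ssm_sg_quot_sub_one (V : ValuationSubring E)
    (h1 : ∀ t ∈ V, σ t ∈ V ∧ σ t - t ∈ V.nonunits) {z : E} (hz0 : z ≠ 0) (hz : z ∈ V)
    (hz' : z⁻¹ ∈ V) : σ z * z⁻¹ - 1 ∈ V.nonunits := by
  have h := (h1 z hz).2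
  have e : σ z * z⁻¹ - 1 = (σ z - z) * z⁻¹ := by
    rw [sub_mul, mul_inv_cancel₀ hz0]
  rw [e]
  have hmem : (⟨σ z - z, ValuationSubring.nonunits_subset h⟩ : V) * ⟨z⁻¹, hz'⟩ ∈
      maximalIdeal V :=
    Ideal.mul_mem_right _ _ (ValuationSubring.coe_mem_nonunits_iff.1 h)
  exact ValuationSubring.coe_mem_nonunits_iff.2 hmem

/-- **`σ ≡ id` modulo `ϖ` on a `σ`-stable ring `B ⊆ V1 ⊓ V2` whose special fibre is reduced with
generic points `V1`, `V2`** (`𝔪(V1) ∩ 𝔪(V2) ∩ B ⊆ ϖ B`). -/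
theorem ssm_sg_triv_of_inf (V2 : ValuationSubring E) (ϖ : E) (B : Set E)
    (hsub : ∀ b ∈ B, ∀ b' ∈ B, b - b' ∈ B)
    (hσB : ∀ b ∈ B, σ b ∈ B) (hle1 : ∀ b ∈ B, b ∈ V1) (hle2 : ∀ b ∈ B, b ∈ V2)
    (hinter : ∀ b ∈ B, b ∈ V1.nonunits → b ∈ V2.nonunits → ∃ c ∈ B, b = ϖ * c)
    (h1 : ∀ t ∈ V1, σ t ∈ V1 ∧ σ t - t ∈ V1.nonunits)
    (h2 : ∀ t ∈ V2, σ t ∈ V2 ∧ σ t - t ∈ V2.nonunits) :
    ∀ b ∈ B, ∃ c ∈ B, σ b - b = ϖ * c := fun b hb =>
  hinter (σ b - b) (hsub _ (hσB b hb) _ hb) (h1 b (hle1 b hb)).2 (h2 b (hle2 b hb)).2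

end Transport

/-! ### (S4) the instance: `σ_triv1`, `σ_triv2` -/

section Final

variable {L : Type*} [Field L] (O : ValuationSubring L) [IsDiscreteValuationRing O]
  (N : ℕ) [NeZero N] (σ : L ≃+* L) {π : O} (hπ : Irreducible π)

/-- **[SIG]** for a chart `B = fc_chart O S` of `lg_E L N` whose coordinates are fixed by `σ`
(`S = {λ}`, `{λ⁻¹}`, `{λ, λ⁻¹}`): with `V1` the Gauss valuation ring, `V2 := V1.comap W` for an
automorphism `W` commuting with `σ` (Atkin–Lehner), `B ⊆ V1 ⊓ V2` and `𝔪(V1) ∩ 𝔪(V2) ∩ B ⊆ π B`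
(both from [TP]): `σ b - b ∈ π B` for all `b ∈ B` — the fields `σ_triv1`, `σ_triv2` of
`ss_Model`. -/
theorem ssm_sg_triv (hσ : ss_Inert O σ) (W : lg_E L N ≃+* lg_E L N)
    (hW : ∀ z, W (ssm_sg_aut N σ z) = ssm_sg_aut N σ (W z))
    (S : Set (lg_E L N)) (hS : ∀ s ∈ S, ssm_sg_aut N σ s = s)
    (hle1 : ∀ b ∈ fc_chart O S, b ∈ gq_valSubOf π hπ.ne_zero hπ.maximalIdeal_eq (lg_E L N)
      (ssm_ga_E_le_quotField O N))
    (hle2 : ∀ b ∈ fc_chart O S, b ∈ (gq_valSubOf π hπ.ne_zero hπ.maximalIdeal_eq (lg_E L N)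
      (ssm_ga_E_le_quotField O N)).comap (W : lg_E L N →+* lg_E L N))
    (hinter : ∀ b ∈ fc_chart O S,
      b ∈ (gq_valSubOf π hπ.ne_zero hπ.maximalIdeal_eq (lg_E L N)
        (ssm_ga_E_le_quotField O N)).nonunits →
      b ∈ ((gq_valSubOf π hπ.ne_zero hπ.maximalIdeal_eq (lg_E L N)
        (ssm_ga_E_le_quotField O N)).comap (W : lg_E L N →+* lg_E L N)).nonunits →
      ∃ c ∈ fc_chart O S, b = algebraMap O (lg_E L N) π * c) :
    ∀ b ∈ fc_chart O S, ∃ c ∈ fc_chart O S,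
      ssm_sg_aut N σ b - b = algebraMap O (lg_E L N) π * c :=
  ssm_sg_triv_of_inf (ssm_sg_aut N σ) _ _ (algebraMap O (lg_E L N) π)
    (fc_chart O S : Set (lg_E L N))
    (fun _ hb _ hb' => (fc_chart O S).sub_mem hb hb')
    (fun _ hb => ssm_sg_aut_mem_chart O N σ hσ S hS hb) hle1 hle2 hinter
    (ssm_sg_aut_gauss O N σ hπ hσ)
    (ssm_sg_comap (ssm_sg_aut N σ) W _ hW (ssm_sg_aut_gauss O N σ hπ hσ))

end Final

end Fermat.Agent.SS
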