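/-
Project SS (S34), cell [M], leaf [BC] part II (helper2): the base-change dictionary for the
LEGENDRE towers.  `f : L0 →+* L` a homomorphism of fields of characteristic zero,
`j = coeffMap f : lg_E L0 N →+* lg_E L N`.

* `ssm_bc_j`, `ssm_bc_j_coe`, `ssm_bc_j_algebraMap`, `ssm_bc_j_lam`, `ssm_bc_j_injective`;
* `ssm_bc_W_jF`, `ssm_bc_j_WE` : `j ∘ W_{L0} = W_L ∘ j` (two-field form of `ssm_al_W_coeffMapF`);
* `ssm_bc_mem1`, `ssm_bc_nonunits1`, `ssm_bc_nonunits2` : `V_i^{L0} = j⁻¹ V_i^{L}`,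
  `𝔪(V_i^{L0}) = j⁻¹ 𝔪(V_i^{L})` for the Gauss valuation `V1` and `V2 = V1 ∘ W`
  (`O0 = f⁻¹ O`);
* `ssm_bc_sigma_fix` : `σ_E (j z) = j z` when `σ ∘ f = f`.

Prefix `ssm_bc_`.
-/
import Mathlib
import Fermat.Agent.SS.Model.BaseChange
import Fermat.Agent.SS.Model.ALE
import Fermat.Agent.SS.Model.GaussBC
import Fermat.Agent.SS.Model.TwoValW
import Fermat.Agent.SS.Model.Sigma

set_option autoImplicit false
set_option linter.unusedSectionVars false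
set_option linter.unusedVariables false
set_option linter.style.haveILetI false

noncomputable section

open ModularCurve IntermediateField IsLocalRing
open Fermat.Agent.JT3 Fermat.Agent.S24 Fermat.Agent.S28

namespace Fermat.Agent.SS

section Field

variable {L0 L : Type*} [Field L0] [Field L] [CharZero L0] [CharZero L] (f : L0 →+* L)

/-- `coeffMap f` maps `lg_E L0 N` into `lg_E L N`. -/
theorem ssm_bc_mem_E (N : ℕ) [NeZero N] {x : LaurentSeries L0} (hx : x ∈ lg_E L0 N) :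
    coeffMap f x ∈ lg_E L N := by
  rw [ssm_f4 L0 N] at hx
  rw [ssm_f4 L N]
  exact ssm_al_coeffMap_mem f _ hx

/-- **the base-change homomorphism `j = coeffMap f : lg_E L0 N →+* lg_E L N`.** -/
def ssm_bc_j (N : ℕ) [NeZero N] : ↥(lg_E L0 N) →+* ↥(lg_E L N) where
  toFun x := ⟨coeffMap f (x : LaurentSeries L0), ssm_bc_mem_E f N x.2⟩
  map_one' := Subtype.ext (map_one _)
  map_mul' _ _ := Subtype.ext (map_mul _ _ _)
  map_zero' := Subtype.ext (map_zero _)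
  map_add' _ _ := Subtype.ext (map_add _ _ _)

theorem ssm_bc_j_coe (N : ℕ) [NeZero N] (x : ↥(lg_E L0 N)) :
    ((ssm_bc_j f N x : ↥(lg_E L N)) : LaurentSeries L) = coeffMap f (x : LaurentSeries L0) := rfl

theorem ssm_bc_j_injective (N : ℕ) [NeZero N] : Function.Injective (ssm_bc_j f N) :=
  (ssm_bc_j f N).injective

theorem ssm_bc_j_algebraMap (N : ℕ) [NeZero N] (a : L0) :
    ssm_bc_j f N (algebraMap L0 ↥(lg_E L0 N) a) = algebraMap L ↥(lg_E L N) (f a) :=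
  Subtype.ext (bd_coeffMap_algebraMap f a)

theorem ssm_bc_j_lam (N : ℕ) [NeZero N] : ssm_bc_j f N (lg_lamE N) = lg_lamE N :=
  Subtype.ext (lg_coeffMap_lam L0 f)

theorem ssm_bc_j_lam_inv (N : ℕ) [NeZero N] : ssm_bc_j f N (lg_lamE N)⁻¹ = (lg_lamE N)⁻¹ := by
  rw [map_inv₀, ssm_bc_j_lam]

end Field

/-! ### two-field compatibility of the Atkin–Lehner involution -/

section W

variable {L0 L : Type*} [Field L0] [Field L] [CharZero L0] [CharZero L]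
  [Algebra L0 (AlgebraicClosure ℚ)] [Algebra L (AlgebraicClosure ℚ)] (f : L0 →+* L)
  (M q : ℕ) [NeZero M] [NeZero q] (hq : q.Prime) (hqM : ¬ q ∣ M)

/-- `coeffMap f` restricted to the level-`N` fields -/
def ssm_bc_jF (N : ℕ) [NeZero N] : lg_F L0 N →+* lg_F L N where
  toFun x := ⟨coeffMap f x, ssm_al_coeffMap_mem f N x.2⟩
  map_one' := Subtype.ext (map_one _)
  map_mul' _ _ := Subtype.ext (map_mul _ _ _)
  map_zero' := Subtype.ext (map_zero _)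
  map_add' _ _ := Subtype.ext (map_add _ _ _)

theorem ssm_bc_coe_jF (N : ℕ) [NeZero N] (x : lg_F L0 N) :
    ((ssm_bc_jF f N x : lg_F L N) : LaurentSeries L) = coeffMap f (x : LaurentSeries L0) := rfl

theorem ssm_bc_jF_algebraMap (N : ℕ) [NeZero N] (c : L0) :
    ssm_bc_jF f N (algebraMap L0 (lg_F L0 N) c) = algebraMap L (lg_F L N) (f c) :=
  Subtype.ext (bd_coeffMap_algebraMap f c)

theorem ssm_bc_W_jF_of_mem {x : LaurentSeries L0} (hx : x ∈ lg_F L0 M)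
    (h : x ∈ lg_F L0 (M * q)) :
    ssm_al_W L M q hq hqM (ssm_bc_jF f (M * q) ⟨x, h⟩) =
      ssm_bc_jF f (M * q) (ssm_al_W L0 M q hq hqM ⟨x, h⟩) := by
  apply Subtype.ext
  have hσ : coeffMap f x ∈ lg_F L M := ssm_al_coeffMap_mem f M hx
  rw [ssm_bc_coe_jF, ssm_al_coe_W_of_mem L0 M q hq hqM hx h]
  have e : ssm_bc_jF f (M * q) ⟨x, h⟩ = ⟨coeffMap f x, ssm_al_mem_of_mem L M q hσ⟩ := rfl
  rw [e, ssm_al_coe_W_of_mem L M q hq hqM hσ, coeffMap_qExpand]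

theorem ssm_bc_W_jF_expand_of_mem {x : LaurentSeries L0} (hx : x ∈ lg_F L0 M)
    (h : qExpand L0 q x ∈ lg_F L0 (M * q)) :
    ssm_al_W L M q hq hqM (ssm_bc_jF f (M * q) ⟨qExpand L0 q x, h⟩) =
      ssm_bc_jF f (M * q) (ssm_al_W L0 M q hq hqM ⟨qExpand L0 q x, h⟩) := by
  apply Subtype.ext
  have hσ : coeffMap f x ∈ lg_F L M := ssm_al_coeffMap_mem f M hx
  rw [ssm_bc_coe_jF, ssm_al_coe_W_expand_of_mem L0 M q hq hqM hx h]
  have e : ssm_bc_jF f (M * q) ⟨qExpand L0 q x, h⟩ =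
      ⟨qExpand L q (coeffMap f x), ssm_al_expand_mem L M q hσ⟩ :=
    Subtype.ext (coeffMap_qExpand f q x)
  rw [e, ssm_al_coe_W_expand_of_mem L M q hq hqM hσ]

/-- **two-field [AL] (iii)**: `W_L ∘ j = j ∘ W_{L0}` on `F_{M q}`. -/
theorem ssm_bc_W_jF (x : lg_F L0 (M * q)) :
    ssm_al_W L M q hq hqM (ssm_bc_jF f (M * q) x) =
      ssm_bc_jF f (M * q) (ssm_al_W L0 M q hq hqM x) := by
  have key : ((ssm_al_W L M q hq hqM : lg_F L (M * q) →+* lg_F L (M * q)).comp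
        (ssm_bc_jF f (M * q)) :
        IntermediateField.adjoin L0 (divisorExpansionsC L0 (M * q)) →+* lg_F L (M * q)) =
      (ssm_bc_jF f (M * q)).comp
        (ssm_al_W L0 M q hq hqM : lg_F L0 (M * q) →+* lg_F L0 (M * q)) := by
    refine ssm_al_ringHom_ext (divisorExpansionsC L0 (M * q)) _ _ (fun c => ?_) ?_
    · change ssm_al_W L M q hq hqM
          (ssm_bc_jF f (M * q) (algebraMap L0 (lg_F L0 (M * q)) c)) =
        ssm_bc_jF f (M * q)
          (ssm_al_W L0 M q hq hqM (algebraMap L0 (lg_F L0 (M * q)) c))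
      rw [ssm_bc_jF_algebraMap, AlgEquiv.commutes, AlgEquiv.commutes, ssm_bc_jF_algebraMap]
    · rintro _ ⟨d, hd, hdN, rfl⟩
      have := hd
      rcases nls_dvd_cases hq hqM hdN with hdM | ⟨e, rfl, heM⟩
      · exact ssm_bc_W_jF_of_mem f M q hq hqM (jqModCd_mem_full L0 M hdM) _
      · have he0 : NeZero e := ⟨fun h0 => by subst h0; exact NeZero.ne (q * 0) (by simp)⟩
        have hm : qExpand L0 e (jqModC L0) ∈ lg_F L0 M := jqModCd_mem_full L0 M heM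
        have e1 : qExpand L0 (q * e) (jqModC L0) = qExpand L0 q (qExpand L0 e (jqModC L0)) := by
          rw [qExpand_qExpand]
        have e2 : (⟨qExpand L0 (q * e) (jqModC L0), jqModCd_mem_full L0 (M * q) hdN⟩ :
            lg_F L0 (M * q)) =
            ⟨qExpand L0 q (qExpand L0 e (jqModC L0)), ssm_al_expand_mem L0 M q hm⟩ :=
          Subtype.ext e1
        change ssm_al_W L M q hq hqM (ssm_bc_jF f (M * q)
            ⟨qExpand L0 (q * e) (jqModC L0), jqModCd_mem_full L0 (M * q) hdN⟩) =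
          ssm_bc_jF f (M * q) (ssm_al_W L0 M q hq hqM
            ⟨qExpand L0 (q * e) (jqModC L0), jqModCd_mem_full L0 (M * q) hdN⟩)
        rw [e2]
        exact ssm_bc_W_jF_expand_of_mem f M q hq hqM hm _
  exact DFunLike.congr_fun key x

end W

section WE

variable {L0 L : Type*} [Field L0] [Field L] [CharZero L0] [CharZero L]
  [Algebra L0 (AlgebraicClosure ℚ)] [Algebra L (AlgebraicClosure ℚ)] (f : L0 →+* L)
  (N' q : ℕ) [NeZero N'] [NeZero q] (hq : q.Prime) (hq2 : ¬ 2 ∣ q) (hqN' : ¬ q ∣ N')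

/-- **`j ∘ W_{L0} = W_L ∘ j` on `lg_E (N' q)`.** -/
theorem ssm_bc_j_WE (x : ↥(lg_E L0 (N' * q))) :
    ssm_bc_j f (N' * q) (ssm_al_WE L0 N' q hq hq2 hqN' x) =
      ssm_al_WE L N' q hq hq2 hqN' (ssm_bc_j f (N' * q) x) := by
  apply Subtype.ext
  rw [ssm_bc_j_coe, ssm_al_coe_WE L0 N' q hq hq2 hqN' _ x.2]
  have h1 := ssm_bc_W_jF f (ssm_f4_level N') q hq (ssm_al_not_dvd_level N' q hq hq2 hqN')
    ⟨x, ssm_al_mem_F_of_mem_E L0 N' q hq2 x.2⟩
  have h2 := congrArg (fun z : lg_F L (ssm_f4_level N' * q) => (z : LaurentSeries L)) h1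
  simp only [ssm_bc_coe_jF] at h2
  rw [← h2]
  exact (ssm_al_coe_WE L N' q hq hq2 hqN' _ (ssm_bc_j f (N' * q) x).2).symm

end WE

/-! ### the two vertical valuations -/

section Gauss

variable {L0 L : Type*} [Field L0] [Field L] [CharZero L0] [CharZero L] (f : L0 →+* L)
  (O0 : ValuationSubring L0) (O : ValuationSubring L) (hO : ∀ x : L0, x ∈ O0 ↔ f x ∈ O)
  [IsDiscreteValuationRing O0] [IsDiscreteValuationRing O]
  {π0 : O0} (hπ0 : Irreducible π0) {π : O} (hπ : Irreducible π)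

include hO in
/-- `V1^{L0} = j⁻¹ V1^{L}` (Gauss valuation rings). -/
theorem ssm_bc_mem1 (N : ℕ) [NeZero N] (z : ↥(lg_E L0 N)) :
    z ∈ gq_valSubOf π0 hπ0.ne_zero hπ0.maximalIdeal_eq (lg_E L0 N)
        (ssm_ga_E_le_quotField O0 N) ↔
      ssm_bc_j f N z ∈ gq_valSubOf π hπ.ne_zero hπ.maximalIdeal_eq (lg_E L N)
        (ssm_ga_E_le_quotField O N) :=
  (ssm_gb_mem_valSubOf_iff f hO π0 hπ0.ne_zero hπ0.maximalIdeal_eq π hπ.ne_zero
    hπ.maximalIdeal_eq (lg_E L0 N) (ssm_ga_E_le_quotField O0 N) (lg_E L N)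
    (ssm_ga_E_le_quotField O N) z (ssm_bc_j f N z) rfl).symm

include hO in
/-- `𝔪(V1^{L0}) = j⁻¹ 𝔪(V1^{L})`. -/
theorem ssm_bc_nonunits1 (N : ℕ) [NeZero N] (z : ↥(lg_E L0 N)) :
    z ∈ (gq_valSubOf π0 hπ0.ne_zero hπ0.maximalIdeal_eq (lg_E L0 N)
        (ssm_ga_E_le_quotField O0 N)).nonunits ↔
      ssm_bc_j f N z ∈ (gq_valSubOf π hπ.ne_zero hπ.maximalIdeal_eq (lg_E L N)
        (ssm_ga_E_le_quotField O N)).nonunits :=
  (ssm_gb_mem_nonunits_iff f hO π0 hπ0.ne_zero hπ0.maximalIdeal_eq π hπ.ne_zero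
    hπ.maximalIdeal_eq (lg_E L0 N) (ssm_ga_E_le_quotField O0 N) (lg_E L N)
    (ssm_ga_E_le_quotField O N) z (ssm_bc_j f N z) rfl).symm

variable [Algebra L0 (AlgebraicClosure ℚ)] [Algebra L (AlgebraicClosure ℚ)]
  (N' q : ℕ) [NeZero N'] [NeZero q] (hq : q.Prime) (hq2 : ¬ 2 ∣ q) (hqN' : ¬ q ∣ N')

include hO in
/-- `V2^{L0} = j⁻¹ V2^{L}` for `V2 = V1 ∘ W`. -/
theorem ssm_bc_mem2 (z : ↥(lg_E L0 (N' * q))) :
    z ∈ (gq_valSubOf π0 hπ0.ne_zero hπ0.maximalIdeal_eq (lg_E L0 (N' * q))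
        (ssm_ga_E_le_quotField O0 (N' * q))).comap
          ((ssm_al_WE L0 N' q hq hq2 hqN').toRingEquiv :
            ↥(lg_E L0 (N' * q)) →+* ↥(lg_E L0 (N' * q))) ↔
      ssm_bc_j f (N' * q) z ∈ (gq_valSubOf π hπ.ne_zero hπ.maximalIdeal_eq (lg_E L (N' * q))
        (ssm_ga_E_le_quotField O (N' * q))).comap
          ((ssm_al_WE L N' q hq hq2 hqN').toRingEquiv :
            ↥(lg_E L (N' * q)) →+* ↥(lg_E L (N' * q))) := by
  rw [ValuationSubring.mem_comap, ValuationSubring.mem_comap,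
    ssm_bc_mem1 f O0 O hO hπ0 hπ (N' * q)]
  have e : ssm_bc_j f (N' * q) (((ssm_al_WE L0 N' q hq hq2 hqN').toRingEquiv :
      ↥(lg_E L0 (N' * q)) →+* ↥(lg_E L0 (N' * q))) z) =
      ((ssm_al_WE L N' q hq hq2 hqN').toRingEquiv :
        ↥(lg_E L (N' * q)) →+* ↥(lg_E L (N' * q))) (ssm_bc_j f (N' * q) z) :=
    ssm_bc_j_WE f N' q hq hq2 hqN' z
  rw [e]

include hO in
/-- `𝔪(V2^{L0}) = j⁻¹ 𝔪(V2^{L})` for `V2 = V1 ∘ W`. -/
theorem ssm_bc_nonunits2 (z : ↥(lg_E L0 (N' * q))) :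
    z ∈ ((gq_valSubOf π0 hπ0.ne_zero hπ0.maximalIdeal_eq (lg_E L0 (N' * q))
        (ssm_ga_E_le_quotField O0 (N' * q))).comap
          ((ssm_al_WE L0 N' q hq hq2 hqN').toRingEquiv :
            ↥(lg_E L0 (N' * q)) →+* ↥(lg_E L0 (N' * q)))).nonunits ↔
      ssm_bc_j f (N' * q) z ∈ ((gq_valSubOf π hπ.ne_zero hπ.maximalIdeal_eq (lg_E L (N' * q))
        (ssm_ga_E_le_quotField O (N' * q))).comap
          ((ssm_al_WE L N' q hq hq2 hqN').toRingEquiv :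
            ↥(lg_E L (N' * q)) →+* ↥(lg_E L (N' * q)))).nonunits := by
  rw [ssm_tw_nonunits_comap, ssm_tw_nonunits_comap,
    ssm_bc_nonunits1 f O0 O hO hπ0 hπ (N' * q)]
  have e : ssm_bc_j f (N' * q) ((ssm_al_WE L0 N' q hq hq2 hqN').toRingEquiv z) =
      (ssm_al_WE L N' q hq hq2 hqN').toRingEquiv (ssm_bc_j f (N' * q) z) :=
    ssm_bc_j_WE f N' q hq hq2 hqN' z
  rw [e]

end Gauss

/-! ### the base rings and the three charts -/

section Charts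

variable {L0 L : Type*} [Field L0] [Field L] [CharZero L0] [CharZero L] (f : L0 →+* L)
  (O0 : ValuationSubring L0) (O : ValuationSubring L) (hO : ∀ x : L0, x ∈ O0 ↔ f x ∈ O)
  (N : ℕ) [NeZero N]

/-- `hj0` of `ssm_tht_node`: `j` is compatible with `j0 = ssm_gb_resHom : O0 →+* O`. -/
theorem ssm_bc_j_algebraMapO (a : O0) :
    ssm_bc_j f N (algebraMap ↥O0 ↥(lg_E L0 N) a) =
      algebraMap ↥O ↥(lg_E L N) (ssm_gb_resHom f O0 O hO a) :=
  ssm_bc_j_algebraMap f N (a : L0)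

include hO in
/-- `hjB` for the `λ`-chart. -/
theorem ssm_bc_chart_lam {b : ↥(lg_E L0 N)}
    (hb : b ∈ fc_chart ↥O0 ({lg_lamE N} : Set ↥(lg_E L0 N))) :
    ssm_bc_j f N b ∈ fc_chart ↥O ({lg_lamE N} : Set ↥(lg_E L N)) := by
  have h := ssm_bc_chart (ssm_bc_j f N) (ssm_gb_resHom f O0 O hO)
    (ssm_bc_j_algebraMapO f O0 O hO N) _ hb
  rwa [Set.image_singleton, ssm_bc_j_lam] at h

include hO in
/-- `hjB` for the `λ⁻¹`-chart. -/
theorem ssm_bc_chart_lam_inv {b : ↥(lg_E L0 N)}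
    (hb : b ∈ fc_chart ↥O0 ({(lg_lamE N)⁻¹} : Set ↥(lg_E L0 N))) :
    ssm_bc_j f N b ∈ fc_chart ↥O ({(lg_lamE N)⁻¹} : Set ↥(lg_E L N)) := by
  have h := ssm_bc_chart (ssm_bc_j f N) (ssm_gb_resHom f O0 O hO)
    (ssm_bc_j_algebraMapO f O0 O hO N) _ hb
  rwa [Set.image_singleton, ssm_bc_j_lam_inv] at h

include hO in
/-- `hjB` for the overlap chart. -/
theorem ssm_bc_chart_lam12 {b : ↥(lg_E L0 N)}
    (hb : b ∈ fc_chart ↥O0 ({lg_lamE N, (lg_lamE N)⁻¹} : Set ↥(lg_E L0 N))) :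
    ssm_bc_j f N b ∈ fc_chart ↥O ({lg_lamE N, (lg_lamE N)⁻¹} : Set ↥(lg_E L N)) := by
  have h := ssm_bc_chart (ssm_bc_j f N) (ssm_gb_resHom f O0 O hO)
    (ssm_bc_j_algebraMapO f O0 O hO N) _ hb
  rwa [Set.image_pair, ssm_bc_j_lam, ssm_bc_j_lam_inv] at h

end Charts

/-! ### the inertia automorphism fixes the image of the small tower -/

section Sigma

variable {L0 L : Type*} [Field L0] [Field L] [CharZero L0] [CharZero L] (f : L0 →+* L)

/-- `σ_E (j z) = j z` when `σ ∘ f = f` (e.g. `L0 = ℚ(ζ_{N'})`, `σ` inert: `ssm_ub_fixed`). -/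
theorem ssm_bc_sigma_fix (N : ℕ) [NeZero N] (σ : L ≃+* L) (hσf : ∀ a : L0, σ (f a) = f a)
    (z : ↥(lg_E L0 N)) : ssm_sg_aut N σ (ssm_bc_j f N z) = ssm_bc_j f N z := by
  apply Subtype.ext
  rw [ssm_sg_aut_coe, ssm_bc_j_coe, coeffMap_coeffMap]
  exact coeffMap_congr (RingHom.ext fun a => hσf a) _

end Sigma

end Fermat.Agent.SS
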