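/-
Project SS (statement S34), cell [M], leaf [SIG] (helper20), file 2/2: [SIG] plugged into [TP]
(helper12's `SS/Model/TwoPrimes.lean`).

* `ssm_sg_triv_ff` : abstract function-field form: from `H : ssm_tp_Hyp (π in A0[y]) V1 V2`, a chart
  `hC : ssm_tp_Chart (π in A0[y]) (fc_chart A0 S)` stable under `σ`, and `σ` trivial on the residue
  fields of `V1`, `V2`: `∀ b ∈ B, ∃ c ∈ B, σ b - b = π c` (the fields `σ_triv1/2` of `ss_Model`);
* `ssm_sg_triv_tp` : the instance `F0 = lg_E L N`, `σ = ssm_sg_aut N σ`, `V1` = Gauss,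
  `V2 = V1.comap W` with `W` commuting with `σ`.
Prefix `ssm_sg_`.
-/
import Mathlib
import Fermat.Agent.SS.Model.Sigma
import Fermat.Agent.SS.Model.TwoPrimes

set_option autoImplicit false
set_option linter.style.haveILetI false
noncomputable section
namespace Fermat.Agent.SS
open Fermat.Agent.JT3 ModularCurve IsLocalRing IntermediateField

section Abs
universe v
variable {A0 L : Type*} {F0 : Type v} [CommRing A0] [IsDomain A0] [IsDiscreteValuationRing A0]
  [Field L] [Field F0] [Algebra A0 L] [IsFractionRing A0 L] [Algebra L F0] [Algebra A0 F0]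
  [IsScalarTower A0 L F0]

/-- abstract function-field form of [SIG]: from [TP]'s `H`, `hC`. -/
theorem ssm_sg_triv_ff {π : A0} {y : F0} (hy : Transcendental L y)
    (σ : F0 ≃+* F0) (V1 V2 : ValuationSubring F0) (S : Set F0)
    (H : ssm_tp_Hyp (algebraMap A0 (Algebra.adjoin A0 ({y} : Set F0)) π) V1 V2)
    (hC : ssm_tp_Chart (algebraMap A0 (Algebra.adjoin A0 ({y} : Set F0)) π) (fc_chart A0 S))
    (hσB : ∀ b ∈ fc_chart A0 S, σ b ∈ fc_chart A0 S)
    (h1 : ∀ t ∈ V1, σ t ∈ V1 ∧ σ t - t ∈ V1.nonunits)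
    (h2 : ∀ t ∈ V2, σ t ∈ V2 ∧ σ t - t ∈ V2.nonunits) :
    ∀ b ∈ fc_chart A0 S, ∃ c ∈ fc_chart A0 S, σ b - b = algebraMap A0 F0 π * c := by
  have hyA : Transcendental A0 y := fc_ff_transcendental (L := L) hy
  haveI : IsIntegrallyClosed (Algebra.adjoin A0 ({y} : Set F0)) :=
    fc_ff_isIntegrallyClosed hyA
  haveI : FaithfulSMul (Algebra.adjoin A0 ({y} : Set F0)) F0 :=
    (faithfulSMul_iff_algebraMap_injective _ _).2 Subtype.val_injective
  exact ssm_sg_triv_of_inf σ V1 V2 (algebraMap A0 F0 π) (fc_chart A0 S : Set F0)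
    (fun _ hb _ hb' => (fc_chart A0 S).sub_mem hb hb') hσB
    (fun b hb => hC.le H.over1 hb) (fun b hb => hC.le H.over2 hb)
    (fun b hb h1 h2 => H.chart_inter hC hb h1 h2) h1 h2

end Abs

end Fermat.Agent.SS

namespace Fermat.Agent.SS
open Fermat.Agent.JT3 ModularCurve IsLocalRing IntermediateField

section Inst

variable {L : Type*} [Field L] (O : ValuationSubring L) [IsDiscreteValuationRing O]
  (N : ℕ) [NeZero N] (σ : L ≃+* L) {π : O} (hπ : Irreducible π)

theorem ssm_sg_triv_tp (hσ : ss_Inert O σ) (W : lg_E L N ≃+* lg_E L N)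
    (hW : ∀ z, W (ssm_sg_aut N σ z) = ssm_sg_aut N σ (W z))
    {y : lg_E L N} (hy : Transcendental L y)
    (S : Set (lg_E L N)) (hS : ∀ s ∈ S, ssm_sg_aut N σ s = s)
    (H : ssm_tp_Hyp (algebraMap O (Algebra.adjoin O ({y} : Set (lg_E L N))) π)
      (gq_valSubOf π hπ.ne_zero hπ.maximalIdeal_eq (lg_E L N) (ssm_ga_E_le_quotField O N))
      ((gq_valSubOf π hπ.ne_zero hπ.maximalIdeal_eq (lg_E L N)
        (ssm_ga_E_le_quotField O N)).comap (W : lg_E L N →+* lg_E L N)))
    (hC : ssm_tp_Chart (algebraMap O (Algebra.adjoin O ({y} : Set (lg_E L N))) π) (fc_chart O S)) :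
    ∀ b ∈ fc_chart O S, ∃ c ∈ fc_chart O S,
      ssm_sg_aut N σ b - b = algebraMap O (lg_E L N) π * c := by
  haveI : IsScalarTower O L (lg_E L N) := IsScalarTower.of_algebraMap_eq fun _ => rfl
  exact ssm_sg_triv_ff (L := L) hy (ssm_sg_aut N σ) _ _ S H hC
    (fun _ hb => ssm_sg_aut_mem_chart O N σ hσ S hS hb)
    (ssm_sg_aut_gauss O N σ hπ hσ)
    (ssm_sg_comap (ssm_sg_aut N σ) W _ hW (ssm_sg_aut_gauss O N σ hπ hσ))

end Inst

end Fermat.Agent.SS
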