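/-
Project SS (statement S34), cell [M], leaf [SIG], HESSE TWIN (helper20): the action of an inert
automorphism `σ` of the coefficient field on the Hesse cover field `hs_E L h3 N = φ(F_N)(μ)`
(`q = 2`), its charts and its two valuations.  Twin of `SS/Model/Sigma.lean`; the abstract parts
(`ssm_sg_base`, `ssm_sg_chart`, `ssm_sg_comap`, `ssm_sg_triv_of_inf`, `ssm_sg_quot_sub_one`) are
reused verbatim.

* `ssm_sgh_mem`           : `coeffMap φ` preserves `hs_E L h3 N`;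
* `ssm_sgh_aut h3 N σ`    : the ring automorphism of `hs_E L h3 N`; `_coe`, `_symm`, `_algebraMap`,
                            `_mu`, `_mu_inv`, `_fix`;
* `ssm_sgh_aut_base`      : the field `σ_base` of `ss_Model`;
* `ssm_sgh_aut_mem_chart…`: `σ`, `σ⁻¹` preserve the charts of the `μ`-line;
* `ssm_sgh_aut_gauss`     : `σ` preserves the Gauss valuation ring of `hs_E L h3 N` and is trivial on its
                            residue field;
* `ssm_sgh_triv`          : the fields `σ_triv1`, `σ_triv2` of `ss_Model`.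
Prefix `ssm_sgh_`.
-/
import Mathlib
import Fermat.Agent.JT3.Inst.HesseH4a
import Fermat.Agent.SS.Model.SigmaTP

set_option autoImplicit false
set_option linter.unusedSectionVars false

noncomputable section

namespace Fermat.Agent.SS

open Fermat.Agent.JT3 ModularCurve IsLocalRing IntermediateField

/-! ### the automorphism of the Hesse cover field -/

section Aut

variable {L : Type*} [Field L] (h3 : (3 : L) ≠ 0) (N : ℕ) [NeZero N]

theorem ssm_sgh_mem_F3 (φ : L →+* L) {x : LaurentSeries L} (hx : x ∈ hs_F3 L N) :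
    coeffMap φ x ∈ hs_F3 L N := by
  rw [hs_F3] at hx
  obtain ⟨y, hy, rfl⟩ := hx
  show coeffMap φ (hs_phi L y) ∈ hs_F3 L N
  rw [hs_coeffMap_phi L φ y]
  exact hs_phi_mem_F3 L N (ca_mem φ hy)

theorem ssm_sgh_mem_K (φ : L →+* L) {x : LaurentSeries L} (hx : x ∈ hs_K L h3) :
    coeffMap φ x ∈ hs_K L h3 := by
  rw [hs_K] at hx
  induction hx using IntermediateField.adjoin_induction with
  | mem y hy =>
    rw [Set.mem_singleton_iff] at hy
    rw [hy, hs_coeffMap_mu L h3 φ h3]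
    exact hs_mu_mem_K L h3
  | algebraMap a =>
    rw [ca_coeffMap_algebraMap]
    exact (hs_K L h3).algebraMap_mem _
  | add x y _ _ hx hy => rw [map_add]; exact add_mem hx hy
  | inv x _ hx => rw [map_inv₀]; exact inv_mem hx
  | mul x y _ _ hx hy => rw [map_mul]; exact mul_mem hx hy

/-- the coefficientwise action of a ring endomorphism of `L` preserves `E = φ(F_N)(μ)`. -/
theorem ssm_sgh_mem (φ : L →+* L) {x : LaurentSeries L} (hx : x ∈ hs_E L h3 N) :
    coeffMap φ x ∈ hs_E L h3 N := by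
  rw [hs_E] at hx ⊢
  have hsup : hs_F3 L N ⊔ hs_K L h3 =
      IntermediateField.adjoin L ((hs_F3 L N : Set (LaurentSeries L)) ∪ (hs_K L h3 : Set _)) := by
    rw [IntermediateField.adjoin_union, IntermediateField.adjoin_self,
      IntermediateField.adjoin_self]
  rw [hsup] at hx
  induction hx using IntermediateField.adjoin_induction with
  | mem y hy =>
    rcases hy with hy | hy
    · exact (le_sup_left : hs_F3 L N ≤ _) (ssm_sgh_mem_F3 N φ hy)
    · exact (le_sup_right : hs_K L h3 ≤ _) (ssm_sgh_mem_K h3 φ hy)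
  | algebraMap a =>
    rw [ca_coeffMap_algebraMap]
    exact (hs_F3 L N ⊔ hs_K L h3).algebraMap_mem _
  | add x y _ _ hx hy => rw [map_add]; exact add_mem hx hy
  | inv x _ hx => rw [map_inv₀]; exact inv_mem hx
  | mul x y _ _ hx hy => rw [map_mul]; exact mul_mem hx hy

/-- the coefficientwise ring automorphism of `hs_E L h3 N`. -/
def ssm_sgh_aut (σ : L ≃+* L) : hs_E L h3 N ≃+* hs_E L h3 N where
  toFun x := ⟨coeffMap (σ : L →+* L) (x : LaurentSeries L), ssm_sgh_mem h3 N _ x.2⟩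
  invFun x := ⟨coeffMap (σ.symm : L →+* L) (x : LaurentSeries L), ssm_sgh_mem h3 N _ x.2⟩
  left_inv x := Subtype.ext <| by
    show coeffMap (σ.symm : L →+* L) (coeffMap (σ : L →+* L) (x : LaurentSeries L))
      = (x : LaurentSeries L)
    rw [coeffMap_coeffMap,
      coeffMap_congr (g := RingHom.id L) (RingHom.ext fun a => σ.symm_apply_apply a)
        (x : LaurentSeries L),
      coeffMap_id]
  right_inv x := Subtype.ext <| by
    show coeffMap (σ : L →+* L) (coeffMap (σ.symm : L →+* L) (x : LaurentSeries L))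
      = (x : LaurentSeries L)
    rw [coeffMap_coeffMap,
      coeffMap_congr (g := RingHom.id L) (RingHom.ext fun a => σ.apply_symm_apply a)
        (x : LaurentSeries L),
      coeffMap_id]
  map_mul' x y :=
    Subtype.ext (map_mul (coeffMap (σ : L →+* L)) (x : LaurentSeries L) (y : LaurentSeries L))
  map_add' x y :=
    Subtype.ext (map_add (coeffMap (σ : L →+* L)) (x : LaurentSeries L) (y : LaurentSeries L))

@[simp] theorem ssm_sgh_aut_coe (σ : L ≃+* L) (x : hs_E L h3 N) :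
    ((ssm_sgh_aut h3 N σ x : hs_E L h3 N) : LaurentSeries L) =
      coeffMap (σ : L →+* L) (x : LaurentSeries L) := rfl

theorem ssm_sgh_aut_symm (σ : L ≃+* L) : (ssm_sgh_aut h3 N σ).symm = ssm_sgh_aut h3 N σ.symm :=
  RingEquiv.ext fun _ => rfl

theorem ssm_sgh_aut_algebraMap (σ : L ≃+* L) (a : L) :
    ssm_sgh_aut h3 N σ (algebraMap L (hs_E L h3 N) a) = algebraMap L (hs_E L h3 N) (σ a) :=
  Subtype.ext (ssm_sg_coeffMap_algebraMap (σ : L →+* L) a)

theorem ssm_sgh_aut_mu (σ : L ≃+* L) : ssm_sgh_aut h3 N σ (hs_muE h3 N) = hs_muE h3 N :=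
  Subtype.ext (hs_coeffMap_mu L h3 (σ : L →+* L) h3)

theorem ssm_sgh_aut_mu_inv (σ : L ≃+* L) :
    ssm_sgh_aut h3 N σ (hs_muE h3 N)⁻¹ = (hs_muE h3 N)⁻¹ := by
  rw [map_inv₀, ssm_sgh_aut_mu]

/-- `σ` fixes pointwise the image of a base change `coeffMap f` with `σ ∘ f = f`. -/
theorem ssm_sgh_aut_fix {L0 : Type*} [CommRing L0] (σ : L ≃+* L) (f : L0 →+* L)
    (hf : ∀ a, σ (f a) = f a) (z : LaurentSeries L0) (hz : coeffMap f z ∈ hs_E L h3 N) :
    ssm_sgh_aut h3 N σ ⟨coeffMap f z, hz⟩ = ⟨coeffMap f z, hz⟩ := by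
  apply Subtype.ext
  show coeffMap (σ : L →+* L) (coeffMap f z) = coeffMap f z
  rw [coeffMap_coeffMap]
  exact coeffMap_congr (RingHom.ext fun a => hf a) z

end Aut

/-! ### charts -/

section ChartInst

variable {L : Type*} [Field L] (h3 : (3 : L) ≠ 0) (O : ValuationSubring L) (N : ℕ) [NeZero N]
  (σ : L ≃+* L)

/-- the field `σ_base` of `ss_Model`. -/
theorem ssm_sgh_aut_base (hσ : ss_Inert O σ) (a : O) :
    ssm_sgh_aut h3 N σ (algebraMap O (hs_E L h3 N) a) =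
      algebraMap O (hs_E L h3 N) (ssm_sg_base O σ hσ a) :=
  ssm_sgh_aut_algebraMap h3 N σ (a : L)

/-- `σ` preserves every chart whose coordinates it fixes. -/
theorem ssm_sgh_aut_mem_chart (hσ : ss_Inert O σ) (S : Set (hs_E L h3 N))
    (hS : ∀ s ∈ S, ssm_sgh_aut h3 N σ s = s) {z : hs_E L h3 N} (hz : z ∈ fc_chart O S) :
    ssm_sgh_aut h3 N σ z ∈ fc_chart O S :=
  ssm_sg_chart (ssm_sgh_aut h3 N σ : hs_E L h3 N →+* hs_E L h3 N)
    (ssm_sg_base O σ hσ : O →+* O) (ssm_sgh_aut_base h3 O N σ hσ) S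
    (fun s hs => by
      show ssm_sgh_aut h3 N σ s ∈ _
      rw [hS s hs]
      exact Algebra.subset_adjoin hs) hz

/-- `σ⁻¹` preserves every chart whose coordinates `σ` fixes. -/
theorem ssm_sgh_aut_symm_mem_chart (hσ : ss_Inert O σ) (S : Set (hs_E L h3 N))
    (hS : ∀ s ∈ S, ssm_sgh_aut h3 N σ s = s) {z : hs_E L h3 N} (hz : z ∈ fc_chart O S) :
    (ssm_sgh_aut h3 N σ).symm z ∈ fc_chart O S := by
  rw [ssm_sgh_aut_symm]
  refine ssm_sgh_aut_mem_chart h3 O N σ.symm (ssm_gs_inert_symm O σ hσ) S (fun s hs => ?_) hz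
  rw [← ssm_sgh_aut_symm, RingEquiv.symm_apply_eq]
  exact (hS s hs).symm

theorem ssm_sgh_aut_fix1 (s : hs_E L h3 N) (hs : s ∈ ({hs_muE h3 N} : Set (hs_E L h3 N))) :
    ssm_sgh_aut h3 N σ s = s := by
  rw [Set.mem_singleton_iff.1 hs]; exact ssm_sgh_aut_mu h3 N σ

theorem ssm_sgh_aut_fix2 (s : hs_E L h3 N)
    (hs : s ∈ ({(hs_muE h3 N)⁻¹} : Set (hs_E L h3 N))) :
    ssm_sgh_aut h3 N σ s = s := by
  rw [Set.mem_singleton_iff.1 hs]; exact ssm_sgh_aut_mu_inv h3 N σ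

theorem ssm_sgh_aut_fix12 (s : hs_E L h3 N)
    (hs : s ∈ ({hs_muE h3 N, (hs_muE h3 N)⁻¹} : Set (hs_E L h3 N))) :
    ssm_sgh_aut h3 N σ s = s := by
  rcases Set.mem_insert_iff.1 hs with hs | hs
  · rw [hs]; exact ssm_sgh_aut_mu h3 N σ
  · rw [Set.mem_singleton_iff.1 hs]; exact ssm_sgh_aut_mu_inv h3 N σ

end ChartInst

/-! ### the Gauss valuation and the final statement -/

section GaussInst

variable {L : Type*} [Field L] (h3 : (3 : L) ≠ 0) (O : ValuationSubring L)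
  [IsDiscreteValuationRing O] (h3O : IsUnit (3 : O))
  (N : ℕ) [NeZero N] (σ : L ≃+* L) {π : O} (hπ : Irreducible π)

/-- `σ` preserves the Gauss valuation ring `V1` of `hs_E L h3 N` and is trivial on its residue
field. -/
theorem ssm_sgh_aut_gauss (hσ : ss_Inert O σ) (t : hs_E L h3 N)
    (ht : t ∈ gq_valSubOf π hπ.ne_zero hπ.maximalIdeal_eq (hs_E L h3 N)
      (hsa_E_le_quotField h3 O N h3O)) :
    ssm_sgh_aut h3 N σ t ∈ gq_valSubOf π hπ.ne_zero hπ.maximalIdeal_eq (hs_E L h3 N)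
        (hsa_E_le_quotField h3 O N h3O) ∧
      ssm_sgh_aut h3 N σ t - t ∈ (gq_valSubOf π hπ.ne_zero hπ.maximalIdeal_eq (hs_E L h3 N)
        (hsa_E_le_quotField h3 O N h3O)).nonunits :=
  ⟨(ssm_gs_mem_valSubOf_iff π hπ.ne_zero hπ.maximalIdeal_eq (hs_E L h3 N)
      (hsa_E_le_quotField h3 O N h3O) hσ t (ssm_sgh_aut h3 N σ t) rfl).2 ht,
    ssm_gs_sub_mem_nonunits π hπ.ne_zero hπ.maximalIdeal_eq (hs_E L h3 N)
      (hsa_E_le_quotField h3 O N h3O) hσ t (ssm_sgh_aut h3 N σ t) rfl ht⟩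

/-- **[SIG], Hesse twin**: `σ b - b ∈ π B` on a chart `B = fc_chart O S` of `hs_E L h3 N` whose
coordinates are fixed by `σ` — the fields `σ_triv1`, `σ_triv2` of `ss_Model`. -/
theorem ssm_sgh_triv (hσ : ss_Inert O σ) (W : hs_E L h3 N ≃+* hs_E L h3 N)
    (hW : ∀ z, W (ssm_sgh_aut h3 N σ z) = ssm_sgh_aut h3 N σ (W z))
    (S : Set (hs_E L h3 N)) (hS : ∀ s ∈ S, ssm_sgh_aut h3 N σ s = s)
    (hle1 : ∀ b ∈ fc_chart O S, b ∈ gq_valSubOf π hπ.ne_zero hπ.maximalIdeal_eq (hs_E L h3 N)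
      (hsa_E_le_quotField h3 O N h3O))
    (hle2 : ∀ b ∈ fc_chart O S, b ∈ (gq_valSubOf π hπ.ne_zero hπ.maximalIdeal_eq (hs_E L h3 N)
      (hsa_E_le_quotField h3 O N h3O)).comap (W : hs_E L h3 N →+* hs_E L h3 N))
    (hinter : ∀ b ∈ fc_chart O S,
      b ∈ (gq_valSubOf π hπ.ne_zero hπ.maximalIdeal_eq (hs_E L h3 N)
        (hsa_E_le_quotField h3 O N h3O)).nonunits →
      b ∈ ((gq_valSubOf π hπ.ne_zero hπ.maximalIdeal_eq (hs_E L h3 N)
        (hsa_E_le_quotField h3 O N h3O)).comap (W : hs_E L h3 N →+* hs_E L h3 N)).nonunits →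
      ∃ c ∈ fc_chart O S, b = algebraMap O (hs_E L h3 N) π * c) :
    ∀ b ∈ fc_chart O S, ∃ c ∈ fc_chart O S,
      ssm_sgh_aut h3 N σ b - b = algebraMap O (hs_E L h3 N) π * c :=
  ssm_sg_triv_of_inf (ssm_sgh_aut h3 N σ) _ _ (algebraMap O (hs_E L h3 N) π)
    (fc_chart O S : Set (hs_E L h3 N))
    (fun _ hb _ hb' => (fc_chart O S).sub_mem hb hb')
    (fun _ hb => ssm_sgh_aut_mem_chart h3 O N σ hσ S hS hb) hle1 hle2 hinter
    (ssm_sgh_aut_gauss h3 O h3O N σ hπ hσ)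
    (ssm_sg_comap (ssm_sgh_aut h3 N σ) W _ hW (ssm_sgh_aut_gauss h3 O h3O N σ hπ hσ))

/-- **[SIG], Hesse twin, plugged into [TP]** (`H`, `hC` from `SS/Model/TwoPrimes.lean`). -/
theorem ssm_sgh_triv_tp (hσ : ss_Inert O σ) (W : hs_E L h3 N ≃+* hs_E L h3 N)
    (hW : ∀ z, W (ssm_sgh_aut h3 N σ z) = ssm_sgh_aut h3 N σ (W z))
    {y : hs_E L h3 N} (hy : Transcendental L y)
    (S : Set (hs_E L h3 N)) (hS : ∀ s ∈ S, ssm_sgh_aut h3 N σ s = s)
    (H : ssm_tp_Hyp (algebraMap O (Algebra.adjoin O ({y} : Set (hs_E L h3 N))) π)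
      (gq_valSubOf π hπ.ne_zero hπ.maximalIdeal_eq (hs_E L h3 N) (hsa_E_le_quotField h3 O N h3O))
      ((gq_valSubOf π hπ.ne_zero hπ.maximalIdeal_eq (hs_E L h3 N)
        (hsa_E_le_quotField h3 O N h3O)).comap (W : hs_E L h3 N →+* hs_E L h3 N)))
    (hC : ssm_tp_Chart (algebraMap O (Algebra.adjoin O ({y} : Set (hs_E L h3 N))) π)
      (fc_chart O S)) :
    ∀ b ∈ fc_chart O S, ∃ c ∈ fc_chart O S,
      ssm_sgh_aut h3 N σ b - b = algebraMap O (hs_E L h3 N) π * c := by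
  have : IsScalarTower O L (hs_E L h3 N) := IsScalarTower.of_algebraMap_eq fun _ => rfl
  exact ssm_sg_triv_ff (L := L) hy (ssm_sgh_aut h3 N σ) _ _ S H hC
    (fun _ hb => ssm_sgh_aut_mem_chart h3 O N σ hσ S hS hb)
    (ssm_sgh_aut_gauss h3 O h3O N σ hπ hσ)
    (ssm_sg_comap (ssm_sgh_aut h3 N σ) W _ hW (ssm_sgh_aut_gauss h3 O h3O N σ hπ hσ))

end GaussInst

end Fermat.Agent.SS
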