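/-
Project SS (S34), cell [M], leaf [BC] part II, HESSE TWIN (helper20): the base-change dictionary for
the HESSE towers (`q = 2`), in the OPTION-M coordinate `x = μ - 1`.  `f : L0 →+* L` a homomorphism of
fields of characteristic zero, `j = coeffMap f : hs_E L0 h30 N →+* hs_E L h3 N`.
Twin of `SS/Model/BaseChangeLeg.lean` (helper2), line by line.

* `ssm_bch_j`, `ssm_bch_j_coe`, `ssm_bch_j_algebraMap`, `ssm_bch_j_mu`, `ssm_bch_j_x`,
  `ssm_bch_j_injective`;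
* `ssm_bch_j_WE` : `j ∘ W_{L0} = W_L ∘ j` for the Atkin–Lehner involutions `ssm_alh_WE`;
* `ssm_bch_mem1`, `ssm_bch_nonunits1`, `ssm_bch_mem2`, `ssm_bch_nonunits2` : `V_i^{L0} = j⁻¹ V_i^{L}`,
  `𝔪(V_i^{L0}) = j⁻¹ 𝔪(V_i^{L})` for the Gauss valuation `V1` and `V2 = V1 ∘ W` (`O0 = f⁻¹ O`);
* `ssm_bch_j_algebraMapO`, `ssm_bch_chart_x`, `ssm_bch_chart_x_inv`, `ssm_bch_chart_x12` : `hj0`, `hjB`;
* `ssm_bch_sigma_fix` : `σ_E (j z) = j z` when `σ ∘ f = f`.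

Prefix `ssm_bch_`.
-/
import Mathlib
import Fermat.Agent.SS.Model.BaseChangeLeg
import Fermat.Agent.SS.Model.ALEHesse
import Fermat.Agent.SS.Model.SigmaHesse

set_option autoImplicit false
set_option linter.unusedSectionVars false
set_option linter.unusedVariables false
set_option linter.style.haveILetI false

noncomputable section

open ModularCurve IntermediateField IsLocalRing
open Fermat.Agent.JT3 Fermat.Agent.S24 Fermat.Agent.S28

namespace Fermat.Agent.SS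

section Field

variable {L0 L : Type*} [Field L0] [Field L] (h30 : (3 : L0) ≠ 0) (h3 : (3 : L) ≠ 0)
  (f : L0 →+* L)

theorem ssm_bch_mem_F3 (N : ℕ) [NeZero N] {x : LaurentSeries L0} (hx : x ∈ hs_F3 L0 N) :
    coeffMap f x ∈ hs_F3 L N := by
  rw [hs_F3] at hx
  obtain ⟨y, hy, rfl⟩ := hx
  show coeffMap f (hs_phi L0 y) ∈ hs_F3 L N
  rw [hs_coeffMap_phi L0 f y]
  exact hs_phi_mem_F3 L N (ssm_al_coeffMap_mem f N hy)

theorem ssm_bch_mem_K {x : LaurentSeries L0} (hx : x ∈ hs_K L0 h30) :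
    coeffMap f x ∈ hs_K L h3 := by
  rw [hs_K] at hx
  induction hx using IntermediateField.adjoin_induction with
  | mem y hy =>
    rw [Set.mem_singleton_iff] at hy
    rw [hy, hs_coeffMap_mu L0 h30 f h3]
    exact hs_mu_mem_K L h3
  | algebraMap a =>
    rw [bd_coeffMap_algebraMap]
    exact (hs_K L h3).algebraMap_mem _
  | add x y _ _ hx hy => rw [map_add]; exact add_mem hx hy
  | inv x _ hx => rw [map_inv₀]; exact inv_mem hx
  | mul x y _ _ hx hy => rw [map_mul]; exact mul_mem hx hy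

/-- `coeffMap f` maps `hs_E L0 h30 N` into `hs_E L h3 N`. -/
theorem ssm_bch_mem_E (N : ℕ) [NeZero N] {x : LaurentSeries L0} (hx : x ∈ hs_E L0 h30 N) :
    coeffMap f x ∈ hs_E L h3 N := by
  rw [hs_E] at hx ⊢
  have hsup : hs_F3 L0 N ⊔ hs_K L0 h30 =
      IntermediateField.adjoin L0
        ((hs_F3 L0 N : Set (LaurentSeries L0)) ∪ (hs_K L0 h30 : Set _)) := by
    rw [IntermediateField.adjoin_union, IntermediateField.adjoin_self,
      IntermediateField.adjoin_self]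
  rw [hsup] at hx
  induction hx using IntermediateField.adjoin_induction with
  | mem y hy =>
    rcases hy with hy | hy
    · exact (le_sup_left : hs_F3 L N ≤ _) (ssm_bch_mem_F3 f N hy)
    · exact (le_sup_right : hs_K L h3 ≤ _) (ssm_bch_mem_K h30 h3 f hy)
  | algebraMap a =>
    rw [bd_coeffMap_algebraMap]
    exact (hs_F3 L N ⊔ hs_K L h3).algebraMap_mem _
  | add x y _ _ hx hy => rw [map_add]; exact add_mem hx hy
  | inv x _ hx => rw [map_inv₀]; exact inv_mem hx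
  | mul x y _ _ hx hy => rw [map_mul]; exact mul_mem hx hy

/-- **the base-change homomorphism `j = coeffMap f : hs_E L0 h30 N →+* hs_E L h3 N`.** -/
def ssm_bch_j (N : ℕ) [NeZero N] : ↥(hs_E L0 h30 N) →+* ↥(hs_E L h3 N) where
  toFun x := ⟨coeffMap f (x : LaurentSeries L0), ssm_bch_mem_E h30 h3 f N x.2⟩
  map_one' := Subtype.ext (map_one _)
  map_mul' _ _ := Subtype.ext (map_mul _ _ _)
  map_zero' := Subtype.ext (map_zero _)
  map_add' _ _ := Subtype.ext (map_add _ _ _)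

theorem ssm_bch_j_coe (N : ℕ) [NeZero N] (x : ↥(hs_E L0 h30 N)) :
    ((ssm_bch_j h30 h3 f N x : ↥(hs_E L h3 N)) : LaurentSeries L) =
      coeffMap f (x : LaurentSeries L0) := rfl

theorem ssm_bch_j_injective (N : ℕ) [NeZero N] : Function.Injective (ssm_bch_j h30 h3 f N) :=
  (ssm_bch_j h30 h3 f N).injective

theorem ssm_bch_j_algebraMap (N : ℕ) [NeZero N] (a : L0) :
    ssm_bch_j h30 h3 f N (algebraMap L0 ↥(hs_E L0 h30 N) a) =
      algebraMap L ↥(hs_E L h3 N) (f a) :=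
  Subtype.ext (bd_coeffMap_algebraMap f a)

theorem ssm_bch_j_mu (N : ℕ) [NeZero N] : ssm_bch_j h30 h3 f N (hs_muE h30 N) = hs_muE h3 N :=
  Subtype.ext (hs_coeffMap_mu L0 h30 f h3)

/-- `j x = x` for the Option-M coordinate `x = μ - 1`. -/
theorem ssm_bch_j_x (N : ℕ) [NeZero N] :
    ssm_bch_j h30 h3 f N (hs_muE h30 N - 1) = hs_muE h3 N - 1 := by
  rw [map_sub, map_one, ssm_bch_j_mu]

theorem ssm_bch_j_x_inv (N : ℕ) [NeZero N] :
    ssm_bch_j h30 h3 f N (hs_muE h30 N - 1)⁻¹ = (hs_muE h3 N - 1)⁻¹ := by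
  rw [map_inv₀, ssm_bch_j_x]

theorem ssm_bch_j_mu_inv (N : ℕ) [NeZero N] :
    ssm_bch_j h30 h3 f N (hs_muE h30 N)⁻¹ = (hs_muE h3 N)⁻¹ := by
  rw [map_inv₀, ssm_bch_j_mu]

end Field

/-! ### two-field compatibility of the Atkin–Lehner involution -/

section WE

variable {L0 L : Type*} [Field L0] [Field L] [CharZero L0] [CharZero L]
  [Algebra L0 (AlgebraicClosure ℚ)] [Algebra L (AlgebraicClosure ℚ)]
  (h30 : (3 : L0) ≠ 0) (h3 : (3 : L) ≠ 0) (f : L0 →+* L)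
  (hF90 : ∀ (N : ℕ) [NeZero N],
    hs_E L0 h30 N = modularFunctionFieldFullC L0 (Nat.lcm 9 (3 * N)))
  (hF9 : ∀ (N : ℕ) [NeZero N], hs_E L h3 N = modularFunctionFieldFullC L (Nat.lcm 9 (3 * N)))
  (N' q : ℕ) [NeZero N'] [NeZero q] (hq : q.Prime) (hq3 : ¬ 3 ∣ q) (hqN' : ¬ q ∣ N')

/-- **`j ∘ W_{L0} = W_L ∘ j` on `hs_E (N' q)`.** -/
theorem ssm_bch_j_WE (x : ↥(hs_E L0 h30 (N' * q))) :
    ssm_bch_j h30 h3 f (N' * q) (ssm_alh_WE L0 h30 hF90 N' q hq hq3 hqN' x) =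
      ssm_alh_WE L h3 hF9 N' q hq hq3 hqN' (ssm_bch_j h30 h3 f (N' * q) x) := by
  apply Subtype.ext
  rw [ssm_bch_j_coe, ssm_alh_coe_WE L0 h30 hF90 N' q hq hq3 hqN' _ x.2]
  have h1 := ssm_bc_W_jF f (ssm_alh_level N') q hq (ssm_alh_not_dvd_level N' q hq hq3 hqN')
    ⟨x, ssm_alh_mem_F_of_mem_E L0 h30 hF90 N' q hq3 x.2⟩
  have h2 := congrArg (fun z : lg_F L (ssm_alh_level N' * q) => (z : LaurentSeries L)) h1
  simp only [ssm_bc_coe_jF] at h2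
  rw [← h2]
  exact (ssm_alh_coe_WE L h3 hF9 N' q hq hq3 hqN' _ (ssm_bch_j h30 h3 f (N' * q) x).2).symm

end WE

/-! ### the two vertical valuations -/

section Gauss

variable {L0 L : Type*} [Field L0] [Field L] [CharZero L0] [CharZero L]
  (h30 : (3 : L0) ≠ 0) (h3 : (3 : L) ≠ 0) (f : L0 →+* L)
  (O0 : ValuationSubring L0) (O : ValuationSubring L) (hO : ∀ x : L0, x ∈ O0 ↔ f x ∈ O)
  [IsDiscreteValuationRing O0] [IsDiscreteValuationRing O]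
  (h3O0 : IsUnit (3 : O0)) (h3O : IsUnit (3 : O))
  {π0 : O0} (hπ0 : Irreducible π0) {π : O} (hπ : Irreducible π)

include hO in
/-- `V1^{L0} = j⁻¹ V1^{L}` (Gauss valuation rings). -/
theorem ssm_bch_mem1 (N : ℕ) [NeZero N] (z : ↥(hs_E L0 h30 N)) :
    z ∈ gq_valSubOf π0 hπ0.ne_zero hπ0.maximalIdeal_eq (hs_E L0 h30 N)
        (hsa_E_le_quotField h30 O0 N h3O0) ↔
      ssm_bch_j h30 h3 f N z ∈ gq_valSubOf π hπ.ne_zero hπ.maximalIdeal_eq (hs_E L h3 N)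
        (hsa_E_le_quotField h3 O N h3O) :=
  (ssm_gb_mem_valSubOf_iff f hO π0 hπ0.ne_zero hπ0.maximalIdeal_eq π hπ.ne_zero
    hπ.maximalIdeal_eq (hs_E L0 h30 N) (hsa_E_le_quotField h30 O0 N h3O0) (hs_E L h3 N)
    (hsa_E_le_quotField h3 O N h3O) z (ssm_bch_j h30 h3 f N z) rfl).symm

include hO in
/-- `𝔪(V1^{L0}) = j⁻¹ 𝔪(V1^{L})`. -/
theorem ssm_bch_nonunits1 (N : ℕ) [NeZero N] (z : ↥(hs_E L0 h30 N)) :
    z ∈ (gq_valSubOf π0 hπ0.ne_zero hπ0.maximalIdeal_eq (hs_E L0 h30 N)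
        (hsa_E_le_quotField h30 O0 N h3O0)).nonunits ↔
      ssm_bch_j h30 h3 f N z ∈ (gq_valSubOf π hπ.ne_zero hπ.maximalIdeal_eq (hs_E L h3 N)
        (hsa_E_le_quotField h3 O N h3O)).nonunits :=
  (ssm_gb_mem_nonunits_iff f hO π0 hπ0.ne_zero hπ0.maximalIdeal_eq π hπ.ne_zero
    hπ.maximalIdeal_eq (hs_E L0 h30 N) (hsa_E_le_quotField h30 O0 N h3O0) (hs_E L h3 N)
    (hsa_E_le_quotField h3 O N h3O) z (ssm_bch_j h30 h3 f N z) rfl).symm

variable [Algebra L0 (AlgebraicClosure ℚ)] [Algebra L (AlgebraicClosure ℚ)]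
  (hF90 : ∀ (N : ℕ) [NeZero N],
    hs_E L0 h30 N = modularFunctionFieldFullC L0 (Nat.lcm 9 (3 * N)))
  (hF9 : ∀ (N : ℕ) [NeZero N], hs_E L h3 N = modularFunctionFieldFullC L (Nat.lcm 9 (3 * N)))
  (N' q : ℕ) [NeZero N'] [NeZero q] (hq : q.Prime) (hq3 : ¬ 3 ∣ q) (hqN' : ¬ q ∣ N')

include hO in
/-- `V2^{L0} = j⁻¹ V2^{L}` for `V2 = V1 ∘ W`. -/
theorem ssm_bch_mem2 (z : ↥(hs_E L0 h30 (N' * q))) :
    z ∈ (gq_valSubOf π0 hπ0.ne_zero hπ0.maximalIdeal_eq (hs_E L0 h30 (N' * q))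
        (hsa_E_le_quotField h30 O0 (N' * q) h3O0)).comap
          ((ssm_alh_WE L0 h30 hF90 N' q hq hq3 hqN').toRingEquiv :
            ↥(hs_E L0 h30 (N' * q)) →+* ↥(hs_E L0 h30 (N' * q))) ↔
      ssm_bch_j h30 h3 f (N' * q) z ∈
        (gq_valSubOf π hπ.ne_zero hπ.maximalIdeal_eq (hs_E L h3 (N' * q))
          (hsa_E_le_quotField h3 O (N' * q) h3O)).comap
            ((ssm_alh_WE L h3 hF9 N' q hq hq3 hqN').toRingEquiv :
              ↥(hs_E L h3 (N' * q)) →+* ↥(hs_E L h3 (N' * q))) := by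
  rw [ValuationSubring.mem_comap, ValuationSubring.mem_comap,
    ssm_bch_mem1 h30 h3 f O0 O hO h3O0 h3O hπ0 hπ (N' * q)]
  have e : ssm_bch_j h30 h3 f (N' * q) (((ssm_alh_WE L0 h30 hF90 N' q hq hq3 hqN').toRingEquiv :
      ↥(hs_E L0 h30 (N' * q)) →+* ↥(hs_E L0 h30 (N' * q))) z) =
      ((ssm_alh_WE L h3 hF9 N' q hq hq3 hqN').toRingEquiv :
        ↥(hs_E L h3 (N' * q)) →+* ↥(hs_E L h3 (N' * q))) (ssm_bch_j h30 h3 f (N' * q) z) :=
    ssm_bch_j_WE h30 h3 f hF90 hF9 N' q hq hq3 hqN' z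
  rw [e]

include hO in
/-- `𝔪(V2^{L0}) = j⁻¹ 𝔪(V2^{L})` for `V2 = V1 ∘ W`. -/
theorem ssm_bch_nonunits2 (z : ↥(hs_E L0 h30 (N' * q))) :
    z ∈ ((gq_valSubOf π0 hπ0.ne_zero hπ0.maximalIdeal_eq (hs_E L0 h30 (N' * q))
        (hsa_E_le_quotField h30 O0 (N' * q) h3O0)).comap
          ((ssm_alh_WE L0 h30 hF90 N' q hq hq3 hqN').toRingEquiv :
            ↥(hs_E L0 h30 (N' * q)) →+* ↥(hs_E L0 h30 (N' * q)))).nonunits ↔
      ssm_bch_j h30 h3 f (N' * q) z ∈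
        ((gq_valSubOf π hπ.ne_zero hπ.maximalIdeal_eq (hs_E L h3 (N' * q))
          (hsa_E_le_quotField h3 O (N' * q) h3O)).comap
            ((ssm_alh_WE L h3 hF9 N' q hq hq3 hqN').toRingEquiv :
              ↥(hs_E L h3 (N' * q)) →+* ↥(hs_E L h3 (N' * q)))).nonunits := by
  rw [ssm_tw_nonunits_comap, ssm_tw_nonunits_comap,
    ssm_bch_nonunits1 h30 h3 f O0 O hO h3O0 h3O hπ0 hπ (N' * q)]
  have e : ssm_bch_j h30 h3 f (N' * q)
      ((ssm_alh_WE L0 h30 hF90 N' q hq hq3 hqN').toRingEquiv z) =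
      (ssm_alh_WE L h3 hF9 N' q hq hq3 hqN').toRingEquiv (ssm_bch_j h30 h3 f (N' * q) z) :=
    ssm_bch_j_WE h30 h3 f hF90 hF9 N' q hq hq3 hqN' z
  rw [e]

end Gauss

/-! ### the base rings and the three charts -/

section Charts

variable {L0 L : Type*} [Field L0] [Field L] (h30 : (3 : L0) ≠ 0) (h3 : (3 : L) ≠ 0)
  (f : L0 →+* L)
  (O0 : ValuationSubring L0) (O : ValuationSubring L) (hO : ∀ x : L0, x ∈ O0 ↔ f x ∈ O)
  (N : ℕ) [NeZero N]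

/-- `hj0` of `ssm_tht_node`: `j` is compatible with `j0 = ssm_gb_resHom : O0 →+* O`. -/
theorem ssm_bch_j_algebraMapO (a : O0) :
    ssm_bch_j h30 h3 f N (algebraMap ↥O0 ↥(hs_E L0 h30 N) a) =
      algebraMap ↥O ↥(hs_E L h3 N) (ssm_gb_resHom f O0 O hO a) :=
  ssm_bch_j_algebraMap h30 h3 f N (a : L0)

include hO in
/-- `hjB` for the `x`-chart, `x = μ - 1`. -/
theorem ssm_bch_chart_x {b : ↥(hs_E L0 h30 N)}
    (hb : b ∈ fc_chart ↥O0 ({hs_muE h30 N - 1} : Set ↥(hs_E L0 h30 N))) :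
    ssm_bch_j h30 h3 f N b ∈ fc_chart ↥O ({hs_muE h3 N - 1} : Set ↥(hs_E L h3 N)) := by
  have h := ssm_bc_chart (ssm_bch_j h30 h3 f N) (ssm_gb_resHom f O0 O hO)
    (ssm_bch_j_algebraMapO h30 h3 f O0 O hO N) _ hb
  rwa [Set.image_singleton, ssm_bch_j_x] at h

include hO in
/-- `hjB` for the `x⁻¹`-chart. -/
theorem ssm_bch_chart_x_inv {b : ↥(hs_E L0 h30 N)}
    (hb : b ∈ fc_chart ↥O0 ({(hs_muE h30 N - 1)⁻¹} : Set ↥(hs_E L0 h30 N))) :
    ssm_bch_j h30 h3 f N b ∈ fc_chart ↥O ({(hs_muE h3 N - 1)⁻¹} : Set ↥(hs_E L h3 N)) := by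
  have h := ssm_bc_chart (ssm_bch_j h30 h3 f N) (ssm_gb_resHom f O0 O hO)
    (ssm_bch_j_algebraMapO h30 h3 f O0 O hO N) _ hb
  rwa [Set.image_singleton, ssm_bch_j_x_inv] at h

include hO in
/-- `hjB` for the overlap chart. -/
theorem ssm_bch_chart_x12 {b : ↥(hs_E L0 h30 N)}
    (hb : b ∈ fc_chart ↥O0
      ({hs_muE h30 N - 1, (hs_muE h30 N - 1)⁻¹} : Set ↥(hs_E L0 h30 N))) :
    ssm_bch_j h30 h3 f N b ∈
      fc_chart ↥O ({hs_muE h3 N - 1, (hs_muE h3 N - 1)⁻¹} : Set ↥(hs_E L h3 N)) := by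
  have h := ssm_bc_chart (ssm_bch_j h30 h3 f N) (ssm_gb_resHom f O0 O hO)
    (ssm_bch_j_algebraMapO h30 h3 f O0 O hO N) _ hb
  rwa [Set.image_pair, ssm_bch_j_x, ssm_bch_j_x_inv] at h

include hO in
/-- `hjB` for the `μ`-chart (`= x`-chart). -/
theorem ssm_bch_chart_mu {b : ↥(hs_E L0 h30 N)}
    (hb : b ∈ fc_chart ↥O0 ({hs_muE h30 N} : Set ↥(hs_E L0 h30 N))) :
    ssm_bch_j h30 h3 f N b ∈ fc_chart ↥O ({hs_muE h3 N} : Set ↥(hs_E L h3 N)) := by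
  have h := ssm_bc_chart (ssm_bch_j h30 h3 f N) (ssm_gb_resHom f O0 O hO)
    (ssm_bch_j_algebraMapO h30 h3 f O0 O hO N) _ hb
  rwa [Set.image_singleton, ssm_bch_j_mu] at h

end Charts

/-! ### the inertia automorphism fixes the image of the small tower -/

section Sigma

variable {L0 L : Type*} [Field L0] [Field L] (h30 : (3 : L0) ≠ 0) (h3 : (3 : L) ≠ 0)
  (f : L0 →+* L)

/-- `σ_E (j z) = j z` when `σ ∘ f = f` (e.g. `L0 = ℚ(ζ_{3N'})`, `σ` inert: `ssm_ub_fixed`). -/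
theorem ssm_bch_sigma_fix (N : ℕ) [NeZero N] (σ : L ≃+* L) (hσf : ∀ a : L0, σ (f a) = f a)
    (z : ↥(hs_E L0 h30 N)) :
    ssm_sgh_aut h3 N σ (ssm_bch_j h30 h3 f N z) = ssm_bch_j h30 h3 f N z := by
  apply Subtype.ext
  rw [ssm_sgh_aut_coe, ssm_bch_j_coe, coeffMap_coeffMap]
  exact coeffMap_congr (RingHom.ext fun a => hσf a) _

end Sigma

end Fermat.Agent.SS
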