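/-
Project SS (S34), cell [M] (model), leaf [F9] (Hesse twin of [F4]), part (c): the rigidified Hesse
field of the S18 tower IS a level function field.

For every field `L` of characteristic zero and every `N ≥ 1`:

  `hs_E L h3 N = φ(F_N)(μ) = F_{lcm(9, 3N)}`,   `F_M = L(j(q^d) : d ∣ M) = modularFunctionFieldFullC L M`,
  `φ = (q ↦ q³)`.

`⊆`: `L(μ) = F_9` (`ssm_f9_K`) and `φ(j(q^d)) = j(q^{3d})`, `3d ∣ 3N`.
`⊇`: `F_{lcm(9,3N)} = L(j, j(q⁹), j(q^{3N}))` (`ssm_f4_gen_lcm`), and `j, j(q⁹) ∈ L(μ)`,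
`j(q^{3N}) = φ(j(q^N))`.

Consequences for the semistable model at `N = N' ℓ` (`ℓ` prime to `3`, in particular `ℓ = 2`): both
degeneracy maps of the level structure act on the tower, `hs_E L h3 N' ≤ hs_E L h3 N` and
`β_ℓ (hs_E L h3 N') ≤ hs_E L h3 N`; in particular `μ(q^ℓ) ∈ hs_E L h3 N`; and
`hs_E L h3 (N' ℓ) = hs_E L h3 N' ⊔ β_ℓ (hs_E L h3 N')` for a prime `ℓ ≠ 3`.

Prefix `ssm_f9_`.
-/
import Mathlib
import Fermat.Agent.SS.Model.F9K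
import Fermat.Agent.SS.Model.F4Sup

set_option autoImplicit false

noncomputable section

open ModularCurve IntermediateField
open Fermat.Agent.S28 Fermat.Agent.JT3

namespace Fermat.Agent.SS

section Main

variable (L : Type*) [Field L] (h3 : (3 : L) ≠ 0) (N : ℕ) [NeZero N]

/-- The level `lcm(9, 3N)` of the rigidified Hesse field. -/
def ssm_f9_level : ℕ := Nat.lcm 9 (3 * N)

instance ssm_f9_level_neZero : NeZero (ssm_f9_level N) :=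
  ⟨Nat.lcm_ne_zero (by norm_num) (Nat.mul_ne_zero (by norm_num) (NeZero.ne N))⟩

omit [NeZero N] in
theorem ssm_f9_nine_dvd_level : 9 ∣ ssm_f9_level N := Nat.dvd_lcm_left _ _

omit [NeZero N] in
theorem ssm_f9_three_mul_dvd_level : 3 * N ∣ ssm_f9_level N := Nat.dvd_lcm_right _ _

omit [NeZero N] in
theorem ssm_f9_dvd_level : N ∣ ssm_f9_level N :=
  (Dvd.intro_left 3 rfl).trans (ssm_f9_three_mul_dvd_level N)

/-- `φ(F_N) ≤ F_{lcm(9,3N)}` (every field `L`). -/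
theorem ssm_f9_F3_le : hs_F3 L N ≤ modularFunctionFieldFullC L (ssm_f9_level N) := by
  have h := full_degeneracyC_map_le L N 3
  refine le_trans h ?_
  exact full_degeneracyC_le L (by rw [mul_comm]; exact ssm_f9_three_mul_dvd_level N)

variable [CharZero L]

/-- `hs_E L h3 N ≤ F_{lcm(9,3N)}`. -/
theorem ssm_f9_E_le : hs_E L h3 N ≤ modularFunctionFieldFullC L (ssm_f9_level N) := by
  rw [hs_E]
  refine sup_le (ssm_f9_F3_le L N) ?_
  exact le_trans (ssm_f9_K_le L h3) (full_degeneracyC_le L (ssm_f9_nine_dvd_level N))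

/-- **[F9] (c)**: `hs_E L h3 N = F_{lcm(9, 3N)}` over every field of characteristic zero. -/
theorem ssm_f9 : hs_E L h3 N = modularFunctionFieldFullC L (ssm_f9_level N) := by
  apply le_antisymm (ssm_f9_E_le L h3 N)
  rw [ssm_f9_level, ssm_f4_gen_lcm 9 (3 * N) L, IntermediateField.adjoin_le_iff]
  rintro x (rfl | rfl | rfl)
  · exact hs_K_le_E L h3 N (ssm_f9_j_mem_K L h3)
  · exact hs_K_le_E L h3 N (ssm_f9_j9_mem_K L h3)
  · have h := hs_phi_mem_E L h3 N (jqModCd_mem_full L N (dvd_refl N))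
    rw [hs_phi_apply, qExpand_qExpand] at h
    exact h

/-- The explicit form. -/
theorem ssm_f9' : hs_E L h3 N = modularFunctionFieldFullC L (Nat.lcm 9 (3 * N)) := ssm_f9 L h3 N

/-! ### The two degeneracy maps on the tower -/

/-- First degeneracy: `hs_E L h3 N' ≤ hs_E L h3 N` for `N' ∣ N`. -/
theorem ssm_f9_E_mono {N' : ℕ} [NeZero N'] (h : N' ∣ N) : hs_E L h3 N' ≤ hs_E L h3 N := by
  rw [ssm_f9 L h3 N, ssm_f9 L h3 N']
  refine full_degeneracyC_le L ?_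
  exact Nat.lcm_dvd_lcm_of_dvd_right 9 (mul_dvd_mul_left 3 h)

/-- `lcm(9, 3N') ℓ ∣ lcm(9, 3 N' ℓ)` for `ℓ` prime to `3`. -/
theorem ssm_f9_level_mul_dvd (N' ℓ : ℕ) (hℓ : ¬ 3 ∣ ℓ) :
    ssm_f9_level N' * ℓ ∣ ssm_f9_level (N' * ℓ) := by
  have hcop : Nat.Coprime 9 ℓ := by
    have : Nat.Coprime 3 ℓ := (Nat.Prime.coprime_iff_not_dvd Nat.prime_three).2 hℓ
    exact Nat.Coprime.pow_left 2 this
  rw [ssm_f9_level, ssm_f9_level]
  have h1 : 3 * (N' * ℓ) = (3 * N') * ℓ := by ring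
  rw [h1, ← Nat.lcm_mul_right]
  refine Nat.lcm_dvd ?_ (Nat.dvd_lcm_right _ _)
  exact Nat.Coprime.mul_dvd_of_dvd_of_dvd hcop (Nat.dvd_lcm_left _ _)
    ((Dvd.intro_left _ rfl).trans (Nat.dvd_lcm_right _ _))

/-- `lcm(9, 3 N' ℓ) = lcm(9, 3 N') ℓ` for `ℓ` prime to `3`. -/
theorem ssm_f9_level_mul (N' ℓ : ℕ) (hℓ : ¬ 3 ∣ ℓ) :
    ssm_f9_level (N' * ℓ) = ssm_f9_level N' * ℓ := by
  apply Nat.dvd_antisymm _ (ssm_f9_level_mul_dvd N' ℓ hℓ)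
  rw [ssm_f9_level, ssm_f9_level]
  have h1 : 3 * (N' * ℓ) = (3 * N') * ℓ := by ring
  rw [h1, ← Nat.lcm_mul_right]
  exact Nat.lcm_dvd ((Dvd.intro _ rfl).trans (Nat.dvd_lcm_left _ _)) (Nat.dvd_lcm_right _ _)

/-- Second degeneracy: `β_ℓ (hs_E L h3 N') ≤ hs_E L h3 N` for `N' ℓ ∣ N`, `ℓ` prime to `3`. -/
theorem ssm_f9_E_map_le {N' ℓ : ℕ} [NeZero N'] [NeZero ℓ] (h : N' * ℓ ∣ N) (hℓ : ¬ 3 ∣ ℓ) :
    (hs_E L h3 N').map (qExpandAlgHomC L ℓ) ≤ hs_E L h3 N := by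
  rw [ssm_f9 L h3 N, ssm_f9 L h3 N']
  refine le_trans (full_degeneracyC_map_le L (ssm_f9_level N') ℓ) ?_
  refine full_degeneracyC_le L ?_
  exact (ssm_f9_level_mul_dvd N' ℓ hℓ).trans
    (Nat.lcm_dvd_lcm_of_dvd_right 9 (mul_dvd_mul_left 3 h))

/-- `μ(q^ℓ) ∈ hs_E L h3 N` for `ℓ ∣ N` prime to `3`. -/
theorem ssm_f9_mu_expand_mem {ℓ : ℕ} [NeZero ℓ] (h : ℓ ∣ N) (hℓ : ¬ 3 ∣ ℓ) :
    qExpand L ℓ (hs_mu L h3) ∈ hs_E L h3 N := by
  have h1 : (hs_E L h3 1).map (qExpandAlgHomC L ℓ) ≤ hs_E L h3 N :=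
    ssm_f9_E_map_le L h3 N (by rwa [one_mul]) hℓ
  exact h1 ⟨hs_mu L h3, hs_mu_mem_E L h3 1, rfl⟩

/-- **`E = E' E''`**: the rigidified Hesse field at level `N' ℓ` (`ℓ ≠ 3` prime) is the compositum of
the two degeneracy images of the rigidified field at level `N'`. -/
theorem ssm_f9_E_eq_sup (N' ℓ : ℕ) [NeZero N'] [NeZero ℓ] (hℓ : ℓ.Prime) (hℓ3 : ¬ 3 ∣ ℓ) :
    hs_E L h3 (N' * ℓ) = hs_E L h3 N' ⊔ (hs_E L h3 N').map (qExpandAlgHomC L ℓ) := by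
  rw [ssm_f9 L h3 (N' * ℓ), ssm_f9 L h3 N']
  have h := ssm_f4_full_eq_sup L (ssm_f9_level N') ℓ hℓ
  rw [← h]
  congr 1
  exact ssm_f9_level_mul N' ℓ hℓ3

end Main

end Fermat.Agent.SS
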