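/-
Project SS (S34), cell [M] (model), leaf [CF] (cusp facts), abstract part.

`F / K` a function field over an ARBITRARY field `K` (no algebraic closedness).

* `ssm_cf_sum_le_rank`  : for a Dedekind domain `B ⊆ F`, finite flat over a domain `R`, and `t ∈ R`
                          generating a maximal ideal: finitely many distinct places `v ⊇ B` with
                          `ord_v t > 0` satisfy `∑ ord_v t ≤ rank_R B` (fundamental inequality);
* `ssm_cf_sum_zeros_le` : Stichtenoth 1.3.3 without degrees: for `x` transcendental, `F / K(x)` finite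
                          separable, distinct zeros `v` of `x` satisfy `∑ ord_v x ≤ [F : K(x)]`;
* `ssm_cf_comap`        : the place `c ∘ W` of an automorphism `W` (`ord_{c∘W} f = ord_c (W f)`);
* `ssm_cf_abs`          : the ABSTRACT LEMMA of [CF]: `[F : K(t)] ≤ q + 1`, `W` an involution, `c` a
                          place with `ord_c t = -1`, `ord_c (W t) = -q`; then every pole `c'` of `t`
                          is `c` or `c ∘ W`.
-/
import Mathlib
import Fermat.Agent.S24.Hurwitz.FunctionField
import Fermat.Prelude.Def_AlgebraicCurve_Repartitions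

set_option autoImplicit false

noncomputable section

open AlgebraicCurve IntermediateField Polynomial WithZero IsDedekindDomain
open Fermat.Agent.S24
open scoped IntermediateField.algebraAdjoinAdjoin

namespace Fermat.Agent.SS

universe u v
variable {K : Type u} {F : Type v} [Field K] [Field F] [Algebra K F]

section Rank

variable (B : Type*) [CommRing B] [IsDedekindDomain B] [Algebra K B] [Algebra B F]
  [IsScalarTower K B F] [IsFractionRing B F]
variable (R : Type*) [CommRing R] [IsDomain R] [Algebra K R] [Algebra R B] [IsScalarTower K R B]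
  [Module.Finite R B] [Module.Flat R B] [FaithfulSMul R B]

omit [Algebra K R] [IsScalarTower K R B] in
/-- **Fundamental inequality in terms of places**, arbitrary constant field: distinct places
containing `B` at which `t` vanishes have `∑ ord_v t ≤ rank_R B`. -/
theorem ssm_cf_sum_le_rank (t : R) (ht : t ≠ 0) [hmax : (Ideal.span {t}).IsMaximal]
    (s : Finset (Place K F))
    (hs : ∀ v ∈ s, (∀ b : B, algebraMap B F b ∈ v.toValuationSubring) ∧
      0 < v.ord (algebraMap B F (algebraMap R B t))) :
    ∑ v ∈ s, v.ord (algebraMap B F (algebraMap R B t)) ≤ (Module.finrank R B : ℤ) := by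
  classical
  set p : Ideal R := Ideal.span {t} with hp
  have hp0 : p ≠ ⊥ := by
    rw [hp, Ne, Ideal.span_singleton_eq_bot]; exact ht
  have : Fintype (p.primesOver B) := (Algebra.QuasiFinite.finite_primesOver p).fintype
  -- the prime over `p` attached to a place of `s`
  have hlies : ∀ v : Place K F, ∀ hB : (∀ b : B, algebraMap B F b ∈ v.toValuationSubring),
      0 < v.ord (algebraMap B F (algebraMap R B t)) →
      (hw_primeOfPlace v hB).asIdeal.LiesOver p := by
    intro v hB hv
    set Q := hw_primeOfPlace v hB with hQ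
    have htQ : algebraMap R B t ∈ Q.asIdeal := by
      rw [hw_mem_primeOfPlace_iff]
      intro hu
      have h1 := (v.adicValuation_coe_eq_one_iff _).mpr hu
      rw [hw_inclB_coe] at h1
      rw [hw_ord_eq_neg_log, h1] at hv
      simp at hv
    constructor
    have hle : p ≤ Q.asIdeal.under R := by
      rw [hp, Ideal.span_le, Set.singleton_subset_iff]
      exact htQ
    have hne : Q.asIdeal.under R ≠ ⊤ := by
      intro h
      have : (1 : R) ∈ Q.asIdeal.under R := by rw [h]; trivial
      rw [Ideal.under_def, Ideal.mem_comap, map_one] at this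
      exact Q.isPrime.ne_top ((Ideal.eq_top_iff_one _).mpr this)
    exact hmax.eq_of_le hne hle
  let φ : {v // v ∈ s} → p.primesOver B := fun v =>
    ⟨(hw_primeOfPlace v.1 (hs v.1 v.2).1).asIdeal, (hw_primeOfPlace v.1 (hs v.1 v.2).1).isPrime,
      hlies v.1 (hs v.1 v.2).1 (hs v.1 v.2).2⟩
  have hφinj : Function.Injective φ := by
    intro v w h
    have h1 : (hw_primeOfPlace v.1 (hs v.1 v.2).1) = (hw_primeOfPlace w.1 (hs w.1 w.2).1) :=
      HeightOneSpectrum.ext (congrArg Subtype.val h)
    apply Subtype.ext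
    rw [← hw_placeOfPrime_primeOfPlace v.1 (hs v.1 v.2).1,
      ← hw_placeOfPrime_primeOfPlace w.1 (hs w.1 w.2).1, h1]
  have hord : ∀ v : {v // v ∈ s},
      v.1.ord (algebraMap B F (algebraMap R B t)) = ((φ v).1.ramificationIdx R : ℤ) := by
    intro v
    have hl : (hw_primeOfPlace v.1 (hs v.1 v.2).1).asIdeal.LiesOver (Ideal.span {t}) :=
      hlies v.1 (hs v.1 v.2).1 (hs v.1 v.2).2
    have h1 := hw_ramificationIdx_eq (F := F) B R t ht (hw_primeOfPlace v.1 (hs v.1 v.2).1)
    rw [← hw_placeOfPrime_ord (K := K), hw_placeOfPrime_primeOfPlace] at h1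
    exact h1.symm
  have hsum : ∑ v ∈ s, v.ord (algebraMap B F (algebraMap R B t)) =
      ∑ v : {v // v ∈ s}, ((φ v).1.ramificationIdx R : ℤ) := by
    rw [← Finset.sum_coe_sort s]
    exact Finset.sum_congr rfl fun v _ => hord v
  rw [hsum, ← Ideal.sum_ramification_inertia_eq_finrank p B]
  push_cast
  calc ∑ v : {v // v ∈ s}, ((φ v).1.ramificationIdx R : ℤ)
      ≤ ∑ v : {v // v ∈ s}, ((φ v).1.ramificationIdx R : ℤ) * ((φ v).1.inertiaDeg R : ℤ) := by
        refine Finset.sum_le_sum fun v _ => ?_
        have := (φ v).2.1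
        have h1 : (1 : ℤ) ≤ ((φ v).1.inertiaDeg R : ℤ) := by
          exact_mod_cast Ideal.inertiaDeg_pos (φ v).1 R
        have h0 : (0 : ℤ) ≤ ((φ v).1.ramificationIdx R : ℤ) := by positivity
        nlinarith
    _ = ∑ q ∈ Finset.univ.map ⟨φ, hφinj⟩,
          (q.1.ramificationIdx R : ℤ) * (q.1.inertiaDeg R : ℤ) := by
        rw [Finset.sum_map]
        rfl
    _ ≤ ∑ q : p.primesOver B, (q.1.ramificationIdx R : ℤ) * (q.1.inertiaDeg R : ℤ) := by
        refine Finset.sum_le_sum_of_subset_of_nonneg (Finset.subset_univ _) fun q _ _ => ?_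
        positivity

end Rank

section Concrete

/-- **Stichtenoth, Prop. 1.3.3** (without the degrees, arbitrary constant field): distinct zeros of a
transcendental `x` with `F / K(x)` finite separable satisfy `∑ ord_v x ≤ [F : K(x)]`. -/
theorem ssm_cf_sum_zeros_le {x : F} (hx : Transcendental K x) [FiniteDimensional K⟮x⟯ F]
    [Algebra.IsSeparable K⟮x⟯ F] (s : Finset (Place K F)) (hs : ∀ v ∈ s, 0 < v.ord x) :
    ∑ v ∈ s, v.ord x ≤ (Module.finrank K⟮x⟯ F : ℤ) := by
  have hPID := hw_isPrincipalIdealRing_adjoin hx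
  have hDed := integralClosure.isDedekindDomain (Algebra.adjoin K ({x} : Set F)) K⟮x⟯ F
  have hfin : Module.Finite (Algebra.adjoin K ({x} : Set F))
      (integralClosure (Algebra.adjoin K ({x} : Set F)) F) :=
    IsIntegralClosure.finite (Algebra.adjoin K ({x} : Set F)) K⟮x⟯ F _
  have hfrac : IsFractionRing (integralClosure (Algebra.adjoin K ({x} : Set F)) F) F :=
    integralClosure.isFractionRing_of_finite_extension K⟮x⟯ F
  have hflat : Module.Flat (Algebra.adjoin K ({x} : Set F))
      (integralClosure (Algebra.adjoin K ({x} : Set F)) F) := inferInstance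
  have hfaith : FaithfulSMul (Algebra.adjoin K ({x} : Set F))
      (integralClosure (Algebra.adjoin K ({x} : Set F)) F) :=
    (faithfulSMul_iff_algebraMap_injective _ _).mpr (fun a b h => by
      have := congrArg (algebraMap (integralClosure (Algebra.adjoin K ({x} : Set F)) F) F) h
      exact Subtype.ext this)
  let t : Algebra.adjoin K ({x} : Set F) := ⟨x, Algebra.self_mem_adjoin_singleton K x⟩
  have ht_coe : algebraMap (integralClosure (Algebra.adjoin K ({x} : Set F)) F) F
      (algebraMap (Algebra.adjoin K ({x} : Set F)) _ t) = x := rfl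
  have htpoly : t = hw_polyEquiv hx X := by
    apply Subtype.ext
    rw [hw_polyEquiv_coe]
    simp [t]
  have hirr : Irreducible t := by
    rw [htpoly]
    exact (MulEquiv.irreducible_iff (hw_polyEquiv hx)).mpr irreducible_X
  have ht : t ≠ 0 := hirr.ne_zero
  have hmax : (Ideal.span {t}).IsMaximal := PrincipalIdealRing.isMaximal_of_irreducible hirr
  have key := ssm_cf_sum_le_rank (K := K) (F := F)
    (integralClosure (Algebra.adjoin K ({x} : Set F)) F) (Algebra.adjoin K ({x} : Set F)) t ht s
    (fun v hv => by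
      rw [ht_coe]
      refine ⟨fun b => ?_, hs v hv⟩
      have hne : x ≠ 0 := by
        intro h
        have := hs v hv
        rw [h] at this
        simp at this
      exact hw_coe_mem_of_mem_integralClosure x v
        ((hw_mem_iff_ord_nonneg v hne).mpr (hs v hv).le) b)
  rw [ht_coe] at key
  rwa [← IsFractionRing.finrank_eq (Algebra.adjoin K ({x} : Set F)) K⟮x⟯
    (integralClosure (Algebra.adjoin K ({x} : Set F)) F) F] at key

end Concrete

section Comap

/-- The place `c ∘ W` for an automorphism `W` of `F / K`: its valuation ring is `W⁻¹(O_c)`. -/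
def ssm_cf_comap (W : F ≃ₐ[K] F) (c : Place K F) : Place K F :=
  hw_placeOfValuation (c.adicValuation.comap (W : F →+* F))
    (fun a => by
      rw [Valuation.comap_apply]
      have : (W : F →+* F) (algebraMap K F a) = algebraMap K F a := W.commutes a
      rw [this]
      exact c.adicValuation_algebraMap_le_one a)
    (by
      obtain ⟨π, hπ⟩ := IsDiscreteValuationRing.exists_irreducible c.toValuationSubring
      refine ⟨W.symm ((π : F)⁻¹), ?_⟩
      rw [Valuation.comap_apply]
      have : (W : F →+* F) (W.symm ((π : F)⁻¹)) = (π : F)⁻¹ := W.apply_symm_apply _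
      rw [this, map_inv₀, c.adicValuation_coe_irreducible hπ, ← exp_neg, neg_neg, ← exp_zero,
        exp_lt_exp]
      norm_num)

theorem ssm_cf_comap_adicValuation (W : F ≃ₐ[K] F) (c : Place K F) :
    (ssm_cf_comap W c).adicValuation = c.adicValuation.comap (W : F →+* F) := by
  refine hw_adicValuation_eq _ _ rfl ?_
  obtain ⟨π, hπ⟩ := IsDiscreteValuationRing.exists_irreducible c.toValuationSubring
  refine ⟨W.symm (π : F), ?_⟩
  rw [Valuation.comap_apply]
  have : (W : F →+* F) (W.symm (π : F)) = (π : F) := W.apply_symm_apply _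
  rw [this, c.adicValuation_coe_irreducible hπ]

theorem ssm_cf_comap_ord (W : F ≃ₐ[K] F) (c : Place K F) (f : F) :
    (ssm_cf_comap W c).ord f = c.ord (W f) := by
  rw [hw_ord_eq_neg_log, ssm_cf_comap_adicValuation, Valuation.comap_apply, hw_ord_eq_neg_log]
  rfl

end Comap

section Main

/-- **[CF], abstract lemma**: `[F : K(t)] ≤ q + 1`, `W` an involution of `F / K`, `c` a place with
`ord_c t = -1` and `ord_c (W t) = -q`.  Then every pole `c'` of `t` is `c` or `c ∘ W`; in terms of
orders: `(ord_{c'} t, ord_{c'} (W t))` is `(-1, -q)` or `(-q, -1)`. -/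
theorem ssm_cf_abs_place (t : F) (ht : Transcendental K t) [FiniteDimensional K⟮t⟯ F]
    [Algebra.IsSeparable K⟮t⟯ F] (q : ℕ) (hq : 2 ≤ q) (hdeg : Module.finrank K⟮t⟯ F ≤ q + 1)
    (W : F ≃ₐ[K] F) (c : Place K F) (hc1 : c.ord t = -1)
    (hcq : c.ord (W t) = -(q : ℤ)) (c' : Place K F) (hc' : c'.ord t < 0) :
    c' = c ∨ c' = ssm_cf_comap W c := by
  classical
  by_contra hne
  push Not at hne
  obtain ⟨hne1, hne2⟩ := hne
  have hx : Transcendental K t⁻¹ := fun h => ht (IsAlgebraic.inv_iff.mp h)
  have heq : K⟮t⁻¹⟯ = K⟮t⟯ := by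
    apply le_antisymm
    · rw [adjoin_simple_le_iff]
      exact inv_mem (mem_adjoin_simple_self K t)
    · rw [adjoin_simple_le_iff]
      have := inv_mem (mem_adjoin_simple_self K t⁻¹)
      rwa [inv_inv] at this
  have hfd : FiniteDimensional K⟮t⁻¹⟯ F := by
    rw [heq]; infer_instance
  have hsep : Algebra.IsSeparable K⟮t⁻¹⟯ F := by
    rw [heq]; infer_instance
  have hcW : c ≠ ssm_cf_comap W c := by
    intro h
    have h1 : c.ord t = (ssm_cf_comap W c).ord t := by rw [← h]
    rw [ssm_cf_comap_ord, hc1, hcq] at h1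
    have : (q : ℤ) = 1 := by linarith
    have : q = 1 := by exact_mod_cast this
    omega
  have hs : ∀ v ∈ ({c, ssm_cf_comap W c, c'} : Finset (Place K F)), 0 < v.ord t⁻¹ := by
    intro v hv
    rw [Place.ord_inv]
    simp only [Finset.mem_insert, Finset.mem_singleton] at hv
    rcases hv with rfl | rfl | rfl
    · rw [hc1]; norm_num
    · rw [ssm_cf_comap_ord, hcq]
      have : (0 : ℤ) < q := by exact_mod_cast (by omega : 0 < q)
      omega
    · omega
  have key := ssm_cf_sum_zeros_le hx _ hs
  rw [Finset.sum_insert (by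
      simp only [Finset.mem_insert, Finset.mem_singleton, not_or]
      exact ⟨hcW, fun h => hne1 h.symm⟩),
    Finset.sum_insert (by
      simp only [Finset.mem_singleton]
      exact fun h => hne2 h.symm),
    Finset.sum_singleton, Place.ord_inv, Place.ord_inv, Place.ord_inv, ssm_cf_comap_ord, hc1,
    hcq] at key
  have hfr : Module.finrank K⟮t⁻¹⟯ F = Module.finrank K⟮t⟯ F := by rw [heq]
  rw [hfr] at key
  have : (Module.finrank K⟮t⟯ F : ℤ) ≤ (q : ℤ) + 1 := by exact_mod_cast hdeg
  omega

theorem ssm_cf_abs (t : F) (ht : Transcendental K t) [FiniteDimensional K⟮t⟯ F]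
    [Algebra.IsSeparable K⟮t⟯ F] (q : ℕ) (hq : 2 ≤ q) (hdeg : Module.finrank K⟮t⟯ F ≤ q + 1)
    (W : F ≃ₐ[K] F) (hW : ∀ x, W (W x) = x) (c : Place K F) (hc1 : c.ord t = -1)
    (hcq : c.ord (W t) = -(q : ℤ)) (c' : Place K F) (hc' : c'.ord t < 0) :
    (c'.ord t = -1 ∧ c'.ord (W t) = -(q : ℤ)) ∨ (c'.ord t = -(q : ℤ) ∧ c'.ord (W t) = -1) := by
  rcases ssm_cf_abs_place t ht q hq hdeg W c hc1 hcq c' hc' with rfl | rfl
  · exact Or.inl ⟨hc1, hcq⟩
  · refine Or.inr ⟨?_, ?_⟩
    · rw [ssm_cf_comap_ord, hcq]
    · rw [ssm_cf_comap_ord, hW, hc1]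

/-- Corollary in the form used by [I1]: at every pole of `t`, `ord (W t) ≥ q · ord t` and
`ord t ≥ q · ord (W t)`; in particular `W t` has a pole there. -/
theorem ssm_cf_abs_le (t : F) (ht : Transcendental K t) [FiniteDimensional K⟮t⟯ F]
    [Algebra.IsSeparable K⟮t⟯ F] (q : ℕ) (hq : 2 ≤ q) (hdeg : Module.finrank K⟮t⟯ F ≤ q + 1)
    (W : F ≃ₐ[K] F) (hW : ∀ x, W (W x) = x) (c : Place K F) (hc1 : c.ord t = -1)
    (hcq : c.ord (W t) = -(q : ℤ)) (c' : Place K F) (hc' : c'.ord t < 0) :
    c'.ord (W t) < 0 ∧ (q : ℤ) * c'.ord t ≤ c'.ord (W t) ∧ (q : ℤ) * c'.ord (W t) ≤ c'.ord t := by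
  have hq0 : (2 : ℤ) ≤ q := by exact_mod_cast hq
  rcases ssm_cf_abs t ht q hq hdeg W hW c hc1 hcq c' hc' with ⟨h1, h2⟩ | ⟨h1, h2⟩
  · rw [h1, h2]
    refine ⟨by omega, by omega, by nlinarith⟩
  · rw [h1, h2]
    refine ⟨by omega, by nlinarith, by omega⟩

end Main

end Fermat.Agent.SS
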