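/-
Project SS (S34), cell [M] (model), leaf [CF] (cusp facts), part 2: from the three Hauptmoduln
`t₄`, `t₂`, `j` to `λ`.

`E / L` any field extension, `c` a place.  With the Legendre relations
`λ (t₄ + 16) = 16`, `t₂ (t₄ + 16) = t₄²`, `j t₂² = (t₂ + 256)³` one has
`{λ = 0} = {t₄ = ∞}`, `{λ = ∞} = {t₂ = ∞} ∖ {t₄ = ∞}`, `{λ = 1} = {j = ∞} ∖ {t₂ = ∞}`, with
`ord λ = - ord t₄`, `ord λ = ord t₂`, `ord j = -4 ord (λ - 1)` respectively.  Hence the "pole pairing"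
of `(t, W t)` for `t ∈ {t₄, t₂, j}` (output of `ssm_cf_abs_le` on the subfields `F_{4q}`, `F_{2q}`,
`F_q`) gives the "zero pairing" of `(u, W u)` for `u ∈ {λ, λ⁻¹, λ - 1}`:
`ord_c u > 0 → ord_c (W u) > 0 ∧ ord_c (W u) ≤ q ord_c u ∧ ord_c u ≤ q ord_c (W u)`.

* `ssm_cf_PolePair`, `ssm_cf_ZeroPair` : the two predicates;
* `ssm_cf_polePair_of_sub`             : pole pairing on `E` from `ssm_cf_abs_le` on a subfield;
* `ssm_cf_zeroPair_lam`, `_lam_inv`, `_lam_sub_one` : the output.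
-/
import Mathlib
import Fermat.Agent.SS.Model.Cusps
import Fermat.Prelude.Def_AlgebraicCurve_DivisorPushPull

set_option autoImplicit false

noncomputable section

open AlgebraicCurve IntermediateField
open Fermat.Agent.S24

namespace Fermat.Agent.SS

section Single

variable {L : Type*} {E : Type*} [Field L] [Field E] [Algebra L E] (c : Place L E)

theorem ssm_cf_ne_zero_of_ord {x : E} (h : c.ord x ≠ 0) : x ≠ 0 := by
  rintro rfl
  exact h c.ord_zero

theorem ssm_cf_ord_add_of_neg {x k : E} (hk0 : k ≠ 0) (hk : c.ord k = 0) (hx : c.ord x < 0) :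
    c.ord (x + k) = c.ord x :=
  hw_ord_add_eq_of_lt c (ssm_cf_ne_zero_of_ord c hx.ne) hk0 (by omega)

theorem ssm_cf_ord_add_of_pos {x k : E} (hk0 : k ≠ 0) (hk : c.ord k = 0) (hx : 0 < c.ord x) :
    c.ord (x + k) = 0 := by
  rw [add_comm, hw_ord_add_eq_of_lt c hk0 (ssm_cf_ne_zero_of_ord c hx.ne') (by omega), hk]

theorem ssm_cf_ord_add_nonneg {x k : E} (hk0 : k ≠ 0) (hk : c.ord k = 0) (hx : 0 ≤ c.ord x) :
    0 ≤ c.ord (x + k) := by
  by_cases hx0 : x = 0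
  · rw [hx0, zero_add, hk]
  by_cases hs : x + k = 0
  · rw [hs, Place.ord_zero]
  have := hw_ord_add_ge c hx0 hk0 hs
  rw [hk] at this
  exact le_trans (le_min hx le_rfl) this

theorem ssm_cf_ord_mul_eq {a b d : E} (h : a * b = d) (hd : d ≠ 0) :
    c.ord a + c.ord b = c.ord d := by
  have ha : a ≠ 0 := left_ne_zero_of_mul (h ▸ hd)
  have hb : b ≠ 0 := right_ne_zero_of_mul (h ▸ hd)
  rw [← h, c.ord_mul ha hb]

theorem ssm_cf_ord_sq (x : E) : c.ord (x ^ 2) = 2 * c.ord x := by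
  have := c.ord_zpow x 2
  simpa using this

theorem ssm_cf_ord_cube (x : E) : c.ord (x ^ 3) = 3 * c.ord x := by
  have := c.ord_zpow x 3
  rw [show (x ^ (3 : ℤ)) = x ^ 3 by norm_cast] at this
  simpa using this

theorem ssm_cf_ord_neg_const {k : E} (hk : c.ord k = 0) : c.ord (-k) = 0 := by
  rw [hw_ord_neg, hk]

variable {lam t4 t2 j : E}
variable (h16 : (16 : E) ≠ 0) (o16 : c.ord (16 : E) = 0)
variable (h256 : (256 : E) ≠ 0) (o256 : c.ord (256 : E) = 0)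

include h16 o16

/-- `{λ = 0} ⊆ {t₄ = ∞}` with `ord t₄ = - ord λ`. -/
theorem ssm_cf_A1 (h4 : lam * (t4 + 16) = 16) (hpos : 0 < c.ord lam) :
    c.ord t4 = -c.ord lam := by
  have h1 := ssm_cf_ord_mul_eq c h4 h16
  rw [o16] at h1
  have h2 : c.ord (t4 + 16) < 0 := by omega
  have h3 := ssm_cf_ord_add_of_neg c (neg_ne_zero.mpr h16) (ssm_cf_ord_neg_const c o16) h2
  rw [add_neg_cancel_right] at h3
  omega

/-- `{t₄ = ∞} ⊆ {λ = 0}` with `ord λ = - ord t₄`. -/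
theorem ssm_cf_A1' (h4 : lam * (t4 + 16) = 16) (hneg : c.ord t4 < 0) :
    c.ord lam = -c.ord t4 := by
  have h1 := ssm_cf_ord_mul_eq c h4 h16
  rw [o16, ssm_cf_ord_add_of_neg c h16 o16 hneg] at h1
  omega

/-- at a pole of `λ`: `ord t₄ = 0` and `ord t₂ = ord λ`. -/
theorem ssm_cf_A2 (h4 : lam * (t4 + 16) = 16) (h2 : t2 * (t4 + 16) = t4 ^ 2)
    (hneg : c.ord lam < 0) : c.ord t2 = c.ord lam := by
  have h1 := ssm_cf_ord_mul_eq c h4 h16
  rw [o16] at h1
  have h3 : 0 < c.ord (t4 + 16) := by omega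
  have h5 := ssm_cf_ord_add_of_pos c (neg_ne_zero.mpr h16) (ssm_cf_ord_neg_const c o16) h3
  rw [add_neg_cancel_right] at h5
  have ht4 : t4 ≠ 0 := by
    rintro rfl
    rw [zero_add, o16] at h3
    exact lt_irrefl _ h3
  have h6 := ssm_cf_ord_mul_eq c h2 (pow_ne_zero 2 ht4)
  rw [ssm_cf_ord_sq, h5] at h6
  omega

/-- at a pole of `t₂`: `λ` has a zero or a pole, and in the second case `ord t₂ = ord λ`. -/
theorem ssm_cf_A2' (h4 : lam * (t4 + 16) = 16) (h2 : t2 * (t4 + 16) = t4 ^ 2)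
    (hneg : c.ord t2 < 0) : c.ord lam ≠ 0 := by
  intro h0
  have h1 := ssm_cf_ord_mul_eq c h4 h16
  rw [o16, h0, zero_add] at h1
  have h3 : 0 ≤ c.ord t4 := by
    have := ssm_cf_ord_add_nonneg c (neg_ne_zero.mpr h16) (ssm_cf_ord_neg_const c o16) h1.ge
    rwa [add_neg_cancel_right] at this
  have ht2 : t2 ≠ 0 := ssm_cf_ne_zero_of_ord c hneg.ne
  have h416 : t4 + 16 ≠ 0 := right_ne_zero_of_mul (h4 ▸ h16)
  have h6 := ssm_cf_ord_mul_eq c h2 (h2 ▸ mul_ne_zero ht2 h416)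
  rw [ssm_cf_ord_sq, h1] at h6
  omega

include h256 o256

/-- at a zero of `λ - 1`: `ord t₂ = 2 ord (λ - 1)`, `ord j = -4 ord (λ - 1)`. -/
theorem ssm_cf_A3 (h4 : lam * (t4 + 16) = 16) (h2 : t2 * (t4 + 16) = t4 ^ 2)
    (h1 : j * t2 ^ 2 = (t2 + 256) ^ 3) (hpos : 0 < c.ord (lam - 1)) :
    c.ord t2 = 2 * c.ord (lam - 1) ∧ c.ord j = -4 * c.ord (lam - 1) := by
  have hlam1 : lam - 1 ≠ 0 := ssm_cf_ne_zero_of_ord c hpos.ne'
  have hol : c.ord lam = 0 := by
    have := ssm_cf_ord_add_of_pos c (one_ne_zero (α := E)) c.ord_one hpos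
    rwa [sub_add_cancel] at this
  have h5 := ssm_cf_ord_mul_eq c h4 h16
  rw [o16, hol, zero_add] at h5
  -- `λ t₄ = -16 (λ - 1)`
  have h6 : lam * t4 = -16 * (lam - 1) := by linear_combination h4
  have h7 : (-16 : E) * (lam - 1) ≠ 0 := mul_ne_zero (neg_ne_zero.mpr h16) hlam1
  have h8 := ssm_cf_ord_mul_eq c h6 h7
  rw [c.ord_mul (neg_ne_zero.mpr h16) hlam1, ssm_cf_ord_neg_const c o16, hol] at h8
  have ht4 : t4 ≠ 0 := right_ne_zero_of_mul (h6 ▸ h7)
  have h9 := ssm_cf_ord_mul_eq c h2 (pow_ne_zero 2 ht4)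
  rw [ssm_cf_ord_sq, h5] at h9
  have hot2 : c.ord t2 = 2 * c.ord (lam - 1) := by omega
  have ht2pos : 0 < c.ord t2 := by omega
  have h10 := ssm_cf_ord_add_of_pos c h256 o256 ht2pos
  have h11 : t2 + 256 ≠ 0 := by
    intro h
    have : t2 = -256 := eq_neg_of_add_eq_zero_left h
    rw [this, ssm_cf_ord_neg_const c o256] at ht2pos
    exact lt_irrefl _ ht2pos
  have h12 := ssm_cf_ord_mul_eq c h1 (pow_ne_zero 3 h11)
  rw [ssm_cf_ord_sq, ssm_cf_ord_cube, h10] at h12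
  exact ⟨hot2, by omega⟩

/-- at a pole of `j`: either `t₂` has a pole, or `λ - 1` has a zero and `ord j = -4 ord (λ - 1)`. -/
theorem ssm_cf_A3' (h4 : lam * (t4 + 16) = 16) (h2 : t2 * (t4 + 16) = t4 ^ 2)
    (h1 : j * t2 ^ 2 = (t2 + 256) ^ 3) (hneg : c.ord j < 0) :
    c.ord t2 < 0 ∨ (0 < c.ord (lam - 1) ∧ c.ord j = -4 * c.ord (lam - 1)) := by
  have hj : j ≠ 0 := ssm_cf_ne_zero_of_ord c hneg.ne
  have ht2 : t2 ≠ 0 := by
    rintro rfl
    rw [zero_add, zero_pow (by norm_num), mul_zero] at h1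
    exact pow_ne_zero 3 h256 h1.symm
  have h3 := ssm_cf_ord_mul_eq c h1 (h1 ▸ mul_ne_zero hj (pow_ne_zero 2 ht2))
  rw [ssm_cf_ord_sq, ssm_cf_ord_cube] at h3
  rcases lt_trichotomy (c.ord t2) 0 with hlt | heq | hgt
  · exact Or.inl hlt
  · exfalso
    have := ssm_cf_ord_add_nonneg c h256 o256 heq.ge
    omega
  · right
    have h5 := ssm_cf_ord_add_of_pos c h256 o256 hgt
    have h416 : t4 + 16 ≠ 0 := right_ne_zero_of_mul (h4 ▸ h16)
    have ht4 : t4 ≠ 0 := by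
      rintro rfl
      rw [zero_pow (by norm_num)] at h2
      exact (mul_ne_zero ht2 h416) h2
    have h6 := ssm_cf_ord_mul_eq c h2 (pow_ne_zero 2 ht4)
    rw [ssm_cf_ord_sq] at h6
    have ht4pos : 0 < c.ord t4 := by
      rcases lt_trichotomy (c.ord t4) 0 with h | h | h
      · exfalso
        rw [ssm_cf_ord_add_of_neg c h16 o16 h] at h6
        omega
      · exfalso
        have := ssm_cf_ord_add_nonneg c h16 o16 h.ge
        omega
      · exact h
    have h7 := ssm_cf_ord_add_of_pos c h16 o16 ht4pos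
    -- `(λ - 1)(t₄ + 16) = -t₄`
    have h8 : (lam - 1) * (t4 + 16) = -t4 := by linear_combination h4
    have h9 := ssm_cf_ord_mul_eq c h8 (neg_ne_zero.mpr ht4)
    rw [hw_ord_neg, h7] at h9
    refine ⟨by omega, by omega⟩

end Single

section Pairs

variable {L : Type*} {E : Type*} [Field L] [Field E] [Algebra L E]

/-- pole pairing of `(a, b)` with ratio `q`: at every pole of `a`, `b` has a pole and the two orders
are within a factor `q` of each other. -/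
def ssm_cf_PolePair (L : Type*) {E : Type*} [Field L] [Field E] [Algebra L E] (q : ℕ) (a b : E) :
    Prop :=
  ∀ c : Place L E, c.ord a < 0 →
    c.ord b < 0 ∧ (q : ℤ) * c.ord a ≤ c.ord b ∧ (q : ℤ) * c.ord b ≤ c.ord a

/-- zero pairing of `(a, b)` with ratio `q`: at every zero of `a`, `b` has a zero and the two orders
are within a factor `q` of each other. -/
def ssm_cf_ZeroPair (L : Type*) {E : Type*} [Field L] [Field E] [Algebra L E] (q : ℕ) (a b : E) :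
    Prop :=
  ∀ c : Place L E, 0 < c.ord a →
    0 < c.ord b ∧ c.ord b ≤ (q : ℤ) * c.ord a ∧ c.ord a ≤ (q : ℤ) * c.ord b

theorem ssm_cf_ord_ofNat_eq_zero (c : Place L E) (n : ℕ) [n.AtLeastTwo] :
    c.ord (OfNat.ofNat n : E) = 0 := by
  rw [← map_ofNat (algebraMap L E) n]
  exact hw_ord_algebraMap c _

variable {q : ℕ} {lam t4 t2 j lamq t4q t2q jq : E}

/-- `{λ = 0}`: from the pole pairing of `(t₄, W t₄)`. -/
theorem ssm_cf_zeroPair_lam (h16 : (16 : E) ≠ 0) (h4 : lam * (t4 + 16) = 16)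
    (h4q : lamq * (t4q + 16) = 16) (hP : ssm_cf_PolePair L q t4 t4q) :
    ssm_cf_ZeroPair L q lam lamq := by
  intro c hpos
  have o16 := ssm_cf_ord_ofNat_eq_zero (L := L) c 16
  have h1 := ssm_cf_A1 c h16 o16 h4 hpos
  obtain ⟨h2, h3, h5⟩ := hP c (by omega)
  have h6 := ssm_cf_A1' c h16 o16 h4q h2
  refine ⟨by omega, ?_, ?_⟩
  · rw [h6]
    rw [h1] at h3
    linarith
  · rw [h6]
    rw [h1] at h5
    linarith

/-- `{λ = ∞}`: from the pole pairing of `(t₂, W t₂)` and the zero pairing of `(W λ, λ)`. -/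
theorem ssm_cf_zeroPair_lam_inv (h16 : (16 : E) ≠ 0) (h4 : lam * (t4 + 16) = 16)
    (h4q : lamq * (t4q + 16) = 16) (h2 : t2 * (t4 + 16) = t4 ^ 2)
    (h2q : t2q * (t4q + 16) = t4q ^ 2) (hP : ssm_cf_PolePair L q t2 t2q)
    (hZ : ssm_cf_ZeroPair L q lamq lam) :
    ssm_cf_ZeroPair L q lam⁻¹ lamq⁻¹ := by
  intro c hpos
  have o16 := ssm_cf_ord_ofNat_eq_zero (L := L) c 16
  rw [c.ord_inv] at hpos
  have hneg : c.ord lam < 0 := by omega
  have h1 := ssm_cf_A2 c h16 o16 h4 h2 hneg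
  obtain ⟨h3, h5, h6⟩ := hP c (by omega)
  have h7 := ssm_cf_A2' c h16 o16 h4q h2q h3
  have h8 : c.ord lamq < 0 := by
    rcases lt_trichotomy (c.ord lamq) 0 with h | h | h
    · exact h
    · exact absurd h h7
    · exfalso
      have := (hZ c h).1
      omega
  have h9 := ssm_cf_A2 c h16 o16 h4q h2q h8
  rw [c.ord_inv, c.ord_inv]
  rw [h1, h9] at h5 h6
  refine ⟨by omega, by linarith, by linarith⟩

/-- `{λ = 1}`: from the pole pairings of `(j, W j)` and `(W t₂, t₂)`. -/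
theorem ssm_cf_zeroPair_lam_sub_one (h16 : (16 : E) ≠ 0) (h256 : (256 : E) ≠ 0)
    (h4 : lam * (t4 + 16) = 16) (h4q : lamq * (t4q + 16) = 16)
    (h2 : t2 * (t4 + 16) = t4 ^ 2) (h2q : t2q * (t4q + 16) = t4q ^ 2)
    (h1 : j * t2 ^ 2 = (t2 + 256) ^ 3) (h1q : jq * t2q ^ 2 = (t2q + 256) ^ 3)
    (hP : ssm_cf_PolePair L q j jq) (hP2 : ssm_cf_PolePair L q t2q t2) :
    ssm_cf_ZeroPair L q (lam - 1) (lamq - 1) := by
  intro c hpos
  have o16 := ssm_cf_ord_ofNat_eq_zero (L := L) c 16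
  have o256 := ssm_cf_ord_ofNat_eq_zero (L := L) c 256
  obtain ⟨h3, h5⟩ := ssm_cf_A3 c h16 o16 h256 o256 h4 h2 h1 hpos
  obtain ⟨h6, h7, h8⟩ := hP c (by omega)
  rcases ssm_cf_A3' c h16 o16 h256 o256 h4q h2q h1q h6 with h9 | ⟨h9, h10⟩
  · exfalso
    have := (hP2 c h9).1
    omega
  · rw [h5, h10] at h7 h8
    refine ⟨h9, by linarith, by linarith⟩

end Pairs

section Restrict

variable {L : Type*} {E : Type*} {K1 : Type*} [Field L] [Field E] [Field K1] [Algebra L E]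
  [Algebra L K1] [Algebra K1 E] [IsScalarTower L K1 E] [Algebra.IsIntegral K1 E]

/-- **pole pairing on `E` from the abstract lemma on a subfield `K1`** with `[K1 : L(t)] ≤ q + 1`, an
involution `W1` of `K1 / L` and a place `c0` of `K1` with `ord t = -1`, `ord (W1 t) = -q`. -/
theorem ssm_cf_polePair_of_sub (t : K1) (ht : Transcendental L t) [FiniteDimensional L⟮t⟯ K1]
    [Algebra.IsSeparable L⟮t⟯ K1] (q : ℕ) (hq : 2 ≤ q) (hdeg : Module.finrank L⟮t⟯ K1 ≤ q + 1)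
    (W1 : K1 ≃ₐ[L] K1) (hW1 : ∀ x, W1 (W1 x) = x) (c0 : Place L K1) (hc1 : c0.ord t = -1)
    (hcq : c0.ord (W1 t) = -(q : ℤ)) :
    ssm_cf_PolePair L q (algebraMap K1 E t) (algebraMap K1 E (W1 t)) := by
  intro c hc
  have he : (0 : ℤ) < (Place.ramificationIndex (F := K1) c : ℤ) := by
    exact_mod_cast c.ramificationIndex_pos (F := K1)
  rw [c.ord_restrict (F := K1)] at hc ⊢
  rw [c.ord_restrict (F := K1)]
  have hc' : (c.restrict K1).ord t < 0 := by
    by_contra h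
    push Not at h
    have := mul_nonneg he.le h
    omega
  obtain ⟨h1, h2, h3⟩ := ssm_cf_abs_le t ht q hq hdeg W1 hW1 c0 hc1 hcq (c.restrict K1) hc'
  refine ⟨mul_neg_of_pos_of_neg he h1, ?_, ?_⟩
  · calc (q : ℤ) * ((Place.ramificationIndex (F := K1) c : ℤ) * (c.restrict K1).ord t)
        = (Place.ramificationIndex (F := K1) c : ℤ) * ((q : ℤ) * (c.restrict K1).ord t) := by ring
      _ ≤ _ := mul_le_mul_of_nonneg_left h2 he.le
  · calc (q : ℤ) * ((Place.ramificationIndex (F := K1) c : ℤ) * (c.restrict K1).ord (W1 t))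
        = (Place.ramificationIndex (F := K1) c : ℤ) * ((q : ℤ) * (c.restrict K1).ord (W1 t)) := by
          ring
      _ ≤ _ := mul_le_mul_of_nonneg_left h3 he.le

end Restrict

end Fermat.Agent.SS
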