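/-
Project SS (S34), cell [M] (model), leaf [CF] (cusp facts): the INSTANCE.

For a field `L` of characteristic zero, an odd prime `q` and a level `M` with `4 q ∣ M`, put
`E = F_M = L(j(X^d) : d ∣ M) ⊆ L((X))`, `λ = hm_lam L`, `λ_q = λ(X^q)`.  From the Atkin–Lehner data
on the three genus-zero towers `F_{4q} / F_4 = L(t₄)`, `F_{2q} / F_2 = L(t₂)`, `F_q / F_1 = L(j)`
(`ssm_cf_ALHyp`: an involution `W` of `F_{M₀ q} / L` with `W x = x(X^q)` on `F_{M₀}` and
`[F_{M₀ q} : F_{M₀}] = q + 1`) we get for every place `c` of `E / L` and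
`(u, u_q) ∈ {(λ, λ_q), (λ - 1, λ_q - 1), (λ⁻¹, λ_q⁻¹)}`:
`ord_c u > 0 ↔ ord_c u_q > 0`, and then `ord_c u_q ≤ q ord_c u`, `ord_c u ≤ q ord_c u_q`
(`ssm_cf_ZeroPair`, both directions).

Inputs: the abstract lemma `ssm_cf_abs_le` (Cusps.lean) on the three subfields with the `X`-adic
place, the `λ`-combinatorics of CuspsLam.lean, the Hauptmodul identities of
`JT3/Hauptmodul/Level{2,4}.lean` and `[F4]`.

Prefix `ssm_cf_`.
-/
import Mathlib
import Fermat.Agent.SS.Model.CuspsLam
import Fermat.Agent.SS.Model.F4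
import Fermat.Agent.JT3.Gateway.ValPlace
import Fermat.Agent.JT3.S18.ConstRed

set_option autoImplicit false
set_option linter.style.haveILetI false
set_option linter.unusedSectionVars false

noncomputable section

open ModularCurve IntermediateField AlgebraicCurve
open Fermat.Agent.S28 Fermat.Agent.JT3 Fermat.Agent.S24

namespace Fermat.Agent.SS

/-! ### Generalities on places -/

section Gen

variable {K F : Type*} [Field K] [Field F] [Algebra K F]

/-- an element with a zero or a pole somewhere is transcendental over the constants -/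
theorem ssm_cf_transcendental_of_ord (c : Place K F) {x : F} (h : c.ord x ≠ 0) :
    Transcendental K x := by
  intro halg
  have hx0 : x ≠ 0 := by
    rintro rfl
    exact h c.ord_zero
  have hmem : ∀ y : F, IsAlgebraic K y → y ∈ c.toValuationSubring := by
    intro y hy
    have h1 : IsIntegral c.toValuationSubring y := hy.isIntegral.tower_top
    obtain ⟨z, hz⟩ := IsIntegrallyClosed.isIntegral_iff.1 h1
    rw [← hz]
    exact z.2
  have h1 := (hw_mem_iff_ord_nonneg c hx0).1 (hmem x halg)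
  have h2 := (hw_mem_iff_ord_nonneg c (inv_ne_zero hx0)).1 (hmem x⁻¹ halg.inv)
  rw [c.ord_inv] at h2
  omega

end Gen

/-! ### The `X`-adic place of a subfield of `L((X))` -/

section XPlace

variable {L : Type*} [Field L] (K1 : IntermediateField L (LaurentSeries L))

/-- the `X`-order on a subfield of `L((X))` -/
def ssm_cf_xval (f : K1) : ℤ := (f : LaurentSeries L).order

theorem ssm_cf_xval_isVal : gw_IsVal L (ssm_cf_xval K1) where
  map_mul f g hf hg := by
    have hf' : (f : LaurentSeries L) ≠ 0 := fun h => hf (Subtype.ext h)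
    have hg' : (g : LaurentSeries L) ≠ 0 := fun h => hg (Subtype.ext h)
    exact HahnSeries.order_mul hf' hg'
  map_add f g _ _ hfg := by
    have hfg' : (f : LaurentSeries L) + (g : LaurentSeries L) ≠ 0 := fun h => hfg (Subtype.ext h)
    exact HahnSeries.min_order_le_order_add hfg'
  map_const c hc := by
    show (algebraMap L (LaurentSeries L) c).order = 0
    rw [algebraMap_laurentSeries_eq_single]
    exact HahnSeries.order_single hc

/-- **the `X`-adic place**: if the subfield `K1 ⊆ L((X))` contains a series with a simple pole,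
the `X`-order is the order function of a place of `K1 / L`. -/
theorem ssm_cf_exists_xplace {t : LaurentSeries L} (ht : t ∈ K1) (hord : t.order = -1) :
    ∃ c0 : Place L K1, ∀ f : K1, c0.ord f = (f : LaurentSeries L).order := by
  have ht0 : (⟨t, ht⟩ : K1) ≠ 0 := by
    intro h
    have h' : t = 0 := congrArg Subtype.val h
    rw [h'] at hord
    simp at hord
  have hnt : ∃ f : K1, f ≠ 0 ∧ ssm_cf_xval K1 f ≠ 0 :=
    ⟨⟨t, ht⟩, ht0, by show t.order ≠ 0; rw [hord]; norm_num⟩
  obtain ⟨P, e, he, hP⟩ := gw_val_eq_ord L (ssm_cf_xval_isVal K1) hnt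
  have h1 : (-1 : ℤ) = e * P.ord ⟨t, ht⟩ := by
    rw [← hP _ ht0]
    exact hord.symm
  have he1 : e = 1 := by
    have hdvd : e ∣ 1 := ⟨-P.ord ⟨t, ht⟩, by linarith⟩
    exact Int.eq_one_of_dvd_one he.le hdvd
  refine ⟨P, fun f => ?_⟩
  rcases eq_or_ne f 0 with rfl | hf
  · simp
  · have := hP f hf
    rw [he1, one_mul] at this
    exact this.symm

end XPlace

/-! ### Hauptmoduln: orders, identities, generation -/

section Haupt

variable (L : Type*) [Field L]

theorem ssm_cf_order_t2 : (hm_t2 L).order = -1 := hm_t2_order L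

theorem ssm_cf_order_j : (jqModC L).order = -1 := ssm_f4_order_j L

theorem ssm_cf_order_qExpand (q : ℕ) [NeZero q] {x : LaurentSeries L} (hx : x.order = -1) :
    (qExpand L q x).order = -(q : ℤ) := by
  rw [fs_qExpand_order, hx]
  ring

variable {L}

theorem ssm_cf_order_lam (h2 : (2 : L) ≠ 0) : (hm_lam L).order = 1 := by
  refine hm_lam_order L ?_
  have : (16 : L) = 2 ^ 4 := by norm_num
  rw [this]
  exact pow_ne_zero 4 h2

theorem ssm_cf_order_t4 (h2 : (2 : L) ≠ 0) : (hm_t4 L).order = -1 := by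
  have h := hm_lam_mul L
  have hl := ssm_f4_lam_ne_zero h2
  have hu : hm_t4 L + 16 ≠ 0 := (hm_isUnit_t4_add L).ne_zero
  have hmul := HahnSeries.order_mul hl hu
  rw [show hm_lam L = lg_lam L from rfl] at h
  rw [h] at hmul
  have h16 : (16 : LaurentSeries L).order = 0 := by
    have : (16 : LaurentSeries L) = HahnSeries.C (16 : L) := by rw [map_ofNat]
    rw [this, HahnSeries.order_C]
  rw [h16, show lg_lam L = hm_lam L from rfl, ssm_cf_order_lam h2] at hmul
  have h3 : (hm_t4 L + 16).order = -1 := by omega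
  have h4 := ssm_f4_order_sub_natCast (x := hm_t4 L + 16) (by rw [h3]; norm_num) 16
  have h5 : hm_t4 L + 16 - ((16 : ℕ) : LaurentSeries L) = hm_t4 L := by
    push_cast
    ring
  rw [h5, h3] at h4
  exact h4

/-! #### generation of the three base fields -/

variable (L)

/-- `F_1 = L(j)`. -/
theorem ssm_cf_F1_eq : modularFunctionFieldFullC L 1 = L⟮jqModC L⟯ := by
  apply le_antisymm
  · rw [modularFunctionFieldFullC, IntermediateField.adjoin_le_iff]
    rintro _ ⟨d, hd, hd1, rfl⟩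
    have : d = 1 := Nat.dvd_one.1 hd1
    subst this
    rw [SetLike.mem_coe, qExpand_one_apply]
    exact mem_adjoin_simple_self L _
  · rw [IntermediateField.adjoin_simple_le_iff]
    exact jqModC_mem_full L 1

theorem ssm_cf_t2_mem_F2 : hm_t2 L ∈ modularFunctionFieldFullC L 2 :=
  ssm_f4_t2_mem _ _ _ _ (ssm_f4_t2_ne_zero L) (hm_t2_id1 L) (hm_t2_id2 L)
    (ssm_f4_det_ne_zero (by rw [ssm_f4_order_j]; norm_num) (by rw [ssm_f4_order_j2]; norm_num))
    (jqModC_mem_full L 2) (jqModCd_mem_full L 2 dvd_rfl)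

/-- `F_2 = L(t₂)`. -/
theorem ssm_cf_F2_eq : modularFunctionFieldFullC L 2 = L⟮hm_t2 L⟯ := by
  apply le_antisymm
  · rw [modularFunctionFieldFullC, IntermediateField.adjoin_le_iff]
    rintro _ ⟨d, hd, hd2, rfl⟩
    have hle : d ≤ 2 := Nat.le_of_dvd (by norm_num) hd2
    have hpos : 0 < d := Nat.pos_of_ne_zero (NeZero.ne d)
    have hmem := mem_adjoin_simple_self L (hm_t2 L)
    have ht0 := ssm_f4_t2_ne_zero L
    interval_cases d
    · rw [SetLike.mem_coe, qExpand_one_apply]
      have h := hm_t2_id1 L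
      have hj : jqModC L = (hm_t2 L + 256) ^ 3 / hm_t2 L ^ 2 := by
        rw [eq_div_iff (pow_ne_zero 2 ht0)]; exact h
      rw [hj]
      exact div_mem (pow_mem (add_mem hmem (ofNat_mem _ 256)) 3) (pow_mem hmem 2)
    · have h := hm_t2_id2 L
      have hj : qExpand L 2 (jqModC L) = (hm_t2 L + 16) ^ 3 / hm_t2 L := by
        rw [eq_div_iff ht0]; exact h
      rw [SetLike.mem_coe, hj]
      exact div_mem (pow_mem (add_mem hmem (ofNat_mem _ 16)) 3) hmem
  · rw [IntermediateField.adjoin_simple_le_iff]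
    exact ssm_cf_t2_mem_F2 L

variable {L}

/-- `F_4 = L(t₄)`. -/
theorem ssm_cf_F4_eq (h2 : (2 : L) ≠ 0) : modularFunctionFieldFullC L 4 = L⟮hm_t4 L⟯ := by
  rw [← ssm_f4_K h2]
  apply le_antisymm
  · rw [lg_K, IntermediateField.adjoin_simple_le_iff]
    have h := hm_lam_mul L
    have hu : hm_t4 L + 16 ≠ 0 := (hm_isUnit_t4_add L).ne_zero
    have ht : lg_lam L = 16 / (hm_t4 L + 16) := by
      rw [eq_div_iff hu]; exact h
    rw [ht]
    have hmem := mem_adjoin_simple_self L (hm_t4 L)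
    exact div_mem (ofNat_mem _ 16) (add_mem hmem (ofNat_mem _ 16))
  · rw [IntermediateField.adjoin_simple_le_iff]
    exact ssm_f4_t4_mem_K h2

end Haupt

/-! ### The reverse pole pairing -/

section RestrictSymm

variable {L : Type*} {E : Type*} {K1 : Type*} [Field L] [Field E] [Field K1] [Algebra L E]
  [Algebra L K1] [Algebra K1 E] [IsScalarTower L K1 E] [Algebra.IsIntegral K1 E]

/-- the pole pairing of `ssm_cf_polePair_of_sub` in the other direction: every pole of `W t` is a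
pole of `t` (apply the abstract lemma at the place `c ∘ W`). -/
theorem ssm_cf_polePair_of_sub_symm (t : K1) (ht : Transcendental L t) [FiniteDimensional L⟮t⟯ K1]
    [Algebra.IsSeparable L⟮t⟯ K1] (q : ℕ) (hq : 2 ≤ q) (hdeg : Module.finrank L⟮t⟯ K1 ≤ q + 1)
    (W1 : K1 ≃ₐ[L] K1) (hW1 : ∀ x, W1 (W1 x) = x) (c0 : Place L K1) (hc1 : c0.ord t = -1)
    (hcq : c0.ord (W1 t) = -(q : ℤ)) :
    ssm_cf_PolePair L q (algebraMap K1 E (W1 t)) (algebraMap K1 E t) := by
  intro c hc
  have he : (0 : ℤ) < (Place.ramificationIndex (F := K1) c : ℤ) := by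
    exact_mod_cast c.ramificationIndex_pos (F := K1)
  rw [c.ord_restrict (F := K1)] at hc ⊢
  rw [c.ord_restrict (F := K1)]
  have hc' : (ssm_cf_comap W1 (c.restrict K1)).ord t < 0 := by
    rw [ssm_cf_comap_ord]
    by_contra h
    push Not at h
    have := mul_nonneg he.le h
    omega
  obtain ⟨h1, h2, h3⟩ := ssm_cf_abs_le t ht q hq hdeg W1 hW1 c0 hc1 hcq
    (ssm_cf_comap W1 (c.restrict K1)) hc'
  simp only [ssm_cf_comap_ord, hW1] at h1 h2 h3
  refine ⟨mul_neg_of_pos_of_neg he h1, ?_, ?_⟩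
  · calc (q : ℤ) * ((Place.ramificationIndex (F := K1) c : ℤ) * (c.restrict K1).ord (W1 t))
        = (Place.ramificationIndex (F := K1) c : ℤ) * ((q : ℤ) * (c.restrict K1).ord (W1 t)) := by
          ring
      _ ≤ _ := mul_le_mul_of_nonneg_left h2 he.le
  · calc (q : ℤ) * ((Place.ramificationIndex (F := K1) c : ℤ) * (c.restrict K1).ord t)
        = (Place.ramificationIndex (F := K1) c : ℤ) * ((q : ℤ) * (c.restrict K1).ord t) := by ring
      _ ≤ _ := mul_le_mul_of_nonneg_left h3 he.le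

end RestrictSymm

/-! ### Subfields of a fixed field: degree transfer -/

section Transfer

variable {L Ω : Type*} [Field L] [Field Ω] [Algebra L Ω]

/-- `L(t)` inside `B` is the preimage of `L(t)` inside `Ω`. -/
theorem ssm_cf_comap_adjoin (B : IntermediateField L Ω) (t : B) :
    (L⟮(t : Ω)⟯).comap B.val = L⟮t⟯ := by
  apply le_antisymm
  · intro x hx
    have hx' : (x : Ω) ∈ L⟮(t : Ω)⟯ := hx
    have hmap : L⟮(t : Ω)⟯ = (L⟮t⟯).map B.val := by
      rw [IntermediateField.adjoin_map, Set.image_singleton]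
      rfl
    rw [hmap] at hx'
    obtain ⟨y, hy, hyx⟩ := hx'
    have : y = x := Subtype.ext hyx
    rw [← this]
    exact hy
  · rw [IntermediateField.adjoin_simple_le_iff]
    show ((t : B) : Ω) ∈ L⟮(t : Ω)⟯
    exact mem_adjoin_simple_self L _

/-- the relative degree of `B` over `L(t) ⊆ Ω` is the degree of `B` over `L(t) ⊆ B`. -/
theorem ssm_cf_finrank_adjoin (B : IntermediateField L Ω) (t : B) :
    Module.finrank L⟮t⟯ B = IntermediateField.relfinrank L⟮(t : Ω)⟯ B := by
  rw [← ssm_cf_comap_adjoin B t, IntermediateField.finrank_comap, IntermediateField.fieldRange_val]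

end Transfer

/-! ### One tower `L(t) = A ≤ B ≤ E` inside `L((X))` -/

section Tower

variable {L : Type*} [Field L] [CharZero L]

/-- **one genus-zero tower**: `A = L(t) ≤ B ≤ E ⊆ L((X))`, `t` with a simple pole at `X = 0`,
`W` an involution of `B / L` which is `X ↦ X^q` on `A`, `[B : A] = q + 1`, `E / B` algebraic.  Then
the poles of `t` and of `t(X^q)` on `E` are paired, in both directions. -/
theorem ssm_cf_tower (A B E : IntermediateField L (LaurentSeries L)) (hBE : B ≤ E)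
    (halg : ∀ y : E, IsAlgebraic B (y : LaurentSeries L))
    (q : ℕ) [NeZero q] (hq : 2 ≤ q)
    (W : B ≃ₐ[L] B) (hW : ∀ x, W (W x) = x)
    (hWq : ∀ x : B, (x : LaurentSeries L) ∈ A →
      ((W x : B) : LaurentSeries L) = qExpand L q (x : LaurentSeries L))
    (hdeg : IntermediateField.relfinrank A B = q + 1)
    (t : LaurentSeries L) (htA : A = L⟮t⟯) (htB : t ∈ B) (hord : t.order = -1)
    (htE : t ∈ E) (htqE : qExpand L q t ∈ E) :
    ssm_cf_PolePair L q (⟨t, htE⟩ : E) ⟨qExpand L q t, htqE⟩ ∧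
      ssm_cf_PolePair L q (⟨qExpand L q t, htqE⟩ : E) ⟨t, htE⟩ := by
  subst htA
  obtain ⟨c0, hc0⟩ := ssm_cf_exists_xplace B htB hord
  have hc1 : c0.ord (⟨t, htB⟩ : B) = -1 := by rw [hc0]; exact hord
  have hWt : ((W ⟨t, htB⟩ : B) : LaurentSeries L) = qExpand L q t :=
    hWq ⟨t, htB⟩ (mem_adjoin_simple_self L t)
  have hcq : c0.ord (W ⟨t, htB⟩) = -(q : ℤ) := by
    rw [hc0, hWt]
    exact ssm_cf_order_qExpand L q hord
  have htr : Transcendental L (⟨t, htB⟩ : B) :=
    ssm_cf_transcendental_of_ord c0 (by rw [hc1]; norm_num)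
  have hfr : Module.finrank L⟮(⟨t, htB⟩ : B)⟯ B = q + 1 := by
    rw [ssm_cf_finrank_adjoin]
    exact hdeg
  haveI : FiniteDimensional L⟮(⟨t, htB⟩ : B)⟯ B :=
    Module.finite_of_finrank_pos (by rw [hfr]; omega)
  letI : Algebra B E := (IntermediateField.inclusion hBE).toRingHom.toAlgebra
  haveI : IsScalarTower L B E := IsScalarTower.of_algebraMap_eq fun x => rfl
  haveI : IsScalarTower B E (LaurentSeries L) := IsScalarTower.of_algebraMap_eq fun x => rfl
  haveI : Algebra.IsIntegral B E :=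
    ⟨fun y => ((isAlgebraic_algebraMap_iff
      (algebraMap E (LaurentSeries L)).injective).1 (halg y)).isIntegral⟩
  have h1 := ssm_cf_polePair_of_sub (E := E) (⟨t, htB⟩ : B) htr q hq hfr.le W hW c0 hc1 hcq
  have h2 := ssm_cf_polePair_of_sub_symm (E := E) (⟨t, htB⟩ : B) htr q hq hfr.le W hW c0 hc1 hcq
  have e1 : algebraMap B E (⟨t, htB⟩ : B) = ⟨t, htE⟩ := rfl
  have e2 : algebraMap B E (W ⟨t, htB⟩) = ⟨qExpand L q t, htqE⟩ := Subtype.ext hWt
  rw [e1, e2] at h1 h2
  exact ⟨h1, h2⟩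

end Tower

/-! ### The instance -/

section Inst

variable (L : Type*) [Field L]

/-- **what [CF] consumes from [AL]** at the base level `M₀` (`M₀ ∈ {4, 2, 1}`): an involution `W` of
`F_{M₀ q} / L` which is `X ↦ X^q` on `F_{M₀}`, and `[F_{M₀ q} : F_{M₀}] = q + 1`. -/
def ssm_cf_ALHyp (M q : ℕ) [NeZero M] [NeZero q] : Prop :=
  ∃ W : ↥(modularFunctionFieldFullC L (M * q)) ≃ₐ[L] ↥(modularFunctionFieldFullC L (M * q)),
    (∀ x, W (W x) = x) ∧
    (∀ x : ↥(modularFunctionFieldFullC L (M * q)),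
      (x : LaurentSeries L) ∈ modularFunctionFieldFullC L M →
        ((W x : ↥(modularFunctionFieldFullC L (M * q))) : LaurentSeries L)
          = qExpand L q (x : LaurentSeries L)) ∧
    IntermediateField.relfinrank (modularFunctionFieldFullC L M)
      (modularFunctionFieldFullC L (M * q)) = q + 1

/-- **the output of [CF]**: the zeros of `λ, λ - 1, λ⁻¹` and of their `q`-twins are paired, with
order ratios in `[1/q, q]`. -/
structure ssm_cf_CuspFacts {E : Type*} [Field E] [Algebra L E] (q : ℕ) (lam lamq : E) : Prop where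
  zero : ssm_cf_ZeroPair L q lam lamq
  zero' : ssm_cf_ZeroPair L q lamq lam
  one : ssm_cf_ZeroPair L q (lam - 1) (lamq - 1)
  one' : ssm_cf_ZeroPair L q (lamq - 1) (lam - 1)
  inf : ssm_cf_ZeroPair L q lam⁻¹ lamq⁻¹
  inf' : ssm_cf_ZeroPair L q lamq⁻¹ lam⁻¹

variable [CharZero L]

/-- every level function field is algebraic over any subfield containing `j`. -/
theorem ssm_cf_isAlgebraic_of_j_mem (M : ℕ) [NeZero M] (B : IntermediateField L (LaurentSeries L))
    (hj : jqModC L ∈ B) {y : LaurentSeries L} (hy : y ∈ modularFunctionFieldFullC L M) :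
    IsAlgebraic B y := by
  have hle : L⟮jqModC L⟯ ≤ B := by
    rw [IntermediateField.adjoin_simple_le_iff]; exact hj
  letI : Algebra L⟮jqModC L⟯ B := (IntermediateField.inclusion hle).toRingHom.toAlgebra
  haveI : IsScalarTower L⟮jqModC L⟯ B (LaurentSeries L) :=
    IsScalarTower.of_algebraMap_eq fun _ => rfl
  obtain ⟨ℓ, hℓM, hℓ⟩ := Nat.exists_infinite_primes (M + 1)
  haveI : Fact ℓ.Prime := ⟨hℓ⟩
  let ρ : ↥(GaloisRep.ratLocalizedAt ℓ) →+* L :=
    (algebraMap ℚ L).comp (GaloisRep.ratLocalizedAt ℓ).subtype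
  rw [modularFunctionFieldFullC] at hy
  induction hy using IntermediateField.adjoin_induction with
  | mem y hy =>
    obtain ⟨d, hd, hdM, rfl⟩ := hy
    haveI := hd
    have hℓd : ¬ ℓ ∣ d := fun h => by
      have := Nat.le_of_dvd (Nat.pos_of_ne_zero (NeZero.ne M)) (h.trans hdM)
      omega
    have h1 : IsIntegral L⟮jqModC L⟯ (qExpand L d (jqModC L)) :=
      jcr_isIntegral_gen (AlgHom.id L (LaurentSeries L)) ρ hℓd rfl rfl
    exact (h1.tower_top (A := B)).isAlgebraic
  | algebraMap c =>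
    rw [IsScalarTower.algebraMap_apply L B (LaurentSeries L)]
    exact isAlgebraic_algebraMap _
  | add a b _ _ iha ihb => exact iha.add ihb
  | inv a _ iha => exact iha.inv
  | mul a b _ _ iha ihb => exact iha.mul ihb

/-- the pole pairings for one of the three towers inside `F_M` -/
theorem ssm_cf_tower_inst (M M0 q : ℕ) [NeZero M] [NeZero M0] [NeZero q] (hq : 2 ≤ q)
    (hM : M0 * q ∣ M) (hAL : ssm_cf_ALHyp L M0 q) (t : LaurentSeries L)
    (htA : modularFunctionFieldFullC L M0 = L⟮t⟯) (hord : t.order = -1) :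
    ∃ (htE : t ∈ modularFunctionFieldFullC L M)
      (htqE : qExpand L q t ∈ modularFunctionFieldFullC L M),
      ssm_cf_PolePair L q (⟨t, htE⟩ : modularFunctionFieldFullC L M) ⟨qExpand L q t, htqE⟩ ∧
        ssm_cf_PolePair L q (⟨qExpand L q t, htqE⟩ : modularFunctionFieldFullC L M) ⟨t, htE⟩ := by
  obtain ⟨W, hW, hWq, hdeg⟩ := hAL
  have hle : modularFunctionFieldFullC L (M0 * q) ≤ modularFunctionFieldFullC L M :=
    full_degeneracyC_le L hM
  have htA' : t ∈ modularFunctionFieldFullC L M0 := by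
    rw [htA]; exact mem_adjoin_simple_self L t
  have htB : t ∈ modularFunctionFieldFullC L (M0 * q) :=
    full_degeneracyC_le L (Dvd.intro _ rfl) htA'
  have htqB : qExpand L q t ∈ modularFunctionFieldFullC L (M0 * q) := by
    have h := hWq ⟨t, htB⟩ htA'
    rw [← h]
    exact (W ⟨t, htB⟩).2
  exact ⟨hle htB, hle htqB,
    ssm_cf_tower (modularFunctionFieldFullC L M0) (modularFunctionFieldFullC L (M0 * q))
      (modularFunctionFieldFullC L M) hle
      (fun y => ssm_cf_isAlgebraic_of_j_mem L M _ (jqModC_mem_full L _) y.2) q hq W hW hWq hdeg t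
      htA htB hord (hle htB) (hle htqB)⟩

/-- **[CF], the instance on a level function field**: `E = F_M` with `4 q ∣ M`. -/
theorem ssm_cf_main (M q : ℕ) [NeZero M] [NeZero q] (hq : 2 ≤ q) (h4q : 4 * q ∣ M)
    (hAL4 : ssm_cf_ALHyp L 4 q) (hAL2 : ssm_cf_ALHyp L 2 q) (hAL1 : ssm_cf_ALHyp L 1 q)
    (E : IntermediateField L (LaurentSeries L)) (hE : E = modularFunctionFieldFullC L M)
    (hlam : hm_lam L ∈ E) (hlamq : qExpand L q (hm_lam L) ∈ E) :
    ssm_cf_CuspFacts L q (⟨hm_lam L, hlam⟩ : E) ⟨qExpand L q (hm_lam L), hlamq⟩ := by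
  subst hE
  have h2 : (2 : L) ≠ 0 := two_ne_zero
  have hd2 : 2 * q ∣ M := (mul_dvd_mul_right (by norm_num : 2 ∣ 4) q).trans h4q
  have hd1 : 1 * q ∣ M := (mul_dvd_mul_right (one_dvd 4) q).trans h4q
  obtain ⟨m4, m4q, P4, P4'⟩ := ssm_cf_tower_inst L M 4 q hq h4q hAL4 (hm_t4 L)
    (ssm_cf_F4_eq h2) (ssm_cf_order_t4 h2)
  obtain ⟨m2, m2q, P2, P2'⟩ := ssm_cf_tower_inst L M 2 q hq hd2 hAL2 (hm_t2 L)
    (ssm_cf_F2_eq L) (ssm_cf_order_t2 L)
  obtain ⟨m1, m1q, P1, P1'⟩ := ssm_cf_tower_inst L M 1 q hq hd1 hAL1 (jqModC L)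
    (ssm_cf_F1_eq L) (ssm_cf_order_j L)
  -- the Legendre identities in `E`
  have i4 : (⟨hm_lam L, hlam⟩ : modularFunctionFieldFullC L M) * (⟨hm_t4 L, m4⟩ + 16) = 16 :=
    Subtype.ext (hm_lam_mul L)
  have i2 : (⟨hm_t2 L, m2⟩ : modularFunctionFieldFullC L M) * (⟨hm_t4 L, m4⟩ + 16)
      = ⟨hm_t4 L, m4⟩ ^ 2 := Subtype.ext (hm_t4_id_a L)
  have i1 : (⟨jqModC L, m1⟩ : modularFunctionFieldFullC L M) * ⟨hm_t2 L, m2⟩ ^ 2
      = (⟨hm_t2 L, m2⟩ + 256) ^ 3 := Subtype.ext (hm_t2_id1 L)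
  have i4q : (⟨qExpand L q (hm_lam L), hlamq⟩ : modularFunctionFieldFullC L M)
      * (⟨qExpand L q (hm_t4 L), m4q⟩ + 16) = 16 := by
    apply Subtype.ext
    have h := congrArg (qExpand L q) (hm_lam_mul L)
    rw [map_mul, map_add, map_ofNat] at h
    exact h
  have i2q : (⟨qExpand L q (hm_t2 L), m2q⟩ : modularFunctionFieldFullC L M)
      * (⟨qExpand L q (hm_t4 L), m4q⟩ + 16) = ⟨qExpand L q (hm_t4 L), m4q⟩ ^ 2 := by
    apply Subtype.ext
    have h := congrArg (qExpand L q) (hm_t4_id_a L)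
    rw [map_mul, map_add, map_ofNat, map_pow] at h
    exact h
  have i1q : (⟨qExpand L q (jqModC L), m1q⟩ : modularFunctionFieldFullC L M)
      * ⟨qExpand L q (hm_t2 L), m2q⟩ ^ 2 = (⟨qExpand L q (hm_t2 L), m2q⟩ + 256) ^ 3 := by
    apply Subtype.ext
    have h := congrArg (qExpand L q) (hm_t2_id1 L)
    rw [map_mul, map_pow, map_pow, map_add, map_ofNat] at h
    exact h
  haveI : CharZero (modularFunctionFieldFullC L M) :=
    charZero_of_injective_algebraMap (algebraMap L (modularFunctionFieldFullC L M)).injective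
  have h16 : (16 : modularFunctionFieldFullC L M) ≠ 0 := by norm_num
  have h256 : (256 : modularFunctionFieldFullC L M) ≠ 0 := by norm_num
  have Z := ssm_cf_zeroPair_lam (L := L) h16 i4 i4q P4
  have Z' := ssm_cf_zeroPair_lam (L := L) h16 i4q i4 P4'
  exact
    { zero := Z
      zero' := Z'
      one := ssm_cf_zeroPair_lam_sub_one (L := L) h16 h256 i4 i4q i2 i2q i1 i1q P1 P2'
      one' := ssm_cf_zeroPair_lam_sub_one (L := L) h16 h256 i4q i4 i2q i2 i1q i1 P1' P2
      inf := ssm_cf_zeroPair_lam_inv (L := L) h16 i4 i4q i2 i2q P2 Z'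
      inf' := ssm_cf_zeroPair_lam_inv (L := L) h16 i4q i4 i2q i2 P2' Z }

/-- **[CF] for the rigidified Legendre field** `E = lg_E L N`, `q ∣ N` odd. -/
theorem ssm_cf_inst (N q : ℕ) [NeZero N] [NeZero q] (hq : 2 ≤ q) (hq2 : ¬ 2 ∣ q) (hqN : q ∣ N)
    (hAL4 : ssm_cf_ALHyp L 4 q) (hAL2 : ssm_cf_ALHyp L 2 q) (hAL1 : ssm_cf_ALHyp L 1 q)
    (hlam : lg_lam L ∈ lg_E L N) (hlamq : qExpand L q (lg_lam L) ∈ lg_E L N) :
    ssm_cf_CuspFacts L q (⟨lg_lam L, hlam⟩ : lg_E L N) ⟨qExpand L q (lg_lam L), hlamq⟩ := by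
  refine ssm_cf_main L (ssm_f4_level N) q hq ?_ hAL4 hAL2 hAL1 (lg_E L N) (ssm_f4 L N) hlam hlamq
  have hcop : Nat.Coprime 4 q := by
    have : Nat.Coprime 2 q := (Nat.Prime.coprime_iff_not_dvd Nat.prime_two).2 hq2
    exact Nat.Coprime.pow_left 2 this
  refine Nat.Coprime.mul_dvd_of_dvd_of_dvd hcop (ssm_f4_four_dvd_level N) ?_
  exact hqN.trans (ssm_f4_dvd_level N)

end Inst

end Fermat.Agent.SS
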