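/-
Project SS (S34), cell [M] (model), leaf [CF] (cusp facts): the FINAL statement.

`ssm_cf_final`: for a field `L` of characteristic zero embedded in `Q̄`, `q ∣ N` an odd prime, the
rigidified Legendre field `E = lg_E L N ⊆ L((X))`, `λ = lg_lam L` and `λ_q = λ(X^q)`: for every
place `c` of `E / L` and `(u, u_q) ∈ {(λ, λ_q), (λ - 1, λ_q - 1), (λ⁻¹, λ_q⁻¹)}`,
`ord_c u > 0 ↔ ord_c u_q > 0`, and then `ord_c u_q ≤ q · ord_c u` and `ord_c u ≤ q · ord_c u_q`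
(`ssm_cf_CuspFacts`, six `ssm_cf_ZeroPair`s).

= `ssm_cf_inst` (CuspsInst.lean) with the Atkin–Lehner hypotheses `ssm_cf_ALHyp L M₀ q`,
`M₀ ∈ {4, 2, 1}`, discharged by helper11's [AL] (`ssm_al_W`, `ssm_al_relfinrank`).

Prefix `ssm_cf_`.
-/
import Mathlib
import Fermat.Agent.SS.Model.CuspsInst
import Fermat.Agent.SS.Model.AL
import Fermat.Agent.SS.Model.ALDeg

set_option autoImplicit false

noncomputable section

open ModularCurve IntermediateField AlgebraicCurve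
open Fermat.Agent.S28 Fermat.Agent.JT3

namespace Fermat.Agent.SS

section Final

variable (L : Type*) [Field L] [CharZero L] [Algebra L (AlgebraicClosure ℚ)]

/-- [AL] provides what [CF] consumes. -/
theorem ssm_cf_alHyp (M q : ℕ) [NeZero M] [NeZero q] (hq : q.Prime) (hqM : ¬ q ∣ M) :
    ssm_cf_ALHyp L M q :=
  ⟨ssm_al_W L M q hq hqM, ssm_al_W_W L M q hq hqM,
    fun x hx => ssm_al_coe_W_of_mem L M q hq hqM hx x.2, ssm_al_relfinrank L M q hq hqM⟩

/-- **[CF] for the rigidified Legendre field** `E = lg_E L N`, `q ∣ N` an odd prime: the zeros of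
`λ, λ - 1, λ⁻¹` and of `λ_q, λ_q - 1, λ_q⁻¹` (`λ_q = λ(X^q)`) are the same places of `E / L`, with
order ratios in `[1/q, q]`. -/
theorem ssm_cf_final (N q : ℕ) [NeZero N] [NeZero q] (hq : q.Prime) (hq2 : q ≠ 2) (hqN : q ∣ N)
    (hlam : lg_lam L ∈ lg_E L N) (hlamq : qExpand L q (lg_lam L) ∈ lg_E L N) :
    ssm_cf_CuspFacts L q (⟨lg_lam L, hlam⟩ : lg_E L N) ⟨qExpand L q (lg_lam L), hlamq⟩ := by
  have h2q : ¬ 2 ∣ q := fun h => hq2 ((Nat.prime_dvd_prime_iff_eq Nat.prime_two hq).1 h).symm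
  have hq4 : ¬ q ∣ 4 := fun h => by
    have : q ∣ 2 ^ 2 := by norm_num; exact h
    exact hq2 ((Nat.prime_dvd_prime_iff_eq hq Nat.prime_two).1 (hq.dvd_of_dvd_pow this))
  have hq2' : ¬ q ∣ 2 := fun h => hq2 ((Nat.prime_dvd_prime_iff_eq hq Nat.prime_two).1 h)
  have hq1 : ¬ q ∣ 1 := fun h => hq.one_lt.ne' (Nat.dvd_one.1 h)
  exact ssm_cf_inst L N q hq.two_le h2q hqN (ssm_cf_alHyp L 4 q hq hq4) (ssm_cf_alHyp L 2 q hq hq2')
    (ssm_cf_alHyp L 1 q hq hq1) hlam hlamq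

omit [Algebra L (AlgebraicClosure ℚ)] in
/-- the membership `λ(X^q) ∈ lg_E L N` used above ([F4]). -/
theorem ssm_cf_lamq_mem (N q : ℕ) [NeZero N] [NeZero q] (hq : q.Prime) (hq2 : q ≠ 2)
    (hqN : q ∣ N) : qExpand L q (lg_lam L) ∈ lg_E L N :=
  ssm_f4_lam_expand_mem L N hqN
    (fun h => hq2 ((Nat.prime_dvd_prime_iff_eq Nat.prime_two hq).1 h).symm)

end Final

end Fermat.Agent.SS
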