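/-
Project SS (S34), cell [M] (model), HESSE TWIN (`q = 2`) of leaf [CF] (cusp facts), part 2: from the
three Hauptmoduln `μ`, `t₃`, `j` of levels `9`, `3`, `1` to the cusp functions of the Hesse
coordinate `μ`.

`E / L` any field extension, `c` a place.  With the Hesse relations
`t₃ (μ² + μ + 1) = 3 (μ - 1)³` and `j t₃³ = (t₃ + 27)(t₃ + 243)³` one has
`{μ² + μ + 1 = 0} = {t₃ = ∞} ∖ {μ = ∞}`, `{μ = 1} = {j = ∞} ∖ {t₃ = ∞}`, with
`ord t₃ = - ord (μ² + μ + 1)`, `ord j = -9 ord (μ - 1)` respectively.  Hence the pole pairing of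
`(t, W t)` for `t ∈ {μ, t₃, j}` gives the zero pairing of `(u, W u)` for
`u ∈ {μ⁻¹, μ² + μ + 1, μ - 1}`, hence for `u = μ³ - 1`.

The two cusps `μ = ω, ω²` are NOT separated: `X ↦ X^q` maps the cusp `μ = ω` to `μ = ω^q`, so
`(μ - ω, W μ - ω)` is not a zero pair when `q ≡ 2 mod 3`; only `μ² + μ + 1` (or `μ³ - 1`) is.

* `ssm_cfh_zeroPair_inv`, `_cyc`, `_sub_one`, `_cube`, `_sub_one_inv` : the output;
* `ssm_cfh_CuspFacts` : the bundle consumed by the Hesse twins of [I1], [TR-I] (six pairs; derived: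
  `.fin` for `μ³ - 1`, `.xinf` for `(μ - 1)⁻¹`, `.xcyc` in the coordinate `x = μ - 1`).
Prefix `ssm_cfh_`.
-/
import Mathlib
import Fermat.Agent.SS.Model.CuspsLam

set_option autoImplicit false

noncomputable section

open AlgebraicCurve IntermediateField
open Fermat.Agent.S24

namespace Fermat.Agent.SS

section Single

variable {L : Type*} {E : Type*} [Field L] [Field E] [Algebra L E] (c : Place L E)

variable {mu t3 j : E}

/-- regularity of `a - 1` where `a` is regular. -/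
theorem ssm_cfh_ord_sub_one_nonneg {a : E} (h : 0 ≤ c.ord a) : 0 ≤ c.ord (a - 1) := by
  have := ssm_cf_ord_add_nonneg c (neg_ne_zero.mpr (one_ne_zero (α := E)))
    (ssm_cf_ord_neg_const c c.ord_one) h
  rwa [← sub_eq_add_neg] at this

/-- at a pole of `μ`: `ord (μ - 1) = ord μ`. -/
theorem ssm_cfh_ord_sub_one_of_neg (hneg : c.ord mu < 0) : c.ord (mu - 1) = c.ord mu := by
  have := ssm_cf_ord_add_of_neg c (neg_ne_zero.mpr (one_ne_zero (α := E)))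
    (ssm_cf_ord_neg_const c c.ord_one) hneg
  rwa [← sub_eq_add_neg] at this

/-- at a pole of `μ`: `ord (μ² + μ + 1) = 2 ord μ`. -/
theorem ssm_cfh_ord_cyc_of_neg (hneg : c.ord mu < 0) :
    c.ord (mu ^ 2 + mu + 1) = 2 * c.ord mu := by
  have hmu : mu ≠ 0 := ssm_cf_ne_zero_of_ord c hneg.ne
  have h1 : c.ord (mu + 1) = c.ord mu :=
    ssm_cf_ord_add_of_neg c (one_ne_zero (α := E)) c.ord_one hneg
  have hmu1 : mu + 1 ≠ 0 := ssm_cf_ne_zero_of_ord c (by rw [h1]; exact hneg.ne)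
  have h2 : c.ord (mu * (mu + 1)) = 2 * c.ord mu := by
    rw [c.ord_mul hmu hmu1, h1]
    ring
  have h3 := ssm_cf_ord_add_of_neg c (one_ne_zero (α := E)) c.ord_one
    (x := mu * (mu + 1)) (by rw [h2]; omega)
  have e : mu * (mu + 1) + 1 = mu ^ 2 + mu + 1 := by ring
  rw [e, h2] at h3
  exact h3

/-- regularity of a product. -/
theorem ssm_cfh_ord_mul_nonneg {a b : E} (ha : 0 ≤ c.ord a) (hb : 0 ≤ c.ord b) :
    0 ≤ c.ord (a * b) := by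
  by_cases h0 : a = 0
  · rw [h0, zero_mul, Place.ord_zero]
  by_cases h0' : b = 0
  · rw [h0', mul_zero, Place.ord_zero]
  rw [c.ord_mul h0 h0']
  omega

/-- `μ² + μ + 1` is regular where `μ` is. -/
theorem ssm_cfh_ord_cyc_nonneg (h : 0 ≤ c.ord mu) : 0 ≤ c.ord (mu ^ 2 + mu + 1) := by
  have h1 : 0 ≤ c.ord (mu + 1) := ssm_cf_ord_add_nonneg c (one_ne_zero (α := E)) c.ord_one h
  have h2 : 0 ≤ c.ord (mu * (mu + 1)) := ssm_cfh_ord_mul_nonneg c h h1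
  have h3 := ssm_cf_ord_add_nonneg c (one_ne_zero (α := E)) c.ord_one h2
  have e : mu * (mu + 1) + 1 = mu ^ 2 + mu + 1 := by ring
  rwa [e] at h3

variable (h3 : (3 : E) ≠ 0) (o3 : c.ord (3 : E) = 0)

include h3 o3

/-- at a zero of `μ - 1`: `μ² + μ + 1` is a unit. -/
theorem ssm_cfh_ord_cyc_of_pos (hpos : 0 < c.ord (mu - 1)) : c.ord (mu ^ 2 + mu + 1) = 0 := by
  have hv : mu - 1 ≠ 0 := ssm_cf_ne_zero_of_ord c hpos.ne'
  have h1 : c.ord (mu - 1 + 3) = 0 := ssm_cf_ord_add_of_pos c h3 o3 hpos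
  have hv3 : mu - 1 + 3 ≠ 0 := by
    intro h
    have : mu - 1 = -3 := eq_neg_of_add_eq_zero_left h
    rw [this, ssm_cf_ord_neg_const c o3] at hpos
    exact lt_irrefl _ hpos
  have h2 : 0 < c.ord ((mu - 1) * (mu - 1 + 3)) := by
    rw [c.ord_mul hv hv3, h1]
    omega
  have h4 := ssm_cf_ord_add_of_pos c h3 o3 h2
  have e : (mu - 1) * (mu - 1 + 3) + 3 = mu ^ 2 + mu + 1 := by ring
  rwa [e] at h4

/-- at a zero of `μ² + μ + 1`: `μ` is regular and `μ - 1` is a unit. -/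
theorem ssm_cfh_ord_sub_one_of_cyc_pos (hpos : 0 < c.ord (mu ^ 2 + mu + 1)) :
    0 ≤ c.ord mu ∧ c.ord (mu - 1) = 0 := by
  have hmu : 0 ≤ c.ord mu := by
    by_contra hneg
    push Not at hneg
    have := ssm_cfh_ord_cyc_of_neg c hneg
    omega
  refine ⟨hmu, ?_⟩
  have h1 := ssm_cfh_ord_sub_one_nonneg c hmu
  by_contra hne
  have h2 : 0 < c.ord (mu - 1) := by omega
  have := ssm_cfh_ord_cyc_of_pos c h3 o3 h2
  omega

/-- at a pole of `μ`: `ord t₃ = ord μ`. -/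
theorem ssm_cfh_B1 (h9 : t3 * (mu ^ 2 + mu + 1) = 3 * (mu - 1) ^ 3) (hneg : c.ord mu < 0) :
    c.ord t3 = c.ord mu := by
  have hv := ssm_cfh_ord_sub_one_of_neg c hneg
  have hv0 : mu - 1 ≠ 0 := ssm_cf_ne_zero_of_ord c (by rw [hv]; exact hneg.ne)
  have hrhs : (3 : E) * (mu - 1) ^ 3 ≠ 0 := mul_ne_zero h3 (pow_ne_zero 3 hv0)
  have h1 := ssm_cf_ord_mul_eq c h9 hrhs
  rw [c.ord_mul h3 (pow_ne_zero 3 hv0), o3, ssm_cf_ord_cube, hv, ssm_cfh_ord_cyc_of_neg c hneg] at h1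
  omega

/-- at a zero of `μ² + μ + 1`: `ord t₃ = - ord (μ² + μ + 1)`. -/
theorem ssm_cfh_B2 (h9 : t3 * (mu ^ 2 + mu + 1) = 3 * (mu - 1) ^ 3)
    (hpos : 0 < c.ord (mu ^ 2 + mu + 1)) : c.ord t3 = -c.ord (mu ^ 2 + mu + 1) := by
  obtain ⟨-, hv⟩ := ssm_cfh_ord_sub_one_of_cyc_pos c h3 o3 hpos
  have hv0 : mu - 1 ≠ 0 := by
    intro h
    have e : mu ^ 2 + mu + 1 = (mu - 1) * (mu - 1 + 3) + 3 := by ring
    rw [e, h, zero_mul, zero_add, o3] at hpos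
    exact lt_irrefl _ hpos
  have hrhs : (3 : E) * (mu - 1) ^ 3 ≠ 0 := mul_ne_zero h3 (pow_ne_zero 3 hv0)
  have h1 := ssm_cf_ord_mul_eq c h9 hrhs
  rw [c.ord_mul h3 (pow_ne_zero 3 hv0), o3, ssm_cf_ord_cube, hv] at h1
  omega

/-- at a pole of `t₃`: either `μ` has a pole, or `μ² + μ + 1` has a zero and
`ord t₃ = - ord (μ² + μ + 1)`. -/
theorem ssm_cfh_B2' (h9 : t3 * (mu ^ 2 + mu + 1) = 3 * (mu - 1) ^ 3) (hneg : c.ord t3 < 0) :
    c.ord mu < 0 ∨ (0 < c.ord (mu ^ 2 + mu + 1) ∧ c.ord t3 = -c.ord (mu ^ 2 + mu + 1)) := by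
  by_cases hmu : c.ord mu < 0
  · exact Or.inl hmu
  right
  push Not at hmu
  have ht3 : t3 ≠ 0 := ssm_cf_ne_zero_of_ord c hneg.ne
  have hu := ssm_cfh_ord_cyc_nonneg c hmu
  have hv := ssm_cfh_ord_sub_one_nonneg c hmu
  have hv0 : mu - 1 ≠ 0 := by
    intro h
    have e : mu ^ 2 + mu + 1 = (mu - 1) * (mu - 1 + 3) + 3 := by ring
    rw [h, zero_pow (by norm_num), mul_zero, e, h, zero_mul, zero_add] at h9
    exact (mul_ne_zero ht3 h3) h9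
  have hrhs : (3 : E) * (mu - 1) ^ 3 ≠ 0 := mul_ne_zero h3 (pow_ne_zero 3 hv0)
  have h1 := ssm_cf_ord_mul_eq c h9 hrhs
  rw [c.ord_mul h3 (pow_ne_zero 3 hv0), o3, ssm_cf_ord_cube] at h1
  have hpos : 0 < c.ord (mu ^ 2 + mu + 1) := by omega
  exact ⟨hpos, ssm_cfh_B2 c h3 o3 h9 hpos⟩

variable (h27 : (27 : E) ≠ 0) (o27 : c.ord (27 : E) = 0)
variable (h243 : (243 : E) ≠ 0) (o243 : c.ord (243 : E) = 0)

include h27 o27 h243 o243

/-- at a zero of `μ - 1`: `ord t₃ = 3 ord (μ - 1)` and `ord j = -9 ord (μ - 1)`. -/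
theorem ssm_cfh_B3 (h9 : t3 * (mu ^ 2 + mu + 1) = 3 * (mu - 1) ^ 3)
    (h1 : j * t3 ^ 3 = (t3 + 27) * (t3 + 243) ^ 3) (hpos : 0 < c.ord (mu - 1)) :
    c.ord t3 = 3 * c.ord (mu - 1) ∧ c.ord j = -9 * c.ord (mu - 1) := by
  have hv0 : mu - 1 ≠ 0 := ssm_cf_ne_zero_of_ord c hpos.ne'
  have hu := ssm_cfh_ord_cyc_of_pos c h3 o3 hpos
  have hrhs : (3 : E) * (mu - 1) ^ 3 ≠ 0 := mul_ne_zero h3 (pow_ne_zero 3 hv0)
  have h2 := ssm_cf_ord_mul_eq c h9 hrhs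
  rw [c.ord_mul h3 (pow_ne_zero 3 hv0), o3, ssm_cf_ord_cube, hu] at h2
  have ht3 : c.ord t3 = 3 * c.ord (mu - 1) := by omega
  have ht3pos : 0 < c.ord t3 := by omega
  have h4 := ssm_cf_ord_add_of_pos c h27 o27 ht3pos
  have h5 := ssm_cf_ord_add_of_pos c h243 o243 ht3pos
  have h6 : t3 + 27 ≠ 0 := by
    intro h
    have : t3 = -27 := eq_neg_of_add_eq_zero_left h
    rw [this, ssm_cf_ord_neg_const c o27] at ht3pos
    exact lt_irrefl _ ht3pos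
  have h7 : t3 + 243 ≠ 0 := by
    intro h
    have : t3 = -243 := eq_neg_of_add_eq_zero_left h
    rw [this, ssm_cf_ord_neg_const c o243] at ht3pos
    exact lt_irrefl _ ht3pos
  have hrhs' : (t3 + 27) * (t3 + 243) ^ 3 ≠ 0 := mul_ne_zero h6 (pow_ne_zero 3 h7)
  have h8 := ssm_cf_ord_mul_eq c h1 hrhs'
  rw [c.ord_mul h6 (pow_ne_zero 3 h7), ssm_cf_ord_cube, ssm_cf_ord_cube, h4, h5] at h8
  exact ⟨ht3, by omega⟩

/-- at a pole of `j`: either `t₃` has a pole, or `μ - 1` has a zero and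
`ord j = -9 ord (μ - 1)`. -/
theorem ssm_cfh_B3' (h9 : t3 * (mu ^ 2 + mu + 1) = 3 * (mu - 1) ^ 3)
    (h1 : j * t3 ^ 3 = (t3 + 27) * (t3 + 243) ^ 3) (hneg : c.ord j < 0) :
    c.ord t3 < 0 ∨ (0 < c.ord (mu - 1) ∧ c.ord j = -9 * c.ord (mu - 1)) := by
  have hj : j ≠ 0 := ssm_cf_ne_zero_of_ord c hneg.ne
  have ht3 : t3 ≠ 0 := by
    rintro rfl
    rw [zero_pow (by norm_num), mul_zero, zero_add, zero_add] at h1
    exact (mul_ne_zero h27 (pow_ne_zero 3 h243)) h1.symm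
  have hlhs : j * t3 ^ 3 ≠ 0 := mul_ne_zero hj (pow_ne_zero 3 ht3)
  have h2 := ssm_cf_ord_mul_eq c h1 (h1 ▸ hlhs)
  rw [ssm_cf_ord_cube] at h2
  rcases lt_trichotomy (c.ord t3) 0 with hlt | heq | hgt
  · exact Or.inl hlt
  · exfalso
    have h4 := ssm_cf_ord_add_nonneg c h27 o27 heq.ge
    have h5 := ssm_cf_ord_add_nonneg c h243 o243 heq.ge
    have h6 : 0 ≤ c.ord ((t3 + 27) * (t3 + 243) ^ 3) :=
      ssm_cfh_ord_mul_nonneg c h4 (by
        by_cases h0 : t3 + 243 = 0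
        · rw [h0, zero_pow (by norm_num), Place.ord_zero]
        · rw [ssm_cf_ord_cube]; omega)
    omega
  · right
    -- `μ` is regular at `c`
    have hmu : 0 ≤ c.ord mu := by
      by_contra hcon
      push Not at hcon
      have := ssm_cfh_B1 c h3 o3 h9 hcon
      omega
    have hu := ssm_cfh_ord_cyc_nonneg c hmu
    have hv := ssm_cfh_ord_sub_one_nonneg c hmu
    have hv0 : mu - 1 ≠ 0 := by
      intro h
      have e : mu ^ 2 + mu + 1 = (mu - 1) * (mu - 1 + 3) + 3 := by ring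
      rw [h, zero_pow (by norm_num), mul_zero, e, h, zero_mul, zero_add] at h9
      exact (mul_ne_zero ht3 h3) h9
    have hrhs : (3 : E) * (mu - 1) ^ 3 ≠ 0 := mul_ne_zero h3 (pow_ne_zero 3 hv0)
    have h4 := ssm_cf_ord_mul_eq c h9 hrhs
    rw [c.ord_mul h3 (pow_ne_zero 3 hv0), o3, ssm_cf_ord_cube] at h4
    have hvpos : 0 < c.ord (mu - 1) := by omega
    exact ⟨hvpos, (ssm_cfh_B3 c h3 o3 h27 o27 h243 o243 h9 h1 hvpos).2⟩

end Single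

section Pairs

variable {L : Type*} {E : Type*} [Field L] [Field E] [Algebra L E]

variable {q : ℕ} {mu t3 j muq t3q jq : E}

/-- `{μ = ∞}`: from the pole pairing of `(μ, W μ)`. -/
theorem ssm_cfh_zeroPair_inv (hP : ssm_cf_PolePair L q mu muq) :
    ssm_cf_ZeroPair L q mu⁻¹ muq⁻¹ := by
  intro c hpos
  rw [c.ord_inv] at hpos
  obtain ⟨h1, h2, h3⟩ := hP c (by omega)
  rw [c.ord_inv, c.ord_inv]
  refine ⟨by omega, by linarith, by linarith⟩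

/-- `{μ² + μ + 1 = 0}`: from the pole pairings of `(t₃, W t₃)` and `(W μ, μ)`. -/
theorem ssm_cfh_zeroPair_cyc (h3 : (3 : E) ≠ 0)
    (h9 : t3 * (mu ^ 2 + mu + 1) = 3 * (mu - 1) ^ 3)
    (h9q : t3q * (muq ^ 2 + muq + 1) = 3 * (muq - 1) ^ 3)
    (hP : ssm_cf_PolePair L q t3 t3q) (hP' : ssm_cf_PolePair L q muq mu) :
    ssm_cf_ZeroPair L q (mu ^ 2 + mu + 1) (muq ^ 2 + muq + 1) := by
  intro c hpos
  have o3 := ssm_cf_ord_ofNat_eq_zero (L := L) c 3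
  have hmu := (ssm_cfh_ord_sub_one_of_cyc_pos c h3 o3 hpos).1
  have h1 := ssm_cfh_B2 c h3 o3 h9 hpos
  obtain ⟨h2, h4, h5⟩ := hP c (by omega)
  rcases ssm_cfh_B2' c h3 o3 h9q h2 with h6 | ⟨h6, h7⟩
  · exfalso
    have := (hP' c h6).1
    omega
  · rw [h1, h7] at h4 h5
    exact ⟨h6, by linarith, by linarith⟩

/-- `{μ = 1}`: from the pole pairings of `(j, W j)` and `(W t₃, t₃)`. -/
theorem ssm_cfh_zeroPair_sub_one (h3 : (3 : E) ≠ 0) (h27 : (27 : E) ≠ 0) (h243 : (243 : E) ≠ 0)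
    (h9 : t3 * (mu ^ 2 + mu + 1) = 3 * (mu - 1) ^ 3)
    (h9q : t3q * (muq ^ 2 + muq + 1) = 3 * (muq - 1) ^ 3)
    (h1 : j * t3 ^ 3 = (t3 + 27) * (t3 + 243) ^ 3)
    (h1q : jq * t3q ^ 3 = (t3q + 27) * (t3q + 243) ^ 3)
    (hP : ssm_cf_PolePair L q j jq) (hP' : ssm_cf_PolePair L q t3q t3) :
    ssm_cf_ZeroPair L q (mu - 1) (muq - 1) := by
  intro c hpos
  have o3 := ssm_cf_ord_ofNat_eq_zero (L := L) c 3
  have o27 := ssm_cf_ord_ofNat_eq_zero (L := L) c 27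
  have o243 := ssm_cf_ord_ofNat_eq_zero (L := L) c 243
  obtain ⟨h2, h4⟩ := ssm_cfh_B3 c h3 o3 h27 o27 h243 o243 h9 h1 hpos
  obtain ⟨h5, h6, h7⟩ := hP c (by omega)
  rcases ssm_cfh_B3' c h3 o3 h27 o27 h243 o243 h9q h1q h5 with h8 | ⟨h8, h10⟩
  · exfalso
    have := (hP' c h8).1
    omega
  · rw [h4, h10] at h6 h7
    exact ⟨h8, by linarith, by linarith⟩

/-- **all finite cusps at once**: the zero pairing of `(μ³ - 1, (W μ)³ - 1)` from those of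
`μ - 1` and `μ² + μ + 1`. -/
theorem ssm_cfh_zeroPair_cube (h3 : (3 : E) ≠ 0)
    (hZ1 : ssm_cf_ZeroPair L q (mu - 1) (muq - 1))
    (hZc : ssm_cf_ZeroPair L q (mu ^ 2 + mu + 1) (muq ^ 2 + muq + 1)) :
    ssm_cf_ZeroPair L q (mu ^ 3 - 1) (muq ^ 3 - 1) := by
  intro c hpos
  have o3 := ssm_cf_ord_ofNat_eq_zero (L := L) c 3
  have e : mu ^ 3 - 1 = (mu - 1) * (mu ^ 2 + mu + 1) := by ring
  have eq' : muq ^ 3 - 1 = (muq - 1) * (muq ^ 2 + muq + 1) := by ring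
  have hne : mu ^ 3 - 1 ≠ 0 := ssm_cf_ne_zero_of_ord c hpos.ne'
  have hv0 : mu - 1 ≠ 0 := left_ne_zero_of_mul (e ▸ hne)
  have hu0 : mu ^ 2 + mu + 1 ≠ 0 := right_ne_zero_of_mul (e ▸ hne)
  have hsum : c.ord (mu ^ 3 - 1) = c.ord (mu - 1) + c.ord (mu ^ 2 + mu + 1) := by
    rw [e, c.ord_mul hv0 hu0]
  -- `μ` is regular at `c`
  have hmu : 0 ≤ c.ord mu := by
    by_contra hcon
    push Not at hcon
    have h1 := ssm_cfh_ord_sub_one_of_neg c hcon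
    have h2 := ssm_cfh_ord_cyc_of_neg c hcon
    omega
  have hv := ssm_cfh_ord_sub_one_nonneg c hmu
  have hu := ssm_cfh_ord_cyc_nonneg c hmu
  by_cases hvpos : 0 < c.ord (mu - 1)
  · -- the cusp `μ = 1`
    have hu1 := ssm_cfh_ord_cyc_of_pos c h3 o3 hvpos
    obtain ⟨h4, h5, h6⟩ := hZ1 c hvpos
    have hu1q := ssm_cfh_ord_cyc_of_pos c h3 o3 h4
    have hvq0 : muq - 1 ≠ 0 := ssm_cf_ne_zero_of_ord c h4.ne'
    have huq0 : muq ^ 2 + muq + 1 ≠ 0 := by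
      intro h
      have e3 : muq ^ 2 + muq + 1 = (muq - 1) * (muq - 1 + 3) + 3 := by ring
      have h7 : c.ord (muq - 1 + 3) = 0 := ssm_cf_ord_add_of_pos c h3 o3 h4
      have h8 : muq - 1 + 3 ≠ 0 := by
        intro h0
        have : muq - 1 = -3 := eq_neg_of_add_eq_zero_left h0
        rw [this, ssm_cf_ord_neg_const c o3] at h4
        exact lt_irrefl _ h4
      have h9 : 0 < c.ord ((muq - 1) * (muq - 1 + 3)) := by
        rw [c.ord_mul hvq0 h8, h7]; omega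
      have h10 : (muq - 1) * (muq - 1 + 3) = -3 := by
        rw [e3] at h
        exact eq_neg_of_add_eq_zero_left h
      rw [h10, ssm_cf_ord_neg_const c o3] at h9
      exact lt_irrefl _ h9
    have hsumq : c.ord (muq ^ 3 - 1) = c.ord (muq - 1) + c.ord (muq ^ 2 + muq + 1) := by
      rw [eq', c.ord_mul hvq0 huq0]
    rw [hsum, hsumq, hu1, hu1q]
    exact ⟨by omega, by linarith, by linarith⟩
  · -- the cusps `μ² + μ + 1 = 0`
    have hv00 : c.ord (mu - 1) = 0 := by omega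
    have hupos : 0 < c.ord (mu ^ 2 + mu + 1) := by omega
    obtain ⟨h4, h5, h6⟩ := hZc c hupos
    obtain ⟨-, hvq⟩ := ssm_cfh_ord_sub_one_of_cyc_pos c h3 o3 h4
    have huq0 : muq ^ 2 + muq + 1 ≠ 0 := ssm_cf_ne_zero_of_ord c h4.ne'
    have hvq0 : muq - 1 ≠ 0 := by
      intro h
      have e3 : muq ^ 2 + muq + 1 = (muq - 1) * (muq - 1 + 3) + 3 := by ring
      rw [e3, h, zero_mul, zero_add, o3] at h4
      exact lt_irrefl _ h4
    have hsumq : c.ord (muq ^ 3 - 1) = c.ord (muq - 1) + c.ord (muq ^ 2 + muq + 1) := by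
      rw [eq', c.ord_mul hvq0 huq0]
    rw [hsum, hsumq, hv00, hvq]
    exact ⟨by omega, by linarith, by linarith⟩

/-- `{μ = ∞}` in the coordinate `x = μ - 1`: the zero pairing of `((μ - 1)⁻¹, (W μ - 1)⁻¹)`. -/
theorem ssm_cfh_zeroPair_sub_one_inv (hZ : ssm_cf_ZeroPair L q mu⁻¹ muq⁻¹) :
    ssm_cf_ZeroPair L q (mu - 1)⁻¹ (muq - 1)⁻¹ := by
  intro c hpos
  rw [c.ord_inv] at hpos
  have hmu : c.ord mu < 0 := by
    by_contra hcon
    push Not at hcon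
    have := ssm_cfh_ord_sub_one_nonneg c hcon
    omega
  have h1 := ssm_cfh_ord_sub_one_of_neg c hmu
  obtain ⟨h2, h3, h4⟩ := hZ c (by rw [c.ord_inv]; omega)
  rw [c.ord_inv] at h2
  have hmuq : c.ord muq < 0 := by omega
  have h5 := ssm_cfh_ord_sub_one_of_neg c hmuq
  rw [c.ord_inv, c.ord_inv] at h3 h4
  rw [c.ord_inv, c.ord_inv, h1, h5]
  exact ⟨by omega, h3, h4⟩

/-- **the output of the Hesse twin of [CF]**: the zeros of `μ - 1`, `μ² + μ + 1`, `μ⁻¹` and of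
their `q`-twins are paired, with order ratios in `[1/q, q]`.  In the coordinate `x = μ - 1` these
are the pairs of `x`, `x² + 3x + 3`, `x⁻¹` (see `ssm_cfh_CuspFacts.xinf`). -/
structure ssm_cfh_CuspFacts (L : Type*) {E : Type*} [Field L] [Field E] [Algebra L E] (q : ℕ)
    (mu muq : E) : Prop where
  one : ssm_cf_ZeroPair L q (mu - 1) (muq - 1)
  one' : ssm_cf_ZeroPair L q (muq - 1) (mu - 1)
  cyc : ssm_cf_ZeroPair L q (mu ^ 2 + mu + 1) (muq ^ 2 + muq + 1)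
  cyc' : ssm_cf_ZeroPair L q (muq ^ 2 + muq + 1) (mu ^ 2 + mu + 1)
  inf : ssm_cf_ZeroPair L q mu⁻¹ muq⁻¹
  inf' : ssm_cf_ZeroPair L q muq⁻¹ mu⁻¹

theorem ssm_cfh_CuspFacts.fin (h3 : (3 : E) ≠ 0) (F : ssm_cfh_CuspFacts L q mu muq) :
    ssm_cf_ZeroPair L q (mu ^ 3 - 1) (muq ^ 3 - 1) :=
  ssm_cfh_zeroPair_cube h3 F.one F.cyc

theorem ssm_cfh_CuspFacts.fin' (h3 : (3 : E) ≠ 0) (F : ssm_cfh_CuspFacts L q mu muq) :
    ssm_cf_ZeroPair L q (muq ^ 3 - 1) (mu ^ 3 - 1) :=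
  ssm_cfh_zeroPair_cube h3 F.one' F.cyc'

theorem ssm_cfh_CuspFacts.xinf (F : ssm_cfh_CuspFacts L q mu muq) :
    ssm_cf_ZeroPair L q (mu - 1)⁻¹ (muq - 1)⁻¹ :=
  ssm_cfh_zeroPair_sub_one_inv F.inf

theorem ssm_cfh_CuspFacts.xinf' (F : ssm_cfh_CuspFacts L q mu muq) :
    ssm_cf_ZeroPair L q (muq - 1)⁻¹ (mu - 1)⁻¹ :=
  ssm_cfh_zeroPair_sub_one_inv F.inf'

/-- the pair of `c(x) = x² + 3x + 3` in the coordinate `x = μ - 1`. -/
theorem ssm_cfh_CuspFacts.xcyc (F : ssm_cfh_CuspFacts L q mu muq) :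
    ssm_cf_ZeroPair L q ((mu - 1) ^ 2 + 3 * (mu - 1) + 3) ((muq - 1) ^ 2 + 3 * (muq - 1) + 3) := by
  have e1 : (mu - 1) ^ 2 + 3 * (mu - 1) + 3 = mu ^ 2 + mu + 1 := by ring
  have e2 : (muq - 1) ^ 2 + 3 * (muq - 1) + 3 = muq ^ 2 + muq + 1 := by ring
  rw [e1, e2]
  exact F.cyc

theorem ssm_cfh_CuspFacts.xcyc' (F : ssm_cfh_CuspFacts L q mu muq) :
    ssm_cf_ZeroPair L q ((muq - 1) ^ 2 + 3 * (muq - 1) + 3) ((mu - 1) ^ 2 + 3 * (mu - 1) + 3) := by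
  have e1 : (mu - 1) ^ 2 + 3 * (mu - 1) + 3 = mu ^ 2 + mu + 1 := by ring
  have e2 : (muq - 1) ^ 2 + 3 * (muq - 1) + 3 = muq ^ 2 + muq + 1 := by ring
  rw [e1, e2]
  exact F.cyc'

/-- **the Hesse cusp facts from the three pole pairings** (both directions) and the Hesse
relations. -/
theorem ssm_cfh_cuspFacts (h3 : (3 : E) ≠ 0) (h27 : (27 : E) ≠ 0) (h243 : (243 : E) ≠ 0)
    (h9 : t3 * (mu ^ 2 + mu + 1) = 3 * (mu - 1) ^ 3)
    (h9q : t3q * (muq ^ 2 + muq + 1) = 3 * (muq - 1) ^ 3)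
    (h1 : j * t3 ^ 3 = (t3 + 27) * (t3 + 243) ^ 3)
    (h1q : jq * t3q ^ 3 = (t3q + 27) * (t3q + 243) ^ 3)
    (P9 : ssm_cf_PolePair L q mu muq) (P9' : ssm_cf_PolePair L q muq mu)
    (P3 : ssm_cf_PolePair L q t3 t3q) (P3' : ssm_cf_PolePair L q t3q t3)
    (P1 : ssm_cf_PolePair L q j jq) (P1' : ssm_cf_PolePair L q jq j) :
    ssm_cfh_CuspFacts L q mu muq where
  one := ssm_cfh_zeroPair_sub_one h3 h27 h243 h9 h9q h1 h1q P1 P3'
  one' := ssm_cfh_zeroPair_sub_one h3 h27 h243 h9q h9 h1q h1 P1' P3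
  cyc := ssm_cfh_zeroPair_cyc h3 h9 h9q P3 P9'
  cyc' := ssm_cfh_zeroPair_cyc h3 h9q h9 P3' P9
  inf := ssm_cfh_zeroPair_inv P9
  inf' := ssm_cfh_zeroPair_inv P9'

end Pairs

end Fermat.Agent.SS
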