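/-
Project SS (S34), cell [M] (model), HESSE TWIN (`q = 2`) of leaf [CF] (cusp facts): the INSTANCE.

For a field `L` of characteristic zero, a prime `q ≠ 3` and a level `M` with `9 q ∣ M`, put
`E = F_M = L(j(X^d) : d ∣ M) ⊆ L((X))`, `μ = hs_mu L h3` (`L(μ) = F_9`), `μ_q = μ(X^q)`.  From the
Atkin–Lehner data on the three genus-zero towers `F_{9q} / F_9 = L(μ)`, `F_{3q} / F_3 = L(t₃)`,
`F_q / F_1 = L(j)` (`ssm_cf_ALHyp`, helper22's [CF] / helper11's [AL], generic in the base level) and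
the Hesse relations `t₃ (μ² + μ + 1) = 3 (μ - 1)³`, `j t₃³ = (t₃ + 27)(t₃ + 243)³` we get for every
place `c` of `E / L` and `(u, u_q) ∈ {(μ - 1, μ_q - 1), (μ² + μ + 1, μ_q² + μ_q + 1), (μ⁻¹, μ_q⁻¹)}`:
`ord_c u > 0 ↔ ord_c u_q > 0`, and then `ord_c u_q ≤ q ord_c u`, `ord_c u ≤ q ord_c u_q`
(`ssm_cfh_CuspFacts`).

The level-3 input (`ssm_cfh_Level3`: the Hauptmodul `t₃` of `F_3`, its two identities, `F_3 = L(t₃)`,
`F_9 = L(μ)`) is a HYPOTHESIS here: it is the output of the Hesse twin [F9] of [F4].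

Prefix `ssm_cfh_`.
-/
import Mathlib
import Fermat.Agent.SS.Model.CuspsMu
import Fermat.Agent.SS.Model.CuspsFinal
import Fermat.Agent.JT3.Inst.HesseDefs

set_option autoImplicit false
set_option linter.style.haveILetI false
set_option linter.unusedSectionVars false

noncomputable section

open ModularCurve IntermediateField AlgebraicCurve
open Fermat.Agent.S28 Fermat.Agent.JT3 Fermat.Agent.S24

namespace Fermat.Agent.SS

section Inst

variable (L : Type*) [Field L]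

/-- **what the Hesse twin of [CF] consumes from the level-3 Hauptmodul theory** ([F9]): a series
`t₃` with a simple pole generating `F_3`, the two Hesse relations, and `F_9 = L(μ)`. -/
structure ssm_cfh_Level3 (h3 : (3 : L) ≠ 0) (t3 : LaurentSeries L) : Prop where
  order : t3.order = -1
  rel9 : t3 * (hs_mu L h3 ^ 2 + hs_mu L h3 + 1) = 3 * (hs_mu L h3 - 1) ^ 3
  rel3 : jqModC L * t3 ^ 3 = (t3 + 27) * (t3 + 243) ^ 3
  F3 : modularFunctionFieldFullC L 3 = L⟮t3⟯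
  F9 : modularFunctionFieldFullC L 9 = L⟮hs_mu L h3⟯

variable [CharZero L]

/-- **Hesse twin of [CF], the instance on a level function field**: `E = F_M` with `9 q ∣ M`. -/
theorem ssm_cfh_main (M q : ℕ) [NeZero M] [NeZero q] (hq : 2 ≤ q) (h9q : 9 * q ∣ M)
    (hAL9 : ssm_cf_ALHyp L 9 q) (hAL3 : ssm_cf_ALHyp L 3 q) (hAL1 : ssm_cf_ALHyp L 1 q)
    (h3 : (3 : L) ≠ 0) (t3 : LaurentSeries L) (H : ssm_cfh_Level3 L h3 t3)
    (E : IntermediateField L (LaurentSeries L)) (hE : E = modularFunctionFieldFullC L M)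
    (hmu : hs_mu L h3 ∈ E) (hmuq : qExpand L q (hs_mu L h3) ∈ E) :
    ssm_cfh_CuspFacts L q (⟨hs_mu L h3, hmu⟩ : E) ⟨qExpand L q (hs_mu L h3), hmuq⟩ := by
  subst hE
  have hd3 : 3 * q ∣ M := (mul_dvd_mul_right (by norm_num : 3 ∣ 9) q).trans h9q
  have hd1 : 1 * q ∣ M := (mul_dvd_mul_right (one_dvd 9) q).trans h9q
  obtain ⟨m9, m9q, P9, P9'⟩ := ssm_cf_tower_inst L M 9 q hq h9q hAL9 (hs_mu L h3)
    H.F9 (hs_mu_order L h3)
  obtain ⟨m3, m3q, P3, P3'⟩ := ssm_cf_tower_inst L M 3 q hq hd3 hAL3 t3 H.F3 H.order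
  obtain ⟨m1, m1q, P1, P1'⟩ := ssm_cf_tower_inst L M 1 q hq hd1 hAL1 (jqModC L)
    (ssm_cf_F1_eq L) (ssm_cf_order_j L)
  -- the Hesse identities in `E`
  have i9 : (⟨t3, m3⟩ : modularFunctionFieldFullC L M)
      * (⟨hs_mu L h3, hmu⟩ ^ 2 + ⟨hs_mu L h3, hmu⟩ + 1) = 3 * (⟨hs_mu L h3, hmu⟩ - 1) ^ 3 :=
    Subtype.ext H.rel9
  have i3 : (⟨jqModC L, m1⟩ : modularFunctionFieldFullC L M) * ⟨t3, m3⟩ ^ 3
      = (⟨t3, m3⟩ + 27) * (⟨t3, m3⟩ + 243) ^ 3 := Subtype.ext H.rel3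
  have i9q : (⟨qExpand L q t3, m3q⟩ : modularFunctionFieldFullC L M)
      * (⟨qExpand L q (hs_mu L h3), hmuq⟩ ^ 2 + ⟨qExpand L q (hs_mu L h3), hmuq⟩ + 1)
      = 3 * (⟨qExpand L q (hs_mu L h3), hmuq⟩ - 1) ^ 3 := by
    apply Subtype.ext
    have h := congrArg (qExpand L q) H.rel9
    rw [map_mul, map_add, map_add, map_pow, map_one, map_mul, map_pow, map_sub, map_one,
      map_ofNat] at h
    exact h
  have i3q : (⟨qExpand L q (jqModC L), m1q⟩ : modularFunctionFieldFullC L M)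
      * ⟨qExpand L q t3, m3q⟩ ^ 3
      = (⟨qExpand L q t3, m3q⟩ + 27) * (⟨qExpand L q t3, m3q⟩ + 243) ^ 3 := by
    apply Subtype.ext
    have h := congrArg (qExpand L q) H.rel3
    rw [map_mul, map_pow, map_mul, map_pow, map_add, map_add, map_ofNat, map_ofNat] at h
    exact h
  haveI : CharZero (modularFunctionFieldFullC L M) :=
    charZero_of_injective_algebraMap (algebraMap L (modularFunctionFieldFullC L M)).injective
  have e3 : (3 : modularFunctionFieldFullC L M) ≠ 0 := by norm_num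
  have e27 : (27 : modularFunctionFieldFullC L M) ≠ 0 := by norm_num
  have e243 : (243 : modularFunctionFieldFullC L M) ≠ 0 := by norm_num
  -- the pole pairings in the form of `ssm_cfh_cuspFacts`
  have Q9 : ssm_cf_PolePair L q (⟨hs_mu L h3, hmu⟩ : modularFunctionFieldFullC L M)
      ⟨qExpand L q (hs_mu L h3), hmuq⟩ := P9
  have Q9' : ssm_cf_PolePair L q (⟨qExpand L q (hs_mu L h3), hmuq⟩ : modularFunctionFieldFullC L M)
      ⟨hs_mu L h3, hmu⟩ := P9'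
  exact ssm_cfh_cuspFacts (L := L) e3 e27 e243 i9 i9q i3 i3q Q9 Q9' P3 P3' P1 P1'

/-- **Hesse twin of [CF] for the rigidified Hesse field** `E = hs_E L h3 N`, `q ∣ N` prime to `3`,
given [F9] (`hs_E L h3 N = F_{lcm(9, 3N)}`). -/
theorem ssm_cfh_inst (N q : ℕ) [NeZero N] [NeZero q] (hq : 2 ≤ q) (hq3 : ¬ 3 ∣ q) (hqN : q ∣ N)
    (hAL9 : ssm_cf_ALHyp L 9 q) (hAL3 : ssm_cf_ALHyp L 3 q) (hAL1 : ssm_cf_ALHyp L 1 q)
    (h3 : (3 : L) ≠ 0) (t3 : LaurentSeries L) (H : ssm_cfh_Level3 L h3 t3)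
    (hF9 : hs_E L h3 N = modularFunctionFieldFullC L (Nat.lcm 9 (3 * N)))
    (hmu : hs_mu L h3 ∈ hs_E L h3 N) (hmuq : qExpand L q (hs_mu L h3) ∈ hs_E L h3 N) :
    ssm_cfh_CuspFacts L q (⟨hs_mu L h3, hmu⟩ : hs_E L h3 N)
      ⟨qExpand L q (hs_mu L h3), hmuq⟩ := by
  haveI : NeZero (Nat.lcm 9 (3 * N)) :=
    ⟨Nat.lcm_ne_zero (by norm_num) (Nat.mul_ne_zero (by norm_num) (NeZero.ne N))⟩
  refine ssm_cfh_main L (Nat.lcm 9 (3 * N)) q hq ?_ hAL9 hAL3 hAL1 h3 t3 H (hs_E L h3 N) hF9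
    hmu hmuq
  have hcop : Nat.Coprime 9 q := by
    have : Nat.Coprime 3 q := (Nat.Prime.coprime_iff_not_dvd Nat.prime_three).2 hq3
    exact Nat.Coprime.pow_left 2 this
  refine Nat.Coprime.mul_dvd_of_dvd_of_dvd hcop (Nat.dvd_lcm_left _ _) ?_
  exact (hqN.trans (Dvd.intro_left 3 rfl)).trans (Nat.dvd_lcm_right _ _)

end Inst

section Final

variable (L : Type*) [Field L] [CharZero L] [Algebra L (AlgebraicClosure ℚ)]

/-- **Hesse twin of [CF], final form**: `L ⊆ Q̄`, `q ≠ 3` a prime dividing `N` (in the application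
`q = 2`), `E = hs_E L h3 N`, given the level-3 input and [F9]: the zeros of `μ³ - 1`, `μ⁻¹` and of
`μ_q³ - 1`, `μ_q⁻¹` (`μ_q = μ(X^q)`) are the same places of `E / L`, with order ratios in
`[1/q, q]` (separately for `μ - 1` and `μ² + μ + 1`). -/
theorem ssm_cfh_final (N q : ℕ) [NeZero N] [NeZero q] (hq : q.Prime) (hq3 : q ≠ 3) (hqN : q ∣ N)
    (h3 : (3 : L) ≠ 0) (t3 : LaurentSeries L) (H : ssm_cfh_Level3 L h3 t3)
    (hF9 : hs_E L h3 N = modularFunctionFieldFullC L (Nat.lcm 9 (3 * N)))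
    (hmu : hs_mu L h3 ∈ hs_E L h3 N) (hmuq : qExpand L q (hs_mu L h3) ∈ hs_E L h3 N) :
    ssm_cfh_CuspFacts L q (⟨hs_mu L h3, hmu⟩ : hs_E L h3 N)
      ⟨qExpand L q (hs_mu L h3), hmuq⟩ := by
  have h3q : ¬ 3 ∣ q := fun h => hq3 ((Nat.prime_dvd_prime_iff_eq Nat.prime_three hq).1 h).symm
  have hq3' : ¬ q ∣ 3 := fun h => hq3 ((Nat.prime_dvd_prime_iff_eq hq Nat.prime_three).1 h)
  have hq9 : ¬ q ∣ 9 := fun h => by
    have : q ∣ 3 ^ 2 := by norm_num; exact h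
    exact hq3' (hq.dvd_of_dvd_pow this)
  have hq1 : ¬ q ∣ 1 := fun h => hq.one_lt.ne' (Nat.dvd_one.1 h)
  exact ssm_cfh_inst L N q hq.two_le h3q hqN (ssm_cf_alHyp L 9 q hq hq9)
    (ssm_cf_alHyp L 3 q hq hq3') (ssm_cf_alHyp L 1 q hq hq1) h3 t3 H hF9 hmu hmuq

end Final

end Fermat.Agent.SS
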