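/-
Project SS (S34), cell [M] (model), leaf [F9] (Hesse twin of [F4]), part (a): the Hesse field `L(μ)`
is the level-`9` function field.

`hs_K L h3 = L(μ)` and `modularFunctionFieldFullC L 9 = L(j(q), j(q³), j(q⁹))` as subfields of
`L((q))`, for every field `L` of characteristic zero.  From the identities of
`JT3/Hauptmodul/{Level3,HesseLevel3}.lean` (`c = 3 μ`, `t = t₃ = (η(q)/η(q³))¹²`, `T = t₃(q³)`):
`j t³ = (t + 27)(t + 243)³`, `j(q³) t = (t + 27)(t + 3)³`, `c³ = T + 27`,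
`t (c² + 3 c + 9) = (c - 3)³`.

`⊇`: `T = c³ - 27`, `t = (c - 3)³/(c² + 3 c + 9)`, `j = (t + 27)(t + 243)³/t³`,
`j(q⁹) = (T + 27)(T + 3)³/T`.
`⊆`: `t ∈ L(j, j(q³))` because `[L(j, j(q³)) : L(j)] = ψ(3) = 4` (`ssm_al_natDegree_minpoly`) and `t` is
a root of a quartic over `L(j)` with `j(q³) ∈ L(j)(t)`; `T = t(q³) ∈ L(j(q³), j(q⁹))`; and `c` is
rational in `(t, T)`: `((t + 9)(9 t - T) - (3 t - 27)²) c = (3 t - 27)(9 t - T) - (t + 9)² (T + 27)`.

Prefix `ssm_f9_`.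
-/
import Mathlib
import Fermat.Agent.JT3.Inst.HesseDefs
import Fermat.Agent.JT3.Hauptmodul.HesseLevel3
import Fermat.Agent.SS.Model.ALDeg

set_option autoImplicit false

noncomputable section

open ModularCurve IntermediateField Polynomial
open Fermat.Agent.S28 Fermat.Agent.JT3 Fermat.Agent.S24

namespace Fermat.Agent.SS

/-! ### A degree argument -/

/-- If `t` is a root of a monic polynomial over `K` of degree at most the degree of `y` over `K`, and
`y ∈ K(t)`, then `t ∈ K(y)`. -/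
theorem ssm_f9_mem_of_degree {K E : Type*} [Field K] [Field E] [Algebra K E] (y t : E) (p : K[X])
    (hp : p.Monic) (hpt : aeval t p = 0) (hy : IsIntegral K y)
    (hdeg : p.natDegree ≤ (minpoly K y).natDegree) (hyt : y ∈ K⟮t⟯) : t ∈ K⟮y⟯ := by
  have ht : IsIntegral K t := ⟨p, hp, hpt⟩
  have hle : K⟮y⟯ ≤ K⟮t⟯ := IntermediateField.adjoin_simple_le_iff.mpr hyt
  have : FiniteDimensional K K⟮t⟯ := IntermediateField.adjoin.finiteDimensional ht
  have h1 : Module.finrank K K⟮t⟯ ≤ Module.finrank K K⟮y⟯ := by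
    rw [IntermediateField.adjoin.finrank ht, IntermediateField.adjoin.finrank hy]
    refine le_trans ?_ hdeg
    exact Polynomial.natDegree_le_natDegree (minpoly.min K t hp hpt)
  have h2 := IntermediateField.eq_of_le_of_finrank_le hle h1
  rw [h2]
  exact IntermediateField.mem_adjoin_simple_self K t

/-! ### Orders -/

section Order

variable {L : Type*} [Field L]

theorem ssm_f9_coeff_C_of_ne (a : L) {m : ℤ} (hm : m ≠ 0) :
    (HahnSeries.C a : LaurentSeries L).coeff m = 0 := by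
  rw [HahnSeries.C_apply, HahnSeries.coeff_single_of_ne hm]

/-- Adding a constant to a series with a pole does not change the order. -/
theorem ssm_f9_order_add_C {x : LaurentSeries L} (hx : x.order < 0) (a : L) :
    (x + HahnSeries.C a).order = x.order := by
  have hx0 : x ≠ 0 := by
    rintro rfl
    simp at hx
  refine fs_order_eq_of ?_ ?_
  · rw [HahnSeries.coeff_add, ssm_f9_coeff_C_of_ne a hx.ne, add_zero]
    exact fun h => hx0 (HahnSeries.coeff_order_eq_zero.mp h)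
  · intro m hm
    rw [HahnSeries.coeff_add, ssm_f9_coeff_C_of_ne a (hm.trans hx).ne, add_zero]
    exact HahnSeries.coeff_eq_zero_of_lt_order hm

theorem ssm_f9_ne_zero_of_order_neg {x : LaurentSeries L} (hx : x.order < 0) : x ≠ 0 := by
  rintro rfl
  simp at hx

/-- The determinant `(t + 9)(9 t - T) - (3 t - 27)²` does not vanish when `t` has a simple pole and
`T` a triple pole. -/
theorem ssm_f9_det_ne_zero (h3 : (3 : L) ≠ 0) {t T : LaurentSeries L} (ht : t.order = -1)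
    (hT : T.order = -3) : (t + 9) * (9 * t - T) - (3 * t - 27) ^ 2 ≠ 0 := by
  intro h
  have e9 : (9 : LaurentSeries L) = HahnSeries.C (9 : L) := by rw [map_ofNat]
  have e3 : (-3 : LaurentSeries L) = HahnSeries.C (-3 : L) := by rw [map_neg, map_ofNat]
  have e243 : (243 : LaurentSeries L) = HahnSeries.C (243 : L) := by rw [map_ofNat]
  have h1 : (t + HahnSeries.C (9 : L)) * T = HahnSeries.C (243 : L) * (t + HahnSeries.C (-3 : L)) := by
    rw [← e9, ← e3, ← e243]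
    linear_combination -h
  have o1 : (t + HahnSeries.C (9 : L)).order = -1 := by
    rw [ssm_f9_order_add_C (by rw [ht]; norm_num), ht]
  have o2 : (t + HahnSeries.C (-3 : L)).order = -1 := by
    rw [ssm_f9_order_add_C (by rw [ht]; norm_num), ht]
  have n1 : t + HahnSeries.C (9 : L) ≠ 0 := ssm_f9_ne_zero_of_order_neg (by rw [o1]; norm_num)
  have n2 : t + HahnSeries.C (-3 : L) ≠ 0 := ssm_f9_ne_zero_of_order_neg (by rw [o2]; norm_num)
  have nT : T ≠ 0 := ssm_f9_ne_zero_of_order_neg (by rw [hT]; norm_num)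
  have h243 : (243 : L) ≠ 0 := by
    have : (243 : L) = 3 ^ 5 := by norm_num
    rw [this]
    exact pow_ne_zero 5 h3
  have nC : (HahnSeries.C (243 : L) : LaurentSeries L) ≠ 0 := by
    intro h0
    exact h243 (HahnSeries.C_injective (h0.trans (map_zero _).symm))
  have oL := HahnSeries.order_mul n1 nT
  have oR := HahnSeries.order_mul nC n2
  rw [h1, oR, HahnSeries.order_C, o1, o2, hT] at oL
  omega

end Order

/-! ### `L(μ) ⊇ F_9` -/

section Sup

variable (L : Type*) [Field L] (h3 : (3 : L) ≠ 0)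

/-- `c = 3 μ`. -/
def ssm_f9_c : LaurentSeries L := hm_hesC L (IsUnit.mk0 _ h3)

theorem ssm_f9_three_mul_mu : 3 * hs_mu L h3 = ssm_f9_c L h3 :=
  hm_three_mul_mu L (IsUnit.mk0 _ h3)

theorem ssm_f9_c_order : (ssm_f9_c L h3).order = -1 := hm_hesC_order L (IsUnit.mk0 _ h3)

theorem ssm_f9_three_ne_zero (h3 : (3 : L) ≠ 0) : (3 : LaurentSeries L) ≠ 0 := by
  have h : (3 : LaurentSeries L) = HahnSeries.C (3 : L) := by rw [map_ofNat]
  rw [h]
  intro h0
  exact h3 (HahnSeries.C_injective (h0.trans (map_zero _).symm))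

theorem ssm_f9_c_mem_K : ssm_f9_c L h3 ∈ hs_K L h3 := by
  rw [← ssm_f9_three_mul_mu]
  exact mul_mem (ofNat_mem _ 3) (hs_mu_mem_K L h3)

theorem ssm_f9_t3_order : (hm3_t3 L).order = -1 := hm3_t3_order L

theorem ssm_f9_T_order : (qExpand L 3 (hm3_t3 L)).order = -3 := by
  rw [fs_qExpand_order, ssm_f9_t3_order]
  norm_num

theorem ssm_f9_t3_ne_zero : hm3_t3 L ≠ 0 := hm3_t3_ne_zero L

theorem ssm_f9_T_ne_zero : qExpand L 3 (hm3_t3 L) ≠ 0 :=
  ((hm3_isUnit_t3 L).map (qExpand L 3)).ne_zero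

/-- `c³ = T + 27`. -/
theorem ssm_f9_c_cube : ssm_f9_c L h3 ^ 3 = qExpand L 3 (hm3_t3 L) + 27 :=
  hm3_hesC_cube L (IsUnit.mk0 _ h3)

/-- `t (c² + 3 c + 9) = (c - 3)³`. -/
theorem ssm_f9_t3_c :
    hm3_t3 L * (ssm_f9_c L h3 ^ 2 + 3 * ssm_f9_c L h3 + 9) = (ssm_f9_c L h3 - 3) ^ 3 :=
  hm3_t3_hesC L (IsUnit.mk0 _ h3)

theorem ssm_f9_c_sub_ne_zero : ssm_f9_c L h3 - 3 ≠ 0 := by
  have e3 : ssm_f9_c L h3 - 3 = ssm_f9_c L h3 + HahnSeries.C (-3 : L) := by
    rw [map_neg, map_ofNat]; ring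
  rw [e3]
  refine ssm_f9_ne_zero_of_order_neg ?_
  rw [ssm_f9_order_add_C (by rw [ssm_f9_c_order]; norm_num), ssm_f9_c_order]
  norm_num

theorem ssm_f9_denom_ne_zero : ssm_f9_c L h3 ^ 2 + 3 * ssm_f9_c L h3 + 9 ≠ 0 := by
  intro h0
  have h := ssm_f9_t3_c L h3
  rw [h0, mul_zero] at h
  exact pow_ne_zero 3 (ssm_f9_c_sub_ne_zero L h3) h.symm

theorem ssm_f9_T_mem_K : qExpand L 3 (hm3_t3 L) ∈ hs_K L h3 := by
  have h : qExpand L 3 (hm3_t3 L) = ssm_f9_c L h3 ^ 3 - 27 := by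
    rw [ssm_f9_c_cube]; ring
  rw [h]
  exact sub_mem (pow_mem (ssm_f9_c_mem_K L h3) 3) (ofNat_mem _ 27)

theorem ssm_f9_t3_mem_K : hm3_t3 L ∈ hs_K L h3 := by
  have h : hm3_t3 L =
      (ssm_f9_c L h3 - 3) ^ 3 / (ssm_f9_c L h3 ^ 2 + 3 * ssm_f9_c L h3 + 9) := by
    rw [eq_div_iff (ssm_f9_denom_ne_zero L h3)]
    exact ssm_f9_t3_c L h3
  rw [h]
  have hc := ssm_f9_c_mem_K L h3
  exact div_mem (pow_mem (sub_mem hc (ofNat_mem _ 3)) 3)
    (add_mem (add_mem (pow_mem hc 2) (mul_mem (ofNat_mem _ 3) hc)) (ofNat_mem _ 9))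

theorem ssm_f9_j_mem_K : jqModC L ∈ hs_K L h3 := by
  have h := hm3_t3_id1 L
  have ht0 := pow_ne_zero 3 (ssm_f9_t3_ne_zero L)
  have hj : jqModC L = (hm3_t3 L + 27) * (hm3_t3 L + 243) ^ 3 / hm3_t3 L ^ 3 := by
    rw [eq_div_iff ht0]; exact h
  rw [hj]
  have ht := ssm_f9_t3_mem_K L h3
  exact div_mem (mul_mem (add_mem ht (ofNat_mem _ 27)) (pow_mem (add_mem ht (ofNat_mem _ 243)) 3))
    (pow_mem ht 3)

/-- `j(q⁹) T = (T + 27)(T + 3)³`. -/
theorem ssm_f9_T_id2 :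
    qExpand L 9 (jqModC L) * qExpand L 3 (hm3_t3 L) =
      (qExpand L 3 (hm3_t3 L) + 27) * (qExpand L 3 (hm3_t3 L) + 3) ^ 3 := by
  have h := congrArg (qExpand L 3) (hm3_t3_id2 L)
  rw [map_mul, map_mul, map_pow, map_add, map_add, map_ofNat, map_ofNat, qExpand_qExpand] at h
  exact h

/-- `j(q³) T³ = (T + 27)(T + 243)³`. -/
theorem ssm_f9_T_id1 :
    qExpand L 3 (jqModC L) * qExpand L 3 (hm3_t3 L) ^ 3 =
      (qExpand L 3 (hm3_t3 L) + 27) * (qExpand L 3 (hm3_t3 L) + 243) ^ 3 := by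
  have h := congrArg (qExpand L 3) (hm3_t3_id1 L)
  rw [map_mul, map_mul, map_pow, map_pow, map_add, map_add, map_ofNat, map_ofNat] at h
  exact h

theorem ssm_f9_j9_mem_K : qExpand L 9 (jqModC L) ∈ hs_K L h3 := by
  have h := ssm_f9_T_id2 L
  have hT0 := ssm_f9_T_ne_zero L
  have hj : qExpand L 9 (jqModC L) =
      (qExpand L 3 (hm3_t3 L) + 27) * (qExpand L 3 (hm3_t3 L) + 3) ^ 3 /
        qExpand L 3 (hm3_t3 L) := by
    rw [eq_div_iff hT0]; exact h
  rw [hj]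
  have hT := ssm_f9_T_mem_K L h3
  exact div_mem (mul_mem (add_mem hT (ofNat_mem _ 27)) (pow_mem (add_mem hT (ofNat_mem _ 3)) 3)) hT

theorem ssm_f9_le_K : modularFunctionFieldFullC L 9 ≤ hs_K L h3 := by
  rw [modularFunctionFieldFullC, IntermediateField.adjoin_le_iff]
  rintro _ ⟨d, hd, hd9, rfl⟩
  have hle : d ≤ 9 := Nat.le_of_dvd (by norm_num) hd9
  have hpos : 0 < d := Nat.pos_of_ne_zero (NeZero.ne d)
  interval_cases d
  · rw [SetLike.mem_coe, qExpand_one_apply]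
    exact ssm_f9_j_mem_K L h3
  · exact absurd hd9 (by norm_num)
  · exact hs_j3_mem_K L h3
  · exact absurd hd9 (by norm_num)
  · exact absurd hd9 (by norm_num)
  · exact absurd hd9 (by norm_num)
  · exact absurd hd9 (by norm_num)
  · exact absurd hd9 (by norm_num)
  · exact ssm_f9_j9_mem_K L h3

end Sup

/-! ### `L(μ) ⊆ F_9` -/

section Quartic

variable (L : Type*) [Field L]

/-- `j` as an element of `L(j)`. -/
def ssm_f9_jK : L⟮jqModC L⟯ := ⟨jqModC L, IntermediateField.mem_adjoin_simple_self L _⟩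

/-- The quartic `(X + 27)(X + 243)³ - j X³` over `L(j)`. -/
def ssm_f9_quartic : (L⟮jqModC L⟯)[X] :=
  (X + C 27) * (X + C 243) ^ 3 - C (ssm_f9_jK L) * X ^ 3

theorem ssm_f9_quartic_monic : (ssm_f9_quartic L).Monic := by
  unfold ssm_f9_quartic
  monicity!

theorem ssm_f9_quartic_natDegree : (ssm_f9_quartic L).natDegree ≤ 4 := by
  unfold ssm_f9_quartic
  compute_degree

theorem ssm_f9_quartic_aeval : aeval (hm3_t3 L) (ssm_f9_quartic L) = 0 := by
  unfold ssm_f9_quartic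
  simp only [map_sub, map_mul, map_pow, map_add, aeval_X, aeval_C, map_ofNat]
  have hj : algebraMap (L⟮jqModC L⟯) (LaurentSeries L) (ssm_f9_jK L) = jqModC L := rfl
  rw [hj, sub_eq_zero]
  exact (hm3_t3_id1 L).symm

theorem ssm_f9_j3_mem_adjoin_t3 :
    qExpand L 3 (jqModC L) ∈ (L⟮jqModC L⟯)⟮hm3_t3 L⟯ := by
  have h := hm3_t3_id2 L
  have ht0 := ssm_f9_t3_ne_zero L
  have hj : qExpand L 3 (jqModC L) = (hm3_t3 L + 27) * (hm3_t3 L + 3) ^ 3 / hm3_t3 L := by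
    rw [eq_div_iff ht0]; exact h
  rw [hj]
  have ht : hm3_t3 L ∈ (L⟮jqModC L⟯)⟮hm3_t3 L⟯ := IntermediateField.mem_adjoin_simple_self _ _
  exact div_mem (mul_mem (add_mem ht (ofNat_mem _ 27)) (pow_mem (add_mem ht (ofNat_mem _ 3)) 3)) ht

end Quartic

section Sub

variable (L : Type*) [Field L] [CharZero L]

/-- **`t₃ ∈ L(j, j(q³))`**. -/
theorem ssm_f9_t3_mem_F3 : hm3_t3 L ∈ modularFunctionFieldFullC L 3 := by
  have hdeg : (ssm_f9_quartic L).natDegree ≤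
      (minpoly (L⟮jqModC L⟯) (qExpand L 3 (jqModC L))).natDegree := by
    rw [ssm_al_natDegree_minpoly L 3, Comb.card_quotient_Gamma0, Comb.dedekindPsi_prime Nat.prime_three]
    exact ssm_f9_quartic_natDegree L
  have h := ssm_f9_mem_of_degree (qExpand L 3 (jqModC L)) (hm3_t3 L) (ssm_f9_quartic L)
    (ssm_f9_quartic_monic L) (ssm_f9_quartic_aeval L) (ssm_al_isIntegral_jN L 3) hdeg
    (ssm_f9_j3_mem_adjoin_t3 L)
  have h2 : hm3_t3 L ∈ ((L⟮jqModC L⟯)⟮qExpand L 3 (jqModC L)⟯).restrictScalars L := h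
  rw [IntermediateField.adjoin_adjoin_left] at h2
  refine (IntermediateField.adjoin_le_iff.mpr ?_) h2
  rintro x (hx | hx)
  · rw [Set.mem_singleton_iff] at hx
    subst hx
    exact jqModC_mem_full L 3
  · rw [Set.mem_singleton_iff] at hx
    subst hx
    exact jqModCd_mem_full L 3 dvd_rfl

theorem ssm_f9_t3_mem_F9 : hm3_t3 L ∈ modularFunctionFieldFullC L 9 :=
  full_degeneracyC_le L (by norm_num : 3 ∣ 9) (ssm_f9_t3_mem_F3 L)

theorem ssm_f9_T_mem_F9 : qExpand L 3 (hm3_t3 L) ∈ modularFunctionFieldFullC L 9 := by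
  have h := full_degeneracyC_map_le L 3 3
  exact h ⟨hm3_t3 L, ssm_f9_t3_mem_F3 L, rfl⟩

variable (h3 : (3 : L) ≠ 0)

omit [CharZero L] in
/-- `c` is rational in `(t, T)`. -/
theorem ssm_f9_c_formula :
    ((hm3_t3 L + 9) * (9 * hm3_t3 L - qExpand L 3 (hm3_t3 L)) - (3 * hm3_t3 L - 27) ^ 2) *
        ssm_f9_c L h3 =
      (3 * hm3_t3 L - 27) * (9 * hm3_t3 L - qExpand L 3 (hm3_t3 L)) -
        (hm3_t3 L + 9) ^ 2 * (qExpand L 3 (hm3_t3 L) + 27) := by
  have h1 := ssm_f9_c_cube L h3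
  have h2 := ssm_f9_t3_c L h3
  set c := ssm_f9_c L h3
  set t := hm3_t3 L
  set T := qExpand L 3 (hm3_t3 L)
  linear_combination (-(3 * t - 27) + (t + 9) * c - (t + 9) * (t + 9)) * h1 +
    (-(3 * t - 27) + (t + 9) * c) * h2

theorem ssm_f9_c_mem_F9 : ssm_f9_c L h3 ∈ modularFunctionFieldFullC L 9 := by
  have hD := ssm_f9_det_ne_zero h3 (ssm_f9_t3_order L) (ssm_f9_T_order L)
  have h := ssm_f9_c_formula L h3
  have hc : ssm_f9_c L h3 =
      ((3 * hm3_t3 L - 27) * (9 * hm3_t3 L - qExpand L 3 (hm3_t3 L)) -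
        (hm3_t3 L + 9) ^ 2 * (qExpand L 3 (hm3_t3 L) + 27)) /
      ((hm3_t3 L + 9) * (9 * hm3_t3 L - qExpand L 3 (hm3_t3 L)) - (3 * hm3_t3 L - 27) ^ 2) := by
    rw [eq_div_iff hD, mul_comm]; exact h
  rw [hc]
  have ht := ssm_f9_t3_mem_F9 L
  have hT := ssm_f9_T_mem_F9 L
  have h3t : 3 * hm3_t3 L - 27 ∈ modularFunctionFieldFullC L 9 :=
    sub_mem (mul_mem (ofNat_mem _ 3) ht) (ofNat_mem _ 27)
  have h9t : 9 * hm3_t3 L - qExpand L 3 (hm3_t3 L) ∈ modularFunctionFieldFullC L 9 :=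
    sub_mem (mul_mem (ofNat_mem _ 9) ht) hT
  have ht9 : hm3_t3 L + 9 ∈ modularFunctionFieldFullC L 9 := add_mem ht (ofNat_mem _ 9)
  exact div_mem (sub_mem (mul_mem h3t h9t) (mul_mem (pow_mem ht9 2) (add_mem hT (ofNat_mem _ 27))))
    (sub_mem (mul_mem ht9 h9t) (pow_mem h3t 2))

theorem ssm_f9_mu_mem_F9 : hs_mu L h3 ∈ modularFunctionFieldFullC L 9 := by
  have h := ssm_f9_three_mul_mu L h3
  have h30 := ssm_f9_three_ne_zero L h3
  have hmu : hs_mu L h3 = ssm_f9_c L h3 / 3 := by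
    rw [eq_div_iff h30, mul_comm]; exact h
  rw [hmu]
  exact div_mem (ssm_f9_c_mem_F9 L h3) (ofNat_mem _ 3)

theorem ssm_f9_K_le : hs_K L h3 ≤ modularFunctionFieldFullC L 9 := by
  rw [hs_K, IntermediateField.adjoin_simple_le_iff]
  exact ssm_f9_mu_mem_F9 L h3

/-- **[F9] (a)**: the Hesse field `L(μ)` is the level-nine function field
`L(j(q), j(q³), j(q⁹))`. -/
theorem ssm_f9_K : hs_K L h3 = modularFunctionFieldFullC L 9 :=
  le_antisymm (ssm_f9_K_le L h3) (ssm_f9_le_K L h3)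

end Sub

end Fermat.Agent.SS
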