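/-
Project SS (S34), cell [M] (model), leaf [F9] (Hesse twin of [F4]), complement: the instance of
helper23's `ssm_cfh_Level3` (the level-`3` input of the Hesse cusp package `SS/Model/CuspsHesse.lean`)
for the eta quotient `t₃ = hm3_t3 L = q⁻¹ ∏ (1 - qⁿ)¹² / (1 - q³ⁿ)¹²`.

* `ssm_f9_rel9`    : `t₃ (μ² + μ + 1) = 3 (μ - 1)³`,
* `ssm_f9_F3_eq`   : `F_3 = L(t₃)`,
* `ssm_f9_level3`  : `ssm_cfh_Level3 L h3 (hm3_t3 L)`.

Prefix `ssm_f9_`.
-/
import Mathlib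
import Fermat.Agent.SS.Model.F9K
import Fermat.Agent.SS.Model.CuspsHesse

set_option autoImplicit false

noncomputable section

open ModularCurve IntermediateField
open Fermat.Agent.S28 Fermat.Agent.JT3

namespace Fermat.Agent.SS

section Inst

variable (L : Type*) [Field L] (h3 : (3 : L) ≠ 0)

/-- `t₃ (μ² + μ + 1) = 3 (μ - 1)³`. -/
theorem ssm_f9_rel9 :
    hm3_t3 L * (hs_mu L h3 ^ 2 + hs_mu L h3 + 1) = 3 * (hs_mu L h3 - 1) ^ 3 := by
  have h := ssm_f9_t3_c L h3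
  rw [← ssm_f9_three_mul_mu] at h
  have h9 : (9 : LaurentSeries L) ≠ 0 := by
    have : (9 : LaurentSeries L) = 3 ^ 2 := by norm_num
    rw [this]
    exact pow_ne_zero 2 (ssm_f9_three_ne_zero L h3)
  apply mul_left_cancel₀ h9
  linear_combination h

theorem ssm_f9_j_mem_adjoin_t3 : jqModC L ∈ L⟮hm3_t3 L⟯ := by
  have h := hm3_t3_id1 L
  have ht0 := pow_ne_zero 3 (ssm_f9_t3_ne_zero L)
  have hj : jqModC L = (hm3_t3 L + 27) * (hm3_t3 L + 243) ^ 3 / hm3_t3 L ^ 3 := by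
    rw [eq_div_iff ht0]; exact h
  rw [hj]
  have ht : hm3_t3 L ∈ L⟮hm3_t3 L⟯ := IntermediateField.mem_adjoin_simple_self _ _
  exact div_mem (mul_mem (add_mem ht (ofNat_mem _ 27)) (pow_mem (add_mem ht (ofNat_mem _ 243)) 3))
    (pow_mem ht 3)

theorem ssm_f9_j3_mem_adjoin_t3' : qExpand L 3 (jqModC L) ∈ L⟮hm3_t3 L⟯ := by
  have h := hm3_t3_id2 L
  have ht0 := ssm_f9_t3_ne_zero L
  have hj : qExpand L 3 (jqModC L) = (hm3_t3 L + 27) * (hm3_t3 L + 3) ^ 3 / hm3_t3 L := by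
    rw [eq_div_iff ht0]; exact h
  rw [hj]
  have ht : hm3_t3 L ∈ L⟮hm3_t3 L⟯ := IntermediateField.mem_adjoin_simple_self _ _
  exact div_mem (mul_mem (add_mem ht (ofNat_mem _ 27)) (pow_mem (add_mem ht (ofNat_mem _ 3)) 3)) ht

theorem ssm_f9_F3_le_adjoin : modularFunctionFieldFullC L 3 ≤ L⟮hm3_t3 L⟯ := by
  rw [modularFunctionFieldFullC, IntermediateField.adjoin_le_iff]
  rintro _ ⟨d, hd, hd3, rfl⟩
  have hle : d ≤ 3 := Nat.le_of_dvd (by norm_num) hd3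
  have hpos : 0 < d := Nat.pos_of_ne_zero (NeZero.ne d)
  interval_cases d
  · rw [SetLike.mem_coe, qExpand_one_apply]
    exact ssm_f9_j_mem_adjoin_t3 L
  · exact absurd hd3 (by norm_num)
  · exact ssm_f9_j3_mem_adjoin_t3' L

variable [CharZero L]

/-- **`F_3 = L(t₃)`**. -/
theorem ssm_f9_F3_eq : modularFunctionFieldFullC L 3 = L⟮hm3_t3 L⟯ :=
  le_antisymm (ssm_f9_F3_le_adjoin L)
    (IntermediateField.adjoin_simple_le_iff.mpr (ssm_f9_t3_mem_F3 L))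

/-- **`F_9 = L(μ)`**. -/
theorem ssm_f9_F9_eq : modularFunctionFieldFullC L 9 = L⟮hs_mu L h3⟯ :=
  (ssm_f9_K L h3).symm

/-- The level-`3` input of the Hesse cusp package. -/
theorem ssm_f9_level3 : ssm_cfh_Level3 L h3 (hm3_t3 L) where
  order := hm3_t3_order L
  rel9 := ssm_f9_rel9 L h3
  rel3 := hm3_t3_id1 L
  F3 := ssm_f9_F3_eq L
  F9 := ssm_f9_F9_eq L h3

end Inst

end Fermat.Agent.SS
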