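/-
SS [M] leaf [I1] INTEGRALITY, abstract core (Mathlib only), prefix `ssm_i1a_`.

Goal of [I1]: `z ∈ fc_chart O {x}`, i.e. `IsIntegral (Algebra.adjoin O {x}) z`, for `z = λ_q`,
`λ^q/λ_q`, … in the function field `F0` of level `N`, `O` a DVR with fraction field `L`.

* `ssm_i1a_main`: `z` integral over `L[x]` and over the valuation ring `V1 ∩ L(x)`, and
  `L[x] ∩ V1 ⊆ O[x]` (Gauss lemma) ⟹ `z` integral over `O[x]` (the minimal polynomial of `z` over
  `L(x)` has coefficients in `L[x] ∩ (V1 ∩ L(x)) = O[x]`).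
* `ssm_i1a_isIntegral_valSub`: `z ∈ V1 ⊓ V2`, `V1, V2` the only valuation subrings of `F0` over
  `V1 ∩ K`, and `V1 ∩ K` discrete with uniformiser `π` ⟹ `z` integral over `V1 ∩ K`
  (Mathlib's `iInf_valuationSubring_superset`).
* `ssm_i1a_gauss`: the Gauss lemma `L[x] ∩ V1 = O[x]` from a reduction map at which `x` is
  transcendental.
* `ssm_i1a_chart`: the three combined.
-/
import Mathlib

namespace Fermat.Agent.SS

open IntermediateField Polynomial
open scoped IntermediateField.algebraAdjoinAdjoin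

section A

variable {L F0 : Type*} [Field L] [Field F0] [Algebra L F0] (x : F0)

/-- `L[x] ⊆ F0` is a principal ideal domain, hence integrally closed. -/
theorem ssm_i1a_adjoin_isIntegrallyClosed : IsIntegrallyClosed (Algebra.adjoin L {x}) := by
  let f : L[X] →ₐ[L] Algebra.adjoin L {x} :=
    (aeval x).codRestrict (Algebra.adjoin L {x}) (fun p => aeval_mem_adjoin_singleton L x)
  have hf : Function.Surjective f := by
    rintro ⟨y, hy⟩
    rw [Algebra.adjoin_singleton_eq_range_aeval] at hy
    obtain ⟨p, rfl⟩ := hy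
    exact ⟨p, Subtype.ext rfl⟩
  have : IsPrincipalIdealRing (Algebra.adjoin L {x}) :=
    IsPrincipalIdealRing.of_surjective f.toRingHom hf
  infer_instance

/-- A root of a monic polynomial over `F0` whose coefficients lie in a subalgebra is integral over
the subalgebra. -/
theorem ssm_i1a_isIntegral_of_coeff_mem {O : Type*} [CommRing O] [Algebra O F0]
    (R : Subalgebra O F0) (P : F0[X]) (hP : P.Monic) (z : F0) (hz : eval z P = 0)
    (hc : ∀ i, P.coeff i ∈ R) : IsIntegral R z := by
  have hlift : P ∈ Polynomial.lifts (algebraMap R F0) :=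
    (Polynomial.lifts_iff_coeff_lifts P).2 fun i => ⟨⟨_, hc i⟩, rfl⟩
  obtain ⟨q, hq, -, hqm⟩ := Polynomial.lifts_and_degree_eq_and_monic hlift hP
  refine ⟨q, hqm, ?_⟩
  rw [← eval_map, hq, hz]

variable {O : Type*} [CommRing O] [Algebra O L] [Algebra O F0] [IsScalarTower O L F0]

/-- **Abstract integrality criterion.**  `z` integral over `L[x]` and over the valuation ring
`V1 ∩ L(x)`, and `L[x] ∩ V1 ⊆ O[x]` (Gauss lemma), then `z` is integral over `O[x]`. -/
theorem ssm_i1a_main (V1 : ValuationSubring F0)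
    (hG : ∀ p : L[X], aeval x p ∈ V1 → ∀ i, p.coeff i ∈ (algebraMap O L).range)
    (z : F0) (hz1 : IsIntegral (Algebra.adjoin L {x}) z)
    (hz2 : IsIntegral (V1.comap (algebraMap L⟮x⟯ F0)) z) :
    IsIntegral (Algebra.adjoin O {x}) z := by
  haveI := ssm_i1a_adjoin_isIntegrallyClosed (L := L) x
  have hK : IsIntegral L⟮x⟯ z := hz1.tower_top
  have e1 := minpoly.isIntegrallyClosed_eq_field_fractions' L⟮x⟯ hz1
  have e2 := minpoly.isIntegrallyClosed_eq_field_fractions' L⟮x⟯ hz2
  refine ssm_i1a_isIntegral_of_coeff_mem (Algebra.adjoin O {x})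
    ((minpoly L⟮x⟯ z).map (algebraMap L⟮x⟯ F0)) ((minpoly.monic hK).map _) z ?_ ?_
  · rw [eval_map_algebraMap, minpoly.aeval]
  · intro i
    rw [coeff_map]
    -- the coefficient as an element of L[x]
    have h1 : (minpoly L⟮x⟯ z).coeff i =
        algebraMap (Algebra.adjoin L {x}) L⟮x⟯ ((minpoly (Algebra.adjoin L {x}) z).coeff i) := by
      rw [e1, coeff_map]
    have h2 : (minpoly L⟮x⟯ z).coeff i = algebraMap (V1.comap (algebraMap L⟮x⟯ F0)) L⟮x⟯
        ((minpoly (V1.comap (algebraMap L⟮x⟯ F0)) z).coeff i) := by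
      rw [e2, coeff_map]
    set c1 := (minpoly (Algebra.adjoin L {x}) z).coeff i with hc1
    have hc1mem : (c1 : F0) ∈ (aeval x : L[X] →ₐ[L] F0).range := by
      rw [← Algebra.adjoin_singleton_eq_range_aeval]; exact c1.2
    obtain ⟨p, hp⟩ := hc1mem
    have hval : algebraMap L⟮x⟯ F0 ((minpoly L⟮x⟯ z).coeff i) = aeval x p := by
      rw [h1]; exact hp.symm
    have hV : aeval x p ∈ V1 := by
      rw [← hval, h2]
      exact ((minpoly (V1.comap (algebraMap L⟮x⟯ F0)) z).coeff i).2
    have hcoef := hG p hV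
    rw [hval]
    -- lift p to O[X]
    have hlift : p ∈ Polynomial.lifts (algebraMap O L) :=
      (Polynomial.lifts_iff_coeff_lifts p).2 hcoef
    obtain ⟨p', hp'⟩ := hlift
    rw [← hp', coe_mapRingHom, aeval_map_algebraMap]
    exact aeval_mem_adjoin_singleton O x

end A

section C

variable {K F0 : Type*} [Field K] [Field F0] [Algebra K F0]

/-- A valuation subring of `F0` containing the image of a subfield `K` over which `F0` is
algebraic is everything. -/
theorem ssm_i1a_mem_of_field_le [Algebra.IsAlgebraic K F0] (V : ValuationSubring F0)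
    (hV : ∀ y : K, algebraMap K F0 y ∈ V) (w : F0) : w ∈ V := by
  have hw : IsIntegral K w := Algebra.IsIntegral.isIntegral w
  let φ : K →+* V := (algebraMap K F0).codRestrict V.toSubring hV
  have hint : IsIntegral V w := by
    have := IsIntegral.map_of_comp_eq (R := K) (S := F0) (T := V) (U := F0) φ (RingHom.id F0)
      (by ext y; rfl) hw
    simpa using this
  obtain ⟨y, hy⟩ := (IsIntegrallyClosed.isIntegral_iff (R := V) (K := F0)).1 hint
  rw [← hy]
  exact y.2

/-- Integrality over the valuation ring `V1 ∩ K` from membership in all valuation subrings over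
it.  `π` generates the maximal ideal of `V1 ∩ K` and `V1 ∩ K` is archimedean (rank one). -/
theorem ssm_i1a_isIntegral_valSub [Algebra.IsAlgebraic K F0] (V1 V2 : ValuationSubring F0)
    (π : K) (hπ0 : π ≠ 0) (hπ : algebraMap K F0 π ∈ V1)
    (hgen : ∀ y : K, algebraMap K F0 y ∈ V1 → (algebraMap K F0 y)⁻¹ ∉ V1 →
      algebraMap K F0 (y * π⁻¹) ∈ V1)
    (harch : ∀ y : K, ∃ n : ℕ, algebraMap K F0 (π ^ n * y) ∈ V1)
    (hall : ∀ V : ValuationSubring F0,
      (∀ y : K, algebraMap K F0 y ∈ V ↔ algebraMap K F0 y ∈ V1) → V = V1 ∨ V = V2)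
    (z : F0) (hz1 : z ∈ V1) (hz2 : z ∈ V2) :
    IsIntegral (V1.comap (algebraMap K F0)) z := by
  classical
  set R2 := V1.comap (algebraMap K F0) with hR2
  set T : Subring F0 := (algebraMap R2 F0).range with hT
  have hTmem : ∀ y : K, algebraMap K F0 y ∈ V1 → algebraMap K F0 y ∈ T := by
    intro y hy
    exact ⟨⟨y, hy⟩, rfl⟩
  -- z lies in every valuation subring containing T
  have hzV : ∀ V : ValuationSubring F0, (T : Set F0) ⊆ V.toSubring → z ∈ V := by
    intro V hTV
    have hsub : ∀ y : K, algebraMap K F0 y ∈ V1 → algebraMap K F0 y ∈ V :=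
      fun y hy => hTV (hTmem y hy)
    by_cases hcase : ∀ y : K, algebraMap K F0 y ∈ V → algebraMap K F0 y ∈ V1
    · rcases hall V (fun y => ⟨hcase y, hsub y⟩) with h | h
      · rw [h]; exact hz1
      · rw [h]; exact hz2
    · push Not at hcase
      obtain ⟨y, hyV, hyV1⟩ := hcase
      -- π⁻¹ ∈ V
      have hπinv : algebraMap K F0 π⁻¹ ∈ V := by
        have hex := harch y
        set n := Nat.find hex with hn
        have hn1 : algebraMap K F0 (π ^ n * y) ∈ V1 := Nat.find_spec hex
        have hnpos : n ≠ 0 := by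
          intro h0
          rw [h0, pow_zero, one_mul] at hn1
          exact hyV1 hn1
        obtain ⟨m, hm⟩ := Nat.exists_eq_succ_of_ne_zero hnpos
        have hmin : algebraMap K F0 (π ^ m * y) ∉ V1 := by
          have : m < n := by omega
          exact Nat.find_min hex this
        have hy0 : y ≠ 0 := by
          rintro rfl
          rw [map_zero] at hyV1
          exact hyV1 V1.zero_mem
        set u := π ^ n * y with hu
        have hu0 : u ≠ 0 := mul_ne_zero (pow_ne_zero _ hπ0) hy0
        have huinv : (algebraMap K F0 u)⁻¹ ∈ V1 := by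
          by_contra hcon
          have := hgen u hn1 hcon
          apply hmin
          have e : u * π⁻¹ = π ^ m * y := by
            rw [hu, hm, pow_succ]
            field_simp
          rwa [e] at this
        have huinvV : algebraMap K F0 u⁻¹ ∈ V := by
          apply hsub
          rw [map_inv₀]; exact huinv
        -- π⁻¹ = π^m * y * u⁻¹
        have e : π⁻¹ = π ^ m * (y * u⁻¹) := by
          rw [hu, hm, pow_succ]
          field_simp
        rw [e, map_mul, map_mul]
        refine V.mul_mem _ _ ?_ (V.mul_mem _ _ hyV huinvV)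
        rw [map_pow]
        exact V.pow_mem (hsub π hπ) m
      have hK : ∀ w : K, algebraMap K F0 w ∈ V := by
        intro w
        obtain ⟨m, hm⟩ := harch w
        have e : w = π⁻¹ ^ m * (π ^ m * w) := by
          rw [← mul_assoc, ← mul_pow, inv_mul_cancel₀ hπ0, one_pow, one_mul]
        rw [e, map_mul, map_pow]
        exact V.mul_mem _ _ (V.pow_mem hπinv m) (hsub _ hm)
      exact ssm_i1a_mem_of_field_le V hK z
  -- hence z is integral over T
  have hzT : z ∈ (integralClosure (Subring.closure (T : Set F0)) F0).toSubring := by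
    rw [← iInf_valuationSubring_superset]
    rw [Subring.mem_iInf]
    rintro ⟨V, hV⟩
    exact hzV V hV
  rw [Subring.closure_eq] at hzT
  obtain ⟨p, hpm, hp⟩ := hzT
  let f : R2 →+* T := (algebraMap R2 F0).rangeRestrict
  have hf : Function.Surjective f := (algebraMap R2 F0).rangeRestrict_surjective
  have hlift : p ∈ Polynomial.lifts f :=
    (Polynomial.lifts_iff_coeff_lifts p).2 fun i => hf (p.coeff i)
  obtain ⟨p', hp', -, hpm'⟩ := Polynomial.lifts_and_degree_eq_and_monic hlift hpm
  refine ⟨p', hpm', ?_⟩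
  rw [← hp', eval₂_map] at hp
  exact hp

end C

section D

variable {O L F0 : Type*} [CommRing O] [IsDomain O] [IsDiscreteValuationRing O]
  [Field L] [Algebra O L] [IsFractionRing O L] [Field F0] [Algebra L F0] [Algebra O F0]
  [IsScalarTower O L F0]

/-- **Gauss lemma** (abstract): if the reduction of `x` at the valuation ring `V1 ⊇ O[x]` is
transcendental over the residue field of the DVR `O`, then `L[x] ∩ V1 = O[x]`. -/
theorem ssm_i1a_gauss (π : O) (hπ : Irreducible π) (x : F0) (V1 : ValuationSubring F0)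
    (hO : ∀ a : O, algebraMap O F0 a ∈ V1)
    {κ : Type*} [CommRing κ] (red : V1 →+* κ) (hredπ : red ⟨algebraMap O F0 π, hO π⟩ = 0)
    (htr : ∀ (p : O[X]) (h : aeval x p ∈ V1), red ⟨aeval x p, h⟩ = 0 → ∀ i, π ∣ p.coeff i)
    (p : L[X]) (hp : aeval x p ∈ V1) : ∀ i, p.coeff i ∈ (algebraMap O L).range := by
  classical
  have hπ0 : π ≠ 0 := hπ.ne_zero
  have hπL : algebraMap O L π ≠ 0 := by
    rw [Ne, IsFractionRing.to_map_eq_zero_iff]; exact hπ0
  -- Q n : π^n p has coefficients in O
  have hex : ∃ n : ℕ, ∃ p0 : O[X], p0.map (algebraMap O L) = C (algebraMap O L π) ^ n * p := by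
    obtain ⟨d, hd, hdp⟩ := IsLocalization.integerNormalization_spec (nonZeroDivisors O) p
    have hd0 : d ≠ 0 := nonZeroDivisors.ne_zero hd
    obtain ⟨n, u, hu⟩ := IsDiscreteValuationRing.eq_unit_mul_pow_irreducible hd0 hπ
    refine ⟨n, C (↑u⁻¹ : O) * IsLocalization.integerNormalization (nonZeroDivisors O) p, ?_⟩
    rw [Polynomial.map_mul, hdp, Polynomial.map_C, Algebra.smul_def,
      Polynomial.algebraMap_apply, ← mul_assoc, ← C_mul, ← C_pow]
    congr 2
    rw [hu, ← map_pow, ← map_mul]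
    congr 1
    rw [← mul_assoc, ← Units.val_mul, inv_mul_cancel, Units.val_one, one_mul]
  set n := Nat.find hex with hn
  obtain ⟨p0, hp0⟩ := Nat.find_spec hex
  rcases Nat.eq_zero_or_pos n with h0 | hpos
  · rw [← hn, h0, pow_zero, one_mul] at hp0
    intro i
    rw [← hp0, coeff_map]
    exact ⟨_, rfl⟩
  · exfalso
    obtain ⟨m, hm⟩ := Nat.exists_eq_succ_of_ne_zero hpos.ne'
    -- aeval x p0 = π^n * aeval x p
    have hπV : algebraMap O F0 π ∈ V1 := hO π
    have heq : aeval x p0 = (algebraMap O F0 π) ^ n * aeval x p := by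
      rw [← aeval_map_algebraMap L x p0, hp0, map_mul, map_pow, aeval_C,
        ← IsScalarTower.algebraMap_apply]
    have hmem : aeval x p0 ∈ V1 := by
      rw [heq]; exact V1.mul_mem _ _ (V1.pow_mem hπV n) hp
    have hred : red ⟨aeval x p0, hmem⟩ = 0 := by
      have : (⟨aeval x p0, hmem⟩ : V1) = ⟨algebraMap O F0 π, hπV⟩ ^ n * ⟨aeval x p, hp⟩ :=
        Subtype.ext heq
      rw [this, map_mul, map_pow, hredπ, hm, pow_succ, mul_zero, zero_mul]
    have hdvd : C π ∣ p0 := (C_dvd_iff_dvd_coeff π p0).2 (htr p0 hmem hred)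
    obtain ⟨p1, hp1⟩ := hdvd
    have hQ : ∃ p0 : O[X], p0.map (algebraMap O L) = C (algebraMap O L π) ^ m * p := by
      refine ⟨p1, ?_⟩
      have hC : (C (algebraMap O L π) : L[X]) ≠ 0 := by
        rw [Ne, C_eq_zero]; exact hπL
      apply mul_left_cancel₀ hC
      rw [← Polynomial.map_C (algebraMap O L), ← Polynomial.map_mul, ← hp1, hp0, ← hn, hm,
        pow_succ, Polynomial.map_C]
      ring
    have := Nat.find_min hex (m := m) (by omega)
    exact this hQ

end D

section E

variable {O L F0 : Type*} [CommRing O] [IsDomain O] [IsDiscreteValuationRing O]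
  [Field L] [Algebra O L] [IsFractionRing O L] [Field F0] [Algebra L F0] [Algebra O F0]
  [IsScalarTower O L F0]

/-- **[I1], abstract form.**  `O` a DVR with uniformiser `π` and fraction field `L`, `x ∈ F0`,
`F0 / L(x)` algebraic, `V1` a valuation subring of `F0` over `O`, discrete with uniformiser `π`
(`hgen`, `harch`), `V1, V2` the only valuation subrings of `F0` over `V1 ∩ L(x)` (`hall`), and
the reduction of `x` at `V1` transcendental over the residue field of `O` (`red`, `htr`).
Then every `z ∈ V1 ⊓ V2` which is integral over `L[x]` is integral over `O[x]`. -/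
theorem ssm_i1a_chart (π : O) (hπ : Irreducible π) (x : F0) [Algebra.IsAlgebraic L⟮x⟯ F0]
    (V1 V2 : ValuationSubring F0) (hO : ∀ a : O, algebraMap O F0 a ∈ V1)
    {κ : Type*} [CommRing κ] (red : V1 →+* κ) (hredπ : red ⟨algebraMap O F0 π, hO π⟩ = 0)
    (htr : ∀ (p : O[X]) (h : aeval x p ∈ V1), red ⟨aeval x p, h⟩ = 0 → ∀ i, π ∣ p.coeff i)
    (hgen : ∀ y : F0, y ∈ V1 → y⁻¹ ∉ V1 → y * (algebraMap O F0 π)⁻¹ ∈ V1)
    (harch : ∀ y : F0, ∃ n : ℕ, (algebraMap O F0 π) ^ n * y ∈ V1)
    (hall : ∀ V : ValuationSubring F0,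
      (∀ y : L⟮x⟯, (y : F0) ∈ V ↔ (y : F0) ∈ V1) → V = V1 ∨ V = V2)
    (z : F0) (hz1 : z ∈ V1) (hz2 : z ∈ V2) (hzL : IsIntegral (Algebra.adjoin L {x}) z) :
    IsIntegral (Algebra.adjoin O {x}) z := by
  have hπ0 : algebraMap O L π ≠ 0 := by
    rw [Ne, IsFractionRing.to_map_eq_zero_iff]; exact hπ.ne_zero
  set πK : L⟮x⟯ := algebraMap L L⟮x⟯ (algebraMap O L π) with hπK
  have hπK0 : πK ≠ 0 := by
    rw [hπK, Ne, map_eq_zero]; exact hπ0
  have hπKF : algebraMap L⟮x⟯ F0 πK = algebraMap O F0 π := by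
    rw [hπK, ← IsScalarTower.algebraMap_apply, ← IsScalarTower.algebraMap_apply]
  refine ssm_i1a_main x V1 (ssm_i1a_gauss π hπ x V1 hO red hredπ htr) z hzL ?_
  refine ssm_i1a_isIntegral_valSub V1 V2 πK hπK0 ?_ ?_ ?_ hall z hz1 hz2
  · rw [hπKF]; exact hO π
  · intro y hy hyinv
    rw [map_mul, map_inv₀, hπKF]
    exact hgen _ hy hyinv
  · intro y
    obtain ⟨n, hn⟩ := harch (algebraMap L⟮x⟯ F0 y)
    refine ⟨n, ?_⟩
    rw [map_mul, map_pow, hπKF]
    exact hn

end E

end Fermat.Agent.SS
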