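/-
SS [M] leaf [I1] INTEGRALITY (helper29), prefix `ssm_i1_`.

* `ssm_i1_mem_chart`: under the hypotheses `ssm_tp_Hyp` of [TP] for the coordinate `x`
  (helper12's TwoPrimes), `z ∈ V1 ⊓ V2` and `z` integral over `L[x]` ⟹ `z ∈ fc_chart A0 {x}`.
* `ssm_i1_pair`: for a pair `(t, tq = W t)` (`V2 = V1.comap W`) with Frobenius congruence
  `tq ≡ t^q` at `V1` and paired zeros ([CF]): `tq`, `t^q/tq`, `tq^q/t ∈ fc_chart A0 {x}`,
  `t^q/tq - 1 ∈ 𝔪(V1)`, `tq^q/t - 1 ∈ 𝔪(V2)`.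
* `ssm_i1_main`: the package `ssm_i1_Facts` for `(λ, λ_q)`: `λ_q ∈ B_λ`, `λ_q⁻¹ ∈ B_{λ⁻¹}`, and the
  ratios for `t = λ, λ - 1` (chart `{λ}`) and `t = λ⁻¹` (chart `{λ⁻¹}`), from
  `H : ssm_tp_Hyp`, `W`, Frobenius, residue characteristic `q`, and the six zero pairings of [CF]
  (`ssm_cf_CuspFacts`).
* `ssm_i1_W_chart`, `ssm_i1_W_charts`: `W(B) ⊆ B` for the three charts.
-/
import Mathlib
import Fermat.Agent.SS.Model.IntegralAbs
import Fermat.Agent.SS.Model.IntegralPlace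
import Fermat.Agent.SS.Model.TwoPrimes

set_option autoImplicit false

namespace Fermat.Agent.SS

open Polynomial IntermediateField Fermat.Agent.JT3 AlgebraicCurve
open scoped IntermediateField.algebraAdjoinAdjoin

universe v

section Chart

variable {A0 L : Type*} {F0 : Type v} [CommRing A0] [IsDomain A0] [IsDiscreteValuationRing A0]
  [Field L] [Field F0] [Algebra A0 L] [IsFractionRing A0 L] [Algebra L F0] [Algebra A0 F0]
  [IsScalarTower A0 L F0]

/-- **[I1], chart form.**  Under the hypotheses of [TP] for the coordinate `x`, an element of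
`V1 ⊓ V2` which is integral over `L[x]` lies in the chart `fc_chart A0 {x}`. -/
theorem ssm_i1_mem_chart {π : A0} (hπ : Irreducible π) {x : F0} (hx : Transcendental L x)
    [FiniteDimensional L⟮x⟯ F0] {V1 V2 : ValuationSubring F0}
    (H : ssm_tp_Hyp (algebraMap A0 (Algebra.adjoin A0 ({x} : Set F0)) π) V1 V2) {z : F0}
    (hz1 : z ∈ V1) (hz2 : z ∈ V2) (hzL : IsIntegral (Algebra.adjoin L ({x} : Set F0)) z) :
    z ∈ fc_chart A0 ({x} : Set F0) := by
  have hxA : Transcendental A0 x := fc_ff_transcendental (L := L) hx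
  haveI : IsIntegrallyClosed (Algebra.adjoin A0 ({x} : Set F0)) := fc_ff_isIntegrallyClosed hxA
  haveI : FaithfulSMul (Algebra.adjoin A0 ({x} : Set F0)) F0 :=
    (faithfulSMul_iff_algebraMap_injective _ _).2 Subtype.val_injective
  rw [fc_mem_chart]
  have hO : ∀ a : A0, algebraMap A0 F0 a ∈ V1 := fun a =>
    H.over1.le (algebraMap A0 (Algebra.adjoin A0 ({x} : Set F0)) a)
  -- the Gauss lemma from `cen`
  have hG : ∀ p : L[X], aeval x p ∈ V1 → ∀ i, p.coeff i ∈ (algebraMap A0 L).range := by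
    refine ssm_i1a_gauss π hπ x V1 hO (IsLocalRing.residue V1) ?_ ?_
    · rw [IsLocalRing.residue_eq_zero_iff, ← ValuationSubring.coe_mem_nonunits_iff]
      exact H.over1.pi_mem
    · intro p hp hres
      rw [IsLocalRing.residue_eq_zero_iff,
        ← ValuationSubring.coe_mem_nonunits_iff] at hres
      have hb : aeval x p ∈ Algebra.adjoin A0 ({x} : Set F0) := aeval_mem_adjoin_singleton A0 x
      have h1 := (H.over1.cen ⟨aeval x p, hb⟩).1 hres
      have h2 := (ssm_tp_dvd_aeval_iff hxA π p ⟨aeval x p, hb⟩ rfl).1 h1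
      exact (C_dvd_iff_dvd_coeff π p).1 h2
  refine ssm_i1a_main x V1 hG z hzL ?_
  -- integrality over `V1 ∩ L(x)` from `semilocal`
  obtain ⟨s, hs, hint⟩ := H.semilocal hz1 hz2
  set R2 := V1.comap (algebraMap L⟮x⟯ F0) with hR2
  let ψ : Algebra.adjoin A0 ({x} : Set F0) →+* L⟮x⟯ := fc_ff_incl (L := L) x
  have hψ : ∀ r, algebraMap L⟮x⟯ F0 (ψ r) = (r : F0) := fun r => rfl
  let φ : Algebra.adjoin A0 ({x} : Set F0) →+* R2 :=
    ψ.codRestrict R2.toSubring (fun r => by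
      change algebraMap L⟮x⟯ F0 (ψ r) ∈ V1
      rw [hψ]; exact H.over1.le r)
  have hφ : (algebraMap R2 F0).comp φ =
      (RingHom.id F0).comp (algebraMap (Algebra.adjoin A0 ({x} : Set F0)) F0) := by
    ext r; rfl
  have h1 : IsIntegral R2 (algebraMap (Algebra.adjoin A0 ({x} : Set F0)) F0 s * z) := by
    have := IsIntegral.map_of_comp_eq φ (RingHom.id F0) hφ hint
    simpa using this
  -- the inverse of `s` lies in `R2`
  have hsinv : (algebraMap (Algebra.adjoin A0 ({x} : Set F0)) F0 s)⁻¹ ∈ V1 := H.over1.inv_mem hs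
  have hs0 : algebraMap (Algebra.adjoin A0 ({x} : Set F0)) F0 s ≠ 0 :=
    ssm_tp_ne_zero V1 (H.over1.not_mem_nonunits hs)
  let t : R2 := ⟨(ψ s)⁻¹, by
    change algebraMap L⟮x⟯ F0 (ψ s)⁻¹ ∈ V1
    rw [map_inv₀, hψ]; exact hsinv⟩
  have ht : algebraMap R2 F0 t = (algebraMap (Algebra.adjoin A0 ({x} : Set F0)) F0 s)⁻¹ := by
    change algebraMap L⟮x⟯ F0 (ψ s)⁻¹ = _
    rw [map_inv₀, hψ]; rfl
  have h2 : IsIntegral R2 (algebraMap R2 F0 t *
      (algebraMap (Algebra.adjoin A0 ({x} : Set F0)) F0 s * z)) :=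
    IsIntegral.mul isIntegral_algebraMap h1
  rwa [ht, ← mul_assoc, inv_mul_cancel₀ hs0, one_mul] at h2

/-- nonunits of `V2 = V1.comap W`. -/
theorem ssm_i1_nonunits_comap {V1 V2 : ValuationSubring F0} (W : F0 ≃+* F0)
    (hV2 : ∀ z, z ∈ V2 ↔ W z ∈ V1) (z : F0) : z ∈ V2.nonunits ↔ W z ∈ V1.nonunits := by
  rw [ValuationSubring.mem_nonunits_iff_or, ValuationSubring.mem_nonunits_iff_or, hV2, map_inv₀,
    EmbeddingLike.map_eq_zero_iff]

/-- regularity of `a - 1` where `a` is regular. -/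
theorem ssm_i1_ord_sub_one_nonneg (c : Place L F0) {a : F0} (h : 0 ≤ c.ord a) :
    0 ≤ c.ord (a - 1) := by
  rcases eq_or_ne (a - 1) 0 with h0 | h0
  · rw [h0, Place.ord_zero]
  · have ha : a ∈ c.toValuationSubring := by
      rcases eq_or_ne a 0 with rfl | ha0
      · exact c.toValuationSubring.zero_mem
      · exact (Fermat.Agent.S24.hw_mem_iff_ord_nonneg c ha0).2 h
    exact (Fermat.Agent.S24.hw_mem_iff_ord_nonneg c h0).1
      (sub_mem ha c.toValuationSubring.one_mem)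

/-- **[I1], pair form.**  `x` the chart coordinate, `(t, tq)` a pair swapped by the involution `W`
(`V2 = V1.comap W`), `t` a unit of `V1`, `tq ≡ t^q` modulo `𝔪(V1)` (Frobenius), zeros of `t`, `tq`
paired both ways, `t` and `tq` regular wherever `x` is.  Then `tq`, `w = t^q/tq`, `w' = tq^q/t` lie
in the chart `fc_chart A0 {x}`, `w - 1 ∈ 𝔪(V1)` and `w' - 1 ∈ 𝔪(V2)`. -/
theorem ssm_i1_pair [CharZero L] {π : A0} (hπ : Irreducible π) {x : F0}
    (hx : Transcendental L x) [FiniteDimensional L⟮x⟯ F0] {V1 V2 : ValuationSubring F0}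
    (H : ssm_tp_Hyp (algebraMap A0 (Algebra.adjoin A0 ({x} : Set F0)) π) V1 V2)
    (W : F0 ≃+* F0) (hV2 : ∀ z, z ∈ V2 ↔ W z ∈ V1) (q : ℕ) {t tq : F0}
    (hWt : W t = tq) (hWtq : W tq = t) (ht1 : t ∈ V1) (ht1' : t ∉ V1.nonunits)
    (hfrob : tq - t ^ q ∈ V1.nonunits)
    (hZ : ssm_cf_ZeroPair L q t tq) (hZ' : ssm_cf_ZeroPair L q tq t)
    (hreg : ∀ c : Place L F0, 0 ≤ c.ord x → 0 ≤ c.ord t)
    (hregq : ∀ c : Place L F0, 0 ≤ c.ord x → 0 ≤ c.ord tq) :
    tq ∈ fc_chart A0 ({x} : Set F0) ∧ t ^ q / tq ∈ fc_chart A0 ({x} : Set F0) ∧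
      tq ^ q / t ∈ fc_chart A0 ({x} : Set F0) ∧ t ^ q / tq - 1 ∈ V1.nonunits ∧
      tq ^ q / t - 1 ∈ V2.nonunits := by
  have htq1 : tq ∈ V1 := by
    have : tq = t ^ q + (tq - t ^ q) := by ring
    rw [this]
    exact V1.add_mem _ _ (V1.pow_mem ht1 q) (V1.nonunits_subset hfrob)
  have htq1' : tq ∉ V1.nonunits := by
    intro h
    apply ssm_tp_pow_not_mem V1 ht1' q
    have : t ^ q = tq + -(tq - t ^ q) := by ring
    rw [this]
    exact ssm_tp_nonunits_add V1 h (ssm_tp_nonunits_neg V1 hfrob)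
  have ht0 : t ≠ 0 := ssm_tp_ne_zero V1 ht1'
  have htq0 : tq ≠ 0 := ssm_tp_ne_zero V1 htq1'
  have htinv : t⁻¹ ∈ V1 := ssm_tp_inv_mem V1 ht1'
  have htqinv : tq⁻¹ ∈ V1 := ssm_tp_inv_mem V1 htq1'
  have hw1 : t ^ q / tq ∈ V1 := by
    rw [div_eq_mul_inv]; exact V1.mul_mem _ _ (V1.pow_mem ht1 q) htqinv
  have hw1' : tq ^ q / t ∈ V1 := by
    rw [div_eq_mul_inv]; exact V1.mul_mem _ _ (V1.pow_mem htq1 q) htinv
  have hWw : W (t ^ q / tq) = tq ^ q / t := by rw [map_div₀, map_pow, hWt, hWtq]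
  have hWw' : W (tq ^ q / t) = t ^ q / tq := by rw [map_div₀, map_pow, hWt, hWtq]
  have hw2 : t ^ q / tq ∈ V2 := by rw [hV2, hWw]; exact hw1'
  have hw2' : tq ^ q / t ∈ V2 := by rw [hV2, hWw']; exact hw1
  have hint := ssm_i1p_isIntegral_ratio x q ht0 htq0 hZ hZ' hreg hregq
  have hsub : t ^ q / tq - 1 ∈ V1.nonunits := by
    have : t ^ q / tq - 1 = -(tq - t ^ q) * tq⁻¹ := by
      field_simp
      ring
    rw [this]
    exact ssm_tp_nonunits_mul V1 (ssm_tp_nonunits_neg V1 hfrob) htqinv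
  refine ⟨ssm_i1_mem_chart hπ hx H htq1 ?_ (ssm_i1p_isIntegral_of_ord x tq hregq),
    ssm_i1_mem_chart hπ hx H hw1 hw2 hint.1, ssm_i1_mem_chart hπ hx H hw1' hw2' hint.2, hsub, ?_⟩
  · rw [hV2, hWtq]; exact ht1
  · rw [ssm_i1_nonunits_comap W hV2, map_sub, map_one, hWw']
    exact hsub

/-- the output of [I1] for the pair `(λ, λ_q)`. -/
structure ssm_i1_Facts (A0 : Type*) [CommRing A0] {F0 : Type v} [Field F0] [Algebra A0 F0]
    (q : ℕ) (lam lamq : F0) (V1 V2 : ValuationSubring F0) : Prop where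
  lamq_mem : lamq ∈ fc_chart A0 ({lam} : Set F0)
  lamq_inv_mem : lamq⁻¹ ∈ fc_chart A0 ({lam⁻¹} : Set F0)
  w0 : lam ^ q / lamq ∈ fc_chart A0 ({lam} : Set F0)
  w0' : lamq ^ q / lam ∈ fc_chart A0 ({lam} : Set F0)
  w0_sub : lam ^ q / lamq - 1 ∈ V1.nonunits
  w0'_sub : lamq ^ q / lam - 1 ∈ V2.nonunits
  w1 : (lam - 1) ^ q / (lamq - 1) ∈ fc_chart A0 ({lam} : Set F0)
  w1' : (lamq - 1) ^ q / (lam - 1) ∈ fc_chart A0 ({lam} : Set F0)
  w1_sub : (lam - 1) ^ q / (lamq - 1) - 1 ∈ V1.nonunits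
  w1'_sub : (lamq - 1) ^ q / (lam - 1) - 1 ∈ V2.nonunits
  winf : lam⁻¹ ^ q / lamq⁻¹ ∈ fc_chart A0 ({lam⁻¹} : Set F0)
  winf' : lamq⁻¹ ^ q / lam⁻¹ ∈ fc_chart A0 ({lam⁻¹} : Set F0)
  winf_sub : lam⁻¹ ^ q / lamq⁻¹ - 1 ∈ V1.nonunits
  winf'_sub : lamq⁻¹ ^ q / lam⁻¹ - 1 ∈ V2.nonunits

/-- In characteristic `q` residue field: `a ≡ b^q ⟹ a - 1 ≡ (b - 1)^q` modulo `𝔪(V)`. -/
theorem ssm_i1_frob_sub_one (V : ValuationSubring F0) {q : ℕ} (hq : q.Prime)
    (hqV : (q : F0) ∈ V.nonunits) {a b : F0} (ha : a ∈ V) (hb : b ∈ V)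
    (h : a - b ^ q ∈ V.nonunits) : (a - 1) - (b - 1) ^ q ∈ V.nonunits := by
  have : Fact q.Prime := ⟨hq⟩
  set κ := IsLocalRing.ResidueField V
  have hchar : ((q : ℕ) : κ) = 0 := by
    have h1 : (⟨(q : F0), V.nonunits_subset hqV⟩ : V) ∈ IsLocalRing.maximalIdeal V :=
      ValuationSubring.coe_mem_nonunits_iff.1 hqV
    have h2 : IsLocalRing.residue V ⟨(q : F0), V.nonunits_subset hqV⟩ = 0 :=
      (IsLocalRing.residue_eq_zero_iff _).2 h1
    have h3 : (⟨(q : F0), V.nonunits_subset hqV⟩ : V) = ((q : ℕ) : V) := Subtype.ext (by simp)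
    rw [h3, map_natCast] at h2
    exact h2
  have : CharP κ q := by
    have h1 : ringChar κ ∣ q := ringChar.dvd hchar
    have h2 : ringChar κ = q := by
      rcases (Nat.dvd_prime hq).1 h1 with h | h
      · exact absurd h (CharP.ringChar_ne_one)
      · exact h
    rw [← h2]; exact ringChar.charP κ
  -- work in the residue field
  have key : IsLocalRing.residue V (⟨a, ha⟩ - 1 - (⟨b, hb⟩ - 1) ^ q) = 0 := by
    have h0 : IsLocalRing.residue V (⟨a, ha⟩ - ⟨b, hb⟩ ^ q) = 0 := by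
      rw [IsLocalRing.residue_eq_zero_iff, ← ValuationSubring.coe_mem_nonunits_iff]
      exact h
    rw [map_sub, map_pow] at h0
    rw [map_sub, map_sub, map_pow, map_sub, map_one, sub_pow_char, one_pow]
    rw [sub_eq_zero] at h0
    rw [h0]; ring
  rw [IsLocalRing.residue_eq_zero_iff, ← ValuationSubring.coe_mem_nonunits_iff] at key
  exact key

omit [IsDiscreteValuationRing A0] in
/-- `π` does not divide a monic-linear element `x - c` (or `x`) of `A0[x]`: such elements are units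
of every valuation ring over the Gauss ring. -/
theorem ssm_i1_linear_not_mem {π : A0} (hπ : Irreducible π) {x : F0} (hxA : Transcendental A0 x)
    {V : ValuationSubring F0}
    (hV : ssm_tp_Over (algebraMap A0 (Algebra.adjoin A0 ({x} : Set F0)) π) V) (c : A0) :
    x - algebraMap A0 F0 c ∈ V ∧ x - algebraMap A0 F0 c ∉ V.nonunits := by
  have hb : aeval x (X - C c : A0[X]) ∈ Algebra.adjoin A0 ({x} : Set F0) :=
    aeval_mem_adjoin_singleton A0 x
  have he : aeval x (X - C c : A0[X]) = x - algebraMap A0 F0 c := by simp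
  constructor
  · rw [← he]; exact hV.le ⟨_, hb⟩
  · intro hm
    rw [← he] at hm
    have h1 := (hV.cen ⟨_, hb⟩).1 hm
    have h2 := (ssm_tp_dvd_aeval_iff hxA π (X - C c) ⟨_, hb⟩ rfl).1 h1
    have h3 := (C_dvd_iff_dvd_coeff π _).1 h2 1
    rw [coeff_sub, coeff_X_one, coeff_C_succ, sub_zero] at h3
    exact hπ.not_isUnit (isUnit_of_dvd_one h3)

/-- **[I1] for the pair `(λ, λ_q)`**: `lam` the Legendre coordinate, `lamq = W lam`, `V2 = V1.comap W`,
the hypotheses of [TP] for the coordinate `lam`, the Frobenius congruence `lamq ≡ lam^q` at `V1`,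
residue characteristic `q`, and the cusp facts [CF].  Then `lamq` and the ratios
`t^q/tq`, `tq^q/t` for `t ∈ {λ, λ - 1}` lie in the chart `{λ}`, those for `t = λ⁻¹` in the chart
`{λ⁻¹}`, and they are `≡ 1` at `V1`, resp. `V2`. -/
theorem ssm_i1_main [CharZero L] {π : A0} (hπ : Irreducible π) {lam lamq : F0}
    (hx : Transcendental L lam) [FiniteDimensional L⟮lam⟯ F0] {V1 V2 : ValuationSubring F0}
    (H : ssm_tp_Hyp (algebraMap A0 (Algebra.adjoin A0 ({lam} : Set F0)) π) V1 V2)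
    (W : F0 ≃+* F0) (hV2 : ∀ z, z ∈ V2 ↔ W z ∈ V1) (hWlam : W lam = lamq)
    (hWlamq : W lamq = lam) {q : ℕ} (hq : q.Prime) (hqV : (q : F0) ∈ V1.nonunits)
    (hfrob : lamq - lam ^ q ∈ V1.nonunits)
    (zero : ssm_cf_ZeroPair L q lam lamq) (zero' : ssm_cf_ZeroPair L q lamq lam)
    (one : ssm_cf_ZeroPair L q (lam - 1) (lamq - 1))
    (one' : ssm_cf_ZeroPair L q (lamq - 1) (lam - 1))
    (inf : ssm_cf_ZeroPair L q lam⁻¹ lamq⁻¹) (inf' : ssm_cf_ZeroPair L q lamq⁻¹ lam⁻¹) :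
    ssm_i1_Facts A0 q lam lamq V1 V2 := by
  have hxA : Transcendental A0 lam := fc_ff_transcendental (L := L) hx
  have hxi : Transcendental L lam⁻¹ := fun h => hx (IsAlgebraic.inv_iff.mp h)
  haveI hfd2 : FiniteDimensional L⟮lam⁻¹⟯ F0 := by
    rw [rt_adjoin_inv]; infer_instance
  have H' := ssm_tp_ff_hyp_inv (L := L) hπ hx H
  -- units of `V1`
  have hl := ssm_i1_linear_not_mem hπ hxA H.over1 0
  rw [map_zero, sub_zero] at hl
  have hl1 := ssm_i1_linear_not_mem hπ hxA H.over1 1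
  rw [map_one] at hl1
  have hlq1 : lamq ∈ V1 := by
    have : lamq = lam ^ q + (lamq - lam ^ q) := by ring
    rw [this]
    exact V1.add_mem _ _ (V1.pow_mem hl.1 q) (V1.nonunits_subset hfrob)
  have hlq1' : lamq ∉ V1.nonunits := by
    intro h
    apply ssm_tp_pow_not_mem V1 hl.2 q
    have : lam ^ q = lamq + -(lamq - lam ^ q) := by ring
    rw [this]
    exact ssm_tp_nonunits_add V1 h (ssm_tp_nonunits_neg V1 hfrob)
  have hl0 : lam ≠ 0 := ssm_tp_ne_zero V1 hl.2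
  have hlq0 : lamq ≠ 0 := ssm_tp_ne_zero V1 hlq1'
  have hlinv : lam⁻¹ ∈ V1 := ssm_tp_inv_mem V1 hl.2
  have hlqinv : lamq⁻¹ ∈ V1 := ssm_tp_inv_mem V1 hlq1'
  have hlinv' : lam⁻¹ ∉ V1.nonunits := by
    intro h
    have := ssm_tp_nonunits_mul V1 h hl.1
    rw [inv_mul_cancel₀ hl0] at this
    exact ssm_tp_one_not_mem_nonunits V1 this
  -- regularity
  have hregq : ∀ c : Place L F0, 0 ≤ c.ord lam → 0 ≤ c.ord lamq := fun c hc =>
    ssm_i1p_nonneg_of_inv_pair c q inf' hc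
  have hregqi : ∀ c : Place L F0, 0 ≤ c.ord lam⁻¹ → 0 ≤ c.ord lamq⁻¹ := by
    intro c hc
    rw [Place.ord_inv] at hc ⊢
    by_contra hneg
    push Not at hneg
    have := (zero' c (by omega)).1
    omega
  -- the three pairs
  have P0 := ssm_i1_pair hπ hx H W hV2 q hWlam hWlamq hl.1 hl.2 hfrob zero zero'
    (fun c hc => hc) hregq
  have P1 := ssm_i1_pair hπ hx H W hV2 q (t := lam - 1) (tq := lamq - 1)
    (by rw [map_sub, map_one, hWlam]) (by rw [map_sub, map_one, hWlamq]) hl1.1 hl1.2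
    (ssm_i1_frob_sub_one V1 hq hqV hlq1 hl.1 hfrob) one one'
    (fun c hc => ssm_i1_ord_sub_one_nonneg c hc)
    (fun c hc => ssm_i1_ord_sub_one_nonneg c (hregq c hc))
  have hfrobinf : lamq⁻¹ - lam⁻¹ ^ q ∈ V1.nonunits := by
    have : lamq⁻¹ - lam⁻¹ ^ q = -(lamq - lam ^ q) * (lamq⁻¹ * lam⁻¹ ^ q) := by
      have h1 : lam ^ q * lam⁻¹ ^ q = 1 := by rw [← mul_pow, mul_inv_cancel₀ hl0, one_pow]
      have h2 : lamq * lamq⁻¹ = 1 := mul_inv_cancel₀ hlq0
      calc lamq⁻¹ - lam⁻¹ ^ q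
          = (lam ^ q * lam⁻¹ ^ q) * lamq⁻¹ - (lamq * lamq⁻¹) * lam⁻¹ ^ q := by
            rw [h1, h2, one_mul, one_mul]
        _ = -(lamq - lam ^ q) * (lamq⁻¹ * lam⁻¹ ^ q) := by ring
    rw [this]
    exact ssm_tp_nonunits_mul V1 (ssm_tp_nonunits_neg V1 hfrob)
      (V1.mul_mem _ _ hlqinv (V1.pow_mem hlinv q))
  have Pinf := ssm_i1_pair hπ hxi H' W hV2 q (t := lam⁻¹) (tq := lamq⁻¹)
    (by rw [map_inv₀, hWlam]) (by rw [map_inv₀, hWlamq]) hlinv hlinv' hfrobinf inf inf'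
    (fun c hc => hc) hregqi
  exact ⟨P0.1, Pinf.1, P0.2.1, P0.2.2.1, P0.2.2.2.1, P0.2.2.2.2, P1.2.1, P1.2.2.1, P1.2.2.2.1,
    P1.2.2.2.2, Pinf.2.1, Pinf.2.2.1, Pinf.2.2.2.1, Pinf.2.2.2.2⟩

end Chart

section WChart

variable {A0 : Type*} {F0 : Type v} [CommRing A0] [Field F0] [Algebra A0 F0]

/-- **`W` preserves a chart** as soon as it maps the coordinates into it (and fixes `A0`). -/
theorem ssm_i1_W_chart (W : F0 ≃+* F0) (hWA : ∀ a : A0, W (algebraMap A0 F0 a) = algebraMap A0 F0 a)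
    (S : Set F0) (hS : ∀ s ∈ S, W s ∈ fc_chart A0 S) {b : F0} (hb : b ∈ fc_chart A0 S) :
    W b ∈ fc_chart A0 S := by
  have hR : ∀ r ∈ Algebra.adjoin A0 S, W r ∈ fc_chart A0 S := by
    intro r hr
    induction hr using Algebra.adjoin_induction with
    | mem y hy => exact hS y hy
    | algebraMap a => rw [hWA]; exact (fc_chart A0 S).algebraMap_mem a
    | add y z _ _ hy hz => rw [map_add]; exact (fc_chart A0 S).add_mem hy hz
    | mul y z _ _ hy hz => rw [map_mul]; exact (fc_chart A0 S).mul_mem hy hz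
  let φ : Algebra.adjoin A0 S →+* integralClosure (Algebra.adjoin A0 S) F0 :=
    ((W : F0 →+* F0).comp (algebraMap (Algebra.adjoin A0 S) F0)).codRestrict
      (integralClosure (Algebra.adjoin A0 S) F0).toSubring (fun r => hR r r.2)
  have hφ : (algebraMap (integralClosure (Algebra.adjoin A0 S) F0) F0).comp φ =
      (W : F0 →+* F0).comp (algebraMap (Algebra.adjoin A0 S) F0) := by
    ext r; rfl
  rw [fc_mem_chart] at hb ⊢
  have h1 : IsIntegral (integralClosure (Algebra.adjoin A0 S) F0) (W b) :=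
    IsIntegral.map_of_comp_eq φ (W : F0 →+* F0) hφ hb
  exact isIntegral_trans _ h1

/-- `W` preserves the three charts `{λ}`, `{λ⁻¹}`, `{λ, λ⁻¹}`. -/
theorem ssm_i1_W_charts (W : F0 ≃+* F0)
    (hWA : ∀ a : A0, W (algebraMap A0 F0 a) = algebraMap A0 F0 a) {q : ℕ} {lam lamq : F0}
    {V1 V2 : ValuationSubring F0} (hWlam : W lam = lamq)
    (F : ssm_i1_Facts A0 q lam lamq V1 V2) :
    (∀ b ∈ fc_chart A0 ({lam} : Set F0), W b ∈ fc_chart A0 ({lam} : Set F0)) ∧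
    (∀ b ∈ fc_chart A0 ({lam⁻¹} : Set F0), W b ∈ fc_chart A0 ({lam⁻¹} : Set F0)) ∧
    (∀ b ∈ fc_chart A0 ({lam, lam⁻¹} : Set F0), W b ∈ fc_chart A0 ({lam, lam⁻¹} : Set F0)) := by
  refine ⟨fun b hb => ssm_i1_W_chart W hWA _ ?_ hb, fun b hb => ssm_i1_W_chart W hWA _ ?_ hb,
    fun b hb => ssm_i1_W_chart W hWA _ ?_ hb⟩
  · intro s hs
    rw [Set.mem_singleton_iff.1 hs, hWlam]
    exact F.lamq_mem
  · intro s hs
    rw [Set.mem_singleton_iff.1 hs, map_inv₀, hWlam]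
    exact F.lamq_inv_mem
  · intro s hs
    rcases hs with rfl | hs
    · rw [hWlam]
      exact fc_chart1_le _ F.lamq_mem
    · rw [Set.mem_singleton_iff.1 hs, map_inv₀, hWlam]
      exact fc_chart2_le _ F.lamq_inv_mem

end WChart

end Fermat.Agent.SS
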