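/-
SS [M] leaf [I1], GENERAL FORM (helper29), prefix `ssm_i1g_`: the integrality package with the
middle pair `(t, tq)` ABSTRACT.  Covers

* Legendre (`q` odd): `x = λ`, `t = λ - 1` (this is `ssm_i1_main`);
* Hesse, option M (`q = 2`): `x = μ - 1`, `t = x² + 3x + 3 = μ² + μ + 1` (cusps `1; ω, ω²; ∞`);
* Hesse, coordinate `μ`, chart `{μ}` only: `ssm_i1g_coord` + `ssm_i1_pair` with `t = μ³ - 1`
  (the chart `{μ⁻¹}` is NOT `W`-stable: `μ = 0` is not a cusp).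

Contents:
* `ssm_i1g_expand_sub_pow` : `p(X^q) - p(X)^q ∈ q ℤ[X]`.
* `ssm_i1g_frob_poly`      : `a ≡ b^q ⟹ p(a) ≡ p(b)^q` modulo `𝔪(V) ∋ q`, `p ∈ ℤ[X]`.
* `ssm_i1g_poly_not_mem`   : `p(x)` is a unit of every valuation ring over the Gauss ring of
  `A0[x]` when `π ∤ p`.
* `ssm_i1g_ord_aeval_nonneg` : `p(x)` (`p ∈ ℤ[X]`) is regular wherever `x` is.
* `ssm_i1g_coord`          : from the POLE pairing of `(x, x_q)` alone: `x_q ∈ fc_chart A0 {x}`
  (so the chart `{x}` is `W`-stable), and `x_q` is regular wherever `x` is.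
* `ssm_i1g_Facts`, `ssm_i1g_main` : the full package (Legendre shape, middle pair abstract).
* `ssm_i1g_W_charts`       : `W` preserves the three charts.
-/
import Mathlib
import Fermat.Agent.SS.Model.Integral

set_option autoImplicit false

namespace Fermat.Agent.SS

open Polynomial IntermediateField Fermat.Agent.JT3 AlgebraicCurve
open scoped IntermediateField.algebraAdjoinAdjoin

universe v

section Poly

/-- `p(X^q) - p(X)^q ∈ q ℤ[X]` for `q` prime. -/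
theorem ssm_i1g_expand_sub_pow {q : ℕ} (hq : q.Prime) (p : ℤ[X]) :
    ∃ r : ℤ[X], expand ℤ q p - p ^ q = C (q : ℤ) * r := by
  have : Fact q.Prime := ⟨hq⟩
  have h0 : (expand ℤ q p - p ^ q).map (Int.castRingHom (ZMod q)) = 0 := by
    rw [Polynomial.map_sub, map_expand, Polynomial.map_pow, ZMod.expand_card, sub_self]
  have : C (q : ℤ) ∣ expand ℤ q p - p ^ q := by
    rw [C_dvd_iff_dvd_coeff]
    intro n
    have h1 := congrArg (fun f => f.coeff n) h0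
    simp only [coeff_map, coeff_zero, eq_intCast] at h1
    exact (ZMod.intCast_zmod_eq_zero_iff_dvd _ q).1 h1
  exact this

variable {F0 : Type v} [Field F0]

/-- `a ≡ b^q ⟹ p(a) ≡ p(b)^q` modulo `𝔪(V) ∋ q`, for `p ∈ ℤ[X]`. -/
theorem ssm_i1g_frob_poly (V : ValuationSubring F0) {q : ℕ} (hq : q.Prime)
    (hqV : (q : F0) ∈ V.nonunits) {a b : F0} (ha : a ∈ V) (hb : b ∈ V)
    (h : a - b ^ q ∈ V.nonunits) (p : ℤ[X]) :
    aeval a p - (aeval b p) ^ q ∈ V.nonunits := by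
  have hcoe : ∀ (c : F0) (hc : c ∈ V) (f : ℤ[X]),
      ((aeval (⟨c, hc⟩ : V) f : V) : F0) = aeval c f := fun c hc f =>
    (Polynomial.aeval_algHom_apply (V.subtype.toIntAlgHom) (⟨c, hc⟩ : V) f).symm
  have hmemV : ∀ (c : F0), c ∈ V → ∀ f : ℤ[X], aeval c f ∈ V := by
    intro c hc f
    rw [← hcoe c hc f]
    exact Subtype.coe_prop _
  obtain ⟨r, hr⟩ := ssm_i1g_expand_sub_pow hq p
  -- first part: `p(a) - p(b^q) ∈ (a - b^q) V`
  have h1 : aeval a p - aeval (b ^ q) p ∈ V.nonunits := by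
    have hbq : b ^ q ∈ V := V.pow_mem hb q
    have hev : ∀ v : V, eval v (p.map (Int.castRingHom V)) = aeval v p := fun v => by
      rw [eval_map, aeval_def, algebraMap_int_eq]
    obtain ⟨c, hc⟩ :=
      Polynomial.sub_dvd_eval_sub (⟨a, ha⟩ : V) ⟨b ^ q, hbq⟩ (p.map (Int.castRingHom V))
    rw [hev, hev] at hc
    have hc' := congrArg (fun z : V => (z : F0)) hc
    have e3 : aeval a p - aeval (b ^ q) p = (a - b ^ q) * (c : F0) := by
      rw [← hcoe a ha p, ← hcoe (b ^ q) hbq p]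
      exact hc'
    rw [e3]
    exact ssm_tp_nonunits_mul V h c.2
  -- second part: `p(b^q) - p(b)^q ∈ q V`
  have h2 : aeval (b ^ q) p - (aeval b p) ^ q ∈ V.nonunits := by
    have e : aeval (b ^ q) p - (aeval b p) ^ q = (q : F0) * aeval b r := by
      have := congrArg (aeval b) hr
      rw [map_sub, expand_aeval, map_pow, map_mul, aeval_C] at this
      rw [this]
      simp
    rw [e]
    exact ssm_tp_nonunits_mul V hqV (hmemV b hb r)
  have e : aeval a p - (aeval b p) ^ q =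
      (aeval a p - aeval (b ^ q) p) + (aeval (b ^ q) p - (aeval b p) ^ q) := by ring
  rw [e]
  exact ssm_tp_nonunits_add V h1 h2

end Poly

section Chart

variable {A0 L : Type*} {F0 : Type v} [CommRing A0] [IsDomain A0] [IsDiscreteValuationRing A0]
  [Field L] [Field F0] [Algebra A0 L] [IsFractionRing A0 L] [Algebra L F0] [Algebra A0 F0]
  [IsScalarTower A0 L F0]

omit [IsDiscreteValuationRing A0] in
/-- A polynomial expression `p(x)`, `π ∤ p`, is a unit of every valuation ring over the Gauss ring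
of `A0[x]`. -/
theorem ssm_i1g_poly_not_mem {π : A0} {x : F0} (hxA : Transcendental A0 x)
    {V : ValuationSubring F0}
    (hV : ssm_tp_Over (algebraMap A0 (Algebra.adjoin A0 ({x} : Set F0)) π) V) (p : A0[X])
    (hp : ¬ C π ∣ p) : aeval x p ∈ V ∧ aeval x p ∉ V.nonunits := by
  have hb : aeval x p ∈ Algebra.adjoin A0 ({x} : Set F0) := aeval_mem_adjoin_singleton A0 x
  constructor
  · exact hV.le ⟨_, hb⟩
  · intro hm
    have h1 := (hV.cen ⟨_, hb⟩).1 hm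
    exact hp ((ssm_tp_dvd_aeval_iff hxA π p ⟨_, hb⟩ rfl).1 h1)

omit [IsDiscreteValuationRing A0] in
/-- the same for `p ∈ ℤ[X]` monic. -/
theorem ssm_i1g_monic_int_not_mem {π : A0} (hπ : Irreducible π) {x : F0}
    (hxA : Transcendental A0 x) {V : ValuationSubring F0}
    (hV : ssm_tp_Over (algebraMap A0 (Algebra.adjoin A0 ({x} : Set F0)) π) V) (p : ℤ[X])
    (hp : p.Monic) : aeval x p ∈ V ∧ aeval x p ∉ V.nonunits := by
  have hmon : (p.map (Int.castRingHom A0)).Monic := hp.map _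
  have h := ssm_i1g_poly_not_mem hxA hV (p.map (Int.castRingHom A0)) (by
    intro hd
    have h3 := (C_dvd_iff_dvd_coeff π _).1 hd (p.map (Int.castRingHom A0)).natDegree
    rw [coeff_natDegree, hmon.leadingCoeff] at h3
    exact hπ.not_isUnit (isUnit_of_dvd_one h3))
  have e : aeval x (p.map (Int.castRingHom A0)) = aeval x p := by
    rw [aeval_def, eval₂_map, aeval_def]
    congr 1
    exact RingHom.ext_int _ _
  rwa [e] at h

omit [IsDomain A0] [IsDiscreteValuationRing A0] [IsFractionRing A0 L] [Algebra A0 L]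
  [Algebra A0 F0] [IsScalarTower A0 L F0] in
/-- `p(x)`, `p ∈ ℤ[X]`, is regular wherever `x` is. -/
theorem ssm_i1g_ord_aeval_nonneg (c : Place L F0) {x : F0} (h : 0 ≤ c.ord x) (p : ℤ[X]) :
    0 ≤ c.ord (aeval x p) := by
  have hx : x ∈ c.toValuationSubring := by
    rcases eq_or_ne x 0 with rfl | hx0
    · exact c.toValuationSubring.zero_mem
    · exact (Fermat.Agent.S24.hw_mem_iff_ord_nonneg c hx0).2 h
  have hm : aeval x p ∈ c.toValuationSubring := by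
    have : aeval x p = ((aeval (⟨x, hx⟩ : c.toValuationSubring) p : c.toValuationSubring) : F0) :=
      Polynomial.aeval_algHom_apply (c.toValuationSubring.subtype.toIntAlgHom)
        (⟨x, hx⟩ : c.toValuationSubring) p
    rw [this]
    exact Subtype.coe_prop _
  rcases eq_or_ne (aeval x p) 0 with h0 | h0
  · rw [h0, Place.ord_zero]
  · exact (Fermat.Agent.S24.hw_mem_iff_ord_nonneg c h0).1 hm

/-- **The coordinate alone**: from the POLE pairing of `(x, x_q)` (`x_q = W x`, Frobenius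
`x_q ≡ x^q` at `V1`), `x_q` is regular wherever `x` is and `x_q ∈ fc_chart A0 {x}`; `x`, `x_q` are
units of `V1`. -/
theorem ssm_i1g_coord [CharZero L] {π : A0} (hπ : Irreducible π) {x xq : F0}
    (hx : Transcendental L x) [FiniteDimensional L⟮x⟯ F0] {V1 V2 : ValuationSubring F0}
    (H : ssm_tp_Hyp (algebraMap A0 (Algebra.adjoin A0 ({x} : Set F0)) π) V1 V2)
    (W : F0 ≃+* F0) (hV2 : ∀ z, z ∈ V2 ↔ W z ∈ V1) (hWxq : W xq = x) (q : ℕ)
    (hfrob : xq - x ^ q ∈ V1.nonunits) (inf' : ssm_cf_ZeroPair L q xq⁻¹ x⁻¹) :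
    (∀ c : Place L F0, 0 ≤ c.ord x → 0 ≤ c.ord xq) ∧ xq ∈ fc_chart A0 ({x} : Set F0) ∧
      (x ∈ V1 ∧ x ∉ V1.nonunits) ∧ (xq ∈ V1 ∧ xq ∉ V1.nonunits) := by
  have hxA : Transcendental A0 x := fc_ff_transcendental (L := L) hx
  have hl := ssm_i1_linear_not_mem hπ hxA H.over1 0
  rw [map_zero, sub_zero] at hl
  have hlq1 : xq ∈ V1 := by
    have : xq = x ^ q + (xq - x ^ q) := by ring
    rw [this]
    exact V1.add_mem _ _ (V1.pow_mem hl.1 q) (V1.nonunits_subset hfrob)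
  have hlq1' : xq ∉ V1.nonunits := by
    intro h
    apply ssm_tp_pow_not_mem V1 hl.2 q
    have : x ^ q = xq + -(xq - x ^ q) := by ring
    rw [this]
    exact ssm_tp_nonunits_add V1 h (ssm_tp_nonunits_neg V1 hfrob)
  have hregq : ∀ c : Place L F0, 0 ≤ c.ord x → 0 ≤ c.ord xq := fun c hc =>
    ssm_i1p_nonneg_of_inv_pair c q inf' hc
  refine ⟨hregq, ?_, hl, hlq1, hlq1'⟩
  refine ssm_i1_mem_chart hπ hx H hlq1 ?_ (ssm_i1p_isIntegral_of_ord x xq hregq)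
  rw [hV2, hWxq]; exact hl.1

/-- the output of [I1], general form: coordinate pair `(x, x_q)`, middle pair `(t, t_q)`. -/
structure ssm_i1g_Facts (A0 : Type*) [CommRing A0] {F0 : Type v} [Field F0] [Algebra A0 F0]
    (q : ℕ) (x xq t tq : F0) (V1 V2 : ValuationSubring F0) : Prop where
  xq_mem : xq ∈ fc_chart A0 ({x} : Set F0)
  xq_inv_mem : xq⁻¹ ∈ fc_chart A0 ({x⁻¹} : Set F0)
  tq_mem : tq ∈ fc_chart A0 ({x} : Set F0)
  w0 : x ^ q / xq ∈ fc_chart A0 ({x} : Set F0)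
  w0' : xq ^ q / x ∈ fc_chart A0 ({x} : Set F0)
  w0_sub : x ^ q / xq - 1 ∈ V1.nonunits
  w0'_sub : xq ^ q / x - 1 ∈ V2.nonunits
  w1 : t ^ q / tq ∈ fc_chart A0 ({x} : Set F0)
  w1' : tq ^ q / t ∈ fc_chart A0 ({x} : Set F0)
  w1_sub : t ^ q / tq - 1 ∈ V1.nonunits
  w1'_sub : tq ^ q / t - 1 ∈ V2.nonunits
  winf : x⁻¹ ^ q / xq⁻¹ ∈ fc_chart A0 ({x⁻¹} : Set F0)
  winf' : xq⁻¹ ^ q / x⁻¹ ∈ fc_chart A0 ({x⁻¹} : Set F0)
  winf_sub : x⁻¹ ^ q / xq⁻¹ - 1 ∈ V1.nonunits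
  winf'_sub : xq⁻¹ ^ q / x⁻¹ - 1 ∈ V2.nonunits

/-- **[I1], general form.**  `x` the chart coordinate, `x_q = W x`, `V2 = V1.comap W`, the
hypotheses of [TP] for `x`, Frobenius `x_q ≡ x^q` at `V1`; zeros and poles of `(x, x_q)` paired;
`(t, t_q = W t)` a further pair with `t` a `V1`-unit, `t_q ≡ t^q` at `V1`, zeros paired, `t`, `t_q`
regular wherever `x` is. -/
theorem ssm_i1g_main [CharZero L] {π : A0} (hπ : Irreducible π) {x xq t tq : F0}
    (hx : Transcendental L x) [FiniteDimensional L⟮x⟯ F0] {V1 V2 : ValuationSubring F0}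
    (H : ssm_tp_Hyp (algebraMap A0 (Algebra.adjoin A0 ({x} : Set F0)) π) V1 V2)
    (W : F0 ≃+* F0) (hV2 : ∀ z, z ∈ V2 ↔ W z ∈ V1) (hWx : W x = xq) (hWxq : W xq = x)
    (hWt : W t = tq) (hWtq : W tq = t) (q : ℕ)
    (hfrob : xq - x ^ q ∈ V1.nonunits)
    (ht1 : t ∈ V1) (ht1' : t ∉ V1.nonunits) (hfrobt : tq - t ^ q ∈ V1.nonunits)
    (hreg : ∀ c : Place L F0, 0 ≤ c.ord x → 0 ≤ c.ord t)
    (hregq : ∀ c : Place L F0, 0 ≤ c.ord xq → 0 ≤ c.ord tq)
    (zero : ssm_cf_ZeroPair L q x xq) (zero' : ssm_cf_ZeroPair L q xq x)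
    (mid : ssm_cf_ZeroPair L q t tq) (mid' : ssm_cf_ZeroPair L q tq t)
    (inf : ssm_cf_ZeroPair L q x⁻¹ xq⁻¹) (inf' : ssm_cf_ZeroPair L q xq⁻¹ x⁻¹) :
    ssm_i1g_Facts A0 q x xq t tq V1 V2 := by
  have hxi : Transcendental L x⁻¹ := fun h => hx (IsAlgebraic.inv_iff.mp h)
  have hfd2 : FiniteDimensional L⟮x⁻¹⟯ F0 := by
    rw [rt_adjoin_inv]; infer_instance
  have H' := ssm_tp_ff_hyp_inv (L := L) hπ hx H
  obtain ⟨hrq, hxqmem, hl, hlq1, hlq1'⟩ :=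
    ssm_i1g_coord hπ hx H W hV2 hWxq q hfrob inf'
  have hl0 : x ≠ 0 := ssm_tp_ne_zero V1 hl.2
  have hlq0 : xq ≠ 0 := ssm_tp_ne_zero V1 hlq1'
  have hlinv : x⁻¹ ∈ V1 := ssm_tp_inv_mem V1 hl.2
  have hlqinv : xq⁻¹ ∈ V1 := ssm_tp_inv_mem V1 hlq1'
  have hlinv' : x⁻¹ ∉ V1.nonunits := by
    intro h
    have := ssm_tp_nonunits_mul V1 h hl.1
    rw [inv_mul_cancel₀ hl0] at this
    exact ssm_tp_one_not_mem_nonunits V1 this
  have hregqi : ∀ c : Place L F0, 0 ≤ c.ord x⁻¹ → 0 ≤ c.ord xq⁻¹ := by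
    intro c hc
    rw [Place.ord_inv] at hc ⊢
    by_contra hneg
    push Not at hneg
    have := (zero' c (by omega)).1
    omega
  have P0 := ssm_i1_pair hπ hx H W hV2 q hWx hWxq hl.1 hl.2 hfrob zero zero'
    (fun c hc => hc) hrq
  have P1 := ssm_i1_pair hπ hx H W hV2 q hWt hWtq ht1 ht1' hfrobt mid mid' hreg
    (fun c hc => hregq c (hrq c hc))
  have hfrobinf : xq⁻¹ - x⁻¹ ^ q ∈ V1.nonunits := by
    have : xq⁻¹ - x⁻¹ ^ q = -(xq - x ^ q) * (xq⁻¹ * x⁻¹ ^ q) := by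
      have h1 : x ^ q * x⁻¹ ^ q = 1 := by rw [← mul_pow, mul_inv_cancel₀ hl0, one_pow]
      have h2 : xq * xq⁻¹ = 1 := mul_inv_cancel₀ hlq0
      calc xq⁻¹ - x⁻¹ ^ q
          = (x ^ q * x⁻¹ ^ q) * xq⁻¹ - (xq * xq⁻¹) * x⁻¹ ^ q := by
            rw [h1, h2, one_mul, one_mul]
        _ = -(xq - x ^ q) * (xq⁻¹ * x⁻¹ ^ q) := by ring
    rw [this]
    exact ssm_tp_nonunits_mul V1 (ssm_tp_nonunits_neg V1 hfrob)
      (V1.mul_mem _ _ hlqinv (V1.pow_mem hlinv q))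
  have Pinf := ssm_i1_pair hπ hxi H' W hV2 q (t := x⁻¹) (tq := xq⁻¹)
    (by rw [map_inv₀, hWx]) (by rw [map_inv₀, hWxq]) hlinv hlinv' hfrobinf inf inf'
    (fun c hc => hc) hregqi
  exact ⟨P0.1, Pinf.1, P1.1, P0.2.1, P0.2.2.1, P0.2.2.2.1, P0.2.2.2.2, P1.2.1, P1.2.2.1,
    P1.2.2.2.1, P1.2.2.2.2, Pinf.2.1, Pinf.2.2.1, Pinf.2.2.2.1, Pinf.2.2.2.2⟩

/-- **Hesse, option M** (`q = 2` in the application; any prime `q` here): chart coordinate
`x = μ - 1` (second chart around the rational cusp `μ = 1`), middle pair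
`t = μ² + μ + 1 = x² + 3x + 3` (the cusps `ω, ω²`).  Inputs: [TP] for `x`, `W μ = μ_q`, Frobenius
`μ_q ≡ μ^q` at `V1 ∋ q`, and the six zero pairings of the Hesse [CF]. -/
theorem ssm_i1g_hesseM [CharZero L] {π : A0} (hπ : Irreducible π) {mu muq : F0}
    (hx : Transcendental L (mu - 1)) [FiniteDimensional L⟮mu - 1⟯ F0]
    {V1 V2 : ValuationSubring F0}
    (H : ssm_tp_Hyp (algebraMap A0 (Algebra.adjoin A0 ({mu - 1} : Set F0)) π) V1 V2)
    (W : F0 ≃+* F0) (hV2 : ∀ z, z ∈ V2 ↔ W z ∈ V1) (hWmu : W mu = muq) (hWmuq : W muq = mu)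
    {q : ℕ} (hq : q.Prime) (hqV : (q : F0) ∈ V1.nonunits)
    (hfrob : muq - mu ^ q ∈ V1.nonunits)
    (one : ssm_cf_ZeroPair L q (mu - 1) (muq - 1)) (one' : ssm_cf_ZeroPair L q (muq - 1) (mu - 1))
    (mid : ssm_cf_ZeroPair L q (mu ^ 2 + mu + 1) (muq ^ 2 + muq + 1))
    (mid' : ssm_cf_ZeroPair L q (muq ^ 2 + muq + 1) (mu ^ 2 + mu + 1))
    (inf : ssm_cf_ZeroPair L q (mu - 1)⁻¹ (muq - 1)⁻¹)
    (inf' : ssm_cf_ZeroPair L q (muq - 1)⁻¹ (mu - 1)⁻¹) :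
    ssm_i1g_Facts A0 q (mu - 1) (muq - 1) (mu ^ 2 + mu + 1) (muq ^ 2 + muq + 1) V1 V2 := by
  have hxA : Transcendental A0 (mu - 1) := fc_ff_transcendental (L := L) hx
  have hl := ssm_i1_linear_not_mem hπ hxA H.over1 0
  rw [map_zero, sub_zero] at hl
  have hmu : mu ∈ V1 := by
    have : mu = (mu - 1) + 1 := by ring
    rw [this]; exact V1.add_mem _ _ hl.1 V1.one_mem
  have hmuq : muq ∈ V1 := by
    have : muq = mu ^ q + (muq - mu ^ q) := by ring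
    rw [this]
    exact V1.add_mem _ _ (V1.pow_mem hmu q) (V1.nonunits_subset hfrob)
  -- the middle polynomial
  have hp : (X ^ 2 + 3 * X + 3 : ℤ[X]).Monic := by monicity!
  have et : ∀ y : F0, aeval (y - 1) (X ^ 2 + 3 * X + 3 : ℤ[X]) = y ^ 2 + y + 1 := by
    intro y
    simp only [map_add, map_mul, map_pow, aeval_X, map_ofNat]
    ring
  have et' : ∀ y : F0, aeval y (X ^ 2 + X + 1 : ℤ[X]) = y ^ 2 + y + 1 := by
    intro y
    simp only [map_add, map_pow, aeval_X, map_one]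
  have ht := ssm_i1g_monic_int_not_mem hπ hxA H.over1 _ hp
  rw [et] at ht
  have hfrobt : (muq ^ 2 + muq + 1) - (mu ^ 2 + mu + 1) ^ q ∈ V1.nonunits := by
    have := ssm_i1g_frob_poly V1 hq hqV hmuq hmu hfrob (X ^ 2 + X + 1 : ℤ[X])
    rwa [et', et'] at this
  refine ssm_i1g_main hπ hx H W hV2 (by rw [map_sub, map_one, hWmu])
    (by rw [map_sub, map_one, hWmuq])
    (by simp only [map_add, map_pow, map_one, hWmu])
    (by simp only [map_add, map_pow, map_one, hWmuq]) q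
    (ssm_i1_frob_sub_one V1 hq hqV hmuq hmu hfrob) ht.1 ht.2 hfrobt ?_ ?_ one one' mid mid'
    inf inf'
  · intro c hc
    rw [← et]
    exact ssm_i1g_ord_aeval_nonneg c hc _
  · intro c hc
    rw [← et]
    exact ssm_i1g_ord_aeval_nonneg c hc _

/-- **Hesse, coordinate `μ`, chart `{μ}` only**: `μ_q ∈ fc_chart A0 {μ}` (the chart is
`W`-stable) and the pair `t = μ³ - 1` (all finite cusps at once).  NB: the chart `{μ⁻¹}` is not
`W`-stable (`μ = 0` is not a cusp), so there is no statement at `∞` here. -/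
theorem ssm_i1g_hesse_mu [CharZero L] {π : A0} (hπ : Irreducible π) {mu muq : F0}
    (hx : Transcendental L mu) [FiniteDimensional L⟮mu⟯ F0] {V1 V2 : ValuationSubring F0}
    (H : ssm_tp_Hyp (algebraMap A0 (Algebra.adjoin A0 ({mu} : Set F0)) π) V1 V2)
    (W : F0 ≃+* F0) (hV2 : ∀ z, z ∈ V2 ↔ W z ∈ V1) (hWmu : W mu = muq) (hWmuq : W muq = mu)
    {q : ℕ} (hq : q.Prime) (hqV : (q : F0) ∈ V1.nonunits)
    (hfrob : muq - mu ^ q ∈ V1.nonunits)
    (one : ssm_cf_ZeroPair L q (mu ^ 3 - 1) (muq ^ 3 - 1))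
    (one' : ssm_cf_ZeroPair L q (muq ^ 3 - 1) (mu ^ 3 - 1))
    (inf' : ssm_cf_ZeroPair L q muq⁻¹ mu⁻¹) :
    muq ∈ fc_chart A0 ({mu} : Set F0) ∧ muq ^ 3 - 1 ∈ fc_chart A0 ({mu} : Set F0) ∧
      (mu ^ 3 - 1) ^ q / (muq ^ 3 - 1) ∈ fc_chart A0 ({mu} : Set F0) ∧
      (muq ^ 3 - 1) ^ q / (mu ^ 3 - 1) ∈ fc_chart A0 ({mu} : Set F0) ∧
      (mu ^ 3 - 1) ^ q / (muq ^ 3 - 1) - 1 ∈ V1.nonunits ∧
      (muq ^ 3 - 1) ^ q / (mu ^ 3 - 1) - 1 ∈ V2.nonunits := by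
  have hxA : Transcendental A0 mu := fc_ff_transcendental (L := L) hx
  obtain ⟨hrq, hxqmem, hl, hlq1, -⟩ := ssm_i1g_coord hπ hx H W hV2 hWmuq q hfrob inf'
  have hp : (X ^ 3 - 1 : ℤ[X]).Monic := by monicity!
  have et : ∀ y : F0, aeval y (X ^ 3 - 1 : ℤ[X]) = y ^ 3 - 1 := by
    intro y
    simp only [map_sub, map_pow, aeval_X, map_one]
  have ht := ssm_i1g_monic_int_not_mem hπ hxA H.over1 _ hp
  rw [et] at ht
  have hfrobt : (muq ^ 3 - 1) - (mu ^ 3 - 1) ^ q ∈ V1.nonunits := by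
    have := ssm_i1g_frob_poly V1 hq hqV hlq1 hl.1 hfrob (X ^ 3 - 1 : ℤ[X])
    rwa [et, et] at this
  have P1 := ssm_i1_pair hπ hx H W hV2 q (t := mu ^ 3 - 1) (tq := muq ^ 3 - 1)
    (by rw [map_sub, map_pow, map_one, hWmu]) (by rw [map_sub, map_pow, map_one, hWmuq])
    ht.1 ht.2 hfrobt one one'
    (fun c hc => by rw [← et]; exact ssm_i1g_ord_aeval_nonneg c hc _)
    (fun c hc => by rw [← et]; exact ssm_i1g_ord_aeval_nonneg c (hrq c hc) _)
  exact ⟨hxqmem, P1.1, P1.2.1, P1.2.2.1, P1.2.2.2.1, P1.2.2.2.2⟩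

end Chart

section WChart

variable {A0 : Type*} {F0 : Type v} [CommRing A0] [Field F0] [Algebra A0 F0]

/-- `W` preserves the three charts `{x}`, `{x⁻¹}`, `{x, x⁻¹}`. -/
theorem ssm_i1g_W_charts (W : F0 ≃+* F0)
    (hWA : ∀ a : A0, W (algebraMap A0 F0 a) = algebraMap A0 F0 a) {q : ℕ} {x xq t tq : F0}
    {V1 V2 : ValuationSubring F0} (hWx : W x = xq)
    (F : ssm_i1g_Facts A0 q x xq t tq V1 V2) :
    (∀ b ∈ fc_chart A0 ({x} : Set F0), W b ∈ fc_chart A0 ({x} : Set F0)) ∧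
    (∀ b ∈ fc_chart A0 ({x⁻¹} : Set F0), W b ∈ fc_chart A0 ({x⁻¹} : Set F0)) ∧
    (∀ b ∈ fc_chart A0 ({x, x⁻¹} : Set F0), W b ∈ fc_chart A0 ({x, x⁻¹} : Set F0)) := by
  refine ⟨fun b hb => ssm_i1_W_chart W hWA _ ?_ hb, fun b hb => ssm_i1_W_chart W hWA _ ?_ hb,
    fun b hb => ssm_i1_W_chart W hWA _ ?_ hb⟩
  · intro s hs
    rw [Set.mem_singleton_iff.1 hs, hWx]
    exact F.xq_mem
  · intro s hs
    rw [Set.mem_singleton_iff.1 hs, map_inv₀, hWx]
    exact F.xq_inv_mem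
  · intro s hs
    rcases hs with rfl | hs
    · rw [hWx]
      exact fc_chart1_le _ F.xq_mem
    · rw [Set.mem_singleton_iff.1 hs, map_inv₀, hWx]
      exact fc_chart2_le _ F.xq_inv_mem

end WChart

end Fermat.Agent.SS
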