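/-
Project SS (statement S34), cell [M], leaf [SIG] (helper20), closing input: THE ATKIN–LEHNER
INVOLUTION COMMUTES WITH THE COEFFICIENTWISE ACTION `σ_E`, Legendre (`ssm_sgw_comm`, from helper11's
`ssm_al_coe_WE_coeffMap`) and Hesse (`ssm_sgw_comm_hes`, from `ssm_alh_coe_WE_coeffMap`); this is the
hypothesis `hW` of `ssm_sg_triv_tp` / `ssm_sgh_triv_tp`.  Prefix `ssm_sgw_`.
-/
import Mathlib
import Fermat.Agent.SS.Model.SigmaHesse
import Fermat.Agent.SS.Model.ALEHesse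

set_option autoImplicit false

noncomputable section

open ModularCurve IntermediateField
open Fermat.Agent.JT3

namespace Fermat.Agent.SS

section Legendre

variable (L : Type*) [Field L] [CharZero L] [Algebra L (AlgebraicClosure ℚ)]
  (N' q : ℕ) [NeZero N'] [NeZero q] (hq : q.Prime) (hq2 : ¬ 2 ∣ q) (hqN' : ¬ q ∣ N')

/-- `W (σ_E z) = σ_E (W z)` on `lg_E L (N' q)`. -/
theorem ssm_sgw_comm (σ : L ≃+* L) (z : lg_E L (N' * q)) :
    ssm_al_WE L N' q hq hq2 hqN' (ssm_sg_aut (N' * q) σ z) =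
      ssm_sg_aut (N' * q) σ (ssm_al_WE L N' q hq hq2 hqN' z) :=
  Subtype.ext (ssm_al_coe_WE_coeffMap L N' q hq hq2 hqN' (σ : L →+* L) z
    (ssm_sg_aut (N' * q) σ z).2)

/-- the same for the underlying ring automorphism (the form of `hW` in `ssm_sg_triv_tp`). -/
theorem ssm_sgw_comm' (σ : L ≃+* L) (z : lg_E L (N' * q)) :
    (ssm_al_WE L N' q hq hq2 hqN' : lg_E L (N' * q) ≃+* lg_E L (N' * q))
        (ssm_sg_aut (N' * q) σ z) =
      ssm_sg_aut (N' * q) σ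
        ((ssm_al_WE L N' q hq hq2 hqN' : lg_E L (N' * q) ≃+* lg_E L (N' * q)) z) :=
  ssm_sgw_comm L N' q hq hq2 hqN' σ z

end Legendre

section Hesse

variable (L : Type*) [Field L] [CharZero L] [Algebra L (AlgebraicClosure ℚ)] (h3 : (3 : L) ≠ 0)
  (hF9 : ∀ (N : ℕ) [NeZero N], hs_E L h3 N = modularFunctionFieldFullC L (Nat.lcm 9 (3 * N)))
  (N' q : ℕ) [NeZero N'] [NeZero q] (hq : q.Prime) (hq3 : ¬ 3 ∣ q) (hqN' : ¬ q ∣ N')

/-- `W (σ_E z) = σ_E (W z)` on `hs_E L h3 (N' q)`. -/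
theorem ssm_sgw_comm_hes (σ : L ≃+* L) (z : hs_E L h3 (N' * q)) :
    ssm_alh_WE L h3 hF9 N' q hq hq3 hqN' (ssm_sgh_aut h3 (N' * q) σ z) =
      ssm_sgh_aut h3 (N' * q) σ (ssm_alh_WE L h3 hF9 N' q hq hq3 hqN' z) :=
  Subtype.ext (ssm_alh_coe_WE_coeffMap L h3 hF9 N' q hq hq3 hqN' (σ : L →+* L) z
    (ssm_sgh_aut h3 (N' * q) σ z).2)

theorem ssm_sgw_comm_hes' (σ : L ≃+* L) (z : hs_E L h3 (N' * q)) :
    (ssm_alh_WE L h3 hF9 N' q hq hq3 hqN' : hs_E L h3 (N' * q) ≃+* hs_E L h3 (N' * q))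
        (ssm_sgh_aut h3 (N' * q) σ z) =
      ssm_sgh_aut h3 (N' * q) σ
        ((ssm_alh_WE L h3 hF9 N' q hq hq3 hqN' :
          hs_E L h3 (N' * q) ≃+* hs_E L h3 (N' * q)) z) :=
  ssm_sgw_comm_hes L h3 hF9 N' q hq hq3 hqN' σ z

end Hesse

end Fermat.Agent.SS
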