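/-
Project SS (statement S34), cell [M], Hesse twin with the OPTION-M COORDINATE `x = μ - 1` (ruling
#1951 of helper14): the [SIG] and [ALE] statements for `x := hs_muE h3 N - 1` (helper20).

* `ssm_sgm_aut_x`, `ssm_sgm_aut_x_inv` : `σ_E x = x`, `σ_E x⁻¹ = x⁻¹` (the field `σ_x` of `ss_Model`);
* `ssm_sgm_aut_fix1/2/12`, `ssm_sgm_aut_mem_chart1/2/12`, `ssm_sgm_aut_symm_mem_chart1/2/12` :
  `σ_E`, `σ_E⁻¹` preserve the charts `fc_chart O {x}`, `{x⁻¹}`, `{x, x⁻¹}`;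
* `ssm_sgm_transcendental` : `x` is transcendental over `L`;
* `ssm_sgm_xq`, `ssm_sgm_WE_x`, `ssm_sgm_WE_xq`, `ssm_sgm_coe_xq` : `W x = x_q := μ(X^q) - 1`,
  `W x_q = x` (against `hF9` = the statement of [F9]).
Prefix `ssm_sgm_`.
-/
import Mathlib
import Fermat.Agent.SS.Model.SigmaW
import Fermat.Agent.JT3.Inst.HesseFunFieldFacts

set_option autoImplicit false
set_option linter.unusedSectionVars false

noncomputable section

open ModularCurve IntermediateField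
open Fermat.Agent.JT3

namespace Fermat.Agent.SS

section Sigma

variable {L : Type*} [Field L] (h3 : (3 : L) ≠ 0) (O : ValuationSubring L) (N : ℕ) [NeZero N]
  (σ : L ≃+* L)

/-- the field `σ_x` of `ss_Model` for the coordinate `x = μ - 1`. -/
theorem ssm_sgm_aut_x : ssm_sgh_aut h3 N σ (hs_muE h3 N - 1) = hs_muE h3 N - 1 := by
  rw [map_sub, map_one, ssm_sgh_aut_mu]

theorem ssm_sgm_aut_x_inv :
    ssm_sgh_aut h3 N σ (hs_muE h3 N - 1)⁻¹ = (hs_muE h3 N - 1)⁻¹ := by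
  rw [map_inv₀, ssm_sgm_aut_x]

theorem ssm_sgm_aut_fix1 (s : hs_E L h3 N)
    (hs : s ∈ ({hs_muE h3 N - 1} : Set (hs_E L h3 N))) : ssm_sgh_aut h3 N σ s = s := by
  rw [Set.mem_singleton_iff.1 hs]; exact ssm_sgm_aut_x h3 N σ

theorem ssm_sgm_aut_fix2 (s : hs_E L h3 N)
    (hs : s ∈ ({(hs_muE h3 N - 1)⁻¹} : Set (hs_E L h3 N))) : ssm_sgh_aut h3 N σ s = s := by
  rw [Set.mem_singleton_iff.1 hs]; exact ssm_sgm_aut_x_inv h3 N σ

theorem ssm_sgm_aut_fix12 (s : hs_E L h3 N)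
    (hs : s ∈ ({hs_muE h3 N - 1, (hs_muE h3 N - 1)⁻¹} : Set (hs_E L h3 N))) :
    ssm_sgh_aut h3 N σ s = s := by
  rcases Set.mem_insert_iff.1 hs with hs | hs
  · rw [hs]; exact ssm_sgm_aut_x h3 N σ
  · rw [Set.mem_singleton_iff.1 hs]; exact ssm_sgm_aut_x_inv h3 N σ

theorem ssm_sgm_aut_mem_chart1 (hσ : ss_Inert O σ) {z : hs_E L h3 N}
    (hz : z ∈ fc_chart O ({hs_muE h3 N - 1} : Set (hs_E L h3 N))) :
    ssm_sgh_aut h3 N σ z ∈ fc_chart O ({hs_muE h3 N - 1} : Set (hs_E L h3 N)) :=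
  ssm_sgh_aut_mem_chart h3 O N σ hσ _ (ssm_sgm_aut_fix1 h3 N σ) hz

theorem ssm_sgm_aut_mem_chart2 (hσ : ss_Inert O σ) {z : hs_E L h3 N}
    (hz : z ∈ fc_chart O ({(hs_muE h3 N - 1)⁻¹} : Set (hs_E L h3 N))) :
    ssm_sgh_aut h3 N σ z ∈ fc_chart O ({(hs_muE h3 N - 1)⁻¹} : Set (hs_E L h3 N)) :=
  ssm_sgh_aut_mem_chart h3 O N σ hσ _ (ssm_sgm_aut_fix2 h3 N σ) hz

theorem ssm_sgm_aut_mem_chart12 (hσ : ss_Inert O σ) {z : hs_E L h3 N}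
    (hz : z ∈ fc_chart O ({hs_muE h3 N - 1, (hs_muE h3 N - 1)⁻¹} : Set (hs_E L h3 N))) :
    ssm_sgh_aut h3 N σ z ∈
      fc_chart O ({hs_muE h3 N - 1, (hs_muE h3 N - 1)⁻¹} : Set (hs_E L h3 N)) :=
  ssm_sgh_aut_mem_chart h3 O N σ hσ _ (ssm_sgm_aut_fix12 h3 N σ) hz

theorem ssm_sgm_aut_symm_mem_chart1 (hσ : ss_Inert O σ) {z : hs_E L h3 N}
    (hz : z ∈ fc_chart O ({hs_muE h3 N - 1} : Set (hs_E L h3 N))) :
    (ssm_sgh_aut h3 N σ).symm z ∈ fc_chart O ({hs_muE h3 N - 1} : Set (hs_E L h3 N)) :=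
  ssm_sgh_aut_symm_mem_chart h3 O N σ hσ _ (ssm_sgm_aut_fix1 h3 N σ) hz

theorem ssm_sgm_aut_symm_mem_chart2 (hσ : ss_Inert O σ) {z : hs_E L h3 N}
    (hz : z ∈ fc_chart O ({(hs_muE h3 N - 1)⁻¹} : Set (hs_E L h3 N))) :
    (ssm_sgh_aut h3 N σ).symm z ∈ fc_chart O ({(hs_muE h3 N - 1)⁻¹} : Set (hs_E L h3 N)) :=
  ssm_sgh_aut_symm_mem_chart h3 O N σ hσ _ (ssm_sgm_aut_fix2 h3 N σ) hz

theorem ssm_sgm_aut_symm_mem_chart12 (hσ : ss_Inert O σ) {z : hs_E L h3 N}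
    (hz : z ∈ fc_chart O ({hs_muE h3 N - 1, (hs_muE h3 N - 1)⁻¹} : Set (hs_E L h3 N))) :
    (ssm_sgh_aut h3 N σ).symm z ∈
      fc_chart O ({hs_muE h3 N - 1, (hs_muE h3 N - 1)⁻¹} : Set (hs_E L h3 N)) :=
  ssm_sgh_aut_symm_mem_chart h3 O N σ hσ _ (ssm_sgm_aut_fix12 h3 N σ) hz

/-- `x = μ - 1` is transcendental over `L`. -/
theorem ssm_sgm_transcendental : Transcendental L (hs_muE h3 N - 1) := by
  intro h
  apply hsf_mu_transcendental L h3 N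
  have : hs_muE h3 N = (hs_muE h3 N - 1) + 1 := by ring
  rw [this]
  exact h.add isAlgebraic_one

theorem ssm_sgm_transcendental_inv : Transcendental L (hs_muE h3 N - 1)⁻¹ := fun h =>
  ssm_sgm_transcendental h3 N (IsAlgebraic.inv_iff.mp h)

end Sigma

section W

variable (L : Type*) [Field L] [CharZero L] [Algebra L (AlgebraicClosure ℚ)] (h3 : (3 : L) ≠ 0)
  (hF9 : ∀ (N : ℕ) [NeZero N], hs_E L h3 N = modularFunctionFieldFullC L (Nat.lcm 9 (3 * N)))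
  (N' q : ℕ) [NeZero N'] [NeZero q] (hq : q.Prime) (hq3 : ¬ 3 ∣ q) (hqN' : ¬ q ∣ N')

/-- `μ_q = μ(X^q)` as an element of `E = hs_E L h3 (N' q)`. -/
def ssm_sgm_muq : hs_E L h3 (N' * q) :=
  ⟨qExpand L q (hs_mu L h3),
    ssm_alh_mu_expand_mem L h3 hF9 (N' * q) (Dvd.intro_left N' rfl) hq3⟩

@[simp] theorem ssm_sgm_coe_muq :
    ((ssm_sgm_muq L h3 hF9 N' q hq3 : hs_E L h3 (N' * q)) : LaurentSeries L) =
      qExpand L q (hs_mu L h3) := rfl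

/-- `W μ = μ_q`. -/
theorem ssm_sgm_WE_mu :
    ssm_alh_WE L h3 hF9 N' q hq hq3 hqN' (hs_muE h3 (N' * q)) = ssm_sgm_muq L h3 hF9 N' q hq3 :=
  Subtype.ext (ssm_alh_coe_WE_mu L h3 hF9 N' q hq hq3 hqN' (hs_mu_mem_E L h3 (N' * q)))

/-- `W μ_q = μ`. -/
theorem ssm_sgm_WE_muq :
    ssm_alh_WE L h3 hF9 N' q hq hq3 hqN' (ssm_sgm_muq L h3 hF9 N' q hq3) = hs_muE h3 (N' * q) :=
  Subtype.ext (ssm_alh_coe_WE_mu_expand L h3 hF9 N' q hq hq3 hqN' _)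

/-- `W x = x_q` for the Option-M coordinate `x = μ - 1`, `x_q := μ_q - 1`. -/
theorem ssm_sgm_WE_x :
    ssm_alh_WE L h3 hF9 N' q hq hq3 hqN' (hs_muE h3 (N' * q) - 1) =
      ssm_sgm_muq L h3 hF9 N' q hq3 - 1 := by
  rw [map_sub, map_one, ssm_sgm_WE_mu]

/-- `W x_q = x`. -/
theorem ssm_sgm_WE_xq :
    ssm_alh_WE L h3 hF9 N' q hq hq3 hqN' (ssm_sgm_muq L h3 hF9 N' q hq3 - 1) =
      hs_muE h3 (N' * q) - 1 := by
  rw [map_sub, map_one, ssm_sgm_WE_muq]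

/-- `x_q = x(X^q)` as a Laurent series. -/
theorem ssm_sgm_coe_xq :
    ((ssm_sgm_muq L h3 hF9 N' q hq3 - 1 : hs_E L h3 (N' * q)) : LaurentSeries L) =
      qExpand L q (hs_mu L h3 - 1) := by
  rw [map_sub, map_one]
  rfl

/-- `W (p(x)) = p(x_q)` for every polynomial `p` with coefficients in `L` (e.g. the middle
polynomial `t = X² + 3X + 3`). -/
theorem ssm_sgm_WE_aeval (p : Polynomial L) :
    ssm_alh_WE L h3 hF9 N' q hq hq3 hqN' (Polynomial.aeval (hs_muE h3 (N' * q) - 1) p) =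
      Polynomial.aeval (ssm_sgm_muq L h3 hF9 N' q hq3 - 1) p := by
  have h := Polynomial.aeval_algHom_apply
    (ssm_alh_WE L h3 hF9 N' q hq hq3 hqN' : hs_E L h3 (N' * q) →ₐ[L] hs_E L h3 (N' * q))
    (hs_muE h3 (N' * q) - 1) p
  have hx : (ssm_alh_WE L h3 hF9 N' q hq hq3 hqN' :
      hs_E L h3 (N' * q) →ₐ[L] hs_E L h3 (N' * q)) (hs_muE h3 (N' * q) - 1) =
      ssm_sgm_muq L h3 hF9 N' q hq3 - 1 := ssm_sgm_WE_x L h3 hF9 N' q hq hq3 hqN'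
  rw [hx] at h
  exact h.symm

end W

end Fermat.Agent.SS
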