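/-
Project SS (S34), cell [M] (model), leaf [GA], instance layer (helper8): the Gauss valuation subring
of a field `E ≤ Quot(O((X)))` LIES OVER THE GAUSS RING of the coordinate ring `O[x]`
(`ssm_tp_Over`, helper12's `hover` of `ssm_tpw_hyp`), for every `x ∈ E` which is the image of a
series `y` over `O` whose reduction is non-constant (a nonzero coefficient at an exponent `n ≠ 0`):

* `ssm_go_poly` : `p(x) ∈ V`, and `p(x) ∈ 𝔪(V) ↔ C π ∣ p`, for every `p ∈ O[X]`
  [`p(x) = ι (p(y))` is Gauss-bounded with reduction `p̄(ȳ)`, and `ȳ` is transcendental over `κ(O)`];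
* `ssm_go_over` : `ssm_tp_Over (π in O[x]) V`;
* `ssm_go_unif` : the uniformiser `gq_unif` of the Gauss ring is the image of `π`.

Prefix `ssm_go_`.
-/
import Mathlib
import Fermat.Agent.SS.Model.Gauss
import Fermat.Agent.SS.Model.TwoPrimesW
import Fermat.Agent.JT3.Inst.FunFieldFacts

set_option autoImplicit false
set_option linter.unusedSectionVars false
set_option linter.unusedVariables false

noncomputable section

open ModularCurve IntermediateField IsLocalRing Polynomial
open Fermat.Agent.JT3 Fermat.Agent.S28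

namespace Fermat.Agent.SS

section Over

variable {L : Type*} [Field L] (O : ValuationSubring L)
  (E : IntermediateField L (LaurentSeries L))
  (y : LaurentSeries O) (x : ↥E) (hx : (x : LaurentSeries L) = coeffMap (algebraMap O L) y)

/-- the tower `O ⊆ L ⊆ E` (instance search does not find it within the default budget). -/
theorem ssm_go_isScalarTower : IsScalarTower ↥O L ↥E :=
  IsScalarTower.of_algebraMap_eq fun c => rfl

include hx in
/-- `p(x) = ι (p(y))`. -/
theorem ssm_go_coe_aeval (p : (↥O)[X]) :
    ((aeval x p : ↥E) : LaurentSeries L) = coeffMap (algebraMap O L) (aeval y p) := by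
  rw [aeval_def, aeval_def]
  have h1 : ((eval₂ (algebraMap ↥O ↥E) x p : ↥E) : LaurentSeries L) =
      E.val.toRingHom (eval₂ (algebraMap ↥O ↥E) x p) := rfl
  rw [h1, hom_eval₂, hom_eval₂]
  have h2 : (E.val.toRingHom.comp (algebraMap ↥O ↥E) : ↥O →+* LaurentSeries L) =
      (coeffMap (algebraMap O L)).comp (algebraMap ↥O (LaurentSeries ↥O)) := by
    ext c : 1
    show algebraMap L (LaurentSeries L) (algebraMap O L c) = _
    rw [RingHom.comp_apply]
    exact (bd_coeffMap_algebraMap (algebraMap O L) c).symm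
  rw [h2]
  congr 1

/-- reduction of `p(y)`. -/
theorem ssm_go_red_aeval (p : (↥O)[X]) :
    coeffMap (residue O) (aeval y p) =
      aeval (coeffMap (residue O) y) (p.map (residue O)) := by
  rw [aeval_def, aeval_def, hom_eval₂, eval₂_map]
  congr 1
  ext c : 1
  rw [RingHom.comp_apply, RingHom.comp_apply]
  exact bd_coeffMap_algebraMap (residue O) c

variable [IsDiscreteValuationRing O] {π : O} (hπ : Irreducible π) (hE : E ≤ gq_quotField O L)

omit [IsDiscreteValuationRing ↥O] in
/-- `p̄ = 0 ↔ C π ∣ p`. -/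
theorem ssm_go_map_eq_zero_iff (hπm : maximalIdeal O = Ideal.span {π}) (p : (↥O)[X]) :
    p.map (residue O) = 0 ↔ C π ∣ p := by
  rw [C_dvd_iff_dvd_coeff, Polynomial.ext_iff]
  refine forall_congr' fun i => ?_
  rw [coeff_map, coeff_zero, residue_eq_zero_iff, hπm, Ideal.mem_span_singleton]

include hx in
/-- **polynomial form of `hover`.** -/
theorem ssm_go_poly {n : ℤ} (hn : n ≠ 0) (hyn : residue O (y.coeff n) ≠ 0) (p : (↥O)[X]) :
    aeval x p ∈ gq_valSubOf π hπ.ne_zero hπ.maximalIdeal_eq E hE ∧
      (aeval x p ∈ (gq_valSubOf π hπ.ne_zero hπ.maximalIdeal_eq E hE).nonunits ↔ C π ∣ p) := by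
  have hcoe := ssm_go_coe_aeval O E y x hx p
  have hb : gq_IsBdd O L ((aeval x p : ↥E) : LaurentSeries L) := by
    rw [hcoe]
    exact gq_isBdd_iota _
  refine ⟨hb, ?_⟩
  rw [gq_mem_nonunits_iff_res π hπ.ne_zero hπ.maximalIdeal_eq E hE _ hb,
    gq_res_of_eq_iota _ _ hcoe, ssm_go_red_aeval,
    ← ssm_go_map_eq_zero_iff O hπ.maximalIdeal_eq]
  have htr : Transcendental (ResidueField O) (coeffMap (residue O) y) :=
    lgf_transcendental_of_coeff hn (by rw [coeffMap_coeff]; exact hyn)
  constructor
  · intro h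
    exact transcendental_iff.1 htr _ h
  · intro h
    rw [h, map_zero]

include hx in
omit [IsDiscreteValuationRing ↥O] in
/-- `x` is transcendental over `L` (and over `O`). -/
theorem ssm_go_transcendental {n : ℤ} (hn : n ≠ 0) (hyn : residue O (y.coeff n) ≠ 0) :
    Transcendental L x := by
  intro h
  have h1 : Transcendental L (x : LaurentSeries L) := by
    refine lgf_transcendental_of_coeff hn ?_
    rw [hx, coeffMap_coeff]
    intro h0
    apply hyn
    have : y.coeff n = 0 := (IsFractionRing.injective O L) (by rw [h0, map_zero])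
    rw [this, map_zero]
  exact h1 (IntermediateField.isAlgebraic_iff.1 h)

include hx in
/-- **`hover`**: the Gauss valuation subring of `E` lies over the Gauss ring of `O[x]`. -/
theorem ssm_go_over {n : ℤ} (hn : n ≠ 0) (hyn : residue O (y.coeff n) ≠ 0) :
    ssm_tp_Over (algebraMap ↥O (Algebra.adjoin ↥O ({x} : Set ↥E)) π)
      (gq_valSubOf π hπ.ne_zero hπ.maximalIdeal_eq E hE) := by
  have := ssm_go_isScalarTower O E
  have htr : Transcendental ↥O x :=
    fc_ff_transcendental (L := L) (ssm_go_transcendental O E y x hx hn hyn)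
  rw [ssm_tpw_over_iff_poly htr]
  exact ssm_go_poly O E y x hx hπ hE hn hyn

/-- the uniformiser of the Gauss ring is the image of `π` (`hππ'` of `ssm_tpw_hyp`). -/
theorem ssm_go_unif :
    algebraMap ↥(gq_valSubOf π hπ.ne_zero hπ.maximalIdeal_eq E hE) ↥E
      (gq_unif π hπ.ne_zero hπ.maximalIdeal_eq E hE) = algebraMap ↥O ↥E π := rfl

end Over

end Fermat.Agent.SS
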