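/-
SS (S34), cell [M] MODEL, leaf [GA], complement: general-index non-congruences and the HESSE
instance (`q = 2`, cover `hs_E L h3 N`, generator `μ = (1/3) X⁻¹ + ⋯`) (helper8).

* `ssm_gh_coeff_pow` : in characteristic `q`, `x ^ q` has no coefficients at exponents prime to `q`;
* `ssm_gh_sub_pow_not_mem`, `ssm_gh_sub_beta_not_mem` : (G2), (G3) of `Model/Gauss.lean` with the
  exponent `1` replaced by any exponent `n` not divisible by `q`;
* `ssm_gh_mu_frob`, `ssm_gh_mu_b`, `ssm_gh_mu_c` : hypotheses (a), (b), (c) of the two-valuations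
  lemma for `μ` (any prime `q ≠ 3` with `3 ∈ Oˣ`; used with `q = 2`).
-/
import Mathlib
import Fermat.Agent.SS.Model.Gauss
import Fermat.Agent.JT3.Inst.HesseH4a

set_option autoImplicit false

noncomputable section

open ModularCurve IsLocalRing

namespace Fermat.Agent.SS

open Fermat.Agent.JT3

section General

variable {O : Type*} [CommRing O] [IsDomain O] [IsLocalRing O]
variable {K : Type*} [Field K] [Algebra O K] [IsFractionRing O K]
variable (q : ℕ) [NeZero q] [hq : Fact q.Prime]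

omit [IsDomain O] [NeZero q] in
/-- in characteristic `q`, the coefficients of `x ^ q` at exponents prime to `q` vanish. -/
theorem ssm_gh_coeff_pow [CharP (ResidueField O) q] (x : LaurentSeries (ResidueField O)) (n : ℤ)
    (hn : ¬ (q : ℤ) ∣ n) : (x ^ q).coeff n = 0 := by
  have h := ca_pow_eq_qExpand_frobenius (ResidueField O) q x
  rw [h]
  exact qExpand_coeff_of_not_dvd q _ hn

variable [WfDvdMonoid O]
variable (π : O) (hπ0 : π ≠ 0) (hπ : maximalIdeal O = Ideal.span {π})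
  (E : IntermediateField K (LaurentSeries K)) (hE : E ≤ gq_quotField O K)

/-- (G2), general exponent. -/
theorem ssm_gh_sub_pow_not_mem [CharP (ResidueField O) q] (y : LaurentSeries O) (n : ℤ)
    (hn : ¬ (q : ℤ) ∣ n) (hy1 : residue O (y.coeff n) ≠ 0) (t : ↥E)
    (ht : (t : LaurentSeries K) = coeffMap (algebraMap O K) y -
      (qExpand K q (coeffMap (algebraMap O K) y)) ^ q) :
    t ∉ (gq_valSubOf π hπ0 hπ E hE).nonunits := by
  have ht' : (t : LaurentSeries K) = coeffMap (algebraMap O K) (y - (qExpand O q y) ^ q) := by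
    rw [ht, map_sub, map_pow, coeffMap_qExpand]
  have hb : gq_IsBdd O K (t : LaurentSeries K) := by
    rw [ht']
    exact gq_isBdd_iota _
  refine ssm_ga_not_mem_nonunits_of_res π hπ0 hπ E hE t hb ?_
  rw [gq_res_of_eq_iota _ _ ht', map_sub, map_pow]
  intro h0
  have h1 := congrArg (fun z : LaurentSeries (ResidueField O) => z.coeff n) h0
  simp only [HahnSeries.coeff_sub, HahnSeries.coeff_zero, coeffMap_coeff] at h1
  rw [ssm_gh_coeff_pow q _ n hn, sub_zero] at h1
  exact hy1 h1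

omit hq in
/-- (G3), general exponent. -/
theorem ssm_gh_sub_beta_not_mem (y : LaurentSeries O) (n : ℤ) (hn : ¬ (q : ℤ) ∣ n)
    (hy1 : residue O (y.coeff n) ≠ 0)
    (z : LaurentSeries K) (hz : gq_IsQuot O K z) (hzb : gq_IsBdd O K (qExpand K q z)) (t : ↥E)
    (ht : (t : LaurentSeries K) = coeffMap (algebraMap O K) y - qExpand K q z) :
    t ∉ (gq_valSubOf π hπ0 hπ E hE).nonunits := by
  have hzb' : gq_IsBdd O K z := (ssm_ga_beta_isBdd_iff q π hπ0 hπ hz).mp hzb
  have hyb : gq_IsBdd O K (coeffMap (algebraMap O K) y) := gq_isBdd_iota y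
  have hb : gq_IsBdd O K (t : LaurentSeries K) := by
    rw [ht]
    exact (gq_bddSubring O K).sub_mem hyb hzb
  refine ssm_ga_not_mem_nonunits_of_res π hπ0 hπ E hE t hb ?_
  have hsplit : (⟨(t : LaurentSeries K), hb⟩ : ↥(gq_bddSubring O K)) =
      ⟨coeffMap (algebraMap O K) y, hyb⟩ - ⟨qExpand K q z, hzb⟩ := Subtype.ext ht
  rw [hsplit, map_sub, gq_res_iota]
  have hβ := ssm_ga_res_beta q (⟨z, hzb'⟩ : ↥(gq_bddSubring O K))
  intro h0
  have h1 := congrArg (fun z : LaurentSeries (ResidueField O) => z.coeff n) h0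
  simp only [HahnSeries.coeff_sub, HahnSeries.coeff_zero, coeffMap_coeff] at h1
  have h2 : (gq_res O K ⟨qExpand K q z, hzb⟩).coeff n = 0 := by
    have : (⟨qExpand K q z, hzb⟩ : ↥(gq_bddSubring O K)) =
        ⟨qExpand K q z, ssm_ga_beta_isBdd q hzb'⟩ := rfl
    rw [this, hβ]
    exact qExpand_coeff_of_not_dvd q _ hn
  rw [h2, sub_zero] at h1
  exact hy1 h1

end General

/-! ## the Hesse instance -/

section Mu

variable {L : Type*} [Field L] (h3 : (3 : L) ≠ 0) (O : ValuationSubring L) (h3O : IsUnit (3 : O))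
variable (q : ℕ) [NeZero q] [hq : Fact q.Prime] [CharP (ResidueField O) q]

omit [NeZero q] in
theorem ssm_gh_mu_frobFixed : ssm_ga_FrobFixed q (hm_mu O h3O) := by
  unfold ssm_ga_FrobFixed
  have h3k : IsUnit (3 : ResidueField O) := by
    have := (residue O).isUnit_map h3O
    rwa [map_ofNat] at this
  rw [hm_coeffMap_mu (residue O) h3O h3k, hm_coeffMap_mu _ h3k h3k]

omit [NeZero q] hq [CharP (ResidueField O) q] in
theorem ssm_gh_mu_coeff : residue O ((hm_mu O h3O).coeff (-1)) ≠ 0 := by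
  rw [hm_mu_coeff_neg_one]
  have hu : IsUnit ((h3O.unit⁻¹ : Oˣ) : O) := Units.isUnit _
  exact ((residue O).isUnit_map hu).ne_zero

omit [NeZero q] [CharP (ResidueField O) q] in
theorem ssm_gh_not_dvd_neg_one : ¬ (q : ℤ) ∣ (-1 : ℤ) := by
  intro hdvd
  have h1 : (q : ℤ) ∣ 1 := (dvd_neg.mp hdvd)
  have h2 : (q : ℤ) = 1 ∨ (q : ℤ) = -1 := Int.isUnit_iff.mp (isUnit_of_dvd_one h1)
  have hq2 := hq.out.two_le
  omega

variable [IsDiscreteValuationRing O] {π : O} (hπ : Irreducible π)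
  (E : IntermediateField L (LaurentSeries L)) (hE : E ≤ gq_quotField O L)

include h3O in
/-- **hypothesis (a) of [TV], Hesse**: `μ(X^q) - μ^q ∈ 𝔪(V)`. -/
theorem ssm_gh_mu_frob (t : ↥E)
    (ht : (t : LaurentSeries L) = qExpand L q (hs_mu L h3) - (hs_mu L h3) ^ q) :
    t ∈ (gq_valSubOf π hπ.ne_zero hπ.maximalIdeal_eq E hE).nonunits := by
  refine ssm_ga_frob_mem_nonunits q π hπ.ne_zero hπ.maximalIdeal_eq E hE (hm_mu O h3O)
    (ssm_gh_mu_frobFixed O h3O q) t ?_
  rw [ht, hsa_mu_eq_iota h3 O h3O]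

include h3O in
/-- **hypothesis (b) of [TV], Hesse**: `μ - μ(X^q)^q ∉ 𝔪(V)`. -/
theorem ssm_gh_mu_b (t : ↥E)
    (ht : (t : LaurentSeries L) = hs_mu L h3 - (qExpand L q (hs_mu L h3)) ^ q) :
    t ∉ (gq_valSubOf π hπ.ne_zero hπ.maximalIdeal_eq E hE).nonunits := by
  refine ssm_gh_sub_pow_not_mem q π hπ.ne_zero hπ.maximalIdeal_eq E hE (hm_mu O h3O) (-1)
    (ssm_gh_not_dvd_neg_one q) (ssm_gh_mu_coeff O h3O) t ?_
  rw [ht, hsa_mu_eq_iota h3 O h3O]

include h3O in
omit [CharP (ResidueField O) q] in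
/-- **hypothesis (c) of [TV], Hesse**: `μ - z(X^q) ∉ 𝔪(V)`. -/
theorem ssm_gh_mu_c (z : LaurentSeries L)
    (hz : z ∈ gq_quotField O L) (hzb : gq_IsBdd O L (qExpand L q z)) (t : ↥E)
    (ht : (t : LaurentSeries L) = hs_mu L h3 - qExpand L q z) :
    t ∉ (gq_valSubOf π hπ.ne_zero hπ.maximalIdeal_eq E hE).nonunits := by
  refine ssm_gh_sub_beta_not_mem q π hπ.ne_zero hπ.maximalIdeal_eq E hE (hm_mu O h3O) (-1)
    (ssm_gh_not_dvd_neg_one q) (ssm_gh_mu_coeff O h3O) z hz hzb t ?_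
  rw [ht, hsa_mu_eq_iota h3 O h3O]

end Mu

end Fermat.Agent.SS
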