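/-
Project SS (S34), cell [M] (model), leaf [GA], INSTANCE layer (helper8): the hypotheses
`ssm_tw_Data` of the two-valuations lemma [TV-W] (`SS/Model/TwoValW.lean`, helper14) for a pair of
fields `E' ≤ E ≤ Quot(O((X)))` inside `L((X))`,

* `K := ↥E'`, `E := ↥E`, `R :=` the Gauss ring of `E'` (a DVR, `ssm_ga_isDVR`),
* `V1 :=` the Gauss valuation subring of `E`,
* `W :` an involution of `E` with `W z = z(X^q)` for `z ∈ E'` (Atkin-Lehner, [AL]),
* `lam ∈ E'` the image of a series `y` over `O` whose reduction has `𝔽_q`-coefficients and a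
  nonzero coefficient at an exponent prime to `q` (`λ`: exponent `1`; `μ`: exponent `-1`).

The statement is PARAMETRIC in the algebra instances (`[Algebra ↥E' ↥E]` with
`↑(algebraMap z) = ↑z`, `[Algebra R ↥E] [IsScalarTower R ↥E' ↥E]`), so that it applies to the
`IntermediateField.inclusion` algebra (`ssm_gi_algebra`, provided here) as well as to any other
presentation of the tower.  Prefix `ssm_gi_`.
-/
import Mathlib
import Fermat.Agent.SS.Model.GaussHesse
import Fermat.Agent.SS.Model.TwoValW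

set_option autoImplicit false
set_option linter.unusedSectionVars false
set_option linter.unusedVariables false
set_option linter.style.haveILetI false

noncomputable section

open ModularCurve IntermediateField IsLocalRing
open Fermat.Agent.JT3

namespace Fermat.Agent.SS

/-! ## the tower instances -/

section Tower

variable {L : Type*} [Field L] {E' E : IntermediateField L (LaurentSeries L)}

/-- the algebra structure of a field `E ⊆ L((X))` over a subfield `E'` (the inclusion). -/
@[reducible] def ssm_gi_algebra (hle : E' ≤ E) : Algebra ↥E' ↥E :=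
  (IntermediateField.inclusion hle).toRingHom.toAlgebra

theorem ssm_gi_coe_algebraMap (hle : E' ≤ E) (z : ↥E') :
    letI := ssm_gi_algebra hle
    ((algebraMap ↥E' ↥E z : ↥E) : LaurentSeries L) = (z : LaurentSeries L) := rfl

/-- the algebra structure of `E` over a valuation subring of the subfield `E'`. -/
@[reducible] def ssm_gi_algebraV (hle : E' ≤ E) (V' : ValuationSubring ↥E') : Algebra ↥V' ↥E :=
  ((IntermediateField.inclusion hle).toRingHom.comp (algebraMap ↥V' ↥E')).toAlgebra

theorem ssm_gi_isScalarTower (hle : E' ≤ E) (V' : ValuationSubring ↥E') :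
    letI := ssm_gi_algebra hle
    letI := ssm_gi_algebraV hle V'
    IsScalarTower ↥V' ↥E' ↥E :=
  letI := ssm_gi_algebra hle
  letI := ssm_gi_algebraV hle V'
  IsScalarTower.of_algebraMap_eq fun _ => rfl

/-- the tower `L ⊆ E' ⊆ E`. -/
theorem ssm_gi_isScalarTower_base (hle : E' ≤ E) :
    letI := ssm_gi_algebra hle
    IsScalarTower L ↥E' ↥E :=
  letI := ssm_gi_algebra hle
  IsScalarTower.of_algebraMap_eq fun _ => rfl

/-- finiteness from the degree. -/
theorem ssm_gi_finiteDimensional [Algebra ↥E' ↥E] {n : ℕ}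
    (h : Module.finrank ↥E' ↥E = n + 1) : FiniteDimensional ↥E' ↥E :=
  Module.finite_of_finrank_pos (by rw [h]; exact Nat.succ_pos n)

/-- separability in characteristic zero. -/
theorem ssm_gi_isSeparable [CharZero L] [Algebra ↥E' ↥E] [FiniteDimensional ↥E' ↥E] :
    Algebra.IsSeparable ↥E' ↥E := by
  haveI : CharZero ↥E' := charZero_of_injective_algebraMap (algebraMap L ↥E').injective
  infer_instance

end Tower

/-! ## the Gauss ring of a subfield as a DVR -/

section DVR

variable {O : Type*} [CommRing O] [IsDomain O] [IsLocalRing O] [WfDvdMonoid O]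
variable {K : Type*} [Field K] [Algebra O K] [IsFractionRing O K]

instance ssm_gi_isDVR (π : O) (hπ0 : π ≠ 0) (hπ : maximalIdeal O = Ideal.span {π})
    (E : IntermediateField K (LaurentSeries K)) (hE : E ≤ gq_quotField O K) :
    IsDiscreteValuationRing ↥(gq_valSubOf π hπ0 hπ E hE) :=
  ssm_ga_isDVR π hπ0 hπ E hE

/-- membership in the range of `R → K` for a valuation subring `R` of `K`. -/
theorem ssm_gi_mem_range {F : Type*} [Field F] (V : ValuationSubring F) (z : F) :
    z ∈ (algebraMap ↥V F).range ↔ z ∈ V := by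
  constructor
  · rintro ⟨r, rfl⟩
    exact r.2
  · intro h
    exact ⟨⟨z, h⟩, rfl⟩

end DVR

/-! ## the data of the two-valuations lemma -/

section Data

variable {L : Type*} [Field L] (O : ValuationSubring L) [IsDiscreteValuationRing O] {π : O}
  (hπ : Irreducible π)
variable (q : ℕ) [NeZero q] [hq : Fact q.Prime] [CharP (ResidueField O) q]
variable (E' E : IntermediateField L (LaurentSeries L)) (hle : E' ≤ E)
  (hE : E ≤ gq_quotField O L)

omit [NeZero q] hq in
/-- `q` lies in the maximal ideal of the Gauss ring. -/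
theorem ssm_gi_q_mem :
    (q : ↥(gq_valSubOf π hπ.ne_zero hπ.maximalIdeal_eq E hE)) ∈
      maximalIdeal ↥(gq_valSubOf π hπ.ne_zero hπ.maximalIdeal_eq E hE) := by
  have h1 : (q : ↥E) ∈ (gq_valSubOf π hπ.ne_zero hπ.maximalIdeal_eq E hE).nonunits := by
    refine ssm_ga_mem_nonunits_of_iota π hπ.ne_zero hπ.maximalIdeal_eq E hE (q : ↥E)
      (q : LaurentSeries O) ?_ ?_
    · rw [map_natCast]
      push_cast
      rfl
    · rw [map_natCast,
        ← map_natCast (HahnSeries.C : ResidueField ↥O →+* LaurentSeries (ResidueField ↥O)),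
        CharP.cast_eq_zero, map_zero]
  rw [ValuationSubring.mem_nonunits_iff_exists_mem_maximalIdeal] at h1
  obtain ⟨h2, h3⟩ := h1
  have e : (⟨(q : ↥E), h2⟩ : ↥(gq_valSubOf π hπ.ne_zero hπ.maximalIdeal_eq E hE)) =
      (q : ↥(gq_valSubOf π hπ.ne_zero hπ.maximalIdeal_eq E hE)) := by
    apply Subtype.ext
    push_cast
    rfl
  rw [← e]
  exact h3

variable [Algebra ↥E' ↥E]
  (halg : ∀ z : ↥E', ((algebraMap ↥E' ↥E z : ↥E) : LaurentSeries L) = (z : LaurentSeries L))
  [Algebra ↥(gq_valSubOf π hπ.ne_zero hπ.maximalIdeal_eq E' (hle.trans hE)) ↥E]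
  [IsScalarTower ↥(gq_valSubOf π hπ.ne_zero hπ.maximalIdeal_eq E' (hle.trans hE)) ↥E' ↥E]

include halg in
omit [NeZero q] hq [CharP (ResidueField O) q] in
theorem ssm_gi_coe_algebraMapV
    (r : ↥(gq_valSubOf π hπ.ne_zero hπ.maximalIdeal_eq E' (hle.trans hE))) :
    ((algebraMap ↥(gq_valSubOf π hπ.ne_zero hπ.maximalIdeal_eq E' (hle.trans hE)) ↥E r : ↥E) :
      LaurentSeries L) = ((r : ↥E') : LaurentSeries L) := by
  rw [IsScalarTower.algebraMap_apply
    ↥(gq_valSubOf π hπ.ne_zero hπ.maximalIdeal_eq E' (hle.trans hE)) ↥E' ↥E, halg]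
  rfl

include halg in
omit [NeZero q] hq [CharP (ResidueField O) q] in
/-- `V(E) ∩ E' = V(E')`. -/
theorem ssm_gi_over1 :
    ssm_tw_Over ↥E' ↥(gq_valSubOf π hπ.ne_zero hπ.maximalIdeal_eq E' (hle.trans hE))
      (gq_valSubOf π hπ.ne_zero hπ.maximalIdeal_eq E hE) := by
  intro z
  rw [ssm_gi_mem_range, gq_mem_valSubOf, gq_mem_valSubOf, halg]

include halg in
/-- **the instance of `ssm_tw_Data`** for a tower `E' ≤ E ≤ Quot(O((X)))`, an involution `W` of `E`
with `W z = z(X^q)` on `E'`, `[E : E'] = q + 1`, and `lam ∈ E'` the image of a series `y` over `O`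
whose reduction has `𝔽_q`-coefficients and nonzero coefficient at an exponent `n` prime to `q`. -/
theorem ssm_gi_data (W : ↥E ≃+* ↥E) (hWW : ∀ x, W (W x) = x)
    (hW : ∀ z : ↥E', ((W (algebraMap ↥E' ↥E z) : ↥E) : LaurentSeries L) =
      qExpand L q (z : LaurentSeries L))
    (hrank : Module.finrank ↥E' ↥E = q + 1)
    (y : LaurentSeries O) (hyF : ssm_ga_FrobFixed q y) (n : ℤ) (hn : ¬ (q : ℤ) ∣ n)
    (hyn : residue O (y.coeff n) ≠ 0)
    (lam : ↥(gq_valSubOf π hπ.ne_zero hπ.maximalIdeal_eq E' (hle.trans hE)))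
    (hlam : ((lam : ↥E') : LaurentSeries L) = coeffMap (algebraMap O L) y) :
    ssm_tw_Data ↥E' ↥(gq_valSubOf π hπ.ne_zero hπ.maximalIdeal_eq E' (hle.trans hE)) q
      (gq_valSubOf π hπ.ne_zero hπ.maximalIdeal_eq E hE) W lam := by
  have hcoe := ssm_gi_coe_algebraMapV O hπ E' E hle hE halg
  have hWlam : ((W (algebraMap
      ↥(gq_valSubOf π hπ.ne_zero hπ.maximalIdeal_eq E' (hle.trans hE)) ↥E lam) : ↥E) :
      LaurentSeries L) = qExpand L q (coeffMap (algebraMap O L) y) := by
    rw [IsScalarTower.algebraMap_apply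
      ↥(gq_valSubOf π hπ.ne_zero hπ.maximalIdeal_eq E' (hle.trans hE)) ↥E' ↥E, hW, ← hlam]
    rfl
  refine ⟨hq.out, ssm_gi_q_mem O hπ q E' (hle.trans hE), hrank, hWW,
    ssm_gi_over1 O hπ E' E hle hE halg, ?_, ?_, ?_, ?_⟩
  · -- over2
    intro z
    rw [ssm_gi_mem_range]
    exact ssm_ga_beta_mem_iff q π hπ.ne_zero hπ.maximalIdeal_eq E E' hE (hle.trans hE) z
      (W (algebraMap ↥E' ↥E z)) (hW z)
  · -- frob
    refine ssm_ga_frob_mem_nonunits q π hπ.ne_zero hπ.maximalIdeal_eq E hE y hyF _ ?_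
    push_cast
    rw [hWlam, hcoe, hlam]
  · -- nfrob
    refine ssm_gh_sub_pow_not_mem q π hπ.ne_zero hπ.maximalIdeal_eq E hE y n hn hyn _ ?_
    push_cast
    rw [hWlam, hcoe, hlam]
  · -- nres
    intro z
    have hzb : gq_IsBdd O L ((z : ↥E') : LaurentSeries L) :=
      (gq_mem_valSubOf π hπ.ne_zero hπ.maximalIdeal_eq E' (hle.trans hE) (z : ↥E')).1 z.2
    refine ssm_gh_sub_beta_not_mem q π hπ.ne_zero hπ.maximalIdeal_eq E hE y n hn hyn
      ((z : ↥E') : LaurentSeries L) ((hle.trans hE) (z : ↥E').2) (ssm_ga_beta_isBdd q hzb) _ ?_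
    push_cast
    rw [hcoe, hlam, IsScalarTower.algebraMap_apply
      ↥(gq_valSubOf π hπ.ne_zero hπ.maximalIdeal_eq E' (hle.trans hE)) ↥E' ↥E, hW]
    rfl

end Data

end Fermat.Agent.SS
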