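/-
Project SS (S34), cell [M] (model), leaf [GA], instance layer (helper8): THE COMPOSITE
`[GA-I] + [TV-W] + [TP-W]` for a tower `E' ≤ E ≤ Quot(O((X)))` inside `L((X))` (`char L = 0`).

Inputs: an involution `W` of `E` with `W z = z(X^q)` on `E'` and `[E : E'] = q + 1` ([AL]), a
coordinate `lam' ∈ E'` which is the image of a series `y` over `O` whose reduction has
`𝔽_q`-coefficients and a nonzero coefficient at an exponent prime to `q`, finiteness of `E'`, `E`
over `L(lam')`, and `π` PRIME on the chart `fc_chart O {lam'}` of `E'` (`cn_prime_funField` at the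
level prime to `q`).  Output (`ssm_gt_hyp`): the hypotheses `ssm_tp_Hyp` of the two-primes lemma
[TP] for the coordinate ring `O[lam] ⊆ E`, `V₁ =` the Gauss valuation subring of `E`,
`V₂ = W(V₁)`; all the instances of `ssm_tpw_hyp_of_prime` are discharged here.

Prefix `ssm_gt_`.
-/
import Mathlib
import Fermat.Agent.SS.Model.TwoValInst
import Fermat.Agent.SS.Model.GaussOver

set_option autoImplicit false
set_option linter.unusedSectionVars false
set_option linter.unusedVariables false
set_option linter.style.haveILetI false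

noncomputable section

open ModularCurve IntermediateField IsLocalRing
open Fermat.Agent.JT3

namespace Fermat.Agent.SS

section Rank

variable {L : Type*} [Field L] {E' E : IntermediateField L (LaurentSeries L)}

/-- the degree of `E` over `E'` for the inclusion algebra is the relative degree. -/
theorem ssm_gt_finrank_eq (hle : E' ≤ E) :
    letI := ssm_gi_algebra hle
    Module.finrank ↥E' ↥E = IntermediateField.relfinrank E' E := by
  letI := ssm_gi_algebra hle
  rw [IntermediateField.relfinrank_eq_finrank_of_le hle]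
  let e : ↥E ≃ₗ[↥E'] ↥(IntermediateField.extendScalars hle) :=
    { toFun := fun x => ⟨x.1, x.2⟩
      invFun := fun x => ⟨x.1, x.2⟩
      map_add' := fun _ _ => rfl
      map_smul' := fun _ _ => rfl
      left_inv := fun _ => rfl
      right_inv := fun _ => rfl }
  exact e.finrank_eq

set_option synthInstance.maxHeartbeats 200000 in
/-- the tower `O ⊆ E' ⊆ E`. -/
theorem ssm_gt_isScalarTower (O : ValuationSubring L) (hle : E' ≤ E) :
    letI := ssm_gi_algebra hle
    IsScalarTower ↥O ↥E' ↥E :=
  letI := ssm_gi_algebra hle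
  IsScalarTower.of_algebraMap_eq fun _ => rfl

end Rank

section Composite

variable {L : Type*} [Field L] [CharZero L] (O : ValuationSubring L)
  [IsDiscreteValuationRing O] {π : O} (hπ : Irreducible π)
variable (q : ℕ) [NeZero q] [hq : Fact q.Prime] [CharP (ResidueField O) q]
variable (E' E : IntermediateField L (LaurentSeries L)) (hle : E' ≤ E)
  (hE : E ≤ gq_quotField O L)

/-- the element of the Gauss ring of `E'` defined by an element of `E'` with integral
coefficients. -/
def ssm_gt_lam (y : LaurentSeries O) (lam' : ↥E')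
    (hlam : (lam' : LaurentSeries L) = coeffMap (algebraMap O L) y) :
    ↥(gq_valSubOf π hπ.ne_zero hπ.maximalIdeal_eq E' (hle.trans hE)) :=
  ⟨lam', by
    rw [gq_mem_valSubOf, hlam]
    exact gq_isBdd_iota y⟩

/-- **the data of the two-valuations lemma**, with the inclusion algebra structures. -/
theorem ssm_gt_data (W : ↥E ≃+* ↥E) (hWW : ∀ x, W (W x) = x)
    (hW : ∀ z : ↥E', ((W (IntermediateField.inclusion hle z) : ↥E) : LaurentSeries L) =
      qExpand L q (z : LaurentSeries L))
    (hrank : IntermediateField.relfinrank E' E = q + 1)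
    (y : LaurentSeries O) (hyF : ssm_ga_FrobFixed q y) (n : ℤ) (hn : ¬ (q : ℤ) ∣ n)
    (hyn : residue O (y.coeff n) ≠ 0) (lam' : ↥E')
    (hlam : (lam' : LaurentSeries L) = coeffMap (algebraMap O L) y) :
    letI := ssm_gi_algebra hle
    letI := ssm_gi_algebraV hle (gq_valSubOf π hπ.ne_zero hπ.maximalIdeal_eq E' (hle.trans hE))
    ssm_tw_Data ↥E' ↥(gq_valSubOf π hπ.ne_zero hπ.maximalIdeal_eq E' (hle.trans hE)) q
      (gq_valSubOf π hπ.ne_zero hπ.maximalIdeal_eq E hE) W
      (ssm_gt_lam O hπ E' E hle hE y lam' hlam) := by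
  letI := ssm_gi_algebra hle
  letI := ssm_gi_algebraV hle (gq_valSubOf π hπ.ne_zero hπ.maximalIdeal_eq E' (hle.trans hE))
  haveI := ssm_gi_isScalarTower hle
    (gq_valSubOf π hπ.ne_zero hπ.maximalIdeal_eq E' (hle.trans hE))
  exact ssm_gi_data O hπ q E' E hle hE (fun _ => rfl) W hWW hW
    ((ssm_gt_finrank_eq hle).trans hrank) y hyF n hn hyn _ hlam

set_option synthInstance.maxHeartbeats 200000 in
/-- **the composite**: the hypotheses of the two-primes lemma for `O[lam] ⊆ E`, `V₁` the Gauss
valuation subring, `V₂ = W(V₁)`. -/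
theorem ssm_gt_hyp (W : ↥E ≃+* ↥E) (hWW : ∀ x, W (W x) = x)
    (hW : ∀ z : ↥E', ((W (IntermediateField.inclusion hle z) : ↥E) : LaurentSeries L) =
      qExpand L q (z : LaurentSeries L))
    (hrank : IntermediateField.relfinrank E' E = q + 1)
    (y : LaurentSeries O) (hyF : ssm_ga_FrobFixed q y) (n : ℤ) (hn : ¬ (q : ℤ) ∣ n)
    (hyn : residue O (y.coeff n) ≠ 0) (lam' : ↥E')
    (hlam : (lam' : LaurentSeries L) = coeffMap (algebraMap O L) y)
    [FiniteDimensional L⟮lam'⟯ ↥E']
    [FiniteDimensional L⟮IntermediateField.inclusion hle lam'⟯ ↥E]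
    (hprime : Prime (algebraMap ↥O (fc_chart ↥O ({lam'} : Set ↥E')) π)) :
    ssm_tp_Hyp
      (algebraMap ↥O (Algebra.adjoin ↥O ({IntermediateField.inclusion hle lam'} : Set ↥E)) π)
      (gq_valSubOf π hπ.ne_zero hπ.maximalIdeal_eq E hE)
      ((gq_valSubOf π hπ.ne_zero hπ.maximalIdeal_eq E hE).comap (W : ↥E →+* ↥E)) := by
  letI := ssm_gi_algebra hle
  letI := ssm_gi_algebraV hle (gq_valSubOf π hπ.ne_zero hπ.maximalIdeal_eq E' (hle.trans hE))
  haveI := ssm_gi_isScalarTower hle
    (gq_valSubOf π hπ.ne_zero hπ.maximalIdeal_eq E' (hle.trans hE))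
  have hfr : Module.finrank ↥E' ↥E = q + 1 := (ssm_gt_finrank_eq hle).trans hrank
  haveI : FiniteDimensional ↥E' ↥E := ssm_gi_finiteDimensional hfr
  haveI : Algebra.IsSeparable ↥E' ↥E := ssm_gi_isSeparable
  haveI := ssm_go_isScalarTower O E
  haveI := ssm_go_isScalarTower O E'
  haveI := ssm_gt_isScalarTower O hle
  have hn0 : n ≠ 0 := by
    rintro rfl
    exact hn (dvd_zero _)
  have D := ssm_gt_data O hπ q E' E hle hE W hWW hW hrank y hyF n hn hyn lam' hlam
  have hx : Transcendental L lam' := ssm_go_transcendental O E' y lam' hlam hn0 hyn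
  have hxE : Transcendental L (algebraMap ↥E' ↥E lam') :=
    ssm_go_transcendental O E y (IntermediateField.inclusion hle lam') hlam hn0 hyn
  exact ssm_tpw_hyp_of_prime (L := L) D hπ hx hxE hprime
    (gq_valSubOf π hπ.ne_zero hπ.maximalIdeal_eq E' (hle.trans hE))
    (fun z => (ssm_gi_mem_range _ z).symm)
    (ssm_go_over O E' y lam' hlam hπ (hle.trans hE) hn0 hyn)
    (gq_unif π hπ.ne_zero hπ.maximalIdeal_eq E' (hle.trans hE))
    (ssm_ga_unif_irreducible π hπ.ne_zero hπ.maximalIdeal_eq E' (hle.trans hE))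
    (ssm_go_unif O E' hπ (hle.trans hE))

end Composite

end Fermat.Agent.SS
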