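/-
Project SS (S34), cell [M] (model), instance layer (helper8): THE HESSE TOWER (`q = 2`; any prime
`q ≠ 3`), COORDINATE `x = μ - 1` (ruling "Option M" of the [M] architect).

`E' = hs_E L h3 N' ≤ E = hs_E L h3 N` (in the application `N = N' q`), `O ⊆ L` a DVR of residue
characteristic `q` with `3 ∈ Oˣ`, `W` an involution of `E` with `W z = z(X^q)` on `E'` and
`[E : E'] = q + 1` (the Atkin–Lehner involution of the Hesse tower, [ALE]-H), `V₁ =` the Gauss
valuation subring of `E`, `R' =` the Gauss ring of `E'`: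

* `ssm_glh_data` : `ssm_tw_Data ↥E' R' q V₁ W (μ - 1)`;
* `ssm_glh_hyp`  : `ssm_tp_Hyp (π in O[μ - 1]) V₁ (W V₁)` from `π` prime on the `(μ - 1)`-chart of
  `E'` (S18 at level `N'` + coordinate change);
* `ssm_glh_over` : the Gauss valuation subring lies over the Gauss ring of `O[μ - 1]`.

Prefix `ssm_glh_`.
-/
import Mathlib
import Fermat.Agent.SS.Model.TwoPrimesInst
import Fermat.Agent.JT3.Inst.HesseFunFieldFacts

set_option autoImplicit false
set_option linter.unusedSectionVars false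
set_option linter.unusedVariables false
set_option linter.style.haveILetI false

noncomputable section

open ModularCurve IntermediateField IsLocalRing
open Fermat.Agent.JT3

namespace Fermat.Agent.SS

section Adjoin

variable (k : Type*) {F : Type*} [Field k] [Field F] [Algebra k F]

/-- `k(m - 1) = k(m)`. -/
theorem ssm_glh_adjoin_eq (m : F) :
    IntermediateField.adjoin k ({m - 1} : Set F) = IntermediateField.adjoin k ({m} : Set F) := by
  apply le_antisymm
  · rw [IntermediateField.adjoin_simple_le_iff]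
    have h1 : m ∈ IntermediateField.adjoin k ({m} : Set F) :=
      IntermediateField.mem_adjoin_simple_self k m
    exact (IntermediateField.adjoin k ({m} : Set F)).sub_mem h1
      (IntermediateField.adjoin k ({m} : Set F)).one_mem
  · rw [IntermediateField.adjoin_simple_le_iff]
    have h1 : m - 1 ∈ IntermediateField.adjoin k ({m - 1} : Set F) :=
      IntermediateField.mem_adjoin_simple_self k (m - 1)
    have h2 := (IntermediateField.adjoin k ({m - 1} : Set F)).add_mem h1
      (IntermediateField.adjoin k ({m - 1} : Set F)).one_mem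
    rwa [sub_add_cancel] at h2

end Adjoin

section Series

variable {L : Type*} [Field L] (h3 : (3 : L) ≠ 0) (O : ValuationSubring L)
  (h3O : IsUnit (3 : O))
variable (q : ℕ) [NeZero q] [hq : Fact q.Prime] [CharP (ResidueField O) q]

/-- `μ - 1` over `L` is the image of `μ - 1` over `O`. -/
theorem ssm_glh_eq_iota :
    hs_mu L h3 - 1 = coeffMap (algebraMap O L) (hm_mu O h3O - 1) := by
  rw [map_sub, map_one, hsa_mu_eq_iota h3 O h3O]

omit [NeZero q] in
/-- the reduction of `μ - 1` has `𝔽_q`-coefficients. -/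
theorem ssm_glh_frobFixed : ssm_ga_FrobFixed q (hm_mu O h3O - 1) := by
  have h := ssm_gh_mu_frobFixed O h3O q
  unfold ssm_ga_FrobFixed at h ⊢
  rw [map_sub, map_sub, map_one, map_one, h]

omit [NeZero q] hq [CharP (ResidueField O) q] in
/-- the coefficient of `X⁻¹` in `μ - 1` is a unit. -/
theorem ssm_glh_coeff : residue O ((hm_mu O h3O - 1).coeff (-1)) ≠ 0 := by
  have h1 : ((1 : LaurentSeries O)).coeff (-1) = 0 := by
    rw [HahnSeries.coeff_one, if_neg (by norm_num)]
  rw [HahnSeries.coeff_sub, h1, sub_zero]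
  exact ssm_gh_mu_coeff O h3O

end Series

section Hesse

variable {L : Type*} [Field L] [CharZero L] (h3 : (3 : L) ≠ 0) (O : ValuationSubring L)
  [IsDiscreteValuationRing O] (h3O : IsUnit (3 : O)) {π : O} (hπ : Irreducible π)
variable (q : ℕ) [NeZero q] [hq : Fact q.Prime] [CharP (ResidueField O) q]
variable (N' N : ℕ) [NeZero N'] [NeZero N] (hle : hs_E L h3 N' ≤ hs_E L h3 N)

omit [CharZero L] [IsDiscreteValuationRing ↥O] in
/-- the coordinate `x = μ - 1` of `E' = hs_E L h3 N'` is the image of `μ - 1` over `O`. -/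
theorem ssm_glh_coe_x :
    ((hs_muE h3 N' - 1 : ↥(hs_E L h3 N')) : LaurentSeries L) =
      coeffMap (algebraMap O L) (hm_mu O h3O - 1) := by
  rw [← ssm_glh_eq_iota h3 O h3O]
  rfl

/-- `E` is finite over `L(μ - 1)`. -/
theorem ssm_glh_finite :
    FiniteDimensional L⟮(hs_muE h3 N - 1 : ↥(hs_E L h3 N))⟯ ↥(hs_E L h3 N) := by
  rw [ssm_glh_adjoin_eq L]
  exact hsf_finite L h3 N

omit [CharZero L] [NeZero q] hq [CharP (ResidueField O) q] in
/-- **`hover` for the coordinate `μ - 1`**: the Gauss valuation subring of `hs_E L h3 N` lies over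
the Gauss ring of `O[μ - 1]`. -/
theorem ssm_glh_over :
    ssm_tp_Over
      (algebraMap ↥O (Algebra.adjoin ↥O ({hs_muE h3 N - 1} : Set ↥(hs_E L h3 N))) π)
      (gq_valSubOf π hπ.ne_zero hπ.maximalIdeal_eq (hs_E L h3 N)
        (hsa_E_le_quotField h3 O N h3O)) :=
  ssm_go_over O (hs_E L h3 N) (hm_mu O h3O - 1) (hs_muE h3 N - 1)
    (ssm_glh_coe_x h3 O h3O N) hπ (hsa_E_le_quotField h3 O N h3O) (n := -1) (by norm_num)
    (ssm_glh_coeff O h3O)

/-- `μ - 1` as an element of the Gauss ring of `E' = hs_E L h3 N'`. -/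
abbrev ssm_glh_x :
    ↥(gq_valSubOf π hπ.ne_zero hπ.maximalIdeal_eq (hs_E L h3 N')
      (hle.trans (hsa_E_le_quotField h3 O N h3O))) :=
  ssm_gt_lam O hπ (hs_E L h3 N') (hs_E L h3 N) hle (hsa_E_le_quotField h3 O N h3O)
    (hm_mu O h3O - 1) (hs_muE h3 N' - 1) (ssm_glh_coe_x h3 O h3O N')

/-- **the data of the two-valuations lemma for the Hesse tower**, coordinate `μ - 1`. -/
theorem ssm_glh_data (W : ↥(hs_E L h3 N) ≃+* ↥(hs_E L h3 N)) (hWW : ∀ x, W (W x) = x)
    (hW : ∀ z : ↥(hs_E L h3 N'),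
      ((W (IntermediateField.inclusion hle z) : ↥(hs_E L h3 N)) : LaurentSeries L) =
        qExpand L q (z : LaurentSeries L))
    (hrank : IntermediateField.relfinrank (hs_E L h3 N') (hs_E L h3 N) = q + 1) :
    letI := ssm_gi_algebra hle
    letI := ssm_gi_algebraV hle
      (gq_valSubOf π hπ.ne_zero hπ.maximalIdeal_eq (hs_E L h3 N')
        (hle.trans (hsa_E_le_quotField h3 O N h3O)))
    ssm_tw_Data ↥(hs_E L h3 N')
      ↥(gq_valSubOf π hπ.ne_zero hπ.maximalIdeal_eq (hs_E L h3 N')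
        (hle.trans (hsa_E_le_quotField h3 O N h3O))) q
      (gq_valSubOf π hπ.ne_zero hπ.maximalIdeal_eq (hs_E L h3 N)
        (hsa_E_le_quotField h3 O N h3O))
      W (ssm_glh_x h3 O h3O hπ N' N hle) :=
  ssm_gt_data O hπ q (hs_E L h3 N') (hs_E L h3 N) hle (hsa_E_le_quotField h3 O N h3O) W hWW hW
    hrank (hm_mu O h3O - 1) (ssm_glh_frobFixed O h3O q) (-1) (ssm_gh_not_dvd_neg_one q)
    (ssm_glh_coeff O h3O) (hs_muE h3 N' - 1) (ssm_glh_coe_x h3 O h3O N')

/-- **the hypotheses of the two-primes lemma for the Hesse tower**, coordinate `μ - 1`, from `π`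
prime on the `(μ - 1)`-chart at level `N'`. -/
theorem ssm_glh_hyp (W : ↥(hs_E L h3 N) ≃+* ↥(hs_E L h3 N)) (hWW : ∀ x, W (W x) = x)
    (hW : ∀ z : ↥(hs_E L h3 N'),
      ((W (IntermediateField.inclusion hle z) : ↥(hs_E L h3 N)) : LaurentSeries L) =
        qExpand L q (z : LaurentSeries L))
    (hrank : IntermediateField.relfinrank (hs_E L h3 N') (hs_E L h3 N) = q + 1)
    (hprime : Prime (algebraMap ↥O
      (fc_chart ↥O ({hs_muE h3 N' - 1} : Set ↥(hs_E L h3 N'))) π)) :
    ssm_tp_Hyp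
      (algebraMap ↥O (Algebra.adjoin ↥O ({hs_muE h3 N - 1} : Set ↥(hs_E L h3 N))) π)
      (gq_valSubOf π hπ.ne_zero hπ.maximalIdeal_eq (hs_E L h3 N)
        (hsa_E_le_quotField h3 O N h3O))
      ((gq_valSubOf π hπ.ne_zero hπ.maximalIdeal_eq (hs_E L h3 N)
        (hsa_E_le_quotField h3 O N h3O)).comap (W : ↥(hs_E L h3 N) →+* ↥(hs_E L h3 N))) := by
  haveI := ssm_glh_finite h3 N'
  haveI : FiniteDimensional
      L⟮IntermediateField.inclusion hle (hs_muE h3 N' - 1)⟯ ↥(hs_E L h3 N) :=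
    ssm_glh_finite h3 N
  exact ssm_gt_hyp O hπ q (hs_E L h3 N') (hs_E L h3 N) hle (hsa_E_le_quotField h3 O N h3O) W hWW
    hW hrank (hm_mu O h3O - 1) (ssm_glh_frobFixed O h3O q) (-1) (ssm_gh_not_dvd_neg_one q)
    (ssm_glh_coeff O h3O) (hs_muE h3 N' - 1) (ssm_glh_coe_x h3 O h3O N') hprime

end Hesse

end Fermat.Agent.SS
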