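/-
Project SS (S34), cell [M] (model), instance layer (helper8): THE HESSE TOWER with the Atkin–Lehner
involution `ssm_alh_WE` of helper20's [ALE]-H plugged in (`q ≠ 3` prime, `q ∤ N'`; coordinate
`x = μ - 1`, "Option M").  The only hypothesis left besides `π` prime on the `(μ - 1)`-chart at
level `N'` is the identification `hF9 : hs_E L h3 N = F_{lcm(9, 3N)}` ([F9], helper12).

* `ssm_glh_dataW` : `ssm_tw_Data ↥(hs_E L h3 N') R' q V₁ W (μ - 1)`;
* `ssm_glh_hypW`  : `ssm_tp_Hyp (π in O[μ - 1]) V₁ (W V₁)`.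

Prefix `ssm_glh_`.
-/
import Mathlib
import Fermat.Agent.SS.Model.TwoPrimesHes
import Fermat.Agent.SS.Model.ALEHesse

set_option autoImplicit false
set_option linter.unusedSectionVars false
set_option linter.unusedVariables false
set_option linter.style.haveILetI false

noncomputable section

open ModularCurve IntermediateField IsLocalRing
open Fermat.Agent.JT3

namespace Fermat.Agent.SS

section HesseW

variable {L : Type*} [Field L] [CharZero L] [Algebra L (AlgebraicClosure ℚ)] (h3 : (3 : L) ≠ 0)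
  (hF9 : ∀ (N : ℕ) [NeZero N], hs_E L h3 N = modularFunctionFieldFullC L (Nat.lcm 9 (3 * N)))
  (O : ValuationSubring L) [IsDiscreteValuationRing O] (h3O : IsUnit (3 : O)) {π : O}
  (hπ : Irreducible π)
variable (N' q : ℕ) [NeZero N'] [NeZero q] [hq : Fact q.Prime] [CharP (ResidueField O) q]
  (hq3 : ¬ 3 ∣ q) (hqN' : ¬ q ∣ N')

/-- the Atkin–Lehner involution of `E = hs_E L h3 (N' q)` as a ring automorphism. -/
abbrev ssm_glh_W : ↥(hs_E L h3 (N' * q)) ≃+* ↥(hs_E L h3 (N' * q)) :=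
  (ssm_alh_WE L h3 hF9 N' q hq.out hq3 hqN').toRingEquiv

theorem ssm_glh_W_apply (x : ↥(hs_E L h3 (N' * q))) :
    ssm_glh_W h3 hF9 N' q hq3 hqN' x = ssm_alh_WE L h3 hF9 N' q hq.out hq3 hqN' x := rfl

/-- **the data of the two-valuations lemma for the Hesse tower** (`W = ssm_alh_WE`). -/
theorem ssm_glh_dataW :
    letI := ssm_gi_algebra (ssm_alh_E_le L h3 hF9 N' q)
    letI := ssm_gi_algebraV (ssm_alh_E_le L h3 hF9 N' q)
      (gq_valSubOf π hπ.ne_zero hπ.maximalIdeal_eq (hs_E L h3 N')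
        ((ssm_alh_E_le L h3 hF9 N' q).trans (hsa_E_le_quotField h3 O (N' * q) h3O)))
    ssm_tw_Data ↥(hs_E L h3 N')
      ↥(gq_valSubOf π hπ.ne_zero hπ.maximalIdeal_eq (hs_E L h3 N')
        ((ssm_alh_E_le L h3 hF9 N' q).trans (hsa_E_le_quotField h3 O (N' * q) h3O))) q
      (gq_valSubOf π hπ.ne_zero hπ.maximalIdeal_eq (hs_E L h3 (N' * q))
        (hsa_E_le_quotField h3 O (N' * q) h3O))
      (ssm_glh_W h3 hF9 N' q hq3 hqN')
      (ssm_glh_x h3 O h3O hπ N' (N' * q) (ssm_alh_E_le L h3 hF9 N' q)) :=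
  ssm_glh_data h3 O h3O hπ q N' (N' * q) (ssm_alh_E_le L h3 hF9 N' q)
    (ssm_glh_W h3 hF9 N' q hq3 hqN') (ssm_alh_WE_WE L h3 hF9 N' q hq.out hq3 hqN')
    (fun z => ssm_alh_coe_WE_of_mem L h3 hF9 N' q hq.out hq3 hqN' z.2 _)
    (ssm_alh_relfinrank_E L h3 hF9 N' q hq.out hq3 hqN')

/-- **the hypotheses of the two-primes lemma for the Hesse tower** (`W = ssm_alh_WE`), coordinate
`μ - 1`, from `π` prime on the `(μ - 1)`-chart at level `N'`. -/
theorem ssm_glh_hypW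
    (hprime : Prime (algebraMap ↥O
      (fc_chart ↥O ({hs_muE h3 N' - 1} : Set ↥(hs_E L h3 N'))) π)) :
    ssm_tp_Hyp
      (algebraMap ↥O
        (Algebra.adjoin ↥O ({hs_muE h3 (N' * q) - 1} : Set ↥(hs_E L h3 (N' * q)))) π)
      (gq_valSubOf π hπ.ne_zero hπ.maximalIdeal_eq (hs_E L h3 (N' * q))
        (hsa_E_le_quotField h3 O (N' * q) h3O))
      ((gq_valSubOf π hπ.ne_zero hπ.maximalIdeal_eq (hs_E L h3 (N' * q))
        (hsa_E_le_quotField h3 O (N' * q) h3O)).comap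
          (ssm_glh_W h3 hF9 N' q hq3 hqN' :
            ↥(hs_E L h3 (N' * q)) →+* ↥(hs_E L h3 (N' * q)))) :=
  ssm_glh_hyp h3 O h3O hπ q N' (N' * q) (ssm_alh_E_le L h3 hF9 N' q)
    (ssm_glh_W h3 hF9 N' q hq3 hqN') (ssm_alh_WE_WE L h3 hF9 N' q hq.out hq3 hqN')
    (fun z => ssm_alh_coe_WE_of_mem L h3 hF9 N' q hq.out hq3 hqN' z.2 _)
    (ssm_alh_relfinrank_E L h3 hF9 N' q hq.out hq3 hqN') hprime

end HesseW

end Fermat.Agent.SS
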