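/-
Project SS (S34), cell [M] (model), instance layer, HESSE tower (`q ≠ 3` prime, in the application
`q = 2`; coordinate `x = μ - 1`, "Option M"): the clause [F] of the final assembly, UNCONDITIONALLY
in [F9].

Context = helper8's `TwoPrimesHesW.lean` with `hF9` discharged by `ssm_f9'` (SS/Model/F9.lean):
`E = hs_E L h3 (N' q)`, `W = ssm_fh_W` the Atkin–Lehner involution, `V₁ = ssm_fh_V1` the Gauss
valuation subring, `V₂ = ssm_fh_V2 = W(V₁)`, `μ = hs_muE h3 (N' q)`, `μ_q = W μ`.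

* `ssm_fh_hF9`     : the hypothesis `hF9` of the Hesse twin files, as a theorem;
* `ssm_fh_data`, `ssm_fh_hyp` : `ssm_glh_dataW`, `ssm_glh_hypW` without `hF9`;
* `ssm_fh_coe_W_mu`, `ssm_fh_W_W`, `ssm_fh_q_mem`, `ssm_fh_frob` : `W μ = μ(X^q)`, `W² = 1`,
  `q ∈ 𝔪(V₁)`, `μ_q - μ^q ∈ 𝔪(V₁)`;
* `ssm_fh_cusp`    : the Hesse cusp facts `ssm_cfh_CuspFacts L q μ μ_q` (from `ssm_cfh_final` and
  `ssm_f9_level3`);
* `ssm_fh_facts`   : **[F]-H**: `ssm_i1g_Facts ↥O q (μ - 1) (μ_q - 1) (μ² + μ + 1) (μ_q² + μ_q + 1) V₁ V₂`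
  from `π` prime on the `(μ - 1)`-chart at level `N'`.

Prefix `ssm_fh_`.
-/
import Mathlib
import Fermat.Agent.SS.Model.TwoPrimesHesW
import Fermat.Agent.SS.Model.IntegralGen
import Fermat.Agent.SS.Model.SigmaHesseM
import Fermat.Agent.SS.Model.F9Inst
import Fermat.Agent.SS.Model.F9

set_option autoImplicit false
set_option linter.unusedSectionVars false
set_option linter.unusedVariables false
set_option linter.style.haveILetI false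

noncomputable section

open ModularCurve IntermediateField IsLocalRing
open Fermat.Agent.JT3

namespace Fermat.Agent.SS

section FactsHesse

variable {L : Type*} [Field L] [CharZero L] [Algebra L (AlgebraicClosure ℚ)] (h3 : (3 : L) ≠ 0)
  (O : ValuationSubring L) [IsDiscreteValuationRing O] (h3O : IsUnit (3 : O)) {π : O}
  (hπ : Irreducible π)
variable (N' q : ℕ) [NeZero N'] [NeZero q] [hq : Fact q.Prime] [CharP (ResidueField O) q]
  (hq3 : ¬ 3 ∣ q) (hqN' : ¬ q ∣ N')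

/-- **[F9] in the shape consumed by the Hesse twin files.** -/
theorem ssm_fh_hF9 :
    ∀ (N : ℕ) [NeZero N], hs_E L h3 N = modularFunctionFieldFullC L (Nat.lcm 9 (3 * N)) :=
  fun N _ => ssm_f9' L h3 N

/-- the Atkin–Lehner involution of `E = hs_E L h3 (N' q)`. -/
abbrev ssm_fh_W : ↥(hs_E L h3 (N' * q)) ≃+* ↥(hs_E L h3 (N' * q)) :=
  ssm_glh_W h3 (ssm_fh_hF9 h3) N' q hq3 hqN'

/-- the Gauss valuation subring of `E`. -/
abbrev ssm_fh_V1 : ValuationSubring ↥(hs_E L h3 (N' * q)) :=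
  gq_valSubOf π hπ.ne_zero hπ.maximalIdeal_eq (hs_E L h3 (N' * q))
    (hsa_E_le_quotField h3 O (N' * q) h3O)

/-- its Atkin–Lehner conjugate. -/
abbrev ssm_fh_V2 : ValuationSubring ↥(hs_E L h3 (N' * q)) :=
  (ssm_fh_V1 h3 O h3O hπ N' q).comap
    (ssm_fh_W h3 N' q hq3 hqN' : ↥(hs_E L h3 (N' * q)) →+* ↥(hs_E L h3 (N' * q)))

theorem ssm_fh_W_W (x : ↥(hs_E L h3 (N' * q))) :
    ssm_fh_W h3 N' q hq3 hqN' (ssm_fh_W h3 N' q hq3 hqN' x) = x :=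
  ssm_alh_WE_WE L h3 (ssm_fh_hF9 h3) N' q hq.out hq3 hqN' x

/-- `W μ = μ(X^q)`. -/
theorem ssm_fh_coe_W_mu :
    ((ssm_fh_W h3 N' q hq3 hqN' (hs_muE h3 (N' * q)) : ↥(hs_E L h3 (N' * q))) : LaurentSeries L) =
      qExpand L q (hs_mu L h3) :=
  ssm_alh_coe_WE_mu L h3 (ssm_fh_hF9 h3) N' q hq.out hq3 hqN' (hs_mu_mem_E L h3 (N' * q))

/-- `ssm_glh_dataW`, unconditionally. -/
theorem ssm_fh_data :
    letI := ssm_gi_algebra (ssm_alh_E_le L h3 (ssm_fh_hF9 h3) N' q)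
    letI := ssm_gi_algebraV (ssm_alh_E_le L h3 (ssm_fh_hF9 h3) N' q)
      (gq_valSubOf π hπ.ne_zero hπ.maximalIdeal_eq (hs_E L h3 N')
        ((ssm_alh_E_le L h3 (ssm_fh_hF9 h3) N' q).trans
          (hsa_E_le_quotField h3 O (N' * q) h3O)))
    ssm_tw_Data ↥(hs_E L h3 N')
      ↥(gq_valSubOf π hπ.ne_zero hπ.maximalIdeal_eq (hs_E L h3 N')
        ((ssm_alh_E_le L h3 (ssm_fh_hF9 h3) N' q).trans
          (hsa_E_le_quotField h3 O (N' * q) h3O))) q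
      (ssm_fh_V1 h3 O h3O hπ N' q) (ssm_fh_W h3 N' q hq3 hqN')
      (ssm_glh_x h3 O h3O hπ N' (N' * q) (ssm_alh_E_le L h3 (ssm_fh_hF9 h3) N' q)) :=
  ssm_glh_dataW h3 (ssm_fh_hF9 h3) O h3O hπ N' q hq3 hqN'

/-- `ssm_glh_hypW`, unconditionally: the hypotheses of the two-primes lemma. -/
theorem ssm_fh_hyp
    (hprime : Prime (algebraMap ↥O
      (fc_chart ↥O ({hs_muE h3 N' - 1} : Set ↥(hs_E L h3 N'))) π)) :
    ssm_tp_Hyp
      (algebraMap ↥O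
        (Algebra.adjoin ↥O ({hs_muE h3 (N' * q) - 1} : Set ↥(hs_E L h3 (N' * q)))) π)
      (ssm_fh_V1 h3 O h3O hπ N' q) (ssm_fh_V2 h3 O h3O hπ N' q hq3 hqN') :=
  ssm_glh_hypW h3 (ssm_fh_hF9 h3) O h3O hπ N' q hq3 hqN' hprime

/-- `q ∈ 𝔪(V₁)`. -/
theorem ssm_fh_q_mem :
    ((q : ℕ) : ↥(hs_E L h3 (N' * q))) ∈ (ssm_fh_V1 h3 O h3O hπ N' q).nonunits := by
  refine ssm_ga_mem_nonunits_of_iota π hπ.ne_zero hπ.maximalIdeal_eq (hs_E L h3 (N' * q))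
    (hsa_E_le_quotField h3 O (N' * q) h3O) (q : ↥(hs_E L h3 (N' * q))) (q : LaurentSeries O) ?_ ?_
  · rw [map_natCast]
    push_cast
    rfl
  · rw [map_natCast,
      ← map_natCast (HahnSeries.C : ResidueField ↥O →+* LaurentSeries (ResidueField ↥O)),
      CharP.cast_eq_zero, map_zero]

/-- **Frobenius**: `μ_q - μ^q ∈ 𝔪(V₁)`. -/
theorem ssm_fh_frob :
    ssm_fh_W h3 N' q hq3 hqN' (hs_muE h3 (N' * q)) - hs_muE h3 (N' * q) ^ q ∈
      (ssm_fh_V1 h3 O h3O hπ N' q).nonunits := by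
  refine ssm_ga_frob_mem_nonunits q π hπ.ne_zero hπ.maximalIdeal_eq (hs_E L h3 (N' * q))
    (hsa_E_le_quotField h3 O (N' * q) h3O) (hm_mu O h3O) (ssm_gh_mu_frobFixed O h3O q) _ ?_
  push_cast
  rw [ssm_fh_coe_W_mu, ← hsa_mu_eq_iota h3 O h3O]
  rfl

/-- **the Hesse cusp facts** for `(μ, μ_q = W μ)`. -/
theorem ssm_fh_cusp :
    ssm_cfh_CuspFacts L q (hs_muE h3 (N' * q))
      (ssm_fh_W h3 N' q hq3 hqN' (hs_muE h3 (N' * q))) := by
  have hq3' : q ≠ 3 := by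
    rintro rfl
    exact hq3 dvd_rfl
  have hmuq : qExpand L q (hs_mu L h3) ∈ hs_E L h3 (N' * q) :=
    ssm_f9_mu_expand_mem L h3 (N' * q) (Dvd.intro_left N' rfl) hq3
  have h := ssm_cfh_final L (N' * q) q hq.out hq3' (Dvd.intro_left N' rfl) h3 (hm3_t3 L)
    (ssm_f9_level3 L h3) (ssm_f9' L h3 (N' * q)) (hs_mu_mem_E L h3 (N' * q)) hmuq
  have e : ssm_fh_W h3 N' q hq3 hqN' (hs_muE h3 (N' * q)) =
      (⟨qExpand L q (hs_mu L h3), hmuq⟩ : ↥(hs_E L h3 (N' * q))) :=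
    Subtype.ext (ssm_fh_coe_W_mu h3 N' q hq3 hqN')
  rw [e]
  exact h

/-- **[F]-H**: the integrality package of the Hesse tower in the coordinate `x = μ - 1`, middle pair
`t = μ² + μ + 1 = x² + 3x + 3`. -/
theorem ssm_fh_facts
    (hprime : Prime (algebraMap ↥O
      (fc_chart ↥O ({hs_muE h3 N' - 1} : Set ↥(hs_E L h3 N'))) π)) :
    ssm_i1g_Facts ↥O q (hs_muE h3 (N' * q) - 1)
      (ssm_fh_W h3 N' q hq3 hqN' (hs_muE h3 (N' * q)) - 1)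
      (hs_muE h3 (N' * q) ^ 2 + hs_muE h3 (N' * q) + 1)
      (ssm_fh_W h3 N' q hq3 hqN' (hs_muE h3 (N' * q)) ^ 2 +
        ssm_fh_W h3 N' q hq3 hqN' (hs_muE h3 (N' * q)) + 1)
      (ssm_fh_V1 h3 O h3O hπ N' q) (ssm_fh_V2 h3 O h3O hπ N' q hq3 hqN') := by
  haveI := ssm_go_isScalarTower O (hs_E L h3 (N' * q))
  haveI := ssm_glh_finite h3 (N' * q)
  have CF := ssm_fh_cusp h3 N' q hq3 hqN'
  exact ssm_i1g_hesseM (L := L) hπ (ssm_sgm_transcendental h3 (N' * q))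
    (ssm_fh_hyp h3 O h3O hπ N' q hq3 hqN' hprime) (ssm_fh_W h3 N' q hq3 hqN')
    (fun _ => Iff.rfl) rfl (ssm_fh_W_W h3 N' q hq3 hqN' _) hq.out
    (ssm_fh_q_mem h3 O h3O hπ N' q) (ssm_fh_frob h3 O h3O hπ N' q hq3 hqN')
    CF.one CF.one' CF.cyc CF.cyc' CF.xinf CF.xinf'

end FactsHesse

end Fermat.Agent.SS
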