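/-
SS / [M] MODEL cell, leaf [CP] (COMPONENTS), abstract, Mathlib only (+ the `tq_` vocabulary).

`φ : B' →+* B` an integral ring map (chart of level `N'` into the chart of level `N' q`),
`π' : B'` prime with `B' / π'` integrally closed, `P1 P2 : Ideal B` the two vertical primes,
`span {φ π'} = P1 ⊓ P2`.

* `ssm_cp_add`    : `B = φ B' + P1` as soon as `P1 ∩ B' = π' B'` and the residue field of `B_{P1}`
                    is that of `B'_(π')` (elementwise form `hκ`);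
* `ssm_cp_pow`    : the same for `q`-th powers (purely inseparable residue extension on `P2`);
* `ssm_cp_smooth` : at a prime `𝔫 ∋ π` off the second component the `tq_GenBy / tq_Dom` clause
                    (the shape of `jt_RegAt`) is inherited from `B'`;
* `ssm_cp_unique`, `ssm_cp_unique_crossing`, `ssm_cp_exists` : the points of each component over a
                    given point of `B'`.
-/
import Mathlib
import Fermat.Agent.JT3.Model.TameQuotient

set_option autoImplicit false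
set_option linter.unusedSectionVars false
set_option linter.style.haveILetI false

namespace Fermat.Agent.SS

open Ideal Polynomial Fermat.Agent.JT3

section Components

variable {B' B : Type*} [CommRing B'] [CommRing B]

/-- Core of (CP1): an element `c` of `B`, integral over `B'`, whose class modulo the prime `P` is a
fraction `x / y` of classes of elements of `B'`, is congruent modulo `P` to an element of `B'`, as
soon as `P ∩ B' = π' B'` and `B' / π'` is an integrally closed domain. -/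
theorem ssm_cp_core (φ : B' →+* B) (π' : B') (P : Ideal B) [P.IsPrime]
    (hπ' : (Ideal.span {π'} : Ideal B').IsPrime)
    (hic : IsIntegrallyClosed (B' ⧸ (Ideal.span {π'} : Ideal B')))
    (hcomap : P.comap φ = Ideal.span {π'})
    (c : B) (hc : φ.IsIntegralElem c) (x y : B') (hy : φ y ∉ P) (hxy : φ y * c - φ x ∈ P) :
    ∃ b' : B', c - φ b' ∈ P := by
  classical
  set I : Ideal B' := Ideal.span {π'} with hI
  haveI : I.IsPrime := hπ'
  let ψ : (B' ⧸ I) →+* (B ⧸ P) := Ideal.quotientMap P φ hcomap.ge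
  have hψ : Function.Injective ψ := Ideal.quotientMap_injective' hcomap.le
  have hψmk : ∀ a : B', ψ (Ideal.Quotient.mk I a) = Ideal.Quotient.mk P (φ a) := fun a =>
    Ideal.quotientMap_mk
  set KC := FractionRing (B ⧸ P) with hKC
  let g : (B' ⧸ I) →+* KC := (algebraMap (B ⧸ P) KC).comp ψ
  have hg : Function.Injective g := (IsFractionRing.injective (B ⧸ P) KC).comp hψ
  have hgmk : ∀ a : B', g (Ideal.Quotient.mk I a)
      = algebraMap (B ⧸ P) KC (Ideal.Quotient.mk P (φ a)) := fun a => by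
    change algebraMap (B ⧸ P) KC (ψ (Ideal.Quotient.mk I a)) = _
    rw [hψmk]
  set K := FractionRing (B' ⧸ I) with hK
  let L : K →+* KC := IsFractionRing.lift hg
  have hL : ∀ a : B' ⧸ I, L (algebraMap (B' ⧸ I) K a) = g a := fun a =>
    IsFractionRing.lift_algebraMap hg a
  -- the class of `c` is integral over `B' / π'`
  have hzint : g.IsIntegralElem (algebraMap (B ⧸ P) KC (Ideal.Quotient.mk P c)) := by
    obtain ⟨p, hp, hpc⟩ := hc
    refine ⟨p.map (Ideal.Quotient.mk I), hp.map _, ?_⟩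
    rw [Polynomial.eval₂_map]
    have h1 : g.comp (Ideal.Quotient.mk I)
        = ((algebraMap (B ⧸ P) KC).comp (Ideal.Quotient.mk P)).comp φ := by
      ext a
      exact hgmk a
    rw [h1, ← RingHom.comp_apply, ← Polynomial.hom_eval₂, hpc, map_zero]
  -- the classes of `x`, `y`
  have hy0 : Ideal.Quotient.mk P (φ y) ≠ 0 := by
    rwa [Ne, Ideal.Quotient.eq_zero_iff_mem]
  have hyI : Ideal.Quotient.mk I y ≠ 0 := by
    intro h
    apply hy0
    rw [← hψmk, h, map_zero]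
  have hrel : Ideal.Quotient.mk P (φ y) * Ideal.Quotient.mk P c = Ideal.Quotient.mk P (φ x) := by
    rw [← map_mul, ← sub_eq_zero, ← map_sub, Ideal.Quotient.eq_zero_iff_mem]
    exact hxy
  set κ : K := algebraMap (B' ⧸ I) K (Ideal.Quotient.mk I x)
    / algebraMap (B' ⧸ I) K (Ideal.Quotient.mk I y) with hκ
  have hyK : algebraMap (B' ⧸ I) K (Ideal.Quotient.mk I y) ≠ 0 := by
    intro h
    exact hyI ((IsFractionRing.injective (B' ⧸ I) K) (by rw [h, map_zero]))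
  have hκz : L κ = algebraMap (B ⧸ P) KC (Ideal.Quotient.mk P c) := by
    rw [hκ, map_div₀, hL, hL, hgmk, hgmk, div_eq_iff, ← map_mul, mul_comm, hrel]
    intro h
    exact hy0 ((IsFractionRing.injective (B ⧸ P) KC) (by rw [h, map_zero]))
  have hκint : IsIntegral (B' ⧸ I) κ := by
    obtain ⟨p, hp, hpz⟩ := hzint
    refine ⟨p, hp, ?_⟩
    apply L.injective
    rw [map_zero, Polynomial.hom_eval₂, hκz]
    have h2 : L.comp (algebraMap (B' ⧸ I) K) = g := by
      ext a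
      exact hL a
    rw [h2]
    exact hpz
  obtain ⟨a, ha⟩ := IsIntegrallyClosed.isIntegral_iff.mp hκint
  obtain ⟨b', rfl⟩ := Ideal.Quotient.mk_surjective a
  have hb' : Ideal.Quotient.mk I b' * Ideal.Quotient.mk I y = Ideal.Quotient.mk I x := by
    apply IsFractionRing.injective (B' ⧸ I) K
    rw [map_mul, ha, hκ, div_mul_cancel₀ _ hyK]
  refine ⟨b', ?_⟩
  rw [← Ideal.Quotient.eq_zero_iff_mem, map_sub, sub_eq_zero]
  apply mul_left_cancel₀ hy0
  rw [hrel]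
  calc Ideal.Quotient.mk P (φ x) = ψ (Ideal.Quotient.mk I x) := (hψmk x).symm
    _ = ψ (Ideal.Quotient.mk I b' * Ideal.Quotient.mk I y) := by rw [hb']
    _ = Ideal.Quotient.mk P (φ y) * Ideal.Quotient.mk P (φ b') := by
      rw [map_mul, hψmk, hψmk, mul_comm]

/-- (CP1) `B = φ B' + P`. -/
theorem ssm_cp_add (φ : B' →+* B) (hint : φ.IsIntegral) (π' : B') (P : Ideal B) [P.IsPrime]
    (hπ' : (Ideal.span {π'} : Ideal B').IsPrime)
    (hic : IsIntegrallyClosed (B' ⧸ (Ideal.span {π'} : Ideal B')))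
    (hcomap : P.comap φ = Ideal.span {π'})
    (hκ : ∀ b : B, ∃ x y : B', φ y ∉ P ∧ φ y * b - φ x ∈ P) :
    ∀ b : B, ∃ b' : B', b - φ b' ∈ P := by
  intro b
  obtain ⟨x, y, hy, hxy⟩ := hκ b
  exact ssm_cp_core φ π' P hπ' hic hcomap b (hint b) x y hy hxy

/-- (CP1q) `b ^ q ∈ φ B' + P` (purely inseparable residue extension). -/
theorem ssm_cp_pow (φ : B' →+* B) (hint : φ.IsIntegral) (π' : B') (P : Ideal B) [P.IsPrime]
    (hπ' : (Ideal.span {π'} : Ideal B').IsPrime)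
    (hic : IsIntegrallyClosed (B' ⧸ (Ideal.span {π'} : Ideal B')))
    (hcomap : P.comap φ = Ideal.span {π'}) (q : ℕ)
    (hκ : ∀ b : B, ∃ x y : B', φ y ∉ P ∧ φ y * b ^ q - φ x ∈ P) :
    ∀ b : B, ∃ b' : B', b ^ q - φ b' ∈ P := by
  intro b
  obtain ⟨x, y, hy, hxy⟩ := hκ b
  have hbq : φ.IsIntegralElem (b ^ q) := by
    letI := φ.toAlgebra
    exact (show IsIntegral B' b from hint b).pow q
  exact ssm_cp_core φ π' P hπ' hic hcomap (b ^ q) hbq x y hy hxy

/-- (CP1w) transport of `B = φ B' + P1` along an automorphism `W` with `W P1 ⊆ P2`: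
`B = (W ∘ φ) B' + P2`. -/
theorem ssm_cp_add_transport (φ : B' →+* B) (W : B ≃+* B) (P1 P2 : Ideal B)
    (hW : ∀ x ∈ P1, W x ∈ P2) (q : ℕ)
    (hadd : ∀ b : B, ∃ b' : B', b ^ q - φ b' ∈ P1) :
    ∀ b : B, ∃ b' : B', b ^ q - ((W : B →+* B).comp φ) b' ∈ P2 := by
  intro b
  obtain ⟨b', hb'⟩ := hadd (W.symm b)
  refine ⟨b', ?_⟩
  have := hW _ hb'
  rwa [map_sub, map_pow, W.apply_symm_apply] at this

/-- (CP1w') transport of the comap condition. -/
theorem ssm_cp_comap_transport (φ : B' →+* B) (W : B ≃+* B) (P1 P2 : Ideal B)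
    (hW : ∀ x, W x ∈ P2 ↔ x ∈ P1) :
    P2.comap ((W : B →+* B).comp φ) = P1.comap φ := by
  ext a
  simp only [Ideal.mem_comap, RingHom.comp_apply, RingHom.coe_coe]
  exact hW (φ a)

/-- (CP1w'') transport of integrality. -/
theorem ssm_cp_isIntegral_transport (φ : B' →+* B) (hint : φ.IsIntegral) (W : B ≃+* B) :
    ((W : B →+* B).comp φ).IsIntegral := by
  intro b
  obtain ⟨p, hp, hpb⟩ := hint (W.symm b)
  refine ⟨p, hp, ?_⟩
  have := congrArg (W : B →+* B) hpb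
  rw [Polynomial.hom_eval₂, map_zero] at this
  simpa using this

section TwoPrimes

variable (φ : B' →+* B) (π' : B') (P1 P2 : Ideal B) (hP : Ideal.span {φ π'} = P1 ⊓ P2)

include hP in
theorem ssm_cp_pi_mem_left : φ π' ∈ P1 :=
  (hP ▸ Ideal.subset_span rfl : φ π' ∈ P1 ⊓ P2).1

include hP in
theorem ssm_cp_pi_mem_right : φ π' ∈ P2 :=
  (hP ▸ Ideal.subset_span rfl : φ π' ∈ P1 ⊓ P2).2

include hP in
/-- A prime containing `π` contains one of the two components. -/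
theorem ssm_cp_le_or_le (𝔫 : Ideal B) [𝔫.IsPrime] (hπ𝔫 : φ π' ∈ 𝔫) : P1 ≤ 𝔫 ∨ P2 ≤ 𝔫 := by
  have : P1 ⊓ P2 ≤ 𝔫 := by
    rw [← hP, Ideal.span_singleton_le_iff_mem]
    exact hπ𝔫
  exact (Ideal.IsPrime.inf_le ‹𝔫.IsPrime›).mp this

include hP in
/-- A prime containing `π` and not the second component contains the first one. -/
theorem ssm_cp_le_of_not_le (𝔫 : Ideal B) [𝔫.IsPrime] (hπ𝔫 : φ π' ∈ 𝔫) (h2 : ¬ P2 ≤ 𝔫) :
    P1 ≤ 𝔫 :=
  (ssm_cp_le_or_le φ π' P1 P2 hP 𝔫 hπ𝔫).resolve_right h2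

include hP in
/-- (CP2, `tq_Dom` half) off the second component, `π` is locally prime. Needs nothing from `B'`. -/
theorem ssm_cp_dom [P1.IsPrime] (𝔫 : Ideal B) (h2 : ¬ P2 ≤ 𝔫) : tq_Dom (φ π') 𝔫 := by
  obtain ⟨p2, hp2, hp2n⟩ := SetLike.not_le_iff_exists.mp h2
  intro a b hab
  rw [hP] at hab ⊢
  rcases Ideal.IsPrime.mem_or_mem ‹P1.IsPrime› hab.1 with ha | hb
  · exact ⟨p2, hp2n, Or.inl ⟨P1.mul_mem_left _ ha, P2.mul_mem_right _ hp2⟩⟩
  · exact ⟨p2, hp2n, Or.inr ⟨P1.mul_mem_left _ hb, P2.mul_mem_right _ hp2⟩⟩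

include hP in
/-- (CP2) SMOOTH POINTS of the first component off the second one: the `tq_GenBy / tq_Dom` clause
is inherited from `B'`, with `t` ANY lift modulo `P1` of a local generator `t'` downstairs. -/
theorem ssm_cp_smooth [P1.IsPrime]
    (hadd : ∀ b : B, ∃ b' : B', b - φ b' ∈ P1)
    (𝔫 : Ideal B) [𝔫.IsPrime] (hπ𝔫 : φ π' ∈ 𝔫) (h2 : ¬ P2 ≤ 𝔫)
    (t' : B') (ht' : tq_GenBy π' t' (𝔫.comap φ)) (t : B) (htt : t - φ t' ∈ P1) :
    tq_GenBy (φ π') t 𝔫 ∧ tq_Dom (φ π') 𝔫 := by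
  have hP1n : P1 ≤ 𝔫 := ssm_cp_le_of_not_le φ π' P1 P2 hP 𝔫 hπ𝔫 h2
  obtain ⟨p2, hp2, hp2n⟩ := SetLike.not_le_iff_exists.mp h2
  have hspan : ∀ z ∈ P1, p2 * z ∈ Ideal.span {φ π', t} := by
    intro z hz
    have : p2 * z ∈ P1 ⊓ P2 := ⟨P1.mul_mem_left _ hz, P2.mul_mem_right _ hp2⟩
    rw [← hP] at this
    exact Ideal.span_mono (by intro w hw; rw [Set.mem_singleton_iff] at hw; subst hw; simp) this
  refine ⟨⟨hπ𝔫, ?_, ?_⟩, ssm_cp_dom φ π' P1 P2 hP 𝔫 h2⟩
  · have h1 : φ t' ∈ 𝔫 := ht'.2.1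
    have : t = φ t' + (t - φ t') := by ring
    rw [this]
    exact 𝔫.add_mem h1 (hP1n htt)
  · intro x hx
    obtain ⟨x', hx'⟩ := hadd x
    have hx'n : x' ∈ 𝔫.comap φ := by
      rw [Ideal.mem_comap]
      have : φ x' = x - (x - φ x') := by ring
      rw [this]
      exact 𝔫.sub_mem hx (hP1n hx')
    obtain ⟨s', hs', hs'x⟩ := ht'.2.2 x' hx'n
    obtain ⟨a, r, har⟩ := Ideal.mem_span_pair.mp hs'x
    refine ⟨φ s' * p2, ?_, ?_⟩
    · intro h
      rcases Ideal.IsPrime.mem_or_mem ‹𝔫.IsPrime› h with h | h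
      · exact hs' h
      · exact hp2n h
    · have e : φ s' * p2 * x = (p2 * φ a) * φ π' + (p2 * φ r) * t
          - φ r * (p2 * (t - φ t')) + φ s' * (p2 * (x - φ x')) := by
        have : φ s' * φ x' = φ a * φ π' + φ r * φ t' := by
          rw [← map_mul, ← map_mul, ← map_mul, ← map_add, har]
        linear_combination p2 * this
      rw [e]
      refine Ideal.add_mem _ (Ideal.sub_mem _ (Ideal.add_mem _ ?_ ?_) ?_) ?_
      · exact Ideal.mul_mem_left _ _ (Ideal.subset_span (by simp))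
      · exact Ideal.mul_mem_left _ _ (Ideal.subset_span (by simp))
      · exact Ideal.mul_mem_left _ _ (hspan _ htt)
      · exact Ideal.mul_mem_left _ _ (hspan _ hx')

end TwoPrimes

/-- (CP3) at most one prime of the component `P` over a given prime of `B'`, as soon as `q`-th
powers of elements of `B` are congruent modulo `P` to elements of `B'` (`q = 1`: first component,
`q` the residue characteristic: second component). -/
theorem ssm_cp_unique (φ : B' →+* B) (P : Ideal B) (q : ℕ) (hq : 0 < q)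
    (hpow : ∀ b : B, ∃ b' : B', b ^ q - φ b' ∈ P)
    (𝔫₁ 𝔫₂ : Ideal B) [𝔫₁.IsPrime] [𝔫₂.IsPrime] (h1 : P ≤ 𝔫₁) (h2 : P ≤ 𝔫₂)
    (h : 𝔫₁.comap φ = 𝔫₂.comap φ) : 𝔫₁ = 𝔫₂ := by
  have key : ∀ (𝔞 𝔟 : Ideal B) [𝔞.IsPrime] [𝔟.IsPrime], P ≤ 𝔞 → P ≤ 𝔟 →
      𝔞.comap φ = 𝔟.comap φ → 𝔞 ≤ 𝔟 := by
    intro 𝔞 𝔟 _ _ ha hb hab r hr
    obtain ⟨b', hb'⟩ := hpow r
    have h3 : φ b' ∈ 𝔞 := by
      have : φ b' = r ^ q - (r ^ q - φ b') := by ring
      rw [this]
      refine 𝔞.sub_mem ?_ (ha hb')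
      exact Ideal.pow_mem_of_mem _ hr q hq
    have h4 : φ b' ∈ 𝔟 := by
      have : b' ∈ 𝔞.comap φ := h3
      rw [hab] at this
      exact this
    have h5 : r ^ q ∈ 𝔟 := by
      have : r ^ q = φ b' + (r ^ q - φ b') := by ring
      rw [this]
      exact 𝔟.add_mem h4 (hb hb')
    exact Ideal.IsPrime.mem_of_pow_mem ‹𝔟.IsPrime› q h5
  exact le_antisymm (key 𝔫₁ 𝔫₂ h1 h2 h) (key 𝔫₂ 𝔫₁ h2 h1 h.symm)

/-- (CP3') a CROSSING POINT `x0 ⊇ P1 + P2` is the only prime of `B` over its image in `B'`. -/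
theorem ssm_cp_unique_crossing (φ : B' →+* B) (π' : B') (P1 P2 : Ideal B)
    (hP : Ideal.span {φ π'} = P1 ⊓ P2) (q : ℕ) (hq : 0 < q)
    (hadd : ∀ b : B, ∃ b' : B', b - φ b' ∈ P1)
    (hpow : ∀ b : B, ∃ b' : B', b ^ q - φ b' ∈ P2)
    (x0 𝔫 : Ideal B) [x0.IsPrime] [𝔫.IsPrime] (h1 : P1 ≤ x0) (h2 : P2 ≤ x0)
    (h : 𝔫.comap φ = x0.comap φ) : 𝔫 = x0 := by
  have hπx0 : φ π' ∈ x0 := h1 (ssm_cp_pi_mem_left φ π' P1 P2 hP)
  have hπ𝔫 : φ π' ∈ 𝔫 := by
    have : π' ∈ x0.comap φ := hπx0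
    rw [← h] at this
    exact this
  rcases ssm_cp_le_or_le φ π' P1 P2 hP 𝔫 hπ𝔫 with h𝔫 | h𝔫
  · exact ssm_cp_unique φ P1 1 one_pos (fun b => by simpa using hadd b) 𝔫 x0 h𝔫 h1 h
  · exact ssm_cp_unique φ P2 q hq hpow 𝔫 x0 h𝔫 h2 h

/-- (CP3'') LYING OVER on a component: over every prime `y ⊇ P ∩ B'` of `B'` there is a prime of
`B` containing `P`; it is maximal iff `y` is. -/
theorem ssm_cp_exists (φ : B' →+* B) (hint : φ.IsIntegral) (P : Ideal B)
    (y : Ideal B') [y.IsPrime] (hPy : P.comap φ ≤ y) :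
    ∃ 𝔫 : Ideal B, P ≤ 𝔫 ∧ 𝔫.IsPrime ∧ 𝔫.comap φ = y := by
  letI := φ.toAlgebra
  haveI : Algebra.IsIntegral B' B := ⟨hint⟩
  obtain ⟨Q, hQ, hQp, hQy⟩ := Ideal.exists_ideal_over_prime_of_isIntegral y P hPy
  exact ⟨Q, hQ, hQp, hQy⟩

/-- Over a maximal ideal, primes are maximal. -/
theorem ssm_cp_isMaximal_of_comap (φ : B' →+* B) (hint : φ.IsIntegral) (𝔫 : Ideal B) [𝔫.IsPrime]
    (h : (𝔫.comap φ).IsMaximal) : 𝔫.IsMaximal := by
  letI := φ.toAlgebra
  haveI : Algebra.IsIntegral B' B := ⟨hint⟩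
  exact Ideal.isMaximal_of_isIntegral_of_isMaximal_comap 𝔫 h

/-- Maximal ideals contract to maximal ideals. -/
theorem ssm_cp_comap_isMaximal (φ : B' →+* B) (hint : φ.IsIntegral) (𝔫 : Ideal B)
    (h : 𝔫.IsMaximal) : (𝔫.comap φ).IsMaximal := by
  letI := φ.toAlgebra
  haveI : Algebra.IsIntegral B' B := ⟨hint⟩
  haveI := h
  exact Ideal.isMaximal_comap_of_isIntegral_of_isMaximal 𝔫

/-- (CP2, `jt_RegAt` form) the SMOOTH clause of the `[M] → [L]` seam at every maximal ideal of `B`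
containing `π` and not the second component, from the regularity clause (`jt_RegAt π'`, spelled
out) of `B'`. -/
theorem ssm_cp_smooth_of_regAt (φ : B' →+* B) (hint : φ.IsIntegral) (π' : B')
    (P1 P2 : Ideal B) [P1.IsPrime] (hP : Ideal.span {φ π'} = P1 ⊓ P2)
    (hadd : ∀ b : B, ∃ b' : B', b - φ b' ∈ P1)
    (hreg : ∀ y : Ideal B', y.IsMaximal → π' ∈ y → (∃ u : B', tq_GenBy π' u y) ∧ tq_Dom π' y)
    (𝔫 : Ideal B) (h𝔫 : 𝔫.IsMaximal) (hπ𝔫 : φ π' ∈ 𝔫) (h2 : ¬ P2 ≤ 𝔫) :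
    ∃ t ∈ 𝔫, tq_GenBy (φ π') t 𝔫 ∧ tq_Dom (φ π') 𝔫 := by
  haveI := h𝔫.isPrime
  obtain ⟨⟨t', ht'⟩, -⟩ := hreg (𝔫.comap φ) (ssm_cp_comap_isMaximal φ hint 𝔫 h𝔫) hπ𝔫
  have h := ssm_cp_smooth φ π' P1 P2 hP hadd 𝔫 hπ𝔫 h2 t' ht' (φ t') (by simp)
  exact ⟨φ t', h.1.2.1, h⟩

/-- (CP2, second component) the same at the maximal ideals containing `π` and not the FIRST
component, through `φ'' := W ∘ φ` (`W` an automorphism of `B` fixing `π`, `B = W φ B' + P2`). -/
theorem ssm_cp_smooth_of_regAt_right (φ : B' →+* B) (hint : φ.IsIntegral) (π' : B')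
    (P1 P2 : Ideal B) [P2.IsPrime] (hP : Ideal.span {φ π'} = P1 ⊓ P2)
    (W : B ≃+* B) (hWπ : W (φ π') = φ π')
    (hadd : ∀ b : B, ∃ b' : B', b - W (φ b') ∈ P2)
    (hreg : ∀ y : Ideal B', y.IsMaximal → π' ∈ y → (∃ u : B', tq_GenBy π' u y) ∧ tq_Dom π' y)
    (𝔫 : Ideal B) (h𝔫 : 𝔫.IsMaximal) (hπ𝔫 : φ π' ∈ 𝔫) (h1 : ¬ P1 ≤ 𝔫) :
    ∃ t ∈ 𝔫, tq_GenBy (φ π') t 𝔫 ∧ tq_Dom (φ π') 𝔫 := by
  have hP' : Ideal.span {((W : B →+* B).comp φ) π'} = P2 ⊓ P1 := by
    rw [inf_comm, ← hP]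
    simp [hWπ]
  have h := ssm_cp_smooth_of_regAt ((W : B →+* B).comp φ)
    (ssm_cp_isIntegral_transport φ hint W) π' P2 P1 hP' (fun b => by simpa using hadd b) hreg 𝔫 h𝔫
    (by simpa [hWπ] using hπ𝔫) h1
  simpa [hWπ] using h

end Components

section Insep

open IntermediateField

/-- PURELY INSEPARABLE RESIDUE EXTENSION (field lemma feeding the hypothesis of `ssm_cp_pow`): an
extension `K / k` of prime degree `q = char`, containing some `θ ∉ k` with `θ ^ q ∈ k`, satisfies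
`r ^ q ∈ k` for every `r ∈ K`. -/
theorem ssm_cp_insep {k K : Type*} [Field k] [Field K] [Algebra k K] (q : ℕ) [hq : Fact q.Prime]
    [CharP K q] (h : Module.finrank k K = q) (θ : K) (hθ : θ ∉ (algebraMap k K).range)
    (hθq : θ ^ q ∈ (algebraMap k K).range) (r : K) : r ^ q ∈ (algebraMap k K).range := by
  haveI : CharP k q := (RingHom.charP_iff (algebraMap k K) (algebraMap k K).injective q).mpr inferInstance
  haveI : FiniteDimensional k K := Module.finite_of_finrank_pos (by rw [h]; exact hq.out.pos)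
  haveI : IsSimpleOrder (IntermediateField k K) :=
    IntermediateField.isSimpleOrder_of_finrank_prime k K (by rw [h]; exact hq.out)
  have htop : k⟮θ⟯ = ⊤ := by
    rcases eq_bot_or_eq_top (k⟮θ⟯) with hb | ht
    · exfalso
      apply hθ
      have : θ ∈ (⊥ : IntermediateField k K) := IntermediateField.adjoin_simple_eq_bot_iff.mp hb
      exact IntermediateField.mem_bot.mp this
    · exact ht
  have hint : IsIntegral k θ := Algebra.IsIntegral.isIntegral θ
  have hr : r ∈ Algebra.adjoin k {θ} := by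
    rw [← IntermediateField.adjoin_simple_toSubalgebra_of_isAlgebraic hint.isAlgebraic, htop]
    trivial
  rw [Algebra.adjoin_singleton_eq_range_aeval] at hr
  obtain ⟨p, rfl⟩ := hr
  obtain ⟨c, hc⟩ := hθq
  refine ⟨eval c (p.map (frobenius k q)), ?_⟩
  have h1 : (frobenius K q).comp (algebraMap k K) = (algebraMap k K).comp (frobenius k q) := by
    ext x
    simp [frobenius_def]
  have h2 : frobenius K q (aeval θ p) = eval₂ (algebraMap k K) (θ ^ q) (p.map (frobenius k q)) := by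
    rw [Polynomial.aeval_def, Polynomial.hom_eval₂, h1, Polynomial.eval₂_map, frobenius_def]
  change _ = (aeval θ p) ^ q
  rw [← frobenius_def, h2, ← hc, Polynomial.eval₂_at_apply]

end Insep

end Fermat.Agent.SS
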