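import Mathlib
import Fermat.Agent.SS.Model.Components
import Fermat.Agent.SS.Model.TwoPrimesW

/-!
# SS / model, leaf [CP-I]: the components of the special fibre of a chart, from the
two-valuations lemma (prefix `ssm_cpi_`)

`K ⊆ E` (`K = lg_E L N'`, `E = lg_E L N`), `R'` the Gauss DVR of `K`,
`D : ssm_tw_Data K R' q V1 W lam`, `V2 := V1.comap W`.  `B' ⊆ K`, `B ⊆ E` charts of the two levels,
`φ : B' →+* B` induced by `K → E`, `π' ∈ B'` the uniformiser, `P_i := ssm_tp_P B V_i`.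
Under the link hypotheses `ssm_cpi_Link` (`B ⊆ V1 ⊓ V2`; the centre of `V1` on `B'` is `π' B'`;
`R' = B'_(π')`):

* `ssm_cpi_comap1/2` : `P_i ∩ B' = π' B'`;
* `ssm_cpi_hk1`, `ssm_cpi_hk2` : the residue hypotheses `hκ` of `ssm_cp_add`, `ssm_cp_pow`
  (from `ssm_tw_res1`, `ssm_tw_pow2`);
* `ssm_cpi_add` : `B = φ B' + P1`; `ssm_cpi_pow` : `B^q ⊆ φ B' + P2`;
* `ssm_cpi_smooth1`, `ssm_cpi_smooth2` : the SMOOTH clause at the closed points of the special fibre
  lying on one component only;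
* `ssm_cpi_link_ff` etc.: the link hypotheses in the function-field case.
-/

set_option autoImplicit false
set_option linter.unusedSectionVars false
set_option linter.style.haveILetI false

namespace Fermat.Agent.SS

open Fermat.Agent.JT3 IsLocalRing

section Abs

variable {K E : Type*} [Field K] [Field E] [Algebra K E] [FiniteDimensional K E]
  [Algebra.IsSeparable K E]
  {R' : Type*} [CommRing R'] [IsDomain R'] [IsDiscreteValuationRing R'] [Algebra R' K]
  [IsFractionRing R' K] [Algebra R' E] [IsScalarTower R' K E]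
  {A0 : Type*} [CommRing A0] [Algebra A0 K] [Algebra A0 E]
  {q : ℕ} {V1 : ValuationSubring E} {W : E ≃+* E} {lam : R'}
  {B' : Subalgebra A0 K} {B : Subalgebra A0 E}

/-- on `K` the two valuations have the same non-units (`V1 ∩ K = V2 ∩ K = R'`) -/
theorem ssm_cpi_nonunits_iff (D : ssm_tw_Data K R' q V1 W lam) (z : K) :
    algebraMap K E z ∈ V1.nonunits ↔ algebraMap K E z ∈ (V1.comap (W : E →+* E)).nonunits := by
  have h2 := ssm_tw_over2 D
  rw [ssm_tw_nonunits_iff, ssm_tw_nonunits_iff, ← map_inv₀, D.over1 z, D.over1 z⁻¹, h2 z, h2 z⁻¹]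

/-- **link hypotheses** between the chart `B'` of `K` and the chart `B` of `E`. -/
structure ssm_cpi_Link (V1 : ValuationSubring E) (W : E ≃+* E) (R' : Type*) [CommRing R']
    [Algebra R' K] (B' : Subalgebra A0 K) (B : Subalgebra A0 E) (φ : B' →+* B) (π' : B') :
    Prop where
  hφ : ∀ b' : B', (φ b' : E) = algebraMap K E (b' : K)
  le1 : ∀ b : B, (b : E) ∈ V1
  le2 : ∀ b : B, (b : E) ∈ V1.comap (W : E →+* E)
  pi1 : algebraMap K E (π' : K) ∈ V1.nonunits
  cen : ∀ b' : B', algebraMap K E (b' : K) ∈ V1.nonunits → π' ∣ b'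
  loc : ∀ r : R', ∃ x y : B', algebraMap K E (y : K) ∉ V1.nonunits ∧
    algebraMap R' K r * (y : K) = (x : K)

variable {φ : B' →+* B} {π' : B'}

theorem ssm_cpi_Link.le1' (Lk : ssm_cpi_Link V1 W R' B' B φ π') : ∀ b ∈ B, b ∈ V1 :=
  fun b hb => Lk.le1 ⟨b, hb⟩

theorem ssm_cpi_Link.le2' (Lk : ssm_cpi_Link V1 W R' B' B φ π') :
    ∀ b ∈ B, b ∈ V1.comap (W : E →+* E) :=
  fun b hb => Lk.le2 ⟨b, hb⟩

theorem ssm_cpi_Link.P1_isPrime (Lk : ssm_cpi_Link V1 W R' B' B φ π') :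
    (ssm_tp_P B V1).IsPrime := ssm_tp_P_isPrime Lk.le1'

theorem ssm_cpi_Link.P2_isPrime (Lk : ssm_cpi_Link V1 W R' B' B φ π') :
    (ssm_tp_P B (V1.comap (W : E →+* E))).IsPrime := ssm_tp_P_isPrime Lk.le2'

/-- `P1 ∩ B' = π' B'` -/
theorem ssm_cpi_comap1 (Lk : ssm_cpi_Link V1 W R' B' B φ π') :
    (ssm_tp_P B V1).comap φ = Ideal.span {π'} := by
  apply le_antisymm
  · intro b' hb'
    rw [Ideal.mem_comap, ssm_tp_mem_P Lk.le1', Lk.hφ] at hb'
    exact Ideal.mem_span_singleton.2 (Lk.cen b' hb')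
  · rw [Ideal.span_singleton_le_iff_mem, Ideal.mem_comap, ssm_tp_mem_P Lk.le1', Lk.hφ]
    exact Lk.pi1

/-- `P2 ∩ B' = π' B'` -/
theorem ssm_cpi_comap2 (D : ssm_tw_Data K R' q V1 W lam) (Lk : ssm_cpi_Link V1 W R' B' B φ π') :
    (ssm_tp_P B (V1.comap (W : E →+* E))).comap φ = Ideal.span {π'} := by
  apply le_antisymm
  · intro b' hb'
    rw [Ideal.mem_comap, ssm_tp_mem_P Lk.le2', Lk.hφ, ← ssm_cpi_nonunits_iff D] at hb'
    exact Ideal.mem_span_singleton.2 (Lk.cen b' hb')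
  · rw [Ideal.span_singleton_le_iff_mem, Ideal.mem_comap, ssm_tp_mem_P Lk.le2', Lk.hφ,
      ← ssm_cpi_nonunits_iff D]
    exact Lk.pi1

/-- the residue hypothesis `hκ` of `ssm_cp_add` on the first component (`κ(V1) = κ(R')`) -/
theorem ssm_cpi_hk1 (D : ssm_tw_Data K R' q V1 W lam) (Lk : ssm_cpi_Link V1 W R' B' B φ π')
    (b : B) : ∃ x y : B', φ y ∉ ssm_tp_P B V1 ∧ φ y * b - φ x ∈ ssm_tp_P B V1 := by
  obtain ⟨r, hr⟩ := ssm_tw_res1 D (b : E) (Lk.le1 b)
  obtain ⟨x, y, hy, hxy⟩ := Lk.loc r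
  refine ⟨x, y, ?_, ?_⟩
  · rw [ssm_tp_mem_P Lk.le1', Lk.hφ]
    exact hy
  · rw [ssm_tp_mem_P Lk.le1']
    have h1 : ((φ y * b - φ x : B) : E) =
        ((b : E) - algebraMap R' E r) * algebraMap K E (y : K) := by
      rw [AddSubgroupClass.coe_sub, MulMemClass.coe_mul, Lk.hφ, Lk.hφ, ← hxy, map_mul,
        ← IsScalarTower.algebraMap_apply R' K E]
      ring
    rw [h1]
    have hyV : algebraMap K E (y : K) ∈ V1 := by
      rw [← Lk.hφ]; exact Lk.le1 _
    exact ssm_tp_nonunits_mul V1 hr hyV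

/-- the residue hypothesis `hκ` of `ssm_cp_pow` on the second component (`κ(V2)^q ⊆ κ(R')`) -/
theorem ssm_cpi_hk2 (D : ssm_tw_Data K R' q V1 W lam) (Lk : ssm_cpi_Link V1 W R' B' B φ π')
    (b : B) : ∃ x y : B', φ y ∉ ssm_tp_P B (V1.comap (W : E →+* E)) ∧
      φ y * b ^ q - φ x ∈ ssm_tp_P B (V1.comap (W : E →+* E)) := by
  obtain ⟨r, hr⟩ := ssm_tw_pow2 D (b : E) (Lk.le2 b)
  obtain ⟨x, y, hy, hxy⟩ := Lk.loc r
  refine ⟨x, y, ?_, ?_⟩
  · rw [ssm_tp_mem_P Lk.le2', Lk.hφ, ← ssm_cpi_nonunits_iff D]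
    exact hy
  · rw [ssm_tp_mem_P Lk.le2']
    have h1 : ((φ y * b ^ q - φ x : B) : E) =
        ((b : E) ^ q - algebraMap R' E r) * algebraMap K E (y : K) := by
      rw [AddSubgroupClass.coe_sub, MulMemClass.coe_mul, SubmonoidClass.coe_pow, Lk.hφ, Lk.hφ,
        ← hxy, map_mul, ← IsScalarTower.algebraMap_apply R' K E]
      ring
    rw [h1]
    have hyV : algebraMap K E (y : K) ∈ V1.comap (W : E →+* E) := by
      rw [← Lk.hφ]; exact Lk.le2 _
    exact ssm_tp_nonunits_mul _ hr hyV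

/-- **`B = φ B' + P1`** -/
theorem ssm_cpi_add (D : ssm_tw_Data K R' q V1 W lam) (Lk : ssm_cpi_Link V1 W R' B' B φ π')
    (hint : φ.IsIntegral) (hπ' : (Ideal.span {π'} : Ideal B').IsPrime)
    (hic : IsIntegrallyClosed (B' ⧸ (Ideal.span {π'} : Ideal B'))) :
    ∀ b : B, ∃ b' : B', b - φ b' ∈ ssm_tp_P B V1 := by
  haveI := Lk.P1_isPrime
  exact ssm_cp_add φ hint π' _ hπ' hic (ssm_cpi_comap1 Lk) (ssm_cpi_hk1 D Lk)

/-- **`B^q ⊆ φ B' + P2`** -/
theorem ssm_cpi_pow (D : ssm_tw_Data K R' q V1 W lam) (Lk : ssm_cpi_Link V1 W R' B' B φ π')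
    (hint : φ.IsIntegral) (hπ' : (Ideal.span {π'} : Ideal B').IsPrime)
    (hic : IsIntegrallyClosed (B' ⧸ (Ideal.span {π'} : Ideal B'))) :
    ∀ b : B, ∃ b' : B', b ^ q - φ b' ∈ ssm_tp_P B (V1.comap (W : E →+* E)) := by
  haveI := Lk.P2_isPrime
  exact ssm_cp_pow φ hint π' _ hπ' hic (ssm_cpi_comap2 D Lk) q (ssm_cpi_hk2 D Lk)

/-- **SMOOTH clause on the first component off the second one.** -/
theorem ssm_cpi_smooth1 (D : ssm_tw_Data K R' q V1 W lam) (Lk : ssm_cpi_Link V1 W R' B' B φ π')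
    (hint : φ.IsIntegral) (hπ' : (Ideal.span {π'} : Ideal B').IsPrime)
    (hic : IsIntegrallyClosed (B' ⧸ (Ideal.span {π'} : Ideal B')))
    (hP : Ideal.span {φ π'} = ssm_tp_P B V1 ⊓ ssm_tp_P B (V1.comap (W : E →+* E)))
    (hreg : ∀ y : Ideal B', y.IsMaximal → π' ∈ y → (∃ u : B', tq_GenBy π' u y) ∧ tq_Dom π' y)
    (𝔫 : Ideal B) (h𝔫 : 𝔫.IsMaximal) (hπ𝔫 : φ π' ∈ 𝔫)
    (h2 : ¬ ssm_tp_P B (V1.comap (W : E →+* E)) ≤ 𝔫) :
    (∃ t : B, tq_GenBy (φ π') t 𝔫) ∧ tq_Dom (φ π') 𝔫 := by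
  haveI := Lk.P1_isPrime
  obtain ⟨t, -, h1, h2⟩ := ssm_cp_smooth_of_regAt φ hint π' _ _ hP (ssm_cpi_add D Lk hint hπ' hic)
    hreg 𝔫 h𝔫 hπ𝔫 h2
  exact ⟨⟨t, h1⟩, h2⟩

/-- `W` maps `P1` to `P2` -/
theorem ssm_cpi_W_mem (D : ssm_tw_Data K R' q V1 W lam) (Lk : ssm_cpi_Link V1 W R' B' B φ π')
    (WB : B ≃+* B) (hWB : ∀ b : B, (WB b : E) = W (b : E)) (x : B) (hx : x ∈ ssm_tp_P B V1) :
    WB x ∈ ssm_tp_P B (V1.comap (W : E →+* E)) := by
  rw [ssm_tp_mem_P Lk.le1'] at hx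
  rw [ssm_tp_mem_P Lk.le2', ssm_tw_nonunits_comap, hWB, D.invol]
  exact hx

/-- **SMOOTH clause on the second component off the first one** (transport by `W`, which has to
preserve the chart `B`: [I1]). -/
theorem ssm_cpi_smooth2 (D : ssm_tw_Data K R' q V1 W lam) (Lk : ssm_cpi_Link V1 W R' B' B φ π')
    (hint : φ.IsIntegral) (hπ' : (Ideal.span {π'} : Ideal B').IsPrime)
    (hic : IsIntegrallyClosed (B' ⧸ (Ideal.span {π'} : Ideal B')))
    (hP : Ideal.span {φ π'} = ssm_tp_P B V1 ⊓ ssm_tp_P B (V1.comap (W : E →+* E)))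
    (hreg : ∀ y : Ideal B', y.IsMaximal → π' ∈ y → (∃ u : B', tq_GenBy π' u y) ∧ tq_Dom π' y)
    (WB : B ≃+* B) (hWB : ∀ b : B, (WB b : E) = W (b : E)) (hWπ : WB (φ π') = φ π')
    (𝔫 : Ideal B) (h𝔫 : 𝔫.IsMaximal) (hπ𝔫 : φ π' ∈ 𝔫) (h1 : ¬ ssm_tp_P B V1 ≤ 𝔫) :
    (∃ t : B, tq_GenBy (φ π') t 𝔫) ∧ tq_Dom (φ π') 𝔫 := by
  haveI := Lk.P2_isPrime
  have hadd := ssm_cpi_add D Lk hint hπ' hic
  have hadd2 : ∀ b : B, ∃ b' : B', b - WB (φ b') ∈ ssm_tp_P B (V1.comap (W : E →+* E)) := by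
    intro b
    obtain ⟨b', hb'⟩ := ssm_cp_add_transport φ WB _ _ (ssm_cpi_W_mem D Lk WB hWB) 1
      (fun b => by simpa using hadd b) b
    exact ⟨b', by simpa using hb'⟩
  obtain ⟨t, -, h3, h4⟩ := ssm_cp_smooth_of_regAt_right φ hint π' _ _ hP WB hWπ hadd2 hreg 𝔫 h𝔫
    hπ𝔫 h1
  exact ⟨⟨t, h3⟩, h4⟩

end Abs

/-! ### the map between the charts of the two levels -/

section Phi

universe u v

variable {A0 : Type*} [CommRing A0] {K : Type u} {E : Type v} [Field K] [Field E] [Algebra K E]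
  [Algebra A0 K] [Algebra A0 E] [IsScalarTower A0 K E]

theorem ssm_cpi_mem_adjoin (y : K) {r : K} (hr : r ∈ Algebra.adjoin A0 ({y} : Set K)) :
    algebraMap K E r ∈ Algebra.adjoin A0 ({algebraMap K E y} : Set E) := by
  have h1 : (Algebra.adjoin A0 ({y} : Set K)).map (IsScalarTower.toAlgHom A0 K E) =
      Algebra.adjoin A0 ({algebraMap K E y} : Set E) := by
    rw [AlgHom.map_adjoin, Set.image_singleton]
    rfl
  rw [← h1]
  exact Subalgebra.mem_map.2 ⟨r, hr, rfl⟩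

/-- the restriction `A0[y] → A0[ι y]` of `K → E` -/
noncomputable def ssm_cpi_phi0 (A0 : Type*) [CommRing A0] {K : Type u} (E : Type v) [Field K]
    [Field E] [Algebra K E] [Algebra A0 K] [Algebra A0 E] [IsScalarTower A0 K E] (y : K) :
    Algebra.adjoin A0 ({y} : Set K) →+* Algebra.adjoin A0 ({algebraMap K E y} : Set E) where
  toFun r := ⟨algebraMap K E (r : K), ssm_cpi_mem_adjoin y r.2⟩
  map_one' := Subtype.ext (by simp)
  map_mul' a b := Subtype.ext (by simp)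
  map_zero' := Subtype.ext (by simp)
  map_add' a b := Subtype.ext (by simp)

theorem ssm_cpi_phi0_coe (y : K) (r : Algebra.adjoin A0 ({y} : Set K)) :
    ((ssm_cpi_phi0 A0 E y r : Algebra.adjoin A0 ({algebraMap K E y} : Set E)) : E) =
      algebraMap K E (r : K) := rfl

theorem ssm_cpi_phi0_surjective (y : K) : Function.Surjective (ssm_cpi_phi0 A0 E y) := by
  rintro ⟨s, hs⟩
  have h1 : (Algebra.adjoin A0 ({y} : Set K)).map (IsScalarTower.toAlgHom A0 K E) =
      Algebra.adjoin A0 ({algebraMap K E y} : Set E) := by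
    rw [AlgHom.map_adjoin, Set.image_singleton]
    rfl
  rw [← h1] at hs
  obtain ⟨r, hr, hrs⟩ := Subalgebra.mem_map.1 hs
  exact ⟨⟨r, hr⟩, Subtype.ext hrs⟩

theorem ssm_cpi_isIntegral_map (y : K) {z : K} (hz : IsIntegral (Algebra.adjoin A0 ({y} : Set K)) z) :
    IsIntegral (Algebra.adjoin A0 ({algebraMap K E y} : Set E)) (algebraMap K E z) :=
  IsIntegral.map_of_comp_eq (ssm_cpi_phi0 A0 E y) (algebraMap K E) (by ext r; rfl) hz

/-- **the map `φ_y : fc_chart A0 {y} →+* fc_chart A0 {ι y}`** between the charts of the two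
levels, induced by `K → E`. -/
noncomputable def ssm_cpi_phi (A0 : Type*) [CommRing A0] {K : Type u} (E : Type v) [Field K]
    [Field E] [Algebra K E] [Algebra A0 K] [Algebra A0 E] [IsScalarTower A0 K E] (y : K) :
    fc_chart A0 ({y} : Set K) →+* fc_chart A0 ({algebraMap K E y} : Set E) where
  toFun b' := ⟨algebraMap K E (b' : K), ssm_cpi_isIntegral_map y b'.2⟩
  map_one' := Subtype.ext (by simp)
  map_mul' a b := Subtype.ext (by simp)
  map_zero' := Subtype.ext (by simp)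
  map_add' a b := Subtype.ext (by simp)

theorem ssm_cpi_phi_coe (y : K) (b' : fc_chart A0 ({y} : Set K)) :
    ((ssm_cpi_phi A0 E y b' : fc_chart A0 ({algebraMap K E y} : Set E)) : E) =
      algebraMap K E (b' : K) := rfl

theorem ssm_cpi_phi_algebraMap (y : K) (a : A0) :
    ssm_cpi_phi A0 E y (algebraMap A0 (fc_chart A0 ({y} : Set K)) a) =
      algebraMap A0 (fc_chart A0 ({algebraMap K E y} : Set E)) a := by
  apply Subtype.ext
  rw [ssm_cpi_phi_coe]
  change algebraMap K E (algebraMap A0 K a) = algebraMap A0 E a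
  rw [← IsScalarTower.algebraMap_apply]

/-- `fc_chart A0 {ι y}` is integral over `fc_chart A0 {y}` -/
theorem ssm_cpi_phi_isIntegral (y : K) : (ssm_cpi_phi A0 E y).IsIntegral := by
  intro b
  obtain ⟨P, hP, hPb⟩ := b.2
  obtain ⟨P', hP'map, -, hP'monic⟩ := Polynomial.lifts_and_natDegree_eq_and_monic
    ((Polynomial.mem_lifts P).2 (Polynomial.map_surjective _ (ssm_cpi_phi0_surjective y) P)) hP
  let incl : Algebra.adjoin A0 ({y} : Set K) →+* fc_chart A0 ({y} : Set K) :=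
    (Subalgebra.inclusion (fc_adjoin_le_chart ({y} : Set K))).toRingHom
  refine ⟨P'.map incl, hP'monic.map incl, ?_⟩
  apply Subtype.ext
  have h1 := Polynomial.hom_eval₂ (P'.map incl) (ssm_cpi_phi A0 E y)
    (fc_chart A0 ({algebraMap K E y} : Set E)).val.toRingHom b
  change ((Polynomial.eval₂ (ssm_cpi_phi A0 E y) b (P'.map incl) :
    fc_chart A0 ({algebraMap K E y} : Set E)) : E) = 0
  have h2 : ((Polynomial.eval₂ (ssm_cpi_phi A0 E y) b (P'.map incl) :
      fc_chart A0 ({algebraMap K E y} : Set E)) : E) =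
      (fc_chart A0 ({algebraMap K E y} : Set E)).val.toRingHom
        (Polynomial.eval₂ (ssm_cpi_phi A0 E y) b (P'.map incl)) := rfl
  rw [h2, h1, Polynomial.eval₂_map]
  have h3 : (((fc_chart A0 ({algebraMap K E y} : Set E)).val.toRingHom.comp
      (ssm_cpi_phi A0 E y)).comp incl) =
      (algebraMap (Algebra.adjoin A0 ({algebraMap K E y} : Set E)) E).comp
        (ssm_cpi_phi0 A0 E y) := by
    ext r
    rfl
  rw [h3, ← Polynomial.eval₂_map, hP'map]
  exact hPb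

end Phi

/-! ### the link hypotheses in the function-field case -/

section FF

open IntermediateField

universe u v

variable {K : Type u} {E : Type v} [Field K] [Field E] [Algebra K E] [FiniteDimensional K E]
  [Algebra.IsSeparable K E]
  {R' : Type*} [CommRing R'] [IsDomain R'] [IsDiscreteValuationRing R'] [Algebra R' K]
  [IsFractionRing R' K] [Algebra R' E] [IsScalarTower R' K E]
  {A0 L : Type*} [CommRing A0] [IsDomain A0] [IsDiscreteValuationRing A0]
  [Field L] [Algebra A0 L] [IsFractionRing A0 L] [Algebra L E] [Algebra A0 E]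
  [IsScalarTower A0 L E] [Algebra A0 K] [IsScalarTower A0 K E] [Algebra L K] [IsScalarTower A0 L K]
  {q : ℕ} {V1 : ValuationSubring E} {W : E ≃+* E} {lam : R'}

/-- **the link hypotheses for the charts `fc_chart A0 {y} ⊆ K`, `fc_chart A0 {ι y} ⊆ E`**
(`y = x'` or `x'⁻¹`), from `π` prime on the chart of `K` ([OP]), the Gauss valuation `VK` of `K`
(`= R'`) and the hypotheses `H` of [TP] for `A0[ι y] ⊆ E`. -/
theorem ssm_cpi_link_ff (D : ssm_tw_Data K R' q V1 W lam) {π : A0} (hπ : Irreducible π) {y : K}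
    (hy : Transcendental L y) [FiniteDimensional L⟮y⟯ K]
    (hyE : Transcendental L (algebraMap K E y))
    (hprime : Prime (algebraMap A0 (fc_chart A0 ({y} : Set K)) π))
    (VK : ValuationSubring K) (hVK : ∀ z : K, z ∈ VK ↔ z ∈ (algebraMap R' K).range)
    (hover : ssm_tp_Over (algebraMap A0 (Algebra.adjoin A0 ({y} : Set K)) π) VK)
    (H : ssm_tp_Hyp (algebraMap A0 (Algebra.adjoin A0 ({algebraMap K E y} : Set E)) π) V1
      (V1.comap (W : E →+* E))) :
    ssm_cpi_Link V1 W R' (fc_chart A0 ({y} : Set K)) (fc_chart A0 ({algebraMap K E y} : Set E))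
      (ssm_cpi_phi A0 E y) (algebraMap A0 (fc_chart A0 ({y} : Set K)) π) := by
  have hyA : Transcendental A0 y := fc_ff_transcendental (L := L) hy
  have hyEA : Transcendental A0 (algebraMap K E y) := fc_ff_transcendental (L := L) hyE
  haveI : IsIntegrallyClosed (Algebra.adjoin A0 ({y} : Set K)) := fc_ff_isIntegrallyClosed hyA
  haveI : FaithfulSMul (Algebra.adjoin A0 ({y} : Set K)) K :=
    (faithfulSMul_iff_algebraMap_injective _ _).2 Subtype.val_injective
  haveI : IsIntegrallyClosed (Algebra.adjoin A0 ({algebraMap K E y} : Set E)) :=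
    fc_ff_isIntegrallyClosed hyEA
  haveI : FaithfulSMul (Algebra.adjoin A0 ({algebraMap K E y} : Set E)) E :=
    (faithfulSMul_iff_algebraMap_injective _ _).2 Subtype.val_injective
  have hp := (sfc_ff_prime_pi hπ hyA).1
  have hFT : Algebra.FiniteType A0 (Algebra.adjoin A0 ({y} : Set K)) := by
    rw [← Subalgebra.fg_iff_finiteType]
    exact ⟨{y}, by rw [Finset.coe_singleton]⟩
  haveI : IsNoetherianRing (Algebra.adjoin A0 ({y} : Set K)) :=
    Algebra.FiniteType.isNoetherianRing A0 _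
  haveI : Algebra.IsAlgebraic (Algebra.adjoin A0 ({y} : Set K)) K := fc_ff_isAlgebraic (L := L) y
  have hfin : ∀ a : Algebra.adjoin A0 ({y} : Set K), a ≠ 0 → ∃ (k : ℕ)
      (s : Algebra.adjoin A0 ({y} : Set K)),
      ¬ algebraMap A0 (Algebra.adjoin A0 ({y} : Set K)) π ∣ s ∧
        a = algebraMap A0 (Algebra.adjoin A0 ({y} : Set K)) π ^ k * s :=
    fun a ha => WfDvdMonoid.max_power_factor ha hp.irreducible
  have halg : ∀ z : K, IsAlgebraic (Algebra.adjoin A0 ({y} : Set K)) z :=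
    fun z => Algebra.IsAlgebraic.isAlgebraic z
  have hpi : ssm_tpw_PrimeInt (Algebra.adjoin A0 ({y} : Set K)) K
      (algebraMap A0 (Algebra.adjoin A0 ({y} : Set K)) π) :=
    ssm_tpw_primeInt_of_prime (R := Algebra.adjoin A0 ({y} : Set K))
      (π := algebraMap A0 (Algebra.adjoin A0 ({y} : Set K)) π)
      (fc_chart A0 ({y} : Set K)) (fun _ => Iff.rfl) _ rfl hprime
  have hC := ssm_tp_ff_chart (L := L) hπ hyE
  -- `VK = V1 ∩ K`
  have hVKnon : ∀ z : K, algebraMap K E z ∈ V1.nonunits ↔ z ∈ VK.nonunits := by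
    intro z
    rw [ssm_tw_nonunits_iff, ssm_tw_nonunits_iff, ← map_inv₀, D.over1 z, D.over1 z⁻¹, hVK z,
      hVK z⁻¹, map_eq_zero]
  refine ⟨fun _ => rfl, fun b => hC.le H.over1 b.2, fun b => hC.le H.over2 b.2, ?_, ?_, ?_⟩
  · have : algebraMap K E ((algebraMap A0 (fc_chart A0 ({y} : Set K)) π :
        fc_chart A0 ({y} : Set K)) : K) = algebraMap A0 E π := by
      change algebraMap K E (algebraMap A0 K π) = algebraMap A0 E π
      rw [← IsScalarTower.algebraMap_apply]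
    rw [this]
    exact H.over1.pi_mem
  · intro b' hb'
    obtain ⟨d, hd, hbd⟩ := ssm_tpw_centre hover hp.ne_zero hpi b'.2 ((hVKnon _).1 hb')
    exact ⟨⟨d, hd⟩, Subtype.ext hbd⟩
  · intro r
    have hz : algebraMap R' K r ∈ VK := (hVK _).2 ⟨r, rfl⟩
    obtain ⟨b, s, hb, hs, hns, hzs⟩ := (ssm_tpw_mem_iff hover hp hfin halg hpi).1 hz
    refine ⟨⟨b, hb⟩, ⟨s, hs⟩, ?_, hzs⟩
    intro hsV
    exact hns (ssm_tpw_centre hover hp.ne_zero hpi hs ((hVKnon _).1 hsV))

/-- **[CP-I], function-field form**: for the charts `B' = fc_chart A0 {y} ⊆ K`,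
`B = fc_chart A0 {ι y} ⊆ E` (`y = x'` or `x'⁻¹`) and `P_i := ssm_tp_P B V_i`:
`B = φ B' + P1`, `B^q ⊆ φ B' + P2`, and the SMOOTH clause at the closed points of the special fibre
of `B` lying on the first component only. -/
theorem ssm_cpi_ff (D : ssm_tw_Data K R' q V1 W lam) {π : A0} (hπ : Irreducible π) {y : K}
    (hy : Transcendental L y) [FiniteDimensional L⟮y⟯ K]
    (hyE : Transcendental L (algebraMap K E y))
    (hprime : Prime (algebraMap A0 (fc_chart A0 ({y} : Set K)) π))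
    (hic : IsIntegrallyClosed (fc_chart A0 ({y} : Set K) ⧸
      (Ideal.span {algebraMap A0 (fc_chart A0 ({y} : Set K)) π} :
        Ideal (fc_chart A0 ({y} : Set K)))))
    (VK : ValuationSubring K) (hVK : ∀ z : K, z ∈ VK ↔ z ∈ (algebraMap R' K).range)
    (hover : ssm_tp_Over (algebraMap A0 (Algebra.adjoin A0 ({y} : Set K)) π) VK)
    (H : ssm_tp_Hyp (algebraMap A0 (Algebra.adjoin A0 ({algebraMap K E y} : Set E)) π) V1
      (V1.comap (W : E →+* E))) :
    (∀ b : fc_chart A0 ({algebraMap K E y} : Set E), ∃ b' : fc_chart A0 ({y} : Set K),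
      b - ssm_cpi_phi A0 E y b' ∈ ssm_tp_P (fc_chart A0 ({algebraMap K E y} : Set E)) V1) ∧
    (∀ b : fc_chart A0 ({algebraMap K E y} : Set E), ∃ b' : fc_chart A0 ({y} : Set K),
      b ^ q - ssm_cpi_phi A0 E y b' ∈
        ssm_tp_P (fc_chart A0 ({algebraMap K E y} : Set E)) (V1.comap (W : E →+* E))) ∧
    ((∀ y' : Ideal (fc_chart A0 ({y} : Set K)), y'.IsMaximal →
        algebraMap A0 (fc_chart A0 ({y} : Set K)) π ∈ y' →
        (∃ u, tq_GenBy (algebraMap A0 (fc_chart A0 ({y} : Set K)) π) u y') ∧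
          tq_Dom (algebraMap A0 (fc_chart A0 ({y} : Set K)) π) y') →
      ∀ 𝔫 : Ideal (fc_chart A0 ({algebraMap K E y} : Set E)), 𝔫.IsMaximal →
        algebraMap A0 (fc_chart A0 ({algebraMap K E y} : Set E)) π ∈ 𝔫 →
        ¬ ssm_tp_P (fc_chart A0 ({algebraMap K E y} : Set E)) (V1.comap (W : E →+* E)) ≤ 𝔫 →
        (∃ t, tq_GenBy (algebraMap A0 (fc_chart A0 ({algebraMap K E y} : Set E)) π) t 𝔫) ∧
          tq_Dom (algebraMap A0 (fc_chart A0 ({algebraMap K E y} : Set E)) π) 𝔫) := by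
  have hyEA : Transcendental A0 (algebraMap K E y) := fc_ff_transcendental (L := L) hyE
  haveI : IsIntegrallyClosed (Algebra.adjoin A0 ({algebraMap K E y} : Set E)) :=
    fc_ff_isIntegrallyClosed hyEA
  haveI : FaithfulSMul (Algebra.adjoin A0 ({algebraMap K E y} : Set E)) E :=
    (faithfulSMul_iff_algebraMap_injective _ _).2 Subtype.val_injective
  have Lk := ssm_cpi_link_ff (L := L) D hπ hy hyE hprime VK hVK hover H
  have hint := ssm_cpi_phi_isIntegral (A0 := A0) (E := E) y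
  have hπ' : (Ideal.span {algebraMap A0 (fc_chart A0 ({y} : Set K)) π} :
      Ideal (fc_chart A0 ({y} : Set K))).IsPrime :=
    (Ideal.span_singleton_prime hprime.ne_zero).2 hprime
  have hC := ssm_tp_ff_chart (L := L) hπ hyE
  have hP : Ideal.span {ssm_cpi_phi A0 E y (algebraMap A0 (fc_chart A0 ({y} : Set K)) π)} =
      ssm_tp_P (fc_chart A0 ({algebraMap K E y} : Set E)) V1 ⊓
        ssm_tp_P (fc_chart A0 ({algebraMap K E y} : Set E)) (V1.comap (W : E →+* E)) := by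
    rw [ssm_cpi_phi_algebraMap]
    exact H.P_inf hC _ rfl
  refine ⟨ssm_cpi_add D Lk hint hπ' hic, ssm_cpi_pow D Lk hint hπ' hic, ?_⟩
  intro hreg 𝔫 h𝔫 hπ𝔫 h2
  have h := ssm_cpi_smooth1 D Lk hint hπ' hic hP hreg 𝔫 h𝔫
    (by rw [ssm_cpi_phi_algebraMap]; exact hπ𝔫) h2
  rw [ssm_cpi_phi_algebraMap] at h
  exact h

/-- **[CP-I], second component**: the SMOOTH clause at the closed points of the special fibre of
`B = fc_chart A0 {ι y}` lying on the SECOND component only, by transport along `W` (which has to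
preserve `B`: [I1], and to fix `π`). -/
theorem ssm_cpi_ff_smooth2 (D : ssm_tw_Data K R' q V1 W lam) {π : A0} (hπ : Irreducible π) {y : K}
    (hy : Transcendental L y) [FiniteDimensional L⟮y⟯ K]
    (hyE : Transcendental L (algebraMap K E y))
    (hprime : Prime (algebraMap A0 (fc_chart A0 ({y} : Set K)) π))
    (hic : IsIntegrallyClosed (fc_chart A0 ({y} : Set K) ⧸
      (Ideal.span {algebraMap A0 (fc_chart A0 ({y} : Set K)) π} :
        Ideal (fc_chart A0 ({y} : Set K)))))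
    (VK : ValuationSubring K) (hVK : ∀ z : K, z ∈ VK ↔ z ∈ (algebraMap R' K).range)
    (hover : ssm_tp_Over (algebraMap A0 (Algebra.adjoin A0 ({y} : Set K)) π) VK)
    (H : ssm_tp_Hyp (algebraMap A0 (Algebra.adjoin A0 ({algebraMap K E y} : Set E)) π) V1
      (V1.comap (W : E →+* E)))
    (hreg : ∀ y' : Ideal (fc_chart A0 ({y} : Set K)), y'.IsMaximal →
        algebraMap A0 (fc_chart A0 ({y} : Set K)) π ∈ y' →
        (∃ u, tq_GenBy (algebraMap A0 (fc_chart A0 ({y} : Set K)) π) u y') ∧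
          tq_Dom (algebraMap A0 (fc_chart A0 ({y} : Set K)) π) y')
    (WB : fc_chart A0 ({algebraMap K E y} : Set E) ≃+* fc_chart A0 ({algebraMap K E y} : Set E))
    (hWB : ∀ b : fc_chart A0 ({algebraMap K E y} : Set E), (WB b : E) = W (b : E))
    (hWπ : W (algebraMap A0 E π) = algebraMap A0 E π)
    (𝔫 : Ideal (fc_chart A0 ({algebraMap K E y} : Set E))) (h𝔫 : 𝔫.IsMaximal)
    (hπ𝔫 : algebraMap A0 (fc_chart A0 ({algebraMap K E y} : Set E)) π ∈ 𝔫)
    (h1 : ¬ ssm_tp_P (fc_chart A0 ({algebraMap K E y} : Set E)) V1 ≤ 𝔫) :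
    (∃ t, tq_GenBy (algebraMap A0 (fc_chart A0 ({algebraMap K E y} : Set E)) π) t 𝔫) ∧
      tq_Dom (algebraMap A0 (fc_chart A0 ({algebraMap K E y} : Set E)) π) 𝔫 := by
  have hyEA : Transcendental A0 (algebraMap K E y) := fc_ff_transcendental (L := L) hyE
  haveI : IsIntegrallyClosed (Algebra.adjoin A0 ({algebraMap K E y} : Set E)) :=
    fc_ff_isIntegrallyClosed hyEA
  haveI : FaithfulSMul (Algebra.adjoin A0 ({algebraMap K E y} : Set E)) E :=
    (faithfulSMul_iff_algebraMap_injective _ _).2 Subtype.val_injective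
  have Lk := ssm_cpi_link_ff (L := L) D hπ hy hyE hprime VK hVK hover H
  have hint := ssm_cpi_phi_isIntegral (A0 := A0) (E := E) y
  have hπ' : (Ideal.span {algebraMap A0 (fc_chart A0 ({y} : Set K)) π} :
      Ideal (fc_chart A0 ({y} : Set K))).IsPrime :=
    (Ideal.span_singleton_prime hprime.ne_zero).2 hprime
  have hC := ssm_tp_ff_chart (L := L) hπ hyE
  have hP : Ideal.span {ssm_cpi_phi A0 E y (algebraMap A0 (fc_chart A0 ({y} : Set K)) π)} =
      ssm_tp_P (fc_chart A0 ({algebraMap K E y} : Set E)) V1 ⊓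
        ssm_tp_P (fc_chart A0 ({algebraMap K E y} : Set E)) (V1.comap (W : E →+* E)) := by
    rw [ssm_cpi_phi_algebraMap]
    exact H.P_inf hC _ rfl
  have hWπ' : WB (ssm_cpi_phi A0 E y (algebraMap A0 (fc_chart A0 ({y} : Set K)) π)) =
      ssm_cpi_phi A0 E y (algebraMap A0 (fc_chart A0 ({y} : Set K)) π) := by
    rw [ssm_cpi_phi_algebraMap]
    apply Subtype.ext
    rw [hWB]
    exact hWπ
  have h := ssm_cpi_smooth2 D Lk hint hπ' hic hP hreg WB hWB hWπ' 𝔫 h𝔫
    (by rw [ssm_cpi_phi_algebraMap]; exact hπ𝔫) h1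
  rw [ssm_cpi_phi_algebraMap] at h
  exact h

end FF

end Fermat.Agent.SS
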