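/-
SS / [M] MODEL cell, leaves [NC] + [TR] (CROSSING POINTS), abstract halves, Mathlib only.

`B` a commutative ring, `P1 P2 : Ideal B` the two vertical primes, `span {π} = P1 ⊓ P2`.
Everything is stated elementwise ("there is `s ∉ 𝔫` with ...": no localisation types), in the style
of `tq_GenBy`.

* `ssm_cr_noCrossing` : (NC) if `w ≡ 1 mod P1`, `w' ≡ 1 mod P2` and `w w' ∈ 𝔫` then `𝔫` is not a
                        crossing point;
* `ssm_cr_frob`       : (TR-a) `G(b) ≡ G(a)^q mod P` for `G ∈ ℤ[X]` when `b ≡ a^q mod P ∋ q`;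
* `ssm_cr_lift_gen`, `ssm_cr_unif_of_sq` : (TR-b) local generators of `𝔫 / P1`;
* `ssm_cr_node`       : (TR-c) ORDINARY DOUBLE POINT: `P2 = (π, u)`, `P1 = (π, v)`, `𝔫 = (π, u, v)`
                        locally at `𝔫`;
* `ssm_cr_transport`  : transport of the hypothesis of `ssm_cr_node` along an automorphism `W`.
-/
import Mathlib
import Fermat.Agent.JT3.Model.TameQuotient

set_option autoImplicit false
set_option linter.unusedSectionVars false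
set_option linter.style.haveILetI false

namespace Fermat.Agent.SS

open Ideal Polynomial Fermat.Agent.JT3

section Crossing

variable {B : Type*} [CommRing B]

/-- `𝔫 / P` is generated by the class of `u`, locally at `𝔫` (elementwise form). -/
def ssm_cr_GenMod (P 𝔫 : Ideal B) (u : B) : Prop :=
  ∀ x ∈ 𝔫, ∃ s r : B, s ∉ 𝔫 ∧ s * x - r * u ∈ P

/-- (NC) NO CROSSING where `w w'` vanishes, if `w ≡ 1` on the first component and `w' ≡ 1` on the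
second one. -/
theorem ssm_cr_noCrossing (P1 P2 𝔫 : Ideal B) (h𝔫 : 𝔫 ≠ ⊤) (w w' : B) (hw : w - 1 ∈ P1)
    (hw' : w' - 1 ∈ P2) (hww : w * w' ∈ 𝔫) : ¬ (P1 ≤ 𝔫 ∧ P2 ≤ 𝔫) := by
  rintro ⟨h1, h2⟩
  apply h𝔫
  rw [Ideal.eq_top_iff_one]
  have e : (1 : B) = w * w' - (w - 1) * w' - (w' - 1) := by ring
  rw [e]
  exact 𝔫.sub_mem (𝔫.sub_mem hww (𝔫.mul_mem_right _ (h1 hw))) (h2 hw')

/-- (TR-a) FROBENIUS for integer polynomials: if `q ∈ P` (prime ideal, `q` a prime number) and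
`b ≡ a ^ q mod P`, then `G(b) ≡ G(a) ^ q mod P` for every `G ∈ ℤ[X]`. -/
theorem ssm_cr_frob (q : ℕ) [hq : Fact q.Prime] (P : Ideal B) [P.IsPrime] (hqP : (q : B) ∈ P)
    (G : ℤ[X]) (a b : B) (hab : b - a ^ q ∈ P) : aeval b G - (aeval a G) ^ q ∈ P := by
  haveI : CharP (B ⧸ P) q := by
    rw [CharP.charP_iff_prime_eq_zero hq.out]
    have : ((q : B ⧸ P)) = Ideal.Quotient.mk P (q : B) := by simp
    rw [this, Ideal.Quotient.eq_zero_iff_mem]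
    exact hqP
  rw [← Ideal.Quotient.eq_zero_iff_mem, map_sub, map_pow, sub_eq_zero]
  have e1 : (Ideal.Quotient.mk P).comp (Int.castRingHom B) = Int.castRingHom (B ⧸ P) :=
    RingHom.ext_int _ _
  have e2 : (frobenius (B ⧸ P) q).comp (Int.castRingHom (B ⧸ P)) = Int.castRingHom (B ⧸ P) :=
    RingHom.ext_int _ _
  have h1 : ∀ c : B, Ideal.Quotient.mk P (aeval c G)
      = eval₂ (Int.castRingHom (B ⧸ P)) (Ideal.Quotient.mk P c) G := by
    intro c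
    rw [Polynomial.aeval_def, algebraMap_int_eq, Polynomial.hom_eval₂, e1]
  have h2 : Ideal.Quotient.mk P b = (Ideal.Quotient.mk P a) ^ q := by
    rw [← map_pow, ← sub_eq_zero, ← map_sub, Ideal.Quotient.eq_zero_iff_mem]
    exact hab
  rw [h1, h1, h2]
  have h3 : frobenius (B ⧸ P) q (eval₂ (Int.castRingHom (B ⧸ P)) (Ideal.Quotient.mk P a) G)
      = eval₂ (Int.castRingHom (B ⧸ P)) (frobenius (B ⧸ P) q (Ideal.Quotient.mk P a)) G := by
    rw [Polynomial.hom_eval₂, e2]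
  rw [frobenius_def, frobenius_def] at h3
  exact h3.symm

/-- The same with the roles exchanged: `G(a)^q - G(b) ∈ P`. -/
theorem ssm_cr_frob' (q : ℕ) [Fact q.Prime] (P : Ideal B) [P.IsPrime] (hqP : (q : B) ∈ P)
    (G : ℤ[X]) (a b : B) (hab : b - a ^ q ∈ P) : (aeval a G) ^ q - aeval b G ∈ P := by
  have := ssm_cr_frob q P hqP G a b hab
  rw [← neg_sub]
  exact P.neg_mem this

/-- (TR-b1) a local generator `t'` of a maximal ideal of `B'` modulo `π'` gives a local generator of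
`𝔫 / P1`, when `B = φ B' + P1` and `φ π' ∈ P1`. -/
theorem ssm_cr_lift_gen {B' : Type*} [CommRing B'] (φ : B' →+* B) (π' : B') (P1 𝔫 : Ideal B)
    (hπ1 : φ π' ∈ P1) (hP1n : P1 ≤ 𝔫)
    (hadd : ∀ b : B, ∃ b' : B', b - φ b' ∈ P1)
    (t' : B') (ht' : tq_GenBy π' t' (𝔫.comap φ)) : ssm_cr_GenMod P1 𝔫 (φ t') := by
  intro x hx
  obtain ⟨x', hx'⟩ := hadd x
  have hx'n : x' ∈ 𝔫.comap φ := by
    rw [Ideal.mem_comap]
    have : φ x' = x - (x - φ x') := by ring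
    rw [this]
    exact 𝔫.sub_mem hx (hP1n hx')
  obtain ⟨s', hs', hs'x⟩ := ht'.2.2 x' hx'n
  obtain ⟨a, r, har⟩ := Ideal.mem_span_pair.mp hs'x
  refine ⟨φ s', φ r, hs', ?_⟩
  have : φ s' * φ x' = φ a * φ π' + φ r * φ t' := by
    rw [← map_mul, ← map_mul, ← map_mul, ← map_add, har]
  have e : φ s' * x - φ r * φ t' = φ s' * (x - φ x') + φ a * φ π' := by
    linear_combination this
  rw [e]
  exact P1.add_mem (P1.mul_mem_left _ hx') (P1.mul_mem_left _ hπ1)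

/-- Congruent elements modulo `P` generate the same thing. -/
theorem ssm_cr_GenMod_congr (P 𝔫 : Ideal B) (t u : B) (h : u - t ∈ P)
    (ht : ssm_cr_GenMod P 𝔫 t) : ssm_cr_GenMod P 𝔫 u := by
  intro x hx
  obtain ⟨s, r, hs, hsr⟩ := ht x hx
  refine ⟨s, r, hs, ?_⟩
  have e : s * x - r * u = (s * x - r * t) - r * (u - t) := by ring
  rw [e]
  exact P.sub_mem hsr (P.mul_mem_left _ h)

/-- (TR-b2) a generator modulo the square of the maximal ideal is a generator: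
`u ≡ t (1 - z t) mod P` with `t ∈ 𝔫`. -/
theorem ssm_cr_unif_of_sq (P 𝔫 : Ideal B) [𝔫.IsPrime] (t z u : B) (ht𝔫 : t ∈ 𝔫)
    (hu : u - t * (1 - z * t) ∈ P) (ht : ssm_cr_GenMod P 𝔫 t) : ssm_cr_GenMod P 𝔫 u := by
  intro x hx
  obtain ⟨s, r, hs, hsr⟩ := ht x hx
  have h1 : (1 - z * t) ∉ 𝔫 := by
    intro h
    have : (1 : B) ∈ 𝔫 := by
      have e : (1 : B) = (1 - z * t) + z * t := by ring
      rw [e]
      exact 𝔫.add_mem h (𝔫.mul_mem_left _ ht𝔫)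
    exact (Ideal.IsPrime.ne_top ‹𝔫.IsPrime›) ((Ideal.eq_top_iff_one _).mpr this)
  refine ⟨(1 - z * t) * s, r, ?_, ?_⟩
  · intro h
    rcases Ideal.IsPrime.mem_or_mem ‹𝔫.IsPrime› h with h | h
    · exact h1 h
    · exact hs h
  · have e : (1 - z * t) * s * x - r * u
        = (1 - z * t) * (s * x - r * t) - r * (u - t * (1 - z * t)) := by ring
    rw [e]
    exact P.sub_mem (P.mul_mem_left _ hsr) (P.mul_mem_left _ hu)

/-- (TR-b3) the shape used with `u = b_G = G(λ) − G(λ_q)^q ≡ t − t^(q²)`, `t = G(λ)`: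
`u ≡ t - t ^ n mod P` with `2 ≤ n`. -/
theorem ssm_cr_unif_of_pow (P 𝔫 : Ideal B) [𝔫.IsPrime] (t u : B) (n : ℕ) (hn : 2 ≤ n) (ht𝔫 : t ∈ 𝔫)
    (hu : u - (t - t ^ n) ∈ P) (ht : ssm_cr_GenMod P 𝔫 t) : ssm_cr_GenMod P 𝔫 u := by
  obtain ⟨k, rfl⟩ := Nat.exists_eq_add_of_le hn
  refine ssm_cr_unif_of_sq P 𝔫 t (t ^ k) u ht𝔫 ?_ ht
  have e : t * (1 - t ^ k * t) = t - t ^ (2 + k) := by ring
  rw [e]
  exact hu

/-- (TR-c) ORDINARY DOUBLE POINT. At a crossing point `𝔫 ⊇ P1 + P2` of the two components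
(`span {π} = P1 ⊓ P2`), let `u ∈ P2` generate `𝔫 / P1` and `v ∈ P1` generate `𝔫 / P2` (locally at
`𝔫`). Then, locally at `𝔫`: `P2 = (π, u)`, `P1 = (π, v)` and `𝔫 = (π, u, v)`. -/
theorem ssm_cr_node (π : B) (P1 P2 𝔫 : Ideal B) [𝔫.IsPrime]
    (hP : Ideal.span {π} = P1 ⊓ P2) (h1 : P1 ≤ 𝔫) (h2 : P2 ≤ 𝔫)
    (u v : B) (hu : u ∈ P2) (hv : v ∈ P1)
    (hu1 : ssm_cr_GenMod P1 𝔫 u) (hv2 : ssm_cr_GenMod P2 𝔫 v) :
    (∀ x ∈ P2, ∃ s : B, s ∉ 𝔫 ∧ s * x ∈ Ideal.span {π, u}) ∧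
    (∀ x ∈ P1, ∃ s : B, s ∉ 𝔫 ∧ s * x ∈ Ideal.span {π, v}) ∧
    (∀ x ∈ 𝔫, ∃ s : B, s ∉ 𝔫 ∧ s * x ∈ Ideal.span {π, u, v}) := by
  have hπle : ∀ (S : Set B), π ∈ S → ∀ z ∈ P1 ⊓ P2, z ∈ Ideal.span S := by
    intro S hS z hz
    rw [← hP] at hz
    exact Ideal.span_mono (by intro w hw; rw [Set.mem_singleton_iff] at hw; subst hw; exact hS) hz
  have hA : ∀ x ∈ P2, ∃ s : B, s ∉ 𝔫 ∧ s * x ∈ Ideal.span {π, u} := by
    intro x hx
    obtain ⟨s, r, hs, hsr⟩ := hu1 x (h2 hx)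
    refine ⟨s, hs, ?_⟩
    have h3 : s * x - r * u ∈ P1 ⊓ P2 :=
      ⟨hsr, P2.sub_mem (P2.mul_mem_left _ hx) (P2.mul_mem_left _ hu)⟩
    have e : s * x = (s * x - r * u) + r * u := by ring
    rw [e]
    exact Ideal.add_mem _ (hπle _ (by simp) _ h3)
      (Ideal.mul_mem_left _ _ (Ideal.subset_span (by simp)))
  have hB : ∀ x ∈ P1, ∃ s : B, s ∉ 𝔫 ∧ s * x ∈ Ideal.span {π, v} := by
    intro x hx
    obtain ⟨s, r, hs, hsr⟩ := hv2 x (h1 hx)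
    refine ⟨s, hs, ?_⟩
    have h3 : s * x - r * v ∈ P1 ⊓ P2 :=
      ⟨P1.sub_mem (P1.mul_mem_left _ hx) (P1.mul_mem_left _ hv), hsr⟩
    have e : s * x = (s * x - r * v) + r * v := by ring
    rw [e]
    exact Ideal.add_mem _ (hπle _ (by simp) _ h3)
      (Ideal.mul_mem_left _ _ (Ideal.subset_span (by simp)))
  refine ⟨hA, hB, ?_⟩
  intro x hx
  obtain ⟨s, r, hs, hsr⟩ := hu1 x hx
  obtain ⟨s2, hs2, hs2x⟩ := hB _ hsr
  refine ⟨s2 * s, ?_, ?_⟩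
  · intro h
    rcases Ideal.IsPrime.mem_or_mem ‹𝔫.IsPrime› h with h | h
    · exact hs2 h
    · exact hs h
  · have e : s2 * s * x = s2 * (s * x - r * u) + (s2 * r) * u := by ring
    rw [e]
    refine Ideal.add_mem _ ?_ (Ideal.mul_mem_left _ _ (Ideal.subset_span (by simp)))
    refine Ideal.span_mono ?_ hs2x
    intro w hw
    rcases hw with rfl | rfl
    · simp
    · simp

/-- Transport of a local generator along an automorphism `W` with `W P1 ⊆ P2`: a generator `u` of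
`W⁻¹𝔫 / P1` gives the generator `W u` of `𝔫 / P2`. -/
theorem ssm_cr_transport (W : B ≃+* B) (P1 P2 𝔫 : Ideal B) (hW : ∀ x ∈ P1, W x ∈ P2) (u : B)
    (hu1 : ssm_cr_GenMod P1 (𝔫.comap (W : B →+* B)) u) : ssm_cr_GenMod P2 𝔫 (W u) := by
  intro x hx
  have hx' : W.symm x ∈ 𝔫.comap (W : B →+* B) := by
    rw [Ideal.mem_comap]
    simpa using hx
  obtain ⟨s, r, hs, hsr⟩ := hu1 _ hx'
  refine ⟨W s, W r, hs, ?_⟩
  have := hW _ hsr
  rwa [map_sub, map_mul, map_mul, W.apply_symm_apply] at this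

/-- `W` commutes with the evaluation of integer polynomials. -/
theorem ssm_cr_map_aeval {C : Type*} [CommRing C] (f : B →+* C) (G : ℤ[X]) (c : B) :
    f (aeval c G) = aeval (f c) G :=
  (Polynomial.aeval_algHom_apply f.toIntAlgHom c G).symm

theorem ssm_cr_map_aeval_equiv (W : B ≃+* B) (G : ℤ[X]) (c : B) :
    W (aeval c G) = aeval (W c) G :=
  ssm_cr_map_aeval (W : B →+* B) G c

/-- (TR-a') the element `b_G := G(λ) − G(λ_q)^q` is congruent to `t − t^(q²)`, `t := G(λ)`,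
modulo `P1`, if `λ_q ≡ λ^q mod P1 ∋ q`. -/
theorem ssm_cr_bG_congr (q : ℕ) [Fact q.Prime] (P1 : Ideal B) [P1.IsPrime] (hqP : (q : B) ∈ P1)
    (lam lamq : B) (hfrob : lamq - lam ^ q ∈ P1) (G : ℤ[X]) :
    (aeval lam G - (aeval lamq G) ^ q) - (aeval lam G - (aeval lam G) ^ (q ^ 2)) ∈ P1 := by
  have h1 := ssm_cr_frob q P1 hqP G lam lamq hfrob
  have h2 : (aeval lamq G) ^ q - ((aeval lam G) ^ q) ^ q ∈ P1 := by
    obtain ⟨c, hc⟩ := sub_dvd_pow_sub_pow (aeval lamq G) ((aeval lam G) ^ q) q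
    rw [hc]
    exact P1.mul_mem_right _ h1
  have e : (aeval lam G - (aeval lamq G) ^ q) - (aeval lam G - (aeval lam G) ^ (q ^ 2))
      = -((aeval lamq G) ^ q - ((aeval lam G) ^ q) ^ q) := by
    rw [← pow_mul, ← pow_two]
    ring
  rw [e]
  exact P1.neg_mem h2

/-- (TR-a'') `b_G ∈ P2`: its image under the involution `W` (exchanging `λ` and `λ_q`) is
`G(λ_q) − G(λ)^q ∈ P1`. -/
theorem ssm_cr_bG_mem (q : ℕ) [Fact q.Prime] (P1 P2 : Ideal B) [P1.IsPrime] (hqP : (q : B) ∈ P1)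
    (W : B ≃+* B) (hW : ∀ x, W x ∈ P1 → x ∈ P2) (lam lamq : B) (hWl : W lam = lamq)
    (hWlq : W lamq = lam) (hfrob : lamq - lam ^ q ∈ P1) (G : ℤ[X]) :
    aeval lam G - (aeval lamq G) ^ q ∈ P2 := by
  apply hW
  rw [map_sub, map_pow, ssm_cr_map_aeval_equiv, ssm_cr_map_aeval_equiv, hWl, hWlq]
  exact ssm_cr_frob q P1 hqP G lam lamq hfrob

/-- (TR) THE CROSSING POINTS ARE ORDINARY DOUBLE POINTS (abstract form).
`φ : B' → B` with `B = φ B' + P1`, `W` an involution of `B` exchanging `P1` and `P2` and `λ = φ λ'`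
with `λ_q`, Frobenius congruence `λ_q ≡ λ^q mod P1 ∋ q`, `G ∈ ℤ[X]` such that `G(λ')` is a local
generator modulo `π'` of `𝔫 ∩ B'` for every crossing point `𝔫 ∋ G(λ)` (input from the étale
coordinate leaf). Then at every such `𝔫`, with `u := G(λ) − G(λ_q)^q ∈ P2` and
`v := W u = G(λ_q) − G(λ)^q ∈ P1`: locally `P2 = (π, u)`, `P1 = (π, v)`, `𝔫 = (π, u, v)`. -/
theorem ssm_cr_main {B' : Type*} [CommRing B'] (φ : B' →+* B) (π' : B') (P1 P2 : Ideal B)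
    [P1.IsPrime] (hP : Ideal.span {φ π'} = P1 ⊓ P2)
    (hadd : ∀ b : B, ∃ b' : B', b - φ b' ∈ P1)
    (q : ℕ) [hq : Fact q.Prime] (hqP : (q : B) ∈ P1)
    (W : B ≃+* B) (hWW : ∀ x, W (W x) = x) (hW : ∀ x, x ∈ P1 ↔ W x ∈ P2)
    (lam' : B') (lamq : B) (hWl : W (φ lam') = lamq) (hfrob : lamq - φ lam' ^ q ∈ P1) (G : ℤ[X])
    (hEC : ∀ 𝔫 : Ideal B, 𝔫.IsPrime → P1 ≤ 𝔫 → P2 ≤ 𝔫 → aeval (φ lam') G ∈ 𝔫 →
      tq_GenBy π' (aeval lam' G) (𝔫.comap φ))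
    (𝔫 : Ideal B) [h𝔫 : 𝔫.IsPrime] (h1 : P1 ≤ 𝔫) (h2 : P2 ≤ 𝔫) (hG : aeval (φ lam') G ∈ 𝔫) :
    (aeval (φ lam') G - (aeval lamq G) ^ q ∈ P2) ∧
    (aeval lamq G - (aeval (φ lam') G) ^ q ∈ P1) ∧
    (∀ x ∈ P2, ∃ s : B, s ∉ 𝔫 ∧
      s * x ∈ Ideal.span {φ π', aeval (φ lam') G - (aeval lamq G) ^ q}) ∧
    (∀ x ∈ P1, ∃ s : B, s ∉ 𝔫 ∧
      s * x ∈ Ideal.span {φ π', aeval lamq G - (aeval (φ lam') G) ^ q}) ∧
    (∀ x ∈ 𝔫, ∃ s : B, s ∉ 𝔫 ∧ s * x ∈ Ideal.span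
      {φ π', aeval (φ lam') G - (aeval lamq G) ^ q, aeval lamq G - (aeval (φ lam') G) ^ q}) := by
  set lam : B := φ lam' with hlam
  have hWlq : W lamq = lam := by rw [← hWl, hWW]
  have hπ1 : φ π' ∈ P1 := (hP ▸ Ideal.subset_span rfl : φ π' ∈ P1 ⊓ P2).1
  have hW' : ∀ x, W x ∈ P1 → x ∈ P2 := by
    intro x hx
    have := (hW (W x)).mp hx
    rwa [hWW] at this
  set u : B := aeval lam G - (aeval lamq G) ^ q with hu
  set v : B := aeval lamq G - (aeval lam G) ^ q with hv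
  have huP2 : u ∈ P2 := ssm_cr_bG_mem q P1 P2 hqP W hW' lam lamq hWl hWlq hfrob G
  have hvP1 : v ∈ P1 := ssm_cr_frob q P1 hqP G lam lamq hfrob
  have hWu : W u = v := by
    rw [hu, map_sub, map_pow, ssm_cr_map_aeval_equiv, ssm_cr_map_aeval_equiv, hWl, hWlq]
  have hφG : φ (aeval lam' G) = aeval lam G := ssm_cr_map_aeval φ G lam'
  have hq2 : 2 ≤ q ^ 2 := by
    have := hq.out.two_le
    nlinarith
  -- the generator property of `u` at every crossing point containing `G(λ)`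
  have hgen : ∀ 𝔞 : Ideal B, 𝔞.IsPrime → P1 ≤ 𝔞 → P2 ≤ 𝔞 → aeval lam G ∈ 𝔞 →
      ssm_cr_GenMod P1 𝔞 u := by
    intro 𝔞 h𝔞 ha1 ha2 haG
    haveI := h𝔞
    have h3 := ssm_cr_lift_gen φ π' P1 𝔞 hπ1 ha1 hadd (aeval lam' G) (hEC 𝔞 h𝔞 ha1 ha2 haG)
    rw [hφG] at h3
    exact ssm_cr_unif_of_pow P1 𝔞 (aeval lam G) u (q ^ 2) hq2 haG
      (ssm_cr_bG_congr q P1 hqP lam lamq hfrob G) h3
  have hu1 : ssm_cr_GenMod P1 𝔫 u := hgen 𝔫 h𝔫 h1 h2 hG
  -- the conjugate crossing point `W⁻¹ 𝔫`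
  have hv2 : ssm_cr_GenMod P2 𝔫 v := by
    rw [← hWu]
    apply ssm_cr_transport W P1 P2 𝔫 (fun x hx => (hW x).mp hx)
    apply hgen
    · exact Ideal.comap_isPrime _ _
    · intro x hx
      rw [Ideal.mem_comap]
      exact h2 ((hW x).mp hx)
    · intro x hx
      rw [Ideal.mem_comap]
      apply h1
      apply (hW (W x)).mpr
      rw [hWW]
      exact hx
    · rw [Ideal.mem_comap]
      change W (aeval lam G) ∈ 𝔫
      rw [ssm_cr_map_aeval_equiv, hWl]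
      have e : aeval lamq G = v + (aeval lam G) ^ q := by rw [hv]; ring
      rw [e]
      exact 𝔫.add_mem (h1 hvP1) (Ideal.pow_mem_of_mem _ hG q hq.out.pos)
  exact ⟨huP2, hvP1, ssm_cr_node (φ π') P1 P2 𝔫 hP h1 h2 u v huP2 hvP1 hu1 hv2⟩

end Crossing

end Fermat.Agent.SS
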