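/-
SS / [M] MODEL cell, leaf [TR-I]: CROSSING POINTS, the instance layer (still ring-theoretic: the
hypotheses are the named outputs of the leaves [TP] (`P1`, `P2`, `hP`), [CP-I] (`hadd`), [GA]/[I1]
(Frobenius congruence, `λ_q ∈ B`, `w = λ^q/λ_q`, `w' = λ_q^q/λ` and the twins at `λ = 1`), [AL]/[I1]
(the involution `W` of the chart), [EC] (`hEC`: the Frobenius polynomial `λ'^(q²) − λ'` is a local
parameter at the points of the level-`N'` chart off `λ' ∈ {0, 1}` where it vanishes)).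

* `ssm_cri_noCrossing`, `ssm_cri_noCrossing_W` : (NC) no crossing point where `μ ∈ {λ, λ − 1, λ⁻¹}`
  vanishes, from the Frobenius congruence `μ_q ≡ μ^q mod P1` and `w μ_q = μ^q`, `w' μ = μ_q^q`
  (then `w w' = (μ μ_q)^(q−1)`);
* `ssm_cri_frob_mem`   : at EVERY crossing point `λ^(q²) − λ` vanishes (`λ̄ ∈ 𝔽_{q²}`);
* `ssm_cri_main`       : (TR) with the UNIFORM choice `G := X^(q²) − X ∈ ℤ[X]` (separable mod `q`,
  vanishing at every crossing point): at every maximal `𝔫 ⊇ P1 + P2` of the `λ`-chart,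
  `λ, λ − 1 ∉ 𝔫` and with `g := λ^(q²) − λ`, `g_q := W g = λ_q^(q²) − λ_q`,
  `u := g − g_q^q ∈ P2`, `v := g_q − g^q ∈ P1`: locally at `𝔫`, `P2 = (π, u)`, `P1 = (π, v)`,
  `𝔫 = (π, u, v)`.

Prefix `ssm_cri_`.
-/
import Mathlib
import Fermat.Agent.SS.Model.Crossing

set_option autoImplicit false
set_option linter.unusedSectionVars false
set_option linter.style.haveILetI false

namespace Fermat.Agent.SS

open Ideal Polynomial Fermat.Agent.JT3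

section NC

variable {B : Type*} [CommRing B] [IsDomain B]

/-- (NC), Frobenius form: if `μ_q ≡ μ^q mod P1`, `μ ≡ μ_q^q mod P2`, `μ ∉ P1 ∪ P2` and
`w = μ^q / μ_q`, `w' = μ_q^q / μ` lie in `B`, then no crossing point contains `μ`. -/
theorem ssm_cri_noCrossing (P1 P2 𝔫 : Ideal B) [hP1 : P1.IsPrime] [hP2 : P2.IsPrime] (h𝔫 : 𝔫 ≠ ⊤)
    (q : ℕ) (hq : 2 ≤ q) (μ μq w w' : B) (hμ1 : μ ∉ P1) (hμ2 : μ ∉ P2)
    (hfrob1 : μq - μ ^ q ∈ P1) (hfrob2 : μ - μq ^ q ∈ P2)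
    (hw : w * μq = μ ^ q) (hw' : w' * μ = μq ^ q) (hμ𝔫 : μ ∈ 𝔫) : ¬ (P1 ≤ 𝔫 ∧ P2 ≤ 𝔫) := by
  have hμq1 : μq ∉ P1 := by
    intro h
    have : μ ^ q ∈ P1 := by
      have e : μ ^ q = μq - (μq - μ ^ q) := by ring
      rw [e]
      exact P1.sub_mem h hfrob1
    exact hμ1 (hP1.mem_of_pow_mem q this)
  have hw1 : w - 1 ∈ P1 := by
    have h : (w - 1) * μq ∈ P1 := by
      have e : (w - 1) * μq = -(μq - μ ^ q) := by rw [sub_mul, hw]; ring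
      rw [e]
      exact P1.neg_mem hfrob1
    exact (hP1.mem_or_mem h).resolve_right hμq1
  have hw2 : w' - 1 ∈ P2 := by
    have h : (w' - 1) * μ ∈ P2 := by
      have e : (w' - 1) * μ = -(μ - μq ^ q) := by rw [sub_mul, hw']; ring
      rw [e]
      exact P2.neg_mem hfrob2
    exact (hP2.mem_or_mem h).resolve_right hμ2
  have hμ0 : μ ≠ 0 := fun h => hμ1 (h ▸ P1.zero_mem)
  have hμq0 : μq ≠ 0 := fun h => hμq1 (h ▸ P1.zero_mem)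
  have hww : w * w' = (μ * μq) ^ (q - 1) := by
    apply mul_right_cancel₀ (mul_ne_zero hμ0 hμq0)
    have e : (μ * μq) ^ (q - 1) * (μ * μq) = (μ * μq) ^ q := by
      rw [← pow_succ]
      congr 1
      omega
    rw [e, mul_pow, ← hw, ← hw']
    ring
  refine ssm_cr_noCrossing P1 P2 𝔫 h𝔫 w w' hw1 hw2 ?_
  rw [hww]
  exact Ideal.pow_mem_of_mem _ (𝔫.mul_mem_right _ hμ𝔫) _ (by omega)

/-- (NC) with an involution `W` exchanging `P1` and `P2`, `μ_q = W μ`: only the Frobenius congruence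
modulo `P1` and `μ ∉ P1` are needed. -/
theorem ssm_cri_noCrossing_W (P1 P2 𝔫 : Ideal B) [hP1 : P1.IsPrime] [hP2 : P2.IsPrime]
    (h𝔫 : 𝔫 ≠ ⊤) (q : ℕ) (hq : 2 ≤ q) (W : B ≃+* B) (hWW : ∀ x, W (W x) = x)
    (hW : ∀ x, x ∈ P1 ↔ W x ∈ P2) (μ w w' : B) (hμ1 : μ ∉ P1)
    (hfrob : W μ - μ ^ q ∈ P1) (hw : w * W μ = μ ^ q) (hw' : w' * μ = W μ ^ q) (hμ𝔫 : μ ∈ 𝔫) :
    ¬ (P1 ≤ 𝔫 ∧ P2 ≤ 𝔫) := by
  have hfrob2 : μ - W μ ^ q ∈ P2 := by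
    have := (hW _).mp hfrob
    rwa [map_sub, map_pow, hWW] at this
  have hμ2 : μ ∉ P2 := by
    intro h
    have h1 : W μ ∈ P1 := by
      rw [hW, hWW]
      exact h
    have : μ ^ q ∈ P1 := by
      have e : μ ^ q = W μ - (W μ - μ ^ q) := by ring
      rw [e]
      exact P1.sub_mem h1 hfrob
    exact hμ1 (hP1.mem_of_pow_mem q this)
  exact ssm_cri_noCrossing P1 P2 𝔫 h𝔫 q hq μ (W μ) w w' hμ1 hμ2 hfrob hfrob2 hw hw' hμ𝔫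

end NC

section TR

variable {B : Type*} [CommRing B]

/-- the Frobenius polynomial `X^(q²) − X ∈ ℤ[X]` -/
noncomputable def ssm_cri_G (q : ℕ) : ℤ[X] := X ^ (q ^ 2) - X

theorem ssm_cri_aeval_G (q : ℕ) (c : B) : aeval c (ssm_cri_G q) = c ^ (q ^ 2) - c := by
  rw [ssm_cri_G, map_sub, map_pow, aeval_X]

/-- `λ̄ ∈ 𝔽_{q²}` at every crossing point: `λ^(q²) − λ ∈ P1 + P2`. -/
theorem ssm_cri_frob_mem (P1 P2 𝔞 : Ideal B) (h1 : P1 ≤ 𝔞) (h2 : P2 ≤ 𝔞) (q : ℕ) (lam lamq : B)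
    (hf1 : lamq - lam ^ q ∈ P1) (hf2 : lam - lamq ^ q ∈ P2) : lam ^ (q ^ 2) - lam ∈ 𝔞 := by
  obtain ⟨c, hc⟩ := sub_dvd_pow_sub_pow (lam ^ q) lamq q
  have e : lam ^ (q ^ 2) - lam = (lam ^ q - lamq) * c - (lam - lamq ^ q) := by
    rw [← hc, ← pow_mul, ← pow_two]
    ring
  rw [e]
  refine 𝔞.sub_mem (𝔞.mul_mem_right _ ?_) (h2 hf2)
  have : lam ^ q - lamq = -(lamq - lam ^ q) := by ring
  rw [this]
  exact 𝔞.neg_mem (h1 hf1)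

variable [IsDomain B]

/-- **[TR-I] THE CROSSING POINTS OF THE `λ`-CHART** (ring-theoretic form of the instance).
`φ : B' → B` the inclusion of the level-`N'` chart (integral, `B = φ B' + P1`), `W` an involution of
`B` exchanging `P1` and `P2`, `λ = φ λ'`, `λ_q = W λ`, Frobenius congruence `λ_q ≡ λ^q mod P1 ∋ q`,
`λ, λ − 1 ∉ P1`, the four quotients `w = λ^q/λ_q`, `w' = λ_q^q/λ`, `w₁ = (λ−1)^q/(λ_q−1)`,
`w₁' = (λ_q−1)^q/(λ−1)` in `B`, and [EC] for the Frobenius polynomial on `B'`.  Then at every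
maximal ideal `𝔫 ⊇ P1 + P2`: `λ, λ − 1 ∉ 𝔫`, `g := λ^(q²) − λ ∈ 𝔫`, and with `g_q := λ_q^(q²) − λ_q`,
`u := g − g_q^q`, `v := g_q − g^q`: `u ∈ P2`, `v ∈ P1`, `W u = v`, and locally at `𝔫`:
`P2 = (π, u)`, `P1 = (π, v)`, `𝔫 = (π, u, v)`. -/
theorem ssm_cri_main {B' : Type*} [CommRing B'] (φ : B' →+* B) (hint : φ.IsIntegral) (π' : B')
    (P1 P2 : Ideal B) [hP1 : P1.IsPrime] [hP2 : P2.IsPrime]
    (hP : Ideal.span {φ π'} = P1 ⊓ P2)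
    (hadd : ∀ b : B, ∃ b' : B', b - φ b' ∈ P1)
    (q : ℕ) [hq : Fact q.Prime] (hqP : (q : B) ∈ P1)
    (W : B ≃+* B) (hWW : ∀ x, W (W x) = x) (hW : ∀ x, x ∈ P1 ↔ W x ∈ P2)
    (lam' : B') (lamq : B) (hWl : W (φ lam') = lamq) (hfrob : lamq - φ lam' ^ q ∈ P1)
    (hl0 : φ lam' ∉ P1) (hl1 : φ lam' - 1 ∉ P1)
    (w w' w1 w1' : B) (hw : w * lamq = φ lam' ^ q) (hw' : w' * φ lam' = lamq ^ q)
    (hw1 : w1 * (lamq - 1) = (φ lam' - 1) ^ q) (hw1' : w1' * (φ lam' - 1) = (lamq - 1) ^ q)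
    (hEC : ∀ 𝔫' : Ideal B', 𝔫'.IsMaximal → π' ∈ 𝔫' → lam' ∉ 𝔫' → lam' - 1 ∉ 𝔫' →
      lam' ^ (q ^ 2) - lam' ∈ 𝔫' → tq_GenBy π' (lam' ^ (q ^ 2) - lam') 𝔫')
    (𝔫 : Ideal B) [h𝔫 : 𝔫.IsMaximal] (h1 : P1 ≤ 𝔫) (h2 : P2 ≤ 𝔫) :
    φ lam' ∉ 𝔫 ∧ φ lam' - 1 ∉ 𝔫 ∧ φ lam' ^ (q ^ 2) - φ lam' ∈ 𝔫 ∧
    ((φ lam' ^ (q ^ 2) - φ lam') - (lamq ^ (q ^ 2) - lamq) ^ q ∈ P2) ∧
    ((lamq ^ (q ^ 2) - lamq) - (φ lam' ^ (q ^ 2) - φ lam') ^ q ∈ P1) ∧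
    (W ((φ lam' ^ (q ^ 2) - φ lam') - (lamq ^ (q ^ 2) - lamq) ^ q)
      = (lamq ^ (q ^ 2) - lamq) - (φ lam' ^ (q ^ 2) - φ lam') ^ q) ∧
    (∀ x ∈ P2, ∃ s : B, s ∉ 𝔫 ∧ s * x ∈ Ideal.span
      {φ π', (φ lam' ^ (q ^ 2) - φ lam') - (lamq ^ (q ^ 2) - lamq) ^ q}) ∧
    (∀ x ∈ P1, ∃ s : B, s ∉ 𝔫 ∧ s * x ∈ Ideal.span
      {φ π', (lamq ^ (q ^ 2) - lamq) - (φ lam' ^ (q ^ 2) - φ lam') ^ q}) ∧
    (∀ x ∈ 𝔫, ∃ s : B, s ∉ 𝔫 ∧ s * x ∈ Ideal.span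
      {φ π', (φ lam' ^ (q ^ 2) - φ lam') - (lamq ^ (q ^ 2) - lamq) ^ q,
        (lamq ^ (q ^ 2) - lamq) - (φ lam' ^ (q ^ 2) - φ lam') ^ q}) := by
  set lam : B := φ lam' with hlam
  have hq2 : 2 ≤ q := hq.out.two_le
  have hWlq : W lamq = lam := by rw [← hWl, hWW]
  have hπ1 : φ π' ∈ P1 := (hP ▸ Ideal.subset_span rfl : φ π' ∈ P1 ⊓ P2).1
  have hW' : ∀ x, W x ∈ P1 → x ∈ P2 := by
    intro x hx
    have := (hW (W x)).mp hx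
    rwa [hWW] at this
  -- Frobenius modulo `P2`
  have hfrob2 : lam - lamq ^ q ∈ P2 := by
    have := (hW _).mp hfrob
    rwa [map_sub, map_pow, hWlq, hWl] at this
  -- (NC) at every maximal crossing point
  have hnc : ∀ 𝔞 : Ideal B, 𝔞.IsMaximal → P1 ≤ 𝔞 → P2 ≤ 𝔞 → lam ∉ 𝔞 ∧ lam - 1 ∉ 𝔞 := by
    intro 𝔞 h𝔞 ha1 ha2
    constructor
    · intro h
      exact ssm_cri_noCrossing_W P1 P2 𝔞 h𝔞.ne_top q hq2 W hWW hW lam w w' hl0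
        (by rw [hWl]; exact hfrob) (by rw [hWl]; exact hw) (by rw [hWl]; exact hw') h ⟨ha1, ha2⟩
    · intro h
      have hWl1 : W (lam - 1) = lamq - 1 := by rw [map_sub, map_one, hWl]
      have hf1 : lamq - 1 - (lam - 1) ^ q ∈ P1 := by
        have := ssm_cr_frob q P1 hqP (X - 1 : ℤ[X]) lam lamq hfrob
        simpa using this
      exact ssm_cri_noCrossing_W P1 P2 𝔞 h𝔞.ne_top q hq2 W hWW hW (lam - 1) w1 w1' hl1
        (by rw [hWl1]; exact hf1) (by rw [hWl1]; exact hw1) (by rw [hWl1]; exact hw1') h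
        ⟨ha1, ha2⟩
  set G : ℤ[X] := ssm_cri_G q with hG
  have hGl : aeval lam G = lam ^ (q ^ 2) - lam := ssm_cri_aeval_G q lam
  have hGlq : aeval lamq G = lamq ^ (q ^ 2) - lamq := ssm_cri_aeval_G q lamq
  have hGl' : aeval lam' G = lam' ^ (q ^ 2) - lam' := ssm_cri_aeval_G q lam'
  rw [← hGl, ← hGlq]
  set u : B := aeval lam G - (aeval lamq G) ^ q with hu
  set v : B := aeval lamq G - (aeval lam G) ^ q with hv
  have huP2 : u ∈ P2 := ssm_cr_bG_mem q P1 P2 hqP W hW' lam lamq hWl hWlq hfrob G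
  have hvP1 : v ∈ P1 := ssm_cr_frob q P1 hqP G lam lamq hfrob
  have hWu : W u = v := by
    rw [hu, map_sub, map_pow, ssm_cr_map_aeval_equiv, ssm_cr_map_aeval_equiv, hWl, hWlq]
  have hφG : φ (aeval lam' G) = aeval lam G := ssm_cr_map_aeval φ G lam'
  have hqq : 2 ≤ q ^ 2 := by nlinarith
  have hGmem : ∀ 𝔞 : Ideal B, P1 ≤ 𝔞 → P2 ≤ 𝔞 → aeval lam G ∈ 𝔞 := by
    intro 𝔞 ha1 ha2
    rw [hGl]
    exact ssm_cri_frob_mem P1 P2 𝔞 ha1 ha2 q lam lamq hfrob hfrob2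
  -- the generator property of `u` at every maximal crossing point
  have hgen : ∀ 𝔞 : Ideal B, 𝔞.IsMaximal → P1 ≤ 𝔞 → P2 ≤ 𝔞 → ssm_cr_GenMod P1 𝔞 u := by
    intro 𝔞 h𝔞 ha1 ha2
    haveI := h𝔞
    haveI : 𝔞.IsPrime := h𝔞.isPrime
    have haG := hGmem 𝔞 ha1 ha2
    obtain ⟨hn0, hn1⟩ := hnc 𝔞 h𝔞 ha1 ha2
    have hmax : (𝔞.comap φ).IsMaximal := Ideal.isMaximal_comap_of_isIntegral_of_isMaximal' φ hint 𝔞
    have hEC' : tq_GenBy π' (aeval lam' G) (𝔞.comap φ) := by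
      rw [hGl']
      refine hEC (𝔞.comap φ) hmax (ha1 hπ1) hn0 ?_ ?_
      · intro h
        apply hn1
        have : φ (lam' - 1) ∈ 𝔞 := h
        rwa [map_sub, map_one] at this
      · show φ (lam' ^ (q ^ 2) - lam') ∈ 𝔞
        rw [← hGl', hφG]
        exact haG
    have h3 := ssm_cr_lift_gen φ π' P1 𝔞 hπ1 ha1 hadd (aeval lam' G) hEC'
    rw [hφG] at h3
    exact ssm_cr_unif_of_pow P1 𝔞 (aeval lam G) u (q ^ 2) hqq haG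
      (ssm_cr_bG_congr q P1 hqP lam lamq hfrob G) h3
  haveI : 𝔫.IsPrime := h𝔫.isPrime
  have hu1 : ssm_cr_GenMod P1 𝔫 u := hgen 𝔫 h𝔫 h1 h2
  -- the conjugate crossing point `W⁻¹ 𝔫`
  have hv2 : ssm_cr_GenMod P2 𝔫 v := by
    rw [← hWu]
    apply ssm_cr_transport W P1 P2 𝔫 (fun x hx => (hW x).mp hx)
    apply hgen
    · exact Ideal.comap_isMaximal_of_equiv (W : B ≃+* B)
    · intro x hx
      rw [Ideal.mem_comap]
      exact h2 ((hW x).mp hx)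
    · intro x hx
      rw [Ideal.mem_comap]
      apply h1
      apply (hW (W x)).mpr
      rw [hWW]
      exact hx
  obtain ⟨hn0, hn1⟩ := hnc 𝔫 h𝔫 h1 h2
  exact ⟨hn0, hn1, hGmem 𝔫 h1 h2, huP2, hvP1, hWu,
    ssm_cr_node (φ π') P1 P2 𝔫 hP h1 h2 u v huP2 hvP1 hu1 hv2⟩

end TR
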