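/-
SS / [M] MODEL cell, leaf [TR-I], COVER-AGNOSTIC FORM: helper22's `ssm_cri_main` (CrossingInst.lean)
with the SECOND cusp function abstract.

The coordinate `λ` of the chart has the cusp values `λ = 0`, `λ = ∞` and the roots of a polynomial
`c ∈ ℤ[X]`:  Legendre cover `c = X - 1`;  Hesse cover in the coordinate `x = μ - 1` (Option M):
`c = X² + 3X + 3` (`= μ² + μ + 1`).  All hypotheses are the named outputs of the other leaves: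
[TP] (`P1`, `P2`, `hP`), [CP-I] (`hadd`), [GA]/[I1] (Frobenius congruence, `w = λ^q/λ_q`,
`w' = λ_q^q/λ`, `w₁ = c(λ)^q/c(λ_q)`, `w₁' = c(λ_q)^q/c(λ)`), [AL]/[I1] (the involution `W` of the
chart), [EC] (`hEC`: the Frobenius polynomial `λ'^(q²) − λ'` is a local parameter at the points of
the level-`N'` chart off the cusps where it vanishes).

* `ssm_crig_noCusp` : (NC) no crossing point where `λ` or `c(λ)` vanishes;
* `ssm_crig_main`   : (TR) at every maximal `𝔫 ⊇ P1 + P2` of the chart: `λ, c(λ) ∉ 𝔫`, and with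
  `g := λ^(q²) − λ`, `g_q := W g`, `u := g − g_q^q ∈ P2`, `v := g_q − g^q ∈ P1`: locally at `𝔫`,
  `P2 = (π, u)`, `P1 = (π, v)`, `𝔫 = (π, u, v)`.

Prefix `ssm_crig_`.
-/
import Mathlib
import Fermat.Agent.SS.Model.CrossingInst

set_option autoImplicit false
set_option linter.unusedSectionVars false
set_option linter.style.haveILetI false

namespace Fermat.Agent.SS

open Ideal Polynomial Fermat.Agent.JT3

section TR

variable {B : Type*} [CommRing B] [IsDomain B]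

/-- (NC) at the cusps `λ = 0` and `c(λ) = 0`: no maximal crossing point contains `λ` or `c(λ)`. -/
theorem ssm_crig_noCusp (P1 P2 : Ideal B) [hP1 : P1.IsPrime] [hP2 : P2.IsPrime]
    (q : ℕ) [hq : Fact q.Prime] (hqP : (q : B) ∈ P1)
    (W : B ≃+* B) (hWW : ∀ x, W (W x) = x) (hW : ∀ x, x ∈ P1 ↔ W x ∈ P2)
    (lam lamq : B) (hWl : W lam = lamq) (hfrob : lamq - lam ^ q ∈ P1) (c : ℤ[X])
    (hl0 : lam ∉ P1) (hl1 : aeval lam c ∉ P1)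
    (w w' w1 w1' : B) (hw : w * lamq = lam ^ q) (hw' : w' * lam = lamq ^ q)
    (hw1 : w1 * aeval lamq c = aeval lam c ^ q) (hw1' : w1' * aeval lam c = aeval lamq c ^ q)
    (𝔞 : Ideal B) (h𝔞 : 𝔞 ≠ ⊤) (ha1 : P1 ≤ 𝔞) (ha2 : P2 ≤ 𝔞) :
    lam ∉ 𝔞 ∧ aeval lam c ∉ 𝔞 := by
  have hq2 : 2 ≤ q := hq.out.two_le
  constructor
  · intro h
    exact ssm_cri_noCrossing_W P1 P2 𝔞 h𝔞 q hq2 W hWW hW lam w w' hl0
      (by rw [hWl]; exact hfrob) (by rw [hWl]; exact hw) (by rw [hWl]; exact hw') h ⟨ha1, ha2⟩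
  · intro h
    have hWc : W (aeval lam c) = aeval lamq c := by rw [ssm_cr_map_aeval_equiv, hWl]
    have hf1 : aeval lamq c - (aeval lam c) ^ q ∈ P1 := ssm_cr_frob q P1 hqP c lam lamq hfrob
    exact ssm_cri_noCrossing_W P1 P2 𝔞 h𝔞 q hq2 W hWW hW (aeval lam c) w1 w1' hl1
      (by rw [hWc]; exact hf1) (by rw [hWc]; exact hw1) (by rw [hWc]; exact hw1') h
      ⟨ha1, ha2⟩

/-- **[TR-I] THE CROSSING POINTS OF THE CHART, cover-agnostic form.**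
`φ : B' → B` the inclusion of the level-`N'` chart (integral, `B = φ B' + P1`), `W` an involution of
`B` exchanging `P1` and `P2`, `λ = φ λ'`, `λ_q = W λ`, Frobenius congruence `λ_q ≡ λ^q mod P1 ∋ q`,
`λ, c(λ) ∉ P1`, the four quotients `w = λ^q/λ_q`, `w' = λ_q^q/λ`, `w₁ = c(λ)^q/c(λ_q)`,
`w₁' = c(λ_q)^q/c(λ)` in `B`, and [EC] for the Frobenius polynomial on `B'` off the cusps.  Then at
every maximal ideal `𝔫 ⊇ P1 + P2`: `λ, c(λ) ∉ 𝔫`, `g := λ^(q²) − λ ∈ 𝔫`, and with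
`g_q := λ_q^(q²) − λ_q`, `u := g − g_q^q`, `v := g_q − g^q`: `u ∈ P2`, `v ∈ P1`, `W u = v`, and
locally at `𝔫`: `P2 = (π, u)`, `P1 = (π, v)`, `𝔫 = (π, u, v)`. -/
theorem ssm_crig_main {B' : Type*} [CommRing B'] (φ : B' →+* B) (hint : φ.IsIntegral) (π' : B')
    (P1 P2 : Ideal B) [hP1 : P1.IsPrime] [hP2 : P2.IsPrime]
    (hP : Ideal.span {φ π'} = P1 ⊓ P2)
    (hadd : ∀ b : B, ∃ b' : B', b - φ b' ∈ P1)
    (q : ℕ) [hq : Fact q.Prime] (hqP : (q : B) ∈ P1)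
    (W : B ≃+* B) (hWW : ∀ x, W (W x) = x) (hW : ∀ x, x ∈ P1 ↔ W x ∈ P2)
    (lam' : B') (lamq : B) (hWl : W (φ lam') = lamq) (hfrob : lamq - φ lam' ^ q ∈ P1)
    (c : ℤ[X]) (hl0 : φ lam' ∉ P1) (hl1 : aeval (φ lam') c ∉ P1)
    (w w' w1 w1' : B) (hw : w * lamq = φ lam' ^ q) (hw' : w' * φ lam' = lamq ^ q)
    (hw1 : w1 * aeval lamq c = aeval (φ lam') c ^ q)
    (hw1' : w1' * aeval (φ lam') c = aeval lamq c ^ q)
    (hEC : ∀ 𝔫' : Ideal B', 𝔫'.IsMaximal → π' ∈ 𝔫' → lam' ∉ 𝔫' → aeval lam' c ∉ 𝔫' →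
      lam' ^ (q ^ 2) - lam' ∈ 𝔫' → tq_GenBy π' (lam' ^ (q ^ 2) - lam') 𝔫')
    (𝔫 : Ideal B) [h𝔫 : 𝔫.IsMaximal] (h1 : P1 ≤ 𝔫) (h2 : P2 ≤ 𝔫) :
    φ lam' ∉ 𝔫 ∧ aeval (φ lam') c ∉ 𝔫 ∧ φ lam' ^ (q ^ 2) - φ lam' ∈ 𝔫 ∧
    ((φ lam' ^ (q ^ 2) - φ lam') - (lamq ^ (q ^ 2) - lamq) ^ q ∈ P2) ∧
    ((lamq ^ (q ^ 2) - lamq) - (φ lam' ^ (q ^ 2) - φ lam') ^ q ∈ P1) ∧
    (W ((φ lam' ^ (q ^ 2) - φ lam') - (lamq ^ (q ^ 2) - lamq) ^ q)
      = (lamq ^ (q ^ 2) - lamq) - (φ lam' ^ (q ^ 2) - φ lam') ^ q) ∧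
    (∀ x ∈ P2, ∃ s : B, s ∉ 𝔫 ∧ s * x ∈ Ideal.span
      {φ π', (φ lam' ^ (q ^ 2) - φ lam') - (lamq ^ (q ^ 2) - lamq) ^ q}) ∧
    (∀ x ∈ P1, ∃ s : B, s ∉ 𝔫 ∧ s * x ∈ Ideal.span
      {φ π', (lamq ^ (q ^ 2) - lamq) - (φ lam' ^ (q ^ 2) - φ lam') ^ q}) ∧
    (∀ x ∈ 𝔫, ∃ s : B, s ∉ 𝔫 ∧ s * x ∈ Ideal.span
      {φ π', (φ lam' ^ (q ^ 2) - φ lam') - (lamq ^ (q ^ 2) - lamq) ^ q,
        (lamq ^ (q ^ 2) - lamq) - (φ lam' ^ (q ^ 2) - φ lam') ^ q}) := by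
  set lam : B := φ lam' with hlam
  have hq2 : 2 ≤ q := hq.out.two_le
  have hWlq : W lamq = lam := by rw [← hWl, hWW]
  have hπ1 : φ π' ∈ P1 := (hP ▸ Ideal.subset_span rfl : φ π' ∈ P1 ⊓ P2).1
  have hW' : ∀ x, W x ∈ P1 → x ∈ P2 := by
    intro x hx
    have := (hW (W x)).mp hx
    rwa [hWW] at this
  -- Frobenius modulo `P2`
  have hfrob2 : lam - lamq ^ q ∈ P2 := by
    have := (hW _).mp hfrob
    rwa [map_sub, map_pow, hWlq, hWl] at this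
  -- (NC) at every maximal crossing point
  have hnc : ∀ 𝔞 : Ideal B, 𝔞.IsMaximal → P1 ≤ 𝔞 → P2 ≤ 𝔞 → lam ∉ 𝔞 ∧ aeval lam c ∉ 𝔞 :=
    fun 𝔞 h𝔞 ha1 ha2 => ssm_crig_noCusp P1 P2 q hqP W hWW hW lam lamq hWl hfrob c hl0 hl1
      w w' w1 w1' hw hw' hw1 hw1' 𝔞 h𝔞.ne_top ha1 ha2
  set G : ℤ[X] := ssm_cri_G q with hG
  have hGl : aeval lam G = lam ^ (q ^ 2) - lam := ssm_cri_aeval_G q lam
  have hGlq : aeval lamq G = lamq ^ (q ^ 2) - lamq := ssm_cri_aeval_G q lamq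
  have hGl' : aeval lam' G = lam' ^ (q ^ 2) - lam' := ssm_cri_aeval_G q lam'
  rw [← hGl, ← hGlq]
  set u : B := aeval lam G - (aeval lamq G) ^ q with hu
  set v : B := aeval lamq G - (aeval lam G) ^ q with hv
  have huP2 : u ∈ P2 := ssm_cr_bG_mem q P1 P2 hqP W hW' lam lamq hWl hWlq hfrob G
  have hvP1 : v ∈ P1 := ssm_cr_frob q P1 hqP G lam lamq hfrob
  have hWu : W u = v := by
    rw [hu, map_sub, map_pow, ssm_cr_map_aeval_equiv, ssm_cr_map_aeval_equiv, hWl, hWlq]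
  have hφG : φ (aeval lam' G) = aeval lam G := ssm_cr_map_aeval φ G lam'
  have hφc : φ (aeval lam' c) = aeval lam c := ssm_cr_map_aeval φ c lam'
  have hqq : 2 ≤ q ^ 2 := by nlinarith
  have hGmem : ∀ 𝔞 : Ideal B, P1 ≤ 𝔞 → P2 ≤ 𝔞 → aeval lam G ∈ 𝔞 := by
    intro 𝔞 ha1 ha2
    rw [hGl]
    exact ssm_cri_frob_mem P1 P2 𝔞 ha1 ha2 q lam lamq hfrob hfrob2
  -- the generator property of `u` at every maximal crossing point
  have hgen : ∀ 𝔞 : Ideal B, 𝔞.IsMaximal → P1 ≤ 𝔞 → P2 ≤ 𝔞 → ssm_cr_GenMod P1 𝔞 u := by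
    intro 𝔞 h𝔞 ha1 ha2
    haveI := h𝔞
    haveI : 𝔞.IsPrime := h𝔞.isPrime
    have haG := hGmem 𝔞 ha1 ha2
    obtain ⟨hn0, hn1⟩ := hnc 𝔞 h𝔞 ha1 ha2
    have hmax : (𝔞.comap φ).IsMaximal := Ideal.isMaximal_comap_of_isIntegral_of_isMaximal' φ hint 𝔞
    have hEC' : tq_GenBy π' (aeval lam' G) (𝔞.comap φ) := by
      rw [hGl']
      refine hEC (𝔞.comap φ) hmax (ha1 hπ1) hn0 ?_ ?_
      · intro h
        apply hn1
        have : φ (aeval lam' c) ∈ 𝔞 := h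
        rwa [hφc] at this
      · show φ (lam' ^ (q ^ 2) - lam') ∈ 𝔞
        rw [← hGl', hφG]
        exact haG
    have h3 := ssm_cr_lift_gen φ π' P1 𝔞 hπ1 ha1 hadd (aeval lam' G) hEC'
    rw [hφG] at h3
    exact ssm_cr_unif_of_pow P1 𝔞 (aeval lam G) u (q ^ 2) hqq haG
      (ssm_cr_bG_congr q P1 hqP lam lamq hfrob G) h3
  haveI : 𝔫.IsPrime := h𝔫.isPrime
  have hu1 : ssm_cr_GenMod P1 𝔫 u := hgen 𝔫 h𝔫 h1 h2
  -- the conjugate crossing point `W⁻¹ 𝔫`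
  have hv2 : ssm_cr_GenMod P2 𝔫 v := by
    rw [← hWu]
    apply ssm_cr_transport W P1 P2 𝔫 (fun x hx => (hW x).mp hx)
    apply hgen
    · exact Ideal.comap_isMaximal_of_equiv (W : B ≃+* B)
    · intro x hx
      rw [Ideal.mem_comap]
      exact h2 ((hW x).mp hx)
    · intro x hx
      rw [Ideal.mem_comap]
      apply h1
      apply (hW (W x)).mpr
      rw [hWW]
      exact hx
  obtain ⟨hn0, hn1⟩ := hnc 𝔫 h𝔫 h1 h2
  exact ⟨hn0, hn1, hGmem 𝔫 h1 h2, huP2, hvP1, hWu,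
    ssm_cr_node (φ π') P1 P2 𝔫 hP h1 h2 u v huP2 hvP1 hu1 hv2⟩

/-- the Legendre case `c = X - 1` recovers the clause `λ - 1 ∉ 𝔫`. -/
theorem ssm_crig_aeval_sub_one (b : B) : aeval b (X - 1 : ℤ[X]) = b - 1 := by simp

/-- the Hesse case (coordinate `x = μ - 1`): `c = X² + 3X + 3`. -/
theorem ssm_crig_aeval_hesse (b : B) :
    aeval b (X ^ 2 + 3 * X + 3 : ℤ[X]) = b ^ 2 + 3 * b + 3 := by
  have h3 : aeval b (3 : ℤ[X]) = 3 := by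
    have : (3 : ℤ[X]) = C 3 := by simp
    rw [this, aeval_C]
    simp
  rw [map_add, map_add, map_mul, map_pow, aeval_X, h3]

end TR

end Fermat.Agent.SS
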