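/-
SS [M] leaf [I1], INSTANCE FORM (helper29), prefix `ssm_i1i_`.

The one-screen instance of `ssm_i1_main` (Integral.lean) in the context of helper12's
`ssm_tpw_hyp_of_prime` (TwoPrimesW.lean): `A0` the base DVR, `L = Frac A0`, `K ⊆ E` the level-`N'`
and level-`N` function fields, `R'` the Gauss DVR of `K`, `D : ssm_tw_Data K R' q V1 W lam`
(helper8's `ssm_gi_data`), `V2 = V1.comap W`.

* `ssm_i1i_q_mem`     : `(q : E) ∈ 𝔪(V1)`.
* `ssm_i1i_main`      : `ssm_i1_Facts A0 q λ (W λ) V1 (V1.comap W)` from `D`, the hypotheses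
  `H : ssm_tp_Hyp` of [TP] (`ssm_tpw_hyp_of_prime`) and the cusp facts [CF] (`ssm_cf_final`).
* `ssm_i1i_of_prime`  : the same with `H` produced by `ssm_tpw_hyp_of_prime`, returning `H` as well.
* `ssm_i1i_equiv`     : a `W`-stable subalgebra `B` (`W` an involution) carries the ring
  automorphism `WB : B ≃+* B`, `(WB b : E) = W b` (the input `WB`, `hWB` of `ssm_cpi_ff_smooth2`).
* `ssm_i1i_charts`    : `W` induces ring automorphisms of the three charts `{λ}`, `{λ⁻¹}`, `{λ, λ⁻¹}`.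
-/
import Mathlib
import Fermat.Agent.SS.Model.Integral
import Fermat.Agent.SS.Model.TwoPrimesW
import Fermat.Agent.SS.Model.CuspsInst

set_option autoImplicit false

namespace Fermat.Agent.SS

open IntermediateField Fermat.Agent.JT3

universe v

section Equiv

variable {A0 : Type*} {F0 : Type v} [CommRing A0] [Field F0] [Algebra A0 F0]

/-- A subalgebra stable under an involution `W` of the ambient field carries the induced ring
automorphism. -/
noncomputable def ssm_i1i_equiv (W : F0 ≃+* F0) (hWW : ∀ x, W (W x) = x) (B : Subalgebra A0 F0)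
    (hB : ∀ b ∈ B, W b ∈ B) : B ≃+* B where
  toFun b := ⟨W b, hB b b.2⟩
  invFun b := ⟨W b, hB b b.2⟩
  left_inv b := Subtype.ext (hWW b)
  right_inv b := Subtype.ext (hWW b)
  map_mul' a b := Subtype.ext (map_mul W (a : F0) b)
  map_add' a b := Subtype.ext (map_add W (a : F0) b)

@[simp]
theorem ssm_i1i_equiv_coe (W : F0 ≃+* F0) (hWW : ∀ x, W (W x) = x) (B : Subalgebra A0 F0)
    (hB : ∀ b ∈ B, W b ∈ B) (b : B) : ((ssm_i1i_equiv W hWW B hB b : B) : F0) = W b := rfl

theorem ssm_i1i_equiv_algebraMap (W : F0 ≃+* F0) (hWW : ∀ x, W (W x) = x) (B : Subalgebra A0 F0)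
    (hB : ∀ b ∈ B, W b ∈ B) (hWA : ∀ a : A0, W (algebraMap A0 F0 a) = algebraMap A0 F0 a) (a : A0) :
    ssm_i1i_equiv W hWW B hB (algebraMap A0 B a) = algebraMap A0 B a :=
  Subtype.ext (hWA a)

/-- `W` induces ring automorphisms of the three charts. -/
theorem ssm_i1i_charts (W : F0 ≃+* F0) (hWW : ∀ x, W (W x) = x)
    (hWA : ∀ a : A0, W (algebraMap A0 F0 a) = algebraMap A0 F0 a) {q : ℕ} {lam lamq : F0}
    {V1 V2 : ValuationSubring F0} (hWlam : W lam = lamq)
    (F : ssm_i1_Facts A0 q lam lamq V1 V2) :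
    (∃ WB : fc_chart A0 ({lam} : Set F0) ≃+* fc_chart A0 ({lam} : Set F0),
      (∀ b, ((WB b : fc_chart A0 ({lam} : Set F0)) : F0) = W b) ∧
        ∀ a : A0, WB (algebraMap A0 _ a) = algebraMap A0 _ a) ∧
    (∃ WB : fc_chart A0 ({lam⁻¹} : Set F0) ≃+* fc_chart A0 ({lam⁻¹} : Set F0),
      (∀ b, ((WB b : fc_chart A0 ({lam⁻¹} : Set F0)) : F0) = W b) ∧
        ∀ a : A0, WB (algebraMap A0 _ a) = algebraMap A0 _ a) ∧
    (∃ WB : fc_chart A0 ({lam, lam⁻¹} : Set F0) ≃+* fc_chart A0 ({lam, lam⁻¹} : Set F0),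
      (∀ b, ((WB b : fc_chart A0 ({lam, lam⁻¹} : Set F0)) : F0) = W b) ∧
        ∀ a : A0, WB (algebraMap A0 _ a) = algebraMap A0 _ a) := by
  obtain ⟨h1, h2, h12⟩ := ssm_i1_W_charts W hWA hWlam F
  exact ⟨⟨ssm_i1i_equiv W hWW _ h1, fun _ => rfl, ssm_i1i_equiv_algebraMap W hWW _ h1 hWA⟩,
    ⟨ssm_i1i_equiv W hWW _ h2, fun _ => rfl, ssm_i1i_equiv_algebraMap W hWW _ h2 hWA⟩,
    ⟨ssm_i1i_equiv W hWW _ h12, fun _ => rfl, ssm_i1i_equiv_algebraMap W hWW _ h12 hWA⟩⟩

end Equiv

section Inst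

variable {K : Type*} {E : Type v} [Field K] [Field E] [Algebra K E] [FiniteDimensional K E]
  [Algebra.IsSeparable K E]
  {R' : Type*} [CommRing R'] [IsDomain R'] [IsDiscreteValuationRing R'] [Algebra R' K]
  [IsFractionRing R' K] [Algebra R' E] [IsScalarTower R' K E]
  {A0 L : Type*} [CommRing A0] [IsDomain A0] [IsDiscreteValuationRing A0]
  [Field L] [Algebra A0 L] [IsFractionRing A0 L] [Algebra L E] [Algebra A0 E]
  [IsScalarTower A0 L E] [Algebra A0 K] [IsScalarTower A0 K E]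
  {q : ℕ} {V1 : ValuationSubring E} {W : E ≃+* E} {lam : R'}

omit [FiniteDimensional K E] [Algebra.IsSeparable K E] in
/-- `q ∈ 𝔪(V1)`. -/
theorem ssm_i1i_q_mem (D : ssm_tw_Data K R' q V1 W lam) : (q : E) ∈ V1.nonunits := by
  have h := (ssm_tw_over_nonunits D.over1 (q : R')).2 D.q_mem
  rwa [map_natCast] at h

omit [FiniteDimensional K E] [Algebra.IsSeparable K E] [Algebra A0 K] [IsScalarTower A0 K E] in
/-- **[I1], instance form**: the integrality package for `(λ, W λ)` from the two-valuations data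
`D` ([GA-I]), the hypotheses `H` of [TP] ([TP-W]) and the cusp facts [CF]. -/
theorem ssm_i1i_main [CharZero L] (D : ssm_tw_Data K R' q V1 W lam) {π : A0} (hπ : Irreducible π)
    {lamE lamqE : E} (hlamE : algebraMap R' E lam = lamE) (hlamqE : W lamE = lamqE)
    (hxE : Transcendental L lamE) [FiniteDimensional L⟮lamE⟯ E]
    (H : ssm_tp_Hyp (algebraMap A0 (Algebra.adjoin A0 ({lamE} : Set E)) π) V1
      (V1.comap (W : E →+* E)))
    (CF : ssm_cf_CuspFacts L q lamE lamqE) :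
    ssm_i1_Facts A0 q lamE lamqE V1 (V1.comap (W : E →+* E)) := by
  subst hlamE hlamqE
  exact ssm_i1_main hπ hxE H W (fun _ => Iff.rfl) rfl (D.invol _) D.q_prime (ssm_i1i_q_mem D) D.frob
    CF.zero CF.zero' CF.one CF.one' CF.inf CF.inf'

/-- **[TP-W] + [I1]** in one call: the hypotheses of `ssm_tpw_hyp_of_prime` and [CF] give `ssm_tp_Hyp`
and the integrality package for the coordinate `x = λ ∈ K`. -/
theorem ssm_i1i_of_prime [CharZero L] [Algebra L K] [IsScalarTower A0 L K]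
    (D : ssm_tw_Data K R' q V1 W lam) {π : A0} (hπ : Irreducible π) {x : K}
    (hxlam : algebraMap R' K lam = x)
    (hx : Transcendental L x) [FiniteDimensional L⟮x⟯ K]
    (hxE : Transcendental L (algebraMap K E x)) [FiniteDimensional L⟮algebraMap K E x⟯ E]
    (hprime : Prime (algebraMap A0 (fc_chart A0 ({x} : Set K)) π))
    (VK : ValuationSubring K) (hVK : ∀ z : K, z ∈ VK ↔ z ∈ (algebraMap R' K).range)
    (hover : ssm_tp_Over (algebraMap A0 (Algebra.adjoin A0 ({x} : Set K)) π) VK)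
    (π' : R') (hπ' : Irreducible π') (hππ' : algebraMap R' K π' = algebraMap A0 K π)
    (CF : ssm_cf_CuspFacts L q (algebraMap K E x) (W (algebraMap K E x))) :
    ssm_tp_Hyp (algebraMap A0 (Algebra.adjoin A0 ({algebraMap K E x} : Set E)) π) V1
        (V1.comap (W : E →+* E)) ∧
      ssm_i1_Facts A0 q (algebraMap K E x) (W (algebraMap K E x)) V1 (V1.comap (W : E →+* E)) := by
  have H := ssm_tpw_hyp_of_prime (L := L) D hπ hx hxE hprime VK hVK hover π' hπ' hππ'
  refine ⟨H, ssm_i1i_main D hπ ?_ rfl hxE H CF⟩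
  rw [← hxlam, ← IsScalarTower.algebraMap_apply]

end Inst

end Fermat.Agent.SS
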