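/-
Project SS (S34), cell [M], leaf [TH-C] (helper2): the cover ring at a crossing point and the
thickness data.

`K ⊆ E` fields (`K = lg_E L0 N'`, `E = lg_E L0 N`), `B' ⊆ K`, `B ⊆ E` charts of the two levels,
`φ : B' →+* B` the (integral) chart map, `y0` a maximal ideal of `B'`, `S` the local ring of `B'` at
`y0` (any presentation: `[Algebra B' S] [IsLocalization.AtPrime S y0]`), and
`C := integralClosure S E`.

* `ssm_thc_isLocalization` : `C` is the localisation of `B` at `φ (B' ∖ y0)`;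
* `ssm_thc_isLocalRing`    : if `𝔫0` is the only prime of `B` above `y0`, then `C` is local with
  maximal ideal `𝔫0 C`;
* `ssm_thc_data`           : the thickness data `ssm_tha_Data` for `(S, C)` from the named outputs of
  the leaves [CP-I] (components) and [TR-I] (crossing);
* `ssm_thc_main`           : the node structure at `𝔫0` in the ELEMENT FORM consumed by
  `ssm_tht_node` ([TH-T]).

Prefix `ssm_thc_`.
-/
import Mathlib
import Fermat.Agent.SS.Model.Components
import Fermat.Agent.SS.Model.ThickUnram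

set_option autoImplicit false
set_option linter.unusedSectionVars false
set_option linter.unusedVariables false
set_option linter.style.haveILetI false

namespace Fermat.Agent.SS

open Fermat.Agent.JT3 Polynomial

section Dict

variable {A0 : Type*} [CommRing A0] {K E : Type*} [Field K] [Field E] [Algebra K E]
  [Algebra A0 K] [Algebra A0 E]
  {B' : Subalgebra A0 K} {B : Subalgebra A0 E} (φ : B' →+* B)
  (y0 : Ideal B') [y0.IsPrime]
  (S : Type*) [CommRing S] [Algebra B' S] [IsLocalization.AtPrime S y0]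
  [Algebra S K] [IsScalarTower B' S K] [Algebra S E] [IsScalarTower S K E]

/-- the tower `B' → S → E` -/
theorem ssm_thc_tower : IsScalarTower B' S E :=
  IsScalarTower.of_algebraMap_eq fun x => by
    rw [IsScalarTower.algebraMap_apply S K E, ← IsScalarTower.algebraMap_apply B' S K]
    rfl

/-- `(φ b' : E) = algebraMap S E (b' : S)` -/
theorem ssm_thc_phi_coe (hφ : ∀ b' : B', (φ b' : E) = algebraMap K E (b' : K)) (b' : B') :
    (φ b' : E) = algebraMap S E (algebraMap B' S b') := by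
  rw [hφ, IsScalarTower.algebraMap_apply S K E, ← IsScalarTower.algebraMap_apply B' S K]
  rfl

/-- the chart `B` is integral over `S` -/
theorem ssm_thc_int_chart (hφ : ∀ b' : B', (φ b' : E) = algebraMap K E (b' : K))
    (hint : φ.IsIntegral) (b : B) : IsIntegral S (b : E) := by
  letI := φ.toAlgebra
  have h := IsIntegral.map_of_comp_eq (R := B') (S := B) (T := S) (U := E)
    (algebraMap B' S) B.val.toRingHom (by
      ext x
      exact (ssm_thc_phi_coe φ S hφ x).symm) (hint b)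
  exact h

/-- every element of `E` integral over `S` is a fraction `b / φ m`, `m ∉ y0` -/
theorem ssm_thc_surj (hφ : ∀ b' : B', (φ b' : E) = algebraMap K E (b' : K))
    (hBcl : ∀ z : E, IsIntegral B' z → z ∈ B) (c : E) (hc : IsIntegral S c) :
    ∃ m : B', m ∉ y0 ∧ ∃ b : B, (φ m : E) * c = b := by
  haveI : IsScalarTower B' S E := ssm_thc_tower (K := K) S
  obtain ⟨m, hm⟩ := IsIntegral.exists_multiple_integral_of_isLocalization y0.primeCompl c hc
  refine ⟨m.1, m.2, ⟨_, hBcl _ hm⟩, ?_⟩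
  rw [hφ]
  show _ = m • c
  rw [Submonoid.smul_def, Algebra.smul_def]
  rfl

/-- the inclusion of the chart into `C = integralClosure S E` -/
def ssm_thc_iota (B : Subalgebra A0 E) (S : Type*) [CommRing S] [Algebra S E]
    (h : ∀ b : B, IsIntegral S (b : E)) : B →+* integralClosure S E where
  toFun b := ⟨(b : E), h b⟩
  map_one' := rfl
  map_mul' _ _ := rfl
  map_zero' := rfl
  map_add' _ _ := rfl

theorem ssm_thc_iota_coe (h : ∀ b : B, IsIntegral S (b : E)) (b : B) :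
    ((ssm_thc_iota B S h b : integralClosure S E) : E) = b := rfl

theorem ssm_thc_iota_injective (h : ∀ b : B, IsIntegral S (b : E)) :
    Function.Injective (ssm_thc_iota B S h) := by
  intro a b hab
  apply Subtype.ext
  exact congrArg (fun z : integralClosure S E => (z : E)) hab

/-- `ι ∘ φ = (S → C) ∘ (B' → S)` -/
theorem ssm_thc_iota_phi (hφ : ∀ b' : B', (φ b' : E) = algebraMap K E (b' : K))
    (h : ∀ b : B, IsIntegral S (b : E)) (b' : B') :
    ssm_thc_iota B S h (φ b') = algebraMap S (integralClosure S E) (algebraMap B' S b') := by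
  apply Subtype.ext
  rw [ssm_thc_iota_coe]
  exact ssm_thc_phi_coe φ S hφ b'

end Dict

section Loc

variable {A0 : Type*} [CommRing A0] {K E : Type*} [Field K] [Field E] [Algebra K E]
  [Algebra A0 K] [Algebra A0 E]
  {B' : Subalgebra A0 K} {B : Subalgebra A0 E} (φ : B' →+* B)
  (y0 : Ideal B') [y0.IsPrime]
  (S : Type*) [CommRing S] [Algebra B' S] [IsLocalization.AtPrime S y0]
  [Algebra S K] [IsScalarTower B' S K] [Algebra S E] [IsScalarTower S K E]
  (hφ : ∀ b' : B', (φ b' : E) = algebraMap K E (b' : K))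
  (hint : φ.IsIntegral) (hBcl : ∀ z : E, IsIntegral B' z → z ∈ B)

include hBcl in
/-- **`C = integralClosure S E` is the localisation of the chart `B` at `φ (B' ∖ y0)`.** -/
theorem ssm_thc_isLocalization :
    @IsLocalization B _ (Submonoid.map φ y0.primeCompl) (integralClosure S E) _
      (ssm_thc_iota B S (ssm_thc_int_chart φ S hφ hint)).toAlgebra := by
  letI := (ssm_thc_iota B S (ssm_thc_int_chart φ S hφ hint)).toAlgebra
  rw [isLocalization_iff]
  refine ⟨?_, ?_, ?_⟩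
  · rintro ⟨_, m, hm, rfl⟩
    show IsUnit (ssm_thc_iota B S (ssm_thc_int_chart φ S hφ hint) (φ m))
    rw [ssm_thc_iota_phi φ S hφ]
    exact (IsLocalization.map_units S (⟨m, hm⟩ : y0.primeCompl)).map _
  · intro z
    obtain ⟨m, hm, b, hb⟩ := ssm_thc_surj φ y0 S hφ hBcl (z : E) z.2
    refine ⟨(b, ⟨φ m, m, hm, rfl⟩), ?_⟩
    apply Subtype.ext
    show (z : E) * (φ m : E) = (b : E)
    rw [mul_comm]
    exact hb
  · intro x y hxy
    exact ⟨1, by rw [ssm_thc_iota_injective S _ hxy]⟩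

include hBcl in
/-- every maximal ideal of `C` is `𝔫0 C`, when `𝔫0` is the only prime of `B` above `y0` -/
theorem ssm_thc_maximal_eq (𝔫0 : Ideal B)
    (huniq : ∀ 𝔫 : Ideal B, 𝔫.IsPrime → 𝔫.comap φ = y0 → 𝔫 = 𝔫0)
    (M : Ideal (integralClosure S E)) (hM : M.IsMaximal) :
    M = Ideal.map (ssm_thc_iota B S (ssm_thc_int_chart φ S hφ hint)) 𝔫0 := by
  letI := (ssm_thc_iota B S (ssm_thc_int_chart φ S hφ hint)).toAlgebra
  haveI := ssm_thc_isLocalization φ y0 S hφ hint hBcl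
  haveI : IsLocalRing S := IsLocalization.AtPrime.isLocalRing S y0
  haveI := hM
  have ha : M.comap (algebraMap S (integralClosure S E)) = IsLocalRing.maximalIdeal S := by
    haveI : (M.comap (algebraMap S (integralClosure S E))).IsMaximal :=
      Ideal.isMaximal_comap_of_isIntegral_of_isMaximal M
    exact IsLocalRing.eq_maximalIdeal this
  have hb : (M.comap (ssm_thc_iota B S (ssm_thc_int_chart φ S hφ hint))).comap φ = y0 := by
    rw [Ideal.comap_comap]
    have h1 : (ssm_thc_iota B S (ssm_thc_int_chart φ S hφ hint)).comp φ =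
        (algebraMap S (integralClosure S E)).comp (algebraMap B' S) :=
      RingHom.ext (ssm_thc_iota_phi φ S hφ _)
    rw [h1, ← Ideal.comap_comap, ha]
    exact IsLocalization.AtPrime.under_maximalIdeal S y0
  have hc := huniq _ (Ideal.comap_isPrime _ _) hb
  rw [← hc]
  exact (IsLocalization.map_under (Submonoid.map φ y0.primeCompl) (integralClosure S E) M).symm

include hφ hint hBcl in
/-- **`C` is a local ring** when `𝔫0` is the only prime of `B` above `y0`. -/
theorem ssm_thc_isLocalRing (𝔫0 : Ideal B)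
    (huniq : ∀ 𝔫 : Ideal B, 𝔫.IsPrime → 𝔫.comap φ = y0 → 𝔫 = 𝔫0) :
    IsLocalRing (integralClosure S E) := by
  haveI : Nontrivial (integralClosure S E) := inferInstance
  apply IsLocalRing.of_unique_max_ideal
  obtain ⟨M, hM⟩ := Ideal.exists_maximal (integralClosure S E)
  refine ⟨M, hM, fun M' hM' => ?_⟩
  rw [ssm_thc_maximal_eq φ y0 S hφ hint hBcl 𝔫0 huniq M hM,
    ssm_thc_maximal_eq φ y0 S hφ hint hBcl 𝔫0 huniq M' hM']

end Loc

section Data

variable {A0 : Type*} [CommRing A0] {K E : Type*} [Field K] [Field E] [Algebra K E]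
  [Algebra A0 K] [Algebra A0 E]
  {B' : Subalgebra A0 K} {B : Subalgebra A0 E}

/-- **The hypotheses of [TH-C]** = named outputs of the leaves [CP-I] (`hP … hpow`), [TR-I]
(`hu hv hgen2 hgen1`, with `t' = G(λ')`, `gq = G(λ_q)`), [TH-S] (`hm`) at a crossing point `𝔫0` of
the chart `B` lying over the maximal ideal `y0` of `B'`. -/
structure ssm_thc_Hyp (φ : B' →+* B) (y0 : Ideal B') (S : Type*) [CommRing S] [IsLocalRing S]
    [Algebra B' S] (q₀ : ℕ) (P1 P2 𝔫0 : Ideal B) (t' : B') (gq : B) : Prop where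
  hφ : ∀ b' : B', (φ b' : E) = algebraMap K E (b' : K)
  hint : φ.IsIntegral
  hBcl : ∀ z : E, IsIntegral B' z → z ∈ B
  hq₀ : q₀.Prime
  hqE : (q₀ : E) ≠ 0
  hP : Ideal.span {(q₀ : B)} = P1 ⊓ P2
  hc1 : P1.comap φ = Ideal.span {(q₀ : B')}
  hc2 : P2.comap φ = Ideal.span {(q₀ : B')}
  h12 : ¬ P1 ≤ P2
  h21 : ¬ P2 ≤ P1
  hadd : ∀ b : B, ∃ b' : B', b - φ b' ∈ P1
  hpow : ∀ b : B, ∃ b' : B', b ^ q₀ - φ b' ∈ P2
  h1 : P1 ≤ 𝔫0
  h2 : P2 ≤ 𝔫0
  h𝔫y : 𝔫0.comap φ = y0
  hm : IsLocalRing.maximalIdeal S = Ideal.span {(q₀ : S), algebraMap B' S t'}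
  hu : φ t' - gq ^ q₀ ∈ P2
  hv : gq - φ t' ^ q₀ ∈ P1
  hgen2 : ∀ x ∈ P2, ∃ s : B, s ∉ 𝔫0 ∧ s * x ∈ Ideal.span {(q₀ : B), φ t' - gq ^ q₀}
  hgen1 : ∀ x ∈ P1, ∃ s : B, s ∉ 𝔫0 ∧ s * x ∈ Ideal.span {(q₀ : B), gq - φ t' ^ q₀}

variable {φ : B' →+* B} {y0 : Ideal B'} [y0.IsPrime]
  {S : Type*} [CommRing S] [IsLocalRing S] [Algebra B' S] [IsLocalization.AtPrime S y0]
  [Algebra S K] [IsScalarTower B' S K] [Algebra S E] [IsScalarTower S K E]
  {q₀ : ℕ} {P1 P2 𝔫0 : Ideal B} [P1.IsPrime] [P2.IsPrime] [𝔫0.IsPrime] {t' : B'} {gq : B}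

namespace ssm_thc_Hyp

variable (H : ssm_thc_Hyp φ y0 S q₀ P1 P2 𝔫0 t' gq)
include H

/-- `𝔫0` is the only prime of `B` above `y0` -/
theorem huniq (𝔫 : Ideal B) (h𝔫 : 𝔫.IsPrime) (h : 𝔫.comap φ = y0) : 𝔫 = 𝔫0 := by
  haveI := h𝔫
  refine ssm_cp_unique_crossing φ (q₀ : B') P1 P2 ?_ q₀ H.hq₀.pos H.hadd H.hpow 𝔫0 𝔫 H.h1 H.h2
    (h.trans H.h𝔫y.symm)
  rw [map_natCast]
  exact H.hP

/-- the inclusion `ι : B → C` -/
noncomputable def iota : B →+* integralClosure S E :=
  ssm_thc_iota B S (ssm_thc_int_chart φ S H.hφ H.hint)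

theorem iota_coe (b : B) : ((H.iota b : integralClosure S E) : E) = b := rfl

theorem iota_phi (b' : B') :
    H.iota (φ b') = algebraMap S (integralClosure S E) (algebraMap B' S b') :=
  ssm_thc_iota_phi φ S H.hφ _ b'

theorem isLocalRing : IsLocalRing (integralClosure S E) :=
  ssm_thc_isLocalRing φ y0 S H.hφ H.hint H.hBcl 𝔫0 H.huniq

/-- `C` is the localisation of `B` at `φ (B' ∖ y0)` -/
theorem isLoc : @IsLocalization B _ (Submonoid.map φ y0.primeCompl) (integralClosure S E) _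
    H.iota.toAlgebra :=
  ssm_thc_isLocalization φ y0 S H.hφ H.hint H.hBcl

theorem q_mem1 : (q₀ : B) ∈ P1 := by
  have : (q₀ : B) ∈ P1 ⊓ P2 := H.hP ▸ Ideal.subset_span rfl
  exact this.1

theorem q_mem2 : (q₀ : B) ∈ P2 := by
  have : (q₀ : B) ∈ P1 ⊓ P2 := H.hP ▸ Ideal.subset_span rfl
  exact this.2

theorem q_mem_y0 : (q₀ : B') ∈ y0 := by
  rw [← H.h𝔫y, Ideal.mem_comap, map_natCast]
  exact H.h1 H.q_mem1

theorem disj0 : Disjoint ((Submonoid.map φ y0.primeCompl : Submonoid B) : Set B) (𝔫0 : Set B) := by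
  rw [Set.disjoint_left]
  rintro _ ⟨m, hm, rfl⟩ hmem
  have h : m ∈ 𝔫0.comap φ := hmem
  rw [H.h𝔫y] at h
  exact hm h

theorem disj1 : Disjoint ((Submonoid.map φ y0.primeCompl : Submonoid B) : Set B) (P1 : Set B) :=
  Set.disjoint_of_subset_right H.h1 H.disj0

theorem disj2 : Disjoint ((Submonoid.map φ y0.primeCompl : Submonoid B) : Set B) (P2 : Set B) :=
  Set.disjoint_of_subset_right H.h2 H.disj0

theorem comap_map0 : (Ideal.map H.iota 𝔫0).comap H.iota = 𝔫0 := by
  letI := H.iota.toAlgebra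
  haveI := H.isLoc
  exact IsLocalization.under_map_of_isPrime_disjoint (Submonoid.map φ y0.primeCompl)
    (integralClosure S E) inferInstance H.disj0

theorem comap_map1 : (Ideal.map H.iota P1).comap H.iota = P1 := by
  letI := H.iota.toAlgebra
  haveI := H.isLoc
  exact IsLocalization.under_map_of_isPrime_disjoint (Submonoid.map φ y0.primeCompl)
    (integralClosure S E) inferInstance H.disj1

theorem comap_map2 : (Ideal.map H.iota P2).comap H.iota = P2 := by
  letI := H.iota.toAlgebra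
  haveI := H.isLoc
  exact IsLocalization.under_map_of_isPrime_disjoint (Submonoid.map φ y0.primeCompl)
    (integralClosure S E) inferInstance H.disj2

theorem isPrime1 : (Ideal.map H.iota P1).IsPrime := by
  letI := H.iota.toAlgebra
  haveI := H.isLoc
  exact IsLocalization.isPrime_of_isPrime_disjoint (Submonoid.map φ y0.primeCompl)
    (integralClosure S E) P1 inferInstance H.disj1

theorem isPrime2 : (Ideal.map H.iota P2).IsPrime := by
  letI := H.iota.toAlgebra
  haveI := H.isLoc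
  exact IsLocalization.isPrime_of_isPrime_disjoint (Submonoid.map φ y0.primeCompl)
    (integralClosure S E) P2 inferInstance H.disj2

theorem mem_map_iff1 (b : B) : H.iota b ∈ Ideal.map H.iota P1 ↔ b ∈ P1 := by
  conv_rhs => rw [← H.comap_map1]
  rfl

theorem mem_map_iff2 (b : B) : H.iota b ∈ Ideal.map H.iota P2 ↔ b ∈ P2 := by
  conv_rhs => rw [← H.comap_map2]
  rfl

theorem mem_map_iff0 (b : B) : H.iota b ∈ Ideal.map H.iota 𝔫0 ↔ b ∈ 𝔫0 := by
  conv_rhs => rw [← H.comap_map0]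
  rfl

/-- every element of `C` is a fraction `b / φ m` -/
theorem exists_frac (c : integralClosure S E) :
    ∃ (m : B') (b : B), m ∉ y0 ∧ c * H.iota (φ m) = H.iota b := by
  obtain ⟨m, hm, b, hb⟩ := ssm_thc_surj φ y0 S H.hφ H.hBcl (c : E) c.2
  refine ⟨m, b, hm, ?_⟩
  apply Subtype.ext
  show (c : E) * (φ m : E) = (b : E)
  rw [mul_comm]
  exact hb

variable [IsLocalRing (integralClosure S E)]

theorem maximal_eq : IsLocalRing.maximalIdeal (integralClosure S E) = Ideal.map H.iota 𝔫0 :=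
  ssm_thc_maximal_eq φ y0 S H.hφ H.hint H.hBcl 𝔫0 H.huniq _
    (IsLocalRing.maximalIdeal.isMaximal _)

theorem isUnit_iota {s : B} (hs : s ∉ 𝔫0) : IsUnit (H.iota s) := by
  rw [← IsLocalRing.notMem_maximalIdeal, H.maximal_eq, H.mem_map_iff0]
  exact hs

theorem isUnit_iota_phi {m : B'} (hm : m ∉ y0) : IsUnit (H.iota (φ m)) := by
  apply H.isUnit_iota
  intro h
  have h' : m ∈ 𝔫0.comap φ := h
  rw [H.h𝔫y] at h'
  exact hm h'

theorem algebraMap_q : algebraMap S (integralClosure S E) (q₀ : S) = H.iota (q₀ : B) := by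
  rw [map_natCast, map_natCast]

theorem q_map1 : algebraMap S (integralClosure S E) (q₀ : S) ∈ Ideal.map H.iota P1 := by
  rw [H.algebraMap_q]
  exact Ideal.mem_map_of_mem _ H.q_mem1

theorem q_map2 : algebraMap S (integralClosure S E) (q₀ : S) ∈ Ideal.map H.iota P2 := by
  rw [H.algebraMap_q]
  exact Ideal.mem_map_of_mem _ H.q_mem2

/-- `P1 C ∩ P2 C = q C` -/
theorem inf_le : Ideal.map H.iota P1 ⊓ Ideal.map H.iota P2 ≤
    Ideal.span {algebraMap S (integralClosure S E) (q₀ : S)} := by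
  rintro c ⟨hc1, hc2⟩
  obtain ⟨m, b, hm, hcb⟩ := H.exists_frac c
  have hb1 : b ∈ P1 := by
    rw [← H.mem_map_iff1, ← hcb]
    exact Ideal.mul_mem_right _ _ hc1
  have hb2 : b ∈ P2 := by
    rw [← H.mem_map_iff2, ← hcb]
    exact Ideal.mul_mem_right _ _ hc2
  have hb : b ∈ Ideal.span {(q₀ : B)} := by
    rw [H.hP]
    exact ⟨hb1, hb2⟩
  obtain ⟨b1, rfl⟩ := Ideal.mem_span_singleton.1 hb
  rw [← Ideal.mul_unit_mem_iff_mem _ (H.isUnit_iota_phi hm), hcb, map_mul, ← H.algebraMap_q]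
  exact Ideal.mul_mem_right _ _ (Ideal.subset_span rfl)

/-- `P_i C ∩ S = q S` -/
theorem dvd_of_mem (P : Ideal B) (hcP : P.comap φ = Ideal.span {(q₀ : B')})
    (hcm : ∀ b : B, H.iota b ∈ Ideal.map H.iota P → b ∈ P) (s : S)
    (hs : algebraMap S (integralClosure S E) s ∈ Ideal.map H.iota P) : (q₀ : S) ∣ s := by
  obtain ⟨⟨b', m⟩, hx⟩ := IsLocalization.surj y0.primeCompl s
  simp only at hx
  have h1 : H.iota (φ b') ∈ Ideal.map H.iota P := by
    rw [H.iota_phi, ← hx, map_mul]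
    exact Ideal.mul_mem_right _ _ hs
  have h2 : b' ∈ P.comap φ := hcm _ h1
  rw [hcP] at h2
  obtain ⟨c, rfl⟩ := Ideal.mem_span_singleton.1 h2
  obtain ⟨u, hu⟩ := IsLocalization.map_units S m
  refine ⟨algebraMap B' S c * ((u⁻¹ : Sˣ) : S), ?_⟩
  have h3 : s = s * algebraMap B' S m * ((u⁻¹ : Sˣ) : S) := by
    rw [← hu, mul_assoc, Units.mul_inv, mul_one]
  rw [h3, hx, map_mul, map_natCast]
  ring

/-- `C = S + P1 C` -/
theorem add_C (x : integralClosure S E) :
    ∃ s : S, x - algebraMap S (integralClosure S E) s ∈ Ideal.map H.iota P1 := by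
  obtain ⟨m, b, hm, hxb⟩ := H.exists_frac x
  obtain ⟨b', hb'⟩ := H.hadd b
  obtain ⟨u, hu⟩ := IsLocalization.map_units S (⟨m, hm⟩ : y0.primeCompl)
  simp only at hu
  refine ⟨algebraMap B' S b' * ((u⁻¹ : Sˣ) : S), ?_⟩
  rw [← Ideal.mul_unit_mem_iff_mem _ (H.isUnit_iota_phi hm)]
  have h1 : (x - algebraMap S (integralClosure S E) (algebraMap B' S b' * ((u⁻¹ : Sˣ) : S))) *
      H.iota (φ m) = H.iota (b - φ b') := by
    rw [sub_mul, hxb, H.iota_phi m, ← map_mul, map_sub, H.iota_phi b', ← hu, mul_assoc,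
      Units.inv_mul, mul_one]
  rw [h1]
  exact Ideal.mem_map_of_mem _ hb'

/-- `C^q ⊆ S + P2 C` -/
theorem pow_C (x : integralClosure S E) :
    ∃ s : S, x ^ q₀ - algebraMap S (integralClosure S E) s ∈ Ideal.map H.iota P2 := by
  obtain ⟨m, b, hm, hxb⟩ := H.exists_frac x
  obtain ⟨b', hb'⟩ := H.hpow b
  obtain ⟨u, hu⟩ := IsLocalization.map_units S (⟨m, hm⟩ : y0.primeCompl)
  simp only at hu
  refine ⟨algebraMap B' S b' * ((u⁻¹ : Sˣ) : S) ^ q₀, ?_⟩
  rw [← Ideal.mul_unit_mem_iff_mem _ ((H.isUnit_iota_phi hm).pow q₀)]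
  have h1 : (x ^ q₀ - algebraMap S (integralClosure S E)
      (algebraMap B' S b' * ((u⁻¹ : Sˣ) : S) ^ q₀)) * H.iota (φ m) ^ q₀ =
      H.iota (b ^ q₀ - φ b') := by
    rw [sub_mul, ← mul_pow, hxb, H.iota_phi m, ← map_pow (algebraMap S (integralClosure S E)),
      ← map_mul, map_sub, map_pow, H.iota_phi b', ← hu, mul_assoc, ← mul_pow,
      Units.inv_mul, one_pow, mul_one]
  rw [h1]
  exact Ideal.mem_map_of_mem _ hb'

/-- `v_G ∉ P2` (else `P1 ⊆ P2` locally, hence globally) -/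
theorem vG_notMem : gq - φ t' ^ q₀ ∉ P2 := by
  intro hmem
  apply H.h12
  intro x hx
  obtain ⟨s, hs, hsx⟩ := H.hgen1 x hx
  have hle : Ideal.span {(q₀ : B), gq - φ t' ^ q₀} ≤ P2 := by
    rw [Ideal.span_le]
    rintro z (rfl | rfl)
    · exact H.q_mem2
    · exact hmem
  rcases Ideal.IsPrime.mem_or_mem inferInstance (hle hsx) with h | h
  · exact absurd (H.h2 h) hs
  · exact h

/-- local generation, in `C`: `P C ⊆ (q, w) C` -/
theorem gen_C (P : Ideal B) (w : B)
    (hgen : ∀ x ∈ P, ∃ s : B, s ∉ 𝔫0 ∧ s * x ∈ Ideal.span {(q₀ : B), w})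
    (hcm : ∀ b : B, H.iota b ∈ Ideal.map H.iota P → b ∈ P) (c : integralClosure S E)
    (hc : c ∈ Ideal.map H.iota P) :
    ∃ a1 a2 : integralClosure S E, c = a1 * H.iota (q₀ : B) + a2 * H.iota w := by
  obtain ⟨m, b, hm, hcb⟩ := H.exists_frac c
  have hb : b ∈ P := hcm b (hcb ▸ Ideal.mul_mem_right _ _ hc)
  obtain ⟨s, hs, hsb⟩ := hgen b hb
  obtain ⟨a1, a2, ha⟩ := Ideal.mem_span_pair.1 hsb
  obtain ⟨u1, hu1⟩ := H.isUnit_iota_phi hm
  obtain ⟨u2, hu2⟩ := H.isUnit_iota hs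
  refine ⟨((u1⁻¹ : (integralClosure S E)ˣ) : integralClosure S E) * ((u2⁻¹ :
    (integralClosure S E)ˣ) : integralClosure S E) * H.iota a1,
    ((u1⁻¹ : (integralClosure S E)ˣ) : integralClosure S E) * ((u2⁻¹ :
    (integralClosure S E)ˣ) : integralClosure S E) * H.iota a2, ?_⟩
  have h1 : c * u1 * u2 = H.iota a1 * H.iota (q₀ : B) + H.iota a2 * H.iota w := by
    rw [hu1, hu2, hcb, mul_comm, ← map_mul, ← ha, map_add, map_mul, map_mul]
  have h2 : c = c * u1 * u2 * (((u1⁻¹ : (integralClosure S E)ˣ) : integralClosure S E) *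
      ((u2⁻¹ : (integralClosure S E)ˣ) : integralClosure S E)) := by
    have e1 : (u1 : integralClosure S E) * ((u1⁻¹ : (integralClosure S E)ˣ) :
        integralClosure S E) = 1 := Units.mul_inv u1
    have e2 : (u2 : integralClosure S E) * ((u2⁻¹ : (integralClosure S E)ˣ) :
        integralClosure S E) = 1 := Units.mul_inv u2
    calc c = c * ((u1 : integralClosure S E) * ((u1⁻¹ : (integralClosure S E)ˣ) :
          integralClosure S E)) * ((u2 : integralClosure S E) *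
          ((u2⁻¹ : (integralClosure S E)ˣ) : integralClosure S E)) := by
          rw [e1, e2, mul_one, mul_one]
      _ = _ := by ring
  rw [h2, h1]
  ring

theorem t_mem_y0 : t' ∈ y0 := by
  rw [← IsLocalization.AtPrime.to_map_mem_maximal_iff S y0 t', H.hm]
  exact Ideal.subset_span (by simp)

/-- `T := ι (φ t') ∈ 𝔪_C` -/
theorem T_mem : H.iota (φ t') ∈ IsLocalRing.maximalIdeal (integralClosure S E) := by
  rw [H.maximal_eq, H.mem_map_iff0]
  have h : t' ∈ 𝔫0.comap φ := by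
    rw [H.h𝔫y]
    exact H.t_mem_y0
  exact h

/-- `ω := 1 - T^(q² - 1)` is a unit of `C` -/
theorem isUnit_omega : IsUnit (1 - H.iota (φ t') ^ (q₀ * q₀ - 1)) := by
  have h2 := H.hq₀.two_le
  have h1 : q₀ * q₀ - 1 ≠ 0 := by
    have : 4 ≤ q₀ * q₀ := by nlinarith
    omega
  have hmem : H.iota (φ t') ^ (q₀ * q₀ - 1) ∈ IsLocalRing.maximalIdeal (integralClosure S E) :=
    Ideal.pow_mem_of_mem _ H.T_mem _ (Nat.pos_of_ne_zero h1)
  exact IsLocalRing.isUnit_one_sub_self_of_mem_nonunits _ hmem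

/-- `T * ω = T - T^(q²)` -/
theorem T_omega : H.iota (φ t') * (1 - H.iota (φ t') ^ (q₀ * q₀ - 1)) =
    H.iota (φ t') - (H.iota (φ t') ^ q₀) ^ q₀ := by
  have h2 := H.hq₀.two_le
  have h1 : q₀ * q₀ = (q₀ * q₀ - 1) + 1 := by
    have : 4 ≤ q₀ * q₀ := by nlinarith
    omega
  rw [← pow_mul, mul_sub, mul_one]
  conv_rhs => rw [h1, pow_succ']

/-- `ι u_G = T - (v + T^q)^q` -/
theorem iota_uG : H.iota (φ t' - gq ^ q₀) =
    H.iota (φ t') - (H.iota (gq - φ t' ^ q₀) + H.iota (φ t') ^ q₀) ^ q₀ := by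
  rw [map_sub, map_pow, map_sub, map_pow, sub_add_cancel]

variable [IsDomain S] [IsNoetherianRing S]

/-- **The thickness data for `(S, C)`.** -/
theorem data : ssm_tha_Data q₀ (algebraMap B' S t') (H.iota (gq - φ t' ^ q₀))
    (Ideal.map H.iota P1) (Ideal.map H.iota P2) := by
  have hT : algebraMap S (integralClosure S E) (algebraMap B' S t') = H.iota (φ t') :=
    (H.iota_phi t').symm
  refine ⟨H.hq₀.two_le, H.hm, ?_, H.q_map1, H.q_map2, H.inf_le, ?_, ?_, H.add_C, H.pow_C,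
    Ideal.mem_map_of_mem _ H.hv, ?_, ?_, ?_, ?_⟩
  · -- `q ≠ 0`
    intro h0
    apply H.hqE
    rw [map_natCast] at h0
    have h1 := map_natCast (integralClosure S E).val q₀
    rw [h0, map_zero] at h1
    exact h1.symm
  · exact H.dvd_of_mem P1 H.hc1 (fun b => (H.mem_map_iff1 b).1)
  · exact H.dvd_of_mem P2 H.hc2 (fun b => (H.mem_map_iff2 b).1)
  · -- `v ∉ P2`
    rw [H.mem_map_iff2]
    exact H.vG_notMem
  · -- `P1 ≤ (v) + P2`
    intro c hc
    obtain ⟨a1, a2, rfl⟩ := H.gen_C P1 _ H.hgen1 (fun b => (H.mem_map_iff1 b).1) c hc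
    rw [add_comm]
    refine Submodule.add_mem_sup (Ideal.mem_span_singleton.2 ⟨a2, mul_comm _ _⟩) ?_
    exact Ideal.mul_mem_left _ _ (Ideal.mem_map_of_mem _ H.q_mem2)
  · -- `P2 ≤ (t) + P1`
    intro c hc
    obtain ⟨a1, a2, rfl⟩ := H.gen_C P2 _ H.hgen2 (fun b => (H.mem_map_iff2 b).1) c hc
    rw [add_comm, hT]
    obtain ⟨w, hw⟩ := sub_dvd_pow_sub_pow (H.iota (gq - φ t' ^ q₀) + H.iota (φ t') ^ q₀)
      (H.iota (φ t') ^ q₀) q₀
    rw [add_sub_cancel_right] at hw
    have h1 : a2 * H.iota (φ t' - gq ^ q₀) = H.iota (φ t') *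
        (a2 * (1 - H.iota (φ t') ^ (q₀ * q₀ - 1))) + (- a2 * w) * H.iota (gq - φ t' ^ q₀) := by
      have e1 : H.iota (φ t' - gq ^ q₀) = H.iota (φ t') * (1 - H.iota (φ t') ^ (q₀ * q₀ - 1))
          - H.iota (gq - φ t' ^ q₀) * w := by
        rw [H.iota_uG, H.T_omega, ← hw]
        ring
      rw [e1]
      ring
    rw [h1, add_assoc]
    refine Submodule.add_mem_sup (Ideal.mem_span_singleton.2 ⟨_, rfl⟩) (Ideal.add_mem _ ?_ ?_)
    · exact Ideal.mul_mem_left _ _ (Ideal.mem_map_of_mem _ H.hv)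
    · exact Ideal.mul_mem_left _ _ (Ideal.mem_map_of_mem _ H.q_mem1)
  · -- total ramification: `t ≡ ε v^q mod P2`
    obtain ⟨ω, hω⟩ := H.isUnit_omega
    refine ⟨((ω⁻¹ : (integralClosure S E)ˣ) : integralClosure S E), Units.isUnit _, ?_⟩
    rw [hT]
    obtain ⟨r, hr⟩ := exists_add_pow_prime_eq H.hq₀ (H.iota (gq - φ t' ^ q₀))
      (H.iota (φ t') ^ q₀)
    have hu : H.iota (φ t' - gq ^ q₀) ∈ Ideal.map H.iota P2 := Ideal.mem_map_of_mem _ H.hu
    rw [H.iota_uG, hr] at hu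
    have hq2 : H.iota (q₀ : B) ∈ Ideal.map H.iota P2 := Ideal.mem_map_of_mem _ H.q_mem2
    have h1 : H.iota (φ t') * (ω : integralClosure S E) - H.iota (gq - φ t' ^ q₀) ^ q₀ ∈
        Ideal.map H.iota P2 := by
      rw [hω, H.T_omega]
      have h2 := Ideal.add_mem _ hu (Ideal.mul_mem_left _
        (H.iota (gq - φ t' ^ q₀) * H.iota (φ t') ^ q₀ * r) hq2)
      have e : H.iota (φ t') - (H.iota (φ t') ^ q₀) ^ q₀ - H.iota (gq - φ t' ^ q₀) ^ q₀ =
          H.iota (φ t') - (H.iota (gq - φ t' ^ q₀) ^ q₀ + (H.iota (φ t') ^ q₀) ^ q₀ +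
            (q₀ : integralClosure S E) * H.iota (gq - φ t' ^ q₀) * H.iota (φ t') ^ q₀ * r) +
          H.iota (gq - φ t' ^ q₀) * H.iota (φ t') ^ q₀ * r * H.iota (q₀ : B) := by
        rw [map_natCast]
        ring
      rw [e]
      exact h2
    have h3 : H.iota (φ t') - ((ω⁻¹ : (integralClosure S E)ˣ) : integralClosure S E) *
        H.iota (gq - φ t' ^ q₀) ^ q₀ = ((ω⁻¹ : (integralClosure S E)ˣ) : integralClosure S E) *
        (H.iota (φ t') * (ω : integralClosure S E) - H.iota (gq - φ t' ^ q₀) ^ q₀) := by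
      have e1 : ((ω⁻¹ : (integralClosure S E)ˣ) : integralClosure S E) *
          (ω : integralClosure S E) = 1 := Units.inv_mul ω
      calc H.iota (φ t') - ((ω⁻¹ : (integralClosure S E)ˣ) : integralClosure S E) *
          H.iota (gq - φ t' ^ q₀) ^ q₀
          = H.iota (φ t') * (((ω⁻¹ : (integralClosure S E)ˣ) : integralClosure S E) *
            (ω : integralClosure S E)) - ((ω⁻¹ : (integralClosure S E)ˣ) :
            integralClosure S E) * H.iota (gq - φ t' ^ q₀) ^ q₀ := by rw [e1, mul_one]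
        _ = _ := by ring
    rw [h3]
    exact Ideal.mul_mem_left _ _ h1

/-- fractions: an element of `P C` is `t / s`, `t ∈ P`, `s ∉ 𝔫0` -/
theorem frac_mem (P : Ideal B) (hcm : ∀ b : B, H.iota b ∈ Ideal.map H.iota P → b ∈ P)
    (c : integralClosure S E) (hc : c ∈ Ideal.map H.iota P) :
    ∃ s t : B, s ∉ 𝔫0 ∧ t ∈ P ∧ (s : E) * (c : E) = t := by
  obtain ⟨m, b, hm, hcb⟩ := H.exists_frac c
  refine ⟨φ m, b, ?_, hcm b (hcb ▸ Ideal.mul_mem_right _ _ hc), ?_⟩
  · intro h
    have h' : m ∈ 𝔫0.comap φ := h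
    rw [H.h𝔫y] at h'
    exact hm h'
  · have h1 := congrArg (fun z : integralClosure S E => (z : E)) hcb
    simp only [MulMemClass.coe_mul, H.iota_coe] at h1
    rw [mul_comm]
    exact h1

/-- fractions: an element of `C` outside `P C` is `t / s`, `t ∉ P`, `s ∉ 𝔫0` -/
theorem frac_notMem (P : Ideal B) (c : integralClosure S E) (hc : c ∉ Ideal.map H.iota P) :
    ∃ s t : B, s ∉ 𝔫0 ∧ t ∉ P ∧ (s : E) * (c : E) = t := by
  obtain ⟨m, b, hm, hcb⟩ := H.exists_frac c
  refine ⟨φ m, b, ?_, ?_, ?_⟩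
  · intro h
    have h' : m ∈ 𝔫0.comap φ := h
    rw [H.h𝔫y] at h'
    exact hm h'
  · intro hb
    apply hc
    rw [← Ideal.mul_unit_mem_iff_mem _ (H.isUnit_iota_phi hm), hcb]
    exact Ideal.mem_map_of_mem _ hb
  · have h1 := congrArg (fun z : integralClosure S E => (z : E)) hcb
    simp only [MulMemClass.coe_mul, H.iota_coe] at h1
    rw [mul_comm]
    exact h1

/-- fractions: if `P C = (u)` then every `z ∈ P` is `u · c / s` -/
theorem frac_gen (P : Ideal B) (u : integralClosure S E) (hP : Ideal.map H.iota P = Ideal.span {u})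
    (z : B) (hz : z ∈ P) : ∃ s c : B, s ∉ 𝔫0 ∧ (s : E) * (z : E) = (u : E) * c := by
  have h1 : H.iota z ∈ Ideal.span {u} := hP ▸ Ideal.mem_map_of_mem _ hz
  obtain ⟨c', hc'⟩ := Ideal.mem_span_singleton.1 h1
  obtain ⟨m, b, hm, hcb⟩ := H.exists_frac c'
  refine ⟨φ m, b, ?_, ?_⟩
  · intro h
    have h' : m ∈ 𝔫0.comap φ := h
    rw [H.h𝔫y] at h'
    exact hm h'
  · have h2 : H.iota (φ m) * H.iota z = u * H.iota b := by
      rw [hc', ← hcb]
      ring
    have h3 := congrArg (fun z : integralClosure S E => (z : E)) h2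
    simp only [MulMemClass.coe_mul, H.iota_coe] at h3
    exact h3

end ssm_thc_Hyp

end Data

section Main

variable {A0 : Type*} [CommRing A0] (K0 K E : Type*) [Field K0] [CharZero K0] [Field K] [Field E]
  [Algebra K0 K] [Algebra K E] [Algebra K0 E] [IsScalarTower K0 K E] [FiniteDimensional K0 K]
  [FiniteDimensional K E] [Algebra A0 K] [Algebra A0 E]
  {B' : Subalgebra A0 K} {B : Subalgebra A0 E}
  {φ : B' →+* B} {y0 : Ideal B'} [y0.IsPrime]
  {S : Type*} [CommRing S] [IsDomain S] [IsLocalRing S] [IsNoetherianRing S]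
  [IsIntegrallyClosed S] [Algebra B' S] [IsLocalization.AtPrime S y0]
  [Algebra S K] [IsScalarTower B' S K] [IsFractionRing S K] [Algebra S E] [IsScalarTower S K E]
  {q₀ : ℕ} {P1 P2 𝔫0 : Ideal B} [P1.IsPrime] [P2.IsPrime] [𝔫0.IsPrime] {t' : B'} {gq : B}

omit [CharZero K0] [FiniteDimensional K0 K] in
/-- a monic polynomial of degree `[E : K]` over `S` killing a given element of `C` -/
theorem ssm_thc_exists_F {n : ℕ} (hrank : Module.finrank K E = n) (v : integralClosure S E) :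
    ∃ F : S[X], F.Monic ∧ F.natDegree = n ∧ aeval v F = 0 := by
  have hv : IsIntegral S (v : E) := v.2
  have hmon : (minpoly S (v : E)).Monic := minpoly.monic hv
  have hdeg : (minpoly S (v : E)).natDegree ≤ n := by
    rw [← hrank, ← hmon.natDegree_map (algebraMap S K),
      ← minpoly.isIntegrallyClosed_eq_field_fractions' K hv]
    exact minpoly.natDegree_le (v : E)
  refine ⟨minpoly S (v : E) * X ^ (n - (minpoly S (v : E)).natDegree),
    hmon.mul (monic_X_pow _), ?_, ?_⟩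
  · rw [hmon.natDegree_mul (monic_X_pow _), natDegree_X_pow]
    omega
  · apply Subtype.ext
    rw [← Subalgebra.aeval_coe, map_mul, minpoly.aeval, zero_mul]
    rfl

omit [FiniteDimensional K E] [IsLocalRing S] in
/-- horizontal unramifiedness over the local base from unramifiedness over the discrete valuation
rings of the small field `K0` containing a set `T` of functions which become regular on
`Spec S[1/q]`. -/
theorem ssm_thc_hunr (T : Set K0)
    (hH : ∀ (V2 : Subring K0) [IsDiscreteValuationRing V2] [IsFractionRing V2 K0],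
      (∀ z ∈ T, z ∈ V2) → jt_UnramAt V2 E)
    (hT : ∀ z ∈ T, ∃ (k : ℕ) (s : S), algebraMap K0 K z * algebraMap S K (q₀ : S) ^ k =
      algebraMap S K s)
    (p : Ideal S) [p.IsPrime] (hp : p.height = 1) (hq : (q₀ : S) ∉ p) :
    jt_UnramAt (ti_under K0 (el_bd_loc K p).toSubring) E := by
  haveI hdvr : IsDiscreteValuationRing (el_bd_loc K p).toSubring := el_bd_loc_isDVR K p hp
  haveI hfr : IsFractionRing (el_bd_loc K p).toSubring K := el_bd_loc_isFractionRing K p
  haveI : Algebra.IsAlgebraic K0 K := Algebra.IsAlgebraic.of_finite K0 K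
  haveI : IsDiscreteValuationRing (ti_under K0 (el_bd_loc K p).toSubring) :=
    ti_under_isDVR K0 (el_bd_loc K p).toSubring
  haveI : IsFractionRing (ti_under K0 (el_bd_loc K p).toSubring) K0 :=
    ti_under_isFractionRing K0 (el_bd_loc K p).toSubring
  apply hH
  intro z hz
  rw [ti_mem_under]
  exact el_bd_mem_loc_of_pow_mul K p hq (hT z hz)

/-- **[TH-C] main**: the node structure of the chart `B` at the crossing point `𝔫0`, over the
unramified base, in the ELEMENT FORM consumed by `ssm_tht_node`: `u v = q`, `P2 = (u)`,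
`P1 = (v)` locally at `𝔫0`, `u ∉ P1`, `v ∉ P2`. -/
theorem ssm_thc_main (H : ssm_thc_Hyp φ y0 S q₀ P1 P2 𝔫0 t' gq)
    (hrank : Module.finrank K E = q₀ + 1)
    (T : Set K0)
    (hH : ∀ (V2 : Subring K0) [IsDiscreteValuationRing V2] [IsFractionRing V2 K0],
      (∀ z ∈ T, z ∈ V2) → jt_UnramAt V2 E)
    (hT : ∀ z ∈ T, ∃ (k : ℕ) (s : S), algebraMap K0 K z * algebraMap S K (q₀ : S) ^ k =
      algebraMap S K s) :
    ∃ u v : E, u * v = (q₀ : E) ∧
      (∃ s t : B, s ∉ 𝔫0 ∧ t ∈ P2 ∧ (s : E) * u = t) ∧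
      (∃ s t : B, s ∉ 𝔫0 ∧ t ∈ P1 ∧ (s : E) * v = t) ∧
      (∀ z ∈ P2, ∃ s c : B, s ∉ 𝔫0 ∧ (s : E) * (z : E) = u * c) ∧
      (∀ z ∈ P1, ∃ s c : B, s ∉ 𝔫0 ∧ (s : E) * (z : E) = v * c) ∧
      (∃ s t : B, s ∉ 𝔫0 ∧ t ∉ P1 ∧ (s : E) * u = t) ∧
      (∃ s t : B, s ∉ 𝔫0 ∧ t ∉ P2 ∧ (s : E) * v = t) := by
  haveI := H.isLocalRing
  haveI := H.isPrime1
  haveI := H.isPrime2
  obtain ⟨F, hF, hdeg, hFv⟩ := ssm_thc_exists_F K E hrank (H.iota (gq - φ t' ^ q₀))
  obtain ⟨u, v, huv, hP2, hP1, -, -, -, -⟩ := ssm_thu_main K0 K E H.data F hF hdeg hFv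
    (fun p _ hp hq => ssm_thc_hunr K0 K E T hH hT p hp hq)
  have hu2 : u ∈ Ideal.map H.iota P2 := hP2 ▸ Ideal.subset_span rfl
  have hv1 : v ∈ Ideal.map H.iota P1 := hP1 ▸ Ideal.subset_span rfl
  have hu1 : u ∉ Ideal.map H.iota P1 := by
    intro h
    apply H.h21
    intro x hx
    rw [← H.mem_map_iff1]
    have : H.iota x ∈ Ideal.map H.iota P2 := Ideal.mem_map_of_mem _ hx
    rw [hP2] at this
    obtain ⟨c, hc⟩ := Ideal.mem_span_singleton.1 this
    rw [hc]
    exact Ideal.mul_mem_right _ _ h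
  have hv2 : v ∉ Ideal.map H.iota P2 := by
    intro h
    apply H.h12
    intro x hx
    rw [← H.mem_map_iff2]
    have : H.iota x ∈ Ideal.map H.iota P1 := Ideal.mem_map_of_mem _ hx
    rw [hP1] at this
    obtain ⟨c, hc⟩ := Ideal.mem_span_singleton.1 this
    rw [hc]
    exact Ideal.mul_mem_right _ _ h
  refine ⟨(u : E), (v : E), ?_, H.frac_mem P2 (fun b => (H.mem_map_iff2 b).1) u hu2,
    H.frac_mem P1 (fun b => (H.mem_map_iff1 b).1) v hv1, H.frac_gen P2 u hP2, H.frac_gen P1 v hP1,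
    H.frac_notMem P1 u hu1, H.frac_notMem P2 v hv2⟩
  have h1 := congrArg (fun z : integralClosure S E => (z : E)) huv
  simp only [MulMemClass.coe_mul, map_natCast] at h1
  rw [h1]
  exact map_natCast (integralClosure S E).val q₀

end Main

end Fermat.Agent.SS
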