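/-
SS [M] glue [TH-T]: transport of the node structure from the UNRAMIFIED base to the ramified one.

Over the unramified base `(A00, q0)` the thickness package (`ThickAbs.lean` + its instance) gives
`u, v` in the local ring `C0` of the chart `B0` at the crossing point `𝔫0` with `u v = q0`,
`P2 C0 = u C0`, `P1 C0 = v C0`.  Over both bases the crossing lemma (`Crossing.lean`) gives the
explicit elements `uG, vG` with `P2 = (q0, uG)`, `P1 = (q0, vG)` locally at `𝔫0` and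
`𝔫 = (π, uG, vG)` locally at `𝔫` (ramified base).  Then `uG = u · unit`, `vG = v · unit` in `C0`,
so `𝔫 R_𝔫 = (π, u, v)`: this is `ss_NodeAt` over the ramified base.
-/
import Mathlib
import Fermat.Agent.SS.CoreModel

set_option autoImplicit false

namespace Fermat.Agent.SS

/-- `uG = u · unit` in the local ring at `𝔫0` (element form). -/
theorem ssm_tht_unit {A00 F00 : Type*} [CommRing A00] [Field F00] [Algebra A00 F00]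
    (B0 : Subalgebra A00 F00) (q0 : A00) (𝔫0 : Ideal B0) [𝔫0.IsPrime] (P : Ideal B0)
    (u v : F00) (huv : u * v = algebraMap A00 F00 q0) (hq0 : algebraMap A00 F00 q0 ≠ 0)
    (hu : ∃ s t : B0, s ∉ 𝔫0 ∧ t ∈ P ∧ (s : F00) * u = t)
    (hv : ∃ s t : B0, s ∉ 𝔫0 ∧ t ∈ 𝔫0 ∧ (s : F00) * v = t)
    (hPu : ∀ z ∈ P, ∃ s c : B0, s ∉ 𝔫0 ∧ (s : F00) * z = u * c)
    (uG : B0) (huG : uG ∈ P)
    (hgen : ∀ x ∈ P, ∃ s : B0, s ∉ 𝔫0 ∧ s * x ∈ Ideal.span {algebraMap A00 B0 q0, uG}) :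
    ∃ s c : B0, s ∉ 𝔫0 ∧ c ∉ 𝔫0 ∧ (s : F00) * uG = u * c := by
  obtain ⟨s1, c1, hs1, h1⟩ := hPu uG huG
  refine ⟨s1, c1, hs1, ?_, h1⟩
  intro hc1
  obtain ⟨s2, t2, hs2, ht2, h2⟩ := hu
  obtain ⟨s3, hs3, h3⟩ := hgen t2 ht2
  obtain ⟨b, c, hbc⟩ := Ideal.mem_span_pair.1 h3
  obtain ⟨s4, t4, hs4, ht4, h4⟩ := hv
  have hu0 : u ≠ 0 := by
    intro h
    rw [h, zero_mul] at huv
    exact hq0 huv.symm
  have hbcE : (b : F00) * algebraMap A00 F00 q0 + (c : F00) * (uG : F00) =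
      (s3 : F00) * (t2 : F00) := by
    have h := congrArg (fun z : B0 => (z : F00)) hbc
    push_cast at h
    exact h
  -- `u * (s1 s2 s3 - c c1) = s1 b q0 = u * (s1 b v)`
  have key : (s1 : F00) * s2 * s3 - c * c1 = s1 * b * v := by
    have e1 : u * ((s1 : F00) * s2 * s3 - c * c1) = u * ((s1 : F00) * b * v) := by
      have : u * ((s1 : F00) * s2 * s3 - c * c1) =
          s1 * (s3 * (s2 * u)) - c * (u * c1) := by ring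
      rw [this, h2, ← hbcE, ← h1, ← huv]
      ring
    exact mul_left_cancel₀ hu0 e1
  have key2 : s4 * (s1 * s2 * s3 - c * c1) = s1 * b * t4 := by
    apply Subtype.ext
    push_cast
    rw [key, ← h4]
    ring
  have hmem : s4 * (s1 * s2 * s3 - c * c1) ∈ 𝔫0 := by
    rw [key2]
    exact Ideal.mul_mem_left _ _ ht4
  rcases Ideal.IsPrime.mem_or_mem inferInstance hmem with h | h
  · exact hs4 h
  · have h5 : s1 * s2 * s3 ∈ 𝔫0 := by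
      have := Ideal.add_mem _ h (Ideal.mul_mem_left _ c hc1)
      simpa using this
    rcases Ideal.IsPrime.mem_or_mem inferInstance h5 with h6 | h6
    · rcases Ideal.IsPrime.mem_or_mem inferInstance h6 with h7 | h7
      · exact hs1 h7
      · exact hs2 h7
    · exact hs3 h6

/-- **Transport of the node** from the unramified base `(A00, q0)` to the ramified base
`(A0, π)`. -/
theorem ssm_tht_node
    {A00 A0 : Type*} [CommRing A00] [CommRing A0] {F00 : Type*} {F0 : Type*} [Field F00]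
    [Field F0] [Algebra A00 F00] [Algebra A0 F0]
    (j : F00 →+* F0) (j0 : A00 →+* A0)
    (hj0 : ∀ a, j (algebraMap A00 F00 a) = algebraMap A0 F0 (j0 a))
    (B0 : Subalgebra A00 F00) (B B12 : Subalgebra A0 F0) (hle : B ≤ B12)
    (hjB : ∀ b ∈ B0, j b ∈ B)
    (π : A0) (σ : F0 ≃+* F0) (σ0 : A0 ≃+* A0) (hσj : ∀ z, σ (j z) = j z)
    (q0 : A00) (hσq : σ0 (j0 q0) = j0 q0)
    (P1 P2 : Ideal B12) (P10 P20 : Ideal B0)
    (hP1 : ∀ b : B0, b ∈ P10 ↔ (⟨j b, hle (hjB b b.2)⟩ : B12) ∈ P1)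
    (hP2 : ∀ b : B0, b ∈ P20 ↔ (⟨j b, hle (hjB b b.2)⟩ : B12) ∈ P2)
    (𝔫 : Ideal B) [𝔫.IsPrime] (𝔫0 : Ideal B0) [𝔫0.IsPrime]
    (h𝔫 : ∀ b : B0, b ∈ 𝔫0 ↔ (⟨j b, hjB b b.2⟩ : B) ∈ 𝔫)
    (hP1𝔫 : P10 ≤ 𝔫0) (hP2𝔫 : P20 ≤ 𝔫0)
    (u v : F00) (huv : u * v = algebraMap A00 F00 q0) (hq0 : algebraMap A00 F00 q0 ≠ 0)
    (hu2 : ∃ s t : B0, s ∉ 𝔫0 ∧ t ∈ P20 ∧ (s : F00) * u = t)
    (hv1 : ∃ s t : B0, s ∉ 𝔫0 ∧ t ∈ P10 ∧ (s : F00) * v = t)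
    (hP2u : ∀ z ∈ P20, ∃ s c : B0, s ∉ 𝔫0 ∧ (s : F00) * z = u * c)
    (hP1v : ∀ z ∈ P10, ∃ s c : B0, s ∉ 𝔫0 ∧ (s : F00) * z = v * c)
    (hu1 : ∃ s t : B0, s ∉ 𝔫0 ∧ t ∉ P10 ∧ (s : F00) * u = t)
    (hv2 : ∃ s t : B0, s ∉ 𝔫0 ∧ t ∉ P20 ∧ (s : F00) * v = t)
    (uG vG : B0) (huG : uG ∈ P20) (hvG : vG ∈ P10)
    (hgen2 : ∀ x ∈ P20, ∃ s : B0, s ∉ 𝔫0 ∧ s * x ∈ Ideal.span {algebraMap A00 B0 q0, uG})
    (hgen1 : ∀ x ∈ P10, ∃ s : B0, s ∉ 𝔫0 ∧ s * x ∈ Ideal.span {algebraMap A00 B0 q0, vG})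
    (hgen : ∀ x ∈ 𝔫, ∃ s : B, s ∉ 𝔫 ∧ s * x ∈ Ideal.span
      {algebraMap A0 B π, (⟨j uG, hjB _ uG.2⟩ : B), (⟨j vG, hjB _ vG.2⟩ : B)}) :
    ss_NodeAt π σ σ0 hle P1 P2 𝔫 := by
  have hvu : v * u = algebraMap A00 F00 q0 := by rw [mul_comm]; exact huv
  -- `u, v ∈ 𝔪_{C0}`
  have hu𝔪 : ∃ s t : B0, s ∉ 𝔫0 ∧ t ∈ 𝔫0 ∧ (s : F00) * u = t := by
    obtain ⟨s, t, hs, ht, h⟩ := hu2
    exact ⟨s, t, hs, hP2𝔫 ht, h⟩
  have hv𝔪 : ∃ s t : B0, s ∉ 𝔫0 ∧ t ∈ 𝔫0 ∧ (s : F00) * v = t := by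
    obtain ⟨s, t, hs, ht, h⟩ := hv1
    exact ⟨s, t, hs, hP1𝔫 ht, h⟩
  obtain ⟨su, cu, hsu, hcu, hucu⟩ :=
    ssm_tht_unit B0 q0 𝔫0 P20 u v huv hq0 hu2 hv𝔪 hP2u uG huG hgen2
  obtain ⟨sv, cv, hsv, hcv, hvcv⟩ :=
    ssm_tht_unit B0 q0 𝔫0 P10 v u hvu hq0 hv1 hu𝔪 hP1v vG hvG hgen1
  -- the transported elements
  have hjmem : ∀ b : B0, (⟨j b, hjB b b.2⟩ : B) ∉ 𝔫 ↔ b ∉ 𝔫0 := fun b => not_congr (h𝔫 b).symm
  refine ⟨j u, j v, j0 q0, ?_, hσq, hσj u, ?_, ?_, ?_, ?_, ?_⟩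
  · rw [← map_mul, huv, hj0]
  · obtain ⟨s, t, hs, ht, h⟩ := hu𝔪
    refine ⟨⟨j s, hjB s s.2⟩, ⟨j t, hjB t t.2⟩, (hjmem s).2 hs, (h𝔫 t).1 ht, ?_⟩
    show j s * j u = j t
    rw [← map_mul, h]
  · obtain ⟨s, t, hs, ht, h⟩ := hv𝔪
    refine ⟨⟨j s, hjB s s.2⟩, ⟨j t, hjB t t.2⟩, (hjmem s).2 hs, (h𝔫 t).1 ht, ?_⟩
    show j s * j v = j t
    rw [← map_mul, h]
  · intro z hz
    obtain ⟨s, hs, hsz⟩ := hgen z hz
    obtain ⟨a1, w, hw, ha'⟩ := Ideal.mem_span_insert.1 hsz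
    obtain ⟨a2, a3, hw'⟩ := Ideal.mem_span_pair.1 hw
    have ha : a1 * algebraMap A0 B π + a2 * (⟨j uG, hjB _ uG.2⟩ : B) +
        a3 * (⟨j vG, hjB _ vG.2⟩ : B) = s * z := by
      rw [ha', ← hw', add_assoc]
    refine ⟨⟨j su, hjB su su.2⟩ * ⟨j sv, hjB sv sv.2⟩ * s,
      ⟨j su, hjB su su.2⟩ * ⟨j sv, hjB sv sv.2⟩ * a1,
      ⟨j cu, hjB cu cu.2⟩ * ⟨j sv, hjB sv sv.2⟩ * a2,
      ⟨j cv, hjB cv cv.2⟩ * ⟨j su, hjB su su.2⟩ * a3, ?_, ?_⟩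
    · intro hmem
      rcases Ideal.IsPrime.mem_or_mem inferInstance hmem with h | h
      · rcases Ideal.IsPrime.mem_or_mem inferInstance h with h' | h'
        · exact (hjmem su).2 hsu h'
        · exact (hjmem sv).2 hsv h'
      · exact hs h
    · have haE : (a1 : F0) * algebraMap A0 F0 π + (a2 : F0) * j uG + (a3 : F0) * j vG =
          (s : F0) * (z : F0) := by
        have h := congrArg (fun w : B => (w : F0)) ha
        push_cast at h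
        exact h
      have e1 : j su * j uG = j u * j cu := by rw [← map_mul, ← map_mul, hucu]
      have e2 : j sv * j vG = j v * j cv := by rw [← map_mul, ← map_mul, hvcv]
      push_cast
      rw [mul_assoc (j su * j sv) (s : F0) (z : F0), ← haE]
      linear_combination (j sv * (a2 : F0)) * e1 + (j su * (a3 : F0)) * e2
  · obtain ⟨s, t, hs, ht, h⟩ := hu1
    refine ⟨⟨j s, hle (hjB s s.2)⟩, ⟨j t, hle (hjB t t.2)⟩, ?_, ?_, ?_⟩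
    · exact fun hmem => hs (hP1𝔫 ((hP1 s).2 hmem))
    · exact fun hmem => ht ((hP1 t).2 hmem)
    · show j s * j u = j t
      rw [← map_mul, h]
  · obtain ⟨s, t, hs, ht, h⟩ := hv2
    refine ⟨⟨j s, hle (hjB s s.2)⟩, ⟨j t, hle (hjB t t.2)⟩, ?_, ?_, ?_⟩
    · exact fun hmem => hs (hP2𝔫 ((hP2 s).2 hmem))
    · exact fun hmem => ht ((hP2 t).2 hmem)
    · show j s * j v = j t
      rw [← map_mul, h]

end Fermat.Agent.SS
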