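/-
SS [M], leaf [ND]: THE NODE CLAUSE, cover-agnostic.

* `ssm_ni_hyp`: the hypothesis package `ssm_thc_Hyp` of [TH-C] at the local ring
  `S := fc_locAt K (𝔫0.comap φ)` of the level-`N'` chart `B'` at the image of a crossing point `𝔫0`
  of the chart `B`, from the named outputs of [CP-I] / [TR-I] / [EC];
* `ssm_ni_hT`: the "regular on `Spec S[1/q]`" clause in element form;
* `ssm_ni_thick`: [TH-C] at every crossing point (thickness one over the unramified base);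
* `ssm_ni_node`: transport to the ramified base: `ss_NodeAt` at every crossing point of the chart
  over `(A0, π)`, from the thickness-one statement over the small base `(A00, q)` and the
  base-change dictionary [BC].
-/
import Mathlib
import Fermat.Agent.SS.Model.ThickCover
import Fermat.Agent.SS.Model.ThickBase
import Fermat.Agent.SS.Model.ThickTransport
import Fermat.Agent.SS.Model.BaseChange

set_option autoImplicit false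
set_option linter.unusedSectionVars false
set_option linter.style.haveILetI false

noncomputable section

namespace Fermat.Agent.SS

open Fermat.Agent.JT3 Polynomial

section Thick

variable {A0 : Type*} [CommRing A0] (K0 K E : Type*) [Field K0] [CharZero K0] [Field K] [Field E]
  [Algebra K0 K] [Algebra K E] [Algebra K0 E] [IsScalarTower K0 K E] [FiniteDimensional K0 K]
  [FiniteDimensional K E] [Algebra A0 K] [Algebra A0 E]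
  {B' : Subalgebra A0 K} {B : Subalgebra A0 E} [IsFractionRing B' K]

/-- **The [TH-C] hypothesis package at the local ring of the level-`N'` chart.**  `𝔫0` a crossing
point of `B`, `S := fc_locAt K (𝔫0.comap φ)`; `hloc` is [EC] at `𝔫0.comap φ`. -/
theorem ssm_ni_hyp (φ : B' →+* B) (q₀ : ℕ) (P1 P2 : Ideal B) (t' : B') (gq : B)
    (hφ : ∀ b' : B', (φ b' : E) = algebraMap K E (b' : K))
    (hint : φ.IsIntegral)
    (hBcl : ∀ z : E, IsIntegral B' z → z ∈ B)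
    (hq₀ : q₀.Prime) (hqE : (q₀ : E) ≠ 0)
    (hP : Ideal.span {(q₀ : B)} = P1 ⊓ P2)
    (hc1 : P1.comap φ = Ideal.span {(q₀ : B')})
    (hc2 : P2.comap φ = Ideal.span {(q₀ : B')})
    (h12 : ¬ P1 ≤ P2) (h21 : ¬ P2 ≤ P1)
    (hadd : ∀ b : B, ∃ b' : B', b - φ b' ∈ P1)
    (hpow : ∀ b : B, ∃ b' : B', b ^ q₀ - φ b' ∈ P2)
    (hu : φ t' - gq ^ q₀ ∈ P2)
    (hv : gq - φ t' ^ q₀ ∈ P1)
    (𝔫0 : Ideal B) [𝔫0.IsPrime] (h1 : P1 ≤ 𝔫0) (h2 : P2 ≤ 𝔫0)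
    (hloc : tq_GenBy (q₀ : B') t' (𝔫0.comap φ))
    (hgen2 : ∀ x ∈ P2, ∃ s : B, s ∉ 𝔫0 ∧ s * x ∈ Ideal.span {(q₀ : B), φ t' - gq ^ q₀})
    (hgen1 : ∀ x ∈ P1, ∃ s : B, s ∉ 𝔫0 ∧ s * x ∈ Ideal.span {(q₀ : B), gq - φ t' ^ q₀}) :
    ssm_thc_Hyp φ (𝔫0.comap φ) ↥(fc_locAt K (𝔫0.comap φ)) q₀ P1 P2 𝔫0 t' gq where
  hφ := hφ
  hint := hint
  hBcl := hBcl
  hq₀ := hq₀
  hqE := hqE
  hP := hP
  hc1 := hc1
  hc2 := hc2
  h12 := h12
  h21 := h21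
  hadd := hadd
  hpow := hpow
  h1 := h1
  h2 := h2
  h𝔫y := rfl
  hm := by
    have h := ssm_ths_maximalIdeal_eq K (𝔫0.comap φ) hloc
    rwa [map_natCast] at h
  hu := hu
  hv := hv
  hgen2 := hgen2
  hgen1 := hgen1

omit [Algebra K E] [Algebra K0 E] [IsScalarTower K0 K E] [FiniteDimensional K0 K]
  [FiniteDimensional K E] [Algebra A0 E] [CharZero K0] in
/-- **"regular on `Spec S[1/q]`" in element form**: `z · q^k · m = s` with `m ∉ y0` gives the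
clause `hT` of `ssm_thc_main` at `S := fc_locAt K y0`. -/
theorem ssm_ni_hT (y0 : Ideal B') [y0.IsPrime] (q₀ : ℕ) (T : Set K0)
    (hT : ∀ z ∈ T, ∃ (k : ℕ) (s m : B'), m ∉ y0 ∧
      algebraMap K0 K z * (q₀ : K) ^ k * (m : K) = (s : K)) :
    ∀ z ∈ T, ∃ (k : ℕ) (s : ↥(fc_locAt K y0)),
      algebraMap K0 K z * algebraMap ↥(fc_locAt K y0) K (q₀ : ↥(fc_locAt K y0)) ^ k =
        algebraMap ↥(fc_locAt K y0) K s := by
  intro z hz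
  obtain ⟨k, s, m, hm, h⟩ := hT z hz
  have hmem : algebraMap K0 K z * (q₀ : K) ^ k ∈ fc_locAt K y0 :=
    (fc_mem_locAt K y0 _).2 ⟨s, m, hm, h⟩
  refine ⟨k, ⟨_, hmem⟩, ?_⟩
  rw [map_natCast]
  rfl

/-- **[TH-C] at every crossing point** (thickness one over the unramified base): the element form
of the node structure consumed by `ssm_tht_node`. -/
theorem ssm_ni_thick [IsNoetherianRing B'] [IsIntegrallyClosed B']
    (φ : B' →+* B) (q₀ : ℕ) (P1 P2 : Ideal B) [P1.IsPrime] [P2.IsPrime] (t' : B') (gq : B)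
    (hφ : ∀ b' : B', (φ b' : E) = algebraMap K E (b' : K))
    (hint : φ.IsIntegral)
    (hBcl : ∀ z : E, IsIntegral B' z → z ∈ B)
    (hq₀ : q₀.Prime) (hqE : (q₀ : E) ≠ 0)
    (hP : Ideal.span {(q₀ : B)} = P1 ⊓ P2)
    (hc1 : P1.comap φ = Ideal.span {(q₀ : B')})
    (hc2 : P2.comap φ = Ideal.span {(q₀ : B')})
    (h12 : ¬ P1 ≤ P2) (h21 : ¬ P2 ≤ P1)
    (hadd : ∀ b : B, ∃ b' : B', b - φ b' ∈ P1)
    (hpow : ∀ b : B, ∃ b' : B', b ^ q₀ - φ b' ∈ P2)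
    (hu : φ t' - gq ^ q₀ ∈ P2)
    (hv : gq - φ t' ^ q₀ ∈ P1)
    (hrank : Module.finrank K E = q₀ + 1)
    (T : Set K0)
    (hH : ∀ (V2 : Subring K0) [IsDiscreteValuationRing V2] [IsFractionRing V2 K0],
      (∀ z ∈ T, z ∈ V2) → jt_UnramAt V2 E)
    (𝔫0 : Ideal B) [𝔫0.IsPrime] (h1 : P1 ≤ 𝔫0) (h2 : P2 ≤ 𝔫0)
    (hloc : tq_GenBy (q₀ : B') t' (𝔫0.comap φ))
    (hT : ∀ z ∈ T, ∃ (k : ℕ) (s m : B'), m ∉ 𝔫0.comap φ ∧
      algebraMap K0 K z * (q₀ : K) ^ k * (m : K) = (s : K))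
    (hgen2 : ∀ x ∈ P2, ∃ s : B, s ∉ 𝔫0 ∧ s * x ∈ Ideal.span {(q₀ : B), φ t' - gq ^ q₀})
    (hgen1 : ∀ x ∈ P1, ∃ s : B, s ∉ 𝔫0 ∧ s * x ∈ Ideal.span {(q₀ : B), gq - φ t' ^ q₀}) :
    ∃ u v : E, u * v = (q₀ : E) ∧
      (∃ s t : B, s ∉ 𝔫0 ∧ t ∈ P2 ∧ (s : E) * u = t) ∧
      (∃ s t : B, s ∉ 𝔫0 ∧ t ∈ P1 ∧ (s : E) * v = t) ∧
      (∀ z ∈ P2, ∃ s c : B, s ∉ 𝔫0 ∧ (s : E) * (z : E) = u * c) ∧
      (∀ z ∈ P1, ∃ s c : B, s ∉ 𝔫0 ∧ (s : E) * (z : E) = v * c) ∧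
      (∃ s t : B, s ∉ 𝔫0 ∧ t ∉ P1 ∧ (s : E) * u = t) ∧
      (∃ s t : B, s ∉ 𝔫0 ∧ t ∉ P2 ∧ (s : E) * v = t) := by
  haveI := ssm_ths_isNoetherianRing K (𝔫0.comap φ)
  haveI := ssm_ths_isIntegrallyClosed K (𝔫0.comap φ)
  haveI := ssm_ths_isFractionRing K (𝔫0.comap φ)
  exact ssm_thc_main K0 K E
    (ssm_ni_hyp K E φ q₀ P1 P2 t' gq hφ hint hBcl hq₀ hqE hP hc1 hc2 h12 h21 hadd hpow hu hv 𝔫0
      h1 h2 hloc hgen2 hgen1) hrank T hH (ssm_ni_hT K0 K (𝔫0.comap φ) q₀ T hT)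

end Thick

/-! ### transport to the ramified base -/

section Node

variable {A00 A0 : Type*} [CommRing A00] [CommRing A0] {F00 : Type*} {F0 : Type*} [Field F00]
  [Field F0] [Algebra A00 F00] [Algebra A0 F0]
  (j : F00 →+* F0) (j0 : A00 →+* A0)
  (hj0 : ∀ a, j (algebraMap A00 F00 a) = algebraMap A0 F0 (j0 a))
  (B0 : Subalgebra A00 F00) (B B12 : Subalgebra A0 F0) (hle : B ≤ B12)
  (hjB : ∀ b ∈ B0, j b ∈ B)

/-- a crossing point of the big chart lies over a crossing point of the small chart -/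
theorem ssm_ni_comap_le (V0 : ValuationSubring F00) (V : ValuationSubring F0)
    (hle0 : ∀ b ∈ B0, b ∈ V0) (hleV : ∀ b ∈ B, b ∈ V)
    (hV : ∀ z : F00, z ∈ V0.nonunits ↔ j z ∈ V.nonunits) (𝔫 : Ideal B)
    (h : ssm_tp_P B V ≤ 𝔫) : ssm_tp_P B0 V0 ≤ 𝔫.comap (ssm_bc_res j B0 B hjB) := by
  intro b hb
  exact h ((ssm_bc_mem_P_iff j B0 B hjB V0 V hle0 hleV hV b).1 hb)

/-- **the point of the small chart under a closed point is closed**, when the coordinate satisfies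
a monic equation modulo the point. -/
theorem ssm_ni_comap_isMaximal (q₀ : ℕ) (hq : (Ideal.span {(q₀ : A00)} : Ideal A00).IsMaximal)
    (x0 : B0) (hint : ∀ b : B0, IsIntegral (Algebra.adjoin A00 ({x0} : Set B0)) b)
    (p : A00[X]) (hp : p.Monic) (𝔫 : Ideal B) [𝔫.IsPrime] (hq𝔫 : (q₀ : B) ∈ 𝔫)
    (hpx : ssm_bc_res j B0 B hjB (aeval x0 p) ∈ 𝔫) :
    (𝔫.comap (ssm_bc_res j B0 B hjB)).IsMaximal := by
  haveI : (𝔫.comap (ssm_bc_res j B0 B hjB)).IsPrime := Ideal.comap_isPrime _ _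
  refine ssm_bc_isMaximal (q₀ : A00) hq x0 hint _ ?_ p hp hpx
  rw [map_natCast, Ideal.mem_comap, map_natCast]
  exact hq𝔫

include hj0 in
/-- **[ND], abstract form**: `ss_NodeAt` at a crossing point `𝔫` of the chart `B` over the ramified
base `(A0, π)`, from the thickness-one structure (`ssm_ni_thick`) at the point `𝔫.comap j` of the
chart `B0` over the unramified base `(A00, q)`, the base-change dictionary [BC], global local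
equations `uG, vG` of the two components over the small base, and the regularity clause `hgen`
over the big base. -/
theorem ssm_ni_node (π : A0) (σ : F0 ≃+* F0) (σ0 : A0 ≃+* A0) (hσj : ∀ z, σ (j z) = j z)
    (q₀ : ℕ) (hq0 : (q₀ : F00) ≠ 0)
    (V10 V20 : ValuationSubring F00) (V1 V2 : ValuationSubring F0)
    (h10 : ∀ b ∈ B0, b ∈ V10) (h20 : ∀ b ∈ B0, b ∈ V20)
    (h1 : ∀ b ∈ B12, b ∈ V1) (h2 : ∀ b ∈ B12, b ∈ V2)
    (hV1 : ∀ z : F00, z ∈ V10.nonunits ↔ j z ∈ V1.nonunits)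
    (hV2 : ∀ z : F00, z ∈ V20.nonunits ↔ j z ∈ V2.nonunits)
    (uG vG : B0) (huG : uG ∈ ssm_tp_P B0 V20) (hvG : vG ∈ ssm_tp_P B0 V10)
    (𝔫 : Ideal B) [𝔫.IsPrime] (hP1𝔫 : ssm_tp_P B V1 ≤ 𝔫) (hP2𝔫 : ssm_tp_P B V2 ≤ 𝔫)
    (hthick : ∃ u v : F00, u * v = (q₀ : F00) ∧
      (∃ s t : B0, s ∉ 𝔫.comap (ssm_bc_res j B0 B hjB) ∧ t ∈ ssm_tp_P B0 V20 ∧
        (s : F00) * u = t) ∧
      (∃ s t : B0, s ∉ 𝔫.comap (ssm_bc_res j B0 B hjB) ∧ t ∈ ssm_tp_P B0 V10 ∧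
        (s : F00) * v = t) ∧
      (∀ z ∈ ssm_tp_P B0 V20, ∃ s c : B0, s ∉ 𝔫.comap (ssm_bc_res j B0 B hjB) ∧
        (s : F00) * (z : F00) = u * c) ∧
      (∀ z ∈ ssm_tp_P B0 V10, ∃ s c : B0, s ∉ 𝔫.comap (ssm_bc_res j B0 B hjB) ∧
        (s : F00) * (z : F00) = v * c) ∧
      (∃ s t : B0, s ∉ 𝔫.comap (ssm_bc_res j B0 B hjB) ∧ t ∉ ssm_tp_P B0 V10 ∧
        (s : F00) * u = t) ∧
      (∃ s t : B0, s ∉ 𝔫.comap (ssm_bc_res j B0 B hjB) ∧ t ∉ ssm_tp_P B0 V20 ∧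
        (s : F00) * v = t))
    (hgen2 : ∀ x ∈ ssm_tp_P B0 V20, ∃ s : B0, s ∉ 𝔫.comap (ssm_bc_res j B0 B hjB) ∧
      s * x ∈ Ideal.span {(q₀ : B0), uG})
    (hgen1 : ∀ x ∈ ssm_tp_P B0 V10, ∃ s : B0, s ∉ 𝔫.comap (ssm_bc_res j B0 B hjB) ∧
      s * x ∈ Ideal.span {(q₀ : B0), vG})
    (hgen : ∀ x ∈ 𝔫, ∃ s : B, s ∉ 𝔫 ∧ s * x ∈ Ideal.span
      {algebraMap A0 B π, ssm_bc_res j B0 B hjB uG, ssm_bc_res j B0 B hjB vG}) :
    ss_NodeAt π σ σ0 hle (ssm_tp_P B12 V1) (ssm_tp_P B12 V2) 𝔫 := by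
  haveI : (𝔫.comap (ssm_bc_res j B0 B hjB)).IsPrime := Ideal.comap_isPrime _ _
  obtain ⟨u, v, huv, hu2, hv1, hP2u, hP1v, hu1, hv2⟩ := hthick
  have hB1 : ∀ b ∈ B, b ∈ V1 := fun b hb => h1 b (hle hb)
  have hB2 : ∀ b ∈ B, b ∈ V2 := fun b hb => h2 b (hle hb)
  refine ssm_tht_node j j0 hj0 B0 B B12 hle hjB π σ σ0 hσj (q₀ : A00) ?_
    (ssm_tp_P B12 V1) (ssm_tp_P B12 V2) (ssm_tp_P B0 V10) (ssm_tp_P B0 V20)
    (fun b => ssm_bc_mem_P_iff j B0 B12 (fun b hb => hle (hjB b hb)) V10 V1 h10 h1 hV1 b)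
    (fun b => ssm_bc_mem_P_iff j B0 B12 (fun b hb => hle (hjB b hb)) V20 V2 h20 h2 hV2 b)
    𝔫 (𝔫.comap (ssm_bc_res j B0 B hjB)) (fun b => Iff.rfl)
    (ssm_ni_comap_le j B0 B hjB V10 V1 h10 hB1 hV1 𝔫 hP1𝔫)
    (ssm_ni_comap_le j B0 B hjB V20 V2 h20 hB2 hV2 𝔫 hP2𝔫)
    u v ?_ ?_ hu2 hv1 hP2u hP1v hu1 hv2 uG vG huG hvG ?_ ?_ hgen
  · rw [map_natCast, map_natCast]
  · rw [map_natCast]; exact huv
  · rw [map_natCast]; exact hq0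
  · rw [map_natCast]; exact hgen2
  · rw [map_natCast]; exact hgen1

end Node

end Fermat.Agent.SS
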