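/-
SS [M], leaf [ND], part 2 (cover-agnostic): THE CROSSING PACKAGE.

`ssm_nx_Cross B' B φ π' q P1 P2 lam' lamq`: everything the node clause needs about the pair of
charts `B' ⊆ K` (level `N'`), `B ⊆ E` (level `N' q`) over ONE base: the dictionary, the [CP-I]
facts, and at every maximal crossing point `𝔫 ⊇ P1 + P2` the outputs of [TR-I] / [EC] for the
uniform Frobenius polynomial `G = X^(q²) − X`.

* `ssm_nx_cross_of_cri` : the package from the inputs of `ssm_crig_main` (abstract rings);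
* `ssm_nx_cross_ff`     : the package in the function-field form (`ssm_cpi_link_ff`), for the
  charts `fc_chart A0 {y} ⊆ K`, `fc_chart A0 {ι y} ⊆ E`;
* `ssm_nx_thick`        : package over the UNRAMIFIED base (`π' = q`) + [TH-INST] ⟹ thickness one
  at every crossing point (`ssm_ni_thick`);
* `ssm_nx_node`         : packages over the small and the big base + [BC] ⟹ `ss_NodeAt` at every
  maximal crossing point of the big chart (`ssm_ni_node`).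

Prefix `ssm_nx_`.
-/
import Mathlib
import Fermat.Agent.SS.Model.NodeInst
import Fermat.Agent.SS.Model.CrossingGen
import Fermat.Agent.SS.Model.ComponentsInst
import Fermat.Agent.SS.Model.IntegralGen
import Fermat.Agent.SS.Model.IntegralInst

set_option autoImplicit false
set_option linter.unusedSectionVars false
set_option linter.unusedVariables false
set_option linter.style.haveILetI false

noncomputable section

namespace Fermat.Agent.SS

open Fermat.Agent.JT3 Polynomial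

/-! ### the package -/

section Pkg

variable {A0 : Type*} [CommRing A0] {K E : Type*} [Field K] [Field E] [Algebra K E]
  [Algebra A0 K] [Algebra A0 E]

/-- **The crossing package** of a pair of charts `B' ⊆ K`, `B ⊆ E` over one base. -/
structure ssm_nx_Cross (B' : Subalgebra A0 K) (B : Subalgebra A0 E) (φ : B' →+* B) (π' : B')
    (q : ℕ) (P1 P2 : Ideal B) (lam' : B') (lamq : B) (c : ℤ[X]) : Prop where
  hφ : ∀ b' : B', (φ b' : E) = algebraMap K E (b' : K)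
  hint : φ.IsIntegral
  hBcl : ∀ z : E, IsIntegral B' z → z ∈ B
  prime1 : P1.IsPrime
  prime2 : P2.IsPrime
  hP : Ideal.span {φ π'} = P1 ⊓ P2
  hc1 : P1.comap φ = Ideal.span {π'}
  hc2 : P2.comap φ = Ideal.span {π'}
  h12 : ¬ P1 ≤ P2
  h21 : ¬ P2 ≤ P1
  hadd : ∀ b : B, ∃ b' : B', b - φ b' ∈ P1
  hpow : ∀ b : B, ∃ b' : B', b ^ q - φ b' ∈ P2
  cross : ∀ 𝔫 : Ideal B, 𝔫.IsMaximal → P1 ≤ 𝔫 → P2 ≤ 𝔫 →
    φ lam' ∉ 𝔫 ∧ aeval (φ lam') c ∉ 𝔫 ∧
    tq_GenBy π' (lam' ^ (q ^ 2) - lam') (𝔫.comap φ) ∧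
    φ lam' ^ (q ^ 2) - φ lam' ∈ 𝔫 ∧
    ((φ lam' ^ (q ^ 2) - φ lam') - (lamq ^ (q ^ 2) - lamq) ^ q ∈ P2) ∧
    ((lamq ^ (q ^ 2) - lamq) - (φ lam' ^ (q ^ 2) - φ lam') ^ q ∈ P1) ∧
    (∀ x ∈ P2, ∃ s : B, s ∉ 𝔫 ∧ s * x ∈ Ideal.span
      {φ π', (φ lam' ^ (q ^ 2) - φ lam') - (lamq ^ (q ^ 2) - lamq) ^ q}) ∧
    (∀ x ∈ P1, ∃ s : B, s ∉ 𝔫 ∧ s * x ∈ Ideal.span
      {φ π', (lamq ^ (q ^ 2) - lamq) - (φ lam' ^ (q ^ 2) - φ lam') ^ q}) ∧
    (∀ x ∈ 𝔫, ∃ s : B, s ∉ 𝔫 ∧ s * x ∈ Ideal.span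
      {φ π', (φ lam' ^ (q ^ 2) - φ lam') - (lamq ^ (q ^ 2) - lamq) ^ q,
        (lamq ^ (q ^ 2) - lamq) - (φ lam' ^ (q ^ 2) - φ lam') ^ q})

variable {B' : Subalgebra A0 K} {B : Subalgebra A0 E}

/-- **the package from the inputs of `ssm_crig_main`** ([TR-I], cover-agnostic form). -/
theorem ssm_nx_cross_of_cri (φ : B' →+* B) (π' : B') (P1 P2 : Ideal B)
    [hP1 : P1.IsPrime] [hP2 : P2.IsPrime]
    (hφ : ∀ b' : B', (φ b' : E) = algebraMap K E (b' : K))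
    (hint : φ.IsIntegral)
    (hBcl : ∀ z : E, IsIntegral B' z → z ∈ B)
    (hP : Ideal.span {φ π'} = P1 ⊓ P2)
    (hc1 : P1.comap φ = Ideal.span {π'})
    (hc2 : P2.comap φ = Ideal.span {π'})
    (h12 : ¬ P1 ≤ P2) (h21 : ¬ P2 ≤ P1)
    (hadd : ∀ b : B, ∃ b' : B', b - φ b' ∈ P1)
    (q : ℕ) [hq : Fact q.Prime]
    (hpow : ∀ b : B, ∃ b' : B', b ^ q - φ b' ∈ P2)
    (hqP : (q : B) ∈ P1)
    (W : B ≃+* B) (hWW : ∀ x, W (W x) = x) (hW : ∀ x, x ∈ P1 ↔ W x ∈ P2)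
    (lam' : B') (lamq : B) (hWl : W (φ lam') = lamq) (hfrob : lamq - φ lam' ^ q ∈ P1)
    (c : ℤ[X]) (hl0 : φ lam' ∉ P1) (hl1 : aeval (φ lam') c ∉ P1)
    (w w' w1 w1' : B) (hw : w * lamq = φ lam' ^ q) (hw' : w' * φ lam' = lamq ^ q)
    (hw1 : w1 * aeval lamq c = aeval (φ lam') c ^ q)
    (hw1' : w1' * aeval (φ lam') c = aeval lamq c ^ q)
    (hEC : ∀ 𝔫' : Ideal B', 𝔫'.IsMaximal → π' ∈ 𝔫' → lam' ∉ 𝔫' → aeval lam' c ∉ 𝔫' →
      lam' ^ (q ^ 2) - lam' ∈ 𝔫' → tq_GenBy π' (lam' ^ (q ^ 2) - lam') 𝔫') :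
    ssm_nx_Cross B' B φ π' q P1 P2 lam' lamq c where
  hφ := hφ
  hint := hint
  hBcl := hBcl
  prime1 := hP1
  prime2 := hP2
  hP := hP
  hc1 := hc1
  hc2 := hc2
  h12 := h12
  h21 := h21
  hadd := hadd
  hpow := hpow
  cross := by
    intro 𝔫 h𝔫 h1 h2
    haveI := h𝔫
    obtain ⟨c1, c2, c3, c4, c5, -, c7, c8, c9⟩ := ssm_crig_main φ hint π' P1 P2 hP hadd q hqP W hWW
      hW lam' lamq hWl hfrob c hl0 hl1 w w' w1 w1' hw hw' hw1 hw1' hEC 𝔫 h1 h2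
    refine ⟨c1, c2, ?_, c3, c4, c5, c7, c8, c9⟩
    have hπ1 : φ π' ∈ P1 := (hP ▸ Ideal.subset_span rfl : φ π' ∈ P1 ⊓ P2).1
    refine hEC (𝔫.comap φ) (Ideal.isMaximal_comap_of_isIntegral_of_isMaximal' φ hint 𝔫)
      (h1 hπ1) c1 ?_ ?_
    · intro h
      apply c2
      have h' : φ (aeval lam' c) ∈ 𝔫 := h
      rwa [ssm_cr_map_aeval] at h'
    · show φ (lam' ^ (q ^ 2) - lam') ∈ 𝔫
      rw [map_sub, map_pow]
      exact c3

end Pkg

/-! ### the package in the function-field form -/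

section FF

open IntermediateField

universe u v

variable {K : Type u} {E : Type v} [Field K] [Field E] [Algebra K E] [FiniteDimensional K E]
  [Algebra.IsSeparable K E]
  {R' : Type*} [CommRing R'] [IsDomain R'] [IsDiscreteValuationRing R'] [Algebra R' K]
  [IsFractionRing R' K] [Algebra R' E] [IsScalarTower R' K E]
  {A0 L : Type*} [CommRing A0] [IsDomain A0] [IsDiscreteValuationRing A0]
  [Field L] [Algebra A0 L] [IsFractionRing A0 L] [Algebra L E] [Algebra A0 E]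
  [IsScalarTower A0 L E] [Algebra A0 K] [IsScalarTower A0 K E] [Algebra L K] [IsScalarTower A0 L K]
  {q : ℕ} {V1 : ValuationSubring E} {W : E ≃+* E} {lam : R'}

omit [FiniteDimensional K E] [Algebra.IsSeparable K E] [IsDomain A0]
  [IsDiscreteValuationRing A0] in
/-- **`hBcl` for charts**: an element of `E` integral over the chart `fc_chart A0 {y}` of `K` lies in
the chart `fc_chart A0 {ι y}` of `E`. -/
theorem ssm_nx_hBcl (y : K) (z : E) (hz : IsIntegral (fc_chart A0 ({y} : Set K)) z) :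
    z ∈ fc_chart A0 ({algebraMap K E y} : Set E) := by
  have h1 : IsIntegral (fc_chart A0 ({algebraMap K E y} : Set E)) z :=
    IsIntegral.map_of_comp_eq (ssm_cpi_phi A0 E y) (RingHom.id E) (by ext b; rfl) hz
  have h2 : IsIntegral (integralClosure (Algebra.adjoin A0 ({algebraMap K E y} : Set E)) E) z := h1
  rw [fc_mem_chart]
  exact isIntegral_trans (A := integralClosure (Algebra.adjoin A0 ({algebraMap K E y} : Set E)) E)
    z h2

/-- **the crossing package, function-field form**: charts `B' = fc_chart A0 {y} ⊆ K`,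
`B = fc_chart A0 {ι y} ⊆ E`, `P_i = ssm_tp_P B V_i`, `λ' = y`, `λ_q = W (ι y)`; inputs: the
two-valuations data `D` ([GA-I]), [TP] (`H`), `π` prime on `B'` and `B'/π` integrally closed (S18 at
level `N'`), the chart `B` is `W`-stable and contains the four quotients ([I1]), and [EC] on `B'`
(`c` the second cusp polynomial: `X − 1` for Legendre, `X² + 3X + 3` for Hesse-M). -/
theorem ssm_nx_cross_ff (D : ssm_tw_Data K R' q V1 W lam) {π : A0} (hπ : Irreducible π) {y : K}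
    (hlam : algebraMap R' E lam = algebraMap K E y)
    (hy : Transcendental L y) [FiniteDimensional L⟮y⟯ K]
    (hyE : Transcendental L (algebraMap K E y))
    (hprime : Prime (algebraMap A0 (fc_chart A0 ({y} : Set K)) π))
    (hic : IsIntegrallyClosed (fc_chart A0 ({y} : Set K) ⧸
      (Ideal.span {algebraMap A0 (fc_chart A0 ({y} : Set K)) π} :
        Ideal (fc_chart A0 ({y} : Set K)))))
    (VK : ValuationSubring K) (hVK : ∀ z : K, z ∈ VK ↔ z ∈ (algebraMap R' K).range)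
    (hover : ssm_tp_Over (algebraMap A0 (Algebra.adjoin A0 ({y} : Set K)) π) VK)
    (H : ssm_tp_Hyp (algebraMap A0 (Algebra.adjoin A0 ({algebraMap K E y} : Set E)) π) V1
      (V1.comap (W : E →+* E)))
    (hWB : ∀ b ∈ fc_chart A0 ({algebraMap K E y} : Set E),
      W b ∈ fc_chart A0 ({algebraMap K E y} : Set E))
    (c : ℤ[X]) (hc : c.Monic)
    (hw0 : algebraMap K E y ^ q / W (algebraMap K E y) ∈
      fc_chart A0 ({algebraMap K E y} : Set E))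
    (hw0' : W (algebraMap K E y) ^ q / algebraMap K E y ∈
      fc_chart A0 ({algebraMap K E y} : Set E))
    (hw1 : aeval (algebraMap K E y) c ^ q / aeval (W (algebraMap K E y)) c ∈
      fc_chart A0 ({algebraMap K E y} : Set E))
    (hw1' : aeval (W (algebraMap K E y)) c ^ q / aeval (algebraMap K E y) c ∈
      fc_chart A0 ({algebraMap K E y} : Set E))
    (hEC : ∀ 𝔫' : Ideal (fc_chart A0 ({y} : Set K)), 𝔫'.IsMaximal →
      algebraMap A0 (fc_chart A0 ({y} : Set K)) π ∈ 𝔫' →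
      (⟨y, fc_x_mem_chart y⟩ : fc_chart A0 ({y} : Set K)) ∉ 𝔫' →
      aeval (⟨y, fc_x_mem_chart y⟩ : fc_chart A0 ({y} : Set K)) c ∉ 𝔫' →
      (⟨y, fc_x_mem_chart y⟩ : fc_chart A0 ({y} : Set K)) ^ (q ^ 2) - ⟨y, fc_x_mem_chart y⟩ ∈ 𝔫' →
      tq_GenBy (algebraMap A0 (fc_chart A0 ({y} : Set K)) π)
        ((⟨y, fc_x_mem_chart y⟩ : fc_chart A0 ({y} : Set K)) ^ (q ^ 2) - ⟨y, fc_x_mem_chart y⟩)
        𝔫') :
    ssm_nx_Cross (fc_chart A0 ({y} : Set K)) (fc_chart A0 ({algebraMap K E y} : Set E))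
      (ssm_cpi_phi A0 E y) (algebraMap A0 (fc_chart A0 ({y} : Set K)) π) q
      (ssm_tp_P (fc_chart A0 ({algebraMap K E y} : Set E)) V1)
      (ssm_tp_P (fc_chart A0 ({algebraMap K E y} : Set E)) (V1.comap (W : E →+* E)))
      ⟨y, fc_x_mem_chart y⟩ ⟨W (algebraMap K E y), hWB _ (fc_x_mem_chart _)⟩ c := by
  haveI : Fact q.Prime := ⟨D.q_prime⟩
  have hyEA : Transcendental A0 (algebraMap K E y) := fc_ff_transcendental (L := L) hyE
  haveI : IsIntegrallyClosed (Algebra.adjoin A0 ({algebraMap K E y} : Set E)) :=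
    fc_ff_isIntegrallyClosed hyEA
  haveI : FaithfulSMul (Algebra.adjoin A0 ({algebraMap K E y} : Set E)) E :=
    (faithfulSMul_iff_algebraMap_injective _ _).2 Subtype.val_injective
  have Lk := ssm_cpi_link_ff (L := L) D hπ hy hyE hprime VK hVK hover H
  have hint := ssm_cpi_phi_isIntegral (A0 := A0) (E := E) y
  have hπ' : (Ideal.span {algebraMap A0 (fc_chart A0 ({y} : Set K)) π} :
      Ideal (fc_chart A0 ({y} : Set K))).IsPrime :=
    (Ideal.span_singleton_prime hprime.ne_zero).2 hprime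
  have hC := ssm_tp_ff_chart (L := L) hπ hyE
  have hP : Ideal.span {ssm_cpi_phi A0 E y (algebraMap A0 (fc_chart A0 ({y} : Set K)) π)} =
      ssm_tp_P (fc_chart A0 ({algebraMap K E y} : Set E)) V1 ⊓
        ssm_tp_P (fc_chart A0 ({algebraMap K E y} : Set E)) (V1.comap (W : E →+* E)) := by
    rw [ssm_cpi_phi_algebraMap]
    exact H.P_inf hC _ rfl
  haveI := Lk.P1_isPrime
  haveI := Lk.P2_isPrime
  -- abbreviations
  set B := fc_chart A0 ({algebraMap K E y} : Set E) with hB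
  set x : E := algebraMap K E y with hx
  have hx0 : x ≠ 0 := by
    intro h
    exact hyE (h ▸ isAlgebraic_zero)
  have hWx0 : W x ≠ 0 := (EmbeddingLike.map_ne_zero_iff (f := W)).2 hx0
  -- the two cusp elements are units at `V1`
  have hX : aeval x (X : ℤ[X]) = x := aeval_X x
  have hl0E : x ∉ V1.nonunits := by
    have := (ssm_i1g_monic_int_not_mem hπ hyEA H.over1 X monic_X).2
    rwa [hX] at this
  have hl1E : aeval x c ∉ V1.nonunits := (ssm_i1g_monic_int_not_mem hπ hyEA H.over1 c hc).2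
  have hc0 : aeval x c ≠ 0 := fun h => hl1E (h ▸ ssm_tp_zero_mem_nonunits V1)
  have hWc : aeval (W x) c = W (aeval x c) := (ssm_cr_map_aeval (W : E →+* E) c x).symm
  have hWc0 : aeval (W x) c ≠ 0 := by
    rw [hWc]
    exact (EmbeddingLike.map_ne_zero_iff (f := W)).2 hc0
  -- the involution of the chart
  let WB : B ≃+* B := ssm_i1i_equiv W D.invol B hWB
  have hWBc : ∀ b : B, ((WB b : B) : E) = W (b : E) := fun _ => rfl
  have hW : ∀ b : B, b ∈ ssm_tp_P B V1 ↔ WB b ∈ ssm_tp_P B (V1.comap (W : E →+* E)) := by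
    intro b
    rw [ssm_tp_mem_P Lk.le1', ssm_tp_mem_P Lk.le2', ssm_tw_nonunits_comap, hWBc, D.invol]
  have hcoe : ∀ (b : B) (p : ℤ[X]), ((aeval b p : B) : E) = aeval (b : E) p := fun b p =>
    ssm_cr_map_aeval (B.val : B →+* E) p b
  have hφl : ((ssm_cpi_phi A0 E y ⟨y, fc_x_mem_chart y⟩ : B) : E) = x := rfl
  refine ssm_nx_cross_of_cri (ssm_cpi_phi A0 E y) _ _ _ (fun _ => rfl) hint (ssm_nx_hBcl y) hP
    (ssm_cpi_comap1 Lk) (ssm_cpi_comap2 D Lk) (H.P_not_le12 hC) (H.P_not_le21 hC)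
    (ssm_cpi_add D Lk hint hπ' hic) q (ssm_cpi_pow D Lk hint hπ' hic) ?_ WB
    (fun b => Subtype.ext (D.invol _)) hW _ _ (Subtype.ext rfl) ?_ c ?_ ?_
    ⟨_, hw0⟩ ⟨_, hw0'⟩ ⟨_, hw1⟩ ⟨_, hw1'⟩ ?_ ?_ ?_ ?_ hEC
  · -- `q ∈ P1`
    rw [ssm_tp_mem_P Lk.le1']
    have : (((q : ℕ) : B) : E) = (q : E) := by simp
    rw [this]
    exact ssm_i1i_q_mem D
  · -- Frobenius
    rw [ssm_tp_mem_P Lk.le1']
    have h := D.frob
    rw [hlam] at h
    exact h
  · rw [ssm_tp_mem_P Lk.le1']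
    exact hl0E
  · rw [ssm_tp_mem_P Lk.le1', hcoe]
    exact hl1E
  · apply Subtype.ext
    show x ^ q / W x * W x = x ^ q
    rw [div_mul_cancel₀ _ hWx0]
  · apply Subtype.ext
    show W x ^ q / x * x = W x ^ q
    rw [div_mul_cancel₀ _ hx0]
  · apply Subtype.ext
    rw [MulMemClass.coe_mul, SubmonoidClass.coe_pow, hcoe, hcoe]
    show aeval x c ^ q / aeval (W x) c * aeval (W x) c = aeval x c ^ q
    rw [div_mul_cancel₀ _ hWc0]
  · apply Subtype.ext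
    rw [MulMemClass.coe_mul, SubmonoidClass.coe_pow, hcoe, hcoe]
    show aeval (W x) c ^ q / aeval x c * aeval x c = aeval (W x) c ^ q
    rw [div_mul_cancel₀ _ hc0]

end FF

/-! ### thickness one at the crossing points of the chart over the unramified base -/

section Thick

variable {A0 : Type*} [CommRing A0] (K0 K E : Type*) [Field K0] [CharZero K0] [Field K] [Field E]
  [Algebra K0 K] [Algebra K E] [Algebra K0 E] [IsScalarTower K0 K E] [FiniteDimensional K0 K]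
  [FiniteDimensional K E] [Algebra A0 K] [Algebra A0 E]
  {B' : Subalgebra A0 K} {B : Subalgebra A0 E} [IsFractionRing B' K]

omit [Algebra K E] [Algebra K0 E] [IsScalarTower K0 K E] [FiniteDimensional K0 K]
  [FiniteDimensional K E] [Algebra A0 E] [CharZero K0] in
/-- converse of `ssm_ni_hT`: the clause `hT` of `ssm_thc_main` at `S := fc_locAt K y0` gives the
element form. -/
theorem ssm_nx_hT_elem (y0 : Ideal B') [y0.IsPrime] (q₀ : ℕ) (T : Set K0)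
    (hT : ∀ z ∈ T, ∃ (k : ℕ) (s : ↥(fc_locAt K y0)),
      algebraMap K0 K z * algebraMap ↥(fc_locAt K y0) K (q₀ : ↥(fc_locAt K y0)) ^ k =
        algebraMap ↥(fc_locAt K y0) K s) :
    ∀ z ∈ T, ∃ (k : ℕ) (s m : B'), m ∉ y0 ∧
      algebraMap K0 K z * (q₀ : K) ^ k * (m : K) = (s : K) := by
  intro z hz
  obtain ⟨k, s, h⟩ := hT z hz
  obtain ⟨a, m, hm, ha⟩ := (fc_mem_locAt K y0 (s : K)).1 s.2
  refine ⟨k, a, m, hm, ?_⟩
  rw [map_natCast] at h
  rw [h]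
  exact ha

/-- **thickness one at every crossing point** of the chart `B` over the unramified base (`π' = q`),
from the crossing package and [TH-INST] (`hrank`, `T`, `hH`, `hT`); the local equations of the two
components are the GLOBAL elements `u = g − g_q^q`, `v = g_q − g^q`. -/
theorem ssm_nx_thick [IsNoetherianRing B'] [IsIntegrallyClosed B']
    {φ : B' →+* B} {π' : B'} {q₀ : ℕ} {P1 P2 : Ideal B} {lam' : B'} {lamq : B} {c : ℤ[X]}
    (C : ssm_nx_Cross B' B φ π' q₀ P1 P2 lam' lamq c) (hπ' : π' = (q₀ : B'))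
    (hq₀ : q₀.Prime) (hqE : (q₀ : E) ≠ 0)
    (hrank : Module.finrank K E = q₀ + 1)
    (T : Set K0)
    (hH : ∀ (V2 : Subring K0) [IsDiscreteValuationRing V2] [IsFractionRing V2 K0],
      (∀ z ∈ T, z ∈ V2) → jt_UnramAt V2 E)
    (hT : ∀ 𝔫0 : Ideal B, 𝔫0.IsMaximal → P1 ≤ 𝔫0 → P2 ≤ 𝔫0 → φ lam' ∉ 𝔫0 →
      aeval (φ lam') c ∉ 𝔫0 → ∀ z ∈ T, ∃ (k : ℕ) (s m : B'), m ∉ 𝔫0.comap φ ∧
        algebraMap K0 K z * (q₀ : K) ^ k * (m : K) = (s : K))
    (𝔫0 : Ideal B) (h𝔫0 : 𝔫0.IsMaximal) (h1 : P1 ≤ 𝔫0) (h2 : P2 ≤ 𝔫0) :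
    (∃ u v : E, u * v = (q₀ : E) ∧
      (∃ s t : B, s ∉ 𝔫0 ∧ t ∈ P2 ∧ (s : E) * u = t) ∧
      (∃ s t : B, s ∉ 𝔫0 ∧ t ∈ P1 ∧ (s : E) * v = t) ∧
      (∀ z ∈ P2, ∃ s c : B, s ∉ 𝔫0 ∧ (s : E) * (z : E) = u * c) ∧
      (∀ z ∈ P1, ∃ s c : B, s ∉ 𝔫0 ∧ (s : E) * (z : E) = v * c) ∧
      (∃ s t : B, s ∉ 𝔫0 ∧ t ∉ P1 ∧ (s : E) * u = t) ∧
      (∃ s t : B, s ∉ 𝔫0 ∧ t ∉ P2 ∧ (s : E) * v = t)) := by
  subst hπ'
  haveI := C.prime1
  haveI := C.prime2
  haveI : 𝔫0.IsPrime := h𝔫0.isPrime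
  obtain ⟨c1, c2, c0, -, c4, c5, c7, c8, -⟩ := C.cross 𝔫0 h𝔫0 h1 h2
  have e : φ (lam' ^ (q₀ ^ 2) - lam') = φ lam' ^ (q₀ ^ 2) - φ lam' := by rw [map_sub, map_pow]
  have e2 : φ ((q₀ : ℕ) : B') = ((q₀ : ℕ) : B) := map_natCast φ q₀
  have hP := C.hP
  rw [e2] at hP c7 c8
  exact ssm_ni_thick K0 K E φ q₀ P1 P2 (lam' ^ (q₀ ^ 2) - lam') (lamq ^ (q₀ ^ 2) - lamq) C.hφ
    C.hint C.hBcl hq₀ hqE hP C.hc1 C.hc2 C.h12 C.h21 C.hadd C.hpow (by rw [e]; exact c4)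
    (by rw [e]; exact c5) hrank T hH 𝔫0 h1 h2 c0 (hT 𝔫0 h𝔫0 h1 h2 c1 c2) (by rw [e]; exact c7)
    (by rw [e]; exact c8)

end Thick

/-! ### the node clause over the ramified base -/

section Node

variable {A00 A0 : Type*} [CommRing A00] [CommRing A0]
  {K00 F00 : Type*} [Field K00] [Field F00] [Algebra K00 F00] [Algebra A00 K00] [Algebra A00 F00]
  {K1 F0 : Type*} [Field K1] [Field F0] [Algebra K1 F0] [Algebra A0 K1] [Algebra A0 F0]

omit [Field K1] [Algebra K1 F0] [Algebra A0 K1] [CommRing A00] in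
/-- every element of the chart `fc_chart A0 {x}` is integral over `A0[x]`, inside the chart. -/
theorem ssm_nx_chart_isIntegral (x : F0) (b : fc_chart A0 ({x} : Set F0)) :
    IsIntegral (Algebra.adjoin A0
      ({(⟨x, fc_x_mem_chart x⟩ : fc_chart A0 ({x} : Set F0))} : Set (fc_chart A0 ({x} : Set F0))))
      b := by
  obtain ⟨P, hP, hPb⟩ := b.2
  -- the restriction `A0[x] → A0[⟨x⟩]`
  have hmem : ∀ r ∈ Algebra.adjoin A0 ({x} : Set F0), ∃ r' ∈ Algebra.adjoin A0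
      ({(⟨x, fc_x_mem_chart x⟩ : fc_chart A0 ({x} : Set F0))} :
        Set (fc_chart A0 ({x} : Set F0))), ((r' : fc_chart A0 ({x} : Set F0)) : F0) = r := by
    intro r hr
    induction hr using Algebra.adjoin_induction with
    | mem z hz =>
      rw [Set.mem_singleton_iff] at hz
      subst hz
      exact ⟨_, Algebra.subset_adjoin rfl, rfl⟩
    | algebraMap a => exact ⟨algebraMap A0 _ a, Subalgebra.algebraMap_mem _ a, rfl⟩
    | add z w _ _ hz hw =>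
      obtain ⟨z', hz', rfl⟩ := hz
      obtain ⟨w', hw', rfl⟩ := hw
      exact ⟨z' + w', add_mem hz' hw', rfl⟩
    | mul z w _ _ hz hw =>
      obtain ⟨z', hz', rfl⟩ := hz
      obtain ⟨w', hw', rfl⟩ := hw
      exact ⟨z' * w', mul_mem hz' hw', rfl⟩
  choose g hg hgc using hmem
  let ρ : Algebra.adjoin A0 ({x} : Set F0) →+* Algebra.adjoin A0
      ({(⟨x, fc_x_mem_chart x⟩ : fc_chart A0 ({x} : Set F0))} :
        Set (fc_chart A0 ({x} : Set F0))) :=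
    { toFun := fun r => ⟨g r r.2, hg r r.2⟩
      map_one' := Subtype.ext (Subtype.ext (by rw [hgc]; rfl))
      map_mul' := fun a c => Subtype.ext (Subtype.ext (by
        show ((g (a * c : Algebra.adjoin A0 ({x} : Set F0)) _ : fc_chart A0 ({x} : Set F0)) : F0) =
          ((g a a.2 * g c c.2 : fc_chart A0 ({x} : Set F0)) : F0)
        rw [hgc, MulMemClass.coe_mul, MulMemClass.coe_mul, hgc, hgc]))
      map_zero' := Subtype.ext (Subtype.ext (by rw [hgc]; rfl))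
      map_add' := fun a c => Subtype.ext (Subtype.ext (by
        show ((g (a + c : Algebra.adjoin A0 ({x} : Set F0)) _ : fc_chart A0 ({x} : Set F0)) : F0) =
          ((g a a.2 + g c c.2 : fc_chart A0 ({x} : Set F0)) : F0)
        rw [hgc, AddMemClass.coe_add, AddMemClass.coe_add, hgc, hgc])) }
  refine ⟨P.map ρ, hP.map ρ, ?_⟩
  apply Subtype.ext
  have h1 := Polynomial.hom_eval₂ (P.map ρ)
    (algebraMap (Algebra.adjoin A0
      ({(⟨x, fc_x_mem_chart x⟩ : fc_chart A0 ({x} : Set F0))} :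
        Set (fc_chart A0 ({x} : Set F0)))) (fc_chart A0 ({x} : Set F0)))
    (fc_chart A0 ({x} : Set F0)).val.toRingHom b
  have h2 : ((Polynomial.eval₂ (algebraMap (Algebra.adjoin A0
      ({(⟨x, fc_x_mem_chart x⟩ : fc_chart A0 ({x} : Set F0))} :
        Set (fc_chart A0 ({x} : Set F0)))) (fc_chart A0 ({x} : Set F0))) b (P.map ρ) :
        fc_chart A0 ({x} : Set F0)) : F0) =
      (fc_chart A0 ({x} : Set F0)).val.toRingHom (Polynomial.eval₂ (algebraMap (Algebra.adjoin A0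
      ({(⟨x, fc_x_mem_chart x⟩ : fc_chart A0 ({x} : Set F0))} :
        Set (fc_chart A0 ({x} : Set F0)))) (fc_chart A0 ({x} : Set F0))) b (P.map ρ)) := rfl
  rw [h2, h1, Polynomial.eval₂_map]
  have h3 : (((fc_chart A0 ({x} : Set F0)).val.toRingHom.comp (algebraMap (Algebra.adjoin A0
      ({(⟨x, fc_x_mem_chart x⟩ : fc_chart A0 ({x} : Set F0))} :
        Set (fc_chart A0 ({x} : Set F0)))) (fc_chart A0 ({x} : Set F0)))).comp ρ) =
      algebraMap (Algebra.adjoin A0 ({x} : Set F0)) F0 := by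
    ext r
    exact hgc r r.2
  rw [h3]
  exact hPb

/-- **[ND], package form**: `ss_NodeAt` at every maximal crossing point of the chart `B` over the
ramified base `(A0, π)`, from the crossing packages `C0` over the unramified base `(A00, q)` and `C1`
over `(A0, π)`, thickness one over the small base (`ssm_nx_thick`) and the base-change dictionary
[BC] (`j`, `hV1`, `hV2`, `hσj`, and `j` maps `(λ, λ_q)` to `(λ, λ_q)`). -/
theorem ssm_nx_node
    (j : F00 →+* F0) (j0 : A00 →+* A0)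
    (hj0 : ∀ a, j (algebraMap A00 F00 a) = algebraMap A0 F0 (j0 a))
    {B0' : Subalgebra A00 K00} (B0 : Subalgebra A00 F00)
    {B' : Subalgebra A0 K1} (B B12 : Subalgebra A0 F0) (hle : B ≤ B12)
    (hjB : ∀ b ∈ B0, j b ∈ B)
    (π : A0) (σ : F0 ≃+* F0) (σ0 : A0 ≃+* A0) (hσj : ∀ z, σ (j z) = j z)
    (q₀ : ℕ) (hq₀ : q₀.Prime) (hq0 : (q₀ : F00) ≠ 0)
    (hqmax : (Ideal.span {(q₀ : A00)} : Ideal A00).IsMaximal)
    (V10 V20 : ValuationSubring F00) (V1 V2 : ValuationSubring F0)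
    (h10 : ∀ b ∈ B0, b ∈ V10) (h20 : ∀ b ∈ B0, b ∈ V20)
    (h1 : ∀ b ∈ B12, b ∈ V1) (h2 : ∀ b ∈ B12, b ∈ V2)
    (hV1 : ∀ z : F00, z ∈ V10.nonunits ↔ j z ∈ V1.nonunits)
    (hV2 : ∀ z : F00, z ∈ V20.nonunits ↔ j z ∈ V2.nonunits)
    {φ0 : B0' →+* B0} {π0' : B0'} {lam0' : B0'} {lamq0 : B0} {c0 : ℤ[X]}
    (C0 : ssm_nx_Cross B0' B0 φ0 π0' q₀ (ssm_tp_P B0 V10) (ssm_tp_P B0 V20) lam0' lamq0 c0)
    (hπ0' : π0' = (q₀ : B0'))
    {φ : B' →+* B} {π' : B'} {lam' : B'} {lamq : B} {c : ℤ[X]}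
    (C1 : ssm_nx_Cross B' B φ π' q₀ (ssm_tp_P B V1) (ssm_tp_P B V2) lam' lamq c)
    (hπ' : φ π' = algebraMap A0 B π)
    (hlam : j (φ0 lam0' : F00) = (φ lam' : F0))
    (hlamq : j (lamq0 : F00) = (lamq : F0))
    (hint0 : ∀ b : B0, IsIntegral (Algebra.adjoin A00 ({φ0 lam0'} : Set B0)) b)
    (hthick : ∀ 𝔫0 : Ideal B0, 𝔫0.IsMaximal → ssm_tp_P B0 V10 ≤ 𝔫0 → ssm_tp_P B0 V20 ≤ 𝔫0 →
      ∃ u v : F00, u * v = (q₀ : F00) ∧
        (∃ s t : B0, s ∉ 𝔫0 ∧ t ∈ ssm_tp_P B0 V20 ∧ (s : F00) * u = t) ∧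
        (∃ s t : B0, s ∉ 𝔫0 ∧ t ∈ ssm_tp_P B0 V10 ∧ (s : F00) * v = t) ∧
        (∀ z ∈ ssm_tp_P B0 V20, ∃ s c : B0, s ∉ 𝔫0 ∧ (s : F00) * (z : F00) = u * c) ∧
        (∀ z ∈ ssm_tp_P B0 V10, ∃ s c : B0, s ∉ 𝔫0 ∧ (s : F00) * (z : F00) = v * c) ∧
        (∃ s t : B0, s ∉ 𝔫0 ∧ t ∉ ssm_tp_P B0 V10 ∧ (s : F00) * u = t) ∧
        (∃ s t : B0, s ∉ 𝔫0 ∧ t ∉ ssm_tp_P B0 V20 ∧ (s : F00) * v = t))
    (𝔫 : Ideal B) (h𝔫 : 𝔫.IsMaximal) (hP1𝔫 : ssm_tp_P B V1 ≤ 𝔫) (hP2𝔫 : ssm_tp_P B V2 ≤ 𝔫) :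
    ss_NodeAt π σ σ0 hle (ssm_tp_P B12 V1) (ssm_tp_P B12 V2) 𝔫 := by
  haveI : 𝔫.IsPrime := h𝔫.isPrime
  subst hπ0'
  haveI : Nontrivial A00 := by
    by_contra h
    rw [not_nontrivial_iff_subsingleton] at h
    exact hqmax.ne_top (Subsingleton.elim _ _)
  obtain ⟨-, -, -, d3, -, -, -, -, d9⟩ := C1.cross 𝔫 h𝔫 hP1𝔫 hP2𝔫
  have hB1 : ∀ b ∈ B, b ∈ V1 := fun b hb => h1 b (hle hb)
  have hB2 : ∀ b ∈ B, b ∈ V2 := fun b hb => h2 b (hle hb)
  have hle10 := ssm_ni_comap_le j B0 B hjB V10 V1 h10 hB1 hV1 𝔫 hP1𝔫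
  have hle20 := ssm_ni_comap_le j B0 B hjB V20 V2 h20 hB2 hV2 𝔫 hP2𝔫
  have hres_lam : ssm_bc_res j B0 B hjB (φ0 lam0') = φ lam' := Subtype.ext hlam
  have hres_lamq : ssm_bc_res j B0 B hjB lamq0 = lamq := Subtype.ext hlamq
  have e2 : φ0 ((q₀ : ℕ) : B0') = ((q₀ : ℕ) : B0) := map_natCast φ0 q₀
  have hq10 : ((q₀ : ℕ) : B0) ∈ ssm_tp_P B0 V10 := by
    have h : φ0 ((q₀ : ℕ) : B0') ∈ ssm_tp_P B0 V10 ⊓ ssm_tp_P B0 V20 :=
      C0.hP ▸ Ideal.subset_span rfl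
    rw [e2] at h
    exact h.1
  have hq𝔫 : ((q₀ : ℕ) : B) ∈ 𝔫 := by
    have h := hle10 hq10
    rw [Ideal.mem_comap, map_natCast] at h
    exact h
  have hpx : ssm_bc_res j B0 B hjB (aeval (φ0 lam0') (X ^ (q₀ ^ 2) - X : A00[X])) ∈ 𝔫 := by
    rw [map_sub, map_pow, aeval_X, map_sub, map_pow, hres_lam]
    exact d3
  have hmonic : (X ^ (q₀ ^ 2) - X : A00[X]).Monic := by
    apply (monic_X_pow (q₀ ^ 2)).sub_of_left
    rw [degree_X_pow, degree_X]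
    have : 2 ≤ q₀ := hq₀.two_le
    exact_mod_cast (by nlinarith : 1 < q₀ ^ 2)
  have hmax := ssm_ni_comap_isMaximal j B0 B hjB q₀ hqmax (φ0 lam0') hint0 _ hmonic 𝔫 hq𝔫 hpx
  obtain ⟨-, -, -, -, s4, s5, s7, s8, -⟩ := C0.cross _ hmax hle10 hle20
  rw [e2] at s7 s8
  refine ssm_ni_node j j0 hj0 B0 B B12 hle hjB π σ σ0 hσj q₀ hq0 V10 V20 V1 V2 h10 h20 h1 h2 hV1
    hV2 _ _ s4 s5 𝔫 hP1𝔫 hP2𝔫 (hthick _ hmax hle10 hle20) s7 s8 ?_
  simp only [map_sub, map_pow, hres_lam, hres_lamq]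
  rw [← hπ']
  exact d9

end Node

end Fermat.Agent.SS
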