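/-
Project SS (S34), cell [M] (model), instance layer (helper8): THE LEGENDRE TOWER.

`E' = lg_E L N' ≤ E = lg_E L (N' q)` (`q` an odd prime, `q ∤ N'`, `O ⊆ L` a DVR of residue
characteristic `q`), `W = ssm_al_WE` the Atkin–Lehner involution of `E` (helper11, [ALE]),
`V₁ =` the Gauss valuation subring of `E`, `R' =` the Gauss ring of `E'`, coordinate `λ`:

* `ssm_gl_data` : `ssm_tw_Data ↥E' R' q V₁ W λ` (hypotheses of the two-valuations lemma [TV-W]);
* `ssm_gl_hyp`  : `ssm_tp_Hyp (π in O[λ]) V₁ (W V₁)` (hypotheses of the two-primes lemma [TP]) from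
  `π` prime on the `λ`-chart of `E'` (S18 at level `N'`; `ssm_ths_lam_prime`).

Prefix `ssm_gl_`.
-/
import Mathlib
import Fermat.Agent.SS.Model.TwoPrimesInst
import Fermat.Agent.SS.Model.ALE

set_option autoImplicit false
set_option linter.unusedSectionVars false
set_option linter.unusedVariables false
set_option linter.style.haveILetI false

noncomputable section

open ModularCurve IntermediateField IsLocalRing
open Fermat.Agent.JT3

namespace Fermat.Agent.SS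

section Legendre

variable {L : Type*} [Field L] [CharZero L] [Algebra L (AlgebraicClosure ℚ)]
  (O : ValuationSubring L) [IsDiscreteValuationRing O] {π : O} (hπ : Irreducible π)
variable (N' q : ℕ) [NeZero N'] [NeZero q] [hq : Fact q.Prime] [CharP (ResidueField O) q]
  (hq2 : ¬ 2 ∣ q) (hqN' : ¬ q ∣ N')

include hq2 in
omit [CharZero L] [Algebra L (AlgebraicClosure ℚ)] [IsDiscreteValuationRing ↥O] [NeZero q] in
/-- `2` is a unit in the residue field (`q` odd). -/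
theorem ssm_gl_two_ne_zero : (2 : ResidueField O) ≠ 0 := by
  intro h
  have h1 : ((2 : ℕ) : ResidueField O) = 0 := by exact_mod_cast h
  rw [CharP.cast_eq_zero_iff (ResidueField O) q] at h1
  have h2 : q = 2 := (Nat.prime_dvd_prime_iff_eq hq.out Nat.prime_two).1 h1
  exact hq2 (by rw [h2])

omit [CharZero L] [Algebra L (AlgebraicClosure ℚ)] [IsDiscreteValuationRing ↥O] [NeZero q]
  [CharP (ResidueField ↥O) q] in
theorem ssm_gl_not_dvd_one : ¬ (q : ℤ) ∣ (1 : ℤ) := by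
  intro h
  have h1 : (q : ℤ) = 1 ∨ (q : ℤ) = -1 := Int.isUnit_iff.mp (isUnit_of_dvd_one h)
  have := hq.out.two_le
  omega

variable (L) in
/-- the Atkin–Lehner involution of `E = lg_E L (N' q)` as a ring automorphism. -/
abbrev ssm_gl_W : ↥(lg_E L (N' * q)) ≃+* ↥(lg_E L (N' * q)) :=
  (ssm_al_WE L N' q hq.out hq2 hqN').toRingEquiv

theorem ssm_gl_W_apply (x : ↥(lg_E L (N' * q))) :
    ssm_gl_W L N' q hq2 hqN' x = ssm_al_WE L N' q hq.out hq2 hqN' x := rfl

/-- `λ` as an element of the Gauss ring of `E' = lg_E L N'`. -/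
abbrev ssm_gl_lam :
    ↥(gq_valSubOf π hπ.ne_zero hπ.maximalIdeal_eq (lg_E L N')
      ((ssm_al_E_le L N' q).trans (ssm_ga_E_le_quotField O (N' * q)))) :=
  ssm_gt_lam O hπ (lg_E L N') (lg_E L (N' * q)) (ssm_al_E_le L N' q)
    (ssm_ga_E_le_quotField O (N' * q)) (hm_lam O) (lg_lamE N') (hm_coeffMap_lam _).symm

/-- **the data of the two-valuations lemma for the Legendre tower.** -/
theorem ssm_gl_data :
    letI := ssm_gi_algebra (ssm_al_E_le L N' q)
    letI := ssm_gi_algebraV (ssm_al_E_le L N' q)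
      (gq_valSubOf π hπ.ne_zero hπ.maximalIdeal_eq (lg_E L N')
        ((ssm_al_E_le L N' q).trans (ssm_ga_E_le_quotField O (N' * q))))
    ssm_tw_Data ↥(lg_E L N')
      ↥(gq_valSubOf π hπ.ne_zero hπ.maximalIdeal_eq (lg_E L N')
        ((ssm_al_E_le L N' q).trans (ssm_ga_E_le_quotField O (N' * q)))) q
      (gq_valSubOf π hπ.ne_zero hπ.maximalIdeal_eq (lg_E L (N' * q))
        (ssm_ga_E_le_quotField O (N' * q)))
      (ssm_gl_W L N' q hq2 hqN') (ssm_gl_lam O hπ N' q) :=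
  ssm_gt_data O hπ q (lg_E L N') (lg_E L (N' * q)) (ssm_al_E_le L N' q)
    (ssm_ga_E_le_quotField O (N' * q)) (ssm_gl_W L N' q hq2 hqN')
    (ssm_al_WE_WE L N' q hq.out hq2 hqN')
    (fun z => ssm_al_coe_WE_of_mem L N' q hq.out hq2 hqN' z.2 _)
    (ssm_al_relfinrank_E L N' q hq.out hq2 hqN') (hm_lam O) (ssm_ga_lam_frobFixed O q) 1
    (ssm_gl_not_dvd_one q) (ssm_ga_lam_coeff_one O (ssm_gl_two_ne_zero O q hq2)) (lg_lamE N')
    (hm_coeffMap_lam _).symm

/-- **the hypotheses of the two-primes lemma for the Legendre tower**, from `π` prime on the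
`λ`-chart at level `N'`. -/
theorem ssm_gl_hyp
    (hprime : Prime (algebraMap ↥O (fc_chart ↥O ({lg_lamE N'} : Set ↥(lg_E L N'))) π)) :
    ssm_tp_Hyp
      (algebraMap ↥O (Algebra.adjoin ↥O ({lg_lamE (N' * q)} : Set ↥(lg_E L (N' * q)))) π)
      (gq_valSubOf π hπ.ne_zero hπ.maximalIdeal_eq (lg_E L (N' * q))
        (ssm_ga_E_le_quotField O (N' * q)))
      ((gq_valSubOf π hπ.ne_zero hπ.maximalIdeal_eq (lg_E L (N' * q))
        (ssm_ga_E_le_quotField O (N' * q))).comap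
          (ssm_gl_W L N' q hq2 hqN' : ↥(lg_E L (N' * q)) →+* ↥(lg_E L (N' * q)))) := by
  haveI := lgf_finite L N'
  haveI : FiniteDimensional
      L⟮IntermediateField.inclusion (ssm_al_E_le L N' q) (lg_lamE N')⟯ ↥(lg_E L (N' * q)) :=
    lgf_finite L (N' * q)
  exact ssm_gt_hyp O hπ q (lg_E L N') (lg_E L (N' * q)) (ssm_al_E_le L N' q)
    (ssm_ga_E_le_quotField O (N' * q)) (ssm_gl_W L N' q hq2 hqN')
    (ssm_al_WE_WE L N' q hq.out hq2 hqN')
    (fun z => ssm_al_coe_WE_of_mem L N' q hq.out hq2 hqN' z.2 _)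
    (ssm_al_relfinrank_E L N' q hq.out hq2 hqN') (hm_lam O) (ssm_ga_lam_frobFixed O q) 1
    (ssm_gl_not_dvd_one q) (ssm_ga_lam_coeff_one O (ssm_gl_two_ne_zero O q hq2)) (lg_lamE N')
    (hm_coeffMap_lam _).symm hprime

/-- the two Gauss valuation subrings of `E = lg_E L (N' q)`. -/
abbrev ssm_gl_V1 : ValuationSubring ↥(lg_E L (N' * q)) :=
  gq_valSubOf π hπ.ne_zero hπ.maximalIdeal_eq (lg_E L (N' * q)) (ssm_ga_E_le_quotField O (N' * q))

abbrev ssm_gl_V2 : ValuationSubring ↥(lg_E L (N' * q)) :=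
  (ssm_gl_V1 O hπ N' q).comap
    (ssm_gl_W L N' q hq2 hqN' : ↥(lg_E L (N' * q)) →+* ↥(lg_E L (N' * q)))

set_option synthInstance.maxHeartbeats 200000 in
/-- **[TP], model form, for the Legendre tower**: the fields `prime1 prime2 hrad h12 h21` of
`ss_Model` on the overlap chart with `P_i := ssm_tp_P B₁₂ V_i`, and the dictionary with the
semistable F-core (`ssm_tp_ff_model` applied to `ssm_gl_hyp`). -/
theorem ssm_gl_model
    (hprime : Prime (algebraMap ↥O (fc_chart ↥O ({lg_lamE N'} : Set ↥(lg_E L N'))) π)) :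
    (ssm_tp_P (fc_chart ↥O ({lg_lamE (N' * q), (lg_lamE (N' * q))⁻¹} : Set ↥(lg_E L (N' * q))))
      (ssm_gl_V1 O hπ N' q)).IsPrime ∧
    (ssm_tp_P (fc_chart ↥O ({lg_lamE (N' * q), (lg_lamE (N' * q))⁻¹} : Set ↥(lg_E L (N' * q))))
      (ssm_gl_V2 O hπ N' q hq2 hqN')).IsPrime ∧
    Ideal.span {algebraMap ↥O
        (fc_chart ↥O ({lg_lamE (N' * q), (lg_lamE (N' * q))⁻¹} : Set ↥(lg_E L (N' * q)))) π} =
      ssm_tp_P (fc_chart ↥O ({lg_lamE (N' * q), (lg_lamE (N' * q))⁻¹} : Set ↥(lg_E L (N' * q))))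
          (ssm_gl_V1 O hπ N' q) ⊓
        ssm_tp_P (fc_chart ↥O ({lg_lamE (N' * q), (lg_lamE (N' * q))⁻¹} : Set ↥(lg_E L (N' * q))))
          (ssm_gl_V2 O hπ N' q hq2 hqN') ∧
    ¬ ssm_tp_P (fc_chart ↥O ({lg_lamE (N' * q), (lg_lamE (N' * q))⁻¹} : Set ↥(lg_E L (N' * q))))
          (ssm_gl_V1 O hπ N' q) ≤
        ssm_tp_P (fc_chart ↥O ({lg_lamE (N' * q), (lg_lamE (N' * q))⁻¹} : Set ↥(lg_E L (N' * q))))
          (ssm_gl_V2 O hπ N' q hq2 hqN') ∧
    ¬ ssm_tp_P (fc_chart ↥O ({lg_lamE (N' * q), (lg_lamE (N' * q))⁻¹} : Set ↥(lg_E L (N' * q))))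
          (ssm_gl_V2 O hπ N' q hq2 hqN') ≤
        ssm_tp_P (fc_chart ↥O ({lg_lamE (N' * q), (lg_lamE (N' * q))⁻¹} : Set ↥(lg_E L (N' * q))))
          (ssm_gl_V1 O hπ N' q) := by
  haveI := ssm_go_isScalarTower O (lg_E L (N' * q))
  have hx : Transcendental L (lg_lamE (L := L) (N' * q)) :=
    lgf_lam_transcendental L (N' * q) two_ne_zero
  obtain ⟨h1, h2, h3, h4, h5, -⟩ :=
    ssm_tp_ff_model (L := L) hπ hx (ssm_gl_hyp O hπ N' q hq2 hqN' hprime)
  exact ⟨h1, h2, h3, h4, h5⟩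

end Legendre

end Fermat.Agent.SS
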