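/-
SS [M] leaf [UB]: THE UNRAMIFIED BASE.

`L` a field of characteristic zero, `O` a valuation subring of `L` with `q ∈ 𝔪_O` (`q` prime),
`ζ ∈ L` a primitive `N'`-th root of unity, `q ∤ N'`; `L0 := ℚ(ζ) ⊆ L`, `O0 := O ∩ L0`. Then
* (i)  `O0` is a discrete valuation ring with uniformiser `q` (`q` is unramified in `ℚ(ζ_{N'})`);
* (ii) every automorphism `σ` of `L` preserving `O` and acting trivially on its residue field
       (`ss_Inert O σ` of SS/CoreSeam.lean, stated inline here to keep the imports light)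
       fixes `L0` pointwise.
-/
import Mathlib
import Fermat.Agent.JT3.PlaceMap.BaseField

set_option autoImplicit false
set_option linter.unusedSectionVars false
set_option linter.style.haveILetI false

noncomputable section

namespace Fermat.Agent.SS

open Fermat.Agent.JT3 IsDedekindDomain NumberField WithZero

/-! ### (i) `q` is a uniformiser of every valuation subring of `ℚ(ζ_M)` over `q ∤ M` -/

section Cyclo

/-- **Number field level** (`ebf_cyclo_unit_mul_pow` for an arbitrary valuation subring): in a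
cyclotomic field `L1 = ℚ(ζ_M)` with `ℓ ∤ M`, for a valuation subring `V1` with `ℓ ∈ 𝔪_{V1}`, every
nonzero element is `ℓ ^ (-n)` times a unit of `V1`. -/
theorem ssm_ub_cyclo_unit_mul_pow (ℓ : ℕ) [hℓ : Fact ℓ.Prime] (M : ℕ) [NeZero M] (hM : ¬ ℓ ∣ M)
    (L1 : Type*) [Field L1] [NumberField L1] [IsCyclotomicExtension {M} ℚ L1]
    (V1 : ValuationSubring L1) (hℓV1 : (ℓ : L1) ∈ V1.nonunits) (x : L1) (hx : x ≠ 0) :
    ∃ n : ℤ, x * (ℓ : L1) ^ n ∈ V1 ∧ (x * (ℓ : L1) ^ n)⁻¹ ∈ V1 := by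
  classical
  have hℓ0 : ℓ ≠ 0 := hℓ.out.ne_zero
  have hV1top : V1 ≠ ⊤ :=
    dsc_ne_top_of_mem_nonunits V1 hℓV1 (by exact_mod_cast hℓ0)
  have hint : ∀ r : 𝓞 L1, algebraMap (𝓞 L1) L1 r ∈ V1 := fun r =>
    dsc_mem_of_isIntegral_of_le V1 (O := ℤ) (fun n => by
      rw [eq_intCast]; exact intCast_mem V1 n) r.2
  obtain ⟨w, hw⟩ := dsc_exists_eq_valuationSubring (𝓞 L1) L1 V1 hint hV1top
  -- the prime `(ℓ)` of `ℤ`
  have hℓprime : Prime (ℓ : ℤ) := Nat.prime_iff_prime_int.mp hℓ.out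
  let v : HeightOneSpectrum ℤ :=
    ⟨Ideal.span {(ℓ : ℤ)}, (Ideal.span_singleton_prime hℓprime.ne_zero).mpr hℓprime, by
      rw [Ne, Ideal.span_singleton_eq_bot]; exact hℓprime.ne_zero⟩
  -- `ℓ ∈ w`
  have hℓw : ((ℓ : ℤ) : 𝓞 L1) ∈ w.asIdeal := by
    rw [← HeightOneSpectrum.valuation_lt_one_iff_mem (K := L1)]
    have h1 : (ℓ : L1) ∈ (w.valuation L1).valuationSubring.nonunits := by rw [hw]; exact hℓV1
    rw [ValuationSubring.mem_nonunits_iff_or] at h1
    have hℓL : (ℓ : L1) ≠ 0 := by exact_mod_cast hℓ0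
    rcases h1 with h1 | h1
    · exact absurd h1 hℓL
    · rw [Valuation.mem_valuationSubring_iff, map_inv₀, not_le] at h1
      have h2 : w.valuation L1 (ℓ : L1) < 1 := by
        have hne : w.valuation L1 (ℓ : L1) ≠ 0 := (Valuation.ne_zero_iff _).mpr hℓL
        by_contra hcon
        rw [not_lt] at hcon
        exact absurd h1 (not_lt.mpr (inv_le_one_of_one_le₀ hcon))
      have h3 : ((ℓ : ℤ) : 𝓞 L1) = ((ℓ : ℕ) : 𝓞 L1) := by push_cast; rfl
      rw [h3]
      simpa using h2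
  have hunder : v.asIdeal = w.asIdeal.under ℤ := by
    have hmax : v.asIdeal.IsMaximal := v.isMaximal
    refine hmax.eq_of_le ?_ ?_
    · exact (Ideal.IsPrime.under ℤ w.asIdeal).ne_top
    · show Ideal.span {(ℓ : ℤ)} ≤ _
      rw [Ideal.span_singleton_le_iff_mem, Ideal.under_def, Ideal.mem_comap]
      simpa using hℓw
  have hLO : w.asIdeal.LiesOver v.asIdeal := ⟨hunder⟩
  have hLO' : w.asIdeal.LiesOver (Ideal.span {(ℓ : ℤ)}) := hLO
  have he : v.asIdeal.ramificationIdx' w.asIdeal = 1 := by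
    rw [Ideal.ramificationIdx'_eq_ramificationIdx v.asIdeal w.asIdeal v.ne_bot]
    exact IsCyclotomicExtension.Rat.ramificationIdx_eq_of_not_dvd (m := M) ℓ L1 w.asIdeal hM
  have hvalℓ : w.valuation L1 (ℓ : L1) = exp (-1 : ℤ) := by
    have h1 := HeightOneSpectrum.valuation_liesOver L1 v w ((ℓ : ℤ) : ℚ)
    rw [he, pow_one] at h1
    have h2 : v.valuation ℚ ((ℓ : ℤ) : ℚ) = exp (-1 : ℤ) := by
      have : ((ℓ : ℤ) : ℚ) = algebraMap ℤ ℚ (ℓ : ℤ) := rfl
      rw [this, HeightOneSpectrum.valuation_of_algebraMap]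
      exact HeightOneSpectrum.intValuation_singleton v hℓprime.ne_zero rfl
    rw [h2] at h1
    rw [h1]
    congr 1
    simp
  -- the valuation of `x`
  have hγ : w.valuation L1 x ≠ 0 := (Valuation.ne_zero_iff _).mpr hx
  set n : ℤ := log (w.valuation L1 x) with hn
  have hxn : w.valuation L1 x = exp n := (exp_log hγ).symm
  have hy : w.valuation L1 (x * (ℓ : L1) ^ n) = 1 := by
    rw [map_mul, map_zpow₀, hvalℓ, hxn, ← exp_zsmul, ← exp_add]
    simp
  have hy1 : x * (ℓ : L1) ^ n ∈ V1 := by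
    rw [← hw, Valuation.mem_valuationSubring_iff, hy]
  have hy2 : (x * (ℓ : L1) ^ n)⁻¹ ∈ V1 := by
    rw [← hw, Valuation.mem_valuationSubring_iff, map_inv₀, hy, inv_one]
  exact ⟨n, hy1, hy2⟩

/-- In a cyclotomic field `ℚ(ζ_M)`, `ℓ ∤ M`, every valuation subring with `ℓ ∈ 𝔪` is a discrete
valuation ring with uniformiser `ℓ`. -/
theorem ssm_ub_cyclo_dvr (ℓ : ℕ) [hℓ : Fact ℓ.Prime] (M : ℕ) [NeZero M] (hM : ¬ ℓ ∣ M)
    (L1 : Type*) [Field L1] [NumberField L1] [IsCyclotomicExtension {M} ℚ L1]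
    (V1 : ValuationSubring L1) (hℓV1 : (ℓ : L1) ∈ V1.nonunits) :
    IsDiscreteValuationRing V1 ∧ Irreducible (⟨(ℓ : L1), V1.nonunits_le hℓV1⟩ : V1) :=
  ebf_isDVR_and_irreducible V1 (ℓ : L1) hℓV1 (by exact_mod_cast hℓ.out.ne_zero)
    (fun x hx => ssm_ub_cyclo_unit_mul_pow ℓ M hM L1 V1 hℓV1 x hx)

end Cyclo

/-! ### the base `(L0, O0)` inside `(L, O)` -/

section Base

variable {L : Type*} [Field L] [CharZero L] (O : ValuationSubring L)

theorem ssm_ub_isIntegral {N' : ℕ} [NeZero N'] {ζ : L} (hζ : IsPrimitiveRoot ζ N') :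
    IsIntegral ℚ ζ :=
  (hζ.isIntegral (NeZero.pos N')).tower_top

/-- `ℚ(ζ) ⊆ L` is a number field. -/
theorem ssm_ub_numberField {N' : ℕ} [NeZero N'] {ζ : L} (hζ : IsPrimitiveRoot ζ N') :
    NumberField ↥(IntermediateField.adjoin ℚ {ζ}) :=
  { to_charZero := inferInstance
    to_finiteDimensional := IntermediateField.adjoin.finiteDimensional (ssm_ub_isIntegral hζ) }

/-- `ℚ(ζ) ⊆ L` is the `N'`-th cyclotomic field. -/
theorem ssm_ub_isCyclotomicExtension {N' : ℕ} [NeZero N'] {ζ : L} (hζ : IsPrimitiveRoot ζ N') :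
    IsCyclotomicExtension {N'} ℚ ↥(IntermediateField.adjoin ℚ {ζ}) := by
  change IsCyclotomicExtension {N'} ℚ (IntermediateField.adjoin ℚ {ζ}).toSubalgebra
  rw [IntermediateField.adjoin_simple_toSubalgebra_of_isAlgebraic (ssm_ub_isIntegral hζ).isAlgebraic]
  exact hζ.adjoin_isCyclotomicExtension ℚ

/-- **[UB] (i)**: `O0 = O ∩ ℚ(ζ)` is a discrete valuation ring and `q` is a uniformiser of it. -/
theorem ssm_ub_dvr (q N' : ℕ) [hq : Fact q.Prime] [NeZero N'] (hqO : (q : L) ∈ O.nonunits)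
    (hqN : ¬ q ∣ N') (ζ : L) (hζ : IsPrimitiveRoot ζ N') :
    IsDiscreteValuationRing ↥(O.comap (algebraMap ↥(IntermediateField.adjoin ℚ {ζ}) L)) ∧
      Irreducible (((q : ℕ) : ↥(O.comap (algebraMap ↥(IntermediateField.adjoin ℚ {ζ}) L)))) := by
  haveI := ssm_ub_numberField hζ
  haveI := ssm_ub_isCyclotomicExtension hζ
  have hq0 : ((q : ℕ) : ↥(IntermediateField.adjoin ℚ {ζ})) ∈
      (O.comap (algebraMap ↥(IntermediateField.adjoin ℚ {ζ}) L)).nonunits := by
    rw [dsc_mem_comap_nonunits_iff, map_natCast]; exact hqO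
  obtain ⟨h1, h2⟩ := ssm_ub_cyclo_dvr q N' hqN ↥(IntermediateField.adjoin ℚ {ζ})
    (O.comap (algebraMap ↥(IntermediateField.adjoin ℚ {ζ}) L)) hq0
  refine ⟨h1, ?_⟩
  have e : ((q : ℕ) : ↥(O.comap (algebraMap ↥(IntermediateField.adjoin ℚ {ζ}) L))) =
      ⟨((q : ℕ) : ↥(IntermediateField.adjoin ℚ {ζ})),
        (O.comap (algebraMap ↥(IntermediateField.adjoin ℚ {ζ}) L)).nonunits_le hq0⟩ :=
    Subtype.ext (by simp)
  rw [e]
  exact h2

theorem ssm_ub_isDVR (q N' : ℕ) [Fact q.Prime] [NeZero N'] (hqO : (q : L) ∈ O.nonunits)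
    (hqN : ¬ q ∣ N') (ζ : L) (hζ : IsPrimitiveRoot ζ N') :
    IsDiscreteValuationRing ↥(O.comap (algebraMap ↥(IntermediateField.adjoin ℚ {ζ}) L)) :=
  (ssm_ub_dvr O q N' hqO hqN ζ hζ).1

theorem ssm_ub_irreducible (q N' : ℕ) [Fact q.Prime] [NeZero N'] (hqO : (q : L) ∈ O.nonunits)
    (hqN : ¬ q ∣ N') (ζ : L) (hζ : IsPrimitiveRoot ζ N') :
    Irreducible (((q : ℕ) : ↥(O.comap (algebraMap ↥(IntermediateField.adjoin ℚ {ζ}) L)))) :=
  (ssm_ub_dvr O q N' hqO hqN ζ hζ).2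

/-! ### (ii) inert automorphisms fix the roots of unity of order prime to `q` -/

/-- integers prime to `q` are units of `O` -/
theorem ssm_ub_not_lt_one (q N' : ℕ) [hq : Fact q.Prime] (hqO : (q : L) ∈ O.nonunits)
    (hqN : ¬ q ∣ N') : ¬ O.valuation ((N' : ℕ) : L) < 1 := by
  intro hlt
  have hcop : Nat.Coprime q N' := (Nat.Prime.coprime_iff_not_dvd hq.out).2 hqN
  obtain ⟨a, b, hab⟩ := Nat.isCoprime_iff_coprime.mpr hcop
  have h1 : (1 : L) = (a : L) * ((q : ℕ) : L) + (b : L) * ((N' : ℕ) : L) := by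
    have := congrArg (Int.cast : ℤ → L) hab
    push_cast at this
    exact this.symm
  have hva : O.valuation (a : L) ≤ 1 := (O.valuation_le_one_iff _).2 (intCast_mem O a)
  have hvb : O.valuation (b : L) ≤ 1 := (O.valuation_le_one_iff _).2 (intCast_mem O b)
  have hvq : O.valuation ((q : ℕ) : L) < 1 := O.mem_nonunits_iff.mp hqO
  have h2 : O.valuation ((a : L) * ((q : ℕ) : L) + (b : L) * ((N' : ℕ) : L)) < 1 := by
    refine Valuation.map_add_lt _ ?_ ?_
    · rw [map_mul]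
      exact lt_of_le_of_lt (mul_le_of_le_one_left' hva) hvq
    · rw [map_mul]
      exact lt_of_le_of_lt (mul_le_of_le_one_left' hvb) hlt
  rw [← h1, map_one] at h2
  exact lt_irrefl _ h2

/-- **[UB] (ii), the generator**: an automorphism `σ` of `L` which preserves `O` and acts trivially
on its residue field fixes every root of unity of order prime to the residue characteristic. -/
theorem ssm_ub_fixed_root (q N' : ℕ) [hq : Fact q.Prime] [NeZero N'] (hqO : (q : L) ∈ O.nonunits)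
    (hqN : ¬ q ∣ N') (ζ : L) (hζ : ζ ^ N' = 1) (σ : L ≃+* L)
    (hσ : ∀ x ∈ O, σ x - x ∈ O.nonunits) : σ ζ = ζ := by
  have hN0 : N' ≠ 0 := NeZero.ne N'
  set v := O.valuation with hv
  have hζ0 : ζ ≠ 0 := fun h0 => by rw [h0, zero_pow hN0] at hζ; exact zero_ne_one hζ
  -- roots of unity have valuation one
  have hroot : ∀ η : L, η ^ N' = 1 → v η = 1 := by
    intro η hη
    have h1 : v η ^ N' = 1 := by rw [← map_pow, hη, map_one]
    rcases lt_trichotomy (v η) 1 with h | h | h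
    · exact absurd h1 (pow_lt_one₀ zero_le h hN0).ne
    · exact h
    · exact absurd h1 (one_lt_pow₀ h hN0).ne'
  have hvζ : v ζ = 1 := hroot ζ hζ
  have hζO : ζ ∈ O := (O.valuation_le_one_iff ζ).1 hvζ.le
  set ξ : L := σ ζ * ζ⁻¹ with hξ
  have hξN : ξ ^ N' = 1 := by
    rw [hξ, mul_pow, ← map_pow, inv_pow, hζ, map_one, inv_one, mul_one]
  have hvξ : v ξ = 1 := hroot ξ hξN
  have hξ1 : v (ξ - 1) < 1 := by
    have e : ξ - 1 = (σ ζ - ζ) * ζ⁻¹ := by
      rw [hξ, sub_mul, mul_inv_cancel₀ hζ0]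
    rw [e, map_mul, map_inv₀, hvζ, inv_one, mul_one]
    exact O.mem_nonunits_iff.mp (hσ ζ hζO)
  -- all `ξ ^ i - 1` are nonunits
  have hpow : ∀ i : ℕ, v (ξ ^ i - 1) < 1 := by
    intro i
    induction i with
    | zero => rw [pow_zero, sub_self, map_zero]; exact zero_lt_one
    | succ i ih =>
      have e : ξ ^ (i + 1) - 1 = ξ ^ i * (ξ - 1) + (ξ ^ i - 1) := by ring
      rw [e]
      refine Valuation.map_add_lt _ ?_ ih
      rw [map_mul, map_pow, hvξ, one_pow, one_mul]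
      exact hξ1
  -- the order of `ξ`
  have hfin : IsOfFinOrder ξ := isOfFinOrder_iff_pow_eq_one.2 ⟨N', Nat.pos_of_ne_zero hN0, hξN⟩
  have hd : orderOf ξ ∣ N' := orderOf_dvd_of_pow_eq_one hξN
  have hprim : IsPrimitiveRoot ξ (orderOf ξ) := IsPrimitiveRoot.orderOf ξ
  by_cases hd1 : orderOf ξ = 1
  · have h1 : ξ = 1 := orderOf_eq_one_iff.1 hd1
    rw [hξ] at h1
    have := congrArg (· * ζ) h1
    simp only [one_mul] at this
    rwa [mul_assoc, inv_mul_cancel₀ hζ0, mul_one] at this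
  · exfalso
    have hdpos : 0 < orderOf ξ := hfin.orderOf_pos
    have hd2 : 1 < orderOf ξ := by omega
    have hgeom := hprim.geom_sum_eq_zero hd2
    have hsum : ((orderOf ξ : ℕ) : L) = - ∑ i ∈ Finset.range (orderOf ξ), (ξ ^ i - 1) := by
      rw [Finset.sum_sub_distrib, hgeom, Finset.sum_const, Finset.card_range, nsmul_eq_mul,
        mul_one, zero_sub, neg_neg]
    have hvd : v ((orderOf ξ : ℕ) : L) < 1 := by
      rw [hsum, Valuation.map_neg]
      exact Valuation.map_sum_lt _ one_ne_zero fun i _ => hpow i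
    obtain ⟨e, he⟩ := hd
    apply ssm_ub_not_lt_one O q N' hqO hqN
    have hcast : ((N' : ℕ) : L) = ((orderOf ξ : ℕ) : L) * ((e : ℕ) : L) := by
      rw [he]; push_cast; ring
    rw [hcast, map_mul]
    have hve : O.valuation ((e : ℕ) : L) ≤ 1 := (O.valuation_le_one_iff _).2 (natCast_mem O e)
    exact lt_of_le_of_lt (mul_le_of_le_one_right' hve) hvd

/-- **[UB] (ii)**: an automorphism `σ` of `L` which preserves `O` and acts trivially on its residue
field (`ss_Inert O σ`; only the `σ`-half is used) fixes `L0 = ℚ(ζ)` pointwise. -/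
theorem ssm_ub_fixed (q N' : ℕ) [Fact q.Prime] [NeZero N'] (hqO : (q : L) ∈ O.nonunits)
    (hqN : ¬ q ∣ N') (ζ : L) (hζ : IsPrimitiveRoot ζ N') (σ : L ≃+* L)
    (hσ : ∀ x ∈ O, σ x - x ∈ O.nonunits ∧ σ.symm x - x ∈ O.nonunits) :
    ∀ x ∈ IntermediateField.adjoin ℚ {ζ}, σ x = x := by
  have hζfix : σ ζ = ζ :=
    ssm_ub_fixed_root O q N' hqO hqN ζ hζ.pow_eq_one σ fun x hx => (hσ x hx).1
  intro x hx
  induction hx using IntermediateField.adjoin_induction with
  | mem y hy => rw [Set.mem_singleton_iff.1 hy]; exact hζfix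
  | algebraMap r => rw [eq_ratCast, map_ratCast]
  | add y z _ _ hy hz => rw [map_add, hy, hz]
  | inv y _ hy => rw [map_inv₀, hy]
  | mul y z _ _ hy hz => rw [map_mul, hy, hz]

/-! ### the hypothesis `q ∈ 𝔪_O` in subtype form -/

theorem ssm_ub_mem_nonunits {q : ℕ} (hq : ((q : ℕ) : O) ∈ IsLocalRing.maximalIdeal O) :
    ((q : ℕ) : L) ∈ O.nonunits := by
  rw [ValuationSubring.mem_nonunits_iff_exists_mem_maximalIdeal]
  exact ⟨natCast_mem O q, by
    have e : (⟨((q : ℕ) : L), natCast_mem O q⟩ : O) = ((q : ℕ) : O) := Subtype.ext (by simp)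
    rw [e]; exact hq⟩

/-- `ζ ∈ L0`. -/
theorem ssm_ub_zeta_mem (ζ : L) : ζ ∈ IntermediateField.adjoin ℚ {ζ} :=
  IntermediateField.mem_adjoin_simple_self ℚ ζ

/-- the inclusion `O0 → O` is local: `x ∈ 𝔪_{O0} ↔ x ∈ 𝔪_O`. -/
theorem ssm_ub_nonunits_iff (ζ : L) (x : ↥(IntermediateField.adjoin ℚ {ζ})) :
    x ∈ (O.comap (algebraMap ↥(IntermediateField.adjoin ℚ {ζ}) L)).nonunits ↔
      (x : L) ∈ O.nonunits :=
  dsc_mem_comap_nonunits_iff O ↥(IntermediateField.adjoin ℚ {ζ}) x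

end Base

end Fermat.Agent.SS
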