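/-
SS [M], leaf [ND], part 3: THE NODE CLAUSE FOR THE LEGENDRE TOWER.

* `ssm_nl_cross_gt` : the crossing package (`ssm_nx_Cross`) for a tower `E' ≤ E` of fields of
  Laurent series over `L` with the Gauss valuations (the context of `ssm_gt_hyp`);
* `ssm_nl_cross`    : the package for the Legendre tower `lg_E L N' ≤ lg_E L (N' q)` over an
  arbitrary base `(L, O, π)`;
* `ssm_nl_node`     : `hnode` of `ssm_asm_model`.

Prefix `ssm_nl_`.
-/
import Mathlib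
import Fermat.Agent.SS.Model.NodeCross
import Fermat.Agent.SS.Model.TwoPrimesLeg
import Fermat.Agent.SS.Model.BaseChangeLeg
import Fermat.Agent.SS.Model.UnramBase

set_option autoImplicit false
set_option linter.unusedSectionVars false
set_option linter.unusedVariables false
set_option linter.style.haveILetI false

noncomputable section

open ModularCurve IntermediateField IsLocalRing Polynomial
open Fermat.Agent.JT3

namespace Fermat.Agent.SS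

section Composite

variable {L : Type*} [Field L] [CharZero L] (O : ValuationSubring L)
  [IsDiscreteValuationRing O] {π : O} (hπ : Irreducible π)
variable (q : ℕ) [NeZero q] [hq : Fact q.Prime] [CharP (ResidueField O) q]
variable (E' E : IntermediateField L (LaurentSeries L)) (hle : E' ≤ E)
  (hE : E ≤ gq_quotField O L)

set_option synthInstance.maxHeartbeats 200000 in
set_option maxHeartbeats 1600000 in
/-- **the crossing package for a tower of Laurent-series fields** with the Gauss valuation `V₁`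
and `V₂ = W(V₁)` (context and first hypotheses = those of `ssm_gt_hyp`). -/
theorem ssm_nl_cross_gt (W : ↥E ≃+* ↥E) (hWW : ∀ x, W (W x) = x)
    (hW : ∀ z : ↥E', ((W (IntermediateField.inclusion hle z) : ↥E) : LaurentSeries L) =
      qExpand L q (z : LaurentSeries L))
    (hrank : IntermediateField.relfinrank E' E = q + 1)
    (y : LaurentSeries O) (hyF : ssm_ga_FrobFixed q y) (n : ℤ) (hn : ¬ (q : ℤ) ∣ n)
    (hyn : residue O (y.coeff n) ≠ 0) (lam' : ↥E')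
    (hlam : (lam' : LaurentSeries L) = coeffMap (algebraMap O L) y)
    [FiniteDimensional L⟮lam'⟯ ↥E']
    [FiniteDimensional L⟮IntermediateField.inclusion hle lam'⟯ ↥E]
    (hprime : Prime (algebraMap ↥O (fc_chart ↥O ({lam'} : Set ↥E')) π))
    (hic : IsIntegrallyClosed (fc_chart ↥O ({lam'} : Set ↥E') ⧸
      (Ideal.span {algebraMap ↥O (fc_chart ↥O ({lam'} : Set ↥E')) π} :
        Ideal (fc_chart ↥O ({lam'} : Set ↥E')))))
    (hWB : ∀ b ∈ fc_chart ↥O ({IntermediateField.inclusion hle lam'} : Set ↥E),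
      W b ∈ fc_chart ↥O ({IntermediateField.inclusion hle lam'} : Set ↥E))
    (hlamq : W (IntermediateField.inclusion hle lam') ∈
      fc_chart ↥O ({IntermediateField.inclusion hle lam'} : Set ↥E))
    (c : ℤ[X]) (hc : c.Monic)
    (hw0 : IntermediateField.inclusion hle lam' ^ q / W (IntermediateField.inclusion hle lam') ∈
      fc_chart ↥O ({IntermediateField.inclusion hle lam'} : Set ↥E))
    (hw0' : W (IntermediateField.inclusion hle lam') ^ q / IntermediateField.inclusion hle lam' ∈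
      fc_chart ↥O ({IntermediateField.inclusion hle lam'} : Set ↥E))
    (hw1 : aeval (IntermediateField.inclusion hle lam') c ^ q /
        aeval (W (IntermediateField.inclusion hle lam')) c ∈
      fc_chart ↥O ({IntermediateField.inclusion hle lam'} : Set ↥E))
    (hw1' : aeval (W (IntermediateField.inclusion hle lam')) c ^ q /
        aeval (IntermediateField.inclusion hle lam') c ∈
      fc_chart ↥O ({IntermediateField.inclusion hle lam'} : Set ↥E))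
    (hEC : ∀ 𝔫' : Ideal (fc_chart ↥O ({lam'} : Set ↥E')), 𝔫'.IsMaximal →
      algebraMap ↥O (fc_chart ↥O ({lam'} : Set ↥E')) π ∈ 𝔫' →
      (⟨lam', fc_x_mem_chart lam'⟩ : fc_chart ↥O ({lam'} : Set ↥E')) ∉ 𝔫' →
      aeval (⟨lam', fc_x_mem_chart lam'⟩ : fc_chart ↥O ({lam'} : Set ↥E')) c ∉ 𝔫' →
      (⟨lam', fc_x_mem_chart lam'⟩ : fc_chart ↥O ({lam'} : Set ↥E')) ^ (q ^ 2) -
        ⟨lam', fc_x_mem_chart lam'⟩ ∈ 𝔫' →
      tq_GenBy (algebraMap ↥O (fc_chart ↥O ({lam'} : Set ↥E')) π)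
        ((⟨lam', fc_x_mem_chart lam'⟩ : fc_chart ↥O ({lam'} : Set ↥E')) ^ (q ^ 2) -
          ⟨lam', fc_x_mem_chart lam'⟩) 𝔫') :
    letI := ssm_gi_algebra hle
    haveI := ssm_gt_isScalarTower O hle
    ssm_nx_Cross (fc_chart ↥O ({lam'} : Set ↥E'))
      (fc_chart ↥O ({IntermediateField.inclusion hle lam'} : Set ↥E))
      (ssm_cpi_phi ↥O ↥E lam') (algebraMap ↥O (fc_chart ↥O ({lam'} : Set ↥E')) π) q
      (ssm_tp_P (fc_chart ↥O ({IntermediateField.inclusion hle lam'} : Set ↥E))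
        (gq_valSubOf π hπ.ne_zero hπ.maximalIdeal_eq E hE))
      (ssm_tp_P (fc_chart ↥O ({IntermediateField.inclusion hle lam'} : Set ↥E))
        ((gq_valSubOf π hπ.ne_zero hπ.maximalIdeal_eq E hE).comap (W : ↥E →+* ↥E)))
      ⟨lam', fc_x_mem_chart lam'⟩
      ⟨W (IntermediateField.inclusion hle lam'), hlamq⟩ c := by
  letI := ssm_gi_algebra hle
  letI := ssm_gi_algebraV hle (gq_valSubOf π hπ.ne_zero hπ.maximalIdeal_eq E' (hle.trans hE))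
  haveI := ssm_gi_isScalarTower hle
    (gq_valSubOf π hπ.ne_zero hπ.maximalIdeal_eq E' (hle.trans hE))
  have hfr : Module.finrank ↥E' ↥E = q + 1 := (ssm_gt_finrank_eq hle).trans hrank
  haveI : FiniteDimensional ↥E' ↥E := ssm_gi_finiteDimensional hfr
  haveI : Algebra.IsSeparable ↥E' ↥E := ssm_gi_isSeparable
  haveI := ssm_go_isScalarTower O E
  haveI := ssm_go_isScalarTower O E'
  haveI := ssm_gt_isScalarTower O hle
  have hn0 : n ≠ 0 := by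
    rintro rfl
    exact hn (dvd_zero _)
  have D := ssm_gt_data O hπ q E' E hle hE W hWW hW hrank y hyF n hn hyn lam' hlam
  have hx : Transcendental L lam' := ssm_go_transcendental O E' y lam' hlam hn0 hyn
  have hxE : Transcendental L (algebraMap ↥E' ↥E lam') :=
    ssm_go_transcendental O E y (IntermediateField.inclusion hle lam') hlam hn0 hyn
  have H := ssm_gt_hyp O hπ q E' E hle hE W hWW hW hrank y hyF n hn hyn lam' hlam hprime
  exact ssm_nx_cross_ff (L := L) (y := lam') D hπ rfl hx hxE hprime hic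
    (gq_valSubOf π hπ.ne_zero hπ.maximalIdeal_eq E' (hle.trans hE))
    (fun z => (ssm_gi_mem_range _ z).symm)
    (ssm_go_over O E' y lam' hlam hπ (hle.trans hE) hn0 hyn) H hWB c hc hw0 hw0' hw1 hw1' hEC

end Composite

/-! ### the Legendre tower -/

section Legendre

variable {L : Type*} [Field L] [CharZero L] [Algebra L (AlgebraicClosure ℚ)]
  (O : ValuationSubring L) [IsDiscreteValuationRing O] {π : O} (hπ : Irreducible π)
variable (N' q : ℕ) [NeZero N'] [NeZero q] [hq : Fact q.Prime] [CharP (ResidueField O) q]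
  (hq2 : ¬ 2 ∣ q) (hqN' : ¬ q ∣ N')

set_option synthInstance.maxHeartbeats 200000 in
set_option maxHeartbeats 1600000 in
/-- **the crossing package of the Legendre tower** `lg_E L N' ≤ lg_E L (N' q)` over an arbitrary
base `(L, O, π)` of residue characteristic `q`: inputs = S18 at level `N'` (`hprime`, `hic`), [I1]
(`F`) and [EC] (`hEC`, in the shape of `ssm_ll_EC`). -/
theorem ssm_nl_cross
    (hprime : Prime (algebraMap ↥O (fc_chart ↥O ({lg_lamE N'} : Set ↥(lg_E L N'))) π))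
    (hic : IsIntegrallyClosed (fc_chart ↥O ({lg_lamE N'} : Set ↥(lg_E L N')) ⧸
      (Ideal.span {algebraMap ↥O (fc_chart ↥O ({lg_lamE N'} : Set ↥(lg_E L N'))) π} :
        Ideal (fc_chart ↥O ({lg_lamE N'} : Set ↥(lg_E L N'))))))
    (F : ssm_i1_Facts ↥O q (lg_lamE (N' * q) : ↥(lg_E L (N' * q)))
      (ssm_gl_W L N' q hq2 hqN' (lg_lamE (N' * q))) (ssm_gl_V1 O hπ N' q)
      (ssm_gl_V2 O hπ N' q hq2 hqN'))
    (hEC : ∀ 𝔫' : Ideal (fc_chart ↥O ({lg_lamE N'} : Set ↥(lg_E L N'))), 𝔫'.IsMaximal →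
      algebraMap ↥O (fc_chart ↥O ({lg_lamE N'} : Set ↥(lg_E L N'))) π ∈ 𝔫' →
      (⟨lg_lamE N', fc_x_mem_chart _⟩ : fc_chart ↥O ({lg_lamE N'} : Set ↥(lg_E L N'))) ∉ 𝔫' →
      (⟨lg_lamE N', fc_x_mem_chart _⟩ : fc_chart ↥O ({lg_lamE N'} : Set ↥(lg_E L N'))) - 1 ∉ 𝔫' →
      (⟨lg_lamE N', fc_x_mem_chart _⟩ : fc_chart ↥O ({lg_lamE N'} : Set ↥(lg_E L N'))) ^ (q ^ 2) -
        ⟨lg_lamE N', fc_x_mem_chart _⟩ ∈ 𝔫' →
      tq_GenBy (algebraMap ↥O (fc_chart ↥O ({lg_lamE N'} : Set ↥(lg_E L N'))) π)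
        ((⟨lg_lamE N', fc_x_mem_chart _⟩ :
          fc_chart ↥O ({lg_lamE N'} : Set ↥(lg_E L N'))) ^ (q ^ 2) -
          ⟨lg_lamE N', fc_x_mem_chart _⟩) 𝔫') :
    letI := ssm_gi_algebra (ssm_al_E_le L N' q)
    haveI := ssm_gt_isScalarTower O (ssm_al_E_le L N' q)
    ssm_nx_Cross (fc_chart ↥O ({lg_lamE N'} : Set ↥(lg_E L N')))
      (fc_chart ↥O ({lg_lamE (N' * q)} : Set ↥(lg_E L (N' * q))))
      (ssm_cpi_phi ↥O ↥(lg_E L (N' * q)) (lg_lamE N'))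
      (algebraMap ↥O (fc_chart ↥O ({lg_lamE N'} : Set ↥(lg_E L N'))) π) q
      (ssm_tp_P (fc_chart ↥O ({lg_lamE (N' * q)} : Set ↥(lg_E L (N' * q))))
        (ssm_gl_V1 O hπ N' q))
      (ssm_tp_P (fc_chart ↥O ({lg_lamE (N' * q)} : Set ↥(lg_E L (N' * q))))
        (ssm_gl_V2 O hπ N' q hq2 hqN'))
      ⟨lg_lamE N', fc_x_mem_chart _⟩
      ⟨ssm_gl_W L N' q hq2 hqN' (lg_lamE (N' * q)), F.lamq_mem⟩ (X - 1) := by
  haveI := lgf_finite L N'
  haveI : FiniteDimensional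
      L⟮IntermediateField.inclusion (ssm_al_E_le L N' q) (lg_lamE N')⟯ ↥(lg_E L (N' * q)) :=
    lgf_finite L (N' * q)
  have hWA : ∀ a : ↥O, ssm_gl_W L N' q hq2 hqN' (algebraMap ↥O ↥(lg_E L (N' * q)) a) =
      algebraMap ↥O ↥(lg_E L (N' * q)) a := fun a =>
    (ssm_al_WE L N' q hq.out hq2 hqN').commutes (a : L)
  obtain ⟨hWB, -, -⟩ := ssm_i1_W_charts (ssm_gl_W L N' q hq2 hqN') hWA rfl F
  have hmonic : (X - 1 : ℤ[X]).Monic := by simpa using monic_X_sub_C (1 : ℤ)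
  refine ssm_nl_cross_gt O hπ q (lg_E L N') (lg_E L (N' * q)) (ssm_al_E_le L N' q)
    (ssm_ga_E_le_quotField O (N' * q)) (ssm_gl_W L N' q hq2 hqN')
    (ssm_al_WE_WE L N' q hq.out hq2 hqN')
    (fun z => ssm_al_coe_WE_of_mem L N' q hq.out hq2 hqN' z.2 _)
    (ssm_al_relfinrank_E L N' q hq.out hq2 hqN') (hm_lam O) (ssm_ga_lam_frobFixed O q) 1
    (ssm_gl_not_dvd_one q) (ssm_ga_lam_coeff_one O (ssm_gl_two_ne_zero O q hq2)) (lg_lamE N')
    (hm_coeffMap_lam _).symm hprime hic hWB F.lamq_mem (X - 1) hmonic F.w0 F.w0' ?_ ?_ ?_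
  · rw [ssm_crig_aeval_sub_one, ssm_crig_aeval_sub_one]
    exact F.w1
  · rw [ssm_crig_aeval_sub_one, ssm_crig_aeval_sub_one]
    exact F.w1'
  · intro 𝔫' h𝔫' hπ𝔫 h0 h1 hG
    rw [ssm_crig_aeval_sub_one] at h1
    exact hEC 𝔫' h𝔫' hπ𝔫 h0 h1 hG

end Legendre

/-! ### the node clause -/

section Node

variable {L0 L : Type*} [Field L0] [Field L] [CharZero L0] [CharZero L]
  [Algebra L0 (AlgebraicClosure ℚ)] [Algebra L (AlgebraicClosure ℚ)]
  (f : L0 →+* L) (O0 : ValuationSubring L0) (O : ValuationSubring L)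
  (hO : ∀ x : L0, x ∈ O0 ↔ f x ∈ O)
  [IsDiscreteValuationRing O0] [IsDiscreteValuationRing O]
  {π : O} (hπ : Irreducible π)
  (N' q : ℕ) [NeZero N'] [NeZero q] [hq : Fact q.Prime]
  [CharP (ResidueField O0) q] [CharP (ResidueField O) q]
  (hq2 : ¬ 2 ∣ q) (hqN' : ¬ q ∣ N')
  (hπ0 : Irreducible ((q : ℕ) : ↥O0))

include hO in
set_option synthInstance.maxHeartbeats 200000 in
set_option maxHeartbeats 3200000 in
/-- **[ND] for the Legendre tower, relative form**: `(L0, O0)` a base with uniformiser `q` inside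
`(L, O)` (`O0 = f⁻¹ O`), `σ` an inert automorphism of `(L, O)` fixing `f L0`.  From the level-`N'`
inputs over BOTH bases and thickness one over the small base: `ss_NodeAt` at every maximal crossing
point of the `λ`-chart over `(O, π)` = the hypothesis `hnode` of `ssm_asm_model`. -/
theorem ssm_nl_node_of
    (σ : L ≃+* L) (hσ : ss_Inert O σ) (hσf : ∀ a : L0, σ (f a) = f a)
    -- level-`N'` inputs over the small base
    (hprime0 : Prime (algebraMap ↥O0 (fc_chart ↥O0 ({lg_lamE N'} : Set ↥(lg_E L0 N')))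
      ((q : ℕ) : ↥O0)))
    (hic0 : IsIntegrallyClosed (fc_chart ↥O0 ({lg_lamE N'} : Set ↥(lg_E L0 N')) ⧸
      (Ideal.span {algebraMap ↥O0 (fc_chart ↥O0 ({lg_lamE N'} : Set ↥(lg_E L0 N')))
          ((q : ℕ) : ↥O0)} :
        Ideal (fc_chart ↥O0 ({lg_lamE N'} : Set ↥(lg_E L0 N'))))))
    (F0 : ssm_i1_Facts ↥O0 q (lg_lamE (N' * q) : ↥(lg_E L0 (N' * q)))
      (ssm_gl_W L0 N' q hq2 hqN' (lg_lamE (N' * q))) (ssm_gl_V1 O0 hπ0 N' q)
      (ssm_gl_V2 O0 hπ0 N' q hq2 hqN'))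
    (hEC0 : ∀ 𝔫' : Ideal (fc_chart ↥O0 ({lg_lamE N'} : Set ↥(lg_E L0 N'))), 𝔫'.IsMaximal →
      algebraMap ↥O0 (fc_chart ↥O0 ({lg_lamE N'} : Set ↥(lg_E L0 N'))) ((q : ℕ) : ↥O0) ∈ 𝔫' →
      (⟨lg_lamE N', fc_x_mem_chart _⟩ : fc_chart ↥O0 ({lg_lamE N'} : Set ↥(lg_E L0 N'))) ∉ 𝔫' →
      (⟨lg_lamE N', fc_x_mem_chart _⟩ :
        fc_chart ↥O0 ({lg_lamE N'} : Set ↥(lg_E L0 N'))) - 1 ∉ 𝔫' →
      (⟨lg_lamE N', fc_x_mem_chart _⟩ :
        fc_chart ↥O0 ({lg_lamE N'} : Set ↥(lg_E L0 N'))) ^ (q ^ 2) -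
        ⟨lg_lamE N', fc_x_mem_chart _⟩ ∈ 𝔫' →
      tq_GenBy (algebraMap ↥O0 (fc_chart ↥O0 ({lg_lamE N'} : Set ↥(lg_E L0 N')))
          ((q : ℕ) : ↥O0))
        ((⟨lg_lamE N', fc_x_mem_chart _⟩ :
          fc_chart ↥O0 ({lg_lamE N'} : Set ↥(lg_E L0 N'))) ^ (q ^ 2) -
          ⟨lg_lamE N', fc_x_mem_chart _⟩) 𝔫')
    -- level-`N'` inputs over the big base
    (hprime : Prime (algebraMap ↥O (fc_chart ↥O ({lg_lamE N'} : Set ↥(lg_E L N'))) π))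
    (hic : IsIntegrallyClosed (fc_chart ↥O ({lg_lamE N'} : Set ↥(lg_E L N')) ⧸
      (Ideal.span {algebraMap ↥O (fc_chart ↥O ({lg_lamE N'} : Set ↥(lg_E L N'))) π} :
        Ideal (fc_chart ↥O ({lg_lamE N'} : Set ↥(lg_E L N'))))))
    (F : ssm_i1_Facts ↥O q (lg_lamE (N' * q) : ↥(lg_E L (N' * q)))
      (ssm_gl_W L N' q hq2 hqN' (lg_lamE (N' * q))) (ssm_gl_V1 O hπ N' q)
      (ssm_gl_V2 O hπ N' q hq2 hqN'))
    (hEC : ∀ 𝔫' : Ideal (fc_chart ↥O ({lg_lamE N'} : Set ↥(lg_E L N'))), 𝔫'.IsMaximal →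
      algebraMap ↥O (fc_chart ↥O ({lg_lamE N'} : Set ↥(lg_E L N'))) π ∈ 𝔫' →
      (⟨lg_lamE N', fc_x_mem_chart _⟩ : fc_chart ↥O ({lg_lamE N'} : Set ↥(lg_E L N'))) ∉ 𝔫' →
      (⟨lg_lamE N', fc_x_mem_chart _⟩ : fc_chart ↥O ({lg_lamE N'} : Set ↥(lg_E L N'))) - 1 ∉ 𝔫' →
      (⟨lg_lamE N', fc_x_mem_chart _⟩ : fc_chart ↥O ({lg_lamE N'} : Set ↥(lg_E L N'))) ^ (q ^ 2) -
        ⟨lg_lamE N', fc_x_mem_chart _⟩ ∈ 𝔫' →
      tq_GenBy (algebraMap ↥O (fc_chart ↥O ({lg_lamE N'} : Set ↥(lg_E L N'))) π)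
        ((⟨lg_lamE N', fc_x_mem_chart _⟩ :
          fc_chart ↥O ({lg_lamE N'} : Set ↥(lg_E L N'))) ^ (q ^ 2) -
          ⟨lg_lamE N', fc_x_mem_chart _⟩) 𝔫')
    -- thickness one over the small base
    (hthick : ∀ 𝔫0 : Ideal (fc_chart ↥O0 ({lg_lamE (N' * q)} : Set ↥(lg_E L0 (N' * q)))),
      𝔫0.IsMaximal →
      ssm_tp_P (fc_chart ↥O0 ({lg_lamE (N' * q)} : Set ↥(lg_E L0 (N' * q))))
        (ssm_gl_V1 O0 hπ0 N' q) ≤ 𝔫0 →
      ssm_tp_P (fc_chart ↥O0 ({lg_lamE (N' * q)} : Set ↥(lg_E L0 (N' * q))))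
        (ssm_gl_V2 O0 hπ0 N' q hq2 hqN') ≤ 𝔫0 →
      ∃ u v : ↥(lg_E L0 (N' * q)), u * v = ((q : ℕ) : ↥(lg_E L0 (N' * q))) ∧
        (∃ s t : fc_chart ↥O0 ({lg_lamE (N' * q)} : Set ↥(lg_E L0 (N' * q))), s ∉ 𝔫0 ∧
          t ∈ ssm_tp_P (fc_chart ↥O0 ({lg_lamE (N' * q)} : Set ↥(lg_E L0 (N' * q))))
            (ssm_gl_V2 O0 hπ0 N' q hq2 hqN') ∧ (s : ↥(lg_E L0 (N' * q))) * u = t) ∧
        (∃ s t : fc_chart ↥O0 ({lg_lamE (N' * q)} : Set ↥(lg_E L0 (N' * q))), s ∉ 𝔫0 ∧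
          t ∈ ssm_tp_P (fc_chart ↥O0 ({lg_lamE (N' * q)} : Set ↥(lg_E L0 (N' * q))))
            (ssm_gl_V1 O0 hπ0 N' q) ∧ (s : ↥(lg_E L0 (N' * q))) * v = t) ∧
        (∀ z ∈ ssm_tp_P (fc_chart ↥O0 ({lg_lamE (N' * q)} : Set ↥(lg_E L0 (N' * q))))
            (ssm_gl_V2 O0 hπ0 N' q hq2 hqN'),
          ∃ s c : fc_chart ↥O0 ({lg_lamE (N' * q)} : Set ↥(lg_E L0 (N' * q))), s ∉ 𝔫0 ∧
            (s : ↥(lg_E L0 (N' * q))) * (z : ↥(lg_E L0 (N' * q))) = u * c) ∧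
        (∀ z ∈ ssm_tp_P (fc_chart ↥O0 ({lg_lamE (N' * q)} : Set ↥(lg_E L0 (N' * q))))
            (ssm_gl_V1 O0 hπ0 N' q),
          ∃ s c : fc_chart ↥O0 ({lg_lamE (N' * q)} : Set ↥(lg_E L0 (N' * q))), s ∉ 𝔫0 ∧
            (s : ↥(lg_E L0 (N' * q))) * (z : ↥(lg_E L0 (N' * q))) = v * c) ∧
        (∃ s t : fc_chart ↥O0 ({lg_lamE (N' * q)} : Set ↥(lg_E L0 (N' * q))), s ∉ 𝔫0 ∧
          t ∉ ssm_tp_P (fc_chart ↥O0 ({lg_lamE (N' * q)} : Set ↥(lg_E L0 (N' * q))))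
            (ssm_gl_V1 O0 hπ0 N' q) ∧ (s : ↥(lg_E L0 (N' * q))) * u = t) ∧
        (∃ s t : fc_chart ↥O0 ({lg_lamE (N' * q)} : Set ↥(lg_E L0 (N' * q))), s ∉ 𝔫0 ∧
          t ∉ ssm_tp_P (fc_chart ↥O0 ({lg_lamE (N' * q)} : Set ↥(lg_E L0 (N' * q))))
            (ssm_gl_V2 O0 hπ0 N' q hq2 hqN') ∧ (s : ↥(lg_E L0 (N' * q))) * v = t)) :
    ∀ 𝔫 : Ideal (fc_chart ↥O ({lg_lamE (N' * q)} : Set ↥(lg_E L (N' * q)))), 𝔫.IsMaximal →
      ssm_tp_P (fc_chart ↥O ({lg_lamE (N' * q)} : Set ↥(lg_E L (N' * q))))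
        (ssm_gl_V1 O hπ N' q) ≤ 𝔫 →
      ssm_tp_P (fc_chart ↥O ({lg_lamE (N' * q)} : Set ↥(lg_E L (N' * q))))
        (ssm_gl_V2 O hπ N' q hq2 hqN') ≤ 𝔫 →
      ss_NodeAt π (ssm_sg_aut (N' * q) σ) (ssm_sg_base O σ hσ)
        (fc_chart1_le (lg_lamE (N' * q) : ↥(lg_E L (N' * q))))
        (ssm_tp_P (fc_chart ↥O ({lg_lamE (N' * q), (lg_lamE (N' * q))⁻¹} :
          Set ↥(lg_E L (N' * q)))) (ssm_gl_V1 O hπ N' q))
        (ssm_tp_P (fc_chart ↥O ({lg_lamE (N' * q), (lg_lamE (N' * q))⁻¹} :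
          Set ↥(lg_E L (N' * q)))) (ssm_gl_V2 O hπ N' q hq2 hqN')) 𝔫 := by
  intro 𝔫 h𝔫 hP1 hP2
  letI := ssm_gi_algebra (ssm_al_E_le L N' q)
  haveI := ssm_gt_isScalarTower O (ssm_al_E_le L N' q)
  letI := ssm_gi_algebra (ssm_al_E_le L0 N' q)
  haveI := ssm_gt_isScalarTower O0 (ssm_al_E_le L0 N' q)
  haveI := ssm_go_isScalarTower O (lg_E L (N' * q))
  haveI := ssm_go_isScalarTower O0 (lg_E L0 (N' * q))
  have C0 := ssm_nl_cross O0 hπ0 N' q hq2 hqN' hprime0 hic0 F0 hEC0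
  have C1 := ssm_nl_cross O hπ N' q hq2 hqN' hprime hic F hEC
  have H0 := ssm_gl_hyp O0 hπ0 N' q hq2 hqN' hprime0
  have H := ssm_gl_hyp O hπ N' q hq2 hqN' hprime
  have hx0 : Transcendental L0 (lg_lamE (L := L0) (N' * q)) :=
    lgf_lam_transcendental L0 (N' * q) two_ne_zero
  have hx : Transcendental L (lg_lamE (L := L) (N' * q)) :=
    lgf_lam_transcendental L (N' * q) two_ne_zero
  have hC0 := ssm_tp_ff_chart (L := L0) hπ0 hx0
  have hC12 := ssm_tp_ff_chart12 (L := L) hπ hx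
  haveI : IsIntegrallyClosed (Algebra.adjoin ↥O0 ({lg_lamE (N' * q)} : Set ↥(lg_E L0 (N' * q)))) :=
    fc_ff_isIntegrallyClosed (fc_ff_transcendental (L := L0) hx0)
  haveI : FaithfulSMul (Algebra.adjoin ↥O0 ({lg_lamE (N' * q)} : Set ↥(lg_E L0 (N' * q))))
      ↥(lg_E L0 (N' * q)) :=
    (faithfulSMul_iff_algebraMap_injective _ _).2 Subtype.val_injective
  haveI : IsIntegrallyClosed (Algebra.adjoin ↥O ({lg_lamE (N' * q)} : Set ↥(lg_E L (N' * q)))) :=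
    fc_ff_isIntegrallyClosed (fc_ff_transcendental (L := L) hx)
  haveI : FaithfulSMul (Algebra.adjoin ↥O ({lg_lamE (N' * q)} : Set ↥(lg_E L (N' * q))))
      ↥(lg_E L (N' * q)) :=
    (faithfulSMul_iff_algebraMap_injective _ _).2 Subtype.val_injective
  haveI : CharZero ↥(lg_E L0 (N' * q)) :=
    charZero_of_injective_algebraMap (algebraMap L0 ↥(lg_E L0 (N' * q))).injective
  have hqmax : (Ideal.span {((q : ℕ) : ↥O0)} : Ideal ↥O0).IsMaximal := by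
    rw [← hπ0.maximalIdeal_eq]
    exact IsLocalRing.maximalIdeal.isMaximal _
  refine ssm_nx_node (ssm_bc_j f (N' * q)) (ssm_gb_resHom f O0 O hO)
    (ssm_bc_j_algebraMapO f O0 O hO (N' * q))
    (fc_chart ↥O0 ({lg_lamE (N' * q)} : Set ↥(lg_E L0 (N' * q))))
    (fc_chart ↥O ({lg_lamE (N' * q)} : Set ↥(lg_E L (N' * q))))
    (fc_chart ↥O ({lg_lamE (N' * q), (lg_lamE (N' * q))⁻¹} : Set ↥(lg_E L (N' * q))))
    (fc_chart1_le _) (fun b hb => ssm_bc_chart_lam f O0 O hO (N' * q) hb) π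
    (ssm_sg_aut (N' * q) σ) (ssm_sg_base O σ hσ) (ssm_bc_sigma_fix f (N' * q) σ hσf) q hq.out
    (Nat.cast_ne_zero.2 (NeZero.ne q)) hqmax
    (ssm_gl_V1 O0 hπ0 N' q) (ssm_gl_V2 O0 hπ0 N' q hq2 hqN')
    (ssm_gl_V1 O hπ N' q) (ssm_gl_V2 O hπ N' q hq2 hqN')
    (fun b hb => hC0.le H0.over1 hb) (fun b hb => hC0.le H0.over2 hb)
    (fun b hb => hC12.le H.over1 hb) (fun b hb => hC12.le H.over2 hb)
    (ssm_bc_nonunits1 f O0 O hO hπ0 hπ (N' * q))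
    (ssm_bc_nonunits2 f O0 O hO hπ0 hπ N' q hq.out hq2 hqN')
    C0 (map_natCast _ _) C1 (ssm_cpi_phi_algebraMap _ _) ?_ ?_ ?_ hthick 𝔫 h𝔫 hP1 hP2
  · exact ssm_bc_j_lam f (N' * q)
  · have h := ssm_bc_j_WE f N' q hq.out hq2 hqN' (lg_lamE (N' * q))
    rw [ssm_bc_j_lam] at h
    exact h
  · intro b
    exact ssm_nx_chart_isIntegral (lg_lamE (N' * q) : ↥(lg_E L0 (N' * q))) b

end Node

end Fermat.Agent.SS
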