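/-
Project SS (S34), cell [M] (model), instance layer, HESSE tower (`q ≠ 3` prime, in the application
`q = 2`; coordinate `x = μ - 1`, "Option M"): the clause [SG] (the five `σ`-fields of `ss_Model`)
and the ASSEMBLY of the model from the remaining clauses [SM-I]-H (four smooth clauses) and [ND]-H
(node clause), in the context of `FactsHesse.lean`.

* `ssm_sfh_W_base`   : `W` fixes `O`;
* `ssm_sfh_sigma`    : **[SG]-H**: `σ_base`, `σ0_triv`, `σ_x`, `σ_triv1`, `σ_triv2` for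
  `σ_E := ssm_sgh_aut h3 (N' q) σ`, `σ_O := ssm_sg_base O σ hσ`;
* `ssm_sfh_inf`      : the inputs at infinity `hWB hw hw' hsub` of [ASM] from `ssm_fh_facts`;
* `ssm_sfh_model_of` : **`ss_Model π x σ_E σ_O (ssm_tp_P B₁₂ V₁) (ssm_tp_P B₁₂ V₂)`** from `hprime`
  (level `N'`), the four smooth clauses and the node clause.

Prefix `ssm_sfh_`.
-/
import Mathlib
import Fermat.Agent.SS.Model.FactsHesse
import Fermat.Agent.SS.Model.Assembly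
import Fermat.Agent.SS.Model.HesLevel
import Fermat.Agent.SS.CoreInst

set_option autoImplicit false
set_option linter.unusedSectionVars false
set_option linter.unusedVariables false
set_option linter.style.haveILetI false

noncomputable section

open ModularCurve IntermediateField IsLocalRing
open Fermat.Agent.JT3

namespace Fermat.Agent.SS

section SigmaFactsHesse

variable {L : Type*} [Field L] [CharZero L] [Algebra L (AlgebraicClosure ℚ)] (h3 : (3 : L) ≠ 0)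
  (O : ValuationSubring L) [IsDiscreteValuationRing O] (h3O : IsUnit (3 : O)) {π : O}
  (hπ : Irreducible π)
variable (N' q : ℕ) [NeZero N'] [NeZero q] [hq : Fact q.Prime] [CharP (ResidueField O) q]
  (hq3 : ¬ 3 ∣ q) (hqN' : ¬ q ∣ N')

/-- `W` fixes the base ring `O`. -/
theorem ssm_sfh_W_base (a : O) :
    ssm_fh_W h3 N' q hq3 hqN' (algebraMap ↥O ↥(hs_E L h3 (N' * q)) a) =
      algebraMap ↥O ↥(hs_E L h3 (N' * q)) a :=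
  (ssm_alh_WE L h3 (ssm_fh_hF9 h3) N' q hq.out hq3 hqN').commutes (a : L)

include h3O hπ hq3 hqN' in
/-- **[SG]-H**: the five `σ`-fields of `ss_Model` for the Hesse tower. -/
theorem ssm_sfh_sigma
    (hprime : Prime (algebraMap ↥O
      (fc_chart ↥O ({hs_muE h3 N' - 1} : Set ↥(hs_E L h3 N'))) π))
    (σ : L ≃+* L) (hσ : ss_Inert O σ) :
    (∀ a : O, ssm_sgh_aut h3 (N' * q) σ (algebraMap ↥O ↥(hs_E L h3 (N' * q)) a) =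
      algebraMap ↥O ↥(hs_E L h3 (N' * q)) (ssm_sg_base O σ hσ a)) ∧
    (∀ a : O, π ∣ ssm_sg_base O σ hσ a - a) ∧
    ssm_sgh_aut h3 (N' * q) σ (hs_muE h3 (N' * q) - 1) = hs_muE h3 (N' * q) - 1 ∧
    (∀ b ∈ fc_chart ↥O ({hs_muE h3 (N' * q) - 1} : Set ↥(hs_E L h3 (N' * q))),
      ∃ c ∈ fc_chart ↥O ({hs_muE h3 (N' * q) - 1} : Set ↥(hs_E L h3 (N' * q))),
        ssm_sgh_aut h3 (N' * q) σ b - b = algebraMap ↥O ↥(hs_E L h3 (N' * q)) π * c) ∧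
    (∀ b ∈ fc_chart ↥O ({(hs_muE h3 (N' * q) - 1)⁻¹} : Set ↥(hs_E L h3 (N' * q))),
      ∃ c ∈ fc_chart ↥O ({(hs_muE h3 (N' * q) - 1)⁻¹} : Set ↥(hs_E L h3 (N' * q))),
        ssm_sgh_aut h3 (N' * q) σ b - b = algebraMap ↥O ↥(hs_E L h3 (N' * q)) π * c) := by
  haveI := ssm_go_isScalarTower O (hs_E L h3 (N' * q))
  haveI := ssm_glh_finite h3 (N' * q)
  have hx := ssm_sgm_transcendental h3 (N' * q)
  have H := ssm_fh_hyp h3 O h3O hπ N' q hq3 hqN' hprime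
  have hW : ∀ z, ssm_fh_W h3 N' q hq3 hqN' (ssm_sgh_aut h3 (N' * q) σ z) =
      ssm_sgh_aut h3 (N' * q) σ (ssm_fh_W h3 N' q hq3 hqN' z) :=
    ssm_sgw_comm_hes' L h3 (ssm_fh_hF9 h3) N' q hq.out hq3 hqN' σ
  refine ⟨ssm_sgh_aut_base h3 O (N' * q) σ hσ, ssm_sg_base_dvd O σ hσ hπ.maximalIdeal_eq,
    ssm_sgm_aut_x h3 (N' * q) σ, ?_, ?_⟩
  · exact ssm_sgh_triv_tp h3 O h3O (N' * q) σ hπ hσ (ssm_fh_W h3 N' q hq3 hqN') hW hx _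
      (ssm_sgm_aut_fix1 h3 (N' * q) σ) H (ssm_tp_ff_chart (L := L) hπ hx)
  · exact ssm_sgh_triv_tp h3 O h3O (N' * q) σ hπ hσ (ssm_fh_W h3 N' q hq3 hqN') hW
      (ssm_sgm_transcendental_inv h3 (N' * q)) _
      (ssm_sgm_aut_fix2 h3 (N' * q) σ) (ssm_tp_ff_hyp_inv (L := L) hπ hx H)
      (ssm_tp_ff_chart (L := L) hπ (ssm_sgm_transcendental_inv h3 (N' * q)))

/-- the inputs at infinity of [ASM] for the Hesse tower. -/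
theorem ssm_sfh_inf
    (hprime : Prime (algebraMap ↥O
      (fc_chart ↥O ({hs_muE h3 N' - 1} : Set ↥(hs_E L h3 N'))) π)) :
    (∀ b ∈ fc_chart ↥O ({(hs_muE h3 (N' * q) - 1)⁻¹} : Set ↥(hs_E L h3 (N' * q))),
      ssm_fh_W h3 N' q hq3 hqN' b ∈
        fc_chart ↥O ({(hs_muE h3 (N' * q) - 1)⁻¹} : Set ↥(hs_E L h3 (N' * q)))) ∧
    (hs_muE h3 (N' * q) - 1)⁻¹ ^ q /
        (ssm_fh_W h3 N' q hq3 hqN' (hs_muE h3 (N' * q) - 1))⁻¹ ∈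
      fc_chart ↥O ({(hs_muE h3 (N' * q) - 1)⁻¹} : Set ↥(hs_E L h3 (N' * q))) ∧
    (ssm_fh_W h3 N' q hq3 hqN' (hs_muE h3 (N' * q) - 1))⁻¹ ^ q /
        (hs_muE h3 (N' * q) - 1)⁻¹ ∈
      fc_chart ↥O ({(hs_muE h3 (N' * q) - 1)⁻¹} : Set ↥(hs_E L h3 (N' * q))) ∧
    (hs_muE h3 (N' * q) - 1)⁻¹ ^ q /
        (ssm_fh_W h3 N' q hq3 hqN' (hs_muE h3 (N' * q) - 1))⁻¹ - 1 ∈
      (ssm_fh_V1 h3 O h3O hπ N' q).nonunits := by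
  have F := ssm_fh_facts h3 O h3O hπ N' q hq3 hqN' hprime
  have e : ssm_fh_W h3 N' q hq3 hqN' (hs_muE h3 (N' * q) - 1) =
      ssm_fh_W h3 N' q hq3 hqN' (hs_muE h3 (N' * q)) - 1 := by
    rw [map_sub, map_one]
  rw [e]
  exact ⟨(ssm_i1g_W_charts (ssm_fh_W h3 N' q hq3 hqN') (ssm_sfh_W_base h3 O N' q hq3 hqN') e F).2.1,
    F.winf, F.winf', F.winf_sub⟩

/-- **the Hesse model from the smooth and node clauses**: `ss_Model π x σ_E σ_O P₁ P₂` with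
`x = μ - 1`, `P_i = ssm_tp_P B₁₂ V_i`. -/
theorem ssm_sfh_model_of
    (hprime : Prime (algebraMap ↥O
      (fc_chart ↥O ({hs_muE h3 N' - 1} : Set ↥(hs_E L h3 N'))) π))
    (σ : L ≃+* L) (hσ : ss_Inert O σ)
    (hsm11 : ∀ 𝔫 : Ideal (fc_chart ↥O ({hs_muE h3 (N' * q) - 1} : Set ↥(hs_E L h3 (N' * q)))),
      𝔫.IsMaximal →
      algebraMap ↥O (fc_chart ↥O ({hs_muE h3 (N' * q) - 1} : Set ↥(hs_E L h3 (N' * q)))) π ∈ 𝔫 →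
      ¬ ssm_tp_P (fc_chart ↥O ({hs_muE h3 (N' * q) - 1} : Set ↥(hs_E L h3 (N' * q))))
        (ssm_fh_V2 h3 O h3O hπ N' q hq3 hqN') ≤ 𝔫 →
      ss_SmoothAt π (fc_chart ↥O ({hs_muE h3 (N' * q) - 1} : Set ↥(hs_E L h3 (N' * q)))) 𝔫)
    (hsm12 : ∀ 𝔫 : Ideal (fc_chart ↥O ({hs_muE h3 (N' * q) - 1} : Set ↥(hs_E L h3 (N' * q)))),
      𝔫.IsMaximal →
      algebraMap ↥O (fc_chart ↥O ({hs_muE h3 (N' * q) - 1} : Set ↥(hs_E L h3 (N' * q)))) π ∈ 𝔫 →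
      ¬ ssm_tp_P (fc_chart ↥O ({hs_muE h3 (N' * q) - 1} : Set ↥(hs_E L h3 (N' * q))))
        (ssm_fh_V1 h3 O h3O hπ N' q) ≤ 𝔫 →
      ss_SmoothAt π (fc_chart ↥O ({hs_muE h3 (N' * q) - 1} : Set ↥(hs_E L h3 (N' * q)))) 𝔫)
    (hsm21 : ∀ 𝔫 : Ideal (fc_chart ↥O ({(hs_muE h3 (N' * q) - 1)⁻¹} : Set ↥(hs_E L h3 (N' * q)))),
      𝔫.IsMaximal →
      algebraMap ↥O (fc_chart ↥O ({(hs_muE h3 (N' * q) - 1)⁻¹} : Set ↥(hs_E L h3 (N' * q)))) π ∈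
        𝔫 →
      ¬ ssm_tp_P (fc_chart ↥O ({(hs_muE h3 (N' * q) - 1)⁻¹} : Set ↥(hs_E L h3 (N' * q))))
        (ssm_fh_V2 h3 O h3O hπ N' q hq3 hqN') ≤ 𝔫 →
      ss_SmoothAt π (fc_chart ↥O ({(hs_muE h3 (N' * q) - 1)⁻¹} : Set ↥(hs_E L h3 (N' * q)))) 𝔫)
    (hsm22 : ∀ 𝔫 : Ideal (fc_chart ↥O ({(hs_muE h3 (N' * q) - 1)⁻¹} : Set ↥(hs_E L h3 (N' * q)))),
      𝔫.IsMaximal →
      algebraMap ↥O (fc_chart ↥O ({(hs_muE h3 (N' * q) - 1)⁻¹} : Set ↥(hs_E L h3 (N' * q)))) π ∈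
        𝔫 →
      ¬ ssm_tp_P (fc_chart ↥O ({(hs_muE h3 (N' * q) - 1)⁻¹} : Set ↥(hs_E L h3 (N' * q))))
        (ssm_fh_V1 h3 O h3O hπ N' q) ≤ 𝔫 →
      ss_SmoothAt π (fc_chart ↥O ({(hs_muE h3 (N' * q) - 1)⁻¹} : Set ↥(hs_E L h3 (N' * q)))) 𝔫)
    (hnode : ∀ 𝔫 : Ideal (fc_chart ↥O ({hs_muE h3 (N' * q) - 1} : Set ↥(hs_E L h3 (N' * q)))),
      𝔫.IsMaximal →
      ssm_tp_P (fc_chart ↥O ({hs_muE h3 (N' * q) - 1} : Set ↥(hs_E L h3 (N' * q))))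
        (ssm_fh_V1 h3 O h3O hπ N' q) ≤ 𝔫 →
      ssm_tp_P (fc_chart ↥O ({hs_muE h3 (N' * q) - 1} : Set ↥(hs_E L h3 (N' * q))))
        (ssm_fh_V2 h3 O h3O hπ N' q hq3 hqN') ≤ 𝔫 →
      ss_NodeAt π (ssm_sgh_aut h3 (N' * q) σ) (ssm_sg_base O σ hσ)
        (fc_chart1_le (hs_muE h3 (N' * q) - 1))
        (ssm_tp_P (fc_chart ↥O ({hs_muE h3 (N' * q) - 1, (hs_muE h3 (N' * q) - 1)⁻¹} :
          Set ↥(hs_E L h3 (N' * q)))) (ssm_fh_V1 h3 O h3O hπ N' q))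
        (ssm_tp_P (fc_chart ↥O ({hs_muE h3 (N' * q) - 1, (hs_muE h3 (N' * q) - 1)⁻¹} :
          Set ↥(hs_E L h3 (N' * q)))) (ssm_fh_V2 h3 O h3O hπ N' q hq3 hqN')) 𝔫) :
    ss_Model π (hs_muE h3 (N' * q) - 1) (ssm_sgh_aut h3 (N' * q) σ) (ssm_sg_base O σ hσ)
      (ssm_tp_P (fc_chart ↥O ({hs_muE h3 (N' * q) - 1, (hs_muE h3 (N' * q) - 1)⁻¹} :
        Set ↥(hs_E L h3 (N' * q)))) (ssm_fh_V1 h3 O h3O hπ N' q))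
      (ssm_tp_P (fc_chart ↥O ({hs_muE h3 (N' * q) - 1, (hs_muE h3 (N' * q) - 1)⁻¹} :
        Set ↥(hs_E L h3 (N' * q)))) (ssm_fh_V2 h3 O h3O hπ N' q hq3 hqN')) := by
  haveI := ssm_go_isScalarTower O (hs_E L h3 (N' * q))
  haveI := ssm_glh_finite h3 (N' * q)
  obtain ⟨σ_base, σ0_triv, σ_x, σ_triv1, σ_triv2⟩ :=
    ssm_sfh_sigma h3 O h3O hπ N' q hq3 hqN' hprime σ hσ
  obtain ⟨hWB, hw, hw', hsub⟩ := ssm_sfh_inf h3 O h3O hπ N' q hq3 hqN' hprime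
  exact ssm_asm_model (L := L) hπ (ssm_sgm_transcendental h3 (N' * q))
    (ssm_hl_hconst L h3 (N' * q)) (ssm_fh_hyp h3 O h3O hπ N' q hq3 hqN' hprime)
    (ssm_fh_W h3 N' q hq3 hqN') (ssm_fh_W_W h3 N' q hq3 hqN') (fun _ => Iff.rfl) hWB
    hq.out.two_le hw hw' hsub σ_base σ0_triv σ_x σ_triv1 σ_triv2 hsm11 hsm12 hsm21 hsm22 hnode

/-- helper6's `ss_sigmaE` on `hs_E L h3 N` is helper20's `ssm_sgh_aut`. -/
theorem ssm_sfh_sigmaE_eq (N : ℕ) [NeZero N] (σ : L ≃+* L)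
    (hE : ∀ z ∈ hs_E L h3 N, coeffMap (σ : L →+* L) z ∈ hs_E L h3 N)
    (hE' : ∀ z ∈ hs_E L h3 N, coeffMap (σ.symm : L →+* L) z ∈ hs_E L h3 N) :
    ss_sigmaE σ (hs_E L h3 N) hE hE' = ssm_sgh_aut h3 N σ :=
  RingEquiv.ext fun _ => rfl

/-- helper6's `ss_sigmaO` is helper20's `ssm_sg_base`. -/
theorem ssm_sfh_sigmaO_eq (σ : L ≃+* L) (hσ : ss_Inert O σ) (h : ∀ z ∈ O, σ z ∈ O)
    (h' : ∀ z ∈ O, σ.symm z ∈ O) : ss_sigmaO O σ h h' = ssm_sg_base O σ hσ :=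
  RingEquiv.ext fun _ => rfl

/-- **the Hesse model from the smooth and node clauses, in the shape of `ss_coreAt_of_model`**
(`σ_E = ss_sigmaE σ E hE hE'`, `σ_O = ss_sigmaO O σ h h'`); the clauses may be stated with
`ssm_sgh_aut` / `ssm_sg_base`. -/
theorem ssm_sfh_model_of'
    (hprime : Prime (algebraMap ↥O
      (fc_chart ↥O ({hs_muE h3 N' - 1} : Set ↥(hs_E L h3 N'))) π))
    (σ : L ≃+* L) (hσ : ss_Inert O σ)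
    (hE : ∀ z ∈ hs_E L h3 (N' * q), coeffMap (σ : L →+* L) z ∈ hs_E L h3 (N' * q))
    (hE' : ∀ z ∈ hs_E L h3 (N' * q), coeffMap (σ.symm : L →+* L) z ∈ hs_E L h3 (N' * q))
    (h : ∀ z ∈ O, σ z ∈ O) (h' : ∀ z ∈ O, σ.symm z ∈ O)
    (hsm11 : ∀ 𝔫 : Ideal (fc_chart ↥O ({hs_muE h3 (N' * q) - 1} : Set ↥(hs_E L h3 (N' * q)))),
      𝔫.IsMaximal →
      algebraMap ↥O (fc_chart ↥O ({hs_muE h3 (N' * q) - 1} : Set ↥(hs_E L h3 (N' * q)))) π ∈ 𝔫 →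
      ¬ ssm_tp_P (fc_chart ↥O ({hs_muE h3 (N' * q) - 1} : Set ↥(hs_E L h3 (N' * q))))
        (ssm_fh_V2 h3 O h3O hπ N' q hq3 hqN') ≤ 𝔫 →
      ss_SmoothAt π (fc_chart ↥O ({hs_muE h3 (N' * q) - 1} : Set ↥(hs_E L h3 (N' * q)))) 𝔫)
    (hsm12 : ∀ 𝔫 : Ideal (fc_chart ↥O ({hs_muE h3 (N' * q) - 1} : Set ↥(hs_E L h3 (N' * q)))),
      𝔫.IsMaximal →
      algebraMap ↥O (fc_chart ↥O ({hs_muE h3 (N' * q) - 1} : Set ↥(hs_E L h3 (N' * q)))) π ∈ 𝔫 →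
      ¬ ssm_tp_P (fc_chart ↥O ({hs_muE h3 (N' * q) - 1} : Set ↥(hs_E L h3 (N' * q))))
        (ssm_fh_V1 h3 O h3O hπ N' q) ≤ 𝔫 →
      ss_SmoothAt π (fc_chart ↥O ({hs_muE h3 (N' * q) - 1} : Set ↥(hs_E L h3 (N' * q)))) 𝔫)
    (hsm21 : ∀ 𝔫 : Ideal (fc_chart ↥O ({(hs_muE h3 (N' * q) - 1)⁻¹} : Set ↥(hs_E L h3 (N' * q)))),
      𝔫.IsMaximal →
      algebraMap ↥O (fc_chart ↥O ({(hs_muE h3 (N' * q) - 1)⁻¹} : Set ↥(hs_E L h3 (N' * q)))) π ∈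
        𝔫 →
      ¬ ssm_tp_P (fc_chart ↥O ({(hs_muE h3 (N' * q) - 1)⁻¹} : Set ↥(hs_E L h3 (N' * q))))
        (ssm_fh_V2 h3 O h3O hπ N' q hq3 hqN') ≤ 𝔫 →
      ss_SmoothAt π (fc_chart ↥O ({(hs_muE h3 (N' * q) - 1)⁻¹} : Set ↥(hs_E L h3 (N' * q)))) 𝔫)
    (hsm22 : ∀ 𝔫 : Ideal (fc_chart ↥O ({(hs_muE h3 (N' * q) - 1)⁻¹} : Set ↥(hs_E L h3 (N' * q)))),
      𝔫.IsMaximal →
      algebraMap ↥O (fc_chart ↥O ({(hs_muE h3 (N' * q) - 1)⁻¹} : Set ↥(hs_E L h3 (N' * q)))) π ∈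
        𝔫 →
      ¬ ssm_tp_P (fc_chart ↥O ({(hs_muE h3 (N' * q) - 1)⁻¹} : Set ↥(hs_E L h3 (N' * q))))
        (ssm_fh_V1 h3 O h3O hπ N' q) ≤ 𝔫 →
      ss_SmoothAt π (fc_chart ↥O ({(hs_muE h3 (N' * q) - 1)⁻¹} : Set ↥(hs_E L h3 (N' * q)))) 𝔫)
    (hnode : ∀ 𝔫 : Ideal (fc_chart ↥O ({hs_muE h3 (N' * q) - 1} : Set ↥(hs_E L h3 (N' * q)))),
      𝔫.IsMaximal →
      ssm_tp_P (fc_chart ↥O ({hs_muE h3 (N' * q) - 1} : Set ↥(hs_E L h3 (N' * q))))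
        (ssm_fh_V1 h3 O h3O hπ N' q) ≤ 𝔫 →
      ssm_tp_P (fc_chart ↥O ({hs_muE h3 (N' * q) - 1} : Set ↥(hs_E L h3 (N' * q))))
        (ssm_fh_V2 h3 O h3O hπ N' q hq3 hqN') ≤ 𝔫 →
      ss_NodeAt π (ssm_sgh_aut h3 (N' * q) σ) (ssm_sg_base O σ hσ)
        (fc_chart1_le (hs_muE h3 (N' * q) - 1))
        (ssm_tp_P (fc_chart ↥O ({hs_muE h3 (N' * q) - 1, (hs_muE h3 (N' * q) - 1)⁻¹} :
          Set ↥(hs_E L h3 (N' * q)))) (ssm_fh_V1 h3 O h3O hπ N' q))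
        (ssm_tp_P (fc_chart ↥O ({hs_muE h3 (N' * q) - 1, (hs_muE h3 (N' * q) - 1)⁻¹} :
          Set ↥(hs_E L h3 (N' * q)))) (ssm_fh_V2 h3 O h3O hπ N' q hq3 hqN')) 𝔫) :
    ss_Model π (hs_muE h3 (N' * q) - 1) (ss_sigmaE σ (hs_E L h3 (N' * q)) hE hE')
      (ss_sigmaO O σ h h')
      (ssm_tp_P (fc_chart ↥O ({hs_muE h3 (N' * q) - 1, (hs_muE h3 (N' * q) - 1)⁻¹} :
        Set ↥(hs_E L h3 (N' * q)))) (ssm_fh_V1 h3 O h3O hπ N' q))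
      (ssm_tp_P (fc_chart ↥O ({hs_muE h3 (N' * q) - 1, (hs_muE h3 (N' * q) - 1)⁻¹} :
        Set ↥(hs_E L h3 (N' * q)))) (ssm_fh_V2 h3 O h3O hπ N' q hq3 hqN')) := by
  rw [ssm_sfh_sigmaE_eq h3 (N' * q) σ hE hE', ssm_sfh_sigmaO_eq O σ hσ h h']
  exact ssm_sfh_model_of h3 O h3O hπ N' q hq3 hqN' hprime σ hσ hsm11 hsm12 hsm21 hsm22 hnode

end SigmaFactsHesse

end Fermat.Agent.SS
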