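/-
SS [M], leaf [ND], HESSE twin of `NodeLeg.lean` (coordinate `x = μ - 1`, "Option M"): THE NODE
CLAUSE FOR THE HESSE TOWER.

* `ssm_nh_cross`   : the crossing package (`ssm_nx_Cross`) for the Hesse tower
  `hs_E L h3 N' ≤ hs_E L h3 (N' q)` over an arbitrary base `(L, O, π)`, middle cusp polynomial
  `c = X² + 3X + 3`;
* `ssm_nh_node_of` : `hnode` of `ssm_asm_model` (relative form: a small base `(L0, O0)` with
  uniformiser `q` inside `(L, O)`), from the level-`N'` inputs over both bases and thickness one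
  over the small base.

Prefix `ssm_nh_`.
-/
import Mathlib
import Fermat.Agent.SS.Model.NodeLeg
import Fermat.Agent.SS.Model.FactsHesse
import Fermat.Agent.SS.Model.SigmaFactsHesse
import Fermat.Agent.SS.Model.BaseChangeHes

set_option autoImplicit false
set_option linter.unusedSectionVars false
set_option linter.unusedVariables false
set_option linter.style.haveILetI false

noncomputable section

open ModularCurve IntermediateField IsLocalRing Polynomial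
open Fermat.Agent.JT3

namespace Fermat.Agent.SS

/-- the middle cusp polynomial of the Hesse tower in the coordinate `x = μ - 1`. -/
theorem ssm_nh_monic : (X ^ 2 + 3 * X + 3 : ℤ[X]).Monic := by monicity!

/-- `c(μ - 1) = μ² + μ + 1`. -/
theorem ssm_nh_aeval_mid {B : Type*} [CommRing B] (m : B) :
    aeval (m - 1) (X ^ 2 + 3 * X + 3 : ℤ[X]) = m ^ 2 + m + 1 := by
  simp only [map_add, map_mul, map_pow, aeval_X, map_ofNat]
  ring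

section Hesse

variable {L : Type*} [Field L] [CharZero L] [Algebra L (AlgebraicClosure ℚ)] (h3 : (3 : L) ≠ 0)
  (O : ValuationSubring L) [IsDiscreteValuationRing O] (h3O : IsUnit (3 : O)) {π : O}
  (hπ : Irreducible π)
variable (N' q : ℕ) [NeZero N'] [NeZero q] [hq : Fact q.Prime] [CharP (ResidueField O) q]
  (hq3 : ¬ 3 ∣ q) (hqN' : ¬ q ∣ N')

/-- `W x = W μ - 1`. -/
theorem ssm_nh_W_x :
    ssm_fh_W h3 N' q hq3 hqN' (hs_muE h3 (N' * q) - 1) =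
      ssm_fh_W h3 N' q hq3 hqN' (hs_muE h3 (N' * q)) - 1 := by
  rw [map_sub, map_one]

include h3O hπ in
/-- `W x` lies in the `x`-chart. -/
theorem ssm_nh_xq_mem
    (hprime : Prime (algebraMap ↥O
      (fc_chart ↥O ({hs_muE h3 N' - 1} : Set ↥(hs_E L h3 N'))) π)) :
    ssm_fh_W h3 N' q hq3 hqN' (hs_muE h3 (N' * q) - 1) ∈
      fc_chart ↥O ({hs_muE h3 (N' * q) - 1} : Set ↥(hs_E L h3 (N' * q))) := by
  rw [ssm_nh_W_x]
  exact (ssm_fh_facts h3 O h3O hπ N' q hq3 hqN' hprime).xq_mem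

set_option synthInstance.maxHeartbeats 200000 in
set_option maxHeartbeats 1600000 in
/-- **the crossing package of the Hesse tower** `hs_E L h3 N' ≤ hs_E L h3 (N' q)` over an arbitrary
base `(L, O, π)` of residue characteristic `q ≠ 3`: inputs = S18 at level `N'` (`hprime`, `hic`)
and [EC] (`hEC`, in the shape of `ssm_hl_EC_aeval`); [I1] is `ssm_fh_facts`. -/
theorem ssm_nh_cross
    (hprime : Prime (algebraMap ↥O
      (fc_chart ↥O ({hs_muE h3 N' - 1} : Set ↥(hs_E L h3 N'))) π))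
    (hic : IsIntegrallyClosed (fc_chart ↥O ({hs_muE h3 N' - 1} : Set ↥(hs_E L h3 N')) ⧸
      (Ideal.span {algebraMap ↥O (fc_chart ↥O ({hs_muE h3 N' - 1} : Set ↥(hs_E L h3 N'))) π} :
        Ideal (fc_chart ↥O ({hs_muE h3 N' - 1} : Set ↥(hs_E L h3 N'))))))
    (hEC : ∀ 𝔫' : Ideal (fc_chart ↥O ({hs_muE h3 N' - 1} : Set ↥(hs_E L h3 N'))),
      𝔫'.IsMaximal →
      algebraMap ↥O (fc_chart ↥O ({hs_muE h3 N' - 1} : Set ↥(hs_E L h3 N'))) π ∈ 𝔫' →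
      ssm_hl_x h3 O N' ∉ 𝔫' →
      aeval (ssm_hl_x h3 O N') (X ^ 2 + 3 * X + 3 : ℤ[X]) ∉ 𝔫' →
      ssm_hl_x h3 O N' ^ (q ^ 2) - ssm_hl_x h3 O N' ∈ 𝔫' →
      tq_GenBy (algebraMap ↥O (fc_chart ↥O ({hs_muE h3 N' - 1} : Set ↥(hs_E L h3 N'))) π)
        (ssm_hl_x h3 O N' ^ (q ^ 2) - ssm_hl_x h3 O N') 𝔫') :
    letI := ssm_gi_algebra (ssm_alh_E_le L h3 (ssm_fh_hF9 h3) N' q)
    haveI := ssm_gt_isScalarTower O (ssm_alh_E_le L h3 (ssm_fh_hF9 h3) N' q)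
    ssm_nx_Cross (fc_chart ↥O ({hs_muE h3 N' - 1} : Set ↥(hs_E L h3 N')))
      (fc_chart ↥O ({hs_muE h3 (N' * q) - 1} : Set ↥(hs_E L h3 (N' * q))))
      (ssm_cpi_phi ↥O ↥(hs_E L h3 (N' * q)) (hs_muE h3 N' - 1))
      (algebraMap ↥O (fc_chart ↥O ({hs_muE h3 N' - 1} : Set ↥(hs_E L h3 N'))) π) q
      (ssm_tp_P (fc_chart ↥O ({hs_muE h3 (N' * q) - 1} : Set ↥(hs_E L h3 (N' * q))))
        (ssm_fh_V1 h3 O h3O hπ N' q))
      (ssm_tp_P (fc_chart ↥O ({hs_muE h3 (N' * q) - 1} : Set ↥(hs_E L h3 (N' * q))))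
        (ssm_fh_V2 h3 O h3O hπ N' q hq3 hqN'))
      (ssm_hl_x h3 O N')
      ⟨ssm_fh_W h3 N' q hq3 hqN' (hs_muE h3 (N' * q) - 1),
        ssm_nh_xq_mem h3 O h3O hπ N' q hq3 hqN' hprime⟩ (X ^ 2 + 3 * X + 3) := by
  haveI := ssm_glh_finite h3 N'
  haveI : FiniteDimensional
      L⟮IntermediateField.inclusion (ssm_alh_E_le L h3 (ssm_fh_hF9 h3) N' q)
        (hs_muE h3 N' - 1)⟯ ↥(hs_E L h3 (N' * q)) :=
    ssm_glh_finite h3 (N' * q)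
  have hWO := ssm_sfh_W_base h3 O N' q hq3 hqN'
  have F := ssm_fh_facts h3 O h3O hπ N' q hq3 hqN' hprime
  have e := ssm_nh_W_x h3 N' q hq3 hqN'
  obtain ⟨hWB, -, -⟩ := ssm_i1g_W_charts (ssm_fh_W h3 N' q hq3 hqN') hWO e F
  refine ssm_nl_cross_gt O hπ q (hs_E L h3 N') (hs_E L h3 (N' * q))
    (ssm_alh_E_le L h3 (ssm_fh_hF9 h3) N' q) (hsa_E_le_quotField h3 O (N' * q) h3O)
    (ssm_fh_W h3 N' q hq3 hqN') (ssm_fh_W_W h3 N' q hq3 hqN')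
    (fun z => ssm_alh_coe_WE_of_mem L h3 (ssm_fh_hF9 h3) N' q hq.out hq3 hqN' z.2 _)
    (ssm_alh_relfinrank_E L h3 (ssm_fh_hF9 h3) N' q hq.out hq3 hqN') (hm_mu O h3O - 1)
    (ssm_glh_frobFixed O h3O q) (-1) (ssm_gh_not_dvd_neg_one q) (ssm_glh_coeff O h3O)
    (hs_muE h3 N' - 1) (ssm_glh_coe_x h3 O h3O N') hprime hic hWB
    (ssm_nh_xq_mem h3 O h3O hπ N' q hq3 hqN' hprime) (X ^ 2 + 3 * X + 3) ssm_nh_monic
    ?_ ?_ ?_ ?_ hEC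
  · show (hs_muE h3 (N' * q) - 1) ^ q / ssm_fh_W h3 N' q hq3 hqN' (hs_muE h3 (N' * q) - 1) ∈ _
    rw [e]
    exact F.w0
  · show ssm_fh_W h3 N' q hq3 hqN' (hs_muE h3 (N' * q) - 1) ^ q / (hs_muE h3 (N' * q) - 1) ∈ _
    rw [e]
    exact F.w0'
  · show aeval (hs_muE h3 (N' * q) - 1) (X ^ 2 + 3 * X + 3 : ℤ[X]) ^ q /
      aeval (ssm_fh_W h3 N' q hq3 hqN' (hs_muE h3 (N' * q) - 1)) (X ^ 2 + 3 * X + 3 : ℤ[X]) ∈ _
    rw [e, ssm_nh_aeval_mid, ssm_nh_aeval_mid]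
    exact F.w1
  · show aeval (ssm_fh_W h3 N' q hq3 hqN' (hs_muE h3 (N' * q) - 1))
        (X ^ 2 + 3 * X + 3 : ℤ[X]) ^ q /
      aeval (hs_muE h3 (N' * q) - 1) (X ^ 2 + 3 * X + 3 : ℤ[X]) ∈ _
    rw [e, ssm_nh_aeval_mid, ssm_nh_aeval_mid]
    exact F.w1'

end Hesse

/-! ### the node clause -/

section Node

variable {L0 L : Type*} [Field L0] [Field L] [CharZero L0] [CharZero L]
  [Algebra L0 (AlgebraicClosure ℚ)] [Algebra L (AlgebraicClosure ℚ)]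
  (h30 : (3 : L0) ≠ 0) (h3 : (3 : L) ≠ 0)
  (f : L0 →+* L) (O0 : ValuationSubring L0) (O : ValuationSubring L)
  (hO : ∀ x : L0, x ∈ O0 ↔ f x ∈ O)
  [IsDiscreteValuationRing O0] [IsDiscreteValuationRing O]
  (h3O0 : IsUnit (3 : O0)) (h3O : IsUnit (3 : O))
  {π : O} (hπ : Irreducible π)
  (N' q : ℕ) [NeZero N'] [NeZero q] [hq : Fact q.Prime]
  [CharP (ResidueField O0) q] [CharP (ResidueField O) q]
  (hq3 : ¬ 3 ∣ q) (hqN' : ¬ q ∣ N')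
  (hπ0 : Irreducible ((q : ℕ) : ↥O0))

include hO in
set_option synthInstance.maxHeartbeats 200000 in
set_option maxHeartbeats 3200000 in
/-- **[ND] for the Hesse tower, relative form**: `(L0, O0)` a base with uniformiser `q` inside
`(L, O)` (`O0 = f⁻¹ O`), `σ` an inert automorphism of `(L, O)` fixing `f L0`.  From the level-`N'`
inputs over BOTH bases and thickness one over the small base: `ss_NodeAt` at every maximal crossing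
point of the `x`-chart (`x = μ - 1`) over `(O, π)` = the hypothesis `hnode` of `ssm_asm_model`. -/
theorem ssm_nh_node_of
    (σ : L ≃+* L) (hσ : ss_Inert O σ) (hσf : ∀ a : L0, σ (f a) = f a)
    -- level-`N'` inputs over the small base
    (hprime0 : Prime (algebraMap ↥O0
      (fc_chart ↥O0 ({hs_muE h30 N' - 1} : Set ↥(hs_E L0 h30 N'))) ((q : ℕ) : ↥O0)))
    (hic0 : IsIntegrallyClosed (fc_chart ↥O0 ({hs_muE h30 N' - 1} : Set ↥(hs_E L0 h30 N')) ⧸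
      (Ideal.span {algebraMap ↥O0 (fc_chart ↥O0 ({hs_muE h30 N' - 1} : Set ↥(hs_E L0 h30 N')))
          ((q : ℕ) : ↥O0)} :
        Ideal (fc_chart ↥O0 ({hs_muE h30 N' - 1} : Set ↥(hs_E L0 h30 N'))))))
    (hEC0 : ∀ 𝔫' : Ideal (fc_chart ↥O0 ({hs_muE h30 N' - 1} : Set ↥(hs_E L0 h30 N'))),
      𝔫'.IsMaximal →
      algebraMap ↥O0 (fc_chart ↥O0 ({hs_muE h30 N' - 1} : Set ↥(hs_E L0 h30 N')))
        ((q : ℕ) : ↥O0) ∈ 𝔫' →
      ssm_hl_x h30 O0 N' ∉ 𝔫' →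
      aeval (ssm_hl_x h30 O0 N') (X ^ 2 + 3 * X + 3 : ℤ[X]) ∉ 𝔫' →
      ssm_hl_x h30 O0 N' ^ (q ^ 2) - ssm_hl_x h30 O0 N' ∈ 𝔫' →
      tq_GenBy (algebraMap ↥O0 (fc_chart ↥O0 ({hs_muE h30 N' - 1} : Set ↥(hs_E L0 h30 N')))
          ((q : ℕ) : ↥O0))
        (ssm_hl_x h30 O0 N' ^ (q ^ 2) - ssm_hl_x h30 O0 N') 𝔫')
    -- level-`N'` inputs over the big base
    (hprime : Prime (algebraMap ↥O
      (fc_chart ↥O ({hs_muE h3 N' - 1} : Set ↥(hs_E L h3 N'))) π))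
    (hic : IsIntegrallyClosed (fc_chart ↥O ({hs_muE h3 N' - 1} : Set ↥(hs_E L h3 N')) ⧸
      (Ideal.span {algebraMap ↥O (fc_chart ↥O ({hs_muE h3 N' - 1} : Set ↥(hs_E L h3 N'))) π} :
        Ideal (fc_chart ↥O ({hs_muE h3 N' - 1} : Set ↥(hs_E L h3 N'))))))
    (hEC : ∀ 𝔫' : Ideal (fc_chart ↥O ({hs_muE h3 N' - 1} : Set ↥(hs_E L h3 N'))),
      𝔫'.IsMaximal →
      algebraMap ↥O (fc_chart ↥O ({hs_muE h3 N' - 1} : Set ↥(hs_E L h3 N'))) π ∈ 𝔫' →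
      ssm_hl_x h3 O N' ∉ 𝔫' →
      aeval (ssm_hl_x h3 O N') (X ^ 2 + 3 * X + 3 : ℤ[X]) ∉ 𝔫' →
      ssm_hl_x h3 O N' ^ (q ^ 2) - ssm_hl_x h3 O N' ∈ 𝔫' →
      tq_GenBy (algebraMap ↥O (fc_chart ↥O ({hs_muE h3 N' - 1} : Set ↥(hs_E L h3 N'))) π)
        (ssm_hl_x h3 O N' ^ (q ^ 2) - ssm_hl_x h3 O N') 𝔫')
    -- thickness one over the small base
    (hthick : ∀ 𝔫0 : Ideal (fc_chart ↥O0 ({hs_muE h30 (N' * q) - 1} :
        Set ↥(hs_E L0 h30 (N' * q)))),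
      𝔫0.IsMaximal →
      ssm_tp_P (fc_chart ↥O0 ({hs_muE h30 (N' * q) - 1} : Set ↥(hs_E L0 h30 (N' * q))))
        (ssm_fh_V1 h30 O0 h3O0 hπ0 N' q) ≤ 𝔫0 →
      ssm_tp_P (fc_chart ↥O0 ({hs_muE h30 (N' * q) - 1} : Set ↥(hs_E L0 h30 (N' * q))))
        (ssm_fh_V2 h30 O0 h3O0 hπ0 N' q hq3 hqN') ≤ 𝔫0 →
      ∃ u v : ↥(hs_E L0 h30 (N' * q)), u * v = ((q : ℕ) : ↥(hs_E L0 h30 (N' * q))) ∧
        (∃ s t : fc_chart ↥O0 ({hs_muE h30 (N' * q) - 1} : Set ↥(hs_E L0 h30 (N' * q))),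
          s ∉ 𝔫0 ∧
          t ∈ ssm_tp_P (fc_chart ↥O0 ({hs_muE h30 (N' * q) - 1} : Set ↥(hs_E L0 h30 (N' * q))))
            (ssm_fh_V2 h30 O0 h3O0 hπ0 N' q hq3 hqN') ∧
          (s : ↥(hs_E L0 h30 (N' * q))) * u = t) ∧
        (∃ s t : fc_chart ↥O0 ({hs_muE h30 (N' * q) - 1} : Set ↥(hs_E L0 h30 (N' * q))),
          s ∉ 𝔫0 ∧
          t ∈ ssm_tp_P (fc_chart ↥O0 ({hs_muE h30 (N' * q) - 1} : Set ↥(hs_E L0 h30 (N' * q))))
            (ssm_fh_V1 h30 O0 h3O0 hπ0 N' q) ∧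
          (s : ↥(hs_E L0 h30 (N' * q))) * v = t) ∧
        (∀ z ∈ ssm_tp_P (fc_chart ↥O0 ({hs_muE h30 (N' * q) - 1} :
              Set ↥(hs_E L0 h30 (N' * q))))
            (ssm_fh_V2 h30 O0 h3O0 hπ0 N' q hq3 hqN'),
          ∃ s c : fc_chart ↥O0 ({hs_muE h30 (N' * q) - 1} : Set ↥(hs_E L0 h30 (N' * q))),
            s ∉ 𝔫0 ∧
            (s : ↥(hs_E L0 h30 (N' * q))) * (z : ↥(hs_E L0 h30 (N' * q))) = u * c) ∧
        (∀ z ∈ ssm_tp_P (fc_chart ↥O0 ({hs_muE h30 (N' * q) - 1} :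
              Set ↥(hs_E L0 h30 (N' * q))))
            (ssm_fh_V1 h30 O0 h3O0 hπ0 N' q),
          ∃ s c : fc_chart ↥O0 ({hs_muE h30 (N' * q) - 1} : Set ↥(hs_E L0 h30 (N' * q))),
            s ∉ 𝔫0 ∧
            (s : ↥(hs_E L0 h30 (N' * q))) * (z : ↥(hs_E L0 h30 (N' * q))) = v * c) ∧
        (∃ s t : fc_chart ↥O0 ({hs_muE h30 (N' * q) - 1} : Set ↥(hs_E L0 h30 (N' * q))),
          s ∉ 𝔫0 ∧
          t ∉ ssm_tp_P (fc_chart ↥O0 ({hs_muE h30 (N' * q) - 1} : Set ↥(hs_E L0 h30 (N' * q))))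
            (ssm_fh_V1 h30 O0 h3O0 hπ0 N' q) ∧
          (s : ↥(hs_E L0 h30 (N' * q))) * u = t) ∧
        (∃ s t : fc_chart ↥O0 ({hs_muE h30 (N' * q) - 1} : Set ↥(hs_E L0 h30 (N' * q))),
          s ∉ 𝔫0 ∧
          t ∉ ssm_tp_P (fc_chart ↥O0 ({hs_muE h30 (N' * q) - 1} : Set ↥(hs_E L0 h30 (N' * q))))
            (ssm_fh_V2 h30 O0 h3O0 hπ0 N' q hq3 hqN') ∧
          (s : ↥(hs_E L0 h30 (N' * q))) * v = t)) :
    ∀ 𝔫 : Ideal (fc_chart ↥O ({hs_muE h3 (N' * q) - 1} : Set ↥(hs_E L h3 (N' * q)))),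
      𝔫.IsMaximal →
      ssm_tp_P (fc_chart ↥O ({hs_muE h3 (N' * q) - 1} : Set ↥(hs_E L h3 (N' * q))))
        (ssm_fh_V1 h3 O h3O hπ N' q) ≤ 𝔫 →
      ssm_tp_P (fc_chart ↥O ({hs_muE h3 (N' * q) - 1} : Set ↥(hs_E L h3 (N' * q))))
        (ssm_fh_V2 h3 O h3O hπ N' q hq3 hqN') ≤ 𝔫 →
      ss_NodeAt π (ssm_sgh_aut h3 (N' * q) σ) (ssm_sg_base O σ hσ)
        (fc_chart1_le (hs_muE h3 (N' * q) - 1))
        (ssm_tp_P (fc_chart ↥O ({hs_muE h3 (N' * q) - 1, (hs_muE h3 (N' * q) - 1)⁻¹} :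
          Set ↥(hs_E L h3 (N' * q)))) (ssm_fh_V1 h3 O h3O hπ N' q))
        (ssm_tp_P (fc_chart ↥O ({hs_muE h3 (N' * q) - 1, (hs_muE h3 (N' * q) - 1)⁻¹} :
          Set ↥(hs_E L h3 (N' * q)))) (ssm_fh_V2 h3 O h3O hπ N' q hq3 hqN')) 𝔫 := by
  intro 𝔫 h𝔫 hP1 hP2
  letI := ssm_gi_algebra (ssm_alh_E_le L h3 (ssm_fh_hF9 h3) N' q)
  haveI := ssm_gt_isScalarTower O (ssm_alh_E_le L h3 (ssm_fh_hF9 h3) N' q)
  letI := ssm_gi_algebra (ssm_alh_E_le L0 h30 (ssm_fh_hF9 h30) N' q)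
  haveI := ssm_gt_isScalarTower O0 (ssm_alh_E_le L0 h30 (ssm_fh_hF9 h30) N' q)
  haveI := ssm_go_isScalarTower O (hs_E L h3 (N' * q))
  haveI := ssm_go_isScalarTower O0 (hs_E L0 h30 (N' * q))
  have C0 := ssm_nh_cross h30 O0 h3O0 hπ0 N' q hq3 hqN' hprime0 hic0 hEC0
  have C1 := ssm_nh_cross h3 O h3O hπ N' q hq3 hqN' hprime hic hEC
  have H0 := ssm_fh_hyp h30 O0 h3O0 hπ0 N' q hq3 hqN' hprime0
  have H := ssm_fh_hyp h3 O h3O hπ N' q hq3 hqN' hprime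
  have hx0 : Transcendental L0 (hs_muE h30 (N' * q) - 1 : ↥(hs_E L0 h30 (N' * q))) :=
    ssm_sgm_transcendental h30 (N' * q)
  have hx : Transcendental L (hs_muE h3 (N' * q) - 1 : ↥(hs_E L h3 (N' * q))) :=
    ssm_sgm_transcendental h3 (N' * q)
  have hC0 := ssm_tp_ff_chart (L := L0) hπ0 hx0
  have hC12 := ssm_tp_ff_chart12 (L := L) hπ hx
  haveI : IsIntegrallyClosed
      (Algebra.adjoin ↥O0 ({hs_muE h30 (N' * q) - 1} : Set ↥(hs_E L0 h30 (N' * q)))) :=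
    fc_ff_isIntegrallyClosed (fc_ff_transcendental (L := L0) hx0)
  haveI : FaithfulSMul
      (Algebra.adjoin ↥O0 ({hs_muE h30 (N' * q) - 1} : Set ↥(hs_E L0 h30 (N' * q))))
      ↥(hs_E L0 h30 (N' * q)) :=
    (faithfulSMul_iff_algebraMap_injective _ _).2 Subtype.val_injective
  haveI : IsIntegrallyClosed
      (Algebra.adjoin ↥O ({hs_muE h3 (N' * q) - 1} : Set ↥(hs_E L h3 (N' * q)))) :=
    fc_ff_isIntegrallyClosed (fc_ff_transcendental (L := L) hx)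
  haveI : FaithfulSMul
      (Algebra.adjoin ↥O ({hs_muE h3 (N' * q) - 1} : Set ↥(hs_E L h3 (N' * q))))
      ↥(hs_E L h3 (N' * q)) :=
    (faithfulSMul_iff_algebraMap_injective _ _).2 Subtype.val_injective
  haveI : CharZero ↥(hs_E L0 h30 (N' * q)) :=
    charZero_of_injective_algebraMap (algebraMap L0 ↥(hs_E L0 h30 (N' * q))).injective
  have hqmax : (Ideal.span {((q : ℕ) : ↥O0)} : Ideal ↥O0).IsMaximal := by
    rw [← hπ0.maximalIdeal_eq]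
    exact IsLocalRing.maximalIdeal.isMaximal _
  refine ssm_nx_node (ssm_bch_j h30 h3 f (N' * q)) (ssm_gb_resHom f O0 O hO)
    (ssm_bch_j_algebraMapO h30 h3 f O0 O hO (N' * q))
    (fc_chart ↥O0 ({hs_muE h30 (N' * q) - 1} : Set ↥(hs_E L0 h30 (N' * q))))
    (fc_chart ↥O ({hs_muE h3 (N' * q) - 1} : Set ↥(hs_E L h3 (N' * q))))
    (fc_chart ↥O ({hs_muE h3 (N' * q) - 1, (hs_muE h3 (N' * q) - 1)⁻¹} :
      Set ↥(hs_E L h3 (N' * q))))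
    (fc_chart1_le _) (fun b hb => ssm_bch_chart_x h30 h3 f O0 O hO (N' * q) hb) π
    (ssm_sgh_aut h3 (N' * q) σ) (ssm_sg_base O σ hσ)
    (ssm_bch_sigma_fix h30 h3 f (N' * q) σ hσf) q hq.out
    (Nat.cast_ne_zero.2 (NeZero.ne q)) hqmax
    (ssm_fh_V1 h30 O0 h3O0 hπ0 N' q) (ssm_fh_V2 h30 O0 h3O0 hπ0 N' q hq3 hqN')
    (ssm_fh_V1 h3 O h3O hπ N' q) (ssm_fh_V2 h3 O h3O hπ N' q hq3 hqN')
    (fun b hb => hC0.le H0.over1 hb) (fun b hb => hC0.le H0.over2 hb)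
    (fun b hb => hC12.le H.over1 hb) (fun b hb => hC12.le H.over2 hb)
    (ssm_bch_nonunits1 h30 h3 f O0 O hO h3O0 h3O hπ0 hπ (N' * q))
    (ssm_bch_nonunits2 h30 h3 f O0 O hO h3O0 h3O hπ0 hπ (ssm_fh_hF9 h30) (ssm_fh_hF9 h3) N' q
      hq.out hq3 hqN')
    C0 (map_natCast _ _) C1 (ssm_cpi_phi_algebraMap _ _) ?_ ?_ ?_ hthick 𝔫 h𝔫 hP1 hP2
  · exact ssm_bch_j_x h30 h3 f (N' * q)
  · have h := ssm_bch_j_WE h30 h3 f (ssm_fh_hF9 h30) (ssm_fh_hF9 h3) N' q hq.out hq3 hqN'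
      (hs_muE h30 (N' * q) - 1)
    rw [ssm_bch_j_x] at h
    exact h
  · intro b
    exact ssm_nx_chart_isIntegral (hs_muE h30 (N' * q) - 1 : ↥(hs_E L0 h30 (N' * q))) b

end Node

end Fermat.Agent.SS
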