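/-
SS [M], final instantiation (Legendre and Hesse covers): THE UNRAMIFIED BASE PACKAGE.

`L ⊆ Q̄` a number field, `O` a discrete valuation ring of `L` of residue characteristic `q`,
`ζ ∈ L` a primitive `M`-th root of unity, `q ∤ M`.  The small base is
`L0 = ℚ(ζ) ⊆ L`, `O0 = O ∩ L0`, with uniformiser `q` ([UB], helper28).  This file packages, in the
shapes consumed by the base-change dictionary [BC] (helper2) and by the node transport
`ssm_tht_node`: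

* `ssm_sb_L0 ζ`, `ssm_sb_f ζ : L0 →+* L`, `ssm_sb_algebra` (`Algebra L0 Q̄`), `ssm_sb_numberField`;
* `ssm_sb_O0 O ζ`, `ssm_sb_hO`, `ssm_sb_isDVR`, `ssm_sb_irreducible` (`q` is a uniformiser of `O0`),
  `ssm_sb_charP`, `ssm_sb_q_mem`;
* `ssm_sb_zeta`, `ssm_sb_zeta_prim`, `ssm_sb_f_zeta`;
* `ssm_sb_fixed` (an inert `σ` fixes `f L0` pointwise), `ssm_sb_sigma_q` (`σ_O (j0 q) = j0 q`),
  `ssm_sb_j0_q`.
-/
import Mathlib
import Fermat.Agent.SS.Model.UnramBase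
import Fermat.Agent.SS.Model.GaussBC
import Fermat.Agent.SS.Model.Sigma
import Fermat.Agent.JT3.Inst.RegApply

set_option autoImplicit false
set_option linter.style.haveILetI false
set_option linter.unusedSectionVars false
set_option linter.unusedVariables false

noncomputable section

namespace Fermat.Agent.SS

open Fermat.Agent.JT3 IntermediateField IsLocalRing

section SmallBase

variable {L : Type} [Field L] [NumberField L] [Algebra L (AlgebraicClosure ℚ)]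
  (O : ValuationSubring L) [IsDiscreteValuationRing O]
  (M q : ℕ) [NeZero M] [hq : Fact q.Prime] [CharP (ResidueField O) q] (hqM : ¬ q ∣ M)
  (ζ : L) (hζ : IsPrimitiveRoot ζ M)

/-- the unramified subfield `L0 = ℚ(ζ)`. -/
abbrev ssm_sb_L0 (ζ : L) : Type := ↥(IntermediateField.adjoin ℚ ({ζ} : Set L))

/-- the inclusion `f : L0 →+* L`. -/
abbrev ssm_sb_f (ζ : L) : ssm_sb_L0 ζ →+* L := algebraMap (ssm_sb_L0 ζ) L

/-- `L0 ⊆ L ⊆ Q̄`. -/
@[reducible] def ssm_sb_algebra (ζ : L) : Algebra (ssm_sb_L0 ζ) (AlgebraicClosure ℚ) :=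
  ((algebraMap L (AlgebraicClosure ℚ)).comp (ssm_sb_f ζ)).toAlgebra

theorem ssm_sb_algebraMap_comp (ζ : L) :
    letI := ssm_sb_algebra ζ
    (algebraMap L (AlgebraicClosure ℚ)).comp (ssm_sb_f ζ) =
      algebraMap (ssm_sb_L0 ζ) (AlgebraicClosure ℚ) := rfl

include hζ in
theorem ssm_sb_numberField : NumberField (ssm_sb_L0 ζ) := ssm_ub_numberField hζ

/-- the small valuation ring `O0 = O ∩ L0`. -/
abbrev ssm_sb_O0 (ζ : L) : ValuationSubring (ssm_sb_L0 ζ) :=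
  O.comap (algebraMap (ssm_sb_L0 ζ) L)

theorem ssm_sb_hO (x : ssm_sb_L0 ζ) : x ∈ ssm_sb_O0 O ζ ↔ ssm_sb_f ζ x ∈ O := Iff.rfl

/-- `q ∈ 𝔪_O`, subtype form. -/
theorem ssm_sb_q_mem : ((q : ℕ) : O) ∈ maximalIdeal O := by
  rw [← residue_eq_zero_iff, map_natCast]
  exact CharP.cast_eq_zero _ q

/-- `q ∈ 𝔪_O`, field form. -/
theorem ssm_sb_q_mem' : ((q : ℕ) : L) ∈ O.nonunits :=
  ssm_ub_mem_nonunits O (ssm_sb_q_mem O q)

include hqM hζ in
theorem ssm_sb_isDVR : IsDiscreteValuationRing ↥(ssm_sb_O0 O ζ) :=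
  ssm_ub_isDVR O q M (ssm_sb_q_mem' O q) hqM ζ hζ

include hqM hζ in
/-- `q` is a uniformiser of `O0`. -/
theorem ssm_sb_irreducible : Irreducible (((q : ℕ) : ↥(ssm_sb_O0 O ζ))) :=
  ssm_ub_irreducible O q M (ssm_sb_q_mem' O q) hqM ζ hζ

include hqM hζ in
theorem ssm_sb_q_mem0 :
    haveI := ssm_sb_isDVR O M q hqM ζ hζ
    ((q : ℕ) : ↥(ssm_sb_O0 O ζ)) ∈ maximalIdeal ↥(ssm_sb_O0 O ζ) := by
  haveI := ssm_sb_isDVR O M q hqM ζ hζ
  rw [mem_maximalIdeal, mem_nonunits_iff]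
  exact (ssm_sb_irreducible O M q hqM ζ hζ).not_isUnit

include hqM hζ in
theorem ssm_sb_charP :
    haveI := ssm_sb_isDVR O M q hqM ζ hζ
    CharP (ResidueField ↥(ssm_sb_O0 O ζ)) q := by
  haveI := ssm_sb_isDVR O M q hqM ζ hζ
  exact lg_charP_residue (ssm_sb_q_mem0 O M q hqM ζ hζ)

/-- `ζ` as an element of `L0`. -/
def ssm_sb_zeta (ζ : L) : ssm_sb_L0 ζ := ⟨ζ, ssm_ub_zeta_mem ζ⟩

theorem ssm_sb_f_zeta : ssm_sb_f ζ (ssm_sb_zeta ζ) = ζ := rfl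

include hζ in
theorem ssm_sb_zeta_prim : IsPrimitiveRoot (ssm_sb_zeta ζ) M :=
  IsPrimitiveRoot.of_map_of_injective (f := ssm_sb_f ζ) (by rw [ssm_sb_f_zeta]; exact hζ)
    (ssm_sb_f ζ).injective

include hqM hζ in
/-- an inert `σ` fixes `f L0` pointwise. -/
theorem ssm_sb_fixed (σ : L ≃+* L) (hσ : ss_Inert O σ) (a : ssm_sb_L0 ζ) :
    σ (ssm_sb_f ζ a) = ssm_sb_f ζ a :=
  ssm_ub_fixed O q M (ssm_sb_q_mem' O q) hqM ζ hζ σ hσ _ a.2

/-- `j0 q = q`. -/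
theorem ssm_sb_j0_q :
    ssm_gb_resHom (ssm_sb_f ζ) (ssm_sb_O0 O ζ) O (ssm_sb_hO O ζ) ((q : ℕ) : ↥(ssm_sb_O0 O ζ)) =
      ((q : ℕ) : O) :=
  map_natCast _ q

/-- `σ_O (j0 q) = j0 q` (`hσq` of `ssm_tht_node`). -/
theorem ssm_sb_sigma_q (σ : L ≃+* L) (hσ : ss_Inert O σ) :
    ssm_sg_base O σ hσ
        (ssm_gb_resHom (ssm_sb_f ζ) (ssm_sb_O0 O ζ) O (ssm_sb_hO O ζ)
          ((q : ℕ) : ↥(ssm_sb_O0 O ζ))) =
      ssm_gb_resHom (ssm_sb_f ζ) (ssm_sb_O0 O ζ) O (ssm_sb_hO O ζ)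
        ((q : ℕ) : ↥(ssm_sb_O0 O ζ)) := by
  rw [ssm_sb_j0_q, map_natCast]

end SmallBase

end Fermat.Agent.SS
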