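/-
Project SS (S34), cell [M], leaf [TH-INST] (helper8): the INSTANCE side of `ssm_thc_main`
(SS/Model/ThickCover.lean, helper2) for the LEGENDRE tower
`K0 = L(λ) ⊆ K = lg_E L N' ⊆ E = lg_E L (N' q)` over a discrete valuation ring `O ⊆ L` with
uniformiser `q` (the unramified base):

* `ssm_thi_coe`, `ssm_thi_inv`, `ssm_thi_hT_abs` : ABSTRACT (cover-agnostic) form of `hT`:
  constants (up to powers of `q₀`), elements of the chart `B'` and inverses of elements of
  `B' ∖ y0` lie in any presentation `S` of the local ring of `B'` at `y0`;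
* `ssm_thi_base` : in a DVR with uniformiser `ϖ` every element of the fraction field becomes
  integral after multiplication by a power of `ϖ`;
* `ssm_thi_T`, `ssm_thi_hH` : `T = L ∪ {λ, λ⁻¹, (λ - 1)⁻¹}` and the horizontal unramifiedness `hH`
  from `lg_RamHyp N (lgh_lamK L)`;
* `ssm_thi_hT` : `hT` for the Legendre cover (`λ, λ - 1 ∉ y0`);
* `ssm_thi_algebra`, `ssm_thi_tower`, `ssm_thi_charZero`, `ssm_thi_hrank` : the tower instances
  and `hrank : [lg_E L (N' q) : lg_E L N'] = q + 1`;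
* `ssm_thi_main` : `ssm_thc_main` with all of this plugged (what is left: `H : ssm_thc_Hyp …`, the
  presentation `S`, `λ, λ - 1 ∉ y0`).

Prefix `ssm_thi_`.
-/
import Mathlib
import Fermat.Agent.SS.Model.ThickCover
import Fermat.Agent.SS.Model.TwoPrimesLeg
import Fermat.Agent.JT3.Inst.RegApply
import Fermat.Agent.JT3.Inst.TowerFinite

set_option autoImplicit false
set_option linter.unusedSectionVars false
set_option linter.unusedVariables false
set_option linter.style.haveILetI false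

noncomputable section

namespace Fermat.Agent.SS

open Fermat.Agent.JT3 IsLocalRing

section Abs

variable {A0 : Type*} [CommRing A0] {K0 K : Type*} [Field K0] [Field K] [Algebra K0 K]
  [Algebra A0 K] {B' : Subalgebra A0 K} {y0 : Ideal B'} [y0.IsPrime]
  {S : Type*} [CommRing S] [Algebra B' S] [IsLocalization.AtPrime S y0] [Algebra S K]
  [IsScalarTower B' S K]

omit [y0.IsPrime] [IsLocalization.AtPrime S y0] in
/-- the elements of the chart `B'` lie in the local ring `S`. -/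
theorem ssm_thi_coe (b : B') : algebraMap S K (algebraMap B' S b) = (b : K) := by
  rw [← IsScalarTower.algebraMap_apply B' S K]
  rfl

/-- the inverse of an element of `B'` outside `y0` lies in `S`. -/
theorem ssm_thi_inv (b : B') (hb : b ∉ y0) : ∃ s : S, (b : K)⁻¹ = algebraMap S K s := by
  have hu : IsUnit (algebraMap B' S b) :=
    IsLocalization.map_units S (⟨b, hb⟩ : y0.primeCompl)
  obtain ⟨u, hu⟩ := hu
  refine ⟨((u⁻¹ : Sˣ) : S), ?_⟩
  have h1 : algebraMap S K ((u⁻¹ : Sˣ) : S) * (b : K) = 1 := by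
    rw [← ssm_thi_coe (S := S) b, ← hu, ← map_mul, Units.inv_mul, map_one]
  exact (eq_inv_of_mul_eq_one_left h1).symm

/-- **`hT` of `ssm_thc_main`, abstract form**: the constants (up to powers of `q₀`), the
coordinate `x` and the inverses of `x - c` (`c` in a list of constants of the chart) lie in `S`. -/
theorem ssm_thi_hT_abs (q₀ : ℕ) {L0 : Type*} [Field L0] [Algebra L0 K0] (T : Set K0)
    (hT : ∀ z ∈ T, (∃ a : L0, z = algebraMap L0 K0 a) ∨ (∃ b : B', algebraMap K0 K z = b) ∨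
      (∃ b : B', b ∉ y0 ∧ algebraMap K0 K z = (b : K)⁻¹))
    (hbase : ∀ a : L0, ∃ (k : ℕ) (b : B'),
      algebraMap K0 K (algebraMap L0 K0 a) * (q₀ : K) ^ k = b) :
    ∀ z ∈ T, ∃ (k : ℕ) (s : S), algebraMap K0 K z * algebraMap S K (q₀ : S) ^ k =
      algebraMap S K s := by
  intro z hz
  rcases hT z hz with ⟨a, rfl⟩ | ⟨b, hb⟩ | ⟨b, hb, hzb⟩
  · obtain ⟨k, b, hb⟩ := hbase a
    exact ⟨k, algebraMap B' S b, by rw [map_natCast, hb, ssm_thi_coe]⟩
  · exact ⟨0, algebraMap B' S b, by rw [pow_zero, mul_one, hb, ssm_thi_coe]⟩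
  · obtain ⟨s, hs⟩ := ssm_thi_inv (S := S) b hb
    exact ⟨0, s, by rw [pow_zero, mul_one, hzb, hs]⟩

end Abs

section Base

variable {L : Type*} [Field L] (O : ValuationSubring L) [IsDiscreteValuationRing O]

/-- in the fraction field of a discrete valuation ring with uniformiser `ϖ`, every element becomes
integral after multiplication by a power of `ϖ`. -/
theorem ssm_thi_base {ϖ : O} (hϖ : Irreducible ϖ) (a : L) :
    ∃ (k : ℕ) (o : O), a * (ϖ : L) ^ k = (o : L) := by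
  by_cases ha : a ∈ O
  · exact ⟨0, ⟨a, ha⟩, by rw [pow_zero, mul_one]⟩
  · have ha0 : a ≠ 0 := fun h => ha (h ▸ O.zero_mem)
    have hinv : a⁻¹ ∈ O := (O.mem_or_inv_mem a).resolve_left ha
    have hne : (⟨a⁻¹, hinv⟩ : O) ≠ 0 := fun h => inv_ne_zero ha0 (congrArg Subtype.val h)
    obtain ⟨n, u, hu⟩ := IsDiscreteValuationRing.eq_unit_mul_pow_irreducible hne hϖ
    refine ⟨n, ((u⁻¹ : Oˣ) : O), ?_⟩
    have h1 : a⁻¹ = ((u : O) : L) * (ϖ : L) ^ n := by
      have := congrArg Subtype.val hu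
      simpa using this
    have h2 : ((u : O) : L) * (((u⁻¹ : Oˣ) : O) : L) = 1 := by
      have h : (((u : O) * ((u⁻¹ : Oˣ) : O) : O) : L) = 1 := by rw [u.mul_inv]; rfl
      exact h
    have h3 : a * a⁻¹ = 1 := mul_inv_cancel₀ ha0
    rw [h1] at h3
    calc a * (ϖ : L) ^ n = (a * (((u : O) : L) * (ϖ : L) ^ n)) * (((u⁻¹ : Oˣ) : O) : L) := by
          rw [mul_assoc, mul_comm (((u : O) : L)) _, mul_assoc, h2, mul_one]
      _ = (((u⁻¹ : Oˣ) : O) : L) := by rw [h3, one_mul]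

end Base

section Leg

variable {L : Type*} [Field L] [CharZero L]

attribute [local instance] lgh_algKE

variable (L) in
/-- the set `T ⊆ L(λ)`: constants, `λ`, `λ⁻¹`, `(λ - 1)⁻¹`. -/
def ssm_thi_T : Set (lg_K L) :=
  Set.range (algebraMap L (lg_K L)) ∪ {lgh_lamK L, (lgh_lamK L)⁻¹, (lgh_lamK L - 1)⁻¹}

/-- **`hH` of `ssm_thc_main` for the Legendre cover**, from the ramification hypotheses. -/
theorem ssm_thi_hH (N : ℕ) [NeZero N] (hram : lg_RamHyp N (lgh_lamK L))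
    (V2 : Subring (lg_K L)) [IsDiscreteValuationRing V2] [IsFractionRing V2 (lg_K L)]
    (h : ∀ z ∈ ssm_thi_T L, z ∈ V2) : jt_UnramAt V2 (lg_E L N) :=
  hram.hH V2 (fun a => h _ (Or.inl ⟨a, rfl⟩)) (h _ (Or.inr (Or.inl rfl)))
    (h _ (Or.inr (Or.inr (Or.inl rfl)))) (h _ (Or.inr (Or.inr (Or.inr rfl))))

theorem ssm_thi_coe_lam (N : ℕ) [NeZero N] :
    algebraMap ↥(lg_K L) ↥(lg_E L N) (lgh_lamK L) = lg_lamE N := rfl

set_option synthInstance.maxHeartbeats 200000 in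
/-- **`hT` of `ssm_thc_main` for the Legendre cover** at level `N` over a discrete valuation ring
`O` with uniformiser `q` (the unramified base), for any chart `B'` containing `λ` and any prime
`y0` of `B'` off the cusps `λ = 0, 1`, `S` any presentation of the local ring of `B'` at `y0`. -/
theorem ssm_thi_hT (O : ValuationSubring L) [IsDiscreteValuationRing O] (q N : ℕ) [NeZero N]
    (hπ : Irreducible ((q : ℕ) : O))
    {B' : Subalgebra ↥O ↥(lg_E L N)} {y0 : Ideal B'} [y0.IsPrime]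
    {S : Type*} [CommRing S] [Algebra B' S] [IsLocalization.AtPrime S y0]
    [Algebra S ↥(lg_E L N)] [IsScalarTower B' S ↥(lg_E L N)]
    (lam' : B') (hlam : (lam' : ↥(lg_E L N)) = lg_lamE N) (h0 : lam' ∉ y0) (h1 : lam' - 1 ∉ y0) :
    ∀ z ∈ ssm_thi_T L, ∃ (k : ℕ) (s : S),
      algebraMap ↥(lg_K L) ↥(lg_E L N) z * algebraMap S ↥(lg_E L N) (q : S) ^ k =
        algebraMap S ↥(lg_E L N) s := by
  refine ssm_thi_hT_abs (A0 := ↥O) (B' := B') (y0 := y0) (S := S) (L0 := L) q (ssm_thi_T L) ?_ ?_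
  · rintro z (⟨a, rfl⟩ | hz | hz | hz)
    · exact Or.inl ⟨a, rfl⟩
    · rw [hz]
      exact Or.inr (Or.inl ⟨lam', by rw [hlam]; rfl⟩)
    · rw [hz]
      exact Or.inr (Or.inr ⟨lam', h0, by rw [map_inv₀, hlam]; rfl⟩)
    · rw [Set.mem_singleton_iff] at hz
      rw [hz]
      refine Or.inr (Or.inr ⟨lam' - 1, h1, ?_⟩)
      rw [map_inv₀, map_sub, map_one, AddSubgroupClass.coe_sub, hlam]
      rfl
  · intro a
    obtain ⟨k, o, ho⟩ := ssm_thi_base O hπ a
    refine ⟨k, algebraMap ↥O B' o, ?_⟩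
    have h2 : ((algebraMap ↥O B' o : B') : ↥(lg_E L N)) = algebraMap L ↥(lg_E L N) (o : L) := rfl
    rw [h2, ← ho, map_mul, map_pow]
    have h3 : algebraMap L ↥(lg_E L N) ((((q : ℕ) : O) : O) : L) = (q : ↥(lg_E L N)) := by
      have : ((((q : ℕ) : O) : O) : L) = (q : L) := by push_cast; rfl
      rw [this, map_natCast]
    rw [h3]
    rfl

section Tower

variable [Algebra L (AlgebraicClosure ℚ)] (N' q : ℕ) [NeZero N'] [NeZero q]

variable (L) in
/-- the algebra `lg_E L N' → lg_E L (N' q)` (the inclusion; `= ssm_gi_algebra`). -/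
@[reducible] def ssm_thi_algebra : Algebra ↥(lg_E L N') ↥(lg_E L (N' * q)) :=
  ssm_gi_algebra (ssm_al_E_le L N' q)

attribute [local instance] ssm_thi_algebra

variable (L) in
/-- the tower `L(λ) ⊆ lg_E L N' ⊆ lg_E L (N' q)`. -/
theorem ssm_thi_tower : IsScalarTower ↥(lg_K L) ↥(lg_E L N') ↥(lg_E L (N' * q)) :=
  IsScalarTower.of_algebraMap_eq fun _ => rfl

variable (L) in
theorem ssm_thi_charZero : CharZero ↥(lg_K L) :=
  charZero_of_injective_algebraMap (algebraMap L ↥(lg_K L)).injective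

variable (L) in
/-- **`hrank` of `ssm_thc_main`**: `[lg_E L (N' q) : lg_E L N'] = q + 1`. -/
theorem ssm_thi_hrank [hq : Fact q.Prime] (hq2 : ¬ 2 ∣ q) (hqN' : ¬ q ∣ N') :
    Module.finrank ↥(lg_E L N') ↥(lg_E L (N' * q)) = q + 1 :=
  (ssm_gt_finrank_eq (ssm_al_E_le L N' q)).trans (ssm_al_relfinrank_E L N' q hq.out hq2 hqN')

set_option synthInstance.maxHeartbeats 200000 in
/-- **[TH-INST], Legendre tower**: `ssm_thc_main` with `hrank`, `(T, hH, hT)` and the tower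
instances plugged, over a discrete valuation ring `O` of `L` with uniformiser `q` (the unramified
base).  What is left is the bundle `H : ssm_thc_Hyp …`, the presentation `S` of the local ring of
`B'` at `y0`, and `λ, λ - 1 ∉ y0`. -/
theorem ssm_thi_main (O : ValuationSubring L) [IsDiscreteValuationRing O] [hq : Fact q.Prime]
    (hq2 : ¬ 2 ∣ q) (hqN' : ¬ q ∣ N') (hπ : Irreducible ((q : ℕ) : O))
    (hram : lg_RamHyp (N' * q) (lgh_lamK L))
    {B' : Subalgebra ↥O ↥(lg_E L N')} {B : Subalgebra ↥O ↥(lg_E L (N' * q))}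
    {φ : B' →+* B} {y0 : Ideal B'} [y0.IsPrime]
    {S : Type*} [CommRing S] [IsDomain S] [IsLocalRing S] [IsNoetherianRing S]
    [IsIntegrallyClosed S] [Algebra B' S] [IsLocalization.AtPrime S y0]
    [Algebra S ↥(lg_E L N')] [IsScalarTower B' S ↥(lg_E L N')] [IsFractionRing S ↥(lg_E L N')]
    [Algebra S ↥(lg_E L (N' * q))] [IsScalarTower S ↥(lg_E L N') ↥(lg_E L (N' * q))]
    {P1 P2 𝔫0 : Ideal B} [P1.IsPrime] [P2.IsPrime] [𝔫0.IsPrime] {t' : B'} {gq : B}
    (H : ssm_thc_Hyp φ y0 S q P1 P2 𝔫0 t' gq)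
    (lam' : B') (hlam : (lam' : ↥(lg_E L N')) = lg_lamE N') (h0 : lam' ∉ y0)
    (h1 : lam' - 1 ∉ y0) :
    ∃ u v : ↥(lg_E L (N' * q)), u * v = (q : ↥(lg_E L (N' * q))) ∧
      (∃ s t : B, s ∉ 𝔫0 ∧ t ∈ P2 ∧ (s : ↥(lg_E L (N' * q))) * u = t) ∧
      (∃ s t : B, s ∉ 𝔫0 ∧ t ∈ P1 ∧ (s : ↥(lg_E L (N' * q))) * v = t) ∧
      (∀ z ∈ P2, ∃ s c : B, s ∉ 𝔫0 ∧
        (s : ↥(lg_E L (N' * q))) * (z : ↥(lg_E L (N' * q))) = u * c) ∧
      (∀ z ∈ P1, ∃ s c : B, s ∉ 𝔫0 ∧
        (s : ↥(lg_E L (N' * q))) * (z : ↥(lg_E L (N' * q))) = v * c) ∧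
      (∃ s t : B, s ∉ 𝔫0 ∧ t ∉ P1 ∧ (s : ↥(lg_E L (N' * q))) * u = t) ∧
      (∃ s t : B, s ∉ 𝔫0 ∧ t ∉ P2 ∧ (s : ↥(lg_E L (N' * q))) * v = t) := by
  haveI := ssm_thi_tower L N' q
  haveI := ssm_thi_charZero L
  haveI : FiniteDimensional ↥(lg_K L) ↥(lg_E L N') := lgf_tower_finite_K_E L N'
  have hrank := ssm_thi_hrank L N' q hq2 hqN'
  haveI : FiniteDimensional ↥(lg_E L N') ↥(lg_E L (N' * q)) := ssm_gi_finiteDimensional hrank
  exact ssm_thc_main ↥(lg_K L) ↥(lg_E L N') ↥(lg_E L (N' * q)) H hrank (ssm_thi_T L)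
    (fun V2 _ _ h => ssm_thi_hH (N' * q) hram V2 h)
    (ssm_thi_hT O q N' hπ lam' hlam h0 h1)

end Tower

end Leg

end Fermat.Agent.SS

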