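/-
Project SS (S34), cell [M], leaf [TH-INST], HESSE twin (helper8): the INSTANCE side of
`ssm_thc_main` (SS/Model/ThickCover.lean, helper2) for the HESSE tower
`K0 = L(μ) ⊆ K = hs_E L h3 N' ⊆ E = hs_E L h3 (N' q)` (`q ≠ 3` prime, in the application `q = 2`),
coordinate `x = μ - 1` ("Option M"), over a discrete valuation ring `O ⊆ L` with uniformiser `q`
containing a primitive cube root of unity `ω`:

* `ssm_thih_T`, `ssm_thih_hH` : `T = L ∪ {μ, (μ - 1)⁻¹, (μ - ω)⁻¹, (μ - ω²)⁻¹}` and the horizontal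
  unramifiedness `hH` from `hs_RamHyp3 h3 N (hsh_muK L h3) ω`;
* `ssm_thih_hT` : `hT` (`x, x² + 3 x + 3 ∉ y0`);
* `ssm_thih_E_mono`, `ssm_thih_E_le` : `hs_E L h3 N' ≤ hs_E L h3 N` for `N' ∣ N`, WITHOUT [F9];
* `ssm_thih_algebra`, `ssm_thih_tower`, `ssm_thih_charZero`, `ssm_thih_hrank` : the tower instances
  and `hrank : [hs_E L h3 (N' q) : hs_E L h3 N'] = q + 1` (from `hF9`);
* `ssm_thih_main` : `ssm_thc_main` with all of this plugged.

Prefix `ssm_thih_`.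
-/
import Mathlib
import Fermat.Agent.SS.Model.ThickInst
import Fermat.Agent.SS.Model.TwoPrimesHesW
import Fermat.Agent.JT3.Inst.HesseRegApply

set_option autoImplicit false
set_option linter.unusedSectionVars false
set_option linter.unusedVariables false
set_option linter.style.haveILetI false

noncomputable section

namespace Fermat.Agent.SS

open Fermat.Agent.JT3 IsLocalRing ModularCurve

section Hes

variable {L : Type*} [Field L] [CharZero L] (h3 : (3 : L) ≠ 0)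

attribute [local instance] hsh_algKE

/-- the set `T ⊆ L(μ)`: constants, `μ`, `(μ - 1)⁻¹`, `(μ - ω)⁻¹`, `(μ - ω²)⁻¹`. -/
def ssm_thih_T (ω : L) : Set (hs_K L h3) :=
  Set.range (algebraMap L (hs_K L h3)) ∪ {hsh_muK L h3, (hsh_muK L h3 - 1)⁻¹,
    (hsh_muK L h3 - algebraMap L (hs_K L h3) ω)⁻¹,
    (hsh_muK L h3 - algebraMap L (hs_K L h3) (ω ^ 2))⁻¹}

/-- **`hH` of `ssm_thc_main` for the Hesse cover**, from the ramification hypotheses. -/
theorem ssm_thih_hH (N : ℕ) [NeZero N] (ω : L) (hram : hs_RamHyp3 h3 N (hsh_muK L h3) ω)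
    (V2 : Subring (hs_K L h3)) [IsDiscreteValuationRing V2] [IsFractionRing V2 (hs_K L h3)]
    (h : ∀ z ∈ ssm_thih_T h3 ω, z ∈ V2) : jt_UnramAt V2 (hs_E L h3 N) :=
  hram.hH V2 (fun a => h _ (Or.inl ⟨a, rfl⟩)) (h _ (Or.inr (Or.inl rfl)))
    (h _ (Or.inr (Or.inr (Or.inl rfl)))) (h _ (Or.inr (Or.inr (Or.inr (Or.inl rfl)))))
    (h _ (Or.inr (Or.inr (Or.inr (Or.inr rfl)))))

theorem ssm_thih_coe_mu (N : ℕ) [NeZero N] :
    algebraMap ↥(hs_K L h3) ↥(hs_E L h3 N) (hsh_muK L h3) = hs_muE h3 N := rfl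

set_option synthInstance.maxHeartbeats 200000 in
/-- **`hT` of `ssm_thc_main` for the Hesse cover** at level `N` over a discrete valuation ring `O`
with uniformiser `q`, in the coordinate `x = μ - 1`, for any chart `B'` containing `x` and any prime
`y0` of `B'` off the cusps `x = 0`, `x² + 3 x + 3 = μ² + μ + 1 = 0`. -/
theorem ssm_thih_hT (O : ValuationSubring L) [IsDiscreteValuationRing O] (q N : ℕ) [NeZero N]
    (hπ : Irreducible ((q : ℕ) : O)) (ω : O) (hω : ω ^ 2 + ω + 1 = 0)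
    {B' : Subalgebra ↥O ↥(hs_E L h3 N)} {y0 : Ideal B'} [y0.IsPrime]
    {S : Type*} [CommRing S] [Algebra B' S] [IsLocalization.AtPrime S y0]
    [Algebra S ↥(hs_E L h3 N)] [IsScalarTower B' S ↥(hs_E L h3 N)]
    (x' : B') (hx : (x' : ↥(hs_E L h3 N)) = hs_muE h3 N - 1) (h0 : x' ∉ y0)
    (hc : x' ^ 2 + 3 * x' + 3 ∉ y0) :
    ∀ z ∈ ssm_thih_T h3 (ω : L), ∃ (k : ℕ) (s : S),
      algebraMap ↥(hs_K L h3) ↥(hs_E L h3 N) z * algebraMap S ↥(hs_E L h3 N) (q : S) ^ k =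
        algebraMap S ↥(hs_E L h3 N) s := by
  have hmu : ((x' + 1 : B') : ↥(hs_E L h3 N)) = hs_muE h3 N := by
    rw [AddMemClass.coe_add, hx]
    simp
  have hωB : (algebraMap ↥O B' ω) ^ 2 + algebraMap ↥O B' ω + 1 = 0 := by
    rw [← map_pow, ← map_add, ← map_one (algebraMap ↥O B'), ← map_add, hω, map_zero]
  have hprod : (x' + 1 - algebraMap ↥O B' ω) * (x' + 1 - algebraMap ↥O B' (ω ^ 2)) =
      x' ^ 2 + 3 * x' + 3 := by
    rw [map_pow]
    linear_combination (algebraMap ↥O B' ω - x' - 2) * hωB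
  have hω1 : x' + 1 - algebraMap ↥O B' ω ∉ y0 := fun h =>
    hc (hprod ▸ Ideal.mul_mem_right _ _ h)
  have hω2 : x' + 1 - algebraMap ↥O B' (ω ^ 2) ∉ y0 := fun h =>
    hc (hprod ▸ Ideal.mul_mem_left _ _ h)
  refine ssm_thi_hT_abs (A0 := ↥O) (B' := B') (y0 := y0) (S := S) (L0 := L) q
    (ssm_thih_T h3 (ω : L)) ?_ ?_
  · rintro z (⟨a, rfl⟩ | hz | hz | hz | hz)
    · exact Or.inl ⟨a, rfl⟩
    · rw [hz]
      exact Or.inr (Or.inl ⟨x' + 1, by rw [hmu]; rfl⟩)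
    · rw [hz]
      refine Or.inr (Or.inr ⟨x', h0, ?_⟩)
      rw [map_inv₀, map_sub, map_one, hx]
      rfl
    · rw [hz]
      refine Or.inr (Or.inr ⟨x' + 1 - algebraMap ↥O B' ω, hω1, ?_⟩)
      rw [map_inv₀, map_sub, AddSubgroupClass.coe_sub, hmu]
      rfl
    · rw [Set.mem_singleton_iff] at hz
      rw [hz]
      refine Or.inr (Or.inr ⟨x' + 1 - algebraMap ↥O B' (ω ^ 2), hω2, ?_⟩)
      rw [map_inv₀, map_sub, AddSubgroupClass.coe_sub, hmu]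
      rfl
  · intro a
    obtain ⟨k, o, ho⟩ := ssm_thi_base O hπ a
    refine ⟨k, algebraMap ↥O B' o, ?_⟩
    have h2 : ((algebraMap ↥O B' o : B') : ↥(hs_E L h3 N)) =
        algebraMap L ↥(hs_E L h3 N) (o : L) := rfl
    rw [h2, ← ho, map_mul, map_pow]
    have h3' : algebraMap L ↥(hs_E L h3 N) ((((q : ℕ) : O) : O) : L) = (q : ↥(hs_E L h3 N)) := by
      have : ((((q : ℕ) : O) : O) : L) = (q : L) := by push_cast; rfl
      rw [this, map_natCast]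
    rw [h3']
    rfl

section Tower

/-- first degeneracy without [F9]: `hs_E L h3 N' ≤ hs_E L h3 N` for `N' ∣ N`. -/
theorem ssm_thih_E_mono {N' N : ℕ} [NeZero N'] [NeZero N] (h : N' ∣ N) :
    hs_E L h3 N' ≤ hs_E L h3 N :=
  sup_le_sup_right (IntermediateField.map_mono _ (full_degeneracyC_le L h)) _

variable (N' q : ℕ) [NeZero N'] [NeZero q]

theorem ssm_thih_E_le : hs_E L h3 N' ≤ hs_E L h3 (N' * q) :=
  ssm_thih_E_mono h3 (Dvd.intro _ rfl)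

/-- the algebra `hs_E L h3 N' → hs_E L h3 (N' q)` (the inclusion; `= ssm_gi_algebra hle` for every
proof `hle` of the inclusion, by proof irrelevance). -/
@[reducible] def ssm_thih_algebra : Algebra ↥(hs_E L h3 N') ↥(hs_E L h3 (N' * q)) :=
  ssm_gi_algebra (ssm_thih_E_le h3 N' q)

attribute [local instance] ssm_thih_algebra

/-- the tower `L(μ) ⊆ hs_E L h3 N' ⊆ hs_E L h3 (N' q)`. -/
theorem ssm_thih_tower :
    IsScalarTower ↥(hs_K L h3) ↥(hs_E L h3 N') ↥(hs_E L h3 (N' * q)) :=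
  IsScalarTower.of_algebraMap_eq fun _ => rfl

theorem ssm_thih_charZero : CharZero ↥(hs_K L h3) :=
  charZero_of_injective_algebraMap (algebraMap L ↥(hs_K L h3)).injective

variable [Algebra L (AlgebraicClosure ℚ)]

/-- **`hrank` of `ssm_thc_main`**: `[hs_E L h3 (N' q) : hs_E L h3 N'] = q + 1`. -/
theorem ssm_thih_hrank
    (hF9 : ∀ (N : ℕ) [NeZero N], hs_E L h3 N = modularFunctionFieldFullC L (Nat.lcm 9 (3 * N)))
    [hq : Fact q.Prime] (hq3 : ¬ 3 ∣ q) (hqN' : ¬ q ∣ N') :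
    Module.finrank ↥(hs_E L h3 N') ↥(hs_E L h3 (N' * q)) = q + 1 :=
  (ssm_gt_finrank_eq (ssm_thih_E_le h3 N' q)).trans
    (ssm_alh_relfinrank_E L h3 hF9 N' q hq.out hq3 hqN')

set_option synthInstance.maxHeartbeats 200000 in
/-- **[TH-INST], Hesse tower** (coordinate `x = μ - 1`): `ssm_thc_main` with `hrank`,
`(T, hH, hT)` and the tower instances plugged, over a discrete valuation ring `O` of `L` with
uniformiser `q` containing a primitive cube root of unity `ω`. -/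
theorem ssm_thih_main
    (hF9 : ∀ (N : ℕ) [NeZero N], hs_E L h3 N = modularFunctionFieldFullC L (Nat.lcm 9 (3 * N)))
    (O : ValuationSubring L) [IsDiscreteValuationRing O] [hq : Fact q.Prime]
    (hq3 : ¬ 3 ∣ q) (hqN' : ¬ q ∣ N') (hπ : Irreducible ((q : ℕ) : O))
    (ω : O) (hω : ω ^ 2 + ω + 1 = 0)
    (hram : hs_RamHyp3 h3 (N' * q) (hsh_muK L h3) (ω : L))
    {B' : Subalgebra ↥O ↥(hs_E L h3 N')} {B : Subalgebra ↥O ↥(hs_E L h3 (N' * q))}
    {φ : B' →+* B} {y0 : Ideal B'} [y0.IsPrime]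
    {S : Type*} [CommRing S] [IsDomain S] [IsLocalRing S] [IsNoetherianRing S]
    [IsIntegrallyClosed S] [Algebra B' S] [IsLocalization.AtPrime S y0]
    [Algebra S ↥(hs_E L h3 N')] [IsScalarTower B' S ↥(hs_E L h3 N')]
    [IsFractionRing S ↥(hs_E L h3 N')]
    [Algebra S ↥(hs_E L h3 (N' * q))]
    [IsScalarTower S ↥(hs_E L h3 N') ↥(hs_E L h3 (N' * q))]
    {P1 P2 𝔫0 : Ideal B} [P1.IsPrime] [P2.IsPrime] [𝔫0.IsPrime] {t' : B'} {gq : B}
    (H : ssm_thc_Hyp φ y0 S q P1 P2 𝔫0 t' gq)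
    (x' : B') (hx : (x' : ↥(hs_E L h3 N')) = hs_muE h3 N' - 1) (h0 : x' ∉ y0)
    (hc : x' ^ 2 + 3 * x' + 3 ∉ y0) :
    ∃ u v : ↥(hs_E L h3 (N' * q)), u * v = (q : ↥(hs_E L h3 (N' * q))) ∧
      (∃ s t : B, s ∉ 𝔫0 ∧ t ∈ P2 ∧ (s : ↥(hs_E L h3 (N' * q))) * u = t) ∧
      (∃ s t : B, s ∉ 𝔫0 ∧ t ∈ P1 ∧ (s : ↥(hs_E L h3 (N' * q))) * v = t) ∧
      (∀ z ∈ P2, ∃ s c : B, s ∉ 𝔫0 ∧
        (s : ↥(hs_E L h3 (N' * q))) * (z : ↥(hs_E L h3 (N' * q))) = u * c) ∧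
      (∀ z ∈ P1, ∃ s c : B, s ∉ 𝔫0 ∧
        (s : ↥(hs_E L h3 (N' * q))) * (z : ↥(hs_E L h3 (N' * q))) = v * c) ∧
      (∃ s t : B, s ∉ 𝔫0 ∧ t ∉ P1 ∧ (s : ↥(hs_E L h3 (N' * q))) * u = t) ∧
      (∃ s t : B, s ∉ 𝔫0 ∧ t ∉ P2 ∧ (s : ↥(hs_E L h3 (N' * q))) * v = t) := by
  haveI := ssm_thih_tower h3 N' q
  haveI := ssm_thih_charZero (L := L) h3
  haveI : FiniteDimensional ↥(hs_K L h3) ↥(hs_E L h3 N') := hs_finiteDimensional_K_E L h3 N'
  have hrank := ssm_thih_hrank h3 N' q hF9 hq3 hqN'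
  haveI : FiniteDimensional ↥(hs_E L h3 N') ↥(hs_E L h3 (N' * q)) :=
    ssm_gi_finiteDimensional hrank
  exact ssm_thc_main ↥(hs_K L h3) ↥(hs_E L h3 N') ↥(hs_E L h3 (N' * q)) H hrank
    (ssm_thih_T h3 (ω : L))
    (fun V2 _ _ h => ssm_thih_hH h3 (N' * q) (ω : L) hram V2 h)
    (ssm_thih_hT h3 O q N' hπ ω hω x' hx h0 hc)

end Tower

end Hes

end Fermat.Agent.SS
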