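/-
SS [M], leaf [ND]-H part (c) (helper29), prefix `ssm_nht_`: THICKNESS ONE AT THE CROSSING POINTS OF
THE HESSE TOWER (coordinate `x = μ - 1`, "Option M") OVER AN UNRAMIFIED BASE = the hypothesis
`hthick` of `ssm_nh_node_of` (helper12's `NodeHes.lean`).

* `ssm_nht_thick`    : over ANY base `(L, O)` with uniformiser `q` (`CharZero L`, `L ⊆ Q̄`), from
  the cube root of unity `ω ∈ O`, `hram` at level `N' q`, and the level-`N'` inputs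
  (`hprime`, `hic`, `hEC` in the shapes of `ssm_nh_cross`): `ssm_nx_thick` with the crossing package
  `ssm_nh_cross` and helper8's [TH-INST]-H (`ssm_thih_T/_hH/_hT/_hrank`) plugged;
* `ssm_nht_ram`      : `ω = ζ^N ∈ O` and `hs_RamHyp3` at two levels `N`, `M` at once;
* `ssm_nht_thick_nf` : the same over a NUMBER FIELD `L ∋ ζ_{3N'}` with uniformiser `q`, all level
  inputs discharged (helper20's `ssm_hlr_main`, `ssm_hl_EC_aeval`);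
* `ssm_nht_not_dvd`  : `q ∤ 3N'` (`hqM` of `SmallBase.lean` at `M := 3N'`);
* `ssm_nht_thick_sb` : the same at the small base `(ssm_sb_L0 ζ, ssm_sb_O0 O ζ)` of helper14's
  `SmallBase.lean` = `hthick` of `ssm_nh_node_of` VERBATIM.
-/
import Mathlib
import Fermat.Agent.SS.Model.NodeHes
import Fermat.Agent.SS.Model.ThickInstHes
import Fermat.Agent.SS.Model.HesLevelRam
import Fermat.Agent.SS.Model.SmallBase

set_option autoImplicit false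
set_option linter.unusedSectionVars false
set_option linter.unusedVariables false
set_option linter.style.haveILetI false

noncomputable section

open ModularCurve IntermediateField IsLocalRing Polynomial
open Fermat.Agent.JT3

namespace Fermat.Agent.SS

section Thick

variable {L : Type*} [Field L] [CharZero L] [Algebra L (AlgebraicClosure ℚ)] (h3 : (3 : L) ≠ 0)
  (O : ValuationSubring L) [IsDiscreteValuationRing O] (h3O : IsUnit (3 : O))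
variable (N' q : ℕ) [NeZero N'] [NeZero q] [hq : Fact q.Prime] [CharP (ResidueField O) q]
  (hq3 : ¬ 3 ∣ q) (hqN' : ¬ q ∣ N') (hπ : Irreducible ((q : ℕ) : ↥O))

attribute [local instance] hsh_algKE ssm_thih_algebra

set_option synthInstance.maxHeartbeats 400000 in
set_option maxHeartbeats 3200000 in
theorem ssm_nht_thick (ω : O) (hω : ω ^ 2 + ω + 1 = 0)
    (hram : hs_RamHyp3 h3 (N' * q) (hsh_muK L h3) (ω : L))
    (hprime : Prime (algebraMap ↥O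
      (fc_chart ↥O ({hs_muE h3 N' - 1} : Set ↥(hs_E L h3 N'))) ((q : ℕ) : ↥O)))
    (hic : IsIntegrallyClosed (fc_chart ↥O ({hs_muE h3 N' - 1} : Set ↥(hs_E L h3 N')) ⧸
      (Ideal.span {algebraMap ↥O (fc_chart ↥O ({hs_muE h3 N' - 1} : Set ↥(hs_E L h3 N')))
          ((q : ℕ) : ↥O)} :
        Ideal (fc_chart ↥O ({hs_muE h3 N' - 1} : Set ↥(hs_E L h3 N'))))))
    (hEC : ∀ 𝔫' : Ideal (fc_chart ↥O ({hs_muE h3 N' - 1} : Set ↥(hs_E L h3 N'))),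
      𝔫'.IsMaximal →
      algebraMap ↥O (fc_chart ↥O ({hs_muE h3 N' - 1} : Set ↥(hs_E L h3 N')))
        ((q : ℕ) : ↥O) ∈ 𝔫' →
      ssm_hl_x h3 O N' ∉ 𝔫' →
      aeval (ssm_hl_x h3 O N') (X ^ 2 + 3 * X + 3 : ℤ[X]) ∉ 𝔫' →
      ssm_hl_x h3 O N' ^ (q ^ 2) - ssm_hl_x h3 O N' ∈ 𝔫' →
      tq_GenBy (algebraMap ↥O (fc_chart ↥O ({hs_muE h3 N' - 1} : Set ↥(hs_E L h3 N')))
          ((q : ℕ) : ↥O))
        (ssm_hl_x h3 O N' ^ (q ^ 2) - ssm_hl_x h3 O N') 𝔫') :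
    ∀ 𝔫0 : Ideal (fc_chart ↥O ({hs_muE h3 (N' * q) - 1} :
        Set ↥(hs_E L h3 (N' * q)))),
      𝔫0.IsMaximal →
      ssm_tp_P (fc_chart ↥O ({hs_muE h3 (N' * q) - 1} : Set ↥(hs_E L h3 (N' * q))))
        (ssm_fh_V1 h3 O h3O hπ N' q) ≤ 𝔫0 →
      ssm_tp_P (fc_chart ↥O ({hs_muE h3 (N' * q) - 1} : Set ↥(hs_E L h3 (N' * q))))
        (ssm_fh_V2 h3 O h3O hπ N' q hq3 hqN') ≤ 𝔫0 →
      ∃ u v : ↥(hs_E L h3 (N' * q)), u * v = ((q : ℕ) : ↥(hs_E L h3 (N' * q))) ∧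
        (∃ s t : fc_chart ↥O ({hs_muE h3 (N' * q) - 1} : Set ↥(hs_E L h3 (N' * q))),
          s ∉ 𝔫0 ∧
          t ∈ ssm_tp_P (fc_chart ↥O ({hs_muE h3 (N' * q) - 1} : Set ↥(hs_E L h3 (N' * q))))
            (ssm_fh_V2 h3 O h3O hπ N' q hq3 hqN') ∧
          (s : ↥(hs_E L h3 (N' * q))) * u = t) ∧
        (∃ s t : fc_chart ↥O ({hs_muE h3 (N' * q) - 1} : Set ↥(hs_E L h3 (N' * q))),
          s ∉ 𝔫0 ∧
          t ∈ ssm_tp_P (fc_chart ↥O ({hs_muE h3 (N' * q) - 1} : Set ↥(hs_E L h3 (N' * q))))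
            (ssm_fh_V1 h3 O h3O hπ N' q) ∧
          (s : ↥(hs_E L h3 (N' * q))) * v = t) ∧
        (∀ z ∈ ssm_tp_P (fc_chart ↥O ({hs_muE h3 (N' * q) - 1} :
              Set ↥(hs_E L h3 (N' * q))))
            (ssm_fh_V2 h3 O h3O hπ N' q hq3 hqN'),
          ∃ s c : fc_chart ↥O ({hs_muE h3 (N' * q) - 1} : Set ↥(hs_E L h3 (N' * q))),
            s ∉ 𝔫0 ∧
            (s : ↥(hs_E L h3 (N' * q))) * (z : ↥(hs_E L h3 (N' * q))) = u * c) ∧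
        (∀ z ∈ ssm_tp_P (fc_chart ↥O ({hs_muE h3 (N' * q) - 1} :
              Set ↥(hs_E L h3 (N' * q))))
            (ssm_fh_V1 h3 O h3O hπ N' q),
          ∃ s c : fc_chart ↥O ({hs_muE h3 (N' * q) - 1} : Set ↥(hs_E L h3 (N' * q))),
            s ∉ 𝔫0 ∧
            (s : ↥(hs_E L h3 (N' * q))) * (z : ↥(hs_E L h3 (N' * q))) = v * c) ∧
        (∃ s t : fc_chart ↥O ({hs_muE h3 (N' * q) - 1} : Set ↥(hs_E L h3 (N' * q))),
          s ∉ 𝔫0 ∧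
          t ∉ ssm_tp_P (fc_chart ↥O ({hs_muE h3 (N' * q) - 1} : Set ↥(hs_E L h3 (N' * q))))
            (ssm_fh_V1 h3 O h3O hπ N' q) ∧
          (s : ↥(hs_E L h3 (N' * q))) * u = t) ∧
        (∃ s t : fc_chart ↥O ({hs_muE h3 (N' * q) - 1} : Set ↥(hs_E L h3 (N' * q))),
          s ∉ 𝔫0 ∧
          t ∉ ssm_tp_P (fc_chart ↥O ({hs_muE h3 (N' * q) - 1} : Set ↥(hs_E L h3 (N' * q))))
            (ssm_fh_V2 h3 O h3O hπ N' q hq3 hqN') ∧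
          (s : ↥(hs_E L h3 (N' * q))) * v = t) := by
  intro 𝔫0 h𝔫0 h1 h2
  haveI := ssm_thih_tower h3 N' q
  haveI := ssm_thih_charZero (L := L) h3
  haveI : FiniteDimensional ↥(hs_K L h3) ↥(hs_E L h3 N') := hs_finiteDimensional_K_E L h3 N'
  have hrank := ssm_thih_hrank h3 N' q (ssm_fh_hF9 h3) hq3 hqN'
  haveI : FiniteDimensional ↥(hs_E L h3 N') ↥(hs_E L h3 (N' * q)) :=
    ssm_gi_finiteDimensional hrank
  haveI := ssm_glh_finite h3 N'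
  have hx' := ssm_hl_transcendental L h3 N'
  haveI : IsNoetherianRing ↥(fc_chart ↥O ({hs_muE h3 N' - 1} : Set ↥(hs_E L h3 N'))) :=
    ssm_ths_chart_isNoetherianRing (A0 := ↥O) (L := L) hx'
  haveI : IsIntegrallyClosed ↥(fc_chart ↥O ({hs_muE h3 N' - 1} : Set ↥(hs_E L h3 N'))) :=
    ssm_ths_chart_isIntegrallyClosed (A0 := ↥O) (L := L) _
  haveI : IsFractionRing ↥(fc_chart ↥O ({hs_muE h3 N' - 1} : Set ↥(hs_E L h3 N')))
      ↥(hs_E L h3 N') :=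
    ssm_ths_chart_isFractionRing (A0 := ↥O) (L := L) _
  have C := ssm_nh_cross h3 O h3O hπ N' q hq3 hqN' hprime hic hEC
  have hqE : ((q : ℕ) : ↥(hs_E L h3 (N' * q))) ≠ 0 := by
    haveI : CharZero ↥(hs_E L h3 (N' * q)) :=
      charZero_of_injective_algebraMap (algebraMap L ↥(hs_E L h3 (N' * q))).injective
    exact Nat.cast_ne_zero.mpr hq.out.ne_zero
  refine ssm_nx_thick ↥(hs_K L h3) ↥(hs_E L h3 N') ↥(hs_E L h3 (N' * q)) C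
    (map_natCast _ q) hq.out hqE hrank (ssm_thih_T h3 (ω : L))
    (fun V2 _ _ h => ssm_thih_hH h3 (N' * q) (ω : L) hram V2 h) ?_ 𝔫0 h𝔫0 h1 h2
  intro 𝔫1 h𝔫1 _ _ hl hc
  haveI : 𝔫1.IsPrime := h𝔫1.isPrime
  haveI : (𝔫1.comap (ssm_cpi_phi ↥O ↥(hs_E L h3 (N' * q)) (hs_muE h3 N' - 1))).IsPrime :=
    Ideal.comap_isPrime _ 𝔫1
  have h0 : ssm_hl_x h3 O N' ∉ 𝔫1.comap (ssm_cpi_phi ↥O ↥(hs_E L h3 (N' * q)) (hs_muE h3 N' - 1)) :=
    fun h => hl (Ideal.mem_comap.mp h)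
  have hc' : ssm_hl_x h3 O N' ^ 2 + 3 * ssm_hl_x h3 O N' + 3 ∉
      𝔫1.comap (ssm_cpi_phi ↥O ↥(hs_E L h3 (N' * q)) (hs_muE h3 N' - 1)) := by
    intro h
    apply hc
    have := Ideal.mem_comap.mp h
    rw [ssm_hl_aeval_mid]
    have e : (ssm_cpi_phi ↥O ↥(hs_E L h3 (N' * q)) (hs_muE h3 N' - 1))
        (ssm_hl_x h3 O N' ^ 2 + 3 * ssm_hl_x h3 O N' + 3) =
        (ssm_cpi_phi ↥O ↥(hs_E L h3 (N' * q)) (hs_muE h3 N' - 1)) (ssm_hl_x h3 O N') ^ 2 +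
          3 * (ssm_cpi_phi ↥O ↥(hs_E L h3 (N' * q)) (hs_muE h3 N' - 1)) (ssm_hl_x h3 O N') + 3 := by
      rw [map_add, map_add, map_mul, map_pow, map_ofNat]
    exact (congrArg (fun z => z ∈ 𝔫1) e).mp this
  exact ssm_nx_hT_elem ↥(hs_K L h3) ↥(hs_E L h3 N')
    (𝔫1.comap (ssm_cpi_phi ↥O ↥(hs_E L h3 (N' * q)) (hs_muE h3 N' - 1))) q
    (ssm_thih_T h3 (ω : L))
    (ssm_thih_hT h3 O q N' hπ ω hω
      (S := ↥(fc_locAt ↥(hs_E L h3 N')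
        (𝔫1.comap (ssm_cpi_phi ↥O ↥(hs_E L h3 (N' * q)) (hs_muE h3 N' - 1)))))
      (ssm_hl_x h3 O N') rfl h0 hc')


end Thick

section Ram

variable {L : Type*} [Field L] [CharZero L] [Algebra ℚ L] [Algebra L (AlgebraicClosure ℚ)]
  [IsScalarTower ℚ L (AlgebraicClosure ℚ)]
  (h3 : (3 : L) ≠ 0) (O : ValuationSubring L) (N M : ℕ) [NeZero N] [NeZero M]

/-- the cube root of unity `ω = ζ^N ∈ O` (`ζ` a primitive `3N`-th root of unity) and the horizontal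
ramification hypothesis of the Hesse cover at the two levels `N` and `M`. -/
theorem ssm_nht_ram {ζ : L} (hζ : IsPrimitiveRoot ζ (3 * N)) :
    ∃ ω : O, ω ^ 2 + ω + 1 = 0 ∧ hs_RamHyp3 h3 N (hsh_muK L h3) (ω : L) ∧
      hs_RamHyp3 h3 M (hsh_muK L h3) (ω : L) := by
  have hN0 : 0 < 3 * N := Nat.pos_of_ne_zero (Nat.mul_ne_zero (by norm_num) (NeZero.ne N))
  have hω : IsPrimitiveRoot (ζ ^ N) 3 := hζ.pow hN0 (mul_comm 3 N)
  have hω3 : (ζ ^ N) ^ 3 = 1 := hω.pow_eq_one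
  have hωsum : (ζ ^ N) ^ 2 + ζ ^ N + 1 = 0 := by
    have := hω.geom_sum_eq_zero (by norm_num)
    simp only [Finset.sum_range_succ, Finset.sum_range_zero, pow_zero, pow_one, zero_add] at this
    linear_combination this
  obtain ⟨cH, cT, -⟩ := hsrc_cores (L := L) h3 N
  obtain ⟨cH', cT', -⟩ := hsrc_cores (L := L) h3 M
  exact ⟨⟨ζ ^ N, ssm_hlr_root_mem O _ hω3⟩, Subtype.ext hωsum,
    hsrw_ramHyp3 h3 N (ζ ^ N) hωsum cH cT, hsrw_ramHyp3 h3 M (ζ ^ N) hωsum cH' cT'⟩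

end Ram

section NF

variable (L : Type) [Field L] [NumberField L] [Algebra L (AlgebraicClosure ℚ)]
  (h3 : (3 : L) ≠ 0) (O : ValuationSubring L) [IsDiscreteValuationRing O] (h3O : IsUnit (3 : O))
variable (N' q : ℕ) [NeZero N'] [NeZero q] [hq : Fact q.Prime] [CharP (ResidueField O) q]
  (hq3 : ¬ 3 ∣ q) (hqN' : ¬ q ∣ N') (hπ : Irreducible ((q : ℕ) : ↥O))
  (ζ : L) (hζ : IsPrimitiveRoot ζ (3 * N'))

include hζ in
set_option synthInstance.maxHeartbeats 400000 in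
set_option maxHeartbeats 3200000 in
/-- **thickness one over an unramified number-field base**: `L ⊆ Q̄` a number field containing a
primitive `3N'`-th root of unity, `O` a discrete valuation ring of `L` with uniformiser `q ≠ 3`,
`q ∤ N'`.  This is the hypothesis `hthick` of `ssm_nh_node_of` at `(L0, O0) := (L, O)`. -/
theorem ssm_nht_thick_nf :
    ∀ 𝔫0 : Ideal (fc_chart ↥O ({hs_muE h3 (N' * q) - 1} :
        Set ↥(hs_E L h3 (N' * q)))),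
      𝔫0.IsMaximal →
      ssm_tp_P (fc_chart ↥O ({hs_muE h3 (N' * q) - 1} : Set ↥(hs_E L h3 (N' * q))))
        (ssm_fh_V1 h3 O h3O hπ N' q) ≤ 𝔫0 →
      ssm_tp_P (fc_chart ↥O ({hs_muE h3 (N' * q) - 1} : Set ↥(hs_E L h3 (N' * q))))
        (ssm_fh_V2 h3 O h3O hπ N' q hq3 hqN') ≤ 𝔫0 →
      ∃ u v : ↥(hs_E L h3 (N' * q)), u * v = ((q : ℕ) : ↥(hs_E L h3 (N' * q))) ∧
        (∃ s t : fc_chart ↥O ({hs_muE h3 (N' * q) - 1} : Set ↥(hs_E L h3 (N' * q))),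
          s ∉ 𝔫0 ∧
          t ∈ ssm_tp_P (fc_chart ↥O ({hs_muE h3 (N' * q) - 1} : Set ↥(hs_E L h3 (N' * q))))
            (ssm_fh_V2 h3 O h3O hπ N' q hq3 hqN') ∧
          (s : ↥(hs_E L h3 (N' * q))) * u = t) ∧
        (∃ s t : fc_chart ↥O ({hs_muE h3 (N' * q) - 1} : Set ↥(hs_E L h3 (N' * q))),
          s ∉ 𝔫0 ∧
          t ∈ ssm_tp_P (fc_chart ↥O ({hs_muE h3 (N' * q) - 1} : Set ↥(hs_E L h3 (N' * q))))
            (ssm_fh_V1 h3 O h3O hπ N' q) ∧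
          (s : ↥(hs_E L h3 (N' * q))) * v = t) ∧
        (∀ z ∈ ssm_tp_P (fc_chart ↥O ({hs_muE h3 (N' * q) - 1} :
              Set ↥(hs_E L h3 (N' * q))))
            (ssm_fh_V2 h3 O h3O hπ N' q hq3 hqN'),
          ∃ s c : fc_chart ↥O ({hs_muE h3 (N' * q) - 1} : Set ↥(hs_E L h3 (N' * q))),
            s ∉ 𝔫0 ∧
            (s : ↥(hs_E L h3 (N' * q))) * (z : ↥(hs_E L h3 (N' * q))) = u * c) ∧
        (∀ z ∈ ssm_tp_P (fc_chart ↥O ({hs_muE h3 (N' * q) - 1} :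
              Set ↥(hs_E L h3 (N' * q))))
            (ssm_fh_V1 h3 O h3O hπ N' q),
          ∃ s c : fc_chart ↥O ({hs_muE h3 (N' * q) - 1} : Set ↥(hs_E L h3 (N' * q))),
            s ∉ 𝔫0 ∧
            (s : ↥(hs_E L h3 (N' * q))) * (z : ↥(hs_E L h3 (N' * q))) = v * c) ∧
        (∃ s t : fc_chart ↥O ({hs_muE h3 (N' * q) - 1} : Set ↥(hs_E L h3 (N' * q))),
          s ∉ 𝔫0 ∧
          t ∉ ssm_tp_P (fc_chart ↥O ({hs_muE h3 (N' * q) - 1} : Set ↥(hs_E L h3 (N' * q))))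
            (ssm_fh_V1 h3 O h3O hπ N' q) ∧
          (s : ↥(hs_E L h3 (N' * q))) * u = t) ∧
        (∃ s t : fc_chart ↥O ({hs_muE h3 (N' * q) - 1} : Set ↥(hs_E L h3 (N' * q))),
          s ∉ 𝔫0 ∧
          t ∉ ssm_tp_P (fc_chart ↥O ({hs_muE h3 (N' * q) - 1} : Set ↥(hs_E L h3 (N' * q))))
            (ssm_fh_V2 h3 O h3O hπ N' q hq3 hqN') ∧
          (s : ↥(hs_E L h3 (N' * q))) * v = t) := by
  have hqO : ((q : ℕ) : O) ∈ maximalIdeal O := by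
    rw [← residue_eq_zero_iff, map_natCast]
    exact CharP.cast_eq_zero _ q
  have hq3' : q ≠ 3 := by
    rintro rfl
    exact hq3 dvd_rfl
  obtain ⟨ω, hω, hram', hram⟩ := ssm_nht_ram h3 O N' (N' * q) hζ
  obtain ⟨-, -, hprime1, -, -, hded1, -⟩ := ssm_hlr_main h3 O N' hπ q hqO hq3' hqN' ζ hζ
  have hic1 : IsIntegrallyClosed (fc_chart ↥O ({hs_muE h3 N' - 1} : Set ↥(hs_E L h3 N')) ⧸
      (Ideal.span {algebraMap ↥O (fc_chart ↥O ({hs_muE h3 N' - 1} : Set ↥(hs_E L h3 N')))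
          ((q : ℕ) : ↥O)} :
        Ideal (fc_chart ↥O ({hs_muE h3 N' - 1} : Set ↥(hs_E L h3 N'))))) := by
    haveI := hded1
    infer_instance
  exact ssm_nht_thick h3 O h3O N' q hq3 hqN' hπ ω hω hram hprime1 hic1
    (ssm_hl_EC_aeval h3 O N' hπ q hqO hq3' hqN' ω hω hram')

end NF

section SB

variable {L : Type} [Field L] [NumberField L] [Algebra L (AlgebraicClosure ℚ)]
  (O : ValuationSubring L) [IsDiscreteValuationRing O]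
variable (N' q : ℕ) [NeZero N'] [NeZero q] [hq : Fact q.Prime] [CharP (ResidueField O) q]
  (hq3 : ¬ 3 ∣ q) (hqN' : ¬ q ∣ N') (ζ : L) (hζ : IsPrimitiveRoot ζ (3 * N'))

omit [NeZero N'] [NeZero q] in
include hq3 hqN' in
/-- `q ∤ 3N'`: the hypothesis `hqM` of `SmallBase.lean` at `M := 3N'`. -/
theorem ssm_nht_not_dvd : ¬ q ∣ 3 * N' := fun h =>
  (hq.out.dvd_mul.mp h).elim
    (fun h3 => hq3 (((Nat.prime_dvd_prime_iff_eq hq.out Nat.prime_three).mp h3) ▸ dvd_rfl)) hqN'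

include hζ in
set_option synthInstance.maxHeartbeats 400000 in
set_option maxHeartbeats 3200000 in
/-- **thickness one over the small base** `(L0, O0) = (ℚ(ζ_{3N'}), O ∩ L0)` of `SmallBase.lean`
(`M := 3N'`): the hypothesis `hthick` of `ssm_nh_node_of` VERBATIM at
`(L0, O0) := (ssm_sb_L0 ζ, ssm_sb_O0 O ζ)`, for ANY proofs `h30`, `h3O0`, `hπ0` and any instances
`[IsDiscreteValuationRing O0]` (`ssm_sb_isDVR`), `[CharP (ResidueField O0) q]` (`ssm_sb_charP`). -/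
theorem ssm_nht_thick_sb (h30 : (3 : ssm_sb_L0 ζ) ≠ 0)
    [IsDiscreteValuationRing ↥(ssm_sb_O0 O ζ)] [CharP (ResidueField ↥(ssm_sb_O0 O ζ)) q]
    (h3O0 : IsUnit (3 : ↥(ssm_sb_O0 O ζ)))
    (hπ0 : Irreducible ((q : ℕ) : ↥(ssm_sb_O0 O ζ))) :
    letI := ssm_sb_algebra ζ
    ∀ 𝔫0 : Ideal (fc_chart ↥(ssm_sb_O0 O ζ) ({hs_muE h30 (N' * q) - 1} :
        Set ↥(hs_E (ssm_sb_L0 ζ) h30 (N' * q)))),
      𝔫0.IsMaximal →
      ssm_tp_P (fc_chart ↥(ssm_sb_O0 O ζ) ({hs_muE h30 (N' * q) - 1} : Set ↥(hs_E (ssm_sb_L0 ζ) h30 (N' * q))))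
        (ssm_fh_V1 h30 (ssm_sb_O0 O ζ) h3O0 hπ0 N' q) ≤ 𝔫0 →
      ssm_tp_P (fc_chart ↥(ssm_sb_O0 O ζ) ({hs_muE h30 (N' * q) - 1} : Set ↥(hs_E (ssm_sb_L0 ζ) h30 (N' * q))))
        (ssm_fh_V2 h30 (ssm_sb_O0 O ζ) h3O0 hπ0 N' q hq3 hqN') ≤ 𝔫0 →
      ∃ u v : ↥(hs_E (ssm_sb_L0 ζ) h30 (N' * q)), u * v = ((q : ℕ) : ↥(hs_E (ssm_sb_L0 ζ) h30 (N' * q))) ∧
        (∃ s t : fc_chart ↥(ssm_sb_O0 O ζ) ({hs_muE h30 (N' * q) - 1} : Set ↥(hs_E (ssm_sb_L0 ζ) h30 (N' * q))),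
          s ∉ 𝔫0 ∧
          t ∈ ssm_tp_P (fc_chart ↥(ssm_sb_O0 O ζ) ({hs_muE h30 (N' * q) - 1} : Set ↥(hs_E (ssm_sb_L0 ζ) h30 (N' * q))))
            (ssm_fh_V2 h30 (ssm_sb_O0 O ζ) h3O0 hπ0 N' q hq3 hqN') ∧
          (s : ↥(hs_E (ssm_sb_L0 ζ) h30 (N' * q))) * u = t) ∧
        (∃ s t : fc_chart ↥(ssm_sb_O0 O ζ) ({hs_muE h30 (N' * q) - 1} : Set ↥(hs_E (ssm_sb_L0 ζ) h30 (N' * q))),
          s ∉ 𝔫0 ∧
          t ∈ ssm_tp_P (fc_chart ↥(ssm_sb_O0 O ζ) ({hs_muE h30 (N' * q) - 1} : Set ↥(hs_E (ssm_sb_L0 ζ) h30 (N' * q))))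
            (ssm_fh_V1 h30 (ssm_sb_O0 O ζ) h3O0 hπ0 N' q) ∧
          (s : ↥(hs_E (ssm_sb_L0 ζ) h30 (N' * q))) * v = t) ∧
        (∀ z ∈ ssm_tp_P (fc_chart ↥(ssm_sb_O0 O ζ) ({hs_muE h30 (N' * q) - 1} :
              Set ↥(hs_E (ssm_sb_L0 ζ) h30 (N' * q))))
            (ssm_fh_V2 h30 (ssm_sb_O0 O ζ) h3O0 hπ0 N' q hq3 hqN'),
          ∃ s c : fc_chart ↥(ssm_sb_O0 O ζ) ({hs_muE h30 (N' * q) - 1} : Set ↥(hs_E (ssm_sb_L0 ζ) h30 (N' * q))),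
            s ∉ 𝔫0 ∧
            (s : ↥(hs_E (ssm_sb_L0 ζ) h30 (N' * q))) * (z : ↥(hs_E (ssm_sb_L0 ζ) h30 (N' * q))) = u * c) ∧
        (∀ z ∈ ssm_tp_P (fc_chart ↥(ssm_sb_O0 O ζ) ({hs_muE h30 (N' * q) - 1} :
              Set ↥(hs_E (ssm_sb_L0 ζ) h30 (N' * q))))
            (ssm_fh_V1 h30 (ssm_sb_O0 O ζ) h3O0 hπ0 N' q),
          ∃ s c : fc_chart ↥(ssm_sb_O0 O ζ) ({hs_muE h30 (N' * q) - 1} : Set ↥(hs_E (ssm_sb_L0 ζ) h30 (N' * q))),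
            s ∉ 𝔫0 ∧
            (s : ↥(hs_E (ssm_sb_L0 ζ) h30 (N' * q))) * (z : ↥(hs_E (ssm_sb_L0 ζ) h30 (N' * q))) = v * c) ∧
        (∃ s t : fc_chart ↥(ssm_sb_O0 O ζ) ({hs_muE h30 (N' * q) - 1} : Set ↥(hs_E (ssm_sb_L0 ζ) h30 (N' * q))),
          s ∉ 𝔫0 ∧
          t ∉ ssm_tp_P (fc_chart ↥(ssm_sb_O0 O ζ) ({hs_muE h30 (N' * q) - 1} : Set ↥(hs_E (ssm_sb_L0 ζ) h30 (N' * q))))
            (ssm_fh_V1 h30 (ssm_sb_O0 O ζ) h3O0 hπ0 N' q) ∧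
          (s : ↥(hs_E (ssm_sb_L0 ζ) h30 (N' * q))) * u = t) ∧
        (∃ s t : fc_chart ↥(ssm_sb_O0 O ζ) ({hs_muE h30 (N' * q) - 1} : Set ↥(hs_E (ssm_sb_L0 ζ) h30 (N' * q))),
          s ∉ 𝔫0 ∧
          t ∉ ssm_tp_P (fc_chart ↥(ssm_sb_O0 O ζ) ({hs_muE h30 (N' * q) - 1} : Set ↥(hs_E (ssm_sb_L0 ζ) h30 (N' * q))))
            (ssm_fh_V2 h30 (ssm_sb_O0 O ζ) h3O0 hπ0 N' q hq3 hqN') ∧
          (s : ↥(hs_E (ssm_sb_L0 ζ) h30 (N' * q))) * v = t) := by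
  letI := ssm_sb_algebra ζ
  haveI : NeZero (3 * N') := ⟨Nat.mul_ne_zero (by norm_num) (NeZero.ne N')⟩
  haveI := ssm_sb_numberField (3 * N') ζ hζ
  exact ssm_nht_thick_nf (ssm_sb_L0 ζ) h30 (ssm_sb_O0 O ζ) h3O0 N' q hq3 hqN' hπ0
    (ssm_sb_zeta ζ) (ssm_sb_zeta_prim (3 * N') ζ hζ)

end SB

end Fermat.Agent.SS
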