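/-
SS [M], leaf [ND]-H, the plug (helper29), prefix `ssm_nht_`: THE HESSE NODE CLAUSE IS A CLOSED TERM.

* `ssm_nht_thickHyp` : `ssm_nhh_ThickHyp` (helper12's `NodeHesHyp.lean`) = `ssm_nht_thick_nf`;
* `ssm_nht_nodeHyp`  : `ssm_fhn_NodeHyp` (helper12's `FinalHesNF.lean`);
* `ssm_nht_coreNFH`  : `∀ N, 2 ∣ N → ¬ 2 ^ 2 ∣ N → ss_CoreNFH N 2` = the argument `hTwo` of
  `ss_S34_of_core`, closed.
-/
import Mathlib
import Fermat.Agent.SS.Model.NodeHesHyp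
import Fermat.Agent.SS.Model.NodeHesThick

set_option autoImplicit false

namespace Fermat.Agent.SS

/-- thickness one over every unramified number-field base: helper12's `ssm_nhh_ThickHyp`. -/
theorem ssm_nht_thickHyp : ssm_nhh_ThickHyp :=
  fun L0 _ _ _ h30 O0 _ h3O0 N' q _ _ _ _ hq3 hqN' hπ0 ζ0 hζ0 =>
    ssm_nht_thick_nf L0 h30 O0 h3O0 N' q hq3 hqN' hπ0 ζ0 hζ0

/-- **the Hesse node clause** ([ND]-H), closed. -/
theorem ssm_nht_nodeHyp : ssm_fhn_NodeHyp := ssm_nhh_nodeHyp_of ssm_nht_thickHyp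

/-- **`hTwo` of `ss_S34_of_core`**, closed: the core statement at `q = 2` for `2 ‖ N`. -/
theorem ssm_nht_coreNFH (N : ℕ) [NeZero N] (h2 : 2 ∣ N) (h4 : ¬ 2 ^ 2 ∣ N) : ss_CoreNFH N 2 :=
  ssm_fhn_coreNFH ssm_nht_nodeHyp N h2 h4

end Fermat.Agent.SS
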