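/-
SS [M] leaf [INF] (helper4), prefix `ssm_inf_`: the closed points at infinity of the special fibre.

On the chart `B = B_{x⁻¹}` (abstractly: a subalgebra `B ⊆ V1 ⊓ V2` of `F0` stable under the
involution `W`, `V2 = V1.comap W`), with `P_i := ssm_tp_P B V_i = 𝔪(V_i) ∩ B`:

* `ssm_inf_equiv`      : the ring automorphism of `B` induced by `W`;
* `ssm_inf_W_mem_iff`  : `b ∈ P1 ↔ W b ∈ P2`;
* `ssm_inf_noCrossing` : if `μ ∈ B` is a unit of `V1`, the ratios `μ^q / W μ`, `(W μ)^q / μ` lie in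
  `B` and `μ^q / W μ ≡ 1` at `V1` ([I1]), then NO crossing point `𝔫 ⊇ P1 + P2` contains `μ`
  (helper22's `ssm_cri_noCrossing_W`);
* `ssm_inf_smooth`     : hence every closed point of the special fibre of `B` containing `μ` is a
  SMOOTH point, given the smooth clauses of [CP-I] off one component;
* `ssm_inf_pts`        : the case analysis `smooth ∨ node` at the closed points of a chart from the
  smooth clauses off one component and the node clause at the crossing points;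
* `ssm_inf_ff_noCrossing`, `ssm_inf_ff_smooth` : the function-field instances for the chart
  `fc_chart A0 {x⁻¹}` and `μ := x⁻¹` (any coordinate `x`; inputs: `W` preserves the chart, the two
  ratios lie in it, the first one is `≡ 1` at `V1`);
* `ssm_inf_of_facts` : these inputs from the package `ssm_i1_Facts` of [I1] (Legendre case).
-/
import Mathlib
import Fermat.Agent.SS.CoreModel
import Fermat.Agent.SS.Model.TwoPrimes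
import Fermat.Agent.SS.Model.CrossingInst
import Fermat.Agent.SS.Model.Integral

set_option autoImplicit false
set_option linter.unusedSectionVars false
set_option linter.style.haveILetI false

namespace Fermat.Agent.SS

open Fermat.Agent.JT3 IntermediateField

universe v

section Abs

variable {A0 : Type*} {F0 : Type v} [CommRing A0] [Field F0] [Algebra A0 F0]

/-- a subalgebra stable under an involution `W` of the ambient field carries the induced ring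
automorphism -/
noncomputable def ssm_inf_equiv (W : F0 ≃+* F0) (hWW : ∀ z, W (W z) = z) (B : Subalgebra A0 F0)
    (hB : ∀ b ∈ B, W b ∈ B) : B ≃+* B where
  toFun b := ⟨W b, hB b b.2⟩
  invFun b := ⟨W b, hB b b.2⟩
  left_inv b := Subtype.ext (hWW b)
  right_inv b := Subtype.ext (hWW b)
  map_mul' a b := Subtype.ext (map_mul W (a : F0) b)
  map_add' a b := Subtype.ext (map_add W (a : F0) b)

theorem ssm_inf_equiv_coe (W : F0 ≃+* F0) (hWW : ∀ z, W (W z) = z) (B : Subalgebra A0 F0)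
    (hB : ∀ b ∈ B, W b ∈ B) (b : B) : ((ssm_inf_equiv W hWW B hB b : B) : F0) = W b := rfl

/-- `W` exchanges the two vertical primes of a `W`-stable chart -/
theorem ssm_inf_W_mem_iff (B : Subalgebra A0 F0) {V1 V2 : ValuationSubring F0}
    (le1 : ∀ b ∈ B, b ∈ V1) (le2 : ∀ b ∈ B, b ∈ V2)
    (W : F0 ≃+* F0) (hWW : ∀ z, W (W z) = z) (hV2 : ∀ z, z ∈ V2 ↔ W z ∈ V1)
    (hWB : ∀ b ∈ B, W b ∈ B) (b : B) :
    b ∈ ssm_tp_P B V1 ↔ ssm_inf_equiv W hWW B hWB b ∈ ssm_tp_P B V2 := by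
  rw [ssm_tp_mem_P le1, ssm_tp_mem_P le2, ssm_inf_equiv_coe, ssm_i1_nonunits_comap W hV2, hWW]

/-- **(NC) at the zeros of `μ`**: no crossing point of the special fibre of `B` contains `μ`. -/
theorem ssm_inf_noCrossing (B : Subalgebra A0 F0) {V1 V2 : ValuationSubring F0}
    (le1 : ∀ b ∈ B, b ∈ V1) (le2 : ∀ b ∈ B, b ∈ V2)
    (W : F0 ≃+* F0) (hWW : ∀ z, W (W z) = z) (hV2 : ∀ z, z ∈ V2 ↔ W z ∈ V1)
    (hWB : ∀ b ∈ B, W b ∈ B) {q : ℕ} (hq : 2 ≤ q) {μ : F0} (hμB : μ ∈ B)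
    (hμ1 : μ ∉ V1.nonunits) (hw : μ ^ q / W μ ∈ B) (hw' : W μ ^ q / μ ∈ B)
    (hsub : μ ^ q / W μ - 1 ∈ V1.nonunits)
    (𝔫 : Ideal B) (h𝔫 : 𝔫 ≠ ⊤) (hμ𝔫 : (⟨μ, hμB⟩ : B) ∈ 𝔫) :
    ¬ (ssm_tp_P B V1 ≤ 𝔫 ∧ ssm_tp_P B V2 ≤ 𝔫) := by
  haveI hP1 : (ssm_tp_P B V1).IsPrime := ssm_tp_P_isPrime le1
  haveI hP2 : (ssm_tp_P B V2).IsPrime := ssm_tp_P_isPrime le2
  have hμ0 : μ ≠ 0 := ssm_tp_ne_zero V1 hμ1
  have hWμ0 : W μ ≠ 0 := (EmbeddingLike.map_ne_zero_iff (f := W)).2 hμ0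
  have hWμB : W μ ∈ B := hWB μ hμB
  refine ssm_cri_noCrossing_W (ssm_tp_P B V1) (ssm_tp_P B V2) 𝔫 h𝔫 q hq
    (ssm_inf_equiv W hWW B hWB) (fun b => Subtype.ext (hWW b))
    (ssm_inf_W_mem_iff B le1 le2 W hWW hV2 hWB) ⟨μ, hμB⟩ ⟨_, hw⟩ ⟨_, hw'⟩ ?_ ?_ ?_ ?_ hμ𝔫
  · rw [ssm_tp_mem_P le1]
    exact hμ1
  · rw [ssm_tp_mem_P le1]
    have h1 : (((ssm_inf_equiv W hWW B hWB ⟨μ, hμB⟩ - (⟨μ, hμB⟩ : B) ^ q : B)) : F0) =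
        -(μ ^ q / W μ - 1) * W μ := by
      rw [AddSubgroupClass.coe_sub, SubmonoidClass.coe_pow, ssm_inf_equiv_coe]
      field_simp
      ring
    rw [h1]
    exact ssm_tp_nonunits_mul V1 (ssm_tp_nonunits_neg V1 hsub) (le1 _ hWμB)
  · apply Subtype.ext
    rw [MulMemClass.coe_mul, SubmonoidClass.coe_pow, ssm_inf_equiv_coe]
    exact div_mul_cancel₀ _ hWμ0
  · apply Subtype.ext
    rw [MulMemClass.coe_mul, SubmonoidClass.coe_pow, ssm_inf_equiv_coe]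
    exact div_mul_cancel₀ _ hμ0

/-- **[INF], abstract form**: a closed point of the special fibre of `B` containing `μ` is a smooth
point. -/
theorem ssm_inf_smooth (π : A0) (B : Subalgebra A0 F0) {V1 V2 : ValuationSubring F0}
    (le1 : ∀ b ∈ B, b ∈ V1) (le2 : ∀ b ∈ B, b ∈ V2)
    (W : F0 ≃+* F0) (hWW : ∀ z, W (W z) = z) (hV2 : ∀ z, z ∈ V2 ↔ W z ∈ V1)
    (hWB : ∀ b ∈ B, W b ∈ B) {q : ℕ} (hq : 2 ≤ q) {μ : F0} (hμB : μ ∈ B)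
    (hμ1 : μ ∉ V1.nonunits) (hw : μ ^ q / W μ ∈ B) (hw' : W μ ^ q / μ ∈ B)
    (hsub : μ ^ q / W μ - 1 ∈ V1.nonunits)
    (hsm1 : ∀ 𝔫 : Ideal B, 𝔫.IsMaximal → algebraMap A0 B π ∈ 𝔫 → ¬ ssm_tp_P B V2 ≤ 𝔫 →
      ss_SmoothAt π B 𝔫)
    (hsm2 : ∀ 𝔫 : Ideal B, 𝔫.IsMaximal → algebraMap A0 B π ∈ 𝔫 → ¬ ssm_tp_P B V1 ≤ 𝔫 →
      ss_SmoothAt π B 𝔫)
    (𝔫 : Ideal B) (h𝔫 : 𝔫.IsMaximal) (hπ𝔫 : algebraMap A0 B π ∈ 𝔫)
    (hμ𝔫 : (⟨μ, hμB⟩ : B) ∈ 𝔫) : ss_SmoothAt π B 𝔫 := by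
  have hnc := ssm_inf_noCrossing B le1 le2 W hWW hV2 hWB hq hμB hμ1 hw hw' hsub 𝔫 h𝔫.ne_top hμ𝔫
  by_cases h1 : ssm_tp_P B V1 ≤ 𝔫
  · exact hsm1 𝔫 h𝔫 hπ𝔫 (fun h2 => hnc ⟨h1, h2⟩)
  · exact hsm2 𝔫 h𝔫 hπ𝔫 h1

/-- **the closed points of a chart**: `smooth ∨ node`, from the smooth clauses off one component
([CP-I]) and the node clause at the crossing points ([TH]). -/
theorem ssm_inf_pts (π : A0) (σ : F0 ≃+* F0) (σ0 : A0 ≃+* A0) {B B12 : Subalgebra A0 F0}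
    (hle : B ≤ B12) (P1 P2 : Ideal B12) (Q1 Q2 : Ideal B)
    (hsm1 : ∀ 𝔫 : Ideal B, 𝔫.IsMaximal → algebraMap A0 B π ∈ 𝔫 → ¬ Q2 ≤ 𝔫 → ss_SmoothAt π B 𝔫)
    (hsm2 : ∀ 𝔫 : Ideal B, 𝔫.IsMaximal → algebraMap A0 B π ∈ 𝔫 → ¬ Q1 ≤ 𝔫 → ss_SmoothAt π B 𝔫)
    (hnode : ∀ 𝔫 : Ideal B, 𝔫.IsMaximal → Q1 ≤ 𝔫 → Q2 ≤ 𝔫 → ss_NodeAt π σ σ0 hle P1 P2 𝔫)
    (𝔫 : Ideal B) (h𝔫 : 𝔫.IsMaximal) (hπ𝔫 : algebraMap A0 B π ∈ 𝔫) :
    ss_SmoothAt π B 𝔫 ∨ ss_NodeAt π σ σ0 hle P1 P2 𝔫 := by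
  by_cases h1 : Q1 ≤ 𝔫
  · by_cases h2 : Q2 ≤ 𝔫
    · exact Or.inr (hnode 𝔫 h𝔫 h1 h2)
    · exact Or.inl (hsm1 𝔫 h𝔫 hπ𝔫 h2)
  · exact Or.inl (hsm2 𝔫 h𝔫 hπ𝔫 h1)

end Abs

section FF

variable {A0 L : Type*} {F0 : Type v} [CommRing A0] [IsDomain A0] [IsDiscreteValuationRing A0]
  [Field L] [Field F0] [Algebra A0 L] [IsFractionRing A0 L] [Algebra L F0] [Algebra A0 F0]
  [IsScalarTower A0 L F0]

/-- the chart `B_{x⁻¹}` lies in both valuation rings, and `x⁻¹` is a unit of `V1` -/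
theorem ssm_inf_ff_le {π : A0} (hπ : Irreducible π) {x : F0} (hx : Transcendental L x)
    [FiniteDimensional L⟮x⟯ F0] {V1 V2 : ValuationSubring F0}
    (H : ssm_tp_Hyp (algebraMap A0 (Algebra.adjoin A0 ({x} : Set F0)) π) V1 V2) :
    (∀ b ∈ fc_chart A0 ({x⁻¹} : Set F0), b ∈ V1) ∧ (∀ b ∈ fc_chart A0 ({x⁻¹} : Set F0), b ∈ V2) ∧
      x⁻¹ ∉ V1.nonunits := by
  have hxi : Transcendental L x⁻¹ := fun h => hx (IsAlgebraic.inv_iff.mp h)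
  have hxiA : Transcendental A0 x⁻¹ := fc_ff_transcendental (L := L) hxi
  haveI : IsIntegrallyClosed (Algebra.adjoin A0 ({x⁻¹} : Set F0)) := fc_ff_isIntegrallyClosed hxiA
  haveI : FaithfulSMul (Algebra.adjoin A0 ({x⁻¹} : Set F0)) F0 :=
    (faithfulSMul_iff_algebraMap_injective _ _).2 Subtype.val_injective
  have H' := ssm_tp_ff_hyp_inv (L := L) hπ hx H
  have hC := ssm_tp_ff_chart (L := L) hπ hxi
  refine ⟨fun b hb => hC.le H'.over1 hb, fun b hb => hC.le H'.over2 hb, ?_⟩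
  have h := (ssm_i1_linear_not_mem hπ hxiA H'.over1 0).2
  rwa [map_zero, sub_zero] at h

/-- **(NC) at infinity**: no crossing point of the special fibre of `B_{x⁻¹}` contains `x⁻¹`.
Minimal hypotheses (usable for any coordinate `x`): `W` preserves the chart `B_{x⁻¹}`, the two ratios
`x⁻¹^q / (W x)⁻¹`, `(W x)⁻¹^q / x⁻¹` lie in it and the first one is `≡ 1` at `V1`. -/
theorem ssm_inf_ff_noCrossing {π : A0} (hπ : Irreducible π) {x : F0} (hx : Transcendental L x)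
    [FiniteDimensional L⟮x⟯ F0] {V1 V2 : ValuationSubring F0}
    (H : ssm_tp_Hyp (algebraMap A0 (Algebra.adjoin A0 ({x} : Set F0)) π) V1 V2)
    (W : F0 ≃+* F0) (hWW : ∀ z, W (W z) = z) (hV2 : ∀ z, z ∈ V2 ↔ W z ∈ V1)
    (hWB : ∀ b ∈ fc_chart A0 ({x⁻¹} : Set F0), W b ∈ fc_chart A0 ({x⁻¹} : Set F0))
    {q : ℕ} (hq : 2 ≤ q)
    (hw : x⁻¹ ^ q / (W x)⁻¹ ∈ fc_chart A0 ({x⁻¹} : Set F0))
    (hw' : (W x)⁻¹ ^ q / x⁻¹ ∈ fc_chart A0 ({x⁻¹} : Set F0))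
    (hsub : x⁻¹ ^ q / (W x)⁻¹ - 1 ∈ V1.nonunits)
    (𝔫 : Ideal (fc_chart A0 ({x⁻¹} : Set F0))) (h𝔫 : 𝔫 ≠ ⊤)
    (hμ𝔫 : (⟨x⁻¹, fc_x_mem_chart x⁻¹⟩ : fc_chart A0 ({x⁻¹} : Set F0)) ∈ 𝔫) :
    ¬ (ssm_tp_P (fc_chart A0 ({x⁻¹} : Set F0)) V1 ≤ 𝔫 ∧
      ssm_tp_P (fc_chart A0 ({x⁻¹} : Set F0)) V2 ≤ 𝔫) := by
  obtain ⟨le1, le2, hμ1⟩ := ssm_inf_ff_le (L := L) hπ hx H
  have hWi : W x⁻¹ = (W x)⁻¹ := map_inv₀ W x
  exact ssm_inf_noCrossing _ le1 le2 W hWW hV2 hWB hq (fc_x_mem_chart x⁻¹) hμ1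
    (by rw [hWi]; exact hw) (by rw [hWi]; exact hw') (by rw [hWi]; exact hsub) 𝔫 h𝔫 hμ𝔫

/-- **[INF], function-field form**: every closed point of the special fibre of `B_{x⁻¹}` at
infinity (`x⁻¹ ∈ 𝔫`) is a smooth point. -/
theorem ssm_inf_ff_smooth {π : A0} (hπ : Irreducible π) {x : F0} (hx : Transcendental L x)
    [FiniteDimensional L⟮x⟯ F0] {V1 V2 : ValuationSubring F0}
    (H : ssm_tp_Hyp (algebraMap A0 (Algebra.adjoin A0 ({x} : Set F0)) π) V1 V2)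
    (W : F0 ≃+* F0) (hWW : ∀ z, W (W z) = z) (hV2 : ∀ z, z ∈ V2 ↔ W z ∈ V1)
    (hWB : ∀ b ∈ fc_chart A0 ({x⁻¹} : Set F0), W b ∈ fc_chart A0 ({x⁻¹} : Set F0))
    {q : ℕ} (hq : 2 ≤ q)
    (hw : x⁻¹ ^ q / (W x)⁻¹ ∈ fc_chart A0 ({x⁻¹} : Set F0))
    (hw' : (W x)⁻¹ ^ q / x⁻¹ ∈ fc_chart A0 ({x⁻¹} : Set F0))
    (hsub : x⁻¹ ^ q / (W x)⁻¹ - 1 ∈ V1.nonunits)
    (hsm1 : ∀ 𝔫 : Ideal (fc_chart A0 ({x⁻¹} : Set F0)), 𝔫.IsMaximal →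
      algebraMap A0 (fc_chart A0 ({x⁻¹} : Set F0)) π ∈ 𝔫 →
      ¬ ssm_tp_P (fc_chart A0 ({x⁻¹} : Set F0)) V2 ≤ 𝔫 →
      ss_SmoothAt π (fc_chart A0 ({x⁻¹} : Set F0)) 𝔫)
    (hsm2 : ∀ 𝔫 : Ideal (fc_chart A0 ({x⁻¹} : Set F0)), 𝔫.IsMaximal →
      algebraMap A0 (fc_chart A0 ({x⁻¹} : Set F0)) π ∈ 𝔫 →
      ¬ ssm_tp_P (fc_chart A0 ({x⁻¹} : Set F0)) V1 ≤ 𝔫 →
      ss_SmoothAt π (fc_chart A0 ({x⁻¹} : Set F0)) 𝔫)
    (𝔫 : Ideal (fc_chart A0 ({x⁻¹} : Set F0))) (h𝔫 : 𝔫.IsMaximal)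
    (hπ𝔫 : algebraMap A0 (fc_chart A0 ({x⁻¹} : Set F0)) π ∈ 𝔫)
    (hμ𝔫 : (⟨x⁻¹, fc_x_mem_chart x⁻¹⟩ : fc_chart A0 ({x⁻¹} : Set F0)) ∈ 𝔫) :
    ss_SmoothAt π (fc_chart A0 ({x⁻¹} : Set F0)) 𝔫 := by
  have hnc := ssm_inf_ff_noCrossing (L := L) hπ hx H W hWW hV2 hWB hq hw hw' hsub 𝔫 h𝔫.ne_top hμ𝔫
  by_cases h1 : ssm_tp_P (fc_chart A0 ({x⁻¹} : Set F0)) V1 ≤ 𝔫
  · exact hsm1 𝔫 h𝔫 hπ𝔫 (fun h2 => hnc ⟨h1, h2⟩)
  · exact hsm2 𝔫 h𝔫 hπ𝔫 h1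

/-- the inputs `hWB hw hw' hsub` of [INF] from the package `ssm_i1_Facts` of [I1] (Legendre case) -/
theorem ssm_inf_of_facts {x : F0} {V1 V2 : ValuationSubring F0} (W : F0 ≃+* F0)
    (hWA : ∀ a : A0, W (algebraMap A0 F0 a) = algebraMap A0 F0 a) {q : ℕ}
    (F : ssm_i1_Facts A0 q x (W x) V1 V2) :
    (∀ b ∈ fc_chart A0 ({x⁻¹} : Set F0), W b ∈ fc_chart A0 ({x⁻¹} : Set F0)) ∧
    x⁻¹ ^ q / (W x)⁻¹ ∈ fc_chart A0 ({x⁻¹} : Set F0) ∧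
    (W x)⁻¹ ^ q / x⁻¹ ∈ fc_chart A0 ({x⁻¹} : Set F0) ∧
    x⁻¹ ^ q / (W x)⁻¹ - 1 ∈ V1.nonunits :=
  ⟨(ssm_i1_W_charts W hWA rfl F).2.1, F.winf, F.winf', F.winf_sub⟩

end FF

end Fermat.Agent.SS
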