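/-
SS [M] leaf [ASM] (helper4), prefix `ssm_asm_`: assembly of the abstract two-component model
`ss_Model` in the function-field case.

Context of `ss_model_of_funField` (`A0` a DVR with uniformiser `π`, `L = Frac A0` of characteristic
zero, `F0 / L` a function field with coordinate `x`).  `V1, V2` the two valuation rings over the
Gauss ring of `A0[x]` (`H : ssm_tp_Hyp`, [TP]), `W` the involution exchanging them, and with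
`P_i^B := ssm_tp_P B V_i` on the three charts:

* `ssm_asm_pts1`  : the closed points of `B_x`: `smooth ∨ node` from the smooth clauses of [CP-I]
  off one component and the node clause of [TH] at the crossing points;
* `ssm_asm_pts2`  : the closed points of `B_{x⁻¹}`: the points with `x⁻¹ ∉ 𝔫` by transfer from
  `B_x` ([XFER], helper23's `ssm_xf_pts2`), the points at infinity by [INF] (`ssm_inf_ff_smooth`);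
* `ssm_asm_model` : **`ss_Model π x σ σ0 (ssm_tp_P B₁₂ V1) (ssm_tp_P B₁₂ V2)`** (any coordinate `x`;
  the inputs at infinity are `hWB hw hw' hsub`);
* `ssm_asm_model_of_facts` : the same from the package `F : ssm_i1_Facts` of [I1] (Legendre case).
-/
import Mathlib
import Fermat.Agent.SS.CoreFunField
import Fermat.Agent.SS.Model.PointsInf
import Fermat.Agent.SS.Model.ChartChange

set_option autoImplicit false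
set_option linter.unusedSectionVars false
set_option linter.style.haveILetI false

namespace Fermat.Agent.SS

open Fermat.Agent.JT3 IntermediateField

universe v

section FF

variable {A0 L : Type*} {F0 : Type v} [CommRing A0] [IsDomain A0] [IsDiscreteValuationRing A0]
  [Field L] [Field F0] [Algebra A0 L] [IsFractionRing A0 L] [Algebra L F0] [Algebra A0 F0]
  [IsScalarTower A0 L F0]

/-- **the closed points of the chart `B_x`**. -/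
theorem ssm_asm_pts1 (π : A0) (x : F0) (σ : F0 ≃+* F0) (σ0 : A0 ≃+* A0)
    (V1 V2 : ValuationSubring F0)
    (hsm11 : ∀ 𝔫 : Ideal (fc_chart A0 ({x} : Set F0)), 𝔫.IsMaximal →
      algebraMap A0 (fc_chart A0 ({x} : Set F0)) π ∈ 𝔫 →
      ¬ ssm_tp_P (fc_chart A0 ({x} : Set F0)) V2 ≤ 𝔫 →
      ss_SmoothAt π (fc_chart A0 ({x} : Set F0)) 𝔫)
    (hsm12 : ∀ 𝔫 : Ideal (fc_chart A0 ({x} : Set F0)), 𝔫.IsMaximal →
      algebraMap A0 (fc_chart A0 ({x} : Set F0)) π ∈ 𝔫 →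
      ¬ ssm_tp_P (fc_chart A0 ({x} : Set F0)) V1 ≤ 𝔫 →
      ss_SmoothAt π (fc_chart A0 ({x} : Set F0)) 𝔫)
    (hnode : ∀ 𝔫 : Ideal (fc_chart A0 ({x} : Set F0)), 𝔫.IsMaximal →
      ssm_tp_P (fc_chart A0 ({x} : Set F0)) V1 ≤ 𝔫 →
      ssm_tp_P (fc_chart A0 ({x} : Set F0)) V2 ≤ 𝔫 →
      ss_NodeAt π σ σ0 (fc_chart1_le x) (ssm_tp_P (fc_chart A0 ({x, x⁻¹} : Set F0)) V1)
        (ssm_tp_P (fc_chart A0 ({x, x⁻¹} : Set F0)) V2) 𝔫)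
    (𝔫 : Ideal (fc_chart A0 ({x} : Set F0))) (h𝔫 : 𝔫.IsMaximal)
    (hπ𝔫 : algebraMap A0 (fc_chart A0 ({x} : Set F0)) π ∈ 𝔫) :
    ss_SmoothAt π (fc_chart A0 ({x} : Set F0)) 𝔫 ∨
      ss_NodeAt π σ σ0 (fc_chart1_le x) (ssm_tp_P (fc_chart A0 ({x, x⁻¹} : Set F0)) V1)
        (ssm_tp_P (fc_chart A0 ({x, x⁻¹} : Set F0)) V2) 𝔫 :=
  ssm_inf_pts π σ σ0 (fc_chart1_le x) _ _ _ _ hsm11 hsm12 hnode 𝔫 h𝔫 hπ𝔫

/-- **the closed points of the chart `B_{x⁻¹}`**: transfer from `B_x` where `x⁻¹ ≠ 0` ([XFER]),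
[INF] at infinity. -/
theorem ssm_asm_pts2 {π : A0} (hπ : Irreducible π) {x : F0} (hx : Transcendental L x)
    [FiniteDimensional L⟮x⟯ F0] (σ : F0 ≃+* F0) (σ0 : A0 ≃+* A0) {V1 V2 : ValuationSubring F0}
    (H : ssm_tp_Hyp (algebraMap A0 (Algebra.adjoin A0 ({x} : Set F0)) π) V1 V2)
    (W : F0 ≃+* F0) (hWW : ∀ z, W (W z) = z) (hV2 : ∀ z, z ∈ V2 ↔ W z ∈ V1)
    (hWB : ∀ b ∈ fc_chart A0 ({x⁻¹} : Set F0), W b ∈ fc_chart A0 ({x⁻¹} : Set F0))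
    {q : ℕ} (hq : 2 ≤ q)
    (hw : x⁻¹ ^ q / (W x)⁻¹ ∈ fc_chart A0 ({x⁻¹} : Set F0))
    (hw' : (W x)⁻¹ ^ q / x⁻¹ ∈ fc_chart A0 ({x⁻¹} : Set F0))
    (hsub : x⁻¹ ^ q / (W x)⁻¹ - 1 ∈ V1.nonunits)
    (hsm21 : ∀ 𝔫 : Ideal (fc_chart A0 ({x⁻¹} : Set F0)), 𝔫.IsMaximal →
      algebraMap A0 (fc_chart A0 ({x⁻¹} : Set F0)) π ∈ 𝔫 →
      ¬ ssm_tp_P (fc_chart A0 ({x⁻¹} : Set F0)) V2 ≤ 𝔫 →
      ss_SmoothAt π (fc_chart A0 ({x⁻¹} : Set F0)) 𝔫)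
    (hsm22 : ∀ 𝔫 : Ideal (fc_chart A0 ({x⁻¹} : Set F0)), 𝔫.IsMaximal →
      algebraMap A0 (fc_chart A0 ({x⁻¹} : Set F0)) π ∈ 𝔫 →
      ¬ ssm_tp_P (fc_chart A0 ({x⁻¹} : Set F0)) V1 ≤ 𝔫 →
      ss_SmoothAt π (fc_chart A0 ({x⁻¹} : Set F0)) 𝔫)
    (pts1 : ∀ 𝔫 : Ideal (fc_chart A0 ({x} : Set F0)), 𝔫.IsMaximal →
      algebraMap A0 (fc_chart A0 ({x} : Set F0)) π ∈ 𝔫 →
      ss_SmoothAt π (fc_chart A0 ({x} : Set F0)) 𝔫 ∨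
        ss_NodeAt π σ σ0 (fc_chart1_le x) (ssm_tp_P (fc_chart A0 ({x, x⁻¹} : Set F0)) V1)
          (ssm_tp_P (fc_chart A0 ({x, x⁻¹} : Set F0)) V2) 𝔫)
    (𝔫 : Ideal (fc_chart A0 ({x⁻¹} : Set F0))) (h𝔫 : 𝔫.IsMaximal)
    (hπ𝔫 : algebraMap A0 (fc_chart A0 ({x⁻¹} : Set F0)) π ∈ 𝔫) :
    ss_SmoothAt π (fc_chart A0 ({x⁻¹} : Set F0)) 𝔫 ∨
      ss_NodeAt π σ σ0 (fc_chart2_le x) (ssm_tp_P (fc_chart A0 ({x, x⁻¹} : Set F0)) V1)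
        (ssm_tp_P (fc_chart A0 ({x, x⁻¹} : Set F0)) V2) 𝔫 := by
  by_cases hμ : (⟨x⁻¹, fc_x_mem_chart x⁻¹⟩ : fc_chart A0 ({x⁻¹} : Set F0)) ∈ 𝔫
  · exact Or.inl (ssm_inf_ff_smooth (L := L) hπ hx H W hWW hV2 hWB hq hw hw' hsub hsm21 hsm22 𝔫 h𝔫
      hπ𝔫 hμ)
  · have hx0 : x ≠ 0 := by
      rintro rfl
      exact hx isAlgebraic_zero
    have hπmax : (Ideal.span {π} : Ideal A0).IsMaximal := by
      rw [← hπ.maximalIdeal_eq]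
      exact IsLocalRing.maximalIdeal.isMaximal A0
    exact ssm_xf_pts2 π hπmax σ σ0 x hx0 _ _ pts1 𝔫 h𝔫 hπ𝔫 hμ

/-- **[ASM]: the abstract two-component semistable model in the function-field case.**
Inputs: [TP] (`H`), [I1] (`W`, `hWB hw hw' hsub`: the chart at infinity is `W`-stable and contains
the two ratios), [SIG] (the five `σ`-fields), [CP-I] (the four smooth clauses
`hsm11 hsm12 hsm21 hsm22` off one component), [TH] (the node clause `hnode` at the crossing points of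
`B_x`); [XFER] and [INF] are used inside. -/
theorem ssm_asm_model [CharZero L] {π : A0} (hπ : Irreducible π) {x : F0}
    (hx : Transcendental L x) [FiniteDimensional L⟮x⟯ F0]
    (hconst : ∀ z : F0, IsAlgebraic L z → z ∈ (algebraMap L F0).range)
    {σ : F0 ≃+* F0} {σ0 : A0 ≃+* A0} {V1 V2 : ValuationSubring F0}
    (H : ssm_tp_Hyp (algebraMap A0 (Algebra.adjoin A0 ({x} : Set F0)) π) V1 V2)
    (W : F0 ≃+* F0) (hWW : ∀ z, W (W z) = z) (hV2 : ∀ z, z ∈ V2 ↔ W z ∈ V1)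
    (hWB : ∀ b ∈ fc_chart A0 ({x⁻¹} : Set F0), W b ∈ fc_chart A0 ({x⁻¹} : Set F0))
    {q : ℕ} (hq : 2 ≤ q)
    (hw : x⁻¹ ^ q / (W x)⁻¹ ∈ fc_chart A0 ({x⁻¹} : Set F0))
    (hw' : (W x)⁻¹ ^ q / x⁻¹ ∈ fc_chart A0 ({x⁻¹} : Set F0))
    (hsub : x⁻¹ ^ q / (W x)⁻¹ - 1 ∈ V1.nonunits)
    (σ_base : ∀ a : A0, σ (algebraMap A0 F0 a) = algebraMap A0 F0 (σ0 a))
    (σ0_triv : ∀ a : A0, π ∣ σ0 a - a) (σ_x : σ x = x)
    (σ_triv1 : ∀ b ∈ fc_chart A0 ({x} : Set F0), ∃ c ∈ fc_chart A0 ({x} : Set F0),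
      σ b - b = algebraMap A0 F0 π * c)
    (σ_triv2 : ∀ b ∈ fc_chart A0 ({x⁻¹} : Set F0), ∃ c ∈ fc_chart A0 ({x⁻¹} : Set F0),
      σ b - b = algebraMap A0 F0 π * c)
    (hsm11 : ∀ 𝔫 : Ideal (fc_chart A0 ({x} : Set F0)), 𝔫.IsMaximal →
      algebraMap A0 (fc_chart A0 ({x} : Set F0)) π ∈ 𝔫 →
      ¬ ssm_tp_P (fc_chart A0 ({x} : Set F0)) V2 ≤ 𝔫 →
      ss_SmoothAt π (fc_chart A0 ({x} : Set F0)) 𝔫)
    (hsm12 : ∀ 𝔫 : Ideal (fc_chart A0 ({x} : Set F0)), 𝔫.IsMaximal →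
      algebraMap A0 (fc_chart A0 ({x} : Set F0)) π ∈ 𝔫 →
      ¬ ssm_tp_P (fc_chart A0 ({x} : Set F0)) V1 ≤ 𝔫 →
      ss_SmoothAt π (fc_chart A0 ({x} : Set F0)) 𝔫)
    (hsm21 : ∀ 𝔫 : Ideal (fc_chart A0 ({x⁻¹} : Set F0)), 𝔫.IsMaximal →
      algebraMap A0 (fc_chart A0 ({x⁻¹} : Set F0)) π ∈ 𝔫 →
      ¬ ssm_tp_P (fc_chart A0 ({x⁻¹} : Set F0)) V2 ≤ 𝔫 →
      ss_SmoothAt π (fc_chart A0 ({x⁻¹} : Set F0)) 𝔫)
    (hsm22 : ∀ 𝔫 : Ideal (fc_chart A0 ({x⁻¹} : Set F0)), 𝔫.IsMaximal →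
      algebraMap A0 (fc_chart A0 ({x⁻¹} : Set F0)) π ∈ 𝔫 →
      ¬ ssm_tp_P (fc_chart A0 ({x⁻¹} : Set F0)) V1 ≤ 𝔫 →
      ss_SmoothAt π (fc_chart A0 ({x⁻¹} : Set F0)) 𝔫)
    (hnode : ∀ 𝔫 : Ideal (fc_chart A0 ({x} : Set F0)), 𝔫.IsMaximal →
      ssm_tp_P (fc_chart A0 ({x} : Set F0)) V1 ≤ 𝔫 →
      ssm_tp_P (fc_chart A0 ({x} : Set F0)) V2 ≤ 𝔫 →
      ss_NodeAt π σ σ0 (fc_chart1_le x) (ssm_tp_P (fc_chart A0 ({x, x⁻¹} : Set F0)) V1)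
        (ssm_tp_P (fc_chart A0 ({x, x⁻¹} : Set F0)) V2) 𝔫) :
    ss_Model π x σ σ0 (ssm_tp_P (fc_chart A0 ({x, x⁻¹} : Set F0)) V1)
      (ssm_tp_P (fc_chart A0 ({x, x⁻¹} : Set F0)) V2) := by
  obtain ⟨prime1, prime2, hrad, h12, h21, -⟩ := ssm_tp_ff_model (L := L) hπ hx H
  have pts1 := ssm_asm_pts1 π x σ σ0 V1 V2 hsm11 hsm12 hnode
  exact ss_model_of_funField (L := L) hπ hx hconst prime1 prime2 hrad h12 h21 σ_base σ0_triv σ_x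
    σ_triv1 σ_triv2 pts1
    (ssm_asm_pts2 (L := L) hπ hx σ σ0 H W hWW hV2 hWB hq hw hw' hsub hsm21 hsm22 pts1)

/-- **[ASM], Legendre form**: the inputs at infinity from the package `F : ssm_i1_Facts` of [I1]. -/
theorem ssm_asm_model_of_facts [CharZero L] {π : A0} (hπ : Irreducible π) {x : F0}
    (hx : Transcendental L x) [FiniteDimensional L⟮x⟯ F0]
    (hconst : ∀ z : F0, IsAlgebraic L z → z ∈ (algebraMap L F0).range)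
    {σ : F0 ≃+* F0} {σ0 : A0 ≃+* A0} {V1 V2 : ValuationSubring F0}
    (H : ssm_tp_Hyp (algebraMap A0 (Algebra.adjoin A0 ({x} : Set F0)) π) V1 V2)
    (W : F0 ≃+* F0) (hWW : ∀ z, W (W z) = z)
    (hWA : ∀ a : A0, W (algebraMap A0 F0 a) = algebraMap A0 F0 a)
    (hV2 : ∀ z, z ∈ V2 ↔ W z ∈ V1) {q : ℕ} (hq : 2 ≤ q)
    (F : ssm_i1_Facts A0 q x (W x) V1 V2)
    (σ_base : ∀ a : A0, σ (algebraMap A0 F0 a) = algebraMap A0 F0 (σ0 a))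
    (σ0_triv : ∀ a : A0, π ∣ σ0 a - a) (σ_x : σ x = x)
    (σ_triv1 : ∀ b ∈ fc_chart A0 ({x} : Set F0), ∃ c ∈ fc_chart A0 ({x} : Set F0),
      σ b - b = algebraMap A0 F0 π * c)
    (σ_triv2 : ∀ b ∈ fc_chart A0 ({x⁻¹} : Set F0), ∃ c ∈ fc_chart A0 ({x⁻¹} : Set F0),
      σ b - b = algebraMap A0 F0 π * c)
    (hsm11 : ∀ 𝔫 : Ideal (fc_chart A0 ({x} : Set F0)), 𝔫.IsMaximal →
      algebraMap A0 (fc_chart A0 ({x} : Set F0)) π ∈ 𝔫 →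
      ¬ ssm_tp_P (fc_chart A0 ({x} : Set F0)) V2 ≤ 𝔫 →
      ss_SmoothAt π (fc_chart A0 ({x} : Set F0)) 𝔫)
    (hsm12 : ∀ 𝔫 : Ideal (fc_chart A0 ({x} : Set F0)), 𝔫.IsMaximal →
      algebraMap A0 (fc_chart A0 ({x} : Set F0)) π ∈ 𝔫 →
      ¬ ssm_tp_P (fc_chart A0 ({x} : Set F0)) V1 ≤ 𝔫 →
      ss_SmoothAt π (fc_chart A0 ({x} : Set F0)) 𝔫)
    (hsm21 : ∀ 𝔫 : Ideal (fc_chart A0 ({x⁻¹} : Set F0)), 𝔫.IsMaximal →
      algebraMap A0 (fc_chart A0 ({x⁻¹} : Set F0)) π ∈ 𝔫 →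
      ¬ ssm_tp_P (fc_chart A0 ({x⁻¹} : Set F0)) V2 ≤ 𝔫 →
      ss_SmoothAt π (fc_chart A0 ({x⁻¹} : Set F0)) 𝔫)
    (hsm22 : ∀ 𝔫 : Ideal (fc_chart A0 ({x⁻¹} : Set F0)), 𝔫.IsMaximal →
      algebraMap A0 (fc_chart A0 ({x⁻¹} : Set F0)) π ∈ 𝔫 →
      ¬ ssm_tp_P (fc_chart A0 ({x⁻¹} : Set F0)) V1 ≤ 𝔫 →
      ss_SmoothAt π (fc_chart A0 ({x⁻¹} : Set F0)) 𝔫)
    (hnode : ∀ 𝔫 : Ideal (fc_chart A0 ({x} : Set F0)), 𝔫.IsMaximal →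
      ssm_tp_P (fc_chart A0 ({x} : Set F0)) V1 ≤ 𝔫 →
      ssm_tp_P (fc_chart A0 ({x} : Set F0)) V2 ≤ 𝔫 →
      ss_NodeAt π σ σ0 (fc_chart1_le x) (ssm_tp_P (fc_chart A0 ({x, x⁻¹} : Set F0)) V1)
        (ssm_tp_P (fc_chart A0 ({x, x⁻¹} : Set F0)) V2) 𝔫) :
    ss_Model π x σ σ0 (ssm_tp_P (fc_chart A0 ({x, x⁻¹} : Set F0)) V1)
      (ssm_tp_P (fc_chart A0 ({x, x⁻¹} : Set F0)) V2) := by
  obtain ⟨hWB, hw, hw', hsub⟩ := ssm_inf_of_facts W hWA F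
  exact ssm_asm_model (L := L) hπ hx hconst H W hWW hV2 hWB hq hw hw' hsub σ_base σ0_triv σ_x
    σ_triv1 σ_triv2 hsm11 hsm12 hsm21 hsm22 hnode

end FF

end Fermat.Agent.SS
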