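/-
SS [M] leaf [EC] (instance half): EXPLICIT ETALE COORDINATE on the Legendre charts.

For the two standard charts `fc_chart O {λ}`, `fc_chart O {λ⁻¹}` of `E = lg_E L N` (residue
characteristic `ℓ` odd, `ℓ ∤ N`): at a maximal ideal `n ∋ π` off the cusps (`x, x - 1 ∉ n`), every
`G ∈ O[X]` with `G(x) ∈ n`, `G'(x) ∉ n` is a local parameter: `tq_GenBy π (G x) n`.
Inputs exactly as in `lg_regAt_apply` (JT3/Inst/RegApply.lean): the vertical hypothesis from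
`lgv_V` + `ug_unramAt_poly`, the horizontal one from `lg_RamHyp.hH`.
-/
import Mathlib
import Fermat.Agent.SS.Model.EtaleCoord
import Fermat.Agent.JT3.Inst.RegApply

set_option autoImplicit false
set_option linter.style.haveILetI false

noncomputable section

open Polynomial IntermediateField ModularCurve

namespace Fermat.Agent.SS

open Fermat.Agent.JT3

section Inst

variable {L : Type*} [Field L] [CharZero L] (O : ValuationSubring L) [IsDiscreteValuationRing O]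
  (N : ℕ) [NeZero N]

attribute [local instance] lgh_algKE

/-- **[EC] for an anharmonic coordinate `x` of `L(λ)`** (hypotheses of `lg_regAt_apply`, without
the tame part): at a maximal ideal `n ∋ π` of `fc_chart O {x}` with `x, x - 1 ∉ n`, every
`G ∈ O[X]` with `G(x) ∈ n` and `G'(x) ∉ n` is a local parameter at `n`. -/
theorem ssm_ec_apply {π : O} (hπ : Irreducible π) (ℓ : ℕ) [Fact ℓ.Prime]
    (hℓ : ((ℓ : ℕ) : O) ∈ IsLocalRing.maximalIdeal O) (hℓ2 : ℓ ≠ 2) (hℓN : ¬ ℓ ∣ N)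
    (x : lg_K L) (hx : Transcendental L x) (hgenK : IntermediateField.adjoin L {x} = ⊤)
    (hrel : cv_legN (algebraMap (lg_K L) (lg_E L N) x)
      = lgf_j2E L N * cv_legD (algebraMap (lg_K L) (lg_E L N) x))
    (hram : lg_RamHyp N x)
    (n : Ideal (fc_chart O ({algebraMap (lg_K L) (lg_E L N) x} : Set (lg_E L N))))
    [hn : n.IsMaximal]
    (hπn : algebraMap O (fc_chart O ({algebraMap (lg_K L) (lg_E L N) x} : Set (lg_E L N))) π ∈ n)
    (h0 : ∀ y : fc_chart O ({algebraMap (lg_K L) (lg_E L N) x} : Set (lg_E L N)),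
      (y : lg_E L N) = algebraMap (lg_K L) (lg_E L N) x → y ∉ n)
    (h1 : ∀ y : fc_chart O ({algebraMap (lg_K L) (lg_E L N) x} : Set (lg_E L N)),
      (y : lg_E L N) = algebraMap (lg_K L) (lg_E L N) x - 1 → y ∉ n)
    (G : O[X]) (y : fc_chart O ({algebraMap (lg_K L) (lg_E L N) x} : Set (lg_E L N)))
    (hy : (y : lg_E L N) = aeval (algebraMap (lg_K L) (lg_E L N) x) G) (hyn : y ∈ n)
    (hG' : ∀ y' : fc_chart O ({algebraMap (lg_K L) (lg_E L N) x} : Set (lg_E L N)),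
      (y' : lg_E L N) = aeval (algebraMap (lg_K L) (lg_E L N) x) (derivative G) → y' ∉ n) :
    tq_GenBy (algebraMap O (fc_chart O ({algebraMap (lg_K L) (lg_E L N) x} : Set (lg_E L N))) π)
      y n := by
  classical
  have hℓp : ℓ.Prime := Fact.out
  have h2 : IsUnit ((2 : ℕ) : O) :=
    lg_isUnit_natCast hℓ ((Nat.coprime_primes Nat.prime_two hℓp).2 (Ne.symm hℓ2))
  haveI : CharP (IsLocalRing.ResidueField O) ℓ := lg_charP_residue hℓ
  have h2k : (2 : IsLocalRing.ResidueField O) ≠ 0 := by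
    have := ((IsLocalRing.residue O).isUnit_map h2).ne_zero
    rwa [map_natCast, Nat.cast_ofNat] at this
  obtain ⟨ρO⟩ := lgv_exists_rhoO (L := L) (O := O) (fun a b hab => Subtype.ext hab) ℓ hℓ
  haveI : CharZero (lg_K L) := charZero_of_injective_algebraMap (algebraMap L (lg_K L)).injective
  haveI : Algebra.IsSeparable (lg_K L) (lg_E L N) := inferInstance
  have hS := lgv_adjoin_eq_top (K := lg_K L) L N ⟨lgh_lamK L, rfl⟩
  have hV := lgv_V (O := O) ℓ h2k hℓN ρO _ hrel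
  refine ssm_ec_mdl_etale hπ x hx hgenK {0, 1}
    (fun V _ _ hxV hunit hϖV => ug_unramAt_poly hπ x (lgv_S L N) hS hV V hxV hunit hϖV)
    ?_ n hπn ?_ G y hy hyn hG'
  · intro V2 _ _ hL hxV hc
    refine hram.hH V2 hL hxV ?_ ?_
    · have := hc 0 (by simp)
      rwa [map_zero, sub_zero] at this
    · have := hc 1 (by simp)
      rwa [map_one] at this
  · intro c hc y' hy'
    simp only [Finset.mem_insert, Finset.mem_singleton] at hc
    rcases hc with rfl | rfl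
    · rw [map_zero, sub_zero] at hy'
      exact h0 y' hy'
    · rw [map_one] at hy'
      exact h1 y' hy'

/-- **[EC] with the Frobenius polynomial `X ^ m - X`, `m ≡ 0` in the residue field** (e.g.
`m = ℓ ^ 2`: every point of the special fibre whose `x`-coordinate lies in `𝔽_{ℓ²}`): if
`x ^ m - x ∈ n` then it is a local parameter at `n`. -/
theorem ssm_ec_apply_frob {π : O} (hπ : Irreducible π) (ℓ : ℕ) [Fact ℓ.Prime]
    (hℓ : ((ℓ : ℕ) : O) ∈ IsLocalRing.maximalIdeal O) (hℓ2 : ℓ ≠ 2) (hℓN : ¬ ℓ ∣ N)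
    (x : lg_K L) (hx : Transcendental L x) (hgenK : IntermediateField.adjoin L {x} = ⊤)
    (hrel : cv_legN (algebraMap (lg_K L) (lg_E L N) x)
      = lgf_j2E L N * cv_legD (algebraMap (lg_K L) (lg_E L N) x))
    (hram : lg_RamHyp N x)
    (n : Ideal (fc_chart O ({algebraMap (lg_K L) (lg_E L N) x} : Set (lg_E L N))))
    [hn : n.IsMaximal]
    (hπn : algebraMap O (fc_chart O ({algebraMap (lg_K L) (lg_E L N) x} : Set (lg_E L N))) π ∈ n)
    (h0 : ∀ y : fc_chart O ({algebraMap (lg_K L) (lg_E L N) x} : Set (lg_E L N)),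
      (y : lg_E L N) = algebraMap (lg_K L) (lg_E L N) x → y ∉ n)
    (h1 : ∀ y : fc_chart O ({algebraMap (lg_K L) (lg_E L N) x} : Set (lg_E L N)),
      (y : lg_E L N) = algebraMap (lg_K L) (lg_E L N) x - 1 → y ∉ n)
    (m : ℕ) (hm : ((m : ℕ) : O) ∈ IsLocalRing.maximalIdeal O)
    (y : fc_chart O ({algebraMap (lg_K L) (lg_E L N) x} : Set (lg_E L N)))
    (hy : (y : lg_E L N) =
      algebraMap (lg_K L) (lg_E L N) x ^ m - algebraMap (lg_K L) (lg_E L N) x) (hyn : y ∈ n) :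
    tq_GenBy (algebraMap O (fc_chart O ({algebraMap (lg_K L) (lg_E L N) x} : Set (lg_E L N))) π)
      y n := by
  refine ssm_ec_apply O N hπ ℓ hℓ hℓ2 hℓN x hx hgenK hrel hram n hπn h0 h1
    (X ^ m - X) y (by rw [hy, map_sub, map_pow, aeval_X]) hyn ?_
  intro y' hy' hy'n
  have hxmem : algebraMap (lg_K L) (lg_E L N) x ∈
      fc_chart O ({algebraMap (lg_K L) (lg_E L N) x} : Set (lg_E L N)) :=
    fc_adjoin_le_chart _ (Algebra.subset_adjoin (Set.mem_singleton _))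
  -- `m ∈ n`
  have hmn : algebraMap O (fc_chart O ({algebraMap (lg_K L) (lg_E L N) x} : Set (lg_E L N)))
      ((m : ℕ) : O) ∈ n := by
    rw [hπ.maximalIdeal_eq, Ideal.mem_span_singleton] at hm
    obtain ⟨a, ha⟩ := hm
    rw [ha, map_mul]
    exact n.mul_mem_right _ hπn
  -- `y' = m x ^ (m - 1) - 1`
  have hy'eq : y' = algebraMap O _ ((m : ℕ) : O) *
      (⟨algebraMap (lg_K L) (lg_E L N) x, hxmem⟩ :
        fc_chart O ({algebraMap (lg_K L) (lg_E L N) x} : Set (lg_E L N))) ^ (m - 1) - 1 := by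
    apply Subtype.ext
    rw [hy', derivative_sub, derivative_X_pow, derivative_X, map_sub, map_mul, map_pow, aeval_X,
      aeval_C, map_one]
    rfl
  have h1n : (1 : fc_chart O ({algebraMap (lg_K L) (lg_E L N) x} : Set (lg_E L N))) ∈ n := by
    have : (1 : fc_chart O ({algebraMap (lg_K L) (lg_E L N) x} : Set (lg_E L N))) =
        algebraMap O _ ((m : ℕ) : O) *
          (⟨algebraMap (lg_K L) (lg_E L N) x, hxmem⟩ :
            fc_chart O ({algebraMap (lg_K L) (lg_E L N) x} : Set (lg_E L N))) ^ (m - 1) - y' := by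
      rw [hy'eq]; ring
    rw [this]
    exact n.sub_mem (n.mul_mem_right _ hmn) hy'n
  exact hn.ne_top ((Ideal.eq_top_iff_one _).2 h1n)

/-- **[EC] on the `λ`-chart.** -/
theorem ssm_ec_lam {π : O} (hπ : Irreducible π) (ℓ : ℕ) [Fact ℓ.Prime]
    (hℓ : ((ℓ : ℕ) : O) ∈ IsLocalRing.maximalIdeal O) (hℓ2 : ℓ ≠ 2) (hℓN : ¬ ℓ ∣ N)
    (hram : lg_RamHyp N (lgh_lamK L))
    (n : Ideal (fc_chart O ({lg_lamE N} : Set (lg_E L N)))) [hn : n.IsMaximal]
    (hπn : algebraMap O (fc_chart O ({lg_lamE N} : Set (lg_E L N))) π ∈ n)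
    (h0 : ∀ y : fc_chart O ({lg_lamE N} : Set (lg_E L N)), (y : lg_E L N) = lg_lamE N → y ∉ n)
    (h1 : ∀ y : fc_chart O ({lg_lamE N} : Set (lg_E L N)),
      (y : lg_E L N) = lg_lamE N - 1 → y ∉ n)
    (G : O[X]) (y : fc_chart O ({lg_lamE N} : Set (lg_E L N)))
    (hy : (y : lg_E L N) = aeval (lg_lamE N : lg_E L N) G) (hyn : y ∈ n)
    (hG' : ∀ y' : fc_chart O ({lg_lamE N} : Set (lg_E L N)),
      (y' : lg_E L N) = aeval (lg_lamE N : lg_E L N) (derivative G) → y' ∉ n) :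
    tq_GenBy (algebraMap O (fc_chart O ({lg_lamE N} : Set (lg_E L N))) π) y n :=
  ssm_ec_apply O N hπ ℓ hℓ hℓ2 hℓN (lgh_lamK L) (lg_lamK_transcendental L)
    (lgh_adjoin_lamK L) (lg_rel_lamE N) hram n (hn := hn) hπn h0 h1 G y hy hyn hG'

/-- **[EC] on the `λ⁻¹`-chart.** -/
theorem ssm_ec_lam_inv {π : O} (hπ : Irreducible π) (ℓ : ℕ) [Fact ℓ.Prime]
    (hℓ : ((ℓ : ℕ) : O) ∈ IsLocalRing.maximalIdeal O) (hℓ2 : ℓ ≠ 2) (hℓN : ¬ ℓ ∣ N)
    (hram : lg_RamHyp N (lgh_lamK L)⁻¹)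
    (n : Ideal (fc_chart O ({(lg_lamE N)⁻¹} : Set (lg_E L N)))) [hn : n.IsMaximal]
    (hπn : algebraMap O (fc_chart O ({(lg_lamE N)⁻¹} : Set (lg_E L N))) π ∈ n)
    (h0 : ∀ y : fc_chart O ({(lg_lamE N)⁻¹} : Set (lg_E L N)),
      (y : lg_E L N) = (lg_lamE N)⁻¹ → y ∉ n)
    (h1 : ∀ y : fc_chart O ({(lg_lamE N)⁻¹} : Set (lg_E L N)),
      (y : lg_E L N) = (lg_lamE N)⁻¹ - 1 → y ∉ n)
    (G : O[X]) (y : fc_chart O ({(lg_lamE N)⁻¹} : Set (lg_E L N)))
    (hy : (y : lg_E L N) = aeval ((lg_lamE N)⁻¹ : lg_E L N) G) (hyn : y ∈ n)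
    (hG' : ∀ y' : fc_chart O ({(lg_lamE N)⁻¹} : Set (lg_E L N)),
      (y' : lg_E L N) = aeval ((lg_lamE N)⁻¹ : lg_E L N) (derivative G) → y' ∉ n) :
    tq_GenBy (algebraMap O (fc_chart O ({(lg_lamE N)⁻¹} : Set (lg_E L N))) π) y n := by
  have hl0 : (lg_lamE N : lg_E L N) ≠ 0 := fun h =>
    lgf_lam_transcendental L N two_ne_zero (h ▸ isAlgebraic_zero)
  have hrel : cv_legN (algebraMap (lg_K L) (lg_E L N) (lgh_lamK L)⁻¹)
      = lgf_j2E L N * cv_legD (algebraMap (lg_K L) (lg_E L N) (lgh_lamK L)⁻¹) := by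
    rw [lg_algebraMap_lamK_inv]
    exact cv_leg_rel_inv hl0 (lg_rel_lamE N)
  have key := ssm_ec_apply O N hπ ℓ hℓ hℓ2 hℓN (lgh_lamK L)⁻¹ (lg_lamK_inv_transcendental L)
    (lg_adjoin_lamK_inv L) hrel hram
  rw [lg_algebraMap_lamK_inv] at key
  exact key n hπn h0 h1 G y hy hyn hG'

/-- **[EC] on the `λ`-chart, Frobenius polynomial**: if `λ ^ m - λ ∈ n` (`m ≡ 0` in the residue
field, e.g. `m = ℓ ^ 2`) then it is a local parameter at `n`. -/
theorem ssm_ec_lam_frob {π : O} (hπ : Irreducible π) (ℓ : ℕ) [Fact ℓ.Prime]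
    (hℓ : ((ℓ : ℕ) : O) ∈ IsLocalRing.maximalIdeal O) (hℓ2 : ℓ ≠ 2) (hℓN : ¬ ℓ ∣ N)
    (hram : lg_RamHyp N (lgh_lamK L))
    (n : Ideal (fc_chart O ({lg_lamE N} : Set (lg_E L N)))) [hn : n.IsMaximal]
    (hπn : algebraMap O (fc_chart O ({lg_lamE N} : Set (lg_E L N))) π ∈ n)
    (h0 : ∀ y : fc_chart O ({lg_lamE N} : Set (lg_E L N)), (y : lg_E L N) = lg_lamE N → y ∉ n)
    (h1 : ∀ y : fc_chart O ({lg_lamE N} : Set (lg_E L N)),
      (y : lg_E L N) = lg_lamE N - 1 → y ∉ n)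
    (m : ℕ) (hm : ((m : ℕ) : O) ∈ IsLocalRing.maximalIdeal O)
    (y : fc_chart O ({lg_lamE N} : Set (lg_E L N)))
    (hy : (y : lg_E L N) = (lg_lamE N : lg_E L N) ^ m - lg_lamE N) (hyn : y ∈ n) :
    tq_GenBy (algebraMap O (fc_chart O ({lg_lamE N} : Set (lg_E L N))) π) y n :=
  ssm_ec_apply_frob O N hπ ℓ hℓ hℓ2 hℓN (lgh_lamK L) (lg_lamK_transcendental L)
    (lgh_adjoin_lamK L) (lg_rel_lamE N) hram n (hn := hn) hπn h0 h1 m hm y hy hyn

/-- **[EC] on the `λ⁻¹`-chart, Frobenius polynomial.** -/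
theorem ssm_ec_lam_inv_frob {π : O} (hπ : Irreducible π) (ℓ : ℕ) [Fact ℓ.Prime]
    (hℓ : ((ℓ : ℕ) : O) ∈ IsLocalRing.maximalIdeal O) (hℓ2 : ℓ ≠ 2) (hℓN : ¬ ℓ ∣ N)
    (hram : lg_RamHyp N (lgh_lamK L)⁻¹)
    (n : Ideal (fc_chart O ({(lg_lamE N)⁻¹} : Set (lg_E L N)))) [hn : n.IsMaximal]
    (hπn : algebraMap O (fc_chart O ({(lg_lamE N)⁻¹} : Set (lg_E L N))) π ∈ n)
    (h0 : ∀ y : fc_chart O ({(lg_lamE N)⁻¹} : Set (lg_E L N)),
      (y : lg_E L N) = (lg_lamE N)⁻¹ → y ∉ n)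
    (h1 : ∀ y : fc_chart O ({(lg_lamE N)⁻¹} : Set (lg_E L N)),
      (y : lg_E L N) = (lg_lamE N)⁻¹ - 1 → y ∉ n)
    (m : ℕ) (hm : ((m : ℕ) : O) ∈ IsLocalRing.maximalIdeal O)
    (y : fc_chart O ({(lg_lamE N)⁻¹} : Set (lg_E L N)))
    (hy : (y : lg_E L N) = ((lg_lamE N)⁻¹ : lg_E L N) ^ m - (lg_lamE N)⁻¹) (hyn : y ∈ n) :
    tq_GenBy (algebraMap O (fc_chart O ({(lg_lamE N)⁻¹} : Set (lg_E L N))) π) y n := by
  have hl0 : (lg_lamE N : lg_E L N) ≠ 0 := fun h =>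
    lgf_lam_transcendental L N two_ne_zero (h ▸ isAlgebraic_zero)
  have hrel : cv_legN (algebraMap (lg_K L) (lg_E L N) (lgh_lamK L)⁻¹)
      = lgf_j2E L N * cv_legD (algebraMap (lg_K L) (lg_E L N) (lgh_lamK L)⁻¹) := by
    rw [lg_algebraMap_lamK_inv]
    exact cv_leg_rel_inv hl0 (lg_rel_lamE N)
  have key := ssm_ec_apply_frob O N hπ ℓ hℓ hℓ2 hℓN (lgh_lamK L)⁻¹
    (lg_lamK_inv_transcendental L) (lg_adjoin_lamK_inv L) hrel hram
  rw [lg_algebraMap_lamK_inv] at key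
  exact key n hπn h0 h1 m hm y hy hyn

end Inst

end Fermat.Agent.SS
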