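/-
SS [M], final instantiation, part 1 (Legendre cover): THE LEVEL PACKAGE.

For a number field `L ⊆ Q̄`, a discrete valuation ring `O` of `L` of odd residue characteristic `ℓ`,
a level `N` prime to `ℓ` and `ζ_N ∈ L`: the inputs that the instance leaves of the two-component
model ask of the GOOD-REDUCTION level `E' = lg_E L N`, in exactly the shapes they consume:
regularity of the two charts (S18), `π` prime on the charts, the special fibres integrally closed,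
the function-field facts, and the explicit étale coordinate `λ^(ℓ²) − λ` off the cusps.
-/
import Mathlib
import Fermat.Agent.SS.Model.EtaleCoordInst
import Fermat.Agent.JT3.Inst.RamHyp
import Fermat.Agent.JT3.Inst.FunFieldFacts
import Fermat.Agent.JT3.PlaceMap.RegDedekind

set_option autoImplicit false
set_option linter.style.haveILetI false
set_option linter.unusedSectionVars false

noncomputable section

namespace Fermat.Agent.SS

open Fermat.Agent.JT3 IntermediateField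

section Level

variable (L : Type) [Field L] [NumberField L] [Algebra L (AlgebraicClosure ℚ)]
  (O : ValuationSubring L) [IsDiscreteValuationRing O] (N : ℕ) [NeZero N]

theorem ssm_ll_isScalarTower : IsScalarTower O L (lg_E L N) :=
  IsScalarTower.of_algebraMap_eq fun _ => rfl

theorem ssm_ll_transcendental : Transcendental L (lg_lamE (L := L) N) :=
  lgf_lam_transcendental L N two_ne_zero

theorem ssm_ll_finite : FiniteDimensional L⟮(lg_lamE N : lg_E L N)⟯ (lg_E L N) :=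
  lgf_finite L N

theorem ssm_ll_const (z : lg_E L N) (hz : IsAlgebraic L z) :
    z ∈ (algebraMap L (lg_E L N)).range :=
  lgf_hconst (lg_E L N) z hz

variable {O}
variable {π : O} (hπ : Irreducible π) (ℓ : ℕ) [Fact ℓ.Prime]
  (hℓ : ((ℓ : ℕ) : O) ∈ IsLocalRing.maximalIdeal O) (hℓ2 : ℓ ≠ 2) (hℓN : ¬ ℓ ∣ N)
  (ζ : L) (hζ : IsPrimitiveRoot ζ N)

include hπ hℓ hℓ2 hℓN hζ

theorem ssm_ll_reg1 :
    jt_RegAt (fc_chart O ({lg_lamE N} : Set (lg_E L N)))
      (algebraMap O (fc_chart O ({lg_lamE N} : Set (lg_E L N))) π) :=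
  lg_regAt_lam O N hπ ℓ hℓ hℓ2 hℓN ζ hζ (lgr_hram N L).1

theorem ssm_ll_reg2 :
    jt_RegAt (fc_chart O ({(lg_lamE N)⁻¹} : Set (lg_E L N)))
      (algebraMap O (fc_chart O ({(lg_lamE N)⁻¹} : Set (lg_E L N))) π) :=
  lg_regAt_lam_inv O N hπ ℓ hℓ hℓ2 hℓN ζ hζ (lgr_hram N L).2

theorem ssm_ll_prime :
    Prime (algebraMap O (fc_chart O ({lg_lamE N} : Set (lg_E L N))) π) ∧
    Prime (algebraMap O (fc_chart O ({(lg_lamE N)⁻¹} : Set (lg_E L N))) π) ∧
    Prime (algebraMap O (fc_chart O ({lg_lamE N, (lg_lamE N)⁻¹} : Set (lg_E L N))) π) := by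
  haveI := ssm_ll_isScalarTower L O N
  haveI := ssm_ll_finite L N
  exact cn_prime_funField (K0 := L) hπ (ssm_ll_transcendental L N) (ssm_ll_const L N)
    (fun n hn hπn => (ssm_ll_reg1 L N hπ ℓ hℓ hℓ2 hℓN ζ hζ n hn hπn).2)
    (fun n hn hπn => (ssm_ll_reg2 L N hπ ℓ hℓ hℓ2 hℓN ζ hζ n hn hπn).2)

theorem ssm_ll_dedekind :
    IsDedekindDomain (fc_chart O ({lg_lamE N} : Set (lg_E L N)) ⧸
        Ideal.span {algebraMap O (fc_chart O ({lg_lamE N} : Set (lg_E L N))) π}) ∧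
      IsDedekindDomain (fc_chart O ({(lg_lamE N)⁻¹} : Set (lg_E L N)) ⧸
        Ideal.span {algebraMap O (fc_chart O ({(lg_lamE N)⁻¹} : Set (lg_E L N))) π}) := by
  haveI := ssm_ll_isScalarTower L O N
  haveI := ssm_ll_finite L N
  exact rrd_dedekind_of_regAt (K0 := L) hπ (ssm_ll_transcendental L N) (ssm_ll_const L N)
    (ssm_ll_reg1 L N hπ ℓ hℓ hℓ2 hℓN ζ hζ) (ssm_ll_reg2 L N hπ ℓ hℓ hℓ2 hℓN ζ hζ)

theorem ssm_ll_ic1 :
    IsIntegrallyClosed (fc_chart O ({lg_lamE N} : Set (lg_E L N)) ⧸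
      (Ideal.span {algebraMap O (fc_chart O ({lg_lamE N} : Set (lg_E L N))) π} :
        Ideal (fc_chart O ({lg_lamE N} : Set (lg_E L N))))) := by
  haveI := (ssm_ll_dedekind L N hπ ℓ hℓ hℓ2 hℓN ζ hζ).1
  infer_instance

theorem ssm_ll_ic2 :
    IsIntegrallyClosed (fc_chart O ({(lg_lamE N)⁻¹} : Set (lg_E L N)) ⧸
      (Ideal.span {algebraMap O (fc_chart O ({(lg_lamE N)⁻¹} : Set (lg_E L N))) π} :
        Ideal (fc_chart O ({(lg_lamE N)⁻¹} : Set (lg_E L N))))) := by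
  haveI := (ssm_ll_dedekind L N hπ ℓ hℓ hℓ2 hℓN ζ hζ).2
  infer_instance

omit hζ in
/-- **[EC] in the shape consumed by `ssm_cri_main`** (`lam' := λ` as an element of the chart,
`G = X^(ℓ²) − X`). -/
theorem ssm_ll_EC (𝔫' : Ideal (fc_chart O ({lg_lamE N} : Set (lg_E L N)))) (h𝔫' : 𝔫'.IsMaximal)
    (hπ𝔫 : algebraMap O (fc_chart O ({lg_lamE N} : Set (lg_E L N))) π ∈ 𝔫')
    (h0 : (⟨lg_lamE N, fc_x_mem_chart _⟩ : fc_chart O ({lg_lamE N} : Set (lg_E L N))) ∉ 𝔫')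
    (h1 : (⟨lg_lamE N, fc_x_mem_chart _⟩ : fc_chart O ({lg_lamE N} : Set (lg_E L N))) - 1 ∉ 𝔫')
    (hG : (⟨lg_lamE N, fc_x_mem_chart _⟩ : fc_chart O ({lg_lamE N} : Set (lg_E L N))) ^ (ℓ ^ 2) -
      ⟨lg_lamE N, fc_x_mem_chart _⟩ ∈ 𝔫') :
    tq_GenBy (algebraMap O (fc_chart O ({lg_lamE N} : Set (lg_E L N))) π)
      ((⟨lg_lamE N, fc_x_mem_chart _⟩ : fc_chart O ({lg_lamE N} : Set (lg_E L N))) ^ (ℓ ^ 2) -
        ⟨lg_lamE N, fc_x_mem_chart _⟩) 𝔫' := by
  haveI := h𝔫'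
  refine ssm_ec_lam_frob O N hπ ℓ hℓ hℓ2 hℓN (lgr_hram N L).1 𝔫' hπ𝔫 ?_ ?_ (ℓ ^ 2) ?_ _ rfl hG
  · intro y hy hmem
    apply h0
    have : y = ⟨lg_lamE N, fc_x_mem_chart _⟩ := Subtype.ext hy
    rwa [← this]
  · intro y hy hmem
    apply h1
    have : y = ⟨lg_lamE N, fc_x_mem_chart _⟩ - 1 := Subtype.ext hy
    rwa [← this]
  · rw [Nat.cast_pow]
    exact Ideal.pow_mem_of_mem _ hℓ 2 (by norm_num)

end Level

end Fermat.Agent.SS
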