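/-
SS [M], final instantiation, part 2 (Legendre cover): THE MODEL.

Context [LEG-CTX] (helper8's `TwoPrimesLeg.lean`): `L ⊆ Q̄` a number field, `O` a discrete valuation
ring of `L` of odd residue characteristic `q`, `q ∤ N'`, `E' = lg_E L N' ⊆ E = lg_E L (N' q)`,
coordinate `x = λ`, `W` the Atkin–Lehner involution, `V1` the Gauss valuation ring of `E`,
`V2 = W V1`.

* `ssm_fl_W_lam`   : `W λ = λ(X^q)`;
* `ssm_fl_facts`   : clause [F]  — the integrality package `ssm_i1_Facts` for `(λ, W λ)`;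
* `ssm_fl_sigma`   : clause [SG] — the five `σ`-fields of `ss_Model`;
* `ssm_fl_model_of`: the model from the clauses [SM-I] (smooth points) and [ND] (nodes).
-/
import Mathlib
import Fermat.Agent.SS.Model.LegLevel
import Fermat.Agent.SS.Model.TwoPrimesLeg
import Fermat.Agent.SS.Model.IntegralInst
import Fermat.Agent.SS.Model.CuspsFinal
import Fermat.Agent.SS.Model.SigmaW
import Fermat.Agent.SS.Model.Assembly
import Fermat.Agent.SS.CoreInst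

set_option autoImplicit false
set_option linter.style.haveILetI false
set_option linter.unusedSectionVars false
set_option linter.unusedVariables false

noncomputable section

namespace Fermat.Agent.SS

open Fermat.Agent.JT3 IntermediateField ModularCurve IsLocalRing

section Facts

variable {L : Type*} [Field L] [CharZero L] [Algebra L (AlgebraicClosure ℚ)]
  (O : ValuationSubring L) [IsDiscreteValuationRing O] {π : O} (hπ : Irreducible π)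
variable (N' q : ℕ) [NeZero N'] [NeZero q] [hq : Fact q.Prime] [CharP (ResidueField O) q]
  (hq2 : ¬ 2 ∣ q) (hqN' : ¬ q ∣ N')

include hq2 in
omit hq in
theorem ssm_fl_ne_two : q ≠ 2 := fun h => hq2 (by rw [h])

include hq2 in
theorem ssm_fl_lamq_mem : qExpand L q (lg_lam L) ∈ lg_E L (N' * q) :=
  ssm_cf_lamq_mem L (N' * q) q hq.out (ssm_fl_ne_two q hq2) (dvd_mul_left q N')

/-- `W λ = λ(X^q)`. -/
theorem ssm_fl_W_lam :
    ssm_gl_W L N' q hq2 hqN' (lg_lamE (N' * q)) =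
      ⟨qExpand L q (lg_lam L), ssm_fl_lamq_mem (L := L) N' q hq2⟩ :=
  Subtype.ext (ssm_al_coe_WE_of_mem L N' q hq.out hq2 hqN' (lg_lam_mem_E L N') _)

set_option synthInstance.maxHeartbeats 200000 in
/-- **clause [F]**: the integrality package of [I1] for `(λ, W λ)` on the Legendre tower. -/
theorem ssm_fl_facts
    (hprime : Prime (algebraMap ↥O (fc_chart ↥O ({lg_lamE N'} : Set ↥(lg_E L N'))) π)) :
    ssm_i1_Facts ↥O q (lg_lamE (N' * q)) (ssm_gl_W L N' q hq2 hqN' (lg_lamE (N' * q)))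
      (ssm_gl_V1 O hπ N' q) (ssm_gl_V2 O hπ N' q hq2 hqN') := by
  letI := ssm_gi_algebra (ssm_al_E_le L N' q)
  letI := ssm_gi_algebraV (ssm_al_E_le L N' q)
    (gq_valSubOf π hπ.ne_zero hπ.maximalIdeal_eq (lg_E L N')
      ((ssm_al_E_le L N' q).trans (ssm_ga_E_le_quotField O (N' * q))))
  haveI := ssm_gi_isScalarTower (ssm_al_E_le L N' q)
    (gq_valSubOf π hπ.ne_zero hπ.maximalIdeal_eq (lg_E L N')
      ((ssm_al_E_le L N' q).trans (ssm_ga_E_le_quotField O (N' * q))))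
  haveI := ssm_go_isScalarTower O (lg_E L (N' * q))
  haveI : FiniteDimensional L⟮(lg_lamE (N' * q) : lg_E L (N' * q))⟯ ↥(lg_E L (N' * q)) :=
    lgf_finite L (N' * q)
  have D := ssm_gl_data O hπ N' q hq2 hqN'
  have H := ssm_gl_hyp O hπ N' q hq2 hqN' hprime
  have CF := ssm_cf_final L (N' * q) q hq.out (ssm_fl_ne_two q hq2) (dvd_mul_left q N')
    (lg_lam_mem_E L (N' * q)) (ssm_fl_lamq_mem (L := L) N' q hq2)
  have hx : Transcendental L (lg_lamE (L := L) (N' * q)) :=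
    lgf_lam_transcendental L (N' * q) two_ne_zero
  rw [ssm_fl_W_lam]
  refine ssm_i1i_main (L := L) D hπ (lamE := lg_lamE (N' * q)) ?_ (ssm_fl_W_lam N' q hq2 hqN') hx H CF
  exact Subtype.ext rfl

end Facts

section Sigma

variable {L : Type*} [Field L] [CharZero L] [Algebra L (AlgebraicClosure ℚ)]
  (O : ValuationSubring L) [IsDiscreteValuationRing O] {π : O} (hπ : Irreducible π)
variable (N' q : ℕ) [NeZero N'] [NeZero q] [hq : Fact q.Prime] [CharP (ResidueField O) q]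
  (hq2 : ¬ 2 ∣ q) (hqN' : ¬ q ∣ N') (σ : L ≃+* L) (hσ : ss_Inert O σ)

set_option synthInstance.maxHeartbeats 200000 in
/-- **clause [SG]**: the five `σ`-fields of `ss_Model` for `σ_E = ssm_sg_aut`, `σ_O = ssm_sg_base`. -/
theorem ssm_fl_sigma
    (H : ssm_tp_Hyp
      (algebraMap ↥O (Algebra.adjoin ↥O ({lg_lamE (N' * q)} : Set ↥(lg_E L (N' * q)))) π)
      (ssm_gl_V1 O hπ N' q) (ssm_gl_V2 O hπ N' q hq2 hqN')) :
    (∀ a : O, ssm_sg_aut (N' * q) σ (algebraMap O (lg_E L (N' * q)) a) =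
      algebraMap O (lg_E L (N' * q)) (ssm_sg_base O σ hσ a)) ∧
    (∀ a : O, π ∣ ssm_sg_base O σ hσ a - a) ∧
    ssm_sg_aut (N' * q) σ (lg_lamE (N' * q)) = lg_lamE (N' * q) ∧
    (∀ b ∈ fc_chart O ({lg_lamE (N' * q)} : Set ↥(lg_E L (N' * q))),
      ∃ c ∈ fc_chart O ({lg_lamE (N' * q)} : Set ↥(lg_E L (N' * q))),
        ssm_sg_aut (N' * q) σ b - b = algebraMap O (lg_E L (N' * q)) π * c) ∧
    (∀ b ∈ fc_chart O ({(lg_lamE (N' * q))⁻¹} : Set ↥(lg_E L (N' * q))),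
      ∃ c ∈ fc_chart O ({(lg_lamE (N' * q))⁻¹} : Set ↥(lg_E L (N' * q))),
        ssm_sg_aut (N' * q) σ b - b = algebraMap O (lg_E L (N' * q)) π * c) := by
  haveI := ssm_go_isScalarTower O (lg_E L (N' * q))
  haveI : FiniteDimensional L⟮(lg_lamE (N' * q) : lg_E L (N' * q))⟯ ↥(lg_E L (N' * q)) :=
    lgf_finite L (N' * q)
  have hx : Transcendental L (lg_lamE (L := L) (N' * q)) :=
    lgf_lam_transcendental L (N' * q) two_ne_zero
  have hxi : Transcendental L (lg_lamE (L := L) (N' * q))⁻¹ :=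
    fun h => hx (IsAlgebraic.inv_iff.mp h)
  refine ⟨ssm_sg_aut_base O (N' * q) σ hσ, ssm_sg_base_dvd O σ hσ hπ.maximalIdeal_eq,
    ssm_sg_aut_lam (N' * q) σ, ?_, ?_⟩
  · exact ssm_sg_triv_tp O (N' * q) σ hπ hσ (ssm_gl_W L N' q hq2 hqN')
      (ssm_sgw_comm' L N' q hq.out hq2 hqN' σ) hx _ (ssm_sg_aut_fix1 (N' * q) σ) H
      (ssm_tp_ff_chart (L := L) hπ hx)
  · exact ssm_sg_triv_tp O (N' * q) σ hπ hσ (ssm_gl_W L N' q hq2 hqN')
      (ssm_sgw_comm' L N' q hq.out hq2 hqN' σ) hxi _ (ssm_sg_aut_fix2 (N' * q) σ)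
      (ssm_tp_ff_hyp_inv (L := L) hπ hx H) (ssm_tp_ff_chart (L := L) hπ hxi)

end Sigma

section Model

variable {L : Type*} [Field L] [CharZero L] [Algebra L (AlgebraicClosure ℚ)]
  (O : ValuationSubring L) [IsDiscreteValuationRing O] {π : O} (hπ : Irreducible π)
variable (N' q : ℕ) [NeZero N'] [NeZero q] [hq : Fact q.Prime] [CharP (ResidueField O) q]
  (hq2 : ¬ 2 ∣ q) (hqN' : ¬ q ∣ N') (σ : L ≃+* L) (hσ : ss_Inert O σ)

omit [CharZero L] [Algebra L (AlgebraicClosure ℚ)] in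
/-- helper6's `ss_sigmaE` is helper20's `ssm_sg_aut`. -/
theorem ssm_fl_sigmaE_eq (N : ℕ) [NeZero N]
    (hE : ∀ z ∈ lg_E L N, coeffMap (σ : L →+* L) z ∈ lg_E L N)
    (hE' : ∀ z ∈ lg_E L N, coeffMap (σ.symm : L →+* L) z ∈ lg_E L N) :
    ss_sigmaE σ (lg_E L N) hE hE' = ssm_sg_aut N σ :=
  RingEquiv.ext fun _ => rfl

omit [CharZero L] [Algebra L (AlgebraicClosure ℚ)] [IsDiscreteValuationRing ↥O] in
/-- helper6's `ss_sigmaO` is helper20's `ssm_sg_base`. -/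
theorem ssm_fl_sigmaO_eq (h : ∀ z ∈ O, σ z ∈ O) (h' : ∀ z ∈ O, σ.symm z ∈ O) :
    ss_sigmaO O σ h h' = ssm_sg_base O σ hσ :=
  RingEquiv.ext fun _ => rfl

set_option synthInstance.maxHeartbeats 200000 in
/-- **the model from the clauses**: [H], [F], [SG] are discharged here; [SM-I] (`hsm`) and [ND]
(`hnode`) are the inputs. -/
theorem ssm_fl_model_of
    (hprime : Prime (algebraMap ↥O (fc_chart ↥O ({lg_lamE N'} : Set ↥(lg_E L N'))) π))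
    (hE : ∀ z ∈ lg_E L (N' * q), coeffMap (σ : L →+* L) z ∈ lg_E L (N' * q))
    (hE' : ∀ z ∈ lg_E L (N' * q), coeffMap (σ.symm : L →+* L) z ∈ lg_E L (N' * q))
    (h : ∀ z ∈ O, σ z ∈ O) (h' : ∀ z ∈ O, σ.symm z ∈ O)
    (hsm11 : ∀ 𝔫 : Ideal (fc_chart ↥O ({lg_lamE (N' * q)} : Set ↥(lg_E L (N' * q)))), 𝔫.IsMaximal →
      algebraMap ↥O (fc_chart ↥O ({lg_lamE (N' * q)} : Set ↥(lg_E L (N' * q)))) π ∈ 𝔫 →
      ¬ ssm_tp_P (fc_chart ↥O ({lg_lamE (N' * q)} : Set ↥(lg_E L (N' * q))))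
        (ssm_gl_V2 O hπ N' q hq2 hqN') ≤ 𝔫 →
      ss_SmoothAt π (fc_chart ↥O ({lg_lamE (N' * q)} : Set ↥(lg_E L (N' * q)))) 𝔫)
    (hsm12 : ∀ 𝔫 : Ideal (fc_chart ↥O ({lg_lamE (N' * q)} : Set ↥(lg_E L (N' * q)))), 𝔫.IsMaximal →
      algebraMap ↥O (fc_chart ↥O ({lg_lamE (N' * q)} : Set ↥(lg_E L (N' * q)))) π ∈ 𝔫 →
      ¬ ssm_tp_P (fc_chart ↥O ({lg_lamE (N' * q)} : Set ↥(lg_E L (N' * q))))
        (ssm_gl_V1 O hπ N' q) ≤ 𝔫 →
      ss_SmoothAt π (fc_chart ↥O ({lg_lamE (N' * q)} : Set ↥(lg_E L (N' * q)))) 𝔫)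
    (hsm21 : ∀ 𝔫 : Ideal (fc_chart ↥O ({(lg_lamE (N' * q))⁻¹} : Set ↥(lg_E L (N' * q)))),
      𝔫.IsMaximal →
      algebraMap ↥O (fc_chart ↥O ({(lg_lamE (N' * q))⁻¹} : Set ↥(lg_E L (N' * q)))) π ∈ 𝔫 →
      ¬ ssm_tp_P (fc_chart ↥O ({(lg_lamE (N' * q))⁻¹} : Set ↥(lg_E L (N' * q))))
        (ssm_gl_V2 O hπ N' q hq2 hqN') ≤ 𝔫 →
      ss_SmoothAt π (fc_chart ↥O ({(lg_lamE (N' * q))⁻¹} : Set ↥(lg_E L (N' * q)))) 𝔫)
    (hsm22 : ∀ 𝔫 : Ideal (fc_chart ↥O ({(lg_lamE (N' * q))⁻¹} : Set ↥(lg_E L (N' * q)))),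
      𝔫.IsMaximal →
      algebraMap ↥O (fc_chart ↥O ({(lg_lamE (N' * q))⁻¹} : Set ↥(lg_E L (N' * q)))) π ∈ 𝔫 →
      ¬ ssm_tp_P (fc_chart ↥O ({(lg_lamE (N' * q))⁻¹} : Set ↥(lg_E L (N' * q))))
        (ssm_gl_V1 O hπ N' q) ≤ 𝔫 →
      ss_SmoothAt π (fc_chart ↥O ({(lg_lamE (N' * q))⁻¹} : Set ↥(lg_E L (N' * q)))) 𝔫)
    (hnode : ∀ 𝔫 : Ideal (fc_chart ↥O ({lg_lamE (N' * q)} : Set ↥(lg_E L (N' * q)))), 𝔫.IsMaximal →
      ssm_tp_P (fc_chart ↥O ({lg_lamE (N' * q)} : Set ↥(lg_E L (N' * q))))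
        (ssm_gl_V1 O hπ N' q) ≤ 𝔫 →
      ssm_tp_P (fc_chart ↥O ({lg_lamE (N' * q)} : Set ↥(lg_E L (N' * q))))
        (ssm_gl_V2 O hπ N' q hq2 hqN') ≤ 𝔫 →
      ss_NodeAt π (ssm_sg_aut (N' * q) σ) (ssm_sg_base O σ hσ) (fc_chart1_le (lg_lamE (N' * q)))
        (ssm_tp_P (fc_chart ↥O ({lg_lamE (N' * q), (lg_lamE (N' * q))⁻¹} :
          Set ↥(lg_E L (N' * q)))) (ssm_gl_V1 O hπ N' q))
        (ssm_tp_P (fc_chart ↥O ({lg_lamE (N' * q), (lg_lamE (N' * q))⁻¹} :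
          Set ↥(lg_E L (N' * q)))) (ssm_gl_V2 O hπ N' q hq2 hqN')) 𝔫) :
    ss_Model π (lg_lamE (N' * q)) (ss_sigmaE σ (lg_E L (N' * q)) hE hE') (ss_sigmaO O σ h h')
      (ssm_tp_P (fc_chart ↥O ({lg_lamE (N' * q), (lg_lamE (N' * q))⁻¹} :
        Set ↥(lg_E L (N' * q)))) (ssm_gl_V1 O hπ N' q))
      (ssm_tp_P (fc_chart ↥O ({lg_lamE (N' * q), (lg_lamE (N' * q))⁻¹} :
        Set ↥(lg_E L (N' * q)))) (ssm_gl_V2 O hπ N' q hq2 hqN')) := by
  rw [ssm_fl_sigmaE_eq σ (N' * q) hE hE', ssm_fl_sigmaO_eq O σ hσ h h']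
  haveI := ssm_go_isScalarTower O (lg_E L (N' * q))
  haveI : FiniteDimensional L⟮(lg_lamE (N' * q) : lg_E L (N' * q))⟯ ↥(lg_E L (N' * q)) :=
    lgf_finite L (N' * q)
  have hx : Transcendental L (lg_lamE (L := L) (N' * q)) :=
    lgf_lam_transcendental L (N' * q) two_ne_zero
  have H := ssm_gl_hyp O hπ N' q hq2 hqN' hprime
  have F := ssm_fl_facts O hπ N' q hq2 hqN' hprime
  obtain ⟨s1, s2, s3, s4, s5⟩ := ssm_fl_sigma O hπ N' q hq2 hqN' σ hσ H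
  exact ssm_asm_model_of_facts (L := L) hπ hx (lgf_hconst (lg_E L (N' * q))) H
    (ssm_gl_W L N' q hq2 hqN') (ssm_al_WE_WE L N' q hq.out hq2 hqN')
    (fun a => (ssm_al_WE L N' q hq.out hq2 hqN').commutes (a : L)) (fun _ => Iff.rfl)
    hq.out.two_le F s1 s2 s3 s4 s5 hsm11 hsm12 hsm21 hsm22 hnode

end Model

end Fermat.Agent.SS
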