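/-
SS [M] instance clause [SM-I] (helper4), prefix `ssm_si_`: THE FOUR SMOOTH CLAUSES of
`ssm_asm_model` for a tower `E' ≤ E ≤ Quot(O((X)))` (helper8's generic context of
`SS/Model/TwoPrimesInst.lean`) and its Legendre instance.

* `ssm_si_chart` : for a chart coordinate `y ∈ E'` with image `yE ∈ E`: the two smooth clauses on the
  chart `fc_chart O {yE}` (off the second component by helper12's `ssm_cpi_ff`, off the first one by
  `ssm_cpi_ff_smooth2`, transport along `W`), all the instances of [CP-I] discharged;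
* `ssm_si_smooth_gen` : both charts `y = lam'`, `lam'⁻¹`;
* `ssm_si_smooth` : the Legendre instance in helper8's context [LEG-CTX] (`TwoPrimesLeg.lean`): the
  hypotheses `hsm11 hsm12 hsm21 hsm22` of `ssm_asm_model(_of_facts)`.
-/
import Mathlib
import Fermat.Agent.SS.Model.ComponentsInst
import Fermat.Agent.SS.Model.TwoPrimesInst
import Fermat.Agent.SS.Model.TwoPrimesLeg
import Fermat.Agent.SS.Model.PointsInf
import Fermat.Agent.JT3.Seams

set_option autoImplicit false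
set_option linter.unusedSectionVars false
set_option linter.unusedVariables false
set_option linter.style.haveILetI false

noncomputable section

open ModularCurve IntermediateField IsLocalRing
open Fermat.Agent.JT3

namespace Fermat.Agent.SS

section Generic

variable {L : Type*} [Field L] [CharZero L] (O : ValuationSubring L)
  [IsDiscreteValuationRing O] {π : O} (hπ : Irreducible π)
variable (q : ℕ) [NeZero q] [hq : Fact q.Prime] [CharP (ResidueField O) q]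
variable (E' E : IntermediateField L (LaurentSeries L)) (hle : E' ≤ E)
  (hE : E ≤ gq_quotField O L)

set_option synthInstance.maxHeartbeats 200000 in
set_option maxHeartbeats 400000 in
/-- **the two smooth clauses on one chart** `fc_chart O {yE}`, `yE` the image in `E` of a chart
coordinate `y` of `E'`. -/
theorem ssm_si_chart (W : ↥E ≃+* ↥E) (hWW : ∀ x, W (W x) = x)
    (hW : ∀ z : ↥E', ((W (IntermediateField.inclusion hle z) : ↥E) : LaurentSeries L) =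
      qExpand L q (z : LaurentSeries L))
    (hrank : IntermediateField.relfinrank E' E = q + 1)
    (ys : LaurentSeries O) (hyF : ssm_ga_FrobFixed q ys) (n : ℤ) (hn : ¬ (q : ℤ) ∣ n)
    (hyn : residue O (ys.coeff n) ≠ 0) (lam' : ↥E')
    (hlam : (lam' : LaurentSeries L) = coeffMap (algebraMap O L) ys)
    (y : ↥E') (yE : ↥E) (hyE : IntermediateField.inclusion hle y = yE)
    (hy : Transcendental L y) [FiniteDimensional L⟮y⟯ ↥E'] (hyEt : Transcendental L yE)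
    (hover : ssm_tp_Over (algebraMap ↥O (Algebra.adjoin ↥O ({y} : Set ↥E')) π)
      (gq_valSubOf π hπ.ne_zero hπ.maximalIdeal_eq E' (hle.trans hE)))
    (H : ssm_tp_Hyp (algebraMap ↥O (Algebra.adjoin ↥O ({yE} : Set ↥E)) π)
      (gq_valSubOf π hπ.ne_zero hπ.maximalIdeal_eq E hE)
      ((gq_valSubOf π hπ.ne_zero hπ.maximalIdeal_eq E hE).comap (W : ↥E →+* ↥E)))
    (hprime : Prime (algebraMap ↥O (fc_chart ↥O ({y} : Set ↥E')) π))
    (hic : IsIntegrallyClosed (fc_chart ↥O ({y} : Set ↥E') ⧸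
      (Ideal.span {algebraMap ↥O (fc_chart ↥O ({y} : Set ↥E')) π} :
        Ideal (fc_chart ↥O ({y} : Set ↥E')))))
    (hreg : jt_RegAt (fc_chart ↥O ({y} : Set ↥E'))
      (algebraMap ↥O (fc_chart ↥O ({y} : Set ↥E')) π))
    (hWB : ∀ b ∈ fc_chart ↥O ({yE} : Set ↥E), W b ∈ fc_chart ↥O ({yE} : Set ↥E))
    (hWO : ∀ a : ↥O, W (algebraMap ↥O ↥E a) = algebraMap ↥O ↥E a) :
    (∀ 𝔫 : Ideal (fc_chart ↥O ({yE} : Set ↥E)), 𝔫.IsMaximal →
      algebraMap ↥O (fc_chart ↥O ({yE} : Set ↥E)) π ∈ 𝔫 →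
      ¬ ssm_tp_P (fc_chart ↥O ({yE} : Set ↥E))
        ((gq_valSubOf π hπ.ne_zero hπ.maximalIdeal_eq E hE).comap (W : ↥E →+* ↥E)) ≤ 𝔫 →
      ss_SmoothAt π (fc_chart ↥O ({yE} : Set ↥E)) 𝔫) ∧
    (∀ 𝔫 : Ideal (fc_chart ↥O ({yE} : Set ↥E)), 𝔫.IsMaximal →
      algebraMap ↥O (fc_chart ↥O ({yE} : Set ↥E)) π ∈ 𝔫 →
      ¬ ssm_tp_P (fc_chart ↥O ({yE} : Set ↥E))
        (gq_valSubOf π hπ.ne_zero hπ.maximalIdeal_eq E hE) ≤ 𝔫 →
      ss_SmoothAt π (fc_chart ↥O ({yE} : Set ↥E)) 𝔫) := by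
  subst hyE
  letI := ssm_gi_algebra hle
  letI := ssm_gi_algebraV hle (gq_valSubOf π hπ.ne_zero hπ.maximalIdeal_eq E' (hle.trans hE))
  haveI := ssm_gi_isScalarTower hle
    (gq_valSubOf π hπ.ne_zero hπ.maximalIdeal_eq E' (hle.trans hE))
  have hfr : Module.finrank ↥E' ↥E = q + 1 := (ssm_gt_finrank_eq hle).trans hrank
  haveI : FiniteDimensional ↥E' ↥E := ssm_gi_finiteDimensional hfr
  haveI : Algebra.IsSeparable ↥E' ↥E := ssm_gi_isSeparable
  haveI := ssm_go_isScalarTower O E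
  haveI := ssm_go_isScalarTower O E'
  haveI := ssm_gt_isScalarTower O hle
  have D := ssm_gt_data O hπ q E' E hle hE W hWW hW hrank ys hyF n hn hyn lam' hlam
  have hVK : ∀ z : ↥E', z ∈ gq_valSubOf π hπ.ne_zero hπ.maximalIdeal_eq E' (hle.trans hE) ↔
      z ∈ (algebraMap ↥(gq_valSubOf π hπ.ne_zero hπ.maximalIdeal_eq E' (hle.trans hE)) ↥E').range :=
    fun z => (ssm_gi_mem_range _ z).symm
  have h1 := ssm_cpi_ff (L := L) D hπ hy hyEt hprime hic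
    (gq_valSubOf π hπ.ne_zero hπ.maximalIdeal_eq E' (hle.trans hE)) hVK hover H
  refine ⟨h1.2.2 hreg, ?_⟩
  intro 𝔫 h𝔫 hπ𝔫 hP1
  exact ssm_cpi_ff_smooth2 (L := L) D hπ hy hyEt hprime hic
    (gq_valSubOf π hπ.ne_zero hπ.maximalIdeal_eq E' (hle.trans hE)) hVK hover H hreg
    (ssm_inf_equiv W hWW _ hWB) (fun _ => rfl) (hWO π) 𝔫 h𝔫 hπ𝔫 hP1

set_option synthInstance.maxHeartbeats 200000 in
set_option maxHeartbeats 800000 in
/-- **the four smooth clauses** for the two charts `lam`, `lam⁻¹` of `E`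
(`lam := inclusion hle lam'`). -/
theorem ssm_si_smooth_gen (W : ↥E ≃+* ↥E) (hWW : ∀ x, W (W x) = x)
    (hW : ∀ z : ↥E', ((W (IntermediateField.inclusion hle z) : ↥E) : LaurentSeries L) =
      qExpand L q (z : LaurentSeries L))
    (hrank : IntermediateField.relfinrank E' E = q + 1)
    (ys : LaurentSeries O) (hyF : ssm_ga_FrobFixed q ys) (n : ℤ) (hn : ¬ (q : ℤ) ∣ n)
    (hyn : residue O (ys.coeff n) ≠ 0) (lam' : ↥E')
    (hlam : (lam' : LaurentSeries L) = coeffMap (algebraMap O L) ys)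
    [FiniteDimensional L⟮lam'⟯ ↥E']
    [FiniteDimensional L⟮IntermediateField.inclusion hle lam'⟯ ↥E]
    (H : ssm_tp_Hyp
      (algebraMap ↥O (Algebra.adjoin ↥O ({IntermediateField.inclusion hle lam'} : Set ↥E)) π)
      (gq_valSubOf π hπ.ne_zero hπ.maximalIdeal_eq E hE)
      ((gq_valSubOf π hπ.ne_zero hπ.maximalIdeal_eq E hE).comap (W : ↥E →+* ↥E)))
    (hprime1 : Prime (algebraMap ↥O (fc_chart ↥O ({lam'} : Set ↥E')) π))
    (hprime2 : Prime (algebraMap ↥O (fc_chart ↥O ({lam'⁻¹} : Set ↥E')) π))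
    (hic1 : IsIntegrallyClosed (fc_chart ↥O ({lam'} : Set ↥E') ⧸
      (Ideal.span {algebraMap ↥O (fc_chart ↥O ({lam'} : Set ↥E')) π} :
        Ideal (fc_chart ↥O ({lam'} : Set ↥E')))))
    (hic2 : IsIntegrallyClosed (fc_chart ↥O ({lam'⁻¹} : Set ↥E') ⧸
      (Ideal.span {algebraMap ↥O (fc_chart ↥O ({lam'⁻¹} : Set ↥E')) π} :
        Ideal (fc_chart ↥O ({lam'⁻¹} : Set ↥E')))))
    (hreg1 : jt_RegAt (fc_chart ↥O ({lam'} : Set ↥E'))
      (algebraMap ↥O (fc_chart ↥O ({lam'} : Set ↥E')) π))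
    (hreg2 : jt_RegAt (fc_chart ↥O ({lam'⁻¹} : Set ↥E'))
      (algebraMap ↥O (fc_chart ↥O ({lam'⁻¹} : Set ↥E')) π))
    (hWB1 : ∀ b ∈ fc_chart ↥O ({IntermediateField.inclusion hle lam'} : Set ↥E),
      W b ∈ fc_chart ↥O ({IntermediateField.inclusion hle lam'} : Set ↥E))
    (hWB2 : ∀ b ∈ fc_chart ↥O ({(IntermediateField.inclusion hle lam')⁻¹} : Set ↥E),
      W b ∈ fc_chart ↥O ({(IntermediateField.inclusion hle lam')⁻¹} : Set ↥E))
    (hWO : ∀ a : ↥O, W (algebraMap ↥O ↥E a) = algebraMap ↥O ↥E a) :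
    (∀ 𝔫 : Ideal (fc_chart ↥O ({IntermediateField.inclusion hle lam'} : Set ↥E)), 𝔫.IsMaximal →
      algebraMap ↥O (fc_chart ↥O ({IntermediateField.inclusion hle lam'} : Set ↥E)) π ∈ 𝔫 →
      ¬ ssm_tp_P (fc_chart ↥O ({IntermediateField.inclusion hle lam'} : Set ↥E))
        ((gq_valSubOf π hπ.ne_zero hπ.maximalIdeal_eq E hE).comap (W : ↥E →+* ↥E)) ≤ 𝔫 →
      ss_SmoothAt π (fc_chart ↥O ({IntermediateField.inclusion hle lam'} : Set ↥E)) 𝔫) ∧
    (∀ 𝔫 : Ideal (fc_chart ↥O ({IntermediateField.inclusion hle lam'} : Set ↥E)), 𝔫.IsMaximal →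
      algebraMap ↥O (fc_chart ↥O ({IntermediateField.inclusion hle lam'} : Set ↥E)) π ∈ 𝔫 →
      ¬ ssm_tp_P (fc_chart ↥O ({IntermediateField.inclusion hle lam'} : Set ↥E))
        (gq_valSubOf π hπ.ne_zero hπ.maximalIdeal_eq E hE) ≤ 𝔫 →
      ss_SmoothAt π (fc_chart ↥O ({IntermediateField.inclusion hle lam'} : Set ↥E)) 𝔫) ∧
    (∀ 𝔫 : Ideal (fc_chart ↥O ({(IntermediateField.inclusion hle lam')⁻¹} : Set ↥E)),
      𝔫.IsMaximal →
      algebraMap ↥O (fc_chart ↥O ({(IntermediateField.inclusion hle lam')⁻¹} : Set ↥E)) π ∈ 𝔫 →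
      ¬ ssm_tp_P (fc_chart ↥O ({(IntermediateField.inclusion hle lam')⁻¹} : Set ↥E))
        ((gq_valSubOf π hπ.ne_zero hπ.maximalIdeal_eq E hE).comap (W : ↥E →+* ↥E)) ≤ 𝔫 →
      ss_SmoothAt π (fc_chart ↥O ({(IntermediateField.inclusion hle lam')⁻¹} : Set ↥E)) 𝔫) ∧
    (∀ 𝔫 : Ideal (fc_chart ↥O ({(IntermediateField.inclusion hle lam')⁻¹} : Set ↥E)),
      𝔫.IsMaximal →
      algebraMap ↥O (fc_chart ↥O ({(IntermediateField.inclusion hle lam')⁻¹} : Set ↥E)) π ∈ 𝔫 →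
      ¬ ssm_tp_P (fc_chart ↥O ({(IntermediateField.inclusion hle lam')⁻¹} : Set ↥E))
        (gq_valSubOf π hπ.ne_zero hπ.maximalIdeal_eq E hE) ≤ 𝔫 →
      ss_SmoothAt π (fc_chart ↥O ({(IntermediateField.inclusion hle lam')⁻¹} : Set ↥E)) 𝔫) := by
  haveI := ssm_go_isScalarTower O E
  haveI := ssm_go_isScalarTower O E'
  have hn0 : n ≠ 0 := by
    rintro rfl
    exact hn (dvd_zero _)
  have hx : Transcendental L lam' := ssm_go_transcendental O E' ys lam' hlam hn0 hyn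
  have hxE : Transcendental L (IntermediateField.inclusion hle lam') :=
    ssm_go_transcendental O E ys (IntermediateField.inclusion hle lam') hlam hn0 hyn
  have hxi : Transcendental L lam'⁻¹ := fun h => hx (IsAlgebraic.inv_iff.mp h)
  have hxEi : Transcendental L (IntermediateField.inclusion hle lam')⁻¹ :=
    fun h => hxE (IsAlgebraic.inv_iff.mp h)
  have hover := ssm_go_over O E' ys lam' hlam hπ (hle.trans hE) hn0 hyn
  have hover' := ssm_tp_over_inv (fc_ff_transcendental (L := L) hx)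
    (fc_ff_transcendental (L := L) hxi) hπ.not_isUnit hover
  have H' := ssm_tp_ff_hyp_inv (L := L) hπ hxE H
  haveI : FiniteDimensional L⟮lam'⁻¹⟯ ↥E' := by
    rw [rt_adjoin_inv]; infer_instance
  have c1 := ssm_si_chart O hπ q E' E hle hE W hWW hW hrank ys hyF n hn hyn lam' hlam lam'
    (IntermediateField.inclusion hle lam') rfl hx hxE hover H hprime1 hic1 hreg1 hWB1 hWO
  have c2 := ssm_si_chart O hπ q E' E hle hE W hWW hW hrank ys hyF n hn hyn lam' hlam lam'⁻¹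
    (IntermediateField.inclusion hle lam')⁻¹ (map_inv₀ (IntermediateField.inclusion hle) lam')
    hxi hxEi hover' H' hprime2 hic2 hreg2 hWB2 hWO
  exact ⟨c1.1, c1.2, c2.1, c2.2⟩

end Generic

section Legendre

variable {L : Type*} [Field L] [CharZero L] [Algebra L (AlgebraicClosure ℚ)]
  (O : ValuationSubring L) [IsDiscreteValuationRing O] {π : O} (hπ : Irreducible π)
variable (N' q : ℕ) [NeZero N'] [NeZero q] [hq : Fact q.Prime] [CharP (ResidueField O) q]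
  (hq2 : ¬ 2 ∣ q) (hqN' : ¬ q ∣ N')

set_option synthInstance.maxHeartbeats 200000 in
/-- the Atkin–Lehner involution fixes the constants -/
theorem ssm_si_W_algebraMap (a : ↥O) :
    ssm_gl_W L N' q hq2 hqN' (algebraMap ↥O ↥(lg_E L (N' * q)) a) =
      algebraMap ↥O ↥(lg_E L (N' * q)) a :=
  (ssm_al_WE L N' q hq.out hq2 hqN').commutes (a : L)

set_option synthInstance.maxHeartbeats 200000 in
set_option maxHeartbeats 800000 in
/-- **[SM-I], Legendre tower**: the four smooth clauses `hsm11 hsm12 hsm21 hsm22` of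
`ssm_asm_model(_of_facts)` for `x = lg_lamE (N' q)`, `V1 = ssm_gl_V1`, `V2 = ssm_gl_V2`, from the level
package at `N'` (`ssm_ll_prime`, `ssm_ll_ic1/2`, `ssm_ll_reg1/2`) and the package `F` of [I1]. -/
theorem ssm_si_smooth
    (hprime1 : Prime (algebraMap ↥O (fc_chart ↥O ({lg_lamE N'} : Set ↥(lg_E L N'))) π))
    (hprime2 : Prime (algebraMap ↥O (fc_chart ↥O ({(lg_lamE N')⁻¹} : Set ↥(lg_E L N'))) π))
    (hic1 : IsIntegrallyClosed (fc_chart ↥O ({lg_lamE N'} : Set ↥(lg_E L N')) ⧸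
      (Ideal.span {algebraMap ↥O (fc_chart ↥O ({lg_lamE N'} : Set ↥(lg_E L N'))) π} :
        Ideal (fc_chart ↥O ({lg_lamE N'} : Set ↥(lg_E L N'))))))
    (hic2 : IsIntegrallyClosed (fc_chart ↥O ({(lg_lamE N')⁻¹} : Set ↥(lg_E L N')) ⧸
      (Ideal.span {algebraMap ↥O (fc_chart ↥O ({(lg_lamE N')⁻¹} : Set ↥(lg_E L N'))) π} :
        Ideal (fc_chart ↥O ({(lg_lamE N')⁻¹} : Set ↥(lg_E L N'))))))
    (hreg1 : jt_RegAt (fc_chart ↥O ({lg_lamE N'} : Set ↥(lg_E L N')))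
      (algebraMap ↥O (fc_chart ↥O ({lg_lamE N'} : Set ↥(lg_E L N'))) π))
    (hreg2 : jt_RegAt (fc_chart ↥O ({(lg_lamE N')⁻¹} : Set ↥(lg_E L N')))
      (algebraMap ↥O (fc_chart ↥O ({(lg_lamE N')⁻¹} : Set ↥(lg_E L N'))) π))
    (F : ssm_i1_Facts ↥O q (lg_lamE (N' * q) : ↥(lg_E L (N' * q)))
      (ssm_gl_W L N' q hq2 hqN' (lg_lamE (N' * q))) (ssm_gl_V1 O hπ N' q)
      (ssm_gl_V2 O hπ N' q hq2 hqN')) :
    (∀ 𝔫 : Ideal (fc_chart ↥O ({lg_lamE (N' * q)} : Set ↥(lg_E L (N' * q)))), 𝔫.IsMaximal →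
      algebraMap ↥O (fc_chart ↥O ({lg_lamE (N' * q)} : Set ↥(lg_E L (N' * q)))) π ∈ 𝔫 →
      ¬ ssm_tp_P (fc_chart ↥O ({lg_lamE (N' * q)} : Set ↥(lg_E L (N' * q))))
        (ssm_gl_V2 O hπ N' q hq2 hqN') ≤ 𝔫 →
      ss_SmoothAt π (fc_chart ↥O ({lg_lamE (N' * q)} : Set ↥(lg_E L (N' * q)))) 𝔫) ∧
    (∀ 𝔫 : Ideal (fc_chart ↥O ({lg_lamE (N' * q)} : Set ↥(lg_E L (N' * q)))), 𝔫.IsMaximal →
      algebraMap ↥O (fc_chart ↥O ({lg_lamE (N' * q)} : Set ↥(lg_E L (N' * q)))) π ∈ 𝔫 →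
      ¬ ssm_tp_P (fc_chart ↥O ({lg_lamE (N' * q)} : Set ↥(lg_E L (N' * q))))
        (ssm_gl_V1 O hπ N' q) ≤ 𝔫 →
      ss_SmoothAt π (fc_chart ↥O ({lg_lamE (N' * q)} : Set ↥(lg_E L (N' * q)))) 𝔫) ∧
    (∀ 𝔫 : Ideal (fc_chart ↥O ({(lg_lamE (N' * q))⁻¹} : Set ↥(lg_E L (N' * q)))), 𝔫.IsMaximal →
      algebraMap ↥O (fc_chart ↥O ({(lg_lamE (N' * q))⁻¹} : Set ↥(lg_E L (N' * q)))) π ∈ 𝔫 →
      ¬ ssm_tp_P (fc_chart ↥O ({(lg_lamE (N' * q))⁻¹} : Set ↥(lg_E L (N' * q))))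
        (ssm_gl_V2 O hπ N' q hq2 hqN') ≤ 𝔫 →
      ss_SmoothAt π (fc_chart ↥O ({(lg_lamE (N' * q))⁻¹} : Set ↥(lg_E L (N' * q)))) 𝔫) ∧
    (∀ 𝔫 : Ideal (fc_chart ↥O ({(lg_lamE (N' * q))⁻¹} : Set ↥(lg_E L (N' * q)))), 𝔫.IsMaximal →
      algebraMap ↥O (fc_chart ↥O ({(lg_lamE (N' * q))⁻¹} : Set ↥(lg_E L (N' * q)))) π ∈ 𝔫 →
      ¬ ssm_tp_P (fc_chart ↥O ({(lg_lamE (N' * q))⁻¹} : Set ↥(lg_E L (N' * q))))
        (ssm_gl_V1 O hπ N' q) ≤ 𝔫 →
      ss_SmoothAt π (fc_chart ↥O ({(lg_lamE (N' * q))⁻¹} : Set ↥(lg_E L (N' * q)))) 𝔫) := by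
  haveI := lgf_finite L N'
  haveI : FiniteDimensional
      L⟮IntermediateField.inclusion (ssm_al_E_le L N' q) (lg_lamE N')⟯ ↥(lg_E L (N' * q)) :=
    lgf_finite L (N' * q)
  have H := ssm_gl_hyp O hπ N' q hq2 hqN' hprime1
  have hWO := ssm_si_W_algebraMap O N' q hq2 hqN'
  obtain ⟨hWB1, hWB2, -⟩ := ssm_i1_W_charts (ssm_gl_W L N' q hq2 hqN') hWO rfl F
  exact ssm_si_smooth_gen O hπ q (lg_E L N') (lg_E L (N' * q)) (ssm_al_E_le L N' q)
    (ssm_ga_E_le_quotField O (N' * q)) (ssm_gl_W L N' q hq2 hqN')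
    (ssm_al_WE_WE L N' q hq.out hq2 hqN')
    (fun z => ssm_al_coe_WE_of_mem L N' q hq.out hq2 hqN' z.2 _)
    (ssm_al_relfinrank_E L N' q hq.out hq2 hqN') (hm_lam O) (ssm_ga_lam_frobFixed O q) 1
    (ssm_gl_not_dvd_one q) (ssm_ga_lam_coeff_one O (ssm_gl_two_ne_zero O q hq2)) (lg_lamE N')
    (hm_coeffMap_lam _).symm H hprime1 hprime2 hic1 hic2 hreg1 hreg2 hWB1 hWB2 hWO

end Legendre

end Fermat.Agent.SS
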