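/-
SS [M], final instantiation, part 3 (Legendre cover): THE MODEL OVER A NUMBER FIELD.

`L ⊆ Q̄` a number field containing a primitive `N'`-th root of unity, `O` a discrete valuation ring
of `L` of odd residue characteristic `q ∤ N'`, `σ` inert at `O`.  All clauses of the two-component
model of `E = lg_E L (N' q)` over `(O, λ)` are discharged except the node clause `hnode` ([ND]):

* `ssm_fln_q_mem`        : `q ∈ 𝔪_O`;
* `ssm_fln_model_of_node`: `ss_Model π λ σ_E σ_O P1 P2` from `hnode`;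
* `ssm_fln_NodeHyp`      : the ∀-closure of the node clause (the output shape of [ND]);
* `ssm_fln_modelHyp`     : `ssm_fln_NodeHyp → ss_nfl_ModelHyp` (helper10's input of `ss_nfl_coreNF`).
-/
import Mathlib
import Fermat.Agent.SS.Model.FinalLeg
import Fermat.Agent.SS.Model.SmoothInst
import Fermat.Agent.SS.CoreNFLeg

set_option autoImplicit false
set_option linter.style.haveILetI false
set_option linter.unusedSectionVars false
set_option linter.unusedVariables false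

noncomputable section

namespace Fermat.Agent.SS

open Fermat.Agent.JT3 IntermediateField ModularCurve IsLocalRing

section NF

variable (L : Type) [Field L] [NumberField L] [Algebra L (AlgebraicClosure ℚ)]
  (O : ValuationSubring L) [IsDiscreteValuationRing O] {π : O} (hπ : Irreducible π)
variable (N' q : ℕ) [NeZero N'] [NeZero q] [hq : Fact q.Prime] [CharP (ResidueField O) q]
  (hq2 : ¬ 2 ∣ q) (hqN' : ¬ q ∣ N') (ζ : L) (hζ : IsPrimitiveRoot ζ N')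
  (σ : L ≃+* L) (hσ : ss_Inert O σ)

omit [NumberField L] [Algebra L (AlgebraicClosure ℚ)] [IsDiscreteValuationRing ↥O] [NeZero q] hq in
/-- `q ∈ 𝔪_O`. -/
theorem ssm_fln_q_mem : ((q : ℕ) : O) ∈ maximalIdeal O := by
  rw [← residue_eq_zero_iff, map_natCast]
  exact CharP.cast_eq_zero _ q

include hζ in
set_option synthInstance.maxHeartbeats 200000 in
set_option maxHeartbeats 1600000 in
/-- **the Legendre model from the node clause.** -/
theorem ssm_fln_model_of_node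
    (hE : ∀ z ∈ lg_E L (N' * q), coeffMap (σ : L →+* L) z ∈ lg_E L (N' * q))
    (hE' : ∀ z ∈ lg_E L (N' * q), coeffMap (σ.symm : L →+* L) z ∈ lg_E L (N' * q))
    (h : ∀ z ∈ O, σ z ∈ O) (h' : ∀ z ∈ O, σ.symm z ∈ O)
    (hnode : ∀ 𝔫 : Ideal (fc_chart ↥O ({lg_lamE (N' * q)} : Set ↥(lg_E L (N' * q)))), 𝔫.IsMaximal →
      ssm_tp_P (fc_chart ↥O ({lg_lamE (N' * q)} : Set ↥(lg_E L (N' * q))))
        (ssm_gl_V1 O hπ N' q) ≤ 𝔫 →
      ssm_tp_P (fc_chart ↥O ({lg_lamE (N' * q)} : Set ↥(lg_E L (N' * q))))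
        (ssm_gl_V2 O hπ N' q hq2 hqN') ≤ 𝔫 →
      ss_NodeAt π (ssm_sg_aut (N' * q) σ) (ssm_sg_base O σ hσ) (fc_chart1_le (lg_lamE (N' * q)))
        (ssm_tp_P (fc_chart ↥O ({lg_lamE (N' * q), (lg_lamE (N' * q))⁻¹} :
          Set ↥(lg_E L (N' * q)))) (ssm_gl_V1 O hπ N' q))
        (ssm_tp_P (fc_chart ↥O ({lg_lamE (N' * q), (lg_lamE (N' * q))⁻¹} :
          Set ↥(lg_E L (N' * q)))) (ssm_gl_V2 O hπ N' q hq2 hqN')) 𝔫) :
    ss_Model π (lg_lamE (N' * q)) (ss_sigmaE σ (lg_E L (N' * q)) hE hE') (ss_sigmaO O σ h h')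
      (ssm_tp_P (fc_chart ↥O ({lg_lamE (N' * q), (lg_lamE (N' * q))⁻¹} :
        Set ↥(lg_E L (N' * q)))) (ssm_gl_V1 O hπ N' q))
      (ssm_tp_P (fc_chart ↥O ({lg_lamE (N' * q), (lg_lamE (N' * q))⁻¹} :
        Set ↥(lg_E L (N' * q)))) (ssm_gl_V2 O hπ N' q hq2 hqN')) := by
  have hqO := ssm_fln_q_mem L O q
  have hq2' : q ≠ 2 := ssm_fl_ne_two q hq2
  have hp := ssm_ll_prime L N' hπ q hqO hq2' hqN' ζ hζ
  have F := ssm_fl_facts O hπ N' q hq2 hqN' hp.1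
  have hs := ssm_si_smooth O hπ N' q hq2 hqN' hp.1 hp.2.1
    (ssm_ll_ic1 L N' hπ q hqO hq2' hqN' ζ hζ) (ssm_ll_ic2 L N' hπ q hqO hq2' hqN' ζ hζ)
    (ssm_ll_reg1 L N' hπ q hqO hq2' hqN' ζ hζ) (ssm_ll_reg2 L N' hπ q hqO hq2' hqN' ζ hζ) F
  exact ssm_fl_model_of O hπ N' q hq2 hqN' σ hσ hp.1 hE hE' h h' hs.1 hs.2.1 hs.2.2.1 hs.2.2.2
    hnode

end NF

/-- **the output shape of [ND]** (Legendre cover): the node clause at every crossing point of the
`λ`-chart, over every number field `L ∋ ζ_{N'}` with a discrete valuation ring `O` of odd residue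
characteristic `q ∤ N'` and every `σ` inert at `O`. -/
def ssm_fln_NodeHyp : Prop :=
  ∀ (L : Type) [Field L] [NumberField L] [Algebra L (AlgebraicClosure ℚ)] (O : ValuationSubring L)
    [IsDiscreteValuationRing O] {π : O} (hπ : Irreducible π) (N' q : ℕ) [NeZero N'] [NeZero q]
    [Fact q.Prime] [CharP (ResidueField O) q] (hq2 : ¬ 2 ∣ q) (hqN' : ¬ q ∣ N')
    (ζ : L) (hζ : IsPrimitiveRoot ζ N') (σ : L ≃+* L) (hσ : ss_Inert O σ)
    (𝔫 : Ideal (fc_chart ↥O ({lg_lamE (N' * q)} : Set ↥(lg_E L (N' * q))))), 𝔫.IsMaximal →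
      ssm_tp_P (fc_chart ↥O ({lg_lamE (N' * q)} : Set ↥(lg_E L (N' * q))))
        (ssm_gl_V1 O hπ N' q) ≤ 𝔫 →
      ssm_tp_P (fc_chart ↥O ({lg_lamE (N' * q)} : Set ↥(lg_E L (N' * q))))
        (ssm_gl_V2 O hπ N' q hq2 hqN') ≤ 𝔫 →
      ss_NodeAt π (ssm_sg_aut (N' * q) σ) (ssm_sg_base O σ hσ) (fc_chart1_le (lg_lamE (N' * q)))
        (ssm_tp_P (fc_chart ↥O ({lg_lamE (N' * q), (lg_lamE (N' * q))⁻¹} :
          Set ↥(lg_E L (N' * q)))) (ssm_gl_V1 O hπ N' q))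
        (ssm_tp_P (fc_chart ↥O ({lg_lamE (N' * q), (lg_lamE (N' * q))⁻¹} :
          Set ↥(lg_E L (N' * q)))) (ssm_gl_V2 O hπ N' q hq2 hqN')) 𝔫

/-- **(P1) from [ND]**: the input `hModel` of `ss_nfl_coreNF`. -/
theorem ssm_fln_modelHyp (hnode : ssm_fln_NodeHyp) : ss_nfl_ModelHyp :=
  fun L _ _ _ O _ _ hπ N' q _ _ _ _ hq2 hqN' ζ hζ σ hσ hE hE' h h' =>
    ⟨_, _, ssm_fln_model_of_node L O hπ N' q hq2 hqN' ζ hζ σ hσ hE hE' h h'
      (hnode L O hπ N' q hq2 hqN' ζ hζ σ hσ)⟩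

end Fermat.Agent.SS
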