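/-
SS [M], leaf [ND], LEGENDRE tower (helper14; mirror of helper29's NodeHesThick.lean and helper12's
NodeHesHyp.lean): THICKNESS ONE AT THE CROSSING POINTS OVER AN UNRAMIFIED BASE, AND THE NODE CLAUSE.

* `ssm_nlb_thick`    : over ANY base `(L, O)` with uniformiser `q`, from `hram` at level `N' q` and
  the level-`N'` inputs (`hprime`, `hic`, `F`, `hEC` in the shapes of `ssm_nl_cross`): `ssm_nx_thick`
  with the crossing package `ssm_nl_cross` and helper8's [TH-INST] plugged = `hthick` of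
  `ssm_nl_node_of`;
* `ssm_nlb_thick_nf` : the same over a NUMBER FIELD `L ∋ ζ_{N'}`, all level inputs discharged;
* `ssm_nlb_node`     : the node clause over `(L, O, π)`, small base `L0 = ℚ(ζ_{N'})` (`SmallBase.lean`);
* `ssm_nlb_nodeHyp`  : `ssm_fln_NodeHyp`.
-/
import Mathlib
import Fermat.Agent.SS.Model.NodeLeg
import Fermat.Agent.SS.Model.ThickInst
import Fermat.Agent.SS.Model.FinalLegNF
import Fermat.Agent.SS.Model.SmallBase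

set_option autoImplicit false
set_option linter.unusedSectionVars false
set_option linter.unusedVariables false
set_option linter.style.haveILetI false

noncomputable section

open ModularCurve IntermediateField IsLocalRing Polynomial
open Fermat.Agent.JT3

namespace Fermat.Agent.SS

section Aux

/-- pull-back of the two non-vanishing clauses of the crossing package along `φ`. -/
theorem ssm_nlb_comap_aux {B' B : Type*} [CommRing B'] [CommRing B] (φ : B' →+* B) (𝔫1 : Ideal B)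
    (lam' : B') (hl : φ lam' ∉ 𝔫1) (hc : aeval (φ lam') (X - 1 : ℤ[X]) ∉ 𝔫1) :
    lam' ∉ 𝔫1.comap φ ∧ lam' - 1 ∉ 𝔫1.comap φ := by
  refine ⟨fun h => hl (Ideal.mem_comap.mp h), fun h => hc ?_⟩
  have e : aeval (φ lam') (X - 1 : ℤ[X]) = φ (lam' - 1) := by simp
  rw [e]
  exact Ideal.mem_comap.mp h

end Aux

section Thick

variable {L : Type*} [Field L] [CharZero L] [Algebra L (AlgebraicClosure ℚ)]
  (O : ValuationSubring L) [IsDiscreteValuationRing O]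
variable (N' q : ℕ) [NeZero N'] [NeZero q] [hq : Fact q.Prime] [CharP (ResidueField O) q]
  (hq2 : ¬ 2 ∣ q) (hqN' : ¬ q ∣ N') (hπ : Irreducible ((q : ℕ) : ↥O))

attribute [local instance] lgh_algKE ssm_thi_algebra

set_option synthInstance.maxHeartbeats 400000 in
set_option maxHeartbeats 3200000 in
theorem ssm_nlb_thick
    (hram : lg_RamHyp (N' * q) (lgh_lamK L))
    (hprime : Prime (algebraMap ↥O (fc_chart ↥O ({lg_lamE N'} : Set ↥(lg_E L N')))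
      ((q : ℕ) : ↥O)))
    (hic : IsIntegrallyClosed (fc_chart ↥O ({lg_lamE N'} : Set ↥(lg_E L N')) ⧸
      (Ideal.span {algebraMap ↥O (fc_chart ↥O ({lg_lamE N'} : Set ↥(lg_E L N')))
          ((q : ℕ) : ↥O)} :
        Ideal (fc_chart ↥O ({lg_lamE N'} : Set ↥(lg_E L N'))))))
    (F : ssm_i1_Facts ↥O q (lg_lamE (N' * q) : ↥(lg_E L (N' * q)))
      (ssm_gl_W L N' q hq2 hqN' (lg_lamE (N' * q))) (ssm_gl_V1 O hπ N' q)
      (ssm_gl_V2 O hπ N' q hq2 hqN'))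
    (hEC : ∀ 𝔫' : Ideal (fc_chart ↥O ({lg_lamE N'} : Set ↥(lg_E L N'))), 𝔫'.IsMaximal →
      algebraMap ↥O (fc_chart ↥O ({lg_lamE N'} : Set ↥(lg_E L N'))) ((q : ℕ) : ↥O) ∈ 𝔫' →
      (⟨lg_lamE N', fc_x_mem_chart _⟩ : fc_chart ↥O ({lg_lamE N'} : Set ↥(lg_E L N'))) ∉ 𝔫' →
      (⟨lg_lamE N', fc_x_mem_chart _⟩ :
        fc_chart ↥O ({lg_lamE N'} : Set ↥(lg_E L N'))) - 1 ∉ 𝔫' →
      (⟨lg_lamE N', fc_x_mem_chart _⟩ :
        fc_chart ↥O ({lg_lamE N'} : Set ↥(lg_E L N'))) ^ (q ^ 2) -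
        ⟨lg_lamE N', fc_x_mem_chart _⟩ ∈ 𝔫' →
      tq_GenBy (algebraMap ↥O (fc_chart ↥O ({lg_lamE N'} : Set ↥(lg_E L N')))
          ((q : ℕ) : ↥O))
        ((⟨lg_lamE N', fc_x_mem_chart _⟩ :
          fc_chart ↥O ({lg_lamE N'} : Set ↥(lg_E L N'))) ^ (q ^ 2) -
          ⟨lg_lamE N', fc_x_mem_chart _⟩) 𝔫') :
    ∀ 𝔫0 : Ideal (fc_chart ↥O ({lg_lamE (N' * q)} : Set ↥(lg_E L (N' * q)))),
      𝔫0.IsMaximal →
      ssm_tp_P (fc_chart ↥O ({lg_lamE (N' * q)} : Set ↥(lg_E L (N' * q))))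
        (ssm_gl_V1 O hπ N' q) ≤ 𝔫0 →
      ssm_tp_P (fc_chart ↥O ({lg_lamE (N' * q)} : Set ↥(lg_E L (N' * q))))
        (ssm_gl_V2 O hπ N' q hq2 hqN') ≤ 𝔫0 →
      ∃ u v : ↥(lg_E L (N' * q)), u * v = ((q : ℕ) : ↥(lg_E L (N' * q))) ∧
        (∃ s t : fc_chart ↥O ({lg_lamE (N' * q)} : Set ↥(lg_E L (N' * q))), s ∉ 𝔫0 ∧
          t ∈ ssm_tp_P (fc_chart ↥O ({lg_lamE (N' * q)} : Set ↥(lg_E L (N' * q))))
            (ssm_gl_V2 O hπ N' q hq2 hqN') ∧ (s : ↥(lg_E L (N' * q))) * u = t) ∧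
        (∃ s t : fc_chart ↥O ({lg_lamE (N' * q)} : Set ↥(lg_E L (N' * q))), s ∉ 𝔫0 ∧
          t ∈ ssm_tp_P (fc_chart ↥O ({lg_lamE (N' * q)} : Set ↥(lg_E L (N' * q))))
            (ssm_gl_V1 O hπ N' q) ∧ (s : ↥(lg_E L (N' * q))) * v = t) ∧
        (∀ z ∈ ssm_tp_P (fc_chart ↥O ({lg_lamE (N' * q)} : Set ↥(lg_E L (N' * q))))
            (ssm_gl_V2 O hπ N' q hq2 hqN'),
          ∃ s c : fc_chart ↥O ({lg_lamE (N' * q)} : Set ↥(lg_E L (N' * q))), s ∉ 𝔫0 ∧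
            (s : ↥(lg_E L (N' * q))) * (z : ↥(lg_E L (N' * q))) = u * c) ∧
        (∀ z ∈ ssm_tp_P (fc_chart ↥O ({lg_lamE (N' * q)} : Set ↥(lg_E L (N' * q))))
            (ssm_gl_V1 O hπ N' q),
          ∃ s c : fc_chart ↥O ({lg_lamE (N' * q)} : Set ↥(lg_E L (N' * q))), s ∉ 𝔫0 ∧
            (s : ↥(lg_E L (N' * q))) * (z : ↥(lg_E L (N' * q))) = v * c) ∧
        (∃ s t : fc_chart ↥O ({lg_lamE (N' * q)} : Set ↥(lg_E L (N' * q))), s ∉ 𝔫0 ∧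
          t ∉ ssm_tp_P (fc_chart ↥O ({lg_lamE (N' * q)} : Set ↥(lg_E L (N' * q))))
            (ssm_gl_V1 O hπ N' q) ∧ (s : ↥(lg_E L (N' * q))) * u = t) ∧
        (∃ s t : fc_chart ↥O ({lg_lamE (N' * q)} : Set ↥(lg_E L (N' * q))), s ∉ 𝔫0 ∧
          t ∉ ssm_tp_P (fc_chart ↥O ({lg_lamE (N' * q)} : Set ↥(lg_E L (N' * q))))
            (ssm_gl_V2 O hπ N' q hq2 hqN') ∧ (s : ↥(lg_E L (N' * q))) * v = t) := by
  intro 𝔫0 h𝔫0 h1 h2
  haveI := ssm_thi_tower L N' q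
  haveI := ssm_thi_charZero L
  haveI : FiniteDimensional ↥(lg_K L) ↥(lg_E L N') := lgf_tower_finite_K_E L N'
  have hrank := ssm_thi_hrank L N' q hq2 hqN'
  haveI : FiniteDimensional ↥(lg_E L N') ↥(lg_E L (N' * q)) :=
    ssm_gi_finiteDimensional hrank
  haveI := lgf_finite L N'
  have hx' : Transcendental L (lg_lamE (L := L) N') := lgf_lam_transcendental L N' two_ne_zero
  haveI : IsNoetherianRing ↥(fc_chart ↥O ({lg_lamE N'} : Set ↥(lg_E L N'))) :=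
    ssm_ths_chart_isNoetherianRing (A0 := ↥O) (L := L) hx'
  haveI : IsIntegrallyClosed ↥(fc_chart ↥O ({lg_lamE N'} : Set ↥(lg_E L N'))) :=
    ssm_ths_chart_isIntegrallyClosed (A0 := ↥O) (L := L) _
  haveI : IsFractionRing ↥(fc_chart ↥O ({lg_lamE N'} : Set ↥(lg_E L N')))
      ↥(lg_E L N') :=
    ssm_ths_chart_isFractionRing (A0 := ↥O) (L := L) _
  have C := ssm_nl_cross O hπ N' q hq2 hqN' hprime hic F hEC
  have hqE : ((q : ℕ) : ↥(lg_E L (N' * q))) ≠ 0 := by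
    haveI : CharZero ↥(lg_E L (N' * q)) :=
      charZero_of_injective_algebraMap (algebraMap L ↥(lg_E L (N' * q))).injective
    exact Nat.cast_ne_zero.mpr hq.out.ne_zero
  refine ssm_nx_thick ↥(lg_K L) ↥(lg_E L N') ↥(lg_E L (N' * q)) C
    (map_natCast _ q) hq.out hqE hrank (ssm_thi_T L)
    (fun V2 _ _ h => ssm_thi_hH (N' * q) hram V2 h) ?_ 𝔫0 h𝔫0 h1 h2
  intro 𝔫1 h𝔫1 _ _ hl hc
  haveI : 𝔫1.IsPrime := h𝔫1.isPrime
  obtain ⟨h0, hc'⟩ := ssm_nlb_comap_aux _ 𝔫1 _ hl hc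
  exact ssm_nx_hT_elem ↥(lg_K L) ↥(lg_E L N') _ q (ssm_thi_T L)
    (ssm_thi_hT O q N' hπ (S := ↥(fc_locAt ↥(lg_E L N') _)) _ rfl h0 hc')

end Thick

section NF

variable (L : Type) [Field L] [NumberField L] [Algebra L (AlgebraicClosure ℚ)]
  (O : ValuationSubring L) [IsDiscreteValuationRing O]
variable (N' q : ℕ) [NeZero N'] [NeZero q] [hq : Fact q.Prime] [CharP (ResidueField O) q]
  (hq2 : ¬ 2 ∣ q) (hqN' : ¬ q ∣ N') (hπ : Irreducible ((q : ℕ) : ↥O))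
  (ζ : L) (hζ : IsPrimitiveRoot ζ N')

include hζ in
set_option synthInstance.maxHeartbeats 400000 in
set_option maxHeartbeats 3200000 in
/-- **thickness one over an unramified number-field base**: `L ⊆ Q̄` a number field containing a
primitive `N'`-th root of unity, `O` a discrete valuation ring of `L` with uniformiser `q` odd,
`q ∤ N'`.  This is the hypothesis `hthick` of `ssm_nl_node_of` at `(L0, O0) := (L, O)`. -/
theorem ssm_nlb_thick_nf :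
    ∀ 𝔫0 : Ideal (fc_chart ↥O ({lg_lamE (N' * q)} : Set ↥(lg_E L (N' * q)))),
      𝔫0.IsMaximal →
      ssm_tp_P (fc_chart ↥O ({lg_lamE (N' * q)} : Set ↥(lg_E L (N' * q))))
        (ssm_gl_V1 O hπ N' q) ≤ 𝔫0 →
      ssm_tp_P (fc_chart ↥O ({lg_lamE (N' * q)} : Set ↥(lg_E L (N' * q))))
        (ssm_gl_V2 O hπ N' q hq2 hqN') ≤ 𝔫0 →
      ∃ u v : ↥(lg_E L (N' * q)), u * v = ((q : ℕ) : ↥(lg_E L (N' * q))) ∧
        (∃ s t : fc_chart ↥O ({lg_lamE (N' * q)} : Set ↥(lg_E L (N' * q))), s ∉ 𝔫0 ∧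
          t ∈ ssm_tp_P (fc_chart ↥O ({lg_lamE (N' * q)} : Set ↥(lg_E L (N' * q))))
            (ssm_gl_V2 O hπ N' q hq2 hqN') ∧ (s : ↥(lg_E L (N' * q))) * u = t) ∧
        (∃ s t : fc_chart ↥O ({lg_lamE (N' * q)} : Set ↥(lg_E L (N' * q))), s ∉ 𝔫0 ∧
          t ∈ ssm_tp_P (fc_chart ↥O ({lg_lamE (N' * q)} : Set ↥(lg_E L (N' * q))))
            (ssm_gl_V1 O hπ N' q) ∧ (s : ↥(lg_E L (N' * q))) * v = t) ∧
        (∀ z ∈ ssm_tp_P (fc_chart ↥O ({lg_lamE (N' * q)} : Set ↥(lg_E L (N' * q))))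
            (ssm_gl_V2 O hπ N' q hq2 hqN'),
          ∃ s c : fc_chart ↥O ({lg_lamE (N' * q)} : Set ↥(lg_E L (N' * q))), s ∉ 𝔫0 ∧
            (s : ↥(lg_E L (N' * q))) * (z : ↥(lg_E L (N' * q))) = u * c) ∧
        (∀ z ∈ ssm_tp_P (fc_chart ↥O ({lg_lamE (N' * q)} : Set ↥(lg_E L (N' * q))))
            (ssm_gl_V1 O hπ N' q),
          ∃ s c : fc_chart ↥O ({lg_lamE (N' * q)} : Set ↥(lg_E L (N' * q))), s ∉ 𝔫0 ∧
            (s : ↥(lg_E L (N' * q))) * (z : ↥(lg_E L (N' * q))) = v * c) ∧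
        (∃ s t : fc_chart ↥O ({lg_lamE (N' * q)} : Set ↥(lg_E L (N' * q))), s ∉ 𝔫0 ∧
          t ∉ ssm_tp_P (fc_chart ↥O ({lg_lamE (N' * q)} : Set ↥(lg_E L (N' * q))))
            (ssm_gl_V1 O hπ N' q) ∧ (s : ↥(lg_E L (N' * q))) * u = t) ∧
        (∃ s t : fc_chart ↥O ({lg_lamE (N' * q)} : Set ↥(lg_E L (N' * q))), s ∉ 𝔫0 ∧
          t ∉ ssm_tp_P (fc_chart ↥O ({lg_lamE (N' * q)} : Set ↥(lg_E L (N' * q))))
            (ssm_gl_V2 O hπ N' q hq2 hqN') ∧ (s : ↥(lg_E L (N' * q))) * v = t) := by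
  have hqO : ((q : ℕ) : O) ∈ maximalIdeal O := ssm_fln_q_mem L O q
  have hq2' : q ≠ 2 := ssm_fl_ne_two q hq2
  have hp := ssm_ll_prime L N' hπ q hqO hq2' hqN' ζ hζ
  exact ssm_nlb_thick O N' q hq2 hqN' hπ (lgr_hram (N' * q) L).1 hp.1
    (ssm_ll_ic1 L N' hπ q hqO hq2' hqN' ζ hζ) (ssm_fl_facts O hπ N' q hq2 hqN' hp.1)
    (fun 𝔫' h1 h2 h3 h4 h5 => ssm_ll_EC L N' hπ q hqO hq2' hqN' 𝔫' h1 h2 h3 h4 h5)

end NF

section Node

variable (L : Type) [Field L] [NumberField L] [Algebra L (AlgebraicClosure ℚ)]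
  (O : ValuationSubring L) [IsDiscreteValuationRing O] {π : O} (hπ : Irreducible π)
variable (N' q : ℕ) [NeZero N'] [NeZero q] [hq : Fact q.Prime] [CharP (ResidueField O) q]
  (hq2 : ¬ 2 ∣ q) (hqN' : ¬ q ∣ N') (ζ : L) (hζ : IsPrimitiveRoot ζ N')
  (σ : L ≃+* L) (hσ : ss_Inert O σ)

include hζ in
set_option synthInstance.maxHeartbeats 400000 in
set_option maxHeartbeats 3200000 in
/-- **the node clause of the Legendre tower over `(L, O, π)`**: small base `L0 = ℚ(ζ_{N'})`,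
`O0 = O ∩ L0`, uniformiser `q`. -/
theorem ssm_nlb_node :
    ∀ 𝔫 : Ideal (fc_chart ↥O ({lg_lamE (N' * q)} : Set ↥(lg_E L (N' * q)))), 𝔫.IsMaximal →
      ssm_tp_P (fc_chart ↥O ({lg_lamE (N' * q)} : Set ↥(lg_E L (N' * q))))
        (ssm_gl_V1 O hπ N' q) ≤ 𝔫 →
      ssm_tp_P (fc_chart ↥O ({lg_lamE (N' * q)} : Set ↥(lg_E L (N' * q))))
        (ssm_gl_V2 O hπ N' q hq2 hqN') ≤ 𝔫 →
      ss_NodeAt π (ssm_sg_aut (N' * q) σ) (ssm_sg_base O σ hσ)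
        (fc_chart1_le (lg_lamE (N' * q) : ↥(lg_E L (N' * q))))
        (ssm_tp_P (fc_chart ↥O ({lg_lamE (N' * q), (lg_lamE (N' * q))⁻¹} :
          Set ↥(lg_E L (N' * q)))) (ssm_gl_V1 O hπ N' q))
        (ssm_tp_P (fc_chart ↥O ({lg_lamE (N' * q), (lg_lamE (N' * q))⁻¹} :
          Set ↥(lg_E L (N' * q)))) (ssm_gl_V2 O hπ N' q hq2 hqN')) 𝔫 := by
  letI := ssm_sb_algebra ζ
  haveI := ssm_sb_numberField N' ζ hζ
  haveI := ssm_sb_isDVR O N' q hqN' ζ hζ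
  haveI := ssm_sb_charP O N' q hqN' ζ hζ
  have hπ0 := ssm_sb_irreducible O N' q hqN' ζ hζ
  have hqO0 := ssm_sb_q_mem0 O N' q hqN' ζ hζ
  have hqO : ((q : ℕ) : O) ∈ maximalIdeal O := ssm_fln_q_mem L O q
  have hq2' : q ≠ 2 := ssm_fl_ne_two q hq2
  have hζ0 := ssm_sb_zeta_prim N' ζ hζ
  have hp0 := ssm_ll_prime (ssm_sb_L0 ζ) N' hπ0 q hqO0 hq2' hqN' (ssm_sb_zeta ζ) hζ0
  have hp := ssm_ll_prime L N' hπ q hqO hq2' hqN' ζ hζ
  exact ssm_nl_node_of (ssm_sb_f ζ) (ssm_sb_O0 O ζ) O (ssm_sb_hO O ζ) hπ N' q hq2 hqN' hπ0 σ hσ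
    (ssm_sb_fixed O N' q hqN' ζ hζ σ hσ)
    hp0.1 (ssm_ll_ic1 (ssm_sb_L0 ζ) N' hπ0 q hqO0 hq2' hqN' (ssm_sb_zeta ζ) hζ0)
    (ssm_fl_facts (ssm_sb_O0 O ζ) hπ0 N' q hq2 hqN' hp0.1)
    (fun 𝔫' h1 h2 h3 h4 h5 =>
      ssm_ll_EC (ssm_sb_L0 ζ) N' hπ0 q hqO0 hq2' hqN' 𝔫' h1 h2 h3 h4 h5)
    hp.1 (ssm_ll_ic1 L N' hπ q hqO hq2' hqN' ζ hζ) (ssm_fl_facts O hπ N' q hq2 hqN' hp.1)
    (fun 𝔫' h1 h2 h3 h4 h5 => ssm_ll_EC L N' hπ q hqO hq2' hqN' 𝔫' h1 h2 h3 h4 h5)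
    (ssm_nlb_thick_nf (ssm_sb_L0 ζ) (ssm_sb_O0 O ζ) N' q hq2 hqN' hπ0 (ssm_sb_zeta ζ) hζ0)

end Node

/-- **the node clause of the Legendre cover** (the only open input of `ssm_fln_modelHyp`). -/
theorem ssm_nlb_nodeHyp : ssm_fln_NodeHyp :=
  fun L _ _ _ O _ _ hπ N' q _ _ _ _ hq2 hqN' ζ hζ σ hσ =>
    ssm_nlb_node L O hπ N' q hq2 hqN' ζ hζ σ hσ

/-- **(P1)**: the Legendre model hypothesis of `ss_nfl_coreNF`, closed. -/
theorem ssm_nlb_modelHyp : ss_nfl_ModelHyp := ssm_fln_modelHyp ssm_nlb_nodeHyp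

/-- **`hOdd` of `ss_S34_of_core`**, closed. -/
theorem ssm_nlb_coreNF (N : ℕ) [NeZero N] (q : ℕ) (hq : q.Prime) (hq2 : q ≠ 2) (hqN : q ∣ N)
    (hq2N : ¬ q ^ 2 ∣ N) : ss_CoreNF N q :=
  ss_nfl_coreNF ssm_nlb_modelHyp N q hq hq2 hqN hq2N

end Fermat.Agent.SS
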