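/-
Project SS (S34), cell [M], leaf [TH-A] part 2 (helper2): the discriminant entry to (T4).

* `ssm_thd_dvd_norm`  : in a finite free algebra, `x ∣ N(x)`.
* `ssm_thd_dvd_discr` : for a power basis `1, v, …, v^(n-1)` of `C` over `S` (char 0 domains) and
  `F` monic of degree `n` with `F(v) = 0`:  `F'(v) ∣ discr`.
* `ssm_thd_T4`        : if moreover `S` is noetherian and integrally closed, `q ∈ S` is prime and the
  discriminant lies in no height-one prime of `S` other than `(q)` (unramified in characteristic
  zero), then `q ^ k ∈ (F'(v))` — hypothesis (T4) of `ssm_tha_Data.main`.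

Prefix `ssm_thd_`.
-/
import Mathlib
import Fermat.Agent.SS.Krull

set_option autoImplicit false
set_option linter.unusedVariables false
set_option linter.unusedSectionVars false
set_option linter.style.haveILetI false

namespace Fermat.Agent.SS

open Polynomial Module
open scoped nonZeroDivisors

attribute [local instance] FractionRing.liftAlgebra FractionRing.isScalarTower_liftAlgebra

section norm

variable {S C : Type*} [CommRing S] [CommRing C] [Algebra S C]

/-- In a finite free algebra every element divides (the image of) its norm (Cayley–Hamilton). -/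
theorem ssm_thd_dvd_norm {ι : Type*} [Fintype ι] [DecidableEq ι] (b : Basis ι S C) (x : C) :
    x ∣ algebraMap S C (Algebra.norm S x) := by
  set M := Algebra.leftMulMatrix b x with hM
  set χ := M.charpoly with hχ
  have h0 : aeval M χ = 0 := Matrix.aeval_self_charpoly M
  have h1 : aeval x χ = 0 := by
    apply Algebra.leftMulMatrix_injective b
    rw [map_zero, ← Polynomial.aeval_algHom_apply, ← hM, h0]
  have h2 : aeval x χ = aeval x χ.divX * x + algebraMap S C (χ.coeff 0) := by
    conv_lhs => rw [← divX_mul_X_add χ]
    rw [map_add, map_mul, aeval_X, aeval_C]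
  rw [h1] at h2
  have h3 : Algebra.norm S x = (-1) ^ Fintype.card ι * χ.coeff 0 := by
    rw [Algebra.norm_eq_matrix_det b x, Matrix.det_eq_sign_charpoly_coeff]
  rw [h3, map_mul, map_pow, map_neg, map_one]
  have h4 : algebraMap S C (χ.coeff 0) = - (aeval x χ.divX * x) := by
    linear_combination (-1 : C) * h2
  rw [h4]
  exact ⟨(-1) ^ Fintype.card ι * (- aeval x χ.divX), by ring⟩

end norm

section discr

variable {S C : Type*} [CommRing S] [IsDomain S] [CharZero S] [CommRing C] [IsDomain C]
  [Algebra S C]

/-- **(DISC)** for a power basis, `F'(v)` divides the discriminant. -/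
theorem ssm_thd_dvd_discr (n : ℕ) (b : Basis (Fin n) S C) (v : C) (hb : ∀ i, b i = v ^ (i : ℕ))
    (F : S[X]) (hF : F.Monic) (hdeg : F.natDegree = n) (hFv : aeval v F = 0) :
    aeval v (derivative F) ∣ algebraMap S C (Algebra.discr S b) := by
  classical
  have hinj : Function.Injective (algebraMap S C) := b.algebraMap_injective
  haveI : FaithfulSMul S C := (faithfulSMul_iff_algebraMap_injective S C).2 hinj
  haveI : Module.Finite S C := Module.Finite.of_basis b
  haveI : Module.Free S C := Module.Free.of_basis b
  let K := FractionRing S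
  let L := FractionRing C
  let bL : Basis (Fin n) K L := b.localizationLocalization K S⁰ L
  haveI : FiniteDimensional K L := Module.Finite.of_basis bL
  haveI : CharZero K := charZero_of_injective_algebraMap (IsFractionRing.injective S K)
  let pb : PowerBasis K L :=
    { gen := algebraMap C L v
      dim := n
      basis := bL
      basis_eq_pow := fun i => by
        rw [Basis.localizationLocalization_apply, hb, map_pow] }
  set θ := aeval v (derivative F) with hθ
  -- the minimal polynomial of the generator
  have hroot : aeval pb.gen (F.map (algebraMap S K)) = 0 := by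
    rw [aeval_map_algebraMap]
    show aeval (algebraMap C L v) F = 0
    rw [aeval_algebraMap_apply, hFv, map_zero]
  have hmin : minpoly K pb.gen = F.map (algebraMap S K) := by
    have hdvd := minpoly.dvd K pb.gen hroot
    have hm1 : (minpoly K pb.gen).Monic := minpoly.monic (pb.isIntegral_gen)
    have hm2 : (F.map (algebraMap S K)).Monic := hF.map _
    refine (Polynomial.eq_of_monic_of_dvd_of_natDegree_le hm1 hm2 hdvd ?_).symm
    rw [pb.natDegree_minpoly, hF.natDegree_map, hdeg]
  have key := Algebra.discr_powerBasis_eq_norm K pb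
  rw [hmin] at key
  have e1 : Algebra.discr K pb.basis = algebraMap S K (Algebra.discr S b) :=
    Algebra.discr_localizationLocalization S S⁰ L b
  have e2 : aeval pb.gen (derivative (F.map (algebraMap S K))) = algebraMap C L θ := by
    rw [derivative_map, aeval_map_algebraMap]
    show aeval (algebraMap C L v) (derivative F) = _
    rw [aeval_algebraMap_apply]
  have e3 : Algebra.norm K (algebraMap C L θ) = algebraMap S K (Algebra.norm S θ) :=
    Algebra.norm_localization S S⁰ θ
  rw [e1, e2, e3] at key
  have key' : Algebra.discr S b =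
      (-1) ^ (Module.finrank K L * (Module.finrank K L - 1) / 2) * Algebra.norm S θ := by
    apply IsFractionRing.injective S K
    rw [key, map_mul, map_pow, map_neg, map_one]
  rw [key', map_mul]
  exact Dvd.dvd.mul_left (ssm_thd_dvd_norm b θ) _

/-- the discriminant of a basis is nonzero (characteristic zero). -/
theorem ssm_thd_discr_ne_zero (n : ℕ) (b : Basis (Fin n) S C) : Algebra.discr S b ≠ 0 := by
  classical
  have hinj : Function.Injective (algebraMap S C) := b.algebraMap_injective
  haveI : FaithfulSMul S C := (faithfulSMul_iff_algebraMap_injective S C).2 hinj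
  haveI : Module.Finite S C := Module.Finite.of_basis b
  haveI : Module.Free S C := Module.Free.of_basis b
  let K := FractionRing S
  let L := FractionRing C
  let bL : Basis (Fin n) K L := b.localizationLocalization K S⁰ L
  haveI : FiniteDimensional K L := Module.Finite.of_basis bL
  haveI : CharZero K := charZero_of_injective_algebraMap (IsFractionRing.injective S K)
  have e1 : Algebra.discr K bL = algebraMap S K (Algebra.discr S b) :=
    Algebra.discr_localizationLocalization S S⁰ L b
  have h1 : Algebra.discr K bL ≠ 0 := Algebra.discr_not_zero_of_basis K bL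
  intro h0
  rw [e1, h0, map_zero] at h1
  exact h1 rfl

variable [IsNoetherianRing S] [IsIntegrallyClosed S]

/-- **(T4) from the discriminant**: if the discriminant of the power basis lies in no height-one
prime of `S` other than `(q)`, then `q ^ k ∈ (F'(v))`. -/
theorem ssm_thd_T4 (n : ℕ) (b : Basis (Fin n) S C) (v : C) (hb : ∀ i, b i = v ^ (i : ℕ))
    (F : S[X]) (hF : F.Monic) (hdeg : F.natDegree = n) (hFv : aeval v F = 0)
    (q : S) (hq : Prime q)
    (hunr : ∀ 𝔭 : Ideal S, 𝔭.IsPrime → 𝔭.height = 1 → q ∉ 𝔭 → Algebra.discr S b ∉ 𝔭) :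
    ∃ k : ℕ, algebraMap S C q ^ k ∈ Ideal.span {aeval v (derivative F)} := by
  set d := Algebra.discr S b with hd
  have hd0 : d ≠ 0 := ssm_thd_discr_ne_zero n b
  obtain ⟨k, d', hqd', hdd'⟩ := WfDvdMonoid.max_power_factor hd0 hq.irreducible
  have hdvd : d ∣ q ^ k := by
    apply sskr_dvd hd0
    intro 𝔭 h𝔭 hht
    by_cases hq𝔭 : q ∈ 𝔭
    · -- `𝔭 = (q)`
      haveI := h𝔭
      haveI : (Ideal.span {q}).IsPrime := (Ideal.span_singleton_prime hq.ne_zero).2 hq
      have hle : Ideal.span {q} ≤ 𝔭 := (Ideal.span_singleton_le_iff_mem 𝔭).2 hq𝔭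
      have heq : Ideal.span {q} = 𝔭 := by
        by_contra hne
        have hlt : Ideal.span {q} < 𝔭 := lt_of_le_of_ne hle hne
        have h1 := Ideal.height_strict_mono_of_isPrime_of_isPrime hlt
        rw [hht, Order.lt_one_iff, Ideal.height_eq_zero_iff_eq_bot,
          Ideal.span_singleton_eq_bot] at h1
        exact hq.ne_zero h1
      refine ⟨d', ?_, ?_⟩
      · rw [← heq, Ideal.mem_span_singleton]; exact hqd'
      · rw [hdd', mul_comm]
    · exact ⟨d, hunr 𝔭 h𝔭 hht hq𝔭, Dvd.intro _ rfl⟩
  obtain ⟨e, he⟩ := hdvd
  obtain ⟨z, hz⟩ := ssm_thd_dvd_discr n b v hb F hF hdeg hFv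
  refine ⟨k, ?_⟩
  rw [← hd] at hz
  rw [Ideal.mem_span_singleton', ← map_pow, he, map_mul, hz]
  exact ⟨z * algebraMap S C e, by ring⟩

end discr

end Fermat.Agent.SS
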