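/-
Project SS (S34), cell [M] (two-component model), leaf [TH-A] (helper2): the ABSTRACT half of the
thickness instance `[TH-I]`.

At one crossing point of the special fibre: `S ⊆ C` local domains (`S` = local ring of the level-`N'`
model at `y0`, regular with maximal ideal `(q, t)`; `C` = local ring of the level-`N' q` model at
`x0`), the two vertical primes `P1, P2` of `C` with `q C = P1 ∩ P2`, `C = S + P1` (first component
isomorphic), `C^q ⊆ S + P2` (second component purely inseparable), `v ∈ P1` a uniformiser of the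
second component, transversality, and `t ≡ unit · v^q mod P2` (total ramification), and a monic
`F ∈ S[X]` of degree `q + 1` with `F(v) = 0`.  We derive, in first-order terms,

* `ssm_tha_T3`   : `1, v, …, v^(q-1)` are independent over `S/q` in `C/P2`;
* `ssm_tha_T2`   : `F ≡ X^(q+1) + a₁ X mod q`, `q ∤ a₁`;
* `ssm_tha_T1`   : `P1 = (v, q)`, `P2 = (θ, q)`, `θ := F'(v) ∉ P1`;
* `ssm_tha_mono` : `C` is free over `S` with basis `1, v, …, v^q` (Nakayama + `q`-adic separation);
* `ssm_tha_main` : if moreover every prime containing `θ` contains `q` (char-0 unramifiedness, (T4)),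
  then `C` is regular: `q = u v'`, `P2 = (u)`, `P1 = (v')`, `𝔪_C = (u, v')`, `u = θ`.

Prefix `ssm_tha_`.  Consumes helper6's `ssth_h` / `ssth_regular`.
-/
import Mathlib
import Fermat.Agent.SS.Thick
import Fermat.Agent.SS.ThickIdentity

set_option autoImplicit false
set_option linter.unusedVariables false
set_option linter.unusedSectionVars false
set_option linter.style.haveILetI false

namespace Fermat.Agent.SS

open Polynomial

section dvr

variable {S : Type*} [CommRing S] [IsLocalRing S] [IsNoetherianRing S]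

/-- In a noetherian local ring with maximal ideal `(q, t)`, every `s ∉ (q)` is
`unit · t^m` modulo `q`. -/
theorem ssm_tha_dvr {q t : S} (hm : IsLocalRing.maximalIdeal S = Ideal.span {q, t}) (s : S)
    (hs : ¬ q ∣ s) : ∃ (m : ℕ) (a r : S), IsUnit a ∧ s = a * t ^ m + q * r := by
  classical
  have hqm : q ∈ IsLocalRing.maximalIdeal S := by
    rw [hm]; exact Ideal.subset_span (by simp)
  have htm : t ∈ IsLocalRing.maximalIdeal S := by
    rw [hm]; exact Ideal.subset_span (by simp)
  set I : Ideal S := Ideal.span {q} with hI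
  have hItop : I ≠ ⊤ := by
    intro h
    have : (1 : S) ∈ I := by rw [h]; trivial
    rw [hI, Ideal.mem_span_singleton] at this
    exact (IsLocalRing.maximalIdeal.isMaximal S).ne_top
      (Ideal.eq_top_of_isUnit_mem _ hqm (isUnit_of_dvd_one this))
  haveI : Nontrivial (S ⧸ I) := Ideal.Quotient.nontrivial_iff.2 hItop
  haveI : IsLocalRing (S ⧸ I) :=
    IsLocalRing.of_surjective' (Ideal.Quotient.mk I) Ideal.Quotient.mk_surjective
  set J : Ideal (S ⧸ I) := Ideal.span {Ideal.Quotient.mk I t} with hJ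
  have hJtop : J ≠ ⊤ := by
    intro h
    have h1 : (1 : S ⧸ I) ∈ J := by rw [h]; trivial
    rw [hJ, Ideal.mem_span_singleton] at h1
    obtain ⟨x, hx⟩ := h1
    obtain ⟨x', rfl⟩ := Ideal.Quotient.mk_surjective x
    have h2 : (1 : S) - t * x' ∈ I := by
      rw [← Ideal.Quotient.eq_zero_iff_mem, map_sub, map_one, map_mul, ← hx, sub_self]
    rw [hI, Ideal.mem_span_singleton] at h2
    obtain ⟨y, hy⟩ := h2
    have h3 : (1 : S) ∈ IsLocalRing.maximalIdeal S := by
      have : (1 : S) = t * x' + q * y := by rw [← hy]; ring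
      rw [this]
      exact Ideal.add_mem _ (Ideal.mul_mem_right _ _ htm) (Ideal.mul_mem_right _ _ hqm)
    exact (IsLocalRing.maximalIdeal.isMaximal S).ne_top ((Ideal.eq_top_iff_one _).2 h3)
  have hinf := Ideal.iInf_pow_eq_bot_of_isLocalRing J hJtop
  have hs0 : Ideal.Quotient.mk I s ≠ 0 := by
    rw [Ne, Ideal.Quotient.eq_zero_iff_mem, hI, Ideal.mem_span_singleton]
    exact hs
  have hex : ∃ k : ℕ, Ideal.Quotient.mk I s ∉ J ^ k := by
    by_contra hcon
    have : Ideal.Quotient.mk I s ∈ ⨅ i : ℕ, J ^ i := by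
      rw [Ideal.mem_iInf]
      intro i
      by_contra hi
      exact hcon ⟨i, hi⟩
    rw [hinf] at this
    exact hs0 this
  set k := Nat.find hex with hk
  have hkspec : Ideal.Quotient.mk I s ∉ J ^ k := Nat.find_spec hex
  have hk0 : k ≠ 0 := by
    intro h0
    rw [h0, pow_zero, Ideal.one_eq_top] at hkspec
    exact hkspec trivial
  obtain ⟨m, hkm⟩ : ∃ m, k = m + 1 := ⟨k - 1, by omega⟩
  have hmem : Ideal.Quotient.mk I s ∈ J ^ m := by
    by_contra hcon
    have := Nat.find_min' hex hcon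
    omega
  rw [hJ, Ideal.span_singleton_pow, Ideal.mem_span_singleton] at hmem
  obtain ⟨x, hx⟩ := hmem
  obtain ⟨a, rfl⟩ := Ideal.Quotient.mk_surjective x
  have ha : IsUnit a := by
    rw [← IsLocalRing.notMem_maximalIdeal]
    intro ham
    rw [hm, Ideal.mem_span_pair] at ham
    obtain ⟨y, z, hyz⟩ := ham
    apply hkspec
    rw [hkm, hJ, Ideal.span_singleton_pow, Ideal.mem_span_singleton, hx, ← hyz]
    refine ⟨Ideal.Quotient.mk I z, ?_⟩
    have hq0 : Ideal.Quotient.mk I q = 0 := by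
      rw [Ideal.Quotient.eq_zero_iff_mem, hI]; exact Ideal.mem_span_singleton_self q
    rw [map_add, map_mul, map_mul, hq0, mul_zero, zero_add, pow_succ]
    ring
  have h2 : s - a * t ^ m ∈ I := by
    rw [← Ideal.Quotient.eq_zero_iff_mem, map_sub, hx, map_mul, map_pow]
    ring
  rw [hI, Ideal.mem_span_singleton] at h2
  obtain ⟨r, hr⟩ := h2
  exact ⟨m, a, r, ha, by rw [← hr]; ring⟩

end dvr


section data

variable {S C : Type*} [CommRing S] [IsDomain S] [IsLocalRing S] [IsNoetherianRing S]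
  [CommRing C] [IsDomain C] [IsLocalRing C] [Algebra S C]

/-- **The local data at a crossing point** (all first-order in `C`). `q := (q₀ : S)`. -/
structure ssm_tha_Data (q₀ : ℕ) (t : S) (v : C) (P1 P2 : Ideal C) : Prop where
  hq₀ : 2 ≤ q₀
  hm : IsLocalRing.maximalIdeal S = Ideal.span {(q₀ : S), t}
  hq0 : algebraMap S C (q₀ : S) ≠ 0
  hq1 : algebraMap S C (q₀ : S) ∈ P1
  hq2 : algebraMap S C (q₀ : S) ∈ P2
  hinf : P1 ⊓ P2 ≤ Ideal.span {algebraMap S C (q₀ : S)}
  hs1 : ∀ s : S, algebraMap S C s ∈ P1 → (q₀ : S) ∣ s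
  hs2 : ∀ s : S, algebraMap S C s ∈ P2 → (q₀ : S) ∣ s
  hadd : ∀ x : C, ∃ s : S, x - algebraMap S C s ∈ P1
  hpow : ∀ x : C, ∃ s : S, x ^ q₀ - algebraMap S C s ∈ P2
  hv1 : v ∈ P1
  hv2 : v ∉ P2
  htr1 : P1 ≤ Ideal.span {v} ⊔ P2
  htr2 : P2 ≤ Ideal.span {algebraMap S C t} ⊔ P1
  hram : ∃ ε : C, IsUnit ε ∧ algebraMap S C t - ε * v ^ q₀ ∈ P2

variable {q₀ : ℕ} {t : S} {v : C} {P1 P2 : Ideal C} [P1.IsPrime] [P2.IsPrime]

namespace ssm_tha_Data

variable (D : ssm_tha_Data q₀ t v P1 P2)
include D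

theorem P1_le : P1 ≤ IsLocalRing.maximalIdeal C :=
  IsLocalRing.le_maximalIdeal (Ideal.IsPrime.ne_top inferInstance)

theorem P2_le : P2 ≤ IsLocalRing.maximalIdeal C :=
  IsLocalRing.le_maximalIdeal (Ideal.IsPrime.ne_top inferInstance)

theorem v_mem : v ∈ IsLocalRing.maximalIdeal C := D.P1_le D.hv1

theorem dvd_mem1 {s : S} (h : (q₀ : S) ∣ s) : algebraMap S C s ∈ P1 := by
  obtain ⟨r, rfl⟩ := h
  rw [map_mul]
  exact Ideal.mul_mem_right _ _ D.hq1

theorem dvd_mem2 {s : S} (h : (q₀ : S) ∣ s) : algebraMap S C s ∈ P2 := by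
  obtain ⟨r, rfl⟩ := h
  rw [map_mul]
  exact Ideal.mul_mem_right _ _ D.hq2

/-- `q` is a prime element of `S` (in the divisibility sense). -/
theorem dvd_or {a b : S} (h : (q₀ : S) ∣ a * b) : (q₀ : S) ∣ a ∨ (q₀ : S) ∣ b := by
  have h1 := D.dvd_mem1 h
  rw [map_mul] at h1
  rcases Ideal.IsPrime.mem_or_mem inferInstance h1 with h2 | h2
  · exact Or.inl (D.hs1 _ h2)
  · exact Or.inr (D.hs1 _ h2)

/-- `t` is a non-unit of `C`. -/
theorem t_mem : algebraMap S C t ∈ IsLocalRing.maximalIdeal C := by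
  obtain ⟨ε, -, hε⟩ := D.hram
  have h1 : algebraMap S C t = (algebraMap S C t - ε * v ^ q₀) + ε * v ^ q₀ := by ring
  rw [h1]
  refine Ideal.add_mem _ (D.P2_le hε) (Ideal.mul_mem_left _ _ ?_)
  exact Ideal.pow_mem_of_mem _ D.v_mem _ (by have := D.hq₀; omega)

/-- the structure map sends non-units to non-units. -/
theorem map_mem {s : S} (hs : s ∈ IsLocalRing.maximalIdeal S) :
    algebraMap S C s ∈ IsLocalRing.maximalIdeal C := by
  rw [D.hm, Ideal.mem_span_pair] at hs
  obtain ⟨a, b, rfl⟩ := hs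
  rw [map_add, map_mul, map_mul]
  exact Ideal.add_mem _ (Ideal.mul_mem_left _ _ (D.P1_le D.hq1)) (Ideal.mul_mem_left _ _ D.t_mem)

theorem isUnit_of_map {s : S} (hs : IsUnit (algebraMap S C s)) : IsUnit s := by
  rw [← IsLocalRing.notMem_maximalIdeal]
  intro h
  exact (IsLocalRing.notMem_maximalIdeal.2 hs) (D.map_mem h)

/-- the element `c ∈ S` with `v^q ≡ c mod P2`: `q ∤ c`, `c = a q + b t` with `b` a unit. -/
theorem exists_c : ∃ c a b : S, v ^ q₀ - algebraMap S C c ∈ P2 ∧ ¬ (q₀ : S) ∣ c ∧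
    c = a * (q₀ : S) + b * t ∧ IsUnit b := by
  obtain ⟨c, hc⟩ := D.hpow v
  have hqc : ¬ (q₀ : S) ∣ c := by
    intro h
    have h1 : v ^ q₀ ∈ P2 := by
      have : v ^ q₀ = (v ^ q₀ - algebraMap S C c) + algebraMap S C c := by ring
      rw [this]
      exact Ideal.add_mem _ hc (D.dvd_mem2 h)
    exact D.hv2 (Ideal.IsPrime.mem_of_pow_mem inferInstance _ h1)
  have hcm : c ∈ IsLocalRing.maximalIdeal S := by
    by_contra hcon
    have hu : IsUnit (algebraMap S C c) := (IsLocalRing.notMem_maximalIdeal.1 hcon).map _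
    apply IsLocalRing.notMem_maximalIdeal.2 hu
    have : algebraMap S C c = v ^ q₀ - (v ^ q₀ - algebraMap S C c) := by ring
    rw [this]
    refine Ideal.sub_mem _ ?_ (D.P2_le hc)
    exact Ideal.pow_mem_of_mem _ D.v_mem _ (by have := D.hq₀; omega)
  rw [D.hm, Ideal.mem_span_pair] at hcm
  obtain ⟨a, b, hab⟩ := hcm
  refine ⟨c, a, b, hc, hqc, hab.symm, ?_⟩
  obtain ⟨ε, hεu, hε⟩ := D.hram
  -- `ι t (1 - ε ι b) ∈ P2`
  have h1 : algebraMap S C t * (1 - ε * algebraMap S C b) ∈ P2 := by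
    have : algebraMap S C t * (1 - ε * algebraMap S C b) =
        (algebraMap S C t - ε * v ^ q₀) + ε * (v ^ q₀ - algebraMap S C c)
          + ε * algebraMap S C a * algebraMap S C (q₀ : S) := by
      rw [← hab, map_add, map_mul, map_mul]
      ring
    rw [this]
    exact Ideal.add_mem _ (Ideal.add_mem _ hε (Ideal.mul_mem_left _ _ hc))
      (Ideal.mul_mem_left _ _ D.hq2)
  rcases Ideal.IsPrime.mem_or_mem inferInstance h1 with h2 | h2
  · exfalso
    obtain ⟨r, hr⟩ := D.hs2 _ h2
    apply hqc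
    rw [← hab, hr]
    exact ⟨a + b * r, by ring⟩
  · apply D.isUnit_of_map
    have h3 : IsUnit (ε * algebraMap S C b) := by
      rw [← IsLocalRing.notMem_maximalIdeal]
      intro h4
      have : (1 : C) ∈ IsLocalRing.maximalIdeal C := by
        have e : (1 : C) = (1 - ε * algebraMap S C b) + ε * algebraMap S C b := by ring
        rw [e]
        exact Ideal.add_mem _ (D.P2_le h2) h4
      exact (IsLocalRing.maximalIdeal.isMaximal C).ne_top ((Ideal.eq_top_iff_one _).2 this)
    exact isUnit_of_mul_isUnit_right h3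

/-- a unit plus a non-unit is a unit. -/
theorem isUnit_add {u x : C} (hu : IsUnit u) (hx : x ∈ IsLocalRing.maximalIdeal C) :
    IsUnit (u + x) := by
  rw [← IsLocalRing.notMem_maximalIdeal]
  intro h
  apply IsLocalRing.notMem_maximalIdeal.2 hu
  have : u = (u + x) - x := by ring
  rw [this]
  exact Ideal.sub_mem _ h hx

/-- **(T3)** `1, v, …, v^(q-1)` are linearly independent over `S/q` in `C/P2`. -/
theorem T3 (c : ℕ → S)
    (h : ∑ i ∈ Finset.range q₀, algebraMap S C (c i) * v ^ i ∈ P2) :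
    ∀ i < q₀, (q₀ : S) ∣ c i := by
  classical
  by_contra hcon
  set I : Finset ℕ := (Finset.range q₀).filter (fun i => ¬ (q₀ : S) ∣ c i) with hI
  have hIne : I.Nonempty := by
    by_contra hemp
    apply hcon
    intro i hi
    by_contra hni
    exact hemp ⟨i, by rw [hI, Finset.mem_filter]; exact ⟨Finset.mem_range.2 hi, hni⟩⟩
  obtain ⟨ε, hεu, hε⟩ := D.hram
  -- the DVR decomposition of the `c i`
  have hdec : ∀ i, ¬ (q₀ : S) ∣ c i → ∃ (m : ℕ) (a r : S), IsUnit a ∧
      c i = a * t ^ m + (q₀ : S) * r := fun i hi => ssm_tha_dvr D.hm (c i) hi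
  choose! m a r ha hcar using hdec
  set e : ℕ → ℕ := fun i => q₀ * m i + i with he
  set w : ℕ → C := fun i => algebraMap S C (a i) * ε ^ m i with hw
  have hwu : ∀ i ∈ I, IsUnit (w i) := by
    intro i hi
    rw [hI, Finset.mem_filter] at hi
    exact ((ha i hi.2).map _).mul (hεu.pow _)
  -- each term is congruent to `w i v^(e i)`
  have hterm : ∀ i ∈ I, algebraMap S C (c i) * v ^ i - w i * v ^ e i ∈ P2 := by
    intro i hi
    rw [hI, Finset.mem_filter] at hi
    have h1 : algebraMap S C t ^ m i - (ε * v ^ q₀) ^ m i ∈ P2 := by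
      obtain ⟨z, hz⟩ := sub_dvd_pow_sub_pow (algebraMap S C t) (ε * v ^ q₀) (m i)
      rw [hz]
      exact Ideal.mul_mem_right _ _ hε
    have h2 : algebraMap S C (c i) * v ^ i - w i * v ^ e i =
        algebraMap S C (a i) * v ^ i * (algebraMap S C t ^ m i - (ε * v ^ q₀) ^ m i)
          + algebraMap S C (r i) * v ^ i * algebraMap S C (q₀ : S) := by
      conv_lhs => rw [hcar i hi.2]
      rw [hw, he, map_add, map_mul, map_mul, map_pow]
      ring
    rw [h2]
    exact Ideal.add_mem _ (Ideal.mul_mem_left _ _ h1) (Ideal.mul_mem_left _ _ D.hq2)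
  -- the sum over `I`
  have hsumI : ∑ i ∈ I, w i * v ^ e i ∈ P2 := by
    have h1 : ∑ i ∈ Finset.range q₀, algebraMap S C (c i) * v ^ i =
        ∑ i ∈ I, algebraMap S C (c i) * v ^ i +
          ∑ i ∈ (Finset.range q₀).filter (fun i => ¬ ¬ (q₀ : S) ∣ c i),
            algebraMap S C (c i) * v ^ i := by
      rw [hI, Finset.sum_filter_add_sum_filter_not]
    have h2 : ∑ i ∈ (Finset.range q₀).filter (fun i => ¬ ¬ (q₀ : S) ∣ c i),
        algebraMap S C (c i) * v ^ i ∈ P2 := by
      refine Ideal.sum_mem _ fun i hi => ?_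
      rw [Finset.mem_filter, not_not] at hi
      exact Ideal.mul_mem_right _ _ (D.dvd_mem2 hi.2)
    have h3 : ∑ i ∈ I, algebraMap S C (c i) * v ^ i ∈ P2 := by
      have : ∑ i ∈ I, algebraMap S C (c i) * v ^ i =
          ∑ i ∈ Finset.range q₀, algebraMap S C (c i) * v ^ i -
            ∑ i ∈ (Finset.range q₀).filter (fun i => ¬ ¬ (q₀ : S) ∣ c i),
              algebraMap S C (c i) * v ^ i := by rw [h1]; ring
      rw [this]
      exact Ideal.sub_mem _ h h2
    have h4 : ∑ i ∈ I, w i * v ^ e i =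
        ∑ i ∈ I, algebraMap S C (c i) * v ^ i -
          ∑ i ∈ I, (algebraMap S C (c i) * v ^ i - w i * v ^ e i) := by
      rw [Finset.sum_sub_distrib]; ring
    rw [h4]
    exact Ideal.sub_mem _ h3 (Ideal.sum_mem _ hterm)
  -- the minimal exponent
  obtain ⟨i₀, hi₀, hmin⟩ := Finset.exists_min_image I e hIne
  have hinj : ∀ i ∈ I, e i = e i₀ → i = i₀ := by
    intro i hi heq
    have hi' : i < q₀ := by
      rw [hI, Finset.mem_filter] at hi; exact Finset.mem_range.1 hi.1
    have hi₀' : i₀ < q₀ := by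
      rw [hI, Finset.mem_filter] at hi₀; exact Finset.mem_range.1 hi₀.1
    have h1 : (q₀ * m i + i) % q₀ = (q₀ * m i₀ + i₀) % q₀ := by
      simp only [he] at heq; rw [heq]
    rw [Nat.mul_add_mod, Nat.mul_add_mod, Nat.mod_eq_of_lt hi', Nat.mod_eq_of_lt hi₀'] at h1
    exact h1
  have hfact : ∑ i ∈ I, w i * v ^ e i =
      v ^ e i₀ * (w i₀ + ∑ i ∈ I.erase i₀, w i * v ^ (e i - e i₀)) := by
    rw [← Finset.add_sum_erase I _ hi₀, mul_add, Finset.mul_sum]
    congr 1
    · ring
    · refine Finset.sum_congr rfl fun i hi => ?_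
      have hle : e i₀ ≤ e i := hmin i (Finset.mem_of_mem_erase hi)
      have : v ^ e i = v ^ e i₀ * v ^ (e i - e i₀) := by
        rw [← pow_add]; congr 1; omega
      rw [this]; ring
  have hrest : ∑ i ∈ I.erase i₀, w i * v ^ (e i - e i₀) ∈ IsLocalRing.maximalIdeal C := by
    refine Ideal.sum_mem _ fun i hi => ?_
    have hiI := Finset.mem_of_mem_erase hi
    have hne : i ≠ i₀ := Finset.ne_of_mem_erase hi
    have hlt : e i₀ < e i := lt_of_le_of_ne (hmin i hiI) (fun h => hne (hinj i hiI h.symm))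
    exact Ideal.mul_mem_left _ _ (Ideal.pow_mem_of_mem _ D.v_mem _ (by omega))
  have hunit := D.isUnit_add (hwu i₀ hi₀) hrest
  rw [hfact] at hsumI
  rcases Ideal.IsPrime.mem_or_mem inferInstance hsumI with h1 | h1
  · exact D.hv2 (Ideal.IsPrime.mem_of_pow_mem inferInstance _ h1)
  · exact (Ideal.IsPrime.ne_top inferInstance) (Ideal.eq_top_of_isUnit_mem _ h1 hunit)

/-- **(T2)** the reduction of `F` is `X^(q+1) + a₁ X` with `a₁ ≡ -c`, `c ≡ v^q mod P2`. -/
theorem T2 (F : S[X]) (hF : F.Monic) (hdeg : F.natDegree = q₀ + 1) (hFv : aeval v F = 0) :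
    ∃ c a b : S, v ^ q₀ - algebraMap S C c ∈ P2 ∧ ¬ (q₀ : S) ∣ c ∧
      c = a * (q₀ : S) + b * t ∧ IsUnit b ∧
      (∀ i < q₀ + 1, i ≠ 1 → (q₀ : S) ∣ F.coeff i) ∧ (q₀ : S) ∣ F.coeff 1 + c := by
  obtain ⟨c, a, b, hc, hqc, hab, hb⟩ := D.exists_c
  refine ⟨c, a, b, hc, hqc, hab, hb, ?_⟩
  have hq₀ := D.hq₀
  -- expansion of `F(v) = 0`
  have hexp := ssth_aeval_sum F (q₀ + 1) hdeg.le v
  rw [hFv, Finset.sum_range_succ, Finset.sum_range_succ] at hexp
  have hlead : F.coeff (q₀ + 1) = 1 := by rw [← hdeg]; exact hF.coeff_natDegree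
  rw [hlead, map_one, one_mul] at hexp
  -- the modified coefficients
  set c' : ℕ → S := fun i =>
    F.coeff i + (if i = 0 then F.coeff q₀ * c else 0) + (if i = 1 then c else 0) with hc'
  have hsum : ∑ i ∈ Finset.range q₀, algebraMap S C (c' i) * v ^ i ∈ P2 := by
    have h1 : ∑ i ∈ Finset.range q₀, algebraMap S C (c' i) * v ^ i =
        ∑ i ∈ Finset.range q₀, algebraMap S C (F.coeff i) * v ^ i
          + algebraMap S C (F.coeff q₀ * c) + algebraMap S C c * v := by
      have e1 : ∀ i ∈ Finset.range q₀, algebraMap S C (c' i) * v ^ i =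
          algebraMap S C (F.coeff i) * v ^ i
            + (if i = 0 then algebraMap S C (F.coeff q₀ * c) else 0)
            + (if i = 1 then algebraMap S C c * v else 0) := by
        intro i _
        simp only [hc']
        by_cases h0 : i = 0
        · subst h0; simp
        · by_cases h1 : i = 1
          · subst h1; simp [add_mul]
          · simp [h0, h1]
      rw [Finset.sum_congr rfl e1, Finset.sum_add_distrib, Finset.sum_add_distrib,
        Finset.sum_ite_eq', Finset.sum_ite_eq', if_pos (Finset.mem_range.2 (by omega)),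
        if_pos (Finset.mem_range.2 (by omega))]
    have h2 : ∑ i ∈ Finset.range q₀, algebraMap S C (F.coeff i) * v ^ i =
        - (algebraMap S C (F.coeff q₀) * v ^ q₀) - v ^ (q₀ + 1) := by
      linear_combination (-1 : C) * hexp
    rw [h1, h2]
    have h3 : - (algebraMap S C (F.coeff q₀) * v ^ q₀) - v ^ (q₀ + 1)
        + algebraMap S C (F.coeff q₀ * c) + algebraMap S C c * v =
        (- algebraMap S C (F.coeff q₀) - v) * (v ^ q₀ - algebraMap S C c) := by
      rw [map_mul]; ring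
    rw [h3]
    exact Ideal.mul_mem_left _ _ hc
  have hT3 := D.T3 c' hsum
  -- `q ∣ F.coeff 0`
  have hF0 : (q₀ : S) ∣ F.coeff 0 := by
    apply D.hs1
    have h1 : aeval v F = aeval v F.divX * v + algebraMap S C (F.coeff 0) := by
      conv_lhs => rw [← divX_mul_X_add F]
      rw [map_add, map_mul, aeval_X, aeval_C]
    rw [hFv] at h1
    have h2 : algebraMap S C (F.coeff 0) = - (aeval v F.divX * v) := by
      linear_combination (-1 : C) * h1
    rw [h2]
    exact Ideal.neg_mem_iff _ |>.2 (Ideal.mul_mem_left _ _ D.hv1)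
  have h0 := hT3 0 (by omega)
  have h1 := hT3 1 (by omega)
  simp only [hc', if_true, if_false, one_ne_zero, zero_ne_one, add_zero] at h0 h1
  have hFq : (q₀ : S) ∣ F.coeff q₀ := by
    have h2 : (q₀ : S) ∣ F.coeff q₀ * c := (dvd_add_right hF0).1 h0
    exact (D.dvd_or h2).resolve_right hqc
  refine ⟨?_, h1⟩
  intro i hi hi1
  by_cases hi0 : i = 0
  · subst hi0; exact hF0
  · by_cases hiq : i = q₀
    · subst hiq; exact hFq
    · have h2 := hT3 i (by omega)
      simp only [hc', if_neg hi0, if_neg hi1, add_zero] at h2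
      exact h2

/-- `θ = F'(v) ≡ F.coeff 1` modulo `v`. -/
theorem theta_sub (F : S[X]) :
    aeval v (derivative F) - algebraMap S C (F.coeff 1) ∈ Ideal.span {v} := by
  have h1 : aeval v (derivative F) =
      aeval v (derivative F).divX * v + algebraMap S C ((derivative F).coeff 0) := by
    conv_lhs => rw [← divX_mul_X_add (derivative F)]
    rw [map_add, map_mul, aeval_X, aeval_C]
  have h2 : (derivative F).coeff 0 = F.coeff 1 := by
    rw [coeff_derivative]; simp
  rw [h1, h2, add_sub_cancel_right]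
  exact Ideal.mul_mem_left _ _ (Ideal.mem_span_singleton_self v)

/-- the maximal ideal of `C` is `P1 + P2` (the two components cross at the closed point). -/
theorem max_eq : IsLocalRing.maximalIdeal C = P1 ⊔ P2 := by
  have hq₀ := D.hq₀
  apply le_antisymm
  · intro x hx
    obtain ⟨s, hs⟩ := D.hadd x
    have h1 : algebraMap S C s ∈ IsLocalRing.maximalIdeal C := by
      have : algebraMap S C s = x - (x - algebraMap S C s) := by ring
      rw [this]; exact Ideal.sub_mem _ hx (D.P1_le hs)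
    have h2 : s ∈ IsLocalRing.maximalIdeal S := by
      by_contra h
      exact (IsLocalRing.notMem_maximalIdeal.2 ((IsLocalRing.notMem_maximalIdeal.1 h).map _)) h1
    rw [D.hm, Ideal.mem_span_pair] at h2
    obtain ⟨a, b, rfl⟩ := h2
    obtain ⟨ε, -, hε⟩ := D.hram
    have ht : algebraMap S C t ∈ P1 ⊔ P2 := by
      have : algebraMap S C t = ε * v ^ q₀ + (algebraMap S C t - ε * v ^ q₀) := by ring
      rw [this]
      exact Ideal.add_mem _ (Ideal.mem_sup_left (Ideal.mul_mem_left _ _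
        (Ideal.pow_mem_of_mem _ D.hv1 _ (by omega)))) (Ideal.mem_sup_right hε)
    have hx' : x = (x - algebraMap S C (a * (q₀ : S) + b * t))
        + (algebraMap S C a * algebraMap S C (q₀ : S) + algebraMap S C b * algebraMap S C t) := by
      rw [map_add, map_mul, map_mul]; ring
    rw [hx']
    exact Ideal.add_mem _ (Ideal.mem_sup_left hs) (Ideal.add_mem _
      (Ideal.mem_sup_left (Ideal.mul_mem_left _ _ D.hq1)) (Ideal.mul_mem_left _ _ ht))
  · exact sup_le D.P1_le D.P2_le

/-- **(T1a)** `P1 = (v, q)`. -/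
theorem T1a : P1 = Ideal.span {v, algebraMap S C (q₀ : S)} := by
  apply le_antisymm
  · intro x hx
    have h1 := D.htr1 hx
    rw [Submodule.mem_sup] at h1
    obtain ⟨y, hy, p, hp, rfl⟩ := h1
    rw [Ideal.mem_span_singleton'] at hy
    obtain ⟨a, rfl⟩ := hy
    have hp1 : p ∈ P1 := by
      have : p = (a * v + p) - a * v := by ring
      rw [this]; exact Ideal.sub_mem _ hx (Ideal.mul_mem_left _ _ D.hv1)
    have hp2 := D.hinf ⟨hp1, hp⟩
    rw [Ideal.mem_span_singleton'] at hp2
    obtain ⟨b, rfl⟩ := hp2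
    rw [Ideal.mem_span_pair]; exact ⟨a, b, rfl⟩
  · rw [Ideal.span_le]
    rintro x (rfl | hx)
    · exact D.hv1
    · rw [Set.mem_singleton_iff] at hx; subst hx; exact D.hq1

/-- the identity `v θ = q h`, `h ∉ P2` (helper6's `ssth_h` at `ρ : C → C/P2`). -/
theorem exists_h (F : S[X]) (hF : F.Monic) (hdeg : F.natDegree = q₀ + 1) (hFv : aeval v F = 0) :
    ∃ h : C, v * aeval v (derivative F) = algebraMap S C (q₀ : S) * h ∧ h ∉ P2 := by
  have hq₀ := D.hq₀
  obtain ⟨c, a, b, hc, hqc, hab, hb, hcoeff, h1c⟩ := D.T2 F hF hdeg hFv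
  have key := ssth_h (Ideal.Quotient.mk P2) (q₀ : S)
    (by rw [Ideal.Quotient.eq_zero_iff_mem]; exact D.hq2) (q₀ + 1) (by omega) F hF hdeg
    (by push_cast; ring) hcoeff v hFv
    (by rw [Ne, Ideal.Quotient.eq_zero_iff_mem]; exact D.hv2)
    (by
      intro c' hsum i hi
      rw [Nat.add_sub_cancel] at hsum hi
      have h1 : ∑ i ∈ Finset.range q₀, algebraMap S C (c' i) * v ^ i ∈ P2 := by
        rw [← Ideal.Quotient.eq_zero_iff_mem, map_sum, ← hsum]
        exact Finset.sum_congr rfl fun j _ => by rw [map_mul, map_pow]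
      rw [Ideal.Quotient.eq_zero_iff_mem]
      exact D.dvd_mem2 (D.T3 c' h1 i hi))
  obtain ⟨h, hid, hh⟩ := key
  exact ⟨h, hid, by rwa [Ne, Ideal.Quotient.eq_zero_iff_mem] at hh⟩

/-- **(T1b)** `θ := F'(v) ∈ P2 ∖ P1`, `P2 = (θ, q)`, and `θ ≡ - unit · t mod P1`. -/
theorem T1b (F : S[X]) (hF : F.Monic) (hdeg : F.natDegree = q₀ + 1) (hFv : aeval v F = 0) :
    aeval v (derivative F) ∈ P2 ∧ aeval v (derivative F) ∉ P1 ∧
      P2 = Ideal.span {aeval v (derivative F), algebraMap S C (q₀ : S)} ∧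
      ∃ b : S, IsUnit b ∧ aeval v (derivative F) + algebraMap S C b * algebraMap S C t ∈ P1 := by
  set θ := aeval v (derivative F) with hθ
  obtain ⟨c, a, b, hc, hqc, hab, hb, hcoeff, h1c⟩ := D.T2 F hF hdeg hFv
  obtain ⟨h, hid, hh⟩ := D.exists_h F hF hdeg hFv
  have hθ2 : θ ∈ P2 := by
    have h1 : v * θ ∈ P2 := by rw [hid]; exact Ideal.mul_mem_right _ _ D.hq2
    exact (Ideal.IsPrime.mem_or_mem inferInstance h1).resolve_left D.hv2
  have hsub : θ - algebraMap S C (F.coeff 1) ∈ P1 := by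
    have h1 := D.theta_sub F
    rw [Ideal.mem_span_singleton'] at h1
    obtain ⟨z, hz⟩ := h1
    rw [← hz]; exact Ideal.mul_mem_left _ _ D.hv1
  have hF1 : ¬ (q₀ : S) ∣ F.coeff 1 := by
    intro h1
    exact hqc ((dvd_add_right h1).1 h1c)
  have hθ1 : θ ∉ P1 := by
    intro h1
    apply hF1
    apply D.hs1
    have : algebraMap S C (F.coeff 1) = θ - (θ - algebraMap S C (F.coeff 1)) := by ring
    rw [this]; exact Ideal.sub_mem _ h1 hsub
  -- `θ + ι c ∈ P1`
  have hθc : θ + algebraMap S C c ∈ P1 := by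
    have : θ + algebraMap S C c =
        (θ - algebraMap S C (F.coeff 1)) + algebraMap S C (F.coeff 1 + c) := by
      rw [map_add]; ring
    rw [this]; exact Ideal.add_mem _ hsub (D.dvd_mem1 h1c)
  have hθt : θ + algebraMap S C b * algebraMap S C t ∈ P1 := by
    have : θ + algebraMap S C b * algebraMap S C t =
        (θ + algebraMap S C c) - algebraMap S C a * algebraMap S C (q₀ : S) := by
      rw [hab, map_add, map_mul, map_mul]; ring
    rw [this]; exact Ideal.sub_mem _ hθc (Ideal.mul_mem_left _ _ D.hq1)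
  refine ⟨hθ2, hθ1, ?_, b, hb, hθt⟩
  obtain ⟨b', hbb'⟩ := hb.exists_right_inv
  apply le_antisymm
  · intro x hx
    have h1 := D.htr2 hx
    rw [Submodule.mem_sup] at h1
    obtain ⟨y, hy, p, hp, rfl⟩ := h1
    rw [Ideal.mem_span_singleton'] at hy
    obtain ⟨a₁, rfl⟩ := hy
    -- `ι t + ι b' θ ∈ P1`
    have ht' : algebraMap S C t + algebraMap S C b' * θ ∈ P1 := by
      have : algebraMap S C t + algebraMap S C b' * θ =
          algebraMap S C b' * (θ + algebraMap S C b * algebraMap S C t) := by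
        have e : algebraMap S C b * algebraMap S C b' = 1 := by
          rw [← map_mul, hbb', map_one]
        linear_combination (-(algebraMap S C t)) * e
      rw [this]; exact Ideal.mul_mem_left _ _ hθt
    set p' : C := a₁ * (algebraMap S C t + algebraMap S C b' * θ) + p with hp'
    have hp'1 : p' ∈ P1 := Ideal.add_mem _ (Ideal.mul_mem_left _ _ ht') hp
    have hp'2 : p' ∈ P2 := by
      have : p' = (a₁ * algebraMap S C t + p) + a₁ * algebraMap S C b' * θ := by
        rw [hp']; ring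
      rw [this]; exact Ideal.add_mem _ hx (Ideal.mul_mem_left _ _ hθ2)
    have h2 := D.hinf ⟨hp'1, hp'2⟩
    rw [Ideal.mem_span_singleton'] at h2
    obtain ⟨d, hd⟩ := h2
    rw [Ideal.mem_span_pair]
    refine ⟨- (a₁ * algebraMap S C b'), d, ?_⟩
    rw [hd, hp']; ring
  · rw [Ideal.span_le]
    rintro x (rfl | hx)
    · exact hθ2
    · rw [Set.mem_singleton_iff] at hx; subst hx; exact D.hq2

/-- **[TH-A] main**: with (T4) in the form `q^k ∈ (θ)`, the local ring `C` is regular at the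
node: `q = u v'`, `P2 = (u)`, `P1 = (v')`, `𝔪_C = (u, v')`, with `u = θ = F'(v)`. -/
theorem main (F : S[X]) (hF : F.Monic) (hdeg : F.natDegree = q₀ + 1) (hFv : aeval v F = 0)
    (hT4 : ∃ k : ℕ, algebraMap S C (q₀ : S) ^ k ∈ Ideal.span {aeval v (derivative F)}) :
    ∃ u v' : C, u * v' = algebraMap S C (q₀ : S) ∧ P2 = Ideal.span {u} ∧ P1 = Ideal.span {v'} ∧
      IsLocalRing.maximalIdeal C = Ideal.span {u, v'} ∧ u = aeval v (derivative F) ∧
      (∃ b : S, IsUnit b ∧ u + algebraMap S C b * algebraMap S C t ∈ P1) ∧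
      ∃ h : C, IsUnit h ∧ v = v' * h := by
  obtain ⟨hθ2, hθ1, hP2, b, hb, hθt⟩ := D.T1b F hF hdeg hFv
  obtain ⟨h, hid, hh⟩ := D.exists_h F hF hdeg hFv
  obtain ⟨v', hθv', hv, hP2', hP1'⟩ :=
    ssth_regular D.hq0 D.T1a hP2 hθ1 hid hh hT4
  refine ⟨aeval v (derivative F), v', hθv', hP2', hP1', ?_, rfl, ⟨b, hb, hθt⟩, h, ?_, hv⟩
  · rw [D.max_eq, Ideal.span_insert, sup_comm]
    conv_lhs => rw [hP2', hP1']
  · -- `h` is a unit
    have hv'mem : v' ∈ Ideal.span {v, algebraMap S C (q₀ : S)} := by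
      rw [← D.T1a, hP1']; exact Ideal.mem_span_singleton_self v'
    rw [Ideal.mem_span_pair] at hv'mem
    obtain ⟨x, y, hxy⟩ := hv'mem
    have hv'0 : v' ≠ 0 := by
      intro h0
      rw [h0, mul_zero] at hθv'
      exact D.hq0 hθv'.symm
    have h1 : x * h + y * aeval v (derivative F) = 1 := by
      have : v' * (x * h + y * aeval v (derivative F)) = v' * 1 := by
        rw [mul_one]
        conv_rhs => rw [← hxy, hv, ← hθv']
        ring
      exact mul_left_cancel₀ hv'0 this
    rw [← IsLocalRing.notMem_maximalIdeal]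
    intro hm
    have : (1 : C) ∈ IsLocalRing.maximalIdeal C := by
      rw [← h1]
      exact Ideal.add_mem _ (Ideal.mul_mem_left _ _ hm) (Ideal.mul_mem_left _ _ (D.P2_le hθ2))
    exact (IsLocalRing.maximalIdeal.isMaximal C).ne_top ((Ideal.eq_top_iff_one _).2 this)

/-- **[TH-A] main, prime form of (T4)**: every prime of `C` containing `θ = F'(v)` contains `q`
(the cover is unramified in characteristic zero). -/
theorem main' (F : S[X]) (hF : F.Monic) (hdeg : F.natDegree = q₀ + 1) (hFv : aeval v F = 0)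
    (hT4 : ∀ 𝔭 : Ideal C, 𝔭.IsPrime → aeval v (derivative F) ∈ 𝔭 → algebraMap S C (q₀ : S) ∈ 𝔭) :
    ∃ u v' : C, u * v' = algebraMap S C (q₀ : S) ∧ P2 = Ideal.span {u} ∧ P1 = Ideal.span {v'} ∧
      IsLocalRing.maximalIdeal C = Ideal.span {u, v'} ∧ u = aeval v (derivative F) ∧
      (∃ b : S, IsUnit b ∧ u + algebraMap S C b * algebraMap S C t ∈ P1) ∧
      ∃ h : C, IsUnit h ∧ v = v' * h := by
  apply D.main F hF hdeg hFv
  rw [← Ideal.mem_radical_iff, Ideal.radical_eq_sInf, Ideal.mem_sInf]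
  rintro J ⟨hJ, hJp⟩
  exact hT4 J hJp (hJ (Ideal.mem_span_singleton_self _))

/-- `q` and `t` are non-units of `S`. -/
theorem q_mem : (q₀ : S) ∈ IsLocalRing.maximalIdeal S := by
  rw [D.hm]; exact Ideal.subset_span (by simp)

theorem dvd_mem {s : S} (h : (q₀ : S) ∣ s) : s ∈ IsLocalRing.maximalIdeal S := by
  obtain ⟨r, rfl⟩ := h
  exact Ideal.mul_mem_right _ _ D.q_mem

/-- if `∑_{i ≤ q} g_i v^i = 0` then `q ∣ g_i` for all `i`. -/
theorem dvd_of_sum (g : ℕ → S)
    (h : ∑ i ∈ Finset.range (q₀ + 1), algebraMap S C (g i) * v ^ i = 0) :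
    ∀ i < q₀ + 1, (q₀ : S) ∣ g i := by
  rw [Finset.sum_range_succ', pow_zero, mul_one] at h
  have h1 : ∑ i ∈ Finset.range q₀, algebraMap S C (g (i + 1)) * v ^ (i + 1) =
      v * ∑ i ∈ Finset.range q₀, algebraMap S C (g (i + 1)) * v ^ i := by
    rw [Finset.mul_sum]
    exact Finset.sum_congr rfl fun i _ => by ring
  rw [h1] at h
  have hg0 : (q₀ : S) ∣ g 0 := by
    apply D.hs1
    have : algebraMap S C (g 0) =
        - (v * ∑ i ∈ Finset.range q₀, algebraMap S C (g (i + 1)) * v ^ i) := by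
      linear_combination h
    rw [this]
    exact (Ideal.neg_mem_iff _).2 (Ideal.mul_mem_right _ _ D.hv1)
  have h2 : v * ∑ i ∈ Finset.range q₀, algebraMap S C (g (i + 1)) * v ^ i ∈ P2 := by
    have : v * ∑ i ∈ Finset.range q₀, algebraMap S C (g (i + 1)) * v ^ i =
        - algebraMap S C (g 0) := by linear_combination h
    rw [this]
    exact (Ideal.neg_mem_iff _).2 (D.dvd_mem2 hg0)
  have h3 := (Ideal.IsPrime.mem_or_mem inferInstance h2).resolve_left D.hv2
  have h4 := D.T3 (fun i => g (i + 1)) h3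
  intro i hi
  cases i with
  | zero => exact hg0
  | succ j => exact h4 j (by omega)

/-- `q`-adic descent. -/
theorem pow_dvd_of_sum (k : ℕ) : ∀ g : ℕ → S,
    ∑ i ∈ Finset.range (q₀ + 1), algebraMap S C (g i) * v ^ i = 0 →
    ∀ i < q₀ + 1, (q₀ : S) ^ k ∣ g i := by
  classical
  induction k with
  | zero => intro g _ i _; simp
  | succ k ih =>
    intro g h i hi
    have hd := D.dvd_of_sum g h
    set g' : ℕ → S := fun i => if hi : i < q₀ + 1 then Classical.choose (hd i hi) else 0 with hg'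
    have hgg' : ∀ i < q₀ + 1, g i = (q₀ : S) * g' i := by
      intro i hi
      simp only [hg', dif_pos hi]
      exact Classical.choose_spec (hd i hi)
    have h' : ∑ i ∈ Finset.range (q₀ + 1), algebraMap S C (g' i) * v ^ i = 0 := by
      have : algebraMap S C (q₀ : S) *
          ∑ i ∈ Finset.range (q₀ + 1), algebraMap S C (g' i) * v ^ i = 0 := by
        rw [← h, Finset.mul_sum]
        refine Finset.sum_congr rfl fun i hi => ?_
        rw [hgg' i (Finset.mem_range.1 hi), map_mul]; ring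
      exact (mul_eq_zero.1 this).resolve_left D.hq0
    rw [hgg' i hi, pow_succ']
    exact mul_dvd_mul_left _ (ih g' h' i hi)

theorem eq_zero_of_sum (g : ℕ → S)
    (h : ∑ i ∈ Finset.range (q₀ + 1), algebraMap S C (g i) * v ^ i = 0) :
    ∀ i < q₀ + 1, g i = 0 := by
  intro i hi
  have hItop : Ideal.span {(q₀ : S)} ≠ ⊤ := by
    intro h1
    have : (1 : S) ∈ Ideal.span {(q₀ : S)} := by rw [h1]; trivial
    rw [Ideal.mem_span_singleton] at this
    exact (IsLocalRing.maximalIdeal.isMaximal S).ne_top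
      (Ideal.eq_top_of_isUnit_mem _ D.q_mem (isUnit_of_dvd_one this))
  have hinf := Ideal.iInf_pow_eq_bot_of_isLocalRing (Ideal.span {(q₀ : S)}) hItop
  have : g i ∈ ⨅ k : ℕ, Ideal.span {(q₀ : S)} ^ k := by
    rw [Ideal.mem_iInf]
    intro k
    rw [Ideal.span_singleton_pow, Ideal.mem_span_singleton]
    exact D.pow_dvd_of_sum k g h i hi
  rw [hinf] at this
  exact this

/-- **linear independence** of `1, v, …, v^q` over `S`. -/
theorem linearIndependent :
    LinearIndependent S (fun i : Fin (q₀ + 1) => v ^ (i : ℕ)) := by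
  classical
  rw [Fintype.linearIndependent_iff]
  intro g hg i
  set g' : ℕ → S := fun i => if hi : i < q₀ + 1 then g ⟨i, hi⟩ else 0 with hg'
  have h : ∑ i ∈ Finset.range (q₀ + 1), algebraMap S C (g' i) * v ^ i = 0 := by
    rw [Finset.sum_range, ← hg]
    refine Finset.sum_congr rfl fun j _ => ?_
    simp only [hg', dif_pos j.2, Fin.eta, Algebra.smul_def]
  have := D.eq_zero_of_sum g' h i i.2
  simpa only [hg', dif_pos i.2, Fin.eta] using this

section mono

variable [Module.Finite S C]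

/-- **spanning** (Nakayama): `1, v, …, v^q` generate `C` over `S`. -/
theorem span_top (F : S[X]) (hF : F.Monic) (hdeg : F.natDegree = q₀ + 1) (hFv : aeval v F = 0) :
    ⊤ ≤ Submodule.span S (Set.range fun i : Fin (q₀ + 1) => v ^ (i : ℕ)) := by
  have hq₀ := D.hq₀
  obtain ⟨c, a, b, hc, hqc, hab, hb, hcoeff, h1c⟩ := D.T2 F hF hdeg hFv
  set N : Submodule S C := Submodule.span S (Set.range fun i : Fin (q₀ + 1) => v ^ (i : ℕ))
    with hN
  set 𝔪 := IsLocalRing.maximalIdeal S with h𝔪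
  have hA : ∀ (s : S) (x : C), s ∈ 𝔪 → algebraMap S C s * x ∈ 𝔪 • (⊤ : Submodule S C) := by
    intro s x hs
    rw [← Algebra.smul_def]
    exact Submodule.smul_mem_smul hs trivial
  have hFm : ∀ i < q₀ + 1, F.coeff i ∈ 𝔪 := by
    intro i hi
    by_cases h1 : i = 1
    · subst h1
      have hcm : c ∈ 𝔪 := by
        rw [hab]
        exact Ideal.add_mem _ (Ideal.mul_mem_left _ _ D.q_mem)
          (Ideal.mul_mem_left _ _ (by rw [h𝔪, D.hm]; exact Ideal.subset_span (by simp)))
      have : F.coeff 1 = (F.coeff 1 + c) - c := by ring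
      rw [this]
      exact Ideal.sub_mem _ (D.dvd_mem h1c) hcm
    · exact D.dvd_mem (hcoeff i hi h1)
  -- `v^(q+1) x ∈ 𝔪 C`
  have hexp := ssth_aeval_sum F (q₀ + 1) hdeg.le v
  rw [hFv, Finset.sum_range_succ] at hexp
  have hlead : F.coeff (q₀ + 1) = 1 := by rw [← hdeg]; exact hF.coeff_natDegree
  rw [hlead, map_one, one_mul] at hexp
  have hB : ∀ x : C, v ^ (q₀ + 1) * x ∈ 𝔪 • (⊤ : Submodule S C) := by
    intro x
    have h1 : v ^ (q₀ + 1) * x =
        - ∑ i ∈ Finset.range (q₀ + 1), algebraMap S C (F.coeff i) * (v ^ i * x) := by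
      have : v ^ (q₀ + 1) = - ∑ i ∈ Finset.range (q₀ + 1), algebraMap S C (F.coeff i) * v ^ i := by
        linear_combination (-1 : C) * hexp
      rw [this, neg_mul, Finset.sum_mul]
      congr 1
      exact Finset.sum_congr rfl fun i _ => by ring
    rw [h1]
    refine Submodule.neg_mem _ (Submodule.sum_mem _ fun i hi => ?_)
    exact hA _ _ (hFm i (Finset.mem_range.1 hi))
  -- downward induction
  have hC : ∀ j ≤ q₀ + 1, ∀ x : C, v ^ (q₀ + 1 - j) * x ∈ N ⊔ 𝔪 • (⊤ : Submodule S C) := by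
    intro j
    induction j with
    | zero =>
      intro _ x
      exact Submodule.mem_sup_right (hB x)
    | succ j ih =>
      intro hj x
      have ih' := ih (by omega)
      set k := q₀ + 1 - (j + 1) with hk
      have hk1 : q₀ + 1 - j = k + 1 := by omega
      rw [hk1] at ih'
      obtain ⟨s, hs⟩ := D.hadd x
      have hs' := hs
      rw [D.T1a, Ideal.mem_span_pair] at hs'
      obtain ⟨a₁, b₁, hab₁⟩ := hs'
      have hx : v ^ k * x = s • v ^ k + v ^ (k + 1) * a₁
          + algebraMap S C (q₀ : S) * (v ^ k * b₁) := by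
        have : x = algebraMap S C s + (a₁ * v + b₁ * algebraMap S C (q₀ : S)) := by
          rw [hab₁]; ring
        conv_lhs => rw [this]
        rw [Algebra.smul_def]; ring
      rw [hx]
      refine Submodule.add_mem _ (Submodule.add_mem _ ?_ (ih' a₁)) ?_
      · refine Submodule.mem_sup_left (Submodule.smul_mem _ _ ?_)
        exact Submodule.subset_span ⟨⟨k, by omega⟩, rfl⟩
      · exact Submodule.mem_sup_right (hA _ _ D.q_mem)
  have hNN : (⊤ : Submodule S C) ≤ N ⊔ 𝔪 • (⊤ : Submodule S C) := by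
    intro x _
    have := hC (q₀ + 1) le_rfl x
    rwa [Nat.sub_self, pow_zero, one_mul] at this
  exact Submodule.le_of_le_smul_of_le_jacobson_bot Module.Finite.fg_top
    (IsLocalRing.jacobson_eq_maximalIdeal ⊥ bot_ne_top).ge hNN

/-- **Monogenicity**: `C = S[v]` is free over `S` with basis `1, v, …, v^q`. -/
theorem mono (F : S[X]) (hF : F.Monic) (hdeg : F.natDegree = q₀ + 1) (hFv : aeval v F = 0) :
    ∃ b : Module.Basis (Fin (q₀ + 1)) S C, ∀ i, b i = v ^ (i : ℕ) :=
  ⟨Module.Basis.mk D.linearIndependent (D.span_top F hF hdeg hFv),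
    fun i => by rw [Module.Basis.mk_apply]⟩

end mono

end ssm_tha_Data

end data

end Fermat.Agent.SS
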