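/-
Project SS (S34), cell [M], leaf [TH-U] (helper2): the ramification input (T4) of the thickness
computation.

* `ssm_thu_baseUp` : GOING UP THE BASE.  `K ⊆ E0 ⊆ E1` fields, `V` a discrete valuation ring of
  `K`, `V0` a discrete valuation ring of `E0` containing `V`.  If `E1` is unramified over `V`
  (`jt_UnramAt V E1`) then `E1` is unramified over `V0`.  (No hypothesis on `E0 / K`: this is
  `Algebra.FormallyUnramified.of_restrictScalars`, after identifying the integral closure of `V0` in `E1` with
  a localisation of the integral closure of `V`.)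

* `ssm_thu_hH` : for a noetherian normal domain `R` with fraction field `K ⊇ K0` and a height-one
  prime `p`: if `E` is unramified over the discrete valuation ring `R_p ∩ K0` of `K0`, then
  `integralClosure R E` is unramified over `R` at every prime above `p`.
* `ssm_thu_main` : **[TH-A] + (T4)**: the data `ssm_tha_Data` for `S` and `C := integralClosure S E`
  plus horizontal unramifiedness over the DVRs of `K0` give the regularity of `C` at the node.

Prefix `ssm_thu_`.
-/
import Mathlib
import Fermat.Agent.JT3.Seams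
import Fermat.Agent.JT3.Algebra.AbhyankarSeam
import Fermat.Agent.JT3.Model.EtaleSeam
import Fermat.Agent.SS.Model.ThickAbs
import Fermat.Agent.SS.Model.ThickDiscr

set_option autoImplicit false
set_option linter.unusedSectionVars false
set_option linter.unusedVariables false
set_option linter.style.haveILetI false

namespace Fermat.Agent.SS

open Fermat.Agent.JT3

section BaseUp

variable {K : Type*} [Field K] [CharZero K] (V : Subring K) [IsDiscreteValuationRing V]
  [IsFractionRing V K]
variable (E0 E1 : Type*) [Field E0] [Field E1] [Algebra K E0] [Algebra E0 E1] [Algebra K E1]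
  [IsScalarTower K E0 E1] [FiniteDimensional K E0]

set_option maxHeartbeats 1000000 in
/-- **Going up the base.** -/
theorem ssm_thu_baseUp (V0 : Subring E0) [IsDiscreteValuationRing V0] [IsFractionRing V0 E0]
    (ha : ∀ v : V, algebraMap K E0 v ∈ V0) (h : jt_UnramAt V E1) : jt_UnramAt V0 E1 := by
  intro Q' hQ' hQ'0
  let B0 := integralClosure V E0
  let B1 := integralClosure V E1
  haveI : IsDedekindDomain B0 := IsIntegralClosure.isDedekindDomain V K E0 B0
  haveI : IsFractionRing B0 E0 := IsIntegralClosure.isFractionRing_of_finite_extension V K E0 B0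
  haveI : IsScalarTower V E0 E1 := IsScalarTower.of_algebraMap_eq fun x =>
    IsScalarTower.algebraMap_apply K E0 E1 (x : K)
  -- `V → V0`
  let φ : V →+* V0 := ((algebraMap K E0).comp V.subtype).codRestrict V0 ha
  letI aVV0 : Algebra V V0 := φ.toAlgebra
  haveI : IsScalarTower V V0 E0 := IsScalarTower.of_algebraMap_eq fun x => rfl
  haveI : IsScalarTower V V0 E1 := IsScalarTower.of_algebraMap_eq fun x =>
    IsScalarTower.algebraMap_apply K E0 E1 (x : K)
  -- `B0 ⊆ V0`
  have hBV : ∀ b : B0, algebraMap B0 E0 b ∈ V0 := by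
    intro b
    have h1 : IsIntegral V0 (b : E0) := IsIntegral.tower_top (R := V) b.2
    obtain ⟨y, hy⟩ := IsIntegrallyClosed.isIntegral_iff.mp h1
    show (b : E0) ∈ V0
    rw [← hy]
    exact y.2
  have hp : ti_centre V0 hBV ≠ ⊥ := by
    apply ti_centre_ne_bot
    obtain ⟨ϖ, hϖ⟩ := IsDiscreteValuationRing.exists_irreducible V0
    exact ⟨ϖ, hϖ.ne_zero, hϖ.not_isUnit⟩
  set P0 : Ideal B0 := ti_centre V0 hBV with hP0def
  haveI hP0prime : P0.IsPrime := Ideal.comap_isPrime _ _
  letI aB0V0 : Algebra B0 V0 := (ti_toSub V0 hBV).toAlgebra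
  haveI hloc : IsLocalization.AtPrime V0 P0 := ti_isLocalization_centre V0 hBV hp
  haveI : IsScalarTower V B0 V0 := IsScalarTower.of_algebraMap_eq fun x => rfl
  let B' := integralClosure V0 E1
  let ι : B1 →+* B' :=
    { toFun := fun x => ⟨x.1, IsIntegral.tower_top (R := V) x.2⟩
      map_one' := rfl
      map_mul' := fun _ _ => rfl
      map_zero' := rfl
      map_add' := fun _ _ => rfl }
  letI b1B' : Algebra B1 B' := ι.toAlgebra
  haveI : Algebra.IsIntegral V B0 := inferInstance
  letI b0B1 : Algebra B0 B1 := (ti_icMap V E0 E1).toRingHom.toAlgebra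
  haveI : IsScalarTower V B0 B1 := IsScalarTower.of_algebraMap_eq fun x =>
    ((ti_icMap V E0 E1).commutes x).symm
  haveI : IsScalarTower B0 V0 E0 := IsScalarTower.of_algebraMap_eq fun x => rfl
  haveI : IsScalarTower B0 V0 E1 := IsScalarTower.of_algebraMap_eq fun x => rfl
  haveI : IsScalarTower B0 B1 E1 := IsScalarTower.of_algebraMap_eq fun x => rfl
  haveI : IsScalarTower B1 B' E1 := IsScalarTower.of_algebraMap_eq fun x => rfl
  haveI hlocB : IsLocalization (Algebra.algebraMapSubmonoid B1 P0.primeCompl) B' :=
    ti_ic_isLocalization V B0 V0 E1 P0.primeCompl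
  -- the prime of `B1` under `Q'`
  set Q : Ideal B1 := Q'.comap (algebraMap B1 B') with hQdef
  haveI hQprime : Q.IsPrime := Ideal.comap_isPrime _ _
  have hQ0 : Q ≠ ⊥ := by
    intro h0
    apply hQ'0
    have hmc := IsLocalization.map_under (Algebra.algebraMapSubmonoid B1 P0.primeCompl) B' Q'
    rw [← hmc]
    show Ideal.map (algebraMap B1 B') Q = ⊥
    rw [h0, Ideal.map_bot]
  have hunr : Algebra.FormallyUnramified V (Localization.AtPrime Q) := h Q hQ0
  let T := Localization.AtPrime Q'
  haveI hT : IsLocalization.AtPrime T Q :=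
    IsLocalization.isLocalization_isLocalization_atPrime_isLocalization
      (Algebra.algebraMapSubmonoid B1 P0.primeCompl) T Q'
  let e : Localization.AtPrime Q ≃ₐ[B1] T := IsLocalization.algEquiv Q.primeCompl _ _
  haveI : IsScalarTower V B1 B' := IsScalarTower.of_algebraMap_eq fun x => rfl
  haveI : IsScalarTower V V0 B' := inferInstance
  haveI : IsScalarTower V B1 T := IsScalarTower.of_algebraMap_eq fun x => rfl
  haveI : IsScalarTower V V0 T := inferInstance
  haveI hVT : Algebra.FormallyUnramified V T :=
    Algebra.FormallyUnramified.of_equiv (A := Localization.AtPrime Q)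
      (e.restrictScalars V : Localization.AtPrime Q ≃ₐ[V] T)
  exact Algebra.FormallyUnramified.of_restrictScalars V V0 T

end BaseUp

section HH

variable {R : Type*} [CommRing R] [IsDomain R] [IsNoetherianRing R] [IsIntegrallyClosed R]
  (K0 K E : Type*) [Field K0] [CharZero K0] [Field K] [Field E] [Algebra K0 K] [Algebra K E]
  [Algebra K0 E] [IsScalarTower K0 K E] [FiniteDimensional K0 K]
  [Algebra R K] [IsFractionRing R K] [Algebra R E] [IsScalarTower R K E]

/-- **(H) for the local base.** If `E` is unramified over the discrete valuation ring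
`R_p ∩ K0` of the small field `K0`, then the normalisation of `R` in `E` is unramified over `R` at
every nonzero prime above the height-one prime `p`. -/
theorem ssm_thu_hH (p : Ideal R) [p.IsPrime] (hp : p.height = 1)
    (h : jt_UnramAt (ti_under K0 (el_bd_loc K p).toSubring) E)
    (P : Ideal (integralClosure R E)) [P.IsPrime] (hP0 : P ≠ ⊥) (hPp : P.under R = p) :
    Algebra.IsUnramifiedAt R P := by
  haveI hdvr : IsDiscreteValuationRing (el_bd_loc K p).toSubring := el_bd_loc_isDVR K p hp
  haveI hfr : IsFractionRing (el_bd_loc K p).toSubring K := el_bd_loc_isFractionRing K p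
  haveI : Algebra.IsAlgebraic K0 K := Algebra.IsAlgebraic.of_finite K0 K
  haveI : IsDiscreteValuationRing (ti_under K0 (el_bd_loc K p).toSubring) :=
    ti_under_isDVR K0 (el_bd_loc K p).toSubring
  haveI : IsFractionRing (ti_under K0 (el_bd_loc K p).toSubring) K0 :=
    ti_under_isFractionRing K0 (el_bd_loc K p).toSubring
  have h2 : jt_UnramAt (el_bd_loc K p).toSubring E :=
    ssm_thu_baseUp (ti_under K0 (el_bd_loc K p).toSubring) K E (el_bd_loc K p).toSubring
      (fun v => v.2) h
  have h3 : jt_Unram (el_bd_loc K p) E := h2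
  exact el_sm_unramAt_of_unram K E p h3 P hP0 hPp

end HH

section Main

open Polynomial

variable {S : Type*} [CommRing S] [IsDomain S] [IsLocalRing S] [IsNoetherianRing S]
  [IsIntegrallyClosed S]
  (K0 K E : Type*) [Field K0] [CharZero K0] [Field K] [Field E] [Algebra K0 K] [Algebra K E]
  [Algebra K0 E] [IsScalarTower K0 K E] [FiniteDimensional K0 K]
  [Algebra S K] [IsFractionRing S K] [Algebra S E] [IsScalarTower S K E] [FiniteDimensional K E]
  [IsLocalRing (integralClosure S E)]

/-- **[TH-A] + (T4), final form for `C := integralClosure S E`.** The crossing-point data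
`ssm_tha_Data`, a monic `F ∈ S[X]` of degree `q + 1` killing `v`, and horizontal unramifiedness of
`E` over the discrete valuation rings `S_p ∩ K0` (`p` of height one, `q ∉ p`) of the small field
`K0` (e.g. `K0 = L(λ)`, `lgr_hH`) give the regularity of `C` at the node. -/
theorem ssm_thu_main {q₀ : ℕ} {t : S} {v : integralClosure S E}
    {P1 P2 : Ideal (integralClosure S E)} [P1.IsPrime] [P2.IsPrime]
    (D : ssm_tha_Data q₀ t v P1 P2)
    (F : S[X]) (hF : F.Monic) (hdeg : F.natDegree = q₀ + 1) (hFv : aeval v F = 0)
    (hunr : ∀ (p : Ideal S) [p.IsPrime], p.height = 1 → (q₀ : S) ∉ p →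
      jt_UnramAt (ti_under K0 (el_bd_loc K p).toSubring) E) :
    ∃ u v' : integralClosure S E, u * v' = algebraMap S (integralClosure S E) (q₀ : S) ∧
      P2 = Ideal.span {u} ∧ P1 = Ideal.span {v'} ∧
      IsLocalRing.maximalIdeal (integralClosure S E) = Ideal.span {u, v'} ∧
      u = aeval v (derivative F) ∧
      (∃ b : S, IsUnit b ∧ u + algebraMap S (integralClosure S E) b *
        algebraMap S (integralClosure S E) t ∈ P1) ∧
      ∃ h : integralClosure S E, IsUnit h ∧ v = v' * h := by
  haveI : CharZero K := charZero_of_injective_algebraMap (algebraMap K0 K).injective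
  haveI : CharZero S := RingHom.charZero (algebraMap S K)
  haveI : Algebra.IsSeparable K E := inferInstance
  haveI : Module.Finite S (integralClosure S E) := IsIntegralClosure.finite S K E _
  haveI : IsIntegrallyClosed (integralClosure S E) :=
    integralClosure.isIntegrallyClosedOfFiniteExtension K
  haveI := el_sm_isTorsionFree (R := S) K E
  haveI := el_sm_isSeparable (R := S) K E
  obtain ⟨b, hb⟩ := D.mono F hF hdeg hFv
  have hq : Prime (q₀ : S) := by
    refine ⟨?_, ?_, fun a c h => D.dvd_or h⟩
    · intro h0
      apply D.hq0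
      rw [h0, map_zero]
    · intro hu
      exact (IsLocalRing.notMem_maximalIdeal.2 hu) D.q_mem
  apply D.main F hF hdeg hFv
  refine ssm_thd_T4 (q₀ + 1) b v hb F hF hdeg hFv (q₀ : S) hq ?_
  intro 𝔭 h𝔭 h1 hq𝔭
  haveI := h𝔭
  refine el_discr_notMem_of_isUnramifiedAt b 𝔭 h1 ?_
  intro P hP hPp
  haveI := hP
  have hP0 : P ≠ ⊥ := by
    intro h0
    have hne : 𝔭 ≠ ⊥ := Ideal.ne_bot_of_height_eq_one h1
    apply hne
    rw [← hPp, h0]
    ext x
    simp only [Ideal.under, Ideal.mem_comap, Ideal.mem_bot]
    constructor
    · intro hx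
      exact (el_sm_algebraMap_injective (R := S) K E) (by rw [hx, map_zero])
    · intro hx
      rw [hx, map_zero]
  exact ssm_thu_hH K0 K E 𝔭 h1 (hunr 𝔭 h1 hq𝔭) P hP0 hPp

end Main

end Fermat.Agent.SS
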