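/-
Project SS (S34), cell [M] (model), leaf [AL], complement (request of #1857 (1)): BASE CHANGE of the
Atkin–Lehner involution.  For fields `L₀, L ⊆ Q̄` of characteristic zero and ANY ring homomorphism
`f : L₀ →+* L`, the coefficientwise map `coeffMap f` sends `F_N(L₀)` into `F_N(L)` and `lg_E L₀ N` into
`lg_E L N`, and commutes with the involutions:

  `W_L (coeffMap f x) = coeffMap f (W_{L₀} x)`   (`ssm_al_W_bc`, `ssm_al_coe_WE_bc`).

(Both are ring homomorphisms out of `L₀(j(X^d) : d ∣ M q)` which agree on `L₀` and on the generators.)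

Prefix `ssm_al_`.
-/
import Mathlib
import Fermat.Agent.SS.Model.ALE

set_option autoImplicit false
set_option linter.unusedSectionVars false
set_option linter.unusedVariables false

noncomputable section

open ModularCurve IntermediateField
open Fermat.Agent.JT3 Fermat.Agent.S24 Fermat.Agent.S28

namespace Fermat.Agent.SS

section BC

variable {L₀ L : Type*} [Field L₀] [CharZero L₀] [Algebra L₀ (AlgebraicClosure ℚ)]
  [Field L] [CharZero L] [Algebra L (AlgebraicClosure ℚ)] (f : L₀ →+* L)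
  (M q : ℕ) [NeZero M] [NeZero q] (hq : q.Prime) (hqM : ¬ q ∣ M)

/-- `coeffMap f` restricted to the level-`N` fields -/
def ssm_al_bcF (N : ℕ) [NeZero N] : lg_F L₀ N →+* lg_F L N where
  toFun x := ⟨coeffMap f x, ssm_al_coeffMap_mem f N x.2⟩
  map_one' := Subtype.ext (map_one _)
  map_mul' _ _ := Subtype.ext (map_mul _ _ _)
  map_zero' := Subtype.ext (map_zero _)
  map_add' _ _ := Subtype.ext (map_add _ _ _)

theorem ssm_al_coe_bcF (N : ℕ) [NeZero N] (x : lg_F L₀ N) :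
    ((ssm_al_bcF f N x : lg_F L N) : LaurentSeries L) = coeffMap f (x : LaurentSeries L₀) := rfl

theorem ssm_al_bcF_algebraMap (N : ℕ) [NeZero N] (c : L₀) :
    ssm_al_bcF f N (algebraMap L₀ (lg_F L₀ N) c) = algebraMap L (lg_F L N) (f c) :=
  Subtype.ext (bd_coeffMap_algebraMap f c)

theorem ssm_al_W_bc_of_mem {x : LaurentSeries L₀} (hx : x ∈ lg_F L₀ M)
    (h : x ∈ lg_F L₀ (M * q)) :
    ssm_al_W L M q hq hqM (ssm_al_bcF f (M * q) ⟨x, h⟩) =
      ssm_al_bcF f (M * q) (ssm_al_W L₀ M q hq hqM ⟨x, h⟩) := by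
  apply Subtype.ext
  have hσ : coeffMap f x ∈ lg_F L M := ssm_al_coeffMap_mem f M hx
  rw [ssm_al_coe_bcF, ssm_al_coe_W_of_mem L₀ M q hq hqM hx h]
  have e : ssm_al_bcF f (M * q) ⟨x, h⟩ = ⟨coeffMap f x, ssm_al_mem_of_mem L M q hσ⟩ := rfl
  rw [e, ssm_al_coe_W_of_mem L M q hq hqM hσ, coeffMap_qExpand]

theorem ssm_al_W_bc_expand_of_mem {x : LaurentSeries L₀} (hx : x ∈ lg_F L₀ M)
    (h : qExpand L₀ q x ∈ lg_F L₀ (M * q)) :
    ssm_al_W L M q hq hqM (ssm_al_bcF f (M * q) ⟨qExpand L₀ q x, h⟩) =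
      ssm_al_bcF f (M * q) (ssm_al_W L₀ M q hq hqM ⟨qExpand L₀ q x, h⟩) := by
  apply Subtype.ext
  have hσ : coeffMap f x ∈ lg_F L M := ssm_al_coeffMap_mem f M hx
  rw [ssm_al_coe_bcF, ssm_al_coe_W_expand_of_mem L₀ M q hq hqM hx h]
  have e : ssm_al_bcF f (M * q) ⟨qExpand L₀ q x, h⟩ =
      ⟨qExpand L q (coeffMap f x), ssm_al_expand_mem L M q hσ⟩ :=
    Subtype.ext (coeffMap_qExpand f q x)
  rw [e, ssm_al_coe_W_expand_of_mem L M q hq hqM hσ]

/-- **base change**: `W_L ∘ coeffMap f = coeffMap f ∘ W_{L₀}` on `F_{M q}(L₀)`, for every ring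
homomorphism `f : L₀ →+* L`. -/
theorem ssm_al_W_bc (x : lg_F L₀ (M * q)) :
    ssm_al_W L M q hq hqM (ssm_al_bcF f (M * q) x) =
      ssm_al_bcF f (M * q) (ssm_al_W L₀ M q hq hqM x) := by
  have key : ((ssm_al_W L M q hq hqM : lg_F L (M * q) →+* lg_F L (M * q)).comp
        (ssm_al_bcF f (M * q)) :
        IntermediateField.adjoin L₀ (divisorExpansionsC L₀ (M * q)) →+* lg_F L (M * q)) =
      (ssm_al_bcF f (M * q)).comp
        (ssm_al_W L₀ M q hq hqM : lg_F L₀ (M * q) →+* lg_F L₀ (M * q)) := by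
    refine ssm_al_ringHom_ext (divisorExpansionsC L₀ (M * q)) _ _ (fun c => ?_) ?_
    · change ssm_al_W L M q hq hqM
          (ssm_al_bcF f (M * q) (algebraMap L₀ (lg_F L₀ (M * q)) c)) =
        ssm_al_bcF f (M * q)
          (ssm_al_W L₀ M q hq hqM (algebraMap L₀ (lg_F L₀ (M * q)) c))
      rw [ssm_al_bcF_algebraMap, AlgEquiv.commutes, AlgEquiv.commutes, ssm_al_bcF_algebraMap]
    · rintro _ ⟨d, hd, hdN, rfl⟩
      have := hd
      rcases nls_dvd_cases hq hqM hdN with hdM | ⟨e, rfl, heM⟩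
      · exact ssm_al_W_bc_of_mem f M q hq hqM (jqModCd_mem_full L₀ M hdM) _
      · have he0 : NeZero e := ⟨fun h0 => by subst h0; exact NeZero.ne (q * 0) (by simp)⟩
        have hm : qExpand L₀ e (jqModC L₀) ∈ lg_F L₀ M := jqModCd_mem_full L₀ M heM
        have e1 : qExpand L₀ (q * e) (jqModC L₀) = qExpand L₀ q (qExpand L₀ e (jqModC L₀)) := by
          rw [qExpand_qExpand]
        have e2 : (⟨qExpand L₀ (q * e) (jqModC L₀), jqModCd_mem_full L₀ (M * q) hdN⟩ :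
            lg_F L₀ (M * q)) =
            ⟨qExpand L₀ q (qExpand L₀ e (jqModC L₀)), ssm_al_expand_mem L₀ M q hm⟩ :=
          Subtype.ext e1
        change ssm_al_W L M q hq hqM (ssm_al_bcF f (M * q)
            ⟨qExpand L₀ (q * e) (jqModC L₀), jqModCd_mem_full L₀ (M * q) hdN⟩) =
          ssm_al_bcF f (M * q) (ssm_al_W L₀ M q hq hqM
            ⟨qExpand L₀ (q * e) (jqModC L₀), jqModCd_mem_full L₀ (M * q) hdN⟩)
        rw [e2]
        exact ssm_al_W_bc_expand_of_mem f M q hq hqM hm _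
  exact DFunLike.congr_fun key x

/-- coercion form, arbitrary membership proof -/
theorem ssm_al_coe_W_bc (x : lg_F L₀ (M * q))
    (h : coeffMap f (x : LaurentSeries L₀) ∈ lg_F L (M * q)) :
    ((ssm_al_W L M q hq hqM ⟨coeffMap f (x : LaurentSeries L₀), h⟩ : lg_F L (M * q)) :
        LaurentSeries L) =
      coeffMap f ((ssm_al_W L₀ M q hq hqM x : lg_F L₀ (M * q)) : LaurentSeries L₀) :=
  congrArg Subtype.val (ssm_al_W_bc f M q hq hqM x)

end BC

section BCE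

variable {L₀ L : Type*} [Field L₀] [CharZero L₀] [Algebra L₀ (AlgebraicClosure ℚ)]
  [Field L] [CharZero L] [Algebra L (AlgebraicClosure ℚ)] (f : L₀ →+* L)
  (N' q : ℕ) [NeZero N'] [NeZero q] (hq : q.Prime) (hq2 : ¬ 2 ∣ q) (hqN' : ¬ q ∣ N')

omit [Algebra L₀ (AlgebraicClosure ℚ)] [Algebra L (AlgebraicClosure ℚ)] in
/-- `coeffMap f` maps `lg_E L₀ N` into `lg_E L N`. -/
theorem ssm_al_coeffMap_mem_E_bc (N : ℕ) [NeZero N] {x : LaurentSeries L₀}
    (hx : x ∈ lg_E L₀ N) : coeffMap f x ∈ lg_E L N := by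
  have e₀ := ssm_f4 L₀ N
  have e := ssm_f4 L N
  rw [e₀] at hx
  rw [e]
  exact ssm_al_coeffMap_mem f _ hx

/-- **base change on the rigidified field**: `W_E^L (coeffMap f x) = coeffMap f (W_E^{L₀} x)`. -/
theorem ssm_al_coe_WE_bc (x : lg_E L₀ (N' * q))
    (h : coeffMap f (x : LaurentSeries L₀) ∈ lg_E L (N' * q)) :
    ((ssm_al_WE L N' q hq hq2 hqN' ⟨coeffMap f (x : LaurentSeries L₀), h⟩ : lg_E L (N' * q)) :
        LaurentSeries L) =
      coeffMap f ((ssm_al_WE L₀ N' q hq hq2 hqN' x : lg_E L₀ (N' * q)) : LaurentSeries L₀) := by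
  rw [ssm_al_coe_WE]
  have h1 := ssm_al_coe_WE L₀ N' q hq hq2 hqN' (x : LaurentSeries L₀) x.2
  have h2 : ((ssm_al_WE L₀ N' q hq hq2 hqN' x : lg_E L₀ (N' * q)) : LaurentSeries L₀) =
      ((ssm_al_W L₀ (ssm_f4_level N') q hq (ssm_al_not_dvd_level N' q hq hq2 hqN')
        ⟨x, ssm_al_mem_F_of_mem_E L₀ N' q hq2 x.2⟩ : lg_F L₀ (ssm_f4_level N' * q)) :
          LaurentSeries L₀) := h1
  rw [h2]
  exact ssm_al_coe_W_bc f (ssm_f4_level N') q hq _
    ⟨x, ssm_al_mem_F_of_mem_E L₀ N' q hq2 x.2⟩ _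

end BCE

end Fermat.Agent.SS
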