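/-
Project SS (S34), end wiring, placeholder (P2) of the SS architect's ruling #2036 (helper20): the
family of Hesse cover fields `L1 ↦ hs_E L1 h3 N` is stable under the coefficientwise action of ring
endomorphisms of `L1` (`ssm_sgh_mem`), in helper10's `ss_nf_Stable` shape.
-/
import Mathlib
import Fermat.Agent.SS.CoreNFLeg
import Fermat.Agent.SS.Model.SigmaHesse

set_option autoImplicit false

noncomputable section

namespace Fermat.Agent.SS

open Fermat.Agent.JT3

/-- **(P2)**: the Hesse family is stable. -/
theorem ssm_sgh_stable (N : ℕ) [NeZero N] :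
    ss_nf_Stable fun L1 => hs_E ↥L1 (three_ne_zero : (3 : ↥L1) ≠ 0) N :=
  fun _ φ _ hz => ssm_sgh_mem _ N φ hz

end Fermat.Agent.SS
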