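/-
SS [M], final instantiation (HESSE cover, coordinate `x = μ - 1`, "Option M"): THE MODEL OVER A
NUMBER FIELD — the Hesse twin of `FinalLegNF.lean`.

`L ⊆ Q̄` a number field containing a primitive `3N'`-th root of unity, `O` a discrete valuation ring
of `L` of residue characteristic `q ≠ 3`, `q ∤ N'`, `σ` inert at `O`.  All clauses of the
two-component model of `E = hs_E L h3 (N' q)` over `(O, μ - 1)` are discharged except the node
clause `hnode` ([ND]-H):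

* `ssm_fhn_isUnit_three`  : `3 ∈ Oˣ`;
* `ssm_fhn_model_of_node` : `ss_Model π (μ - 1) σ_E σ_O P1 P2` from `hnode`;
* `ssm_fhn_NodeHyp`       : the ∀-closure of the node clause (the output shape of [ND]-H);
* `ssm_fhn_modelNF`       : **(P3)** `ssm_fhn_NodeHyp → ss_nf_ModelNF 2 (L1 ↦ hs_E L1 _ N) _` for
  `2 ∣ N`, `¬ 4 ∣ N` (the input of helper10's `ss_nfh_coreNFH_of`);
* `ssm_fhn_coreNFH`       : `ssm_fhn_NodeHyp → ∀ N, 2 ∣ N → ¬ 2 ^ 2 ∣ N → ss_CoreNFH N 2` (the argument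
  `hTwo` of `ss_S34_of_core`).

Prefix `ssm_fhn_`.
-/
import Mathlib
import Fermat.Agent.SS.Model.SmoothInstHesse
import Fermat.Agent.SS.Model.HesLevelRam
import Fermat.Agent.SS.Model.SigmaHesseNF

set_option autoImplicit false
set_option linter.style.haveILetI false
set_option linter.unusedSectionVars false
set_option linter.unusedVariables false

noncomputable section

namespace Fermat.Agent.SS

open Fermat.Agent.JT3 IntermediateField ModularCurve IsLocalRing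

local notation "Qb" => AlgebraicClosure ℚ

section NF

variable (L : Type) [Field L] [NumberField L] [Algebra L (AlgebraicClosure ℚ)]
  (h3 : (3 : L) ≠ 0) (O : ValuationSubring L) [IsDiscreteValuationRing O] {π : O}
  (hπ : Irreducible π)
variable (N' q : ℕ) [NeZero N'] [NeZero q] [hq : Fact q.Prime] [CharP (ResidueField O) q]
  (hq3 : ¬ 3 ∣ q) (hqN' : ¬ q ∣ N') (ζ : L) (hζ : IsPrimitiveRoot ζ (3 * N'))
  (σ : L ≃+* L) (hσ : ss_Inert O σ)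

omit [NumberField L] [Algebra L (AlgebraicClosure ℚ)] [IsDiscreteValuationRing ↥O] [NeZero q] in
include hq3 in
/-- `3 ∈ Oˣ`. -/
theorem ssm_fhn_isUnit_three : IsUnit (3 : O) := by
  have hqO : ((q : ℕ) : O) ∈ maximalIdeal O := by
    rw [← residue_eq_zero_iff, map_natCast]
    exact CharP.cast_eq_zero _ q
  have hcop : Nat.Coprime 3 q :=
    ((Nat.Prime.coprime_iff_not_dvd Nat.prime_three).2 hq3)
  have := lg_isUnit_natCast hqO hcop
  simpa using this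

include hζ in
set_option synthInstance.maxHeartbeats 200000 in
set_option maxHeartbeats 1600000 in
/-- **the Hesse model from the node clause.** -/
theorem ssm_fhn_model_of_node (h3O : IsUnit (3 : O))
    (hE : ∀ z ∈ hs_E L h3 (N' * q), coeffMap (σ : L →+* L) z ∈ hs_E L h3 (N' * q))
    (hE' : ∀ z ∈ hs_E L h3 (N' * q), coeffMap (σ.symm : L →+* L) z ∈ hs_E L h3 (N' * q))
    (h : ∀ z ∈ O, σ z ∈ O) (h' : ∀ z ∈ O, σ.symm z ∈ O)
    (hnode : ∀ 𝔫 : Ideal (fc_chart ↥O ({hs_muE h3 (N' * q) - 1} : Set ↥(hs_E L h3 (N' * q)))),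
      𝔫.IsMaximal →
      ssm_tp_P (fc_chart ↥O ({hs_muE h3 (N' * q) - 1} : Set ↥(hs_E L h3 (N' * q))))
        (ssm_fh_V1 h3 O h3O hπ N' q) ≤ 𝔫 →
      ssm_tp_P (fc_chart ↥O ({hs_muE h3 (N' * q) - 1} : Set ↥(hs_E L h3 (N' * q))))
        (ssm_fh_V2 h3 O h3O hπ N' q hq3 hqN') ≤ 𝔫 →
      ss_NodeAt π (ssm_sgh_aut h3 (N' * q) σ) (ssm_sg_base O σ hσ)
        (fc_chart1_le (hs_muE h3 (N' * q) - 1))
        (ssm_tp_P (fc_chart ↥O ({hs_muE h3 (N' * q) - 1, (hs_muE h3 (N' * q) - 1)⁻¹} :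
          Set ↥(hs_E L h3 (N' * q)))) (ssm_fh_V1 h3 O h3O hπ N' q))
        (ssm_tp_P (fc_chart ↥O ({hs_muE h3 (N' * q) - 1, (hs_muE h3 (N' * q) - 1)⁻¹} :
          Set ↥(hs_E L h3 (N' * q)))) (ssm_fh_V2 h3 O h3O hπ N' q hq3 hqN')) 𝔫) :
    ss_Model π (hs_muE h3 (N' * q) - 1) (ss_sigmaE σ (hs_E L h3 (N' * q)) hE hE')
      (ss_sigmaO O σ h h')
      (ssm_tp_P (fc_chart ↥O ({hs_muE h3 (N' * q) - 1, (hs_muE h3 (N' * q) - 1)⁻¹} :
        Set ↥(hs_E L h3 (N' * q)))) (ssm_fh_V1 h3 O h3O hπ N' q))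
      (ssm_tp_P (fc_chart ↥O ({hs_muE h3 (N' * q) - 1, (hs_muE h3 (N' * q) - 1)⁻¹} :
        Set ↥(hs_E L h3 (N' * q)))) (ssm_fh_V2 h3 O h3O hπ N' q hq3 hqN')) := by
  have hqO : ((q : ℕ) : O) ∈ maximalIdeal O := by
    rw [← residue_eq_zero_iff, map_natCast]
    exact CharP.cast_eq_zero _ q
  have hq3' : q ≠ 3 := by
    rintro rfl
    exact hq3 dvd_rfl
  obtain ⟨hreg1, hreg2, hprime1, hprime2, -, hded1, hded2⟩ :=
    ssm_hlr_main h3 O N' hπ q hqO hq3' hqN' ζ hζ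
  have hic1 : IsIntegrallyClosed (fc_chart ↥O ({hs_muE h3 N' - 1} : Set ↥(hs_E L h3 N')) ⧸
      (Ideal.span {algebraMap ↥O (fc_chart ↥O ({hs_muE h3 N' - 1} : Set ↥(hs_E L h3 N'))) π} :
        Ideal (fc_chart ↥O ({hs_muE h3 N' - 1} : Set ↥(hs_E L h3 N'))))) := by
    haveI := hded1
    infer_instance
  have hic2 : IsIntegrallyClosed (fc_chart ↥O ({(hs_muE h3 N' - 1)⁻¹} : Set ↥(hs_E L h3 N')) ⧸
      (Ideal.span {algebraMap ↥O
          (fc_chart ↥O ({(hs_muE h3 N' - 1)⁻¹} : Set ↥(hs_E L h3 N'))) π} :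
        Ideal (fc_chart ↥O ({(hs_muE h3 N' - 1)⁻¹} : Set ↥(hs_E L h3 N'))))) := by
    haveI := hded2
    infer_instance
  exact ssm_sih_model_of h3 O h3O hπ N' q hq3 hqN' hprime1 hprime2 hic1 hic2 hreg1 hreg2 σ hσ
    hE hE' h h' hnode

end NF

/-- **the output shape of [ND]-H** (Hesse cover, coordinate `x = μ - 1`): the node clause at every
crossing point of the `x`-chart, over every number field `L ∋ ζ_{3N'}` with a discrete valuation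
ring `O` of residue characteristic `q ≠ 3`, `q ∤ N'`, and every `σ` inert at `O`. -/
def ssm_fhn_NodeHyp : Prop :=
  ∀ (L : Type) [Field L] [NumberField L] [Algebra L (AlgebraicClosure ℚ)] (h3 : (3 : L) ≠ 0)
    (O : ValuationSubring L) [IsDiscreteValuationRing O] (h3O : IsUnit (3 : O)) {π : O}
    (hπ : Irreducible π) (N' q : ℕ) [NeZero N'] [NeZero q]
    [Fact q.Prime] [CharP (ResidueField O) q] (hq3 : ¬ 3 ∣ q) (hqN' : ¬ q ∣ N')
    (ζ : L) (hζ : IsPrimitiveRoot ζ (3 * N')) (σ : L ≃+* L) (hσ : ss_Inert O σ)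
    (𝔫 : Ideal (fc_chart ↥O ({hs_muE h3 (N' * q) - 1} : Set ↥(hs_E L h3 (N' * q))))),
      𝔫.IsMaximal →
      ssm_tp_P (fc_chart ↥O ({hs_muE h3 (N' * q) - 1} : Set ↥(hs_E L h3 (N' * q))))
        (ssm_fh_V1 h3 O h3O hπ N' q) ≤ 𝔫 →
      ssm_tp_P (fc_chart ↥O ({hs_muE h3 (N' * q) - 1} : Set ↥(hs_E L h3 (N' * q))))
        (ssm_fh_V2 h3 O h3O hπ N' q hq3 hqN') ≤ 𝔫 →
      ss_NodeAt π (ssm_sgh_aut h3 (N' * q) σ) (ssm_sg_base O σ hσ)
        (fc_chart1_le (hs_muE h3 (N' * q) - 1))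
        (ssm_tp_P (fc_chart ↥O ({hs_muE h3 (N' * q) - 1, (hs_muE h3 (N' * q) - 1)⁻¹} :
          Set ↥(hs_E L h3 (N' * q)))) (ssm_fh_V1 h3 O h3O hπ N' q))
        (ssm_tp_P (fc_chart ↥O ({hs_muE h3 (N' * q) - 1, (hs_muE h3 (N' * q) - 1)⁻¹} :
          Set ↥(hs_E L h3 (N' * q)))) (ssm_fh_V2 h3 O h3O hπ N' q hq3 hqN')) 𝔫

set_option synthInstance.maxHeartbeats 200000 in
set_option maxHeartbeats 1600000 in
/-- **(P3) from [ND]-H**: the input `hM` of `ss_nfh_coreNFH_of` at `q = 2`, for `2 ‖ N`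
(`T = {ζ_{3N/2}}`, coordinate `x = μ - 1`). -/
theorem ssm_fhn_modelNF (hnode : ssm_fhn_NodeHyp) (N : ℕ) [NeZero N] (h2 : 2 ∣ N)
    (h4 : ¬ 2 ^ 2 ∣ N) :
    ss_nf_ModelNF 2 (fun L1 => hs_E ↥L1 (three_ne_zero : (3 : ↥L1) ≠ 0) N) (ssm_sgh_stable N) := by
  obtain ⟨N', hN'⟩ := h2
  rw [mul_comm] at hN'
  subst hN'
  haveI : Fact (2 : ℕ).Prime := ⟨Nat.prime_two⟩
  haveI : NeZero N' := ⟨fun h0 => NeZero.ne (N' * 2) (by rw [h0, zero_mul])⟩
  have hq3 : ¬ 3 ∣ 2 := by norm_num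
  have hqN' : ¬ 2 ∣ N' := by
    rintro ⟨c, rfl⟩
    exact h4 ⟨c, by ring⟩
  -- a primitive `3N'`-th root of unity of `Q̄`
  haveI : NeZero (3 * N') := ⟨Nat.mul_ne_zero (by norm_num) (NeZero.ne N')⟩
  obtain ⟨ζ', hζ'⟩ := HasEnoughRootsOfUnity.exists_primitiveRoot Qb (3 * N')
  intro A hA
  refine ⟨{ζ'}, fun L1 hfd hn hT σ hin => ?_⟩
  intro _ _ _ π hπ h h'
  have hζmem : ζ' ∈ L1 := hT (by simp)
  have hζ : IsPrimitiveRoot (⟨ζ', hζmem⟩ : ↥L1) (3 * N') :=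
    (IsPrimitiveRoot.map_iff_of_injective (f := algebraMap ↥L1 Qb)
      (FaithfulSMul.algebraMap_injective ↥L1 Qb)).1 hζ'
  have h3O : IsUnit (3 : ↥(A.comap (algebraMap ↥L1 Qb))) :=
    ssm_fhn_isUnit_three ↥L1 (A.comap (algebraMap ↥L1 Qb)) 2 hq3
  exact ⟨hs_muE (three_ne_zero : (3 : ↥L1) ≠ 0) (N' * 2) - 1,
    ssm_sgm_transcendental _ (N' * 2), ssm_glh_finite _ (N' * 2), _, _,
    ssm_fhn_model_of_node ↥L1 three_ne_zero (A.comap (algebraMap ↥L1 Qb)) hπ N' 2 hq3 hqN'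
      ⟨ζ', hζmem⟩ hζ σ.toRingEquiv hin h3O _ _ h h'
      (hnode ↥L1 three_ne_zero (A.comap (algebraMap ↥L1 Qb)) h3O hπ N' 2 hq3 hqN' ⟨ζ', hζmem⟩ hζ
        σ.toRingEquiv hin)⟩

/-- **`hTwo` of `ss_S34_of_core` from [ND]-H.** -/
theorem ssm_fhn_coreNFH (hnode : ssm_fhn_NodeHyp) (N : ℕ) [NeZero N] (h2 : 2 ∣ N)
    (h4 : ¬ 2 ^ 2 ∣ N) : ss_CoreNFH N 2 :=
  ss_nfh_coreNFH_of N Nat.prime_two (ssm_sgh_stable N) (ssm_fhn_modelNF hnode N h2 h4)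

end Fermat.Agent.SS
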