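/-
Project SS (S34), cell [M] (model), leaf [AL], instances for [CF]: the three genus-zero bases

  `F_1(L) = L(j)`,   `F_2(L) = L(t₂)`,   `F_4(L) = L(t₄)`   (`2 ≠ 0` in `L` for the last one),

the degree `[F_{M q}(L) : L(t)] = q + 1` in the form `Module.finrank L⟮t⟯ K1` with
`K1 = ↥(lg_F L (M q))` and `t : K1` (the shape consumed by `ssm_cf_abs` / `ssm_cf_polePair_of_sub`),
and the compatibility of the involution of `E = lg_E L (N' q)` with `φ = (X ↦ X²)`:
`W_E (x(X²)) = (W_{N'} x)(X²)` for `x ∈ F_{N' q}(L)`, so `W_E` preserves `φ F_{N' q}`.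

Prefix `ssm_al_`.
-/
import Mathlib
import Fermat.Agent.SS.Model.ALE

set_option autoImplicit false
set_option linter.unusedSectionVars false
set_option linter.unusedVariables false

noncomputable section

open ModularCurve IntermediateField
open Fermat.Agent.JT3 Fermat.Agent.S24 Fermat.Agent.S28

namespace Fermat.Agent.SS

/-! ### genus-zero bases -/

section Bases

variable (L : Type*) [Field L]

/-- `F_1(L) = L(j)`. -/
theorem ssm_al_F1_eq : modularFunctionFieldFullC L 1 = L⟮jqModC L⟯ := by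
  apply le_antisymm
  · rw [modularFunctionFieldFullC, IntermediateField.adjoin_le_iff]
    rintro _ ⟨d, hd, hd1, rfl⟩
    rw [Nat.dvd_one] at hd1
    subst hd1
    rw [SetLike.mem_coe, qExpand_one_apply]
    exact IntermediateField.mem_adjoin_simple_self L _
  · rw [IntermediateField.adjoin_simple_le_iff]
    exact jqModC_mem_full L 1

/-- `F_2(L) = L(t₂)`. -/
theorem ssm_al_F2_eq : modularFunctionFieldFullC L 2 = L⟮hm_t2 L⟯ := by
  have ht0 := ssm_f4_t2_ne_zero L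
  have hn : ∀ n : ℕ, (n : LaurentSeries L) ∈ L⟮hm_t2 L⟯ := fun n => _root_.natCast_mem _ n
  have h16 : (16 : LaurentSeries L) ∈ L⟮hm_t2 L⟯ := by exact_mod_cast hn 16
  have h256 : (256 : LaurentSeries L) ∈ L⟮hm_t2 L⟯ := by exact_mod_cast hn 256
  have ht : hm_t2 L ∈ L⟮hm_t2 L⟯ := IntermediateField.mem_adjoin_simple_self L _
  apply le_antisymm
  · rw [modularFunctionFieldFullC, IntermediateField.adjoin_le_iff]
    rintro _ ⟨d, hd, hd2, rfl⟩
    rcases (Nat.dvd_prime Nat.prime_two).1 hd2 with rfl | rfl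
    · rw [SetLike.mem_coe, qExpand_one_apply]
      have hj : jqModC L = (hm_t2 L + 256) ^ 3 / hm_t2 L ^ 2 := by
        rw [eq_div_iff (pow_ne_zero 2 ht0)]; exact hm_t2_id1 L
      rw [hj]
      exact div_mem (pow_mem (add_mem ht h256) 3) (pow_mem ht 2)
    · have hj : qExpand L 2 (jqModC L) = (hm_t2 L + 16) ^ 3 / hm_t2 L := by
        rw [eq_div_iff ht0]; exact hm_t2_id2 L
      rw [SetLike.mem_coe, hj]
      exact div_mem (pow_mem (add_mem ht h16) 3) ht
  · rw [IntermediateField.adjoin_simple_le_iff]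
    exact ssm_f4_t2_mem _ _ _ _ ht0 (hm_t2_id1 L) (hm_t2_id2 L)
      (ssm_f4_det_ne_zero (by rw [ssm_f4_order_j]; norm_num)
        (by rw [ssm_f4_order_j2]; norm_num))
      (jqModC_mem_full L 2) (jqModCd_mem_full L 2 dvd_rfl)

variable {L}

/-- `L(λ) = L(t₄)` when `2 ≠ 0`. -/
theorem ssm_al_K_eq (h2 : (2 : L) ≠ 0) : lg_K L = L⟮hm_t4 L⟯ := by
  apply le_antisymm
  · rw [lg_K, IntermediateField.adjoin_simple_le_iff]
    have hu : hm_t4 L + 16 ≠ 0 := (hm_isUnit_t4_add L).ne_zero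
    have hl : lg_lam L = 16 / (hm_t4 L + 16) := by
      rw [eq_div_iff hu]; exact hm_lam_mul L
    rw [hl]
    have h16 : (16 : LaurentSeries L) ∈ L⟮hm_t4 L⟯ := by
      exact_mod_cast _root_.natCast_mem (L⟮hm_t4 L⟯) 16
    exact div_mem h16 (add_mem (IntermediateField.mem_adjoin_simple_self L _) h16)
  · rw [IntermediateField.adjoin_simple_le_iff]
    exact ssm_f4_t4_mem_K h2

/-- `F_4(L) = L(t₄)` when `2 ≠ 0`. -/
theorem ssm_al_F4_eq (h2 : (2 : L) ≠ 0) : modularFunctionFieldFullC L 4 = L⟮hm_t4 L⟯ := by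
  rw [← ssm_f4_K h2, ssm_al_K_eq h2]

end Bases

/-! ### the degree over a simple base, in `finrank L⟮t⟯ K1` form -/

section Simple

variable (L : Type*) [Field L] [CharZero L] (M q : ℕ) [NeZero M] [NeZero q]

theorem ssm_al_sub_eq_adjoin {t : LaurentSeries L} (ht : modularFunctionFieldFullC L M = L⟮t⟯)
    (h : t ∈ modularFunctionFieldFullC L (M * q)) :
    ssm_al_sub L M q = L⟮(⟨t, h⟩ : modularFunctionFieldFullC L (M * q))⟯ := by
  apply IntermediateField.map_injective (modularFunctionFieldFullC L (M * q)).val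
  rw [ssm_al_sub, IntermediateField.map_comap_eq, IntermediateField.fieldRange_val,
    IntermediateField.adjoin_map, Set.image_singleton, inf_eq_left.mpr (ssm_al_F_le L M q), ht]
  rfl

/-- **`[F_{M q}(L) : L(t)] = q + 1`** if `F_M(L) = L(t)`. -/
theorem ssm_al_finrank_adjoin (hq : q.Prime) (hqM : ¬ q ∣ M) {t : LaurentSeries L}
    (ht : modularFunctionFieldFullC L M = L⟮t⟯) (h : t ∈ modularFunctionFieldFullC L (M * q)) :
    Module.finrank L⟮(⟨t, h⟩ : modularFunctionFieldFullC L (M * q))⟯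
      (modularFunctionFieldFullC L (M * q)) = q + 1 := by
  rw [← ssm_al_sub_eq_adjoin L M q ht h]
  exact ssm_al_finrank_sub L M q hq hqM

theorem ssm_al_finiteDimensional_adjoin (hq : q.Prime) (hqM : ¬ q ∣ M) {t : LaurentSeries L}
    (ht : modularFunctionFieldFullC L M = L⟮t⟯) (h : t ∈ modularFunctionFieldFullC L (M * q)) :
    FiniteDimensional L⟮(⟨t, h⟩ : modularFunctionFieldFullC L (M * q))⟯
      (modularFunctionFieldFullC L (M * q)) :=
  FiniteDimensional.of_finrank_pos (by rw [ssm_al_finrank_adjoin L M q hq hqM ht h]; omega)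

/-- the three instances consumed by [CF] (`q` an odd prime) -/
theorem ssm_al_not_dvd_four (hq : q.Prime) (hq2 : ¬ 2 ∣ q) : ¬ q ∣ 4 := by
  intro h
  have h4 : q ∣ 2 ^ 2 := by norm_num; exact h
  have := (Nat.prime_dvd_prime_iff_eq hq Nat.prime_two).1 (hq.dvd_of_dvd_pow h4)
  exact hq2 (by rw [this])

theorem ssm_al_not_dvd_two (hq : q.Prime) (hq2 : ¬ 2 ∣ q) : ¬ q ∣ 2 := by
  intro h
  have := (Nat.prime_dvd_prime_iff_eq hq Nat.prime_two).1 h
  exact hq2 (by rw [this])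

theorem ssm_al_not_dvd_one (hq : q.Prime) : ¬ q ∣ 1 := by
  intro h
  exact hq.one_lt.ne' (Nat.dvd_one.1 h)

theorem ssm_al_t4_mem : hm_t4 L ∈ modularFunctionFieldFullC L (4 * q) :=
  ssm_al_F_le L 4 q (ssm_f4_t4_mem_F4 L)

theorem ssm_al_t2_mem : hm_t2 L ∈ modularFunctionFieldFullC L (2 * q) := by
  have h : hm_t2 L ∈ modularFunctionFieldFullC L 2 := by
    rw [ssm_al_F2_eq]; exact IntermediateField.mem_adjoin_simple_self L _
  exact ssm_al_F_le L 2 q h

theorem ssm_al_j_mem : jqModC L ∈ modularFunctionFieldFullC L (1 * q) :=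
  jqModC_mem_full L (1 * q)

/-- `[F_{4q}(L) : L(t₄)] = q + 1`. -/
theorem ssm_al_finrank_t4 (hq : q.Prime) (hq2 : ¬ 2 ∣ q) :
    Module.finrank L⟮(⟨hm_t4 L, ssm_al_t4_mem L q⟩ : modularFunctionFieldFullC L (4 * q))⟯
      (modularFunctionFieldFullC L (4 * q)) = q + 1 :=
  ssm_al_finrank_adjoin L 4 q hq (ssm_al_not_dvd_four q hq hq2)
    (ssm_al_F4_eq (two_ne_zero)) _

/-- `[F_{2q}(L) : L(t₂)] = q + 1`. -/
theorem ssm_al_finrank_t2 (hq : q.Prime) (hq2 : ¬ 2 ∣ q) :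
    Module.finrank L⟮(⟨hm_t2 L, ssm_al_t2_mem L q⟩ : modularFunctionFieldFullC L (2 * q))⟯
      (modularFunctionFieldFullC L (2 * q)) = q + 1 :=
  ssm_al_finrank_adjoin L 2 q hq (ssm_al_not_dvd_two q hq hq2) (ssm_al_F2_eq L) _

/-- `[F_q(L) : L(j)] = q + 1`. -/
theorem ssm_al_finrank_j (hq : q.Prime) :
    Module.finrank L⟮(⟨jqModC L, ssm_al_j_mem L q⟩ : modularFunctionFieldFullC L (1 * q))⟯
      (modularFunctionFieldFullC L (1 * q)) = q + 1 :=
  ssm_al_finrank_adjoin L 1 q hq (ssm_al_not_dvd_one q hq) (ssm_al_F1_eq L) _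

end Simple

/-! ### compatibility with `φ = (X ↦ X²)` -/

section Phi

variable (L : Type*) [Field L] [CharZero L] [Algebra L (AlgebraicClosure ℚ)]
  (M₀ M q : ℕ) [NeZero M₀] [NeZero M] [NeZero q] (hq : q.Prime) (hqM₀ : ¬ q ∣ M₀) (hqM : ¬ q ∣ M)

theorem ssm_al_qExpand_comm (a b : ℕ) [NeZero a] [NeZero b] (y : LaurentSeries L) :
    qExpand L a (qExpand L b y) = qExpand L b (qExpand L a y) := by
  rw [qExpand_qExpand, qExpand_qExpand]
  exact qExpand_congr (mul_comm a b) y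

theorem ssm_al_phi_mem_base (h2 : 2 * M₀ ∣ M) {x : LaurentSeries L} (hx : x ∈ lg_F L M₀) :
    qExpand L 2 x ∈ lg_F L M := by
  have h1 : qExpand L 2 x ∈ lg_F L (M₀ * 2) := full_degeneracyC_map_le L M₀ 2 ⟨x, hx, rfl⟩
  exact full_degeneracyC_le L (by rwa [mul_comm]) h1

theorem ssm_al_phi_mem (h2 : 2 * M₀ ∣ M) {x : LaurentSeries L} (hx : x ∈ lg_F L (M₀ * q)) :
    qExpand L 2 x ∈ lg_F L (M * q) := by
  have h1 : qExpand L 2 x ∈ lg_F L (M₀ * q * 2) :=
    full_degeneracyC_map_le L (M₀ * q) 2 ⟨x, hx, rfl⟩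
  refine full_degeneracyC_le L ?_ h1
  obtain ⟨c, rfl⟩ := h2
  exact ⟨c, by ring⟩

/-- `φ : F_{M₀ q}(L) → F_{M q}(L)` for `2 M₀ ∣ M`. -/
def ssm_al_phiHom (h2 : 2 * M₀ ∣ M) : lg_F L (M₀ * q) →ₐ[L] lg_F L (M * q) where
  toFun x := ⟨qExpand L 2 x, ssm_al_phi_mem L M₀ M q h2 x.2⟩
  map_one' := Subtype.ext (map_one _)
  map_mul' _ _ := Subtype.ext (map_mul _ _ _)
  map_zero' := Subtype.ext (map_zero _)
  map_add' _ _ := Subtype.ext (map_add _ _ _)
  commutes' r := Subtype.ext (bd_qExpand_algebraMap 2 r)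

theorem ssm_al_coe_phiHom (h2 : 2 * M₀ ∣ M) (x : lg_F L (M₀ * q)) :
    ((ssm_al_phiHom L M₀ M q h2 x : lg_F L (M * q)) : LaurentSeries L) =
      qExpand L 2 (x : LaurentSeries L) := rfl

/-- **`W_M ∘ φ = φ ∘ W_{M₀}`** on `F_{M₀ q}(L)` (`2 M₀ ∣ M`). -/
theorem ssm_al_W_phi (h2 : 2 * M₀ ∣ M) (x : lg_F L (M₀ * q)) :
    ((ssm_al_W L M q hq hqM (ssm_al_phiHom L M₀ M q h2 x) : lg_F L (M * q)) : LaurentSeries L) =
      qExpand L 2 ((ssm_al_W L M₀ q hq hqM₀ x : lg_F L (M₀ * q)) : LaurentSeries L) := by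
  have key : ((lg_F L (M * q)).val.comp
        ((ssm_al_W L M q hq hqM : lg_F L (M * q) →ₐ[L] lg_F L (M * q)).comp
          (ssm_al_phiHom L M₀ M q h2))) =
      (qExpandAlgHomC L 2).comp ((lg_F L (M₀ * q)).val.comp
        (ssm_al_W L M₀ q hq hqM₀ : lg_F L (M₀ * q) →ₐ[L] lg_F L (M₀ * q))) := by
    refine IntermediateField.algHom_ext_of_eq_adjoin L (S := lg_F L (M₀ * q))
      (s := divisorExpansionsC L (M₀ * q)) rfl ?_
    rintro _ ⟨d, hd, hdN, rfl⟩
    have := hd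
    rcases nls_dvd_cases hq hqM₀ hdN with hdM | ⟨e, rfl, heM⟩
    · have hm : qExpand L d (jqModC L) ∈ lg_F L M₀ := jqModCd_mem_full L M₀ hdM
      have hφ := ssm_al_phi_mem_base L M₀ M h2 hm
      have h1 := ssm_al_coe_W_of_mem L M₀ q hq hqM₀ hm (jqModCd_mem_full L (M₀ * q) hdN)
      have h3 := ssm_al_coe_W_of_mem L M q hq hqM hφ
        (ssm_al_phi_mem L M₀ M q h2 (jqModCd_mem_full L (M₀ * q) hdN))
      change ((ssm_al_W L M q hq hqM ⟨qExpand L 2 (qExpand L d (jqModC L)), _⟩ :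
          lg_F L (M * q)) : LaurentSeries L) =
        qExpand L 2 ((ssm_al_W L M₀ q hq hqM₀ ⟨qExpand L d (jqModC L), _⟩ :
          lg_F L (M₀ * q)) : LaurentSeries L)
      rw [h1, h3, ssm_al_qExpand_comm L q 2]
    · have he0 : NeZero e := ⟨fun h0 => by subst h0; exact NeZero.ne (q * 0) (by simp)⟩
      have hm : qExpand L e (jqModC L) ∈ lg_F L M₀ := jqModCd_mem_full L M₀ heM
      have hφ := ssm_al_phi_mem_base L M₀ M h2 hm
      have e1 : qExpand L (q * e) (jqModC L) = qExpand L q (qExpand L e (jqModC L)) := by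
        rw [qExpand_qExpand]
      have e3 : qExpand L 2 (qExpand L (q * e) (jqModC L)) =
          qExpand L q (qExpand L 2 (qExpand L e (jqModC L))) := by
        rw [e1, ssm_al_qExpand_comm L 2 q]
      have hmem : qExpand L q (qExpand L e (jqModC L)) ∈ lg_F L (M₀ * q) :=
        ssm_al_expand_mem L M₀ q hm
      have h1 := ssm_al_coe_W_expand_of_mem L M₀ q hq hqM₀ hm hmem
      have h3 := ssm_al_coe_W_expand_of_mem L M q hq hqM hφ (ssm_al_expand_mem L M q hφ)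
      have e2 : (⟨qExpand L (q * e) (jqModC L), jqModCd_mem_full L (M₀ * q) hdN⟩ :
          lg_F L (M₀ * q)) = ⟨qExpand L q (qExpand L e (jqModC L)), hmem⟩ := Subtype.ext e1
      have e4 : ssm_al_phiHom L M₀ M q h2
          ⟨qExpand L (q * e) (jqModC L), jqModCd_mem_full L (M₀ * q) hdN⟩ =
          ⟨qExpand L q (qExpand L 2 (qExpand L e (jqModC L))), ssm_al_expand_mem L M q hφ⟩ :=
        Subtype.ext e3
      change ((ssm_al_W L M q hq hqM (ssm_al_phiHom L M₀ M q h2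
          ⟨qExpand L (q * e) (jqModC L), jqModCd_mem_full L (M₀ * q) hdN⟩) :
            lg_F L (M * q)) : LaurentSeries L) =
        qExpand L 2 ((ssm_al_W L M₀ q hq hqM₀
          ⟨qExpand L (q * e) (jqModC L), jqModCd_mem_full L (M₀ * q) hdN⟩ :
            lg_F L (M₀ * q)) : LaurentSeries L)
      rw [e4, e2, h1, h3]
  exact DFunLike.congr_fun key x

end Phi

section PhiE

variable (L : Type*) [Field L] [CharZero L] [Algebra L (AlgebraicClosure ℚ)]
  (N' q : ℕ) [NeZero N'] [NeZero q] (hq : q.Prime) (hq2 : ¬ 2 ∣ q) (hqN' : ¬ q ∣ N')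

/-- **`W_E (x(X²)) = (W_{N'} x)(X²)`** for `x ∈ F_{N' q}(L)`: on `φ F_{N' q}` the involution of
`E = lg_E L (N' q)` is the transport along `φ` of the Atkin–Lehner involution of `F_{N' q}`. -/
theorem ssm_al_coe_WE_phi (x : lg_F L (N' * q))
    (h : qExpand L 2 (x : LaurentSeries L) ∈ lg_E L (N' * q)) :
    ((ssm_al_WE L N' q hq hq2 hqN' ⟨qExpand L 2 (x : LaurentSeries L), h⟩ : lg_E L (N' * q)) :
        LaurentSeries L) =
      qExpand L 2 ((ssm_al_W L N' q hq hqN' x : lg_F L (N' * q)) : LaurentSeries L) := by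
  rw [ssm_al_coe_WE]
  exact ssm_al_W_phi L N' (ssm_f4_level N') q hq hqN' _ (ssm_f4_two_mul_dvd_level N') x

/-- `W_E` preserves `φ F_{N' q} = lg_F2 L (N' q)`. -/
theorem ssm_al_WE_mem_F2 {y : LaurentSeries L} (hy : y ∈ lg_F2 L (N' * q))
    (h : y ∈ lg_E L (N' * q)) :
    ((ssm_al_WE L N' q hq hq2 hqN' ⟨y, h⟩ : lg_E L (N' * q)) : LaurentSeries L) ∈
      lg_F2 L (N' * q) := by
  obtain ⟨x, hx, rfl⟩ := hy
  have hx' : x ∈ lg_F L (N' * q) := hx
  have e := ssm_al_coe_WE_phi L N' q hq hq2 hqN' ⟨x, hx'⟩ h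
  have key : ∀ z : LaurentSeries L,
      z = qExpand L 2 ((ssm_al_W L N' q hq hqN' ⟨x, hx'⟩ : lg_F L (N' * q)) : LaurentSeries L) →
        z ∈ lg_F2 L (N' * q) := by
    rintro _ rfl
    exact ⟨_, Subtype.mem _, rfl⟩
  exact key _ e

end PhiE

end Fermat.Agent.SS
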