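/-
Project SS (S34), cell [M], leaf [ASM], GENERAL-FACTS FORM (helper20): the assembly
`ssm_asm_model` (helper4) fed with the inputs at infinity taken from the GENERAL package
`ssm_i1g_Facts` of [I1]-gen (helper29: coordinate pair `(x, x_q)`, abstract middle pair
`(t, t_q)`), instead of the Legendre-shaped `ssm_i1_Facts`.  Cover-agnostic: it serves the Hesse
twin (`x = μ - 1`, `t = μ² + μ + 1`) and the Legendre cover (`t = λ - 1`) alike.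

* `ssm_asmg_inf_of_facts` : `hWB hw hw' hsub` of [INF] from `ssm_i1g_Facts`;
* `ssm_asmg_model_of_facts` : the model.
Prefix `ssm_asmg_`.
-/
import Mathlib
import Fermat.Agent.SS.Model.Assembly
import Fermat.Agent.SS.Model.IntegralGen

set_option autoImplicit false
set_option linter.unusedSectionVars false
set_option linter.style.haveILetI false

namespace Fermat.Agent.SS

open Fermat.Agent.JT3 IntermediateField

universe v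

section FF

variable {A0 L : Type*} {F0 : Type v} [CommRing A0] [IsDomain A0] [IsDiscreteValuationRing A0]
  [Field L] [Field F0] [Algebra A0 L] [IsFractionRing A0 L] [Algebra L F0] [Algebra A0 F0]
  [IsScalarTower A0 L F0]

omit [IsDomain A0] [IsDiscreteValuationRing A0] [Field L] [Algebra A0 L] [IsFractionRing A0 L]
  [Algebra L F0] [IsScalarTower A0 L F0] in
/-- the inputs `hWB hw hw' hsub` of [INF] from the general package `ssm_i1g_Facts` of [I1]. -/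
theorem ssm_asmg_inf_of_facts {x xq t tq : F0} {V1 V2 : ValuationSubring F0} (W : F0 ≃+* F0)
    (hWA : ∀ a : A0, W (algebraMap A0 F0 a) = algebraMap A0 F0 a) {q : ℕ} (hWx : W x = xq)
    (F : ssm_i1g_Facts A0 q x xq t tq V1 V2) :
    (∀ b ∈ fc_chart A0 ({x⁻¹} : Set F0), W b ∈ fc_chart A0 ({x⁻¹} : Set F0)) ∧
    x⁻¹ ^ q / (W x)⁻¹ ∈ fc_chart A0 ({x⁻¹} : Set F0) ∧
    (W x)⁻¹ ^ q / x⁻¹ ∈ fc_chart A0 ({x⁻¹} : Set F0) ∧
    x⁻¹ ^ q / (W x)⁻¹ - 1 ∈ V1.nonunits := by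
  subst hWx
  exact ⟨(ssm_i1g_W_charts W hWA rfl F).2.1, F.winf, F.winf', F.winf_sub⟩

/-- **[ASM], general-facts form**: the inputs at infinity from the package
`F : ssm_i1g_Facts A0 q x xq t tq V1 V2` of [I1]-gen, `xq = W x`. -/
theorem ssm_asmg_model_of_facts [CharZero L] {π : A0} (hπ : Irreducible π) {x xq t tq : F0}
    (hx : Transcendental L x) [FiniteDimensional L⟮x⟯ F0]
    (hconst : ∀ z : F0, IsAlgebraic L z → z ∈ (algebraMap L F0).range)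
    {σ : F0 ≃+* F0} {σ0 : A0 ≃+* A0} {V1 V2 : ValuationSubring F0}
    (H : ssm_tp_Hyp (algebraMap A0 (Algebra.adjoin A0 ({x} : Set F0)) π) V1 V2)
    (W : F0 ≃+* F0) (hWW : ∀ z, W (W z) = z)
    (hWA : ∀ a : A0, W (algebraMap A0 F0 a) = algebraMap A0 F0 a)
    (hV2 : ∀ z, z ∈ V2 ↔ W z ∈ V1) {q : ℕ} (hq : 2 ≤ q) (hWx : W x = xq)
    (F : ssm_i1g_Facts A0 q x xq t tq V1 V2)
    (σ_base : ∀ a : A0, σ (algebraMap A0 F0 a) = algebraMap A0 F0 (σ0 a))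
    (σ0_triv : ∀ a : A0, π ∣ σ0 a - a) (σ_x : σ x = x)
    (σ_triv1 : ∀ b ∈ fc_chart A0 ({x} : Set F0), ∃ c ∈ fc_chart A0 ({x} : Set F0),
      σ b - b = algebraMap A0 F0 π * c)
    (σ_triv2 : ∀ b ∈ fc_chart A0 ({x⁻¹} : Set F0), ∃ c ∈ fc_chart A0 ({x⁻¹} : Set F0),
      σ b - b = algebraMap A0 F0 π * c)
    (hsm11 : ∀ 𝔫 : Ideal (fc_chart A0 ({x} : Set F0)), 𝔫.IsMaximal →
      algebraMap A0 (fc_chart A0 ({x} : Set F0)) π ∈ 𝔫 →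
      ¬ ssm_tp_P (fc_chart A0 ({x} : Set F0)) V2 ≤ 𝔫 →
      ss_SmoothAt π (fc_chart A0 ({x} : Set F0)) 𝔫)
    (hsm12 : ∀ 𝔫 : Ideal (fc_chart A0 ({x} : Set F0)), 𝔫.IsMaximal →
      algebraMap A0 (fc_chart A0 ({x} : Set F0)) π ∈ 𝔫 →
      ¬ ssm_tp_P (fc_chart A0 ({x} : Set F0)) V1 ≤ 𝔫 →
      ss_SmoothAt π (fc_chart A0 ({x} : Set F0)) 𝔫)
    (hsm21 : ∀ 𝔫 : Ideal (fc_chart A0 ({x⁻¹} : Set F0)), 𝔫.IsMaximal →
      algebraMap A0 (fc_chart A0 ({x⁻¹} : Set F0)) π ∈ 𝔫 →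
      ¬ ssm_tp_P (fc_chart A0 ({x⁻¹} : Set F0)) V2 ≤ 𝔫 →
      ss_SmoothAt π (fc_chart A0 ({x⁻¹} : Set F0)) 𝔫)
    (hsm22 : ∀ 𝔫 : Ideal (fc_chart A0 ({x⁻¹} : Set F0)), 𝔫.IsMaximal →
      algebraMap A0 (fc_chart A0 ({x⁻¹} : Set F0)) π ∈ 𝔫 →
      ¬ ssm_tp_P (fc_chart A0 ({x⁻¹} : Set F0)) V1 ≤ 𝔫 →
      ss_SmoothAt π (fc_chart A0 ({x⁻¹} : Set F0)) 𝔫)
    (hnode : ∀ 𝔫 : Ideal (fc_chart A0 ({x} : Set F0)), 𝔫.IsMaximal →
      ssm_tp_P (fc_chart A0 ({x} : Set F0)) V1 ≤ 𝔫 →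
      ssm_tp_P (fc_chart A0 ({x} : Set F0)) V2 ≤ 𝔫 →
      ss_NodeAt π σ σ0 (fc_chart1_le x) (ssm_tp_P (fc_chart A0 ({x, x⁻¹} : Set F0)) V1)
        (ssm_tp_P (fc_chart A0 ({x, x⁻¹} : Set F0)) V2) 𝔫) :
    ss_Model π x σ σ0 (ssm_tp_P (fc_chart A0 ({x, x⁻¹} : Set F0)) V1)
      (ssm_tp_P (fc_chart A0 ({x, x⁻¹} : Set F0)) V2) := by
  obtain ⟨hWB, hw, hw', hsub⟩ := ssm_asmg_inf_of_facts W hWA hWx F
  exact ssm_asm_model (L := L) hπ hx hconst H W hWW hV2 hWB hq hw hw' hsub σ_base σ0_triv σ_x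
    σ_triv1 σ_triv2 hsm11 hsm12 hsm21 hsm22 hnode

end FF

end Fermat.Agent.SS
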