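/-
SS [M] leaf [CC-H], HESSE INSTANCE (helper29), prefix `ssm_cch_`.

`ssm_cc_main` (CoordChange.lean) at `m := hs_muE h3 N` (`N` = the level `N'` prime to `ℓ`), fed by
helper28's `ssm_thsh_regAt` (S18 regularity of the charts `{μ}`, `{μ⁻¹}` of `hs_E L h3 N`): for the
coordinate `x = μ - 1` of the Hesse twin (option M), the charts `{x}`, `{x⁻¹}` are regular along
`π = 0`, `π` is a prime element of the three charts of `x`, and the two charts are Dedekind modulo
`π`.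
-/
import Mathlib
import Fermat.Agent.SS.Model.CoordChange
import Fermat.Agent.SS.Model.ThickBaseHesse

set_option autoImplicit false
set_option linter.unusedSectionVars false

noncomputable section

open Polynomial IntermediateField ModularCurve

namespace Fermat.Agent.SS

open Fermat.Agent.JT3

section Inst

variable {L : Type*} [Field L] [CharZero L] (h3 : (3 : L) ≠ 0) (O : ValuationSubring L)
  [IsDiscreteValuationRing O] (N : ℕ) [NeZero N]

attribute [local instance] hsh_algKE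

/-- `x = μ - 1` is transcendental over `L`. -/
theorem ssm_cch_transcendental : Transcendental L (hs_muE h3 N - 1 : hs_E L h3 N) :=
  ssm_cc_transcendental_sub_one (hsf_mu_transcendental L h3 N)

theorem ssm_cch_ne_zero : (hs_muE h3 N - 1 : hs_E L h3 N) ≠ 0 := fun h =>
  ssm_cch_transcendental h3 N (h ▸ isAlgebraic_zero)

/-- `E'` is finite over `L(μ - 1)`. -/
theorem ssm_cch_finite :
    FiniteDimensional L⟮(hs_muE h3 N - 1 : hs_E L h3 N)⟯ (hs_E L h3 N) := by
  have := hsf_finite L h3 N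
  rw [ssm_cc_adjoin_sub_one]
  infer_instance

/-- **[CC-H] for the Hesse field** `E' = hs_E L h3 N`, coordinate `x = μ - 1`. -/
theorem ssm_cch_main {π : O} (hπ : Irreducible π) (ℓ : ℕ) [Fact ℓ.Prime]
    (hℓ : ((ℓ : ℕ) : O) ∈ IsLocalRing.maximalIdeal O) (hℓ3 : ℓ ≠ 3) (hℓN : ¬ ℓ ∣ N)
    (ζ : L) (hζ : IsPrimitiveRoot ζ N) (ω : O) (hω : ω ^ 2 + ω + 1 = 0)
    (hram : hs_RamHyp3 h3 N (hsh_muK L h3) (ω : L))
    (hram' : hs_RamHyp4 h3 N (hsh_muK L h3)⁻¹ (ω : L)) :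
    jt_RegAt (fc_chart O ({hs_muE h3 N - 1} : Set (hs_E L h3 N)))
      (algebraMap O (fc_chart O ({hs_muE h3 N - 1} : Set (hs_E L h3 N))) π) ∧
    jt_RegAt (fc_chart O ({(hs_muE h3 N - 1)⁻¹} : Set (hs_E L h3 N)))
      (algebraMap O (fc_chart O ({(hs_muE h3 N - 1)⁻¹} : Set (hs_E L h3 N))) π) ∧
    Prime (algebraMap O (fc_chart O ({hs_muE h3 N - 1} : Set (hs_E L h3 N))) π) ∧
    Prime (algebraMap O (fc_chart O ({(hs_muE h3 N - 1)⁻¹} : Set (hs_E L h3 N))) π) ∧
    Prime (algebraMap O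
      (fc_chart O ({hs_muE h3 N - 1, (hs_muE h3 N - 1)⁻¹} : Set (hs_E L h3 N))) π) ∧
    IsDedekindDomain (fc_chart O ({hs_muE h3 N - 1} : Set (hs_E L h3 N)) ⧸
      Ideal.span {algebraMap O (fc_chart O ({hs_muE h3 N - 1} : Set (hs_E L h3 N))) π}) ∧
    IsDedekindDomain (fc_chart O ({(hs_muE h3 N - 1)⁻¹} : Set (hs_E L h3 N)) ⧸
      Ideal.span {algebraMap O (fc_chart O ({(hs_muE h3 N - 1)⁻¹} : Set (hs_E L h3 N))) π}) := by
  obtain ⟨hr1, hr2⟩ := ssm_thsh_regAt h3 O N hπ ℓ hℓ hℓ3 hℓN ζ hζ ω hω hram hram'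
  have := hsf_finite L h3 N
  exact ssm_cc_main (K0 := L) hπ (hsf_mu_transcendental L h3 N)
    (fun z hz => lgf_hconst (hs_E L h3 N) z hz) (ssm_cch_ne_zero h3 N) hr1 hr2

end Inst

end Fermat.Agent.SS
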