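/-
SS [M] instance clause [CR-INST] (helper29), prefix `ssm_crl_`: THE CROSSING PACKAGE `ssm_nx_Cross`
(helper2's `NodeCross.lean`: dictionary + [CP-I] facts + the outputs of [TR-I]/[EC] at every maximal
crossing point) for a tower `E' ≤ E ≤ Quot(O((X)))` (helper8's generic context of
`TwoPrimesInst.lean`) over an ARBITRARY base `(L, O, π)`, and its Legendre instance.

* `ssm_crl_cross_gen` : generic tower, chart coordinate `lam'` of `E'` (the Frobenius-fixed series of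
  the two-valuations data), second cusp polynomial `c` (`X − 1` for Legendre, `X² + 3X + 3` for
  Hesse-M): from [TP] (`H`), the level inputs `hprime`, `hic`, [EC] (`hEC`) and the integrality facts
  of [I1] (`hWB`, `hw0 … hw1'`);
* `ssm_crl_cross` : the Legendre instance in [LEG-CTX] (`TwoPrimesLeg.lean`), inputs in the shapes of
  `ssm_ll_prime`, `ssm_ll_ic1`, `ssm_ll_EC` (level `N'`) and `ssm_fl_facts` ([F]);
* `ssm_crl_main` : the nine conjuncts of `ssm_cri_main` at every maximal crossing point.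
-/
import Mathlib
import Fermat.Agent.SS.Model.NodeCross
import Fermat.Agent.SS.Model.TwoPrimesInst
import Fermat.Agent.SS.Model.TwoPrimesLeg
import Fermat.Agent.SS.Model.Integral

set_option autoImplicit false
set_option linter.unusedSectionVars false
set_option linter.unusedVariables false
set_option linter.style.haveILetI false

noncomputable section

open ModularCurve IntermediateField IsLocalRing Polynomial
open Fermat.Agent.JT3

namespace Fermat.Agent.SS

section Generic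

variable {L : Type*} [Field L] [CharZero L] (O : ValuationSubring L)
  [IsDiscreteValuationRing O] {π : O} (hπ : Irreducible π)
variable (q : ℕ) [NeZero q] [hq : Fact q.Prime] [CharP (ResidueField O) q]
variable (E' E : IntermediateField L (LaurentSeries L)) (hle : E' ≤ E)
  (hE : E ≤ gq_quotField O L)

set_option synthInstance.maxHeartbeats 200000 in
set_option maxHeartbeats 800000 in
/-- **the crossing package of a tower**, chart coordinate `lam'`, second cusp polynomial `c`. -/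
theorem ssm_crl_cross_gen (W : ↥E ≃+* ↥E) (hWW : ∀ x, W (W x) = x)
    (hW : ∀ z : ↥E', ((W (IntermediateField.inclusion hle z) : ↥E) : LaurentSeries L) =
      qExpand L q (z : LaurentSeries L))
    (hrank : IntermediateField.relfinrank E' E = q + 1)
    (ys : LaurentSeries O) (hyF : ssm_ga_FrobFixed q ys) (n : ℤ) (hn : ¬ (q : ℤ) ∣ n)
    (hyn : residue O (ys.coeff n) ≠ 0) (lam' : ↥E')
    (hlam : (lam' : LaurentSeries L) = coeffMap (algebraMap O L) ys)
    [FiniteDimensional L⟮lam'⟯ ↥E']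
    (H : ssm_tp_Hyp
      (algebraMap ↥O (Algebra.adjoin ↥O ({IntermediateField.inclusion hle lam'} : Set ↥E)) π)
      (gq_valSubOf π hπ.ne_zero hπ.maximalIdeal_eq E hE)
      ((gq_valSubOf π hπ.ne_zero hπ.maximalIdeal_eq E hE).comap (W : ↥E →+* ↥E)))
    (hprime : Prime (algebraMap ↥O (fc_chart ↥O ({lam'} : Set ↥E')) π))
    (hic : IsIntegrallyClosed (fc_chart ↥O ({lam'} : Set ↥E') ⧸
      (Ideal.span {algebraMap ↥O (fc_chart ↥O ({lam'} : Set ↥E')) π} :
        Ideal (fc_chart ↥O ({lam'} : Set ↥E')))))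
    (hWB : ∀ b ∈ fc_chart ↥O ({IntermediateField.inclusion hle lam'} : Set ↥E),
      W b ∈ fc_chart ↥O ({IntermediateField.inclusion hle lam'} : Set ↥E))
    (hlq : W (IntermediateField.inclusion hle lam') ∈
      fc_chart ↥O ({IntermediateField.inclusion hle lam'} : Set ↥E))
    (c : ℤ[X]) (hc : c.Monic)
    (hw0 : IntermediateField.inclusion hle lam' ^ q / W (IntermediateField.inclusion hle lam') ∈
      fc_chart ↥O ({IntermediateField.inclusion hle lam'} : Set ↥E))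
    (hw0' : W (IntermediateField.inclusion hle lam') ^ q / IntermediateField.inclusion hle lam' ∈
      fc_chart ↥O ({IntermediateField.inclusion hle lam'} : Set ↥E))
    (hw1 : aeval (IntermediateField.inclusion hle lam') c ^ q /
        aeval (W (IntermediateField.inclusion hle lam')) c ∈
      fc_chart ↥O ({IntermediateField.inclusion hle lam'} : Set ↥E))
    (hw1' : aeval (W (IntermediateField.inclusion hle lam')) c ^ q /
        aeval (IntermediateField.inclusion hle lam') c ∈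
      fc_chart ↥O ({IntermediateField.inclusion hle lam'} : Set ↥E))
    (hEC : ∀ 𝔫' : Ideal (fc_chart ↥O ({lam'} : Set ↥E')), 𝔫'.IsMaximal →
      algebraMap ↥O (fc_chart ↥O ({lam'} : Set ↥E')) π ∈ 𝔫' →
      (⟨lam', fc_x_mem_chart lam'⟩ : fc_chart ↥O ({lam'} : Set ↥E')) ∉ 𝔫' →
      aeval (⟨lam', fc_x_mem_chart lam'⟩ : fc_chart ↥O ({lam'} : Set ↥E')) c ∉ 𝔫' →
      (⟨lam', fc_x_mem_chart lam'⟩ : fc_chart ↥O ({lam'} : Set ↥E')) ^ (q ^ 2) -
        ⟨lam', fc_x_mem_chart lam'⟩ ∈ 𝔫' →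
      tq_GenBy (algebraMap ↥O (fc_chart ↥O ({lam'} : Set ↥E')) π)
        ((⟨lam', fc_x_mem_chart lam'⟩ : fc_chart ↥O ({lam'} : Set ↥E')) ^ (q ^ 2) -
          ⟨lam', fc_x_mem_chart lam'⟩) 𝔫') :
    letI := ssm_gi_algebra hle
    ssm_nx_Cross (fc_chart ↥O ({lam'} : Set ↥E'))
      (fc_chart ↥O ({IntermediateField.inclusion hle lam'} : Set ↥E))
      (ssm_cpi_phi ↥O ↥E lam') (algebraMap ↥O (fc_chart ↥O ({lam'} : Set ↥E')) π) q
      (ssm_tp_P (fc_chart ↥O ({IntermediateField.inclusion hle lam'} : Set ↥E))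
        (gq_valSubOf π hπ.ne_zero hπ.maximalIdeal_eq E hE))
      (ssm_tp_P (fc_chart ↥O ({IntermediateField.inclusion hle lam'} : Set ↥E))
        ((gq_valSubOf π hπ.ne_zero hπ.maximalIdeal_eq E hE).comap (W : ↥E →+* ↥E)))
      ⟨lam', fc_x_mem_chart lam'⟩ ⟨W (IntermediateField.inclusion hle lam'), hlq⟩ c := by
  letI := ssm_gi_algebra hle
  letI := ssm_gi_algebraV hle (gq_valSubOf π hπ.ne_zero hπ.maximalIdeal_eq E' (hle.trans hE))
  haveI := ssm_gi_isScalarTower hle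
    (gq_valSubOf π hπ.ne_zero hπ.maximalIdeal_eq E' (hle.trans hE))
  have hfr : Module.finrank ↥E' ↥E = q + 1 := (ssm_gt_finrank_eq hle).trans hrank
  haveI : FiniteDimensional ↥E' ↥E := ssm_gi_finiteDimensional hfr
  haveI : Algebra.IsSeparable ↥E' ↥E := ssm_gi_isSeparable
  haveI := ssm_go_isScalarTower O E
  haveI := ssm_go_isScalarTower O E'
  haveI := ssm_gt_isScalarTower O hle
  have hn0 : n ≠ 0 := by
    rintro rfl
    exact hn (dvd_zero _)
  have hx : Transcendental L lam' := ssm_go_transcendental O E' ys lam' hlam hn0 hyn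
  have hxE : Transcendental L (IntermediateField.inclusion hle lam') :=
    ssm_go_transcendental O E ys (IntermediateField.inclusion hle lam') hlam hn0 hyn
  have hover := ssm_go_over O E' ys lam' hlam hπ (hle.trans hE) hn0 hyn
  have D := ssm_gt_data O hπ q E' E hle hE W hWW hW hrank ys hyF n hn hyn lam' hlam
  have hVK : ∀ z : ↥E', z ∈ gq_valSubOf π hπ.ne_zero hπ.maximalIdeal_eq E' (hle.trans hE) ↔
      z ∈ (algebraMap ↥(gq_valSubOf π hπ.ne_zero hπ.maximalIdeal_eq E' (hle.trans hE)) ↥E').range :=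
    fun z => (ssm_gi_mem_range _ z).symm
  exact ssm_nx_cross_ff (L := L) D hπ (y := lam') rfl hx hxE hprime hic
    (gq_valSubOf π hπ.ne_zero hπ.maximalIdeal_eq E' (hle.trans hE)) hVK hover H hWB c hc
    hw0 hw0' hw1 hw1' hEC

end Generic

section Legendre

variable {L : Type*} [Field L] [CharZero L] [Algebra L (AlgebraicClosure ℚ)]
  (O : ValuationSubring L) [IsDiscreteValuationRing O] {π : O} (hπ : Irreducible π)
variable (N' q : ℕ) [NeZero N'] [NeZero q] [hq : Fact q.Prime] [CharP (ResidueField O) q]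
  (hq2 : ¬ 2 ∣ q) (hqN' : ¬ q ∣ N')

omit [CharZero L] [Algebra L (AlgebraicClosure ℚ)] [IsDiscreteValuationRing ↥O] in
theorem ssm_crl_aeval_sub_one {B : Type*} [CommRing B] (b : B) :
    aeval b (X - 1 : ℤ[X]) = b - 1 := by
  rw [map_sub, aeval_X, map_one]

set_option synthInstance.maxHeartbeats 200000 in
set_option maxHeartbeats 800000 in
/-- **[CR-INST], Legendre tower**: the crossing package of the pair of charts
`fc_chart O {λ'} ⊆ lg_E L N'`, `fc_chart O {λ} ⊆ lg_E L (N' q)` over the base `(L, O, π)`, from the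
level package at `N'` (`hprime`, `hic`, `hEC` in the shapes of `ssm_ll_prime`, `ssm_ll_ic1`,
`ssm_ll_EC`) and the package `F` of [I1] (`ssm_fl_facts`). -/
theorem ssm_crl_cross
    (hprime : Prime (algebraMap ↥O (fc_chart ↥O ({lg_lamE N'} : Set ↥(lg_E L N'))) π))
    (hic : IsIntegrallyClosed (fc_chart ↥O ({lg_lamE N'} : Set ↥(lg_E L N')) ⧸
      (Ideal.span {algebraMap ↥O (fc_chart ↥O ({lg_lamE N'} : Set ↥(lg_E L N'))) π} :
        Ideal (fc_chart ↥O ({lg_lamE N'} : Set ↥(lg_E L N'))))))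
    (hEC : ∀ 𝔫' : Ideal (fc_chart ↥O ({lg_lamE N'} : Set ↥(lg_E L N'))), 𝔫'.IsMaximal →
      algebraMap ↥O (fc_chart ↥O ({lg_lamE N'} : Set ↥(lg_E L N'))) π ∈ 𝔫' →
      (⟨lg_lamE N', fc_x_mem_chart _⟩ : fc_chart ↥O ({lg_lamE N'} : Set ↥(lg_E L N'))) ∉ 𝔫' →
      (⟨lg_lamE N', fc_x_mem_chart _⟩ : fc_chart ↥O ({lg_lamE N'} : Set ↥(lg_E L N'))) - 1 ∉ 𝔫' →
      (⟨lg_lamE N', fc_x_mem_chart _⟩ : fc_chart ↥O ({lg_lamE N'} : Set ↥(lg_E L N'))) ^ (q ^ 2) -
        ⟨lg_lamE N', fc_x_mem_chart _⟩ ∈ 𝔫' →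
      tq_GenBy (algebraMap ↥O (fc_chart ↥O ({lg_lamE N'} : Set ↥(lg_E L N'))) π)
        ((⟨lg_lamE N', fc_x_mem_chart _⟩ : fc_chart ↥O ({lg_lamE N'} : Set ↥(lg_E L N'))) ^ (q ^ 2) -
          ⟨lg_lamE N', fc_x_mem_chart _⟩) 𝔫')
    (F : ssm_i1_Facts ↥O q (lg_lamE (N' * q) : ↥(lg_E L (N' * q)))
      (ssm_gl_W L N' q hq2 hqN' (lg_lamE (N' * q))) (ssm_gl_V1 O hπ N' q)
      (ssm_gl_V2 O hπ N' q hq2 hqN')) :
    letI := ssm_gi_algebra (ssm_al_E_le L N' q)
    ssm_nx_Cross (fc_chart ↥O ({lg_lamE N'} : Set ↥(lg_E L N')))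
      (fc_chart ↥O ({lg_lamE (N' * q)} : Set ↥(lg_E L (N' * q))))
      (ssm_cpi_phi ↥O ↥(lg_E L (N' * q)) (lg_lamE N'))
      (algebraMap ↥O (fc_chart ↥O ({lg_lamE N'} : Set ↥(lg_E L N'))) π) q
      (ssm_tp_P (fc_chart ↥O ({lg_lamE (N' * q)} : Set ↥(lg_E L (N' * q)))) (ssm_gl_V1 O hπ N' q))
      (ssm_tp_P (fc_chart ↥O ({lg_lamE (N' * q)} : Set ↥(lg_E L (N' * q))))
        (ssm_gl_V2 O hπ N' q hq2 hqN'))
      ⟨lg_lamE N', fc_x_mem_chart _⟩
      ⟨ssm_gl_W L N' q hq2 hqN' (lg_lamE (N' * q)), F.lamq_mem⟩ (X - 1) := by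
  haveI := lgf_finite L N'
  have H := ssm_gl_hyp O hπ N' q hq2 hqN' hprime
  have hWO : ∀ a : ↥O, ssm_gl_W L N' q hq2 hqN' (algebraMap ↥O ↥(lg_E L (N' * q)) a) =
      algebraMap ↥O ↥(lg_E L (N' * q)) a :=
    fun a => (ssm_al_WE L N' q hq.out hq2 hqN').commutes (a : L)
  obtain ⟨hWB1, -, -⟩ := ssm_i1_W_charts (ssm_gl_W L N' q hq2 hqN') hWO rfl F
  refine ssm_crl_cross_gen O hπ q (lg_E L N') (lg_E L (N' * q)) (ssm_al_E_le L N' q)
    (ssm_ga_E_le_quotField O (N' * q)) (ssm_gl_W L N' q hq2 hqN')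
    (ssm_al_WE_WE L N' q hq.out hq2 hqN')
    (fun z => ssm_al_coe_WE_of_mem L N' q hq.out hq2 hqN' z.2 _)
    (ssm_al_relfinrank_E L N' q hq.out hq2 hqN') (hm_lam O) (ssm_ga_lam_frobFixed O q) 1
    (ssm_gl_not_dvd_one q) (ssm_ga_lam_coeff_one O (ssm_gl_two_ne_zero O q hq2)) (lg_lamE N')
    (hm_coeffMap_lam _).symm H hprime hic hWB1 F.lamq_mem (X - 1) (monic_X_sub_C (1 : ℤ))
    F.w0 F.w0' ?_ ?_ ?_
  · rw [ssm_crl_aeval_sub_one, ssm_crl_aeval_sub_one]
    exact F.w1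
  · rw [ssm_crl_aeval_sub_one, ssm_crl_aeval_sub_one]
    exact F.w1'
  · intro 𝔫' h𝔫' hπ𝔫 h0 h1 hG
    rw [ssm_crl_aeval_sub_one] at h1
    exact hEC 𝔫' h𝔫' hπ𝔫 h0 h1 hG

end Legendre

end Fermat.Agent.SS
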