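/-
SS [M] instance clause [CR-INST], HESSE twin (helper29), prefix `ssm_crh_`: THE CROSSING PACKAGE
`ssm_nx_Cross` (helper2's `NodeCross.lean`) of the Hesse tower in the coordinate `x = μ − 1`
("Option M"), second cusp polynomial `c = X² + 3X + 3` (`c(μ − 1) = μ² + μ + 1`), over an ARBITRARY
base `(L, O, π)`: context = helper12's `FactsHesse.lean` ([HES-CTX], `hF9` discharged).

* `ssm_crh_W_x`, `ssm_crh_Wx_mem` : `W (μ − 1) = W μ − 1 ∈ fc_chart O {μ − 1}`;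
* `ssm_crh_cross` : the package, from the level inputs at `N'` (`hprime`, `hic`, `hEC` in the shapes of
  `ssm_hl_prime1`, `ssm_hl_ic1`, `ssm_hl_EC_aeval`) and the package `F` of [I1] (`ssm_fh_facts`).
-/
import Mathlib
import Fermat.Agent.SS.Model.CrossingLeg
import Fermat.Agent.SS.Model.FactsHesse
import Fermat.Agent.SS.Model.HesLevel

set_option autoImplicit false
set_option linter.unusedSectionVars false
set_option linter.unusedVariables false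
set_option linter.style.haveILetI false

noncomputable section

open ModularCurve IntermediateField IsLocalRing Polynomial
open Fermat.Agent.JT3

namespace Fermat.Agent.SS

section Hesse

variable {L : Type*} [Field L] [CharZero L] [Algebra L (AlgebraicClosure ℚ)] (h3 : (3 : L) ≠ 0)
  (O : ValuationSubring L) [IsDiscreteValuationRing O] (h3O : IsUnit (3 : O)) {π : O}
  (hπ : Irreducible π)
variable (N' q : ℕ) [NeZero N'] [NeZero q] [hq : Fact q.Prime] [CharP (ResidueField O) q]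
  (hq3 : ¬ 3 ∣ q) (hqN' : ¬ q ∣ N')

/-- `W (μ − 1) = W μ − 1`. -/
theorem ssm_crh_W_x :
    ssm_fh_W h3 N' q hq3 hqN' (hs_muE h3 (N' * q) - 1) =
      ssm_fh_W h3 N' q hq3 hqN' (hs_muE h3 (N' * q)) - 1 := by
  rw [map_sub, map_one]

/-- `W (μ − 1)` lies in the `(μ − 1)`-chart. -/
theorem ssm_crh_Wx_mem
    (F : ssm_i1g_Facts ↥O q (hs_muE h3 (N' * q) - 1)
      (ssm_fh_W h3 N' q hq3 hqN' (hs_muE h3 (N' * q)) - 1)
      (hs_muE h3 (N' * q) ^ 2 + hs_muE h3 (N' * q) + 1)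
      (ssm_fh_W h3 N' q hq3 hqN' (hs_muE h3 (N' * q)) ^ 2 +
        ssm_fh_W h3 N' q hq3 hqN' (hs_muE h3 (N' * q)) + 1)
      (ssm_fh_V1 h3 O h3O hπ N' q) (ssm_fh_V2 h3 O h3O hπ N' q hq3 hqN')) :
    ssm_fh_W h3 N' q hq3 hqN' (hs_muE h3 (N' * q) - 1) ∈
      fc_chart ↥O ({hs_muE h3 (N' * q) - 1} : Set ↥(hs_E L h3 (N' * q))) := by
  rw [ssm_crh_W_x]
  exact F.xq_mem

set_option synthInstance.maxHeartbeats 200000 in
set_option maxHeartbeats 800000 in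
/-- **[CR-INST], Hesse tower (Option M)**: the crossing package of the pair of charts
`fc_chart O {μ' − 1} ⊆ hs_E L h3 N'`, `fc_chart O {μ − 1} ⊆ hs_E L h3 (N' q)` over the base
`(L, O, π)`. -/
theorem ssm_crh_cross
    (hprime : Prime (algebraMap ↥O
      (fc_chart ↥O ({hs_muE h3 N' - 1} : Set ↥(hs_E L h3 N'))) π))
    (hic : IsIntegrallyClosed (fc_chart ↥O ({hs_muE h3 N' - 1} : Set ↥(hs_E L h3 N')) ⧸
      (Ideal.span {algebraMap ↥O (fc_chart ↥O ({hs_muE h3 N' - 1} : Set ↥(hs_E L h3 N'))) π} :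
        Ideal (fc_chart ↥O ({hs_muE h3 N' - 1} : Set ↥(hs_E L h3 N'))))))
    (hEC : ∀ 𝔫' : Ideal (fc_chart ↥O ({hs_muE h3 N' - 1} : Set ↥(hs_E L h3 N'))), 𝔫'.IsMaximal →
      algebraMap ↥O (fc_chart ↥O ({hs_muE h3 N' - 1} : Set ↥(hs_E L h3 N'))) π ∈ 𝔫' →
      ssm_hl_x h3 O N' ∉ 𝔫' →
      aeval (ssm_hl_x h3 O N') (X ^ 2 + 3 * X + 3 : ℤ[X]) ∉ 𝔫' →
      ssm_hl_x h3 O N' ^ (q ^ 2) - ssm_hl_x h3 O N' ∈ 𝔫' →
      tq_GenBy (algebraMap ↥O (fc_chart ↥O ({hs_muE h3 N' - 1} : Set ↥(hs_E L h3 N'))) π)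
        (ssm_hl_x h3 O N' ^ (q ^ 2) - ssm_hl_x h3 O N') 𝔫')
    (F : ssm_i1g_Facts ↥O q (hs_muE h3 (N' * q) - 1)
      (ssm_fh_W h3 N' q hq3 hqN' (hs_muE h3 (N' * q)) - 1)
      (hs_muE h3 (N' * q) ^ 2 + hs_muE h3 (N' * q) + 1)
      (ssm_fh_W h3 N' q hq3 hqN' (hs_muE h3 (N' * q)) ^ 2 +
        ssm_fh_W h3 N' q hq3 hqN' (hs_muE h3 (N' * q)) + 1)
      (ssm_fh_V1 h3 O h3O hπ N' q) (ssm_fh_V2 h3 O h3O hπ N' q hq3 hqN')) :
    letI := ssm_gi_algebra (ssm_alh_E_le L h3 (ssm_fh_hF9 h3) N' q)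
    ssm_nx_Cross (fc_chart ↥O ({hs_muE h3 N' - 1} : Set ↥(hs_E L h3 N')))
      (fc_chart ↥O ({hs_muE h3 (N' * q) - 1} : Set ↥(hs_E L h3 (N' * q))))
      (ssm_cpi_phi ↥O ↥(hs_E L h3 (N' * q)) (hs_muE h3 N' - 1))
      (algebraMap ↥O (fc_chart ↥O ({hs_muE h3 N' - 1} : Set ↥(hs_E L h3 N'))) π) q
      (ssm_tp_P (fc_chart ↥O ({hs_muE h3 (N' * q) - 1} : Set ↥(hs_E L h3 (N' * q))))
        (ssm_fh_V1 h3 O h3O hπ N' q))
      (ssm_tp_P (fc_chart ↥O ({hs_muE h3 (N' * q) - 1} : Set ↥(hs_E L h3 (N' * q))))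
        (ssm_fh_V2 h3 O h3O hπ N' q hq3 hqN'))
      (ssm_hl_x h3 O N')
      ⟨ssm_fh_W h3 N' q hq3 hqN' (hs_muE h3 (N' * q) - 1),
        ssm_crh_Wx_mem h3 O h3O hπ N' q hq3 hqN' F⟩ (X ^ 2 + 3 * X + 3) := by
  haveI := ssm_glh_finite h3 N'
  have H := ssm_fh_hyp h3 O h3O hπ N' q hq3 hqN' hprime
  have hWO : ∀ a : ↥O, ssm_fh_W h3 N' q hq3 hqN' (algebraMap ↥O ↥(hs_E L h3 (N' * q)) a) =
      algebraMap ↥O ↥(hs_E L h3 (N' * q)) a :=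
    fun a => (ssm_alh_WE L h3 (ssm_fh_hF9 h3) N' q hq.out hq3 hqN').commutes (a : L)
  have hWx := ssm_crh_W_x h3 N' q hq3 hqN'
  obtain ⟨hWB1, -, -⟩ := ssm_i1g_W_charts (ssm_fh_W h3 N' q hq3 hqN') hWO hWx F
  have hmonic : (X ^ 2 + 3 * X + 3 : ℤ[X]).Monic := by
    have h : (X ^ 2 + 3 * X + 3 : ℤ[X]) = X ^ 2 + (C 3 * X + C 3) := by
      rw [add_assoc]; rfl
    rw [h]
    apply (monic_X_pow 2).add_of_left
    rw [degree_X_pow]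
    refine lt_of_le_of_lt (degree_add_le _ _) (max_lt ?_ ?_)
    · exact lt_of_le_of_lt (degree_C_mul_X_le _) (by norm_num)
    · exact lt_of_le_of_lt degree_C_le (by norm_num)
  have e1 : (hs_muE h3 (N' * q) - 1 : ↥(hs_E L h3 (N' * q))) ^ 2 +
      3 * (hs_muE h3 (N' * q) - 1) + 3 = hs_muE h3 (N' * q) ^ 2 + hs_muE h3 (N' * q) + 1 := by
    ring
  have e2 : (ssm_fh_W h3 N' q hq3 hqN' (hs_muE h3 (N' * q)) - 1 : ↥(hs_E L h3 (N' * q))) ^ 2 +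
      3 * (ssm_fh_W h3 N' q hq3 hqN' (hs_muE h3 (N' * q)) - 1) + 3 =
      ssm_fh_W h3 N' q hq3 hqN' (hs_muE h3 (N' * q)) ^ 2 +
        ssm_fh_W h3 N' q hq3 hqN' (hs_muE h3 (N' * q)) + 1 := by
    ring
  have hw0 : (hs_muE h3 (N' * q) - 1 : ↥(hs_E L h3 (N' * q))) ^ q /
      ssm_fh_W h3 N' q hq3 hqN' (hs_muE h3 (N' * q) - 1) ∈
      fc_chart ↥O ({hs_muE h3 (N' * q) - 1} : Set ↥(hs_E L h3 (N' * q))) := by
    rw [hWx]; exact F.w0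
  have hw0' : ssm_fh_W h3 N' q hq3 hqN' (hs_muE h3 (N' * q) - 1) ^ q /
      (hs_muE h3 (N' * q) - 1 : ↥(hs_E L h3 (N' * q))) ∈
      fc_chart ↥O ({hs_muE h3 (N' * q) - 1} : Set ↥(hs_E L h3 (N' * q))) := by
    rw [hWx]; exact F.w0'
  have hw1 : aeval (hs_muE h3 (N' * q) - 1 : ↥(hs_E L h3 (N' * q)))
        (X ^ 2 + 3 * X + 3 : ℤ[X]) ^ q /
      aeval (ssm_fh_W h3 N' q hq3 hqN' (hs_muE h3 (N' * q) - 1)) (X ^ 2 + 3 * X + 3 : ℤ[X]) ∈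
      fc_chart ↥O ({hs_muE h3 (N' * q) - 1} : Set ↥(hs_E L h3 (N' * q))) := by
    rw [ssm_hl_aeval_mid, ssm_hl_aeval_mid, hWx, e1, e2]; exact F.w1
  have hw1' : aeval (ssm_fh_W h3 N' q hq3 hqN' (hs_muE h3 (N' * q) - 1))
        (X ^ 2 + 3 * X + 3 : ℤ[X]) ^ q /
      aeval (hs_muE h3 (N' * q) - 1 : ↥(hs_E L h3 (N' * q))) (X ^ 2 + 3 * X + 3 : ℤ[X]) ∈
      fc_chart ↥O ({hs_muE h3 (N' * q) - 1} : Set ↥(hs_E L h3 (N' * q))) := by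
    rw [ssm_hl_aeval_mid, ssm_hl_aeval_mid, hWx, e1, e2]; exact F.w1'
  exact ssm_crl_cross_gen O hπ q (hs_E L h3 N') (hs_E L h3 (N' * q))
    (ssm_alh_E_le L h3 (ssm_fh_hF9 h3) N' q) (hsa_E_le_quotField h3 O (N' * q) h3O)
    (ssm_fh_W h3 N' q hq3 hqN') (ssm_alh_WE_WE L h3 (ssm_fh_hF9 h3) N' q hq.out hq3 hqN')
    (fun z => ssm_alh_coe_WE_of_mem L h3 (ssm_fh_hF9 h3) N' q hq.out hq3 hqN' z.2 _)
    (ssm_alh_relfinrank_E L h3 (ssm_fh_hF9 h3) N' q hq.out hq3 hqN')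
    (hm_mu O h3O - 1) (ssm_glh_frobFixed O h3O q) (-1) (ssm_gh_not_dvd_neg_one q)
    (ssm_glh_coeff O h3O) (hs_muE h3 N' - 1) (ssm_glh_coe_x h3 O h3O N') H hprime hic hWB1
    (ssm_crh_Wx_mem h3 O h3O hπ N' q hq3 hqN' F) (X ^ 2 + 3 * X + 3) hmonic hw0 hw0' hw1 hw1' hEC

end Hesse

end Fermat.Agent.SS
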