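/-
Project SS (S34), cell [M] (model), leaf [F4], part (c): the rigidified Legendre field of the S18
tower IS a level function field.

For every field `L` of characteristic zero and every `N ≥ 1`:

  `lg_E L N = φ(F_N)(λ) = F_{lcm(4, 2N)}`,   `F_M = L(j(q^d) : d ∣ M) = modularFunctionFieldFullC L M`.

`⊆`: `L(λ) = F_4` (`ssm_f4_K`) and `φ(j(q^d)) = j(q^{2d})`, `2d ∣ 2N`.
`⊇`: `F_{lcm(4,2N)} = L(j, j(q⁴), j(q^{2N}))` (`ssm_f4_gen_lcm`), and `j, j(q⁴) ∈ L(λ)`,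
`j(q^{2N}) = φ(j(q^N))`.

Consequences for the semistable model at `N = N' q`: both degeneracy maps of the level structure act
on the tower, `lg_E L N' ≤ lg_E L N` and `β_q (lg_E L N') ≤ lg_E L N`; in particular
`λ(q^q) ∈ lg_E L N`.

Prefix `ssm_f4_`.
-/
import Mathlib
import Fermat.Agent.SS.Model.F4K
import Fermat.Agent.SS.Model.F4Gen

set_option autoImplicit false

noncomputable section

open ModularCurve IntermediateField
open Fermat.Agent.S28 Fermat.Agent.JT3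

namespace Fermat.Agent.SS

section Main

variable (L : Type*) [Field L] (N : ℕ) [NeZero N]

/-- The level `lcm(4, 2N)` of the rigidified field. -/
def ssm_f4_level : ℕ := Nat.lcm 4 (2 * N)

instance ssm_f4_level_neZero : NeZero (ssm_f4_level N) :=
  ⟨Nat.lcm_ne_zero (by norm_num) (Nat.mul_ne_zero (by norm_num) (NeZero.ne N))⟩

omit [NeZero N] in
theorem ssm_f4_four_dvd_level : 4 ∣ ssm_f4_level N := Nat.dvd_lcm_left _ _

omit [NeZero N] in
theorem ssm_f4_two_mul_dvd_level : 2 * N ∣ ssm_f4_level N := Nat.dvd_lcm_right _ _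

omit [NeZero N] in
theorem ssm_f4_dvd_level : N ∣ ssm_f4_level N :=
  (Dvd.intro_left 2 rfl).trans (ssm_f4_two_mul_dvd_level N)

/-- `φ(F_N) ≤ F_{lcm(4,2N)}` (every field `L`). -/
theorem ssm_f4_F2_le : lg_F2 L N ≤ modularFunctionFieldFullC L (ssm_f4_level N) := by
  have h := full_degeneracyC_map_le L N 2
  refine le_trans h ?_
  exact full_degeneracyC_le L (by rw [mul_comm]; exact ssm_f4_two_mul_dvd_level N)

/-- `lg_E L N ≤ F_{lcm(4,2N)}` (every field `L`). -/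
theorem ssm_f4_E_le : lg_E L N ≤ modularFunctionFieldFullC L (ssm_f4_level N) := by
  rw [lg_E]
  refine sup_le (ssm_f4_F2_le L N) ?_
  exact le_trans (ssm_f4_K_le L) (full_degeneracyC_le L (ssm_f4_four_dvd_level N))

variable [CharZero L]

theorem ssm_f4_two_ne_zero : (2 : L) ≠ 0 := two_ne_zero

/-- **[F4] (c)**: `lg_E L N = F_{lcm(4, 2N)}` over every field of characteristic zero. -/
theorem ssm_f4 : lg_E L N = modularFunctionFieldFullC L (ssm_f4_level N) := by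
  apply le_antisymm (ssm_f4_E_le L N)
  rw [ssm_f4_level, ssm_f4_gen_lcm 4 (2 * N) L, IntermediateField.adjoin_le_iff]
  rintro x (rfl | rfl | rfl)
  · exact lg_K_le_E L N (ssm_f4_j_mem_K (ssm_f4_two_ne_zero L))
  · exact lg_K_le_E L N (ssm_f4_j4_mem_K (ssm_f4_two_ne_zero L))
  · have h := lg_phi_mem_E L N (jqModCd_mem_full L N (dvd_refl N))
    rw [lg_phi_apply, qExpand_qExpand] at h
    exact h

/-- The explicit form. -/
theorem ssm_f4' : lg_E L N = modularFunctionFieldFullC L (Nat.lcm 4 (2 * N)) := ssm_f4 L N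

/-! ### The two degeneracy maps on the tower -/

/-- First degeneracy: `lg_E L N' ≤ lg_E L N` for `N' ∣ N`. -/
theorem ssm_f4_E_mono {N' : ℕ} [NeZero N'] (h : N' ∣ N) : lg_E L N' ≤ lg_E L N := by
  rw [ssm_f4 L N, ssm_f4 L N']
  refine full_degeneracyC_le L ?_
  exact Nat.lcm_dvd_lcm_of_dvd_right 4 (mul_dvd_mul_left 2 h)

/-- Second degeneracy: `β_ℓ (lg_E L N') ≤ lg_E L N` for `N' ℓ ∣ N`, `ℓ` odd. -/
theorem ssm_f4_E_map_le {N' ℓ : ℕ} [NeZero N'] [NeZero ℓ] (h : N' * ℓ ∣ N) (hℓ : ¬ 2 ∣ ℓ) :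
    (lg_E L N').map (qExpandAlgHomC L ℓ) ≤ lg_E L N := by
  rw [ssm_f4 L N, ssm_f4 L N']
  refine le_trans (full_degeneracyC_map_le L (ssm_f4_level N') ℓ) ?_
  refine full_degeneracyC_le L ?_
  -- `lcm(4, 2N') ℓ ∣ lcm(4, 2N)`
  have hcop : Nat.Coprime 4 ℓ := by
    have : Nat.Coprime 2 ℓ := (Nat.Prime.coprime_iff_not_dvd Nat.prime_two).2 hℓ
    exact Nat.Coprime.pow_left 2 this
  have h3 : ssm_f4_level N' * ℓ ∣ Nat.lcm 4 (2 * (N' * ℓ)) := by
    rw [ssm_f4_level]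
    have : 2 * (N' * ℓ) = (2 * N') * ℓ := by ring
    rw [this]
    -- `lcm(4, x) ℓ ∣ lcm(4, x ℓ)` for `ℓ` prime to `4`
    have hx : Nat.lcm 4 (2 * N') * ℓ = Nat.lcm (4 * ℓ) (2 * N' * ℓ) := by
      rw [Nat.lcm_mul_right]
    rw [hx]
    refine Nat.lcm_dvd ?_ (Nat.dvd_lcm_right _ _)
    refine Nat.Coprime.mul_dvd_of_dvd_of_dvd hcop (Nat.dvd_lcm_left _ _) ?_
    exact (Dvd.intro_left _ rfl).trans (Nat.dvd_lcm_right _ _)
  exact h3.trans (Nat.lcm_dvd_lcm_of_dvd_right 4 (mul_dvd_mul_left 2 h))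

/-- `λ(q^ℓ) ∈ lg_E L N` for odd `ℓ ∣ N`. -/
theorem ssm_f4_lam_expand_mem {ℓ : ℕ} [NeZero ℓ] (h : ℓ ∣ N) (hℓ : ¬ 2 ∣ ℓ) :
    qExpand L ℓ (lg_lam L) ∈ lg_E L N := by
  have h1 : (lg_E L 1).map (qExpandAlgHomC L ℓ) ≤ lg_E L N :=
    ssm_f4_E_map_le L N (by rwa [one_mul]) hℓ
  exact h1 ⟨lg_lam L, lg_lam_mem_E L 1, rfl⟩

end Main

end Fermat.Agent.SS
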