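import Mathlib
import Fermat.Agent.SS.SFC.FunField

/-!
# SS / model: the generic structure of the special fibre from a Kronecker congruence
(prefix `ssm_gf_`)

Abstract setting (Kummer–Dedekind at the generic points of the special fibre of a two-dimensional
chart).  `R` an integrally closed domain (the chart `B'` of the lower level), `π ∈ R` a prime
element, `E` a field containing `R` (the function field of the upper level), `v ∈ E` integral over
`R`, whose minimal polynomial satisfies the **Kronecker congruence**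

  `minpoly R v ≡ X · g  mod π`,   `g` monic, `ḡ` prime in `(R/π)[X]`, `π ∤ g(0)`.

`B` = the integral closure of `R` in `E` (elementwise: `IsIntegral R b`).  Then:

* `ssm_gf_order`  : `B ⊆ R_(π)[v]`: every `b ∈ B` has a denominator `s ∈ R ∖ πR` with `s b ∈ R[v]`;
* `ssm_gf_V1`, `ssm_gf_V2` : the two vertical primes `Q₁ ∋ v`, `Q₂ ∋ g(v)` of `B` (as predicates);
  they are prime, lie over `πR`, are the only primes of `B` over `πR` (`ssm_gf_unique`);
* `ssm_gf_inter` : `Q₁ ∩ Q₂ = π B` (the special fibre is reduced);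
* `ssm_gf_e1`, `ssm_gf_e2` : `π` generates `Q_i B_{Q_i}` (ramification index one);
* `ssm_gf_res1`  : if `R/π` is integrally closed then `B = R + Q₁` (`B/Q₁ = R/π`).
-/

set_option autoImplicit false
set_option linter.unusedSectionVars false
set_option linter.style.haveILetI false

namespace Fermat.Agent.SS

open Polynomial

section Red

variable {R : Type*} [CommRing R] (π : R)

/-- reduction of polynomials modulo `π` -/
noncomputable def ssm_gf_red : R[X] →+* (R ⧸ Ideal.span {π})[X] :=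
  Polynomial.mapRingHom (Ideal.Quotient.mk (Ideal.span {π}))

theorem ssm_gf_red_apply (h : R[X]) :
    ssm_gf_red π h = h.map (Ideal.Quotient.mk (Ideal.span {π})) := rfl

theorem ssm_gf_red_surjective : Function.Surjective (ssm_gf_red π) :=
  Polynomial.map_surjective _ Ideal.Quotient.mk_surjective

theorem ssm_gf_red_eq_zero_iff (h : R[X]) : ssm_gf_red π h = 0 ↔ ∃ h', h = C π * h' := by
  rw [ssm_gf_red_apply]
  constructor
  · intro h0
    have : C π ∣ h := by
      rw [Polynomial.C_dvd_iff_dvd_coeff]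
      intro i
      have := congrArg (fun q => q.coeff i) h0
      simp only [Polynomial.coeff_map, Polynomial.coeff_zero] at this
      rw [Ideal.Quotient.eq_zero_iff_mem, Ideal.mem_span_singleton] at this
      exact this
    exact this
  · rintro ⟨h', rfl⟩
    rw [Polynomial.map_mul, Polynomial.map_C]
    have : Ideal.Quotient.mk (Ideal.span {π}) π = 0 :=
      Ideal.Quotient.eq_zero_iff_mem.2 (Ideal.mem_span_singleton_self π)
    rw [this, C_0, zero_mul]

theorem ssm_gf_red_X : ssm_gf_red π X = X := by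
  rw [ssm_gf_red_apply, Polynomial.map_X]

theorem ssm_gf_red_C_eq_zero_iff (a : R) : ssm_gf_red π (C a) = 0 ↔ π ∣ a := by
  rw [ssm_gf_red_apply, Polynomial.map_C, Polynomial.C_eq_zero, Ideal.Quotient.eq_zero_iff_mem,
    Ideal.mem_span_singleton]

theorem ssm_gf_red_comp (p q : R[X]) :
    ssm_gf_red π (p.comp q) = (ssm_gf_red π p).comp (ssm_gf_red π q) :=
  Polynomial.map_comp _ _ _

/-- `X ∣ h̄ ↔ π ∣ h(0)`. -/
theorem ssm_gf_X_dvd_red_iff (h : R[X]) : X ∣ ssm_gf_red π h ↔ π ∣ h.coeff 0 := by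
  rw [Polynomial.X_dvd_iff, ssm_gf_red_apply, Polynomial.coeff_map,
    Ideal.Quotient.eq_zero_iff_mem, Ideal.mem_span_singleton]

end Red

section Main

variable {R : Type*} [CommRing R] [IsDomain R] [IsIntegrallyClosed R]
  {E : Type*} [Field E] [Algebra R E] [FaithfulSMul R E]

/-- **The Kronecker hypothesis.** `π` prime in `R`, `v ∈ E` integral over `R` with
`minpoly R v ≡ X · g mod π`, `g` monic, `ḡ` prime in `(R/π)[X]`, `π ∤ g(0)`; every element of `E`
integral over `R` lies in `Frac(R)[v]` (`gen`), and elements of `R` have finite `π`-multiplicity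
(`fin`; automatic when `R` is noetherian). -/
structure ssm_gf_Hyp (π : R) (v : E) (g : R[X]) : Prop where
  prime : Prime π
  int : IsIntegral R v
  monic : g.Monic
  cong : ∃ r : R[X], minpoly R v = X * g + C π * r
  gprime : Prime (ssm_gf_red π g)
  g0 : ¬ π ∣ g.coeff 0
  gen : ∀ b : E, IsIntegral R b → ∃ a : R, a ≠ 0 ∧ ∃ h : R[X], algebraMap R E a * b = aeval v h
  fin : ∀ a : R, a ≠ 0 → ∃ (k : ℕ) (s : R), ¬ π ∣ s ∧ a = π ^ k * s

variable {π : R} {v : E} {g : R[X]}

theorem ssm_gf_Hyp.isPrime (H : ssm_gf_Hyp π v g) : (Ideal.span {π} : Ideal R).IsPrime :=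
  (Ideal.span_singleton_prime H.prime.ne_zero).2 H.prime

theorem ssm_gf_Hyp.isDomain (H : ssm_gf_Hyp π v g) : IsDomain (R ⧸ (Ideal.span {π} : Ideal R)) :=
  haveI := H.isPrime
  Ideal.Quotient.isDomain _

theorem ssm_gf_Hyp.algebraMap_ne_zero (H : ssm_gf_Hyp π v g) : algebraMap R E π ≠ 0 :=
  (map_ne_zero_iff _ (FaithfulSMul.algebraMap_injective R E)).2 H.prime.ne_zero

theorem ssm_gf_Hyp.redF (H : ssm_gf_Hyp π v g) :
    ssm_gf_red π (minpoly R v) = X * ssm_gf_red π g := by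
  obtain ⟨r, hr⟩ := H.cong
  rw [hr, map_add, map_mul, map_mul, ssm_gf_red_X,
    (ssm_gf_red_eq_zero_iff π (C π)).2 ⟨1, (mul_one _).symm⟩, zero_mul, add_zero]

theorem ssm_gf_Hyp.not_X_dvd (H : ssm_gf_Hyp π v g) : ¬ X ∣ ssm_gf_red π g := by
  rw [ssm_gf_X_dvd_red_iff]
  exact H.g0

/-- kernel of evaluation at `v` -/
theorem ssm_gf_Hyp.aeval_eq_zero_iff (H : ssm_gf_Hyp π v g) (h : R[X]) :
    aeval v h = 0 ↔ minpoly R v ∣ h :=
  minpoly.isIntegrallyClosed_dvd_iff H.int h

theorem ssm_gf_Hyp.aeval_eq_iff (H : ssm_gf_Hyp π v g) (h₁ h₂ : R[X]) :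
    aeval v h₁ = aeval v h₂ ↔ minpoly R v ∣ h₁ - h₂ := by
  rw [← H.aeval_eq_zero_iff, map_sub, sub_eq_zero]

/-- equal values at `v` have congruent reductions modulo `X ḡ` -/
theorem ssm_gf_Hyp.red_dvd_sub (H : ssm_gf_Hyp π v g) {h₁ h₂ : R[X]}
    (h : aeval v h₁ = aeval v h₂) :
    X * ssm_gf_red π g ∣ ssm_gf_red π h₁ - ssm_gf_red π h₂ := by
  rw [← H.redF, ← map_sub]
  exact _root_.map_dvd (ssm_gf_red π) ((H.aeval_eq_iff h₁ h₂).1 h)

/-- **membership in `π R[v]`**: `h(v) ∈ π R[v] ↔ X ḡ ∣ h̄`. -/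
theorem ssm_gf_Hyp.mem_piM_iff (H : ssm_gf_Hyp π v g) (h : R[X]) :
    (∃ h' : R[X], aeval v h = algebraMap R E π * aeval v h') ↔
      X * ssm_gf_red π g ∣ ssm_gf_red π h := by
  constructor
  · rintro ⟨h', hh'⟩
    have h1 : aeval v h = aeval v (C π * h') := by
      rw [hh', map_mul, aeval_C]
    have h2 := H.red_dvd_sub h1
    have h3 : ssm_gf_red π (C π * h') = 0 := (ssm_gf_red_eq_zero_iff π _).2 ⟨h', rfl⟩
    rwa [h3, sub_zero] at h2
  · rintro ⟨k, hk⟩
    obtain ⟨k', rfl⟩ := ssm_gf_red_surjective π k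
    have h0 : ssm_gf_red π (h - minpoly R v * k') = 0 := by
      rw [map_sub, map_mul, H.redF, hk, sub_self]
    obtain ⟨h', hh'⟩ := (ssm_gf_red_eq_zero_iff π _).1 h0
    refine ⟨h', ?_⟩
    have : h = minpoly R v * k' + C π * h' := by rw [← hh']; ring
    rw [this, map_add, map_mul, map_mul, minpoly.aeval, zero_mul, zero_add, aeval_C]

/-- `X` and `ḡ` are coprime primes of the domain `(R/π)[X]`. -/
theorem ssm_gf_Hyp.mul_dvd (H : ssm_gf_Hyp π v g) {k : (R ⧸ (Ideal.span {π} : Ideal R))[X]}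
    (h1 : X ∣ k) (h2 : ssm_gf_red π g ∣ k) : X * ssm_gf_red π g ∣ k := by
  haveI := H.isDomain
  obtain ⟨c, rfl⟩ := h2
  have hX : Prime (X : (R ⧸ (Ideal.span {π} : Ideal R))[X]) := Polynomial.prime_X
  rcases hX.dvd_or_dvd h1 with h | h
  · exact absurd h H.not_X_dvd
  · obtain ⟨d, rfl⟩ := h
    exact ⟨d, by ring⟩

/-- `R[v] / π` is reduced. -/
theorem ssm_gf_Hyp.dvd_of_dvd_pow (H : ssm_gf_Hyp π v g)
    {k : (R ⧸ (Ideal.span {π} : Ideal R))[X]} {d : ℕ}
    (h : X * ssm_gf_red π g ∣ k ^ d) : X * ssm_gf_red π g ∣ k := by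
  haveI := H.isDomain
  have hX : Prime (X : (R ⧸ (Ideal.span {π} : Ideal R))[X]) := Polynomial.prime_X
  exact H.mul_dvd (hX.dvd_of_dvd_pow ((dvd_mul_right _ _).trans h))
    (H.gprime.dvd_of_dvd_pow ((dvd_mul_left _ _).trans h))

omit [IsDomain R] [IsIntegrallyClosed R] in
/-- the reduction of `p.scaleRoots s` is `X ^ deg p` when `s ≡ 0` and `p` is monic -/
theorem ssm_gf_red_scaleRoots {p : R[X]} (hp : p.Monic) {s : R} (hs : π ∣ s) :
    ssm_gf_red π (p.scaleRoots s) = X ^ p.natDegree := by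
  have hs0 : Ideal.Quotient.mk (Ideal.span {π}) s = 0 :=
    Ideal.Quotient.eq_zero_iff_mem.2 (Ideal.mem_span_singleton.2 hs)
  ext i
  rw [ssm_gf_red_apply, Polynomial.coeff_map, Polynomial.coeff_scaleRoots, Polynomial.coeff_X_pow,
    map_mul, map_pow, hs0]
  rcases lt_trichotomy i p.natDegree with hi | hi | hi
  · rw [if_neg hi.ne, zero_pow (Nat.sub_ne_zero_of_lt hi), mul_zero]
  · rw [if_pos hi, hi, Nat.sub_self, pow_zero, mul_one, Polynomial.coeff_natDegree,
      hp.leadingCoeff, map_one]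
  · rw [if_neg hi.ne', Polynomial.coeff_eq_zero_of_natDegree_lt hi, map_zero, zero_mul]

/-- descent of the denominator `π ^ k` -/
theorem ssm_gf_Hyp.descent (H : ssm_gf_Hyp π v g) (k : ℕ) :
    ∀ z : E, IsIntegral R z → (∃ h : R[X], algebraMap R E π ^ k * z = aeval v h) →
      ∃ h : R[X], z = aeval v h := by
  induction k with
  | zero =>
    rintro z - ⟨h, hh⟩
    exact ⟨h, by rw [← hh, pow_zero, one_mul]⟩
  | succ k ih =>
    rintro z hz ⟨h, hh⟩
    apply ih z hz
    set p := minpoly R z with hp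
    have hpm : p.Monic := minpoly.monic hz
    have h1 : aeval (algebraMap R E (π ^ (k + 1)) * z) (p.scaleRoots (π ^ (k + 1))) = 0 :=
      Polynomial.scaleRoots_aeval_eq_zero (minpoly.aeval R z)
    rw [map_pow, hh, ← Polynomial.aeval_comp] at h1
    have h2 : minpoly R v ∣ (p.scaleRoots (π ^ (k + 1))).comp h := (H.aeval_eq_zero_iff _).1 h1
    have h3 : X * ssm_gf_red π g ∣ ssm_gf_red π h ^ p.natDegree := by
      have := _root_.map_dvd (ssm_gf_red π) h2
      rw [H.redF, ssm_gf_red_comp,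
        ssm_gf_red_scaleRoots hpm (dvd_pow_self π (Nat.succ_ne_zero k)),
        Polynomial.X_pow_comp] at this
      exact this
    obtain ⟨h', hh'⟩ := (H.mem_piM_iff h).2 (H.dvd_of_dvd_pow h3)
    refine ⟨h', ?_⟩
    have hϖ := H.algebraMap_ne_zero
    apply mul_left_cancel₀ hϖ
    rw [← hh', ← hh, pow_succ]
    ring

/-- **`B ⊆ R_(π)[v]`**: every element of `E` integral over `R` has a denominator `s ∈ R ∖ πR`
with `s b ∈ R[v]`. -/
theorem ssm_gf_Hyp.order (H : ssm_gf_Hyp π v g) {b : E} (hb : IsIntegral R b) :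
    ∃ s : R, ¬ π ∣ s ∧ ∃ h : R[X], algebraMap R E s * b = aeval v h := by
  obtain ⟨a, ha, h, hh⟩ := H.gen b hb
  obtain ⟨k, s, hs, rfl⟩ := H.fin a ha
  refine ⟨s, hs, ?_⟩
  apply H.descent k _ (isIntegral_algebraMap.mul hb)
  exact ⟨h, by rw [← hh, map_mul, map_pow, mul_assoc]⟩

/-! ### the vertical primes -/

/-- membership in the vertical prime attached to a prime factor `P` of `X ḡ`: `b ∈ Q_P` iff
`s b = h(v)` with `s ∉ πR` and `P ∣ h̄`. -/
def ssm_gf_VP (π : R) (v : E) (P : (R ⧸ (Ideal.span {π} : Ideal R))[X]) (b : E) : Prop :=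
  ∃ s : R, ¬ π ∣ s ∧ ∃ h : R[X], algebraMap R E s * b = aeval v h ∧ P ∣ ssm_gf_red π h

/-- the hypotheses on a prime factor `P` of `X ḡ` -/
structure ssm_gf_Factor (π : R) (g : R[X]) (P : (R ⧸ (Ideal.span {π} : Ideal R))[X]) : Prop where
  prime : Prime P
  dvd : P ∣ X * ssm_gf_red π g
  const : ∀ a : R, P ∣ ssm_gf_red π (C a) → π ∣ a

variable {P : (R ⧸ (Ideal.span {π} : Ideal R))[X]}

/-- independence of the representation -/
theorem ssm_gf_Hyp.VP_indep (H : ssm_gf_Hyp π v g) (hP : ssm_gf_Factor π g P) {b : E}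
    (hb : ssm_gf_VP π v P b) {s : R} {h : R[X]}
    (hh : algebraMap R E s * b = aeval v h) : P ∣ ssm_gf_red π h := by
  obtain ⟨s', hs', h', hh', hP'⟩ := hb
  have h1 : aeval v (C s' * h) = aeval v (C s * h') := by
    have e1 : aeval v (C s' * h) = algebraMap R E s' * aeval v h := by rw [map_mul, aeval_C]
    have e2 : aeval v (C s * h') = algebraMap R E s * aeval v h' := by rw [map_mul, aeval_C]
    rw [e1, e2, ← hh, ← hh']
    ring
  have h2 : P ∣ ssm_gf_red π (C s' * h) - ssm_gf_red π (C s * h') :=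
    hP.dvd.trans (H.red_dvd_sub h1)
  have h3 : P ∣ ssm_gf_red π (C s' * h) := by
    have h4 : P ∣ ssm_gf_red π (C s * h') := by
      rw [map_mul]; exact Dvd.dvd.mul_left hP' _
    have := dvd_add h2 h4
    rwa [sub_add_cancel] at this
  rw [map_mul] at h3
  rcases hP.prime.dvd_or_dvd h3 with h5 | h5
  · exact absurd (hP.const s' h5) hs'
  · exact h5

theorem ssm_gf_Hyp.VP_iff (H : ssm_gf_Hyp π v g) (hP : ssm_gf_Factor π g P) {b : E}
    {s : R} (hs : ¬ π ∣ s) {h : R[X]} (hh : algebraMap R E s * b = aeval v h) :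
    ssm_gf_VP π v P b ↔ P ∣ ssm_gf_red π h :=
  ⟨fun hb => H.VP_indep hP hb hh, fun hd => ⟨s, hs, h, hh, hd⟩⟩

omit [IsDomain R] [IsIntegrallyClosed R] [FaithfulSMul R E] in
theorem ssm_gf_VP_zero (hπ : ¬ IsUnit π) : ssm_gf_VP π v P 0 :=
  ⟨1, fun h => hπ (isUnit_of_dvd_one h), 0, by simp, by simp⟩

theorem ssm_gf_Hyp.VP_add (H : ssm_gf_Hyp π v g) {b c : E}
    (hb : ssm_gf_VP π v P b) (hc : ssm_gf_VP π v P c) : ssm_gf_VP π v P (b + c) := by
  obtain ⟨s, hs, h, hh, hd⟩ := hb
  obtain ⟨s', hs', h', hh', hd'⟩ := hc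
  refine ⟨s * s', fun hdv => ?_, C s' * h + C s * h', ?_, ?_⟩
  · rcases H.prime.dvd_or_dvd hdv with h1 | h1
    · exact hs h1
    · exact hs' h1
  · have e1 : aeval v (C s' * h) = algebraMap R E s' * aeval v h := by rw [map_mul, aeval_C]
    have e2 : aeval v (C s * h') = algebraMap R E s * aeval v h' := by rw [map_mul, aeval_C]
    rw [map_add, e1, e2, ← hh, ← hh', map_mul]
    ring
  · rw [map_add, map_mul, map_mul]
    exact dvd_add (Dvd.dvd.mul_left hd _) (Dvd.dvd.mul_left hd' _)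

omit [IsDomain R] [IsIntegrallyClosed R] [FaithfulSMul R E] in
theorem ssm_gf_VP_neg {b : E} (hb : ssm_gf_VP π v P b) : ssm_gf_VP π v P (-b) := by
  obtain ⟨s, hs, h, hh, hd⟩ := hb
  exact ⟨s, hs, -h, by rw [map_neg, ← hh, mul_neg], by rw [map_neg]; exact (dvd_neg).2 hd⟩

/-- `Q_P` is stable under multiplication by `B`. -/
theorem ssm_gf_Hyp.VP_mul (H : ssm_gf_Hyp π v g) {b c : E} (hc : IsIntegral R c)
    (hb : ssm_gf_VP π v P b) : ssm_gf_VP π v P (c * b) := by
  obtain ⟨s, hs, h, hh, hd⟩ := hb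
  obtain ⟨s', hs', h', hh'⟩ := H.order hc
  refine ⟨s' * s, fun hdv => ?_, h' * h, ?_, ?_⟩
  · rcases H.prime.dvd_or_dvd hdv with h1 | h1
    · exact hs' h1
    · exact hs h1
  · rw [map_mul, map_mul, ← hh, ← hh']
    ring
  · rw [map_mul]
    exact Dvd.dvd.mul_left hd _

/-- `Q_P` is a prime ideal of `B`. -/
theorem ssm_gf_Hyp.VP_prime (H : ssm_gf_Hyp π v g) (hP : ssm_gf_Factor π g P) {b c : E}
    (hb : IsIntegral R b) (hc : IsIntegral R c) (hbc : ssm_gf_VP π v P (b * c)) :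
    ssm_gf_VP π v P b ∨ ssm_gf_VP π v P c := by
  obtain ⟨s, hs, h, hh⟩ := H.order hb
  obtain ⟨s', hs', h', hh'⟩ := H.order hc
  have h1 : algebraMap R E (s * s') * (b * c) = aeval v (h * h') := by
    rw [map_mul, map_mul, ← hh, ← hh']
    ring
  have h2 := H.VP_indep hP hbc h1
  rw [map_mul] at h2
  rcases hP.prime.dvd_or_dvd h2 with h3 | h3
  · exact Or.inl ⟨s, hs, h, hh, h3⟩
  · exact Or.inr ⟨s', hs', h', hh', h3⟩

/-- `Q_P ∩ R = πR`. -/
theorem ssm_gf_Hyp.VP_algebraMap (H : ssm_gf_Hyp π v g) (hP : ssm_gf_Factor π g P) (a : R) :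
    ssm_gf_VP π v P (algebraMap R E a) ↔ π ∣ a := by
  have h1 : algebraMap R E 1 * algebraMap R E a = aeval v (C a) := by
    rw [map_one, one_mul, aeval_C]
  have h1' : ¬ π ∣ (1 : R) := fun h => H.prime.not_isUnit (isUnit_of_dvd_one h)
  rw [H.VP_iff hP h1' h1]
  constructor
  · exact hP.const a
  · intro h
    rw [(ssm_gf_red_C_eq_zero_iff π a).2 h]
    exact dvd_zero _

theorem ssm_gf_Hyp.VP_not_one (H : ssm_gf_Hyp π v g) (hP : ssm_gf_Factor π g P) :
    ¬ ssm_gf_VP π v P 1 := by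
  intro h
  have := (H.VP_algebraMap hP 1).1 (by rwa [map_one])
  exact H.prime.not_isUnit (isUnit_of_dvd_one this)

/-! ### the two primes `Q₁ ∋ v` and `Q₂ ∋ g(v)` -/

theorem ssm_gf_Hyp.factor1 (H : ssm_gf_Hyp π v g) : ssm_gf_Factor π g X := by
  haveI := H.isDomain
  refine ⟨Polynomial.prime_X, dvd_mul_right _ _, fun a ha => ?_⟩
  have := (ssm_gf_X_dvd_red_iff π (C a)).1 ha
  rwa [Polynomial.coeff_C_zero] at this

theorem ssm_gf_Hyp.factor2 (H : ssm_gf_Hyp π v g) : ssm_gf_Factor π g (ssm_gf_red π g) := by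
  haveI := H.isDomain
  refine ⟨H.gprime, dvd_mul_left _ _, fun a ha => ?_⟩
  rw [← ssm_gf_red_C_eq_zero_iff]
  have hm : (ssm_gf_red π g).Monic := H.monic.map _
  have hdeg : 0 < (ssm_gf_red π g).natDegree := by
    rcases Nat.eq_zero_or_pos (ssm_gf_red π g).natDegree with h0 | h0
    · exfalso
      have h1 : ssm_gf_red π g = 1 := hm.natDegree_eq_zero.1 h0
      exact H.gprime.not_isUnit (h1 ▸ isUnit_one)
    · exact h0
  apply Polynomial.eq_zero_of_dvd_of_natDegree_lt ha
  rw [ssm_gf_red_apply, Polynomial.map_C, Polynomial.natDegree_C]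
  exact hdeg

/-- `b ∈ Q₁` (the vertical prime containing `v`). -/
def ssm_gf_V1 (π : R) (v : E) (b : E) : Prop := ssm_gf_VP π v X b

/-- `b ∈ Q₂` (the vertical prime containing `g(v)`). -/
def ssm_gf_V2 (π : R) (v : E) (g : R[X]) (b : E) : Prop := ssm_gf_VP π v (ssm_gf_red π g) b

theorem ssm_gf_Hyp.v_mem_V1 (H : ssm_gf_Hyp π v g) : ssm_gf_V1 π v v :=
  ⟨1, fun h => H.prime.not_isUnit (isUnit_of_dvd_one h), X, by rw [map_one, one_mul, aeval_X],
    by rw [ssm_gf_red_X]⟩

theorem ssm_gf_Hyp.g_mem_V2 (H : ssm_gf_Hyp π v g) : ssm_gf_V2 π v g (aeval v g) :=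
  ⟨1, fun h => H.prime.not_isUnit (isUnit_of_dvd_one h), g, by rw [map_one, one_mul],
    dvd_refl _⟩

theorem ssm_gf_Hyp.g_not_mem_V1 (H : ssm_gf_Hyp π v g) : ¬ ssm_gf_V1 π v (aeval v g) := by
  intro h
  have h1 : algebraMap R E 1 * aeval v g = aeval v g := by rw [map_one, one_mul]
  exact H.not_X_dvd (H.VP_indep H.factor1 h h1)

theorem ssm_gf_Hyp.v_not_mem_V2 (H : ssm_gf_Hyp π v g) : ¬ ssm_gf_V2 π v g v := by
  intro h
  haveI := H.isDomain
  have h1 : algebraMap R E 1 * v = aeval v (X : R[X]) := by rw [map_one, one_mul, aeval_X]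
  have h2 := H.VP_indep H.factor2 h h1
  rw [ssm_gf_red_X] at h2
  -- `ḡ ∣ X` with `ḡ` prime and `X` irreducible: `ḡ` associated to `X`, so `X ∣ ḡ`
  have hX : Irreducible (X : (R ⧸ (Ideal.span {π} : Ideal R))[X]) := Polynomial.irreducible_X
  obtain ⟨c, hc⟩ := h2
  rcases hX.isUnit_or_isUnit hc with h3 | h3
  · exact H.gprime.not_isUnit h3
  · apply H.not_X_dvd
    obtain ⟨u, rfl⟩ := h3
    refine ⟨((u⁻¹ : ((R ⧸ (Ideal.span {π} : Ideal R))[X])ˣ) :
      (R ⧸ (Ideal.span {π} : Ideal R))[X]), ?_⟩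
    rw [hc, mul_assoc, Units.mul_inv, mul_one]

/-- **`Q₁ ∩ Q₂ = π B`**: the special fibre is reduced. -/
theorem ssm_gf_Hyp.inter (H : ssm_gf_Hyp π v g) {b : E} (hb : IsIntegral R b)
    (h1 : ssm_gf_V1 π v b) (h2 : ssm_gf_V2 π v g b) :
    ∃ c : E, IsIntegral R c ∧ b = algebraMap R E π * c := by
  obtain ⟨s, hs, h, hh⟩ := H.order hb
  have hd := H.mul_dvd (H.VP_indep H.factor1 h1 hh) (H.VP_indep H.factor2 h2 hh)
  obtain ⟨h', hh'⟩ := (H.mem_piM_iff h).2 hd
  have hint : IsIntegral R (aeval v h') := by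
    have : aeval v h' ∈ Algebra.adjoin R {v} := by
      rw [Algebra.adjoin_singleton_eq_range_aeval]
      exact ⟨h', rfl⟩
    exact IsIntegral.of_mem_of_fg _ H.int.fg_adjoin_singleton _ this
  exact sfc_ff_nzd H.prime hs hb hint (by rw [hh, hh'])

/-- **`e(Q₁) = 1`**: `π` generates `Q₁ B_{Q₁}`. -/
theorem ssm_gf_Hyp.e1 (H : ssm_gf_Hyp π v g) {z : E} (hz : IsIntegral R z)
    (h1 : ssm_gf_V1 π v z) :
    ∃ t : E, IsIntegral R t ∧ ¬ ssm_gf_V1 π v t ∧
      ∃ c : E, IsIntegral R c ∧ t * z = algebraMap R E π * c := by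
  obtain ⟨s, hs, h, hh⟩ := H.order hz
  have hX := H.VP_indep H.factor1 h1 hh
  have hint : ∀ k : R[X], IsIntegral R (aeval v k) := fun k => by
    have : aeval v k ∈ Algebra.adjoin R {v} := by
      rw [Algebra.adjoin_singleton_eq_range_aeval]
      exact ⟨k, rfl⟩
    exact IsIntegral.of_mem_of_fg _ H.int.fg_adjoin_singleton _ this
  have hd : X * ssm_gf_red π g ∣ ssm_gf_red π (g * h) := by
    rw [map_mul, mul_comm X]
    exact mul_dvd_mul_left _ hX
  obtain ⟨h', hh'⟩ := (H.mem_piM_iff (g * h)).2 hd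
  refine ⟨aeval v (C s * g), hint _, ?_, aeval v h', hint _, ?_⟩
  · intro hV
    have e1 : algebraMap R E 1 * aeval v (C s * g) = aeval v (C s * g) := by
      rw [map_one, one_mul]
    have h2 := H.VP_indep H.factor1 hV e1
    rw [map_mul] at h2
    rcases H.factor1.prime.dvd_or_dvd h2 with h3 | h3
    · exact hs (H.factor1.const s h3)
    · exact H.not_X_dvd h3
  · rw [← hh', map_mul, map_mul, aeval_C, ← hh]
    ring

/-- **`e(Q₂) = 1`**: `π` generates `Q₂ B_{Q₂}`. -/
theorem ssm_gf_Hyp.e2 (H : ssm_gf_Hyp π v g) {z : E} (hz : IsIntegral R z)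
    (h2 : ssm_gf_V2 π v g z) :
    ∃ t : E, IsIntegral R t ∧ ¬ ssm_gf_V2 π v g t ∧
      ∃ c : E, IsIntegral R c ∧ t * z = algebraMap R E π * c := by
  obtain ⟨s, hs, h, hh⟩ := H.order hz
  have hG := H.VP_indep H.factor2 h2 hh
  have hint : ∀ k : R[X], IsIntegral R (aeval v k) := fun k => by
    have : aeval v k ∈ Algebra.adjoin R {v} := by
      rw [Algebra.adjoin_singleton_eq_range_aeval]
      exact ⟨k, rfl⟩
    exact IsIntegral.of_mem_of_fg _ H.int.fg_adjoin_singleton _ this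
  have hd : X * ssm_gf_red π g ∣ ssm_gf_red π (X * h) := by
    rw [map_mul, ssm_gf_red_X]
    exact mul_dvd_mul_left _ hG
  obtain ⟨h', hh'⟩ := (H.mem_piM_iff (X * h)).2 hd
  refine ⟨aeval v (C s * X), hint _, ?_, aeval v h', hint _, ?_⟩
  · intro hV
    have e1 : algebraMap R E 1 * aeval v (C s * X) = aeval v (C s * X) := by
      rw [map_one, one_mul]
    have h3 := H.VP_indep H.factor2 hV e1
    rw [map_mul] at h3
    rcases H.factor2.prime.dvd_or_dvd h3 with h4 | h4
    · exact hs (H.factor2.const s h4)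
    · apply H.v_not_mem_V2
      exact ⟨1, fun h => H.prime.not_isUnit (isUnit_of_dvd_one h), X,
        by rw [map_one, one_mul, aeval_X], h4⟩
  · rw [← hh', map_mul, map_mul, aeval_C, aeval_X, ← hh]
    ring

/-! ### uniqueness: `Q₁`, `Q₂` are the only primes of `B` over `πR` -/

/-- an (elementwise) prime ideal of `B = integralClosure R E` lying over `πR` -/
structure ssm_gf_PrimeOver (π : R) (Q : E → Prop) : Prop where
  add : ∀ {b c : E}, Q b → Q c → Q (b + c)
  neg : ∀ {b : E}, Q b → Q (-b)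
  mul : ∀ {b c : E}, IsIntegral R c → Q b → Q (c * b)
  prime : ∀ {b c : E}, IsIntegral R b → IsIntegral R c → Q (b * c) → Q b ∨ Q c
  base : ∀ a : R, Q (algebraMap R E a) ↔ π ∣ a

theorem ssm_gf_Hyp.primeOver_VP (H : ssm_gf_Hyp π v g) (hP : ssm_gf_Factor π g P) :
    ssm_gf_PrimeOver π (ssm_gf_VP π v P) where
  add := H.VP_add
  neg := ssm_gf_VP_neg
  mul := H.VP_mul
  prime := H.VP_prime hP
  base := H.VP_algebraMap hP

theorem ssm_gf_Hyp.primeOver1 (H : ssm_gf_Hyp π v g) : ssm_gf_PrimeOver π (ssm_gf_V1 π v) :=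
  H.primeOver_VP H.factor1

theorem ssm_gf_Hyp.primeOver2 (H : ssm_gf_Hyp π v g) : ssm_gf_PrimeOver π (ssm_gf_V2 π v g) :=
  H.primeOver_VP H.factor2

theorem ssm_gf_Hyp.isIntegral_aeval (H : ssm_gf_Hyp π v g) (k : R[X]) :
    IsIntegral R (aeval v k) := by
  have : aeval v k ∈ Algebra.adjoin R {v} := by
    rw [Algebra.adjoin_singleton_eq_range_aeval]
    exact ⟨k, rfl⟩
  exact IsIntegral.of_mem_of_fg _ H.int.fg_adjoin_singleton _ this

omit [IsDomain R] [IsIntegrallyClosed R] [FaithfulSMul R E] in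
theorem ssm_gf_PrimeOver.sub {Q : E → Prop} (hQ : ssm_gf_PrimeOver π Q) {b c : E}
    (hb : Q b) (hc : Q c) : Q (b - c) := by
  rw [sub_eq_add_neg]
  exact hQ.add hb (hQ.neg hc)

omit [IsDomain R] [IsIntegrallyClosed R] [FaithfulSMul R E] in
theorem ssm_gf_PrimeOver.pi {Q : E → Prop} (hQ : ssm_gf_PrimeOver π Q) :
    Q (algebraMap R E π) := (hQ.base π).2 (dvd_refl π)

/-- `v · g(v) ∈ π R[v]`. -/
theorem ssm_gf_Hyp.v_mul_g (H : ssm_gf_Hyp π v g) :
    ∃ r : R[X], v * aeval v g = algebraMap R E π * aeval v r := by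
  obtain ⟨r, hr⟩ := H.cong
  refine ⟨-r, ?_⟩
  have h0 : aeval v (minpoly R v) = 0 := minpoly.aeval R v
  rw [hr, map_add, map_mul, map_mul, aeval_X, aeval_C] at h0
  rw [map_neg]
  linear_combination h0

theorem ssm_gf_Hyp.unique (H : ssm_gf_Hyp π v g) {Q : E → Prop} (hQ : ssm_gf_PrimeOver π Q) :
    (∀ b : E, IsIntegral R b → (Q b ↔ ssm_gf_V1 π v b)) ∨
      (∀ b : E, IsIntegral R b → (Q b ↔ ssm_gf_V2 π v g b)) := by
  haveI := H.isDomain
  have hQs : ∀ {s : R} {b : E}, ¬ π ∣ s → IsIntegral R b → Q (algebraMap R E s * b) → Q b := by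
    intro s b hs hb hsb
    rcases hQ.prime isIntegral_algebraMap hb hsb with h1 | h1
    · exact absurd ((hQ.base s).1 h1) hs
    · exact h1
  obtain ⟨r, hr⟩ := H.v_mul_g
  have hvg : Q (v * aeval v g) := by
    rw [hr, mul_comm]
    exact hQ.mul (H.isIntegral_aeval r) hQ.pi
  rcases hQ.prime H.int (H.isIntegral_aeval g) hvg with hv | hg
  · -- `v ∈ Q`: `Q = Q₁`
    left
    intro b hb
    have key : ∀ h : R[X], Q (aeval v h) ↔ π ∣ h.coeff 0 := by
      intro h
      have hdec : aeval v h = algebraMap R E (h.coeff 0) + aeval v h.divX * v := by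
        conv_lhs => rw [← Polynomial.divX_mul_X_add h]
        rw [map_add, map_mul, aeval_X, aeval_C]
        ring
      have hQ2 : Q (aeval v h.divX * v) := hQ.mul (H.isIntegral_aeval _) hv
      rw [← hQ.base]
      constructor
      · intro h1
        have := hQ.sub h1 hQ2
        rwa [hdec, add_sub_cancel_right] at this
      · intro h1
        rw [hdec]
        exact hQ.add h1 hQ2
    obtain ⟨s, hs, h, hh⟩ := H.order hb
    constructor
    · intro hQb
      refine ⟨s, hs, h, hh, ?_⟩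
      rw [ssm_gf_X_dvd_red_iff, ← key, ← hh]
      exact hQ.mul isIntegral_algebraMap hQb
    · intro hV
      apply hQs hs hb
      rw [hh, key, ← ssm_gf_X_dvd_red_iff]
      exact H.VP_indep H.factor1 hV hh
  · -- `g(v) ∈ Q`: `Q = Q₂`
    right
    intro b hb
    have key : ∀ h : R[X], Q (aeval v h) ↔ ssm_gf_red π g ∣ ssm_gf_red π h := by
      intro h
      constructor
      · intro hQh
        by_contra hnd
        haveI : IsDomain (AdjoinRoot (ssm_gf_red π g)) := AdjoinRoot.isDomain_of_prime H.gprime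
        haveI : Module.Finite (R ⧸ (Ideal.span {π} : Ideal R)) (AdjoinRoot (ssm_gf_red π g)) :=
          (H.monic.map _).finite_adjoinRoot
        haveI : Algebra.IsIntegral (R ⧸ (Ideal.span {π} : Ideal R))
          (AdjoinRoot (ssm_gf_red π g)) := Algebra.IsIntegral.of_finite _ _
        set x := AdjoinRoot.mk (ssm_gf_red π g) (ssm_gf_red π h) with hx
        have hx0 : x ≠ 0 := fun h0 => hnd (AdjoinRoot.mk_eq_zero.1 h0)
        have hne := Ideal.comap_ne_bot_of_integral_mem (R := R ⧸ (Ideal.span {π} : Ideal R))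
          (I := Ideal.span {x}) hx0 (Ideal.mem_span_singleton_self x)
          (Algebra.IsIntegral.isIntegral x)
        obtain ⟨a', ha', ha0⟩ := Submodule.exists_mem_ne_zero_of_ne_bot hne
        obtain ⟨a, rfl⟩ := Ideal.Quotient.mk_surjective a'
        rw [Ideal.mem_comap, Ideal.mem_span_singleton] at ha'
        obtain ⟨y, hy⟩ := ha'
        obtain ⟨k', rfl⟩ := AdjoinRoot.mk_surjective y
        obtain ⟨k, rfl⟩ := ssm_gf_red_surjective π k'
        rw [AdjoinRoot.algebraMap_eq, ← AdjoinRoot.mk_C, hx, ← map_mul, AdjoinRoot.mk_eq_mk] at hy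
        obtain ⟨l', hl'⟩ := hy
        obtain ⟨l, rfl⟩ := ssm_gf_red_surjective π l'
        have h0 : ssm_gf_red π (C a - h * k - g * l) = 0 := by
          rw [map_sub, map_sub, map_mul, map_mul, ← hl']
          have : ssm_gf_red π (C a) = C (Ideal.Quotient.mk (Ideal.span {π}) a) := by
            rw [ssm_gf_red_apply, Polynomial.map_C]
          rw [this]
          ring
        obtain ⟨m, hm⟩ := (ssm_gf_red_eq_zero_iff π _).1 h0
        have hCa : C a = h * k + g * l + C π * m := by rw [← hm]; ring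
        have hval := congrArg (aeval v) hCa
        rw [aeval_C, map_add, map_add, map_mul, map_mul, map_mul, aeval_C] at hval
        have hQa : Q (algebraMap R E a) := by
          rw [hval]
          refine hQ.add (hQ.add ?_ ?_) ?_
          · rw [mul_comm]; exact hQ.mul (H.isIntegral_aeval k) hQh
          · rw [mul_comm]; exact hQ.mul (H.isIntegral_aeval l) hg
          · rw [mul_comm]; exact hQ.mul (H.isIntegral_aeval m) hQ.pi
        apply ha0
        exact Ideal.Quotient.eq_zero_iff_mem.2 (Ideal.mem_span_singleton.2 ((hQ.base a).1 hQa))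
      · rintro ⟨k', hk'⟩
        obtain ⟨k, rfl⟩ := ssm_gf_red_surjective π k'
        have h0 : ssm_gf_red π (h - g * k) = 0 := by
          rw [map_sub, map_mul, hk', sub_self]
        obtain ⟨m, hm⟩ := (ssm_gf_red_eq_zero_iff π _).1 h0
        have hh' : h = g * k + C π * m := by rw [← hm]; ring
        rw [hh', map_add, map_mul, map_mul, aeval_C]
        refine hQ.add ?_ ?_
        · rw [mul_comm]; exact hQ.mul (H.isIntegral_aeval k) hg
        · rw [mul_comm]; exact hQ.mul (H.isIntegral_aeval m) hQ.pi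
    obtain ⟨s, hs, h, hh⟩ := H.order hb
    constructor
    · intro hQb
      refine ⟨s, hs, h, hh, ?_⟩
      rw [← key, ← hh]
      exact hQ.mul isIntegral_algebraMap hQb
    · intro hV
      apply hQs hs hb
      rw [hh, key]
      exact H.VP_indep H.factor2 hV hh

/-! ### the residue ring of `Q₁` -/

/-- **`B = R + Q₁`** when `R/π` is integrally closed: the component `Q₁` of the special fibre maps
isomorphically onto the special fibre of `R` (`f(Q₁) = 1`, and `R/π` is normal). -/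
theorem ssm_gf_Hyp.res1 (H : ssm_gf_Hyp π v g)
    [IsIntegrallyClosed (R ⧸ (Ideal.span {π} : Ideal R))] {b : E} (hb : IsIntegral R b) :
    ∃ a : R, ssm_gf_V1 π v (b - algebraMap R E a) := by
  haveI := H.isDomain
  obtain ⟨s, hs, h, hh⟩ := H.order hb
  set A := R ⧸ (Ideal.span {π} : Ideal R) with hA
  set mk := Ideal.Quotient.mk (Ideal.span {π} : Ideal R) with hmk
  have hs0 : mk s ≠ 0 := fun h0 =>
    hs (Ideal.mem_span_singleton.1 (Ideal.Quotient.eq_zero_iff_mem.1 h0))
  -- `q = p.scaleRoots s` kills `s b = h(v)`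
  set p := minpoly R b with hp
  have hpm : p.Monic := minpoly.monic hb
  have h1 : aeval (algebraMap R E s * b) (p.scaleRoots s) = 0 :=
    Polynomial.scaleRoots_aeval_eq_zero (minpoly.aeval R b)
  rw [hh, ← Polynomial.aeval_comp] at h1
  have h2 : minpoly R v ∣ (p.scaleRoots s).comp h := (H.aeval_eq_zero_iff _).1 h1
  have h3 : X ∣ (ssm_gf_red π (p.scaleRoots s)).comp (ssm_gf_red π h) := by
    have := _root_.map_dvd (ssm_gf_red π) h2
    rw [H.redF, ssm_gf_red_comp] at this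
    exact (dvd_mul_right _ _).trans this
  rw [Polynomial.X_dvd_iff, Polynomial.coeff_zero_eq_eval_zero, Polynomial.eval_comp,
    ← Polynomial.coeff_zero_eq_eval_zero] at h3
  -- the reduction of `p.scaleRoots s` is `p̄.scaleRoots s̄`
  have h4 : ssm_gf_red π (p.scaleRoots s) = (ssm_gf_red π p).scaleRoots (mk s) := by
    rw [ssm_gf_red_apply, ssm_gf_red_apply, Polynomial.map_scaleRoots]
    rw [hpm.leadingCoeff, map_one]
    exact one_ne_zero
  rw [h4] at h3
  -- the root `h̄(0) / s̄` of `p̄` in `Frac A` lies in `A`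
  set K := FractionRing A
  set c0 := (ssm_gf_red π h).coeff 0 with hc0
  have hsK : algebraMap A K (mk s) ≠ 0 :=
    (map_ne_zero_iff _ (IsFractionRing.injective A K)).2 hs0
  have h5 : eval₂ (algebraMap A K) (algebraMap A K c0 / algebraMap A K (mk s))
      (ssm_gf_red π p) = 0 := by
    have h6 := Polynomial.scaleRoots_eval₂_mul (p := ssm_gf_red π p) (algebraMap A K)
      (algebraMap A K c0 / algebraMap A K (mk s)) (mk s)
    rw [mul_div_cancel₀ _ hsK, Polynomial.eval₂_at_apply, h3, map_zero] at h6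
    exact (mul_eq_zero.1 h6.symm).resolve_left (pow_ne_zero _ hsK)
  have hint : IsIntegral A (algebraMap A K c0 / algebraMap A K (mk s)) :=
    ⟨ssm_gf_red π p, hpm.map _, h5⟩
  obtain ⟨a', ha'⟩ := (IsIntegrallyClosed.isIntegral_iff (R := A) (K := K)).1 hint
  obtain ⟨a, rfl⟩ := Ideal.Quotient.mk_surjective a'
  have h7 : c0 = mk s * mk a := by
    apply IsFractionRing.injective A K
    rw [map_mul, ha', mul_div_cancel₀ _ hsK]
  refine ⟨a, s, hs, h - C (s * a), ?_, ?_⟩
  · rw [map_sub, aeval_C, ← hh, map_mul]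
    ring
  · rw [ssm_gf_X_dvd_red_iff, Polynomial.coeff_sub, Polynomial.coeff_C_zero]
    have h8 : mk (h.coeff 0 - s * a) = 0 := by
      have : mk (h.coeff 0) = c0 := by
        rw [hc0, ssm_gf_red_apply, Polynomial.coeff_map]
      rw [map_sub, map_mul, this, h7, sub_self]
    exact Ideal.mem_span_singleton.1 (Ideal.Quotient.eq_zero_iff_mem.1 h8)

/-! ### ideal form -/

/-- the vertical prime `Q_P` as an ideal of `B = integralClosure R E` -/
def ssm_gf_Hyp.Q (H : ssm_gf_Hyp π v g) (P : (R ⧸ (Ideal.span {π} : Ideal R))[X]) :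
    Ideal (integralClosure R E) where
  carrier := {b | ssm_gf_VP π v P (b : E)}
  add_mem' := fun hb hc => H.VP_add hb hc
  zero_mem' := ssm_gf_VP_zero H.prime.not_isUnit
  smul_mem' := fun c _ hb => H.VP_mul c.2 hb

theorem ssm_gf_Hyp.mem_Q (H : ssm_gf_Hyp π v g) {b : integralClosure R E} :
    b ∈ H.Q P ↔ ssm_gf_VP π v P (b : E) := Iff.rfl

theorem ssm_gf_Hyp.Q_isPrime (H : ssm_gf_Hyp π v g) (hP : ssm_gf_Factor π g P) :
    (H.Q P).IsPrime := by
  refine ⟨fun htop => ?_, fun {b c} hbc => ?_⟩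
  · have : (1 : integralClosure R E) ∈ H.Q P := by rw [htop]; trivial
    exact H.VP_not_one hP this
  · exact H.VP_prime hP b.2 c.2 hbc

theorem ssm_gf_Hyp.Q_comap (H : ssm_gf_Hyp π v g) (hP : ssm_gf_Factor π g P) :
    (H.Q P).comap (algebraMap R (integralClosure R E)) = Ideal.span {π} := by
  ext a
  rw [Ideal.mem_comap, Ideal.mem_span_singleton, H.mem_Q]
  exact H.VP_algebraMap hP a

/-- **`Q₁ ⊓ Q₂ = π B`.** -/
theorem ssm_gf_Hyp.Q_inf (H : ssm_gf_Hyp π v g) :
    H.Q X ⊓ H.Q (ssm_gf_red π g) =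
      Ideal.span {algebraMap R (integralClosure R E) π} := by
  ext b
  rw [Ideal.mem_inf, Ideal.mem_span_singleton]
  constructor
  · rintro ⟨h1, h2⟩
    obtain ⟨c, hc, hbc⟩ := H.inter b.2 h1 h2
    exact ⟨⟨c, hc⟩, Subtype.ext hbc⟩
  · rintro ⟨c, rfl⟩
    have h0 : ((algebraMap R (integralClosure R E) π * c : integralClosure R E) : E) =
        (c : E) * algebraMap R E π := by
      rw [mul_comm]; rfl
    constructor
    · rw [H.mem_Q, h0]
      exact H.VP_mul c.2 ((H.VP_algebraMap H.factor1 π).2 (dvd_refl π))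
    · rw [H.mem_Q, h0]
      exact H.VP_mul c.2 ((H.VP_algebraMap H.factor2 π).2 (dvd_refl π))

/-- **`Q₁`, `Q₂` are the only primes of `B` over `πR`.** -/
theorem ssm_gf_Hyp.Q_unique (H : ssm_gf_Hyp π v g) (Q : Ideal (integralClosure R E)) [Q.IsPrime]
    (hQ : Q.comap (algebraMap R (integralClosure R E)) = Ideal.span {π}) :
    Q = H.Q X ∨ Q = H.Q (ssm_gf_red π g) := by
  have hPO : ssm_gf_PrimeOver π (fun b : E => ∃ hb : IsIntegral R b,
      (⟨b, hb⟩ : integralClosure R E) ∈ Q) := by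
    refine ⟨?_, ?_, ?_, ?_, ?_⟩
    · rintro b c ⟨hb, hbQ⟩ ⟨hc, hcQ⟩
      exact ⟨hb.add hc, Q.add_mem hbQ hcQ⟩
    · rintro b ⟨hb, hbQ⟩
      exact ⟨hb.neg, Q.neg_mem hbQ⟩
    · rintro b c hc ⟨hb, hbQ⟩
      exact ⟨hc.mul hb, Q.mul_mem_left ⟨c, hc⟩ hbQ⟩
    · rintro b c hb hc ⟨hbc, hbcQ⟩
      have : (⟨b, hb⟩ : integralClosure R E) * ⟨c, hc⟩ ∈ Q := hbcQ
      rcases Ideal.IsPrime.mem_or_mem inferInstance this with h1 | h1
      · exact Or.inl ⟨hb, h1⟩
      · exact Or.inr ⟨hc, h1⟩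
    · intro a
      have h1 : a ∈ Q.comap (algebraMap R (integralClosure R E)) ↔ π ∣ a := by
        rw [hQ, Ideal.mem_span_singleton]
      rw [← h1, Ideal.mem_comap]
      constructor
      · rintro ⟨_, h2⟩
        exact h2
      · intro h2
        exact ⟨isIntegral_algebraMap, h2⟩
  rcases H.unique hPO with h1 | h1
  · left
    ext b
    rw [H.mem_Q, ← ssm_gf_V1, ← h1 b b.2]
    exact ⟨fun hb => ⟨b.2, hb⟩, fun ⟨_, hb⟩ => hb⟩
  · right
    ext b
    rw [H.mem_Q, ← ssm_gf_V2, ← h1 b b.2]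
    exact ⟨fun hb => ⟨b.2, hb⟩, fun ⟨_, hb⟩ => hb⟩

theorem ssm_gf_Hyp.Q_ne (H : ssm_gf_Hyp π v g) : H.Q X ≠ H.Q (ssm_gf_red π g) := by
  intro h
  have h1 : (⟨v, H.int⟩ : integralClosure R E) ∈ H.Q X := H.v_mem_V1
  rw [h] at h1
  exact H.v_not_mem_V2 h1

end Main

/-! ### how to verify the hypotheses -/

section Verify

variable {R : Type*} [CommRing R] [IsDomain R]

/-- `fin` holds in a noetherian domain. -/
theorem ssm_gf_fin_of_noetherian [IsNoetherianRing R] {π : R} (hπ : Prime π) (a : R)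
    (ha : a ≠ 0) : ∃ (k : ℕ) (s : R), ¬ π ∣ s ∧ a = π ^ k * s :=
  WfDvdMonoid.max_power_factor ha hπ.irreducible

/-- `gen` holds when `v` is algebraic and generates `E` over the fraction field `K` of `R`. -/
theorem ssm_gf_gen_of_adjoin {E : Type*} [Field E] [Algebra R E] {K : Type*} [Field K]
    [Algebra R K] [IsFractionRing R K] [Algebra K E] [IsScalarTower R K E] {v : E}
    (hv : IsIntegral R v) (htop : IntermediateField.adjoin K {v} = ⊤) (b : E) :
    ∃ a : R, a ≠ 0 ∧ ∃ h : R[X], algebraMap R E a * b = aeval v h := by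
  have hvK : IsAlgebraic K v := (hv.tower_top (A := K)).isAlgebraic
  have hb : b ∈ (IntermediateField.adjoin K {v}).toSubalgebra := by
    rw [htop]; exact Algebra.mem_top
  rw [IntermediateField.adjoin_simple_toSubalgebra_of_isAlgebraic hvK,
    Algebra.adjoin_singleton_eq_range_aeval] at hb
  obtain ⟨P, rfl⟩ := hb
  obtain ⟨a, haM, ha⟩ := IsLocalization.integerNormalization_spec (nonZeroDivisors R) P
  refine ⟨a, nonZeroDivisors.ne_zero haM, IsLocalization.integerNormalization (nonZeroDivisors R) P,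
    ?_⟩
  have h1 : aeval v ((IsLocalization.integerNormalization (nonZeroDivisors R) P).map
      (algebraMap R K)) = aeval v (IsLocalization.integerNormalization (nonZeroDivisors R) P) :=
    Polynomial.aeval_map_algebraMap K v _
  have h2 : (a • P : K[X]) = C (algebraMap R K a) * P := by
    rw [Algebra.smul_def]; rfl
  rw [← h1, ha, h2, map_mul, aeval_C, ← IsScalarTower.algebraMap_apply]
  rfl

/-- a monic polynomial over a domain `A` which is irreducible over `Frac A` is prime in `A[X]`. -/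
theorem ssm_gf_prime_of_irreducible_map {A : Type*} [CommRing A] [IsDomain A] {K : Type*}
    [Field K] [Algebra A K] [IsFractionRing A K] {G : A[X]} (hG : G.Monic)
    (hirr : Irreducible (G.map (algebraMap A K))) : Prime G := by
  have hinj : Function.Injective (algebraMap A K) := IsFractionRing.injective A K
  refine ⟨hG.ne_zero, fun hu => hirr.not_isUnit (hu.map (Polynomial.mapRingHom _)), ?_⟩
  intro a b hab
  have h1 : G.map (algebraMap A K) ∣ a.map (algebraMap A K) * b.map (algebraMap A K) := by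
    rw [← Polynomial.map_mul]
    exact Polynomial.map_dvd _ hab
  rcases hirr.prime.dvd_or_dvd h1 with h2 | h2
  · exact Or.inl ((Polynomial.map_dvd_map _ hinj hG).1 h2)
  · exact Or.inr ((Polynomial.map_dvd_map _ hinj hG).1 h2)

end Verify

end Fermat.Agent.SS
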