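/-
SS [M] leaf [I1] INTEGRALITY, the place criterion (Mathlib + S24/Hurwitz + [CF] `ssm_cf_ZeroPair`),
prefix `ssm_i1p_`.

`ssm_i1p_isIntegral_of_ord`: in a function field `F0` finite separable over `L(x)`, an element `z`
with `0 ≤ ord_c z` at every place `c` of `F0 / L` with `0 ≤ ord_c x` is integral over `L[x]`
(this is the input `hzL` of `ssm_i1a_chart`, to be fed by the cusp facts [CF]).
-/
import Mathlib
import Fermat.Agent.S24.Hurwitz.IntegralClosure
import Fermat.Agent.SS.Model.CuspsLam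

namespace Fermat.Agent.SS

open AlgebraicCurve IntermediateField Polynomial IsDedekindDomain Fermat.Agent.S24
open scoped IntermediateField.algebraAdjoinAdjoin

universe u v
variable {L : Type u} {F0 : Type v} [Field L] [Field F0] [Algebra L F0]

/-- `L[x] ⊆ F0` is a principal ideal ring. -/
theorem ssm_i1p_adjoin_isPrincipalIdealRing (x : F0) :
    IsPrincipalIdealRing (Algebra.adjoin L {x}) := by
  let f : L[X] →ₐ[L] Algebra.adjoin L {x} :=
    (aeval x).codRestrict (Algebra.adjoin L {x}) (fun p => aeval_mem_adjoin_singleton L x)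
  have hf : Function.Surjective f := by
    rintro ⟨y, hy⟩
    have hy' : y ∈ (aeval x : L[X] →ₐ[L] F0).range := by
      rw [← Algebra.adjoin_singleton_eq_range_aeval]; exact hy
    obtain ⟨p, rfl⟩ := hy'
    exact ⟨p, Subtype.ext rfl⟩
  exact IsPrincipalIdealRing.of_surjective f.toRingHom hf

/-- **Place criterion**: no pole where `x` is finite ⟹ integral over `L[x]`. -/
theorem ssm_i1p_isIntegral_of_ord (x : F0) [FiniteDimensional L⟮x⟯ F0]
    [Algebra.IsSeparable L⟮x⟯ F0] (z : F0)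
    (h : ∀ c : Place L F0, 0 ≤ c.ord x → 0 ≤ c.ord z) :
    IsIntegral (Algebra.adjoin L {x}) z := by
  have hPID := ssm_i1p_adjoin_isPrincipalIdealRing (L := L) x
  have hDed := integralClosure.isDedekindDomain (Algebra.adjoin L ({x} : Set F0)) L⟮x⟯ F0
  have hfrac : IsFractionRing (integralClosure (Algebra.adjoin L ({x} : Set F0)) F0) F0 :=
    integralClosure.isFractionRing_of_finite_extension L⟮x⟯ F0
  set B := integralClosure (Algebra.adjoin L ({x} : Set F0)) F0 with hB
  rcases eq_or_ne z 0 with rfl | hz0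
  · exact isIntegral_zero
  have hxB : x ∈ B :=
    isIntegral_algebraMap (R := Algebra.adjoin L ({x} : Set F0))
      (x := ⟨x, Algebra.self_mem_adjoin_singleton L x⟩)
  have hval : ∀ Q : HeightOneSpectrum B, Q.valuation F0 z ≤ 1 := by
    intro Q
    set c : Place L F0 := hw_placeOfPrime (K := L) (F := F0) B Q with hc
    have hxc : 0 ≤ c.ord x := by
      rcases eq_or_ne x 0 with rfl | hx0
      · rw [Place.ord_zero]
      · exact (hw_mem_iff_ord_nonneg c hx0).1
          (hw_placeOfPrime_algebraMap_mem (K := L) (F := F0) B Q ⟨x, hxB⟩)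
    have hzc := h c hxc
    have hzmem : z ∈ c.toValuationSubring := (hw_mem_iff_ord_nonneg c hz0).2 hzc
    rw [hc, hw_placeOfPrime_toValuationSubring] at hzmem
    exact (Valuation.mem_valuationSubring_iff _ _).1 hzmem
  obtain ⟨b, hb⟩ := HeightOneSpectrum.mem_integers_of_valuation_le_one F0 z hval
  rw [← hb]
  exact b.2

/-- `ord (t^q / tq) = q ord t - ord tq`. -/
theorem ssm_i1p_ord_ratio (c : Place L F0) (q : ℕ) {t tq : F0} (ht : t ≠ 0) (htq : tq ≠ 0) :
    c.ord (t ^ q / tq) = (q : ℤ) * c.ord t - c.ord tq := by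
  rw [div_eq_mul_inv, Place.ord_mul c (pow_ne_zero q ht) (inv_ne_zero htq), Place.ord_inv,
    ← zpow_natCast, Place.ord_zpow]
  ring

/-- At a place where `t` and `tq` are both regular, the ratios `t^q/tq` and `tq^q/t` are regular,
provided zeros of `t` and `tq` are paired with ratio at most `q`. -/
theorem ssm_i1p_ratio_nonneg (c : Place L F0) (q : ℕ) {t tq : F0} (ht : t ≠ 0) (htq : tq ≠ 0)
    (hZ : ssm_cf_ZeroPair L q t tq) (hZ' : ssm_cf_ZeroPair L q tq t)
    (h1 : 0 ≤ c.ord t) (h2 : 0 ≤ c.ord tq) :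
    0 ≤ c.ord (t ^ q / tq) ∧ 0 ≤ c.ord (tq ^ q / t) := by
  rw [ssm_i1p_ord_ratio c q ht htq, ssm_i1p_ord_ratio c q htq ht]
  have hq0 : (0 : ℤ) ≤ q := Int.natCast_nonneg q
  constructor
  · rcases h2.lt_or_eq with h | h
    · have := (hZ' c h).2.2
      linarith
    · rw [← h, sub_zero]
      exact mul_nonneg hq0 h1
  · rcases h1.lt_or_eq with h | h
    · have := (hZ c h).2.2
      linarith
    · rw [← h, sub_zero]
      exact mul_nonneg hq0 h2

/-- Poles of `tq` are poles of `t` when the zeros of `tq⁻¹` are zeros of `t⁻¹`. -/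
theorem ssm_i1p_nonneg_of_inv_pair (c : Place L F0) (q : ℕ) {t tq : F0}
    (hZ : ssm_cf_ZeroPair L q tq⁻¹ t⁻¹) (h1 : 0 ≤ c.ord t) : 0 ≤ c.ord tq := by
  by_contra hneg
  push Not at hneg
  have h := (hZ c (by rw [Place.ord_inv]; omega)).1
  rw [Place.ord_inv] at h
  omega

/-- **[I1], `L`-part, packaged**: `x` the chart coordinate, `t` a function regular wherever `x` is
(`λ`, `λ - 1` on the chart `{λ}`; `λ⁻¹` on the chart `{λ⁻¹}`), `tq := W t`.  If the zeros of
`t, tq` are paired both ways and `tq` is regular wherever `x` is, then `tq`, `t^q/tq`, `tq^q/t`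
are integral over `L[x]`. -/
theorem ssm_i1p_isIntegral_ratio (x : F0) [FiniteDimensional L⟮x⟯ F0]
    [Algebra.IsSeparable L⟮x⟯ F0] (q : ℕ) {t tq : F0} (ht : t ≠ 0) (htq : tq ≠ 0)
    (hZ : ssm_cf_ZeroPair L q t tq) (hZ' : ssm_cf_ZeroPair L q tq t)
    (hreg : ∀ c : Place L F0, 0 ≤ c.ord x → 0 ≤ c.ord t)
    (hregq : ∀ c : Place L F0, 0 ≤ c.ord x → 0 ≤ c.ord tq) :
    IsIntegral (Algebra.adjoin L {x}) (t ^ q / tq) ∧
      IsIntegral (Algebra.adjoin L {x}) (tq ^ q / t) :=
  ⟨ssm_i1p_isIntegral_of_ord x _ fun c hc =>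
      (ssm_i1p_ratio_nonneg c q ht htq hZ hZ' (hreg c hc) (hregq c hc)).1,
    ssm_i1p_isIntegral_of_ord x _ fun c hc =>
      (ssm_i1p_ratio_nonneg c q ht htq hZ hZ' (hreg c hc) (hregq c hc)).2⟩

end Fermat.Agent.SS
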