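/-
SS [M], leaf [ND], HESSE twin, final assembly: THE NODE CLAUSE `ssm_fhn_NodeHyp` FROM THICKNESS ONE
OVER THE UNRAMIFIED BASE.

* `ssm_nhh_ThickHyp`   : the output shape of the Hesse [TH] instance: thickness one (`u v = q`) at
  every maximal crossing point of the `x`-chart (`x = μ - 1`) of `hs_E L0 h30 (N' q)` over a base
  `(L0, O0)` with uniformiser `q`, `L0 ∋ ζ_{3N'}` a number field;
* `ssm_nhh_node`       : the node clause over `(L, O, π)` from `ssm_nhh_ThickHyp`: small base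
  `L0 = ℚ(ζ_{3N'})` (helper14's `SmallBase.lean` at `M = 3N'`), level facts at both bases
  (`ssm_hlr_main`, `ssm_hl_EC_aeval`), `ssm_nh_node_of`;
* `ssm_nhh_nodeHyp_of` : `ssm_nhh_ThickHyp → ssm_fhn_NodeHyp`.

Prefix `ssm_nhh_`.
-/
import Mathlib
import Fermat.Agent.SS.Model.NodeHes
import Fermat.Agent.SS.Model.FinalHesNF
import Fermat.Agent.SS.Model.SmallBase

set_option autoImplicit false
set_option linter.style.haveILetI false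
set_option linter.unusedSectionVars false
set_option linter.unusedVariables false

noncomputable section

namespace Fermat.Agent.SS

open Fermat.Agent.JT3 IntermediateField ModularCurve IsLocalRing Polynomial

/-- **the output shape of the Hesse [TH] instance**: thickness one at the maximal crossing points
of the `x`-chart over an unramified base `(L0, O0)` (uniformiser `q`). -/
def ssm_nhh_ThickHyp : Prop :=
  ∀ (L0 : Type) [Field L0] [NumberField L0] [Algebra L0 (AlgebraicClosure ℚ)]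
    (h30 : (3 : L0) ≠ 0) (O0 : ValuationSubring L0) [IsDiscreteValuationRing O0]
    (h3O0 : IsUnit (3 : O0)) (N' q : ℕ) [NeZero N'] [NeZero q] [Fact q.Prime]
    [CharP (ResidueField O0) q] (hq3 : ¬ 3 ∣ q) (hqN' : ¬ q ∣ N')
    (hπ0 : Irreducible ((q : ℕ) : ↥O0)) (ζ0 : L0) (hζ0 : IsPrimitiveRoot ζ0 (3 * N'))
    (𝔫0 : Ideal (fc_chart ↥O0 ({hs_muE h30 (N' * q) - 1} : Set ↥(hs_E L0 h30 (N' * q))))),
    𝔫0.IsMaximal →
    ssm_tp_P (fc_chart ↥O0 ({hs_muE h30 (N' * q) - 1} : Set ↥(hs_E L0 h30 (N' * q))))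
      (ssm_fh_V1 h30 O0 h3O0 hπ0 N' q) ≤ 𝔫0 →
    ssm_tp_P (fc_chart ↥O0 ({hs_muE h30 (N' * q) - 1} : Set ↥(hs_E L0 h30 (N' * q))))
      (ssm_fh_V2 h30 O0 h3O0 hπ0 N' q hq3 hqN') ≤ 𝔫0 →
    ∃ u v : ↥(hs_E L0 h30 (N' * q)), u * v = ((q : ℕ) : ↥(hs_E L0 h30 (N' * q))) ∧
      (∃ s t : fc_chart ↥O0 ({hs_muE h30 (N' * q) - 1} : Set ↥(hs_E L0 h30 (N' * q))),
        s ∉ 𝔫0 ∧
        t ∈ ssm_tp_P (fc_chart ↥O0 ({hs_muE h30 (N' * q) - 1} : Set ↥(hs_E L0 h30 (N' * q))))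
          (ssm_fh_V2 h30 O0 h3O0 hπ0 N' q hq3 hqN') ∧
        (s : ↥(hs_E L0 h30 (N' * q))) * u = t) ∧
      (∃ s t : fc_chart ↥O0 ({hs_muE h30 (N' * q) - 1} : Set ↥(hs_E L0 h30 (N' * q))),
        s ∉ 𝔫0 ∧
        t ∈ ssm_tp_P (fc_chart ↥O0 ({hs_muE h30 (N' * q) - 1} : Set ↥(hs_E L0 h30 (N' * q))))
          (ssm_fh_V1 h30 O0 h3O0 hπ0 N' q) ∧
        (s : ↥(hs_E L0 h30 (N' * q))) * v = t) ∧
      (∀ z ∈ ssm_tp_P (fc_chart ↥O0 ({hs_muE h30 (N' * q) - 1} :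
            Set ↥(hs_E L0 h30 (N' * q))))
          (ssm_fh_V2 h30 O0 h3O0 hπ0 N' q hq3 hqN'),
        ∃ s c : fc_chart ↥O0 ({hs_muE h30 (N' * q) - 1} : Set ↥(hs_E L0 h30 (N' * q))),
          s ∉ 𝔫0 ∧
          (s : ↥(hs_E L0 h30 (N' * q))) * (z : ↥(hs_E L0 h30 (N' * q))) = u * c) ∧
      (∀ z ∈ ssm_tp_P (fc_chart ↥O0 ({hs_muE h30 (N' * q) - 1} :
            Set ↥(hs_E L0 h30 (N' * q))))
          (ssm_fh_V1 h30 O0 h3O0 hπ0 N' q),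
        ∃ s c : fc_chart ↥O0 ({hs_muE h30 (N' * q) - 1} : Set ↥(hs_E L0 h30 (N' * q))),
          s ∉ 𝔫0 ∧
          (s : ↥(hs_E L0 h30 (N' * q))) * (z : ↥(hs_E L0 h30 (N' * q))) = v * c) ∧
      (∃ s t : fc_chart ↥O0 ({hs_muE h30 (N' * q) - 1} : Set ↥(hs_E L0 h30 (N' * q))),
        s ∉ 𝔫0 ∧
        t ∉ ssm_tp_P (fc_chart ↥O0 ({hs_muE h30 (N' * q) - 1} : Set ↥(hs_E L0 h30 (N' * q))))
          (ssm_fh_V1 h30 O0 h3O0 hπ0 N' q) ∧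
        (s : ↥(hs_E L0 h30 (N' * q))) * u = t) ∧
      (∃ s t : fc_chart ↥O0 ({hs_muE h30 (N' * q) - 1} : Set ↥(hs_E L0 h30 (N' * q))),
        s ∉ 𝔫0 ∧
        t ∉ ssm_tp_P (fc_chart ↥O0 ({hs_muE h30 (N' * q) - 1} : Set ↥(hs_E L0 h30 (N' * q))))
          (ssm_fh_V2 h30 O0 h3O0 hπ0 N' q hq3 hqN') ∧
        (s : ↥(hs_E L0 h30 (N' * q))) * v = t)

section Level

variable (L : Type) [Field L] [NumberField L] [Algebra L (AlgebraicClosure ℚ)]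
  (h3 : (3 : L) ≠ 0) (O : ValuationSubring L) [IsDiscreteValuationRing O] {π : O}
  (hπ : Irreducible π)
variable (N' q : ℕ) [NeZero N'] [NeZero q] [hq : Fact q.Prime] [CharP (ResidueField O) q]
  (hq3 : ¬ 3 ∣ q) (hqN' : ¬ q ∣ N') (ζ : L) (hζ : IsPrimitiveRoot ζ (3 * N'))

include hπ hq3 hqN' hζ in
set_option synthInstance.maxHeartbeats 200000 in
/-- **the level-`N'` inputs of the crossing package** over a base `(L, O, π)` with `ζ_{3N'} ∈ L`: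
`hprime`, `hic`, `hEC` in the shapes consumed by `ssm_nh_cross` / `ssm_nh_node_of`. -/
theorem ssm_nhh_level :
    Prime (algebraMap ↥O (fc_chart ↥O ({hs_muE h3 N' - 1} : Set ↥(hs_E L h3 N'))) π) ∧
    IsIntegrallyClosed (fc_chart ↥O ({hs_muE h3 N' - 1} : Set ↥(hs_E L h3 N')) ⧸
      (Ideal.span {algebraMap ↥O (fc_chart ↥O ({hs_muE h3 N' - 1} : Set ↥(hs_E L h3 N'))) π} :
        Ideal (fc_chart ↥O ({hs_muE h3 N' - 1} : Set ↥(hs_E L h3 N'))))) ∧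
    (∀ 𝔫' : Ideal (fc_chart ↥O ({hs_muE h3 N' - 1} : Set ↥(hs_E L h3 N'))),
      𝔫'.IsMaximal →
      algebraMap ↥O (fc_chart ↥O ({hs_muE h3 N' - 1} : Set ↥(hs_E L h3 N'))) π ∈ 𝔫' →
      ssm_hl_x h3 O N' ∉ 𝔫' →
      aeval (ssm_hl_x h3 O N') (X ^ 2 + 3 * X + 3 : ℤ[X]) ∉ 𝔫' →
      ssm_hl_x h3 O N' ^ (q ^ 2) - ssm_hl_x h3 O N' ∈ 𝔫' →
      tq_GenBy (algebraMap ↥O (fc_chart ↥O ({hs_muE h3 N' - 1} : Set ↥(hs_E L h3 N'))) π)
        (ssm_hl_x h3 O N' ^ (q ^ 2) - ssm_hl_x h3 O N') 𝔫') := by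
  have hqO : ((q : ℕ) : O) ∈ maximalIdeal O := by
    rw [← residue_eq_zero_iff, map_natCast]
    exact CharP.cast_eq_zero _ q
  have hq3' : q ≠ 3 := by
    rintro rfl
    exact hq3 dvd_rfl
  obtain ⟨-, -, hprime1, -, -, hded1, -⟩ := ssm_hlr_main h3 O N' hπ q hqO hq3' hqN' ζ hζ
  obtain ⟨ω, hω, -, hram, -⟩ := ssm_hlr_ram h3 O N' hζ
  refine ⟨hprime1, ?_, ssm_hl_EC_aeval h3 O N' hπ q hqO hq3' hqN' ω hω hram⟩
  haveI := hded1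
  infer_instance

end Level

section Node

variable (L : Type) [Field L] [NumberField L] [Algebra L (AlgebraicClosure ℚ)]
  (h3 : (3 : L) ≠ 0) (O : ValuationSubring L) [IsDiscreteValuationRing O]
  (h3O : IsUnit (3 : O)) {π : O} (hπ : Irreducible π)
variable (N' q : ℕ) [NeZero N'] [NeZero q] [hq : Fact q.Prime] [CharP (ResidueField O) q]
  (hq3 : ¬ 3 ∣ q) (hqN' : ¬ q ∣ N') (ζ : L) (hζ : IsPrimitiveRoot ζ (3 * N'))
  (σ : L ≃+* L) (hσ : ss_Inert O σ)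

include hζ in
set_option synthInstance.maxHeartbeats 200000 in
set_option maxHeartbeats 3200000 in
/-- **the node clause of the Hesse tower over `(L, O, π)`** from thickness one over the unramified
bases: small base `L0 = ℚ(ζ_{3N'})`, `O0 = O ∩ L0`, uniformiser `q`. -/
theorem ssm_nhh_node (hTH : ssm_nhh_ThickHyp) :
    ∀ 𝔫 : Ideal (fc_chart ↥O ({hs_muE h3 (N' * q) - 1} : Set ↥(hs_E L h3 (N' * q)))),
      𝔫.IsMaximal →
      ssm_tp_P (fc_chart ↥O ({hs_muE h3 (N' * q) - 1} : Set ↥(hs_E L h3 (N' * q))))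
        (ssm_fh_V1 h3 O h3O hπ N' q) ≤ 𝔫 →
      ssm_tp_P (fc_chart ↥O ({hs_muE h3 (N' * q) - 1} : Set ↥(hs_E L h3 (N' * q))))
        (ssm_fh_V2 h3 O h3O hπ N' q hq3 hqN') ≤ 𝔫 →
      ss_NodeAt π (ssm_sgh_aut h3 (N' * q) σ) (ssm_sg_base O σ hσ)
        (fc_chart1_le (hs_muE h3 (N' * q) - 1))
        (ssm_tp_P (fc_chart ↥O ({hs_muE h3 (N' * q) - 1, (hs_muE h3 (N' * q) - 1)⁻¹} :
          Set ↥(hs_E L h3 (N' * q)))) (ssm_fh_V1 h3 O h3O hπ N' q))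
        (ssm_tp_P (fc_chart ↥O ({hs_muE h3 (N' * q) - 1, (hs_muE h3 (N' * q) - 1)⁻¹} :
          Set ↥(hs_E L h3 (N' * q)))) (ssm_fh_V2 h3 O h3O hπ N' q hq3 hqN')) 𝔫 := by
  have hq3' : ¬ q ∣ 3 := by
    intro h
    have := (Nat.prime_dvd_prime_iff_eq hq.out Nat.prime_three).1 h
    exact hq3 (this ▸ dvd_rfl)
  have hqM : ¬ q ∣ 3 * N' := by
    intro h
    rcases (Nat.Prime.dvd_mul hq.out).1 h with h | h
    · exact hq3' h
    · exact hqN' h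
  haveI : NeZero (3 * N') := ⟨Nat.mul_ne_zero (by norm_num) (NeZero.ne N')⟩
  letI := ssm_sb_algebra ζ
  haveI := ssm_sb_numberField (3 * N') ζ hζ
  haveI := ssm_sb_isDVR O (3 * N') q hqM ζ hζ
  haveI := ssm_sb_charP O (3 * N') q hqM ζ hζ
  have hπ0 := ssm_sb_irreducible O (3 * N') q hqM ζ hζ
  have h30 : (3 : ssm_sb_L0 ζ) ≠ 0 := three_ne_zero
  have h3O0 : IsUnit (3 : ↥(ssm_sb_O0 O ζ)) :=
    ssm_fhn_isUnit_three (ssm_sb_L0 ζ) (ssm_sb_O0 O ζ) q hq3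
  obtain ⟨hprime0, hic0, hEC0⟩ := ssm_nhh_level (ssm_sb_L0 ζ) h30 (ssm_sb_O0 O ζ) hπ0 N' q hq3
    hqN' (ssm_sb_zeta ζ) (ssm_sb_zeta_prim (3 * N') ζ hζ)
  obtain ⟨hprime, hic, hEC⟩ := ssm_nhh_level L h3 O hπ N' q hq3 hqN' ζ hζ
  exact ssm_nh_node_of h30 h3 (ssm_sb_f ζ) (ssm_sb_O0 O ζ) O (ssm_sb_hO O ζ) h3O0 h3O hπ N' q
    hq3 hqN' hπ0 σ hσ (ssm_sb_fixed O (3 * N') q hqM ζ hζ σ hσ) hprime0 hic0 hEC0 hprime hic hEC
    (hTH (ssm_sb_L0 ζ) h30 (ssm_sb_O0 O ζ) h3O0 N' q hq3 hqN' hπ0 (ssm_sb_zeta ζ)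
      (ssm_sb_zeta_prim (3 * N') ζ hζ))

end Node

/-- **`ssm_fhn_NodeHyp` from thickness one over the unramified bases.** -/
theorem ssm_nhh_nodeHyp_of (hTH : ssm_nhh_ThickHyp) : ssm_fhn_NodeHyp :=
  fun L _ _ _ h3 O _ h3O _ hπ N' q _ _ _ _ hq3 hqN' ζ hζ σ hσ =>
    ssm_nhh_node L h3 O h3O hπ N' q hq3 hqN' ζ hζ σ hσ hTH

end Fermat.Agent.SS
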