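/-
SS [M], leaf [ND]-H, part (b) of helper14's ruling 6 (helper20): THE NODE CLAUSE FOR THE HESSE
TOWER, RELATIVE FORM.  Hesse twin (coordinate `x = μ - 1`, "Option M") of helper2's `ssm_nl_node_of`
(`NodeLeg.lean`), with the base-change dictionary `ssm_bch_*` (`BaseChangeHes.lean`) in place of
`ssm_bc_*` and helper29's crossing package `ssm_crh_cross` (`CrossingHes.lean`).

`(L0, O0)` a base with uniformiser `q` inside `(L, O)` (`O0 = f⁻¹ O`), `σ` an inert automorphism of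
`(L, O)` fixing `f L0`.

* `ssm_nho_node_of_cross` : from the two crossing packages `C0` (over `(O0, q)`) and `C1` (over
  `(O, π)`), the two-primes hypotheses at both bases and thickness one over the small base:
  `ss_NodeAt` at every maximal crossing point of the `x`-chart over `(O, π)`;
* `ssm_nho_node_of`       : the same from the level-`N'` inputs over BOTH bases
  (`hprime`, `hic`, `hEC`, `F` in the shapes of `ssm_hl_prime1`, `ssm_hl_ic1`, `ssm_hl_EC_aeval`,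
  `ssm_fh_facts`) = the clause `hnode` of `ssm_fhn_model_of_node` / `ssm_fhn_NodeHyp` VERBATIM.

Prefix `ssm_nho_`.
-/
import Mathlib
import Fermat.Agent.SS.Model.NodeCross
import Fermat.Agent.SS.Model.CrossingHes
import Fermat.Agent.SS.Model.BaseChangeHes
import Fermat.Agent.SS.Model.HesLevelRam

set_option autoImplicit false
set_option linter.unusedSectionVars false
set_option linter.unusedVariables false
set_option linter.style.haveILetI false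

noncomputable section

open ModularCurve IntermediateField IsLocalRing Polynomial
open Fermat.Agent.JT3

namespace Fermat.Agent.SS

section Node

variable {L0 L : Type*} [Field L0] [Field L] [CharZero L0] [CharZero L]
  [Algebra L0 (AlgebraicClosure ℚ)] [Algebra L (AlgebraicClosure ℚ)]
  (h30 : (3 : L0) ≠ 0) (h3 : (3 : L) ≠ 0)
  (f : L0 →+* L) (O0 : ValuationSubring L0) (O : ValuationSubring L)
  (hO : ∀ x : L0, x ∈ O0 ↔ f x ∈ O)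
  [IsDiscreteValuationRing O0] [IsDiscreteValuationRing O]
  (h3O0 : IsUnit (3 : O0)) (h3O : IsUnit (3 : O))
  {π : O} (hπ : Irreducible π)
  (N' q : ℕ) [NeZero N'] [NeZero q] [hq : Fact q.Prime]
  [CharP (ResidueField O0) q] [CharP (ResidueField O) q]
  (hq3 : ¬ 3 ∣ q) (hqN' : ¬ q ∣ N')
  (hπ0 : Irreducible ((q : ℕ) : ↥O0))

/-- `j (W₀ (μ₀ - 1)) = W (μ - 1)`. -/
theorem ssm_nho_j_Wx :
    ssm_bch_j h30 h3 f (N' * q) (ssm_fh_W h30 N' q hq3 hqN' (hs_muE h30 (N' * q) - 1)) =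
      ssm_fh_W h3 N' q hq3 hqN' (hs_muE h3 (N' * q) - 1) := by
  have h := ssm_bch_j_WE h30 h3 f (ssm_fh_hF9 h30) (ssm_fh_hF9 h3) N' q hq.out hq3 hqN'
    (hs_muE h30 (N' * q) - 1)
  rw [ssm_bch_j_x] at h
  exact h

include hO in
set_option synthInstance.maxHeartbeats 200000 in
set_option maxHeartbeats 3200000 in
/-- **[ND]-H, relative form, from the crossing packages**: `ss_NodeAt` at every maximal crossing
point of the `(μ - 1)`-chart over `(O, π)` from the crossing packages `C0` over `(O0, q)`, `C1` over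
`(O, π)` (shapes of `ssm_crh_cross`), `π` prime at level `N'` over both bases, and thickness one over
the small base. -/
theorem ssm_nho_node_of_cross
    (σ : L ≃+* L) (hσ : ss_Inert O σ) (hσf : ∀ a : L0, σ (f a) = f a)
    (hprime0 : Prime (algebraMap ↥O0
      (fc_chart ↥O0 ({hs_muE h30 N' - 1} : Set ↥(hs_E L0 h30 N'))) ((q : ℕ) : ↥O0)))
    (hprime : Prime (algebraMap ↥O
      (fc_chart ↥O ({hs_muE h3 N' - 1} : Set ↥(hs_E L h3 N'))) π))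
    (hW0 : ssm_fh_W h30 N' q hq3 hqN' (hs_muE h30 (N' * q) - 1) ∈
      fc_chart ↥O0 ({hs_muE h30 (N' * q) - 1} : Set ↥(hs_E L0 h30 (N' * q))))
    (hW : ssm_fh_W h3 N' q hq3 hqN' (hs_muE h3 (N' * q) - 1) ∈
      fc_chart ↥O ({hs_muE h3 (N' * q) - 1} : Set ↥(hs_E L h3 (N' * q))))
    (C0 : letI := ssm_gi_algebra (ssm_alh_E_le L0 h30 (ssm_fh_hF9 h30) N' q)
      ssm_nx_Cross (fc_chart ↥O0 ({hs_muE h30 N' - 1} : Set ↥(hs_E L0 h30 N')))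
        (fc_chart ↥O0 ({hs_muE h30 (N' * q) - 1} : Set ↥(hs_E L0 h30 (N' * q))))
        (ssm_cpi_phi ↥O0 ↥(hs_E L0 h30 (N' * q)) (hs_muE h30 N' - 1))
        (algebraMap ↥O0 (fc_chart ↥O0 ({hs_muE h30 N' - 1} : Set ↥(hs_E L0 h30 N')))
          ((q : ℕ) : ↥O0)) q
        (ssm_tp_P (fc_chart ↥O0 ({hs_muE h30 (N' * q) - 1} : Set ↥(hs_E L0 h30 (N' * q))))
          (ssm_fh_V1 h30 O0 h3O0 hπ0 N' q))
        (ssm_tp_P (fc_chart ↥O0 ({hs_muE h30 (N' * q) - 1} : Set ↥(hs_E L0 h30 (N' * q))))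
          (ssm_fh_V2 h30 O0 h3O0 hπ0 N' q hq3 hqN'))
        (ssm_hl_x h30 O0 N')
        ⟨ssm_fh_W h30 N' q hq3 hqN' (hs_muE h30 (N' * q) - 1), hW0⟩ (X ^ 2 + 3 * X + 3))
    (C1 : letI := ssm_gi_algebra (ssm_alh_E_le L h3 (ssm_fh_hF9 h3) N' q)
      ssm_nx_Cross (fc_chart ↥O ({hs_muE h3 N' - 1} : Set ↥(hs_E L h3 N')))
        (fc_chart ↥O ({hs_muE h3 (N' * q) - 1} : Set ↥(hs_E L h3 (N' * q))))
        (ssm_cpi_phi ↥O ↥(hs_E L h3 (N' * q)) (hs_muE h3 N' - 1))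
        (algebraMap ↥O (fc_chart ↥O ({hs_muE h3 N' - 1} : Set ↥(hs_E L h3 N'))) π) q
        (ssm_tp_P (fc_chart ↥O ({hs_muE h3 (N' * q) - 1} : Set ↥(hs_E L h3 (N' * q))))
          (ssm_fh_V1 h3 O h3O hπ N' q))
        (ssm_tp_P (fc_chart ↥O ({hs_muE h3 (N' * q) - 1} : Set ↥(hs_E L h3 (N' * q))))
          (ssm_fh_V2 h3 O h3O hπ N' q hq3 hqN'))
        (ssm_hl_x h3 O N')
        ⟨ssm_fh_W h3 N' q hq3 hqN' (hs_muE h3 (N' * q) - 1), hW⟩ (X ^ 2 + 3 * X + 3))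
    -- thickness one over the small base
    (hthick : ∀ 𝔫0 : Ideal (fc_chart ↥O0
        ({hs_muE h30 (N' * q) - 1} : Set ↥(hs_E L0 h30 (N' * q)))),
      𝔫0.IsMaximal →
      ssm_tp_P (fc_chart ↥O0 ({hs_muE h30 (N' * q) - 1} : Set ↥(hs_E L0 h30 (N' * q))))
        (ssm_fh_V1 h30 O0 h3O0 hπ0 N' q) ≤ 𝔫0 →
      ssm_tp_P (fc_chart ↥O0 ({hs_muE h30 (N' * q) - 1} : Set ↥(hs_E L0 h30 (N' * q))))
        (ssm_fh_V2 h30 O0 h3O0 hπ0 N' q hq3 hqN') ≤ 𝔫0 →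
      ∃ u v : ↥(hs_E L0 h30 (N' * q)), u * v = ((q : ℕ) : ↥(hs_E L0 h30 (N' * q))) ∧
        (∃ s t : fc_chart ↥O0 ({hs_muE h30 (N' * q) - 1} : Set ↥(hs_E L0 h30 (N' * q))),
          s ∉ 𝔫0 ∧
          t ∈ ssm_tp_P (fc_chart ↥O0 ({hs_muE h30 (N' * q) - 1} : Set ↥(hs_E L0 h30 (N' * q))))
            (ssm_fh_V2 h30 O0 h3O0 hπ0 N' q hq3 hqN') ∧ (s : ↥(hs_E L0 h30 (N' * q))) * u = t) ∧
        (∃ s t : fc_chart ↥O0 ({hs_muE h30 (N' * q) - 1} : Set ↥(hs_E L0 h30 (N' * q))),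
          s ∉ 𝔫0 ∧
          t ∈ ssm_tp_P (fc_chart ↥O0 ({hs_muE h30 (N' * q) - 1} : Set ↥(hs_E L0 h30 (N' * q))))
            (ssm_fh_V1 h30 O0 h3O0 hπ0 N' q) ∧ (s : ↥(hs_E L0 h30 (N' * q))) * v = t) ∧
        (∀ z ∈ ssm_tp_P (fc_chart ↥O0 ({hs_muE h30 (N' * q) - 1} : Set ↥(hs_E L0 h30 (N' * q))))
            (ssm_fh_V2 h30 O0 h3O0 hπ0 N' q hq3 hqN'),
          ∃ s c : fc_chart ↥O0 ({hs_muE h30 (N' * q) - 1} : Set ↥(hs_E L0 h30 (N' * q))),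
            s ∉ 𝔫0 ∧
            (s : ↥(hs_E L0 h30 (N' * q))) * (z : ↥(hs_E L0 h30 (N' * q))) = u * c) ∧
        (∀ z ∈ ssm_tp_P (fc_chart ↥O0 ({hs_muE h30 (N' * q) - 1} : Set ↥(hs_E L0 h30 (N' * q))))
            (ssm_fh_V1 h30 O0 h3O0 hπ0 N' q),
          ∃ s c : fc_chart ↥O0 ({hs_muE h30 (N' * q) - 1} : Set ↥(hs_E L0 h30 (N' * q))),
            s ∉ 𝔫0 ∧
            (s : ↥(hs_E L0 h30 (N' * q))) * (z : ↥(hs_E L0 h30 (N' * q))) = v * c) ∧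
        (∃ s t : fc_chart ↥O0 ({hs_muE h30 (N' * q) - 1} : Set ↥(hs_E L0 h30 (N' * q))),
          s ∉ 𝔫0 ∧
          t ∉ ssm_tp_P (fc_chart ↥O0 ({hs_muE h30 (N' * q) - 1} : Set ↥(hs_E L0 h30 (N' * q))))
            (ssm_fh_V1 h30 O0 h3O0 hπ0 N' q) ∧ (s : ↥(hs_E L0 h30 (N' * q))) * u = t) ∧
        (∃ s t : fc_chart ↥O0 ({hs_muE h30 (N' * q) - 1} : Set ↥(hs_E L0 h30 (N' * q))),
          s ∉ 𝔫0 ∧
          t ∉ ssm_tp_P (fc_chart ↥O0 ({hs_muE h30 (N' * q) - 1} : Set ↥(hs_E L0 h30 (N' * q))))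
            (ssm_fh_V2 h30 O0 h3O0 hπ0 N' q hq3 hqN') ∧
          (s : ↥(hs_E L0 h30 (N' * q))) * v = t)) :
    ∀ 𝔫 : Ideal (fc_chart ↥O ({hs_muE h3 (N' * q) - 1} : Set ↥(hs_E L h3 (N' * q)))),
      𝔫.IsMaximal →
      ssm_tp_P (fc_chart ↥O ({hs_muE h3 (N' * q) - 1} : Set ↥(hs_E L h3 (N' * q))))
        (ssm_fh_V1 h3 O h3O hπ N' q) ≤ 𝔫 →
      ssm_tp_P (fc_chart ↥O ({hs_muE h3 (N' * q) - 1} : Set ↥(hs_E L h3 (N' * q))))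
        (ssm_fh_V2 h3 O h3O hπ N' q hq3 hqN') ≤ 𝔫 →
      ss_NodeAt π (ssm_sgh_aut h3 (N' * q) σ) (ssm_sg_base O σ hσ)
        (fc_chart1_le (hs_muE h3 (N' * q) - 1))
        (ssm_tp_P (fc_chart ↥O ({hs_muE h3 (N' * q) - 1, (hs_muE h3 (N' * q) - 1)⁻¹} :
          Set ↥(hs_E L h3 (N' * q)))) (ssm_fh_V1 h3 O h3O hπ N' q))
        (ssm_tp_P (fc_chart ↥O ({hs_muE h3 (N' * q) - 1, (hs_muE h3 (N' * q) - 1)⁻¹} :
          Set ↥(hs_E L h3 (N' * q)))) (ssm_fh_V2 h3 O h3O hπ N' q hq3 hqN')) 𝔫 := by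
  intro 𝔫 h𝔫 hP1 hP2
  letI := ssm_gi_algebra (ssm_alh_E_le L h3 (ssm_fh_hF9 h3) N' q)
  letI := ssm_gi_algebra (ssm_alh_E_le L0 h30 (ssm_fh_hF9 h30) N' q)
  haveI := ssm_go_isScalarTower O (hs_E L h3 (N' * q))
  haveI := ssm_go_isScalarTower O0 (hs_E L0 h30 (N' * q))
  have H0 := ssm_fh_hyp h30 O0 h3O0 hπ0 N' q hq3 hqN' hprime0
  have H := ssm_fh_hyp h3 O h3O hπ N' q hq3 hqN' hprime
  have hx0 : Transcendental L0 (hs_muE h30 (N' * q) - 1) := ssm_sgm_transcendental h30 (N' * q)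
  have hx : Transcendental L (hs_muE h3 (N' * q) - 1) := ssm_sgm_transcendental h3 (N' * q)
  have hC0 := ssm_tp_ff_chart (L := L0) hπ0 hx0
  have hC12 := ssm_tp_ff_chart12 (L := L) hπ hx
  haveI : IsIntegrallyClosed (Algebra.adjoin ↥O0
      ({hs_muE h30 (N' * q) - 1} : Set ↥(hs_E L0 h30 (N' * q)))) :=
    fc_ff_isIntegrallyClosed (fc_ff_transcendental (L := L0) hx0)
  haveI : FaithfulSMul (Algebra.adjoin ↥O0
      ({hs_muE h30 (N' * q) - 1} : Set ↥(hs_E L0 h30 (N' * q)))) ↥(hs_E L0 h30 (N' * q)) :=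
    (faithfulSMul_iff_algebraMap_injective _ _).2 Subtype.val_injective
  haveI : IsIntegrallyClosed (Algebra.adjoin ↥O
      ({hs_muE h3 (N' * q) - 1} : Set ↥(hs_E L h3 (N' * q)))) :=
    fc_ff_isIntegrallyClosed (fc_ff_transcendental (L := L) hx)
  haveI : FaithfulSMul (Algebra.adjoin ↥O
      ({hs_muE h3 (N' * q) - 1} : Set ↥(hs_E L h3 (N' * q)))) ↥(hs_E L h3 (N' * q)) :=
    (faithfulSMul_iff_algebraMap_injective _ _).2 Subtype.val_injective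
  haveI : CharZero ↥(hs_E L0 h30 (N' * q)) :=
    charZero_of_injective_algebraMap (algebraMap L0 ↥(hs_E L0 h30 (N' * q))).injective
  have hqmax : (Ideal.span {((q : ℕ) : ↥O0)} : Ideal ↥O0).IsMaximal := by
    rw [← hπ0.maximalIdeal_eq]
    exact IsLocalRing.maximalIdeal.isMaximal _
  refine ssm_nx_node (ssm_bch_j h30 h3 f (N' * q)) (ssm_gb_resHom f O0 O hO)
    (ssm_bch_j_algebraMapO h30 h3 f O0 O hO (N' * q))
    (fc_chart ↥O0 ({hs_muE h30 (N' * q) - 1} : Set ↥(hs_E L0 h30 (N' * q))))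
    (fc_chart ↥O ({hs_muE h3 (N' * q) - 1} : Set ↥(hs_E L h3 (N' * q))))
    (fc_chart ↥O ({hs_muE h3 (N' * q) - 1, (hs_muE h3 (N' * q) - 1)⁻¹} :
      Set ↥(hs_E L h3 (N' * q))))
    (fc_chart1_le _) (fun b hb => ssm_bch_chart_x h30 h3 f O0 O hO (N' * q) hb) π
    (ssm_sgh_aut h3 (N' * q) σ) (ssm_sg_base O σ hσ)
    (ssm_bch_sigma_fix h30 h3 f (N' * q) σ hσf) q hq.out
    (Nat.cast_ne_zero.2 (NeZero.ne q)) hqmax
    (ssm_fh_V1 h30 O0 h3O0 hπ0 N' q) (ssm_fh_V2 h30 O0 h3O0 hπ0 N' q hq3 hqN')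
    (ssm_fh_V1 h3 O h3O hπ N' q) (ssm_fh_V2 h3 O h3O hπ N' q hq3 hqN')
    (fun b hb => hC0.le H0.over1 hb) (fun b hb => hC0.le H0.over2 hb)
    (fun b hb => hC12.le H.over1 hb) (fun b hb => hC12.le H.over2 hb)
    (ssm_bch_nonunits1 h30 h3 f O0 O hO h3O0 h3O hπ0 hπ (N' * q))
    (ssm_bch_nonunits2 h30 h3 f O0 O hO h3O0 h3O hπ0 hπ (ssm_fh_hF9 h30) (ssm_fh_hF9 h3)
      N' q hq.out hq3 hqN')
    C0 (map_natCast _ _) C1 (ssm_cpi_phi_algebraMap _ _) ?_ ?_ ?_ hthick 𝔫 h𝔫 hP1 hP2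
  · exact ssm_bch_j_x h30 h3 f (N' * q)
  · exact ssm_nho_j_Wx h30 h3 f N' q hq3 hqN'
  · intro b
    exact ssm_nx_chart_isIntegral (hs_muE h30 (N' * q) - 1 : ↥(hs_E L0 h30 (N' * q))) b

include hO in
set_option synthInstance.maxHeartbeats 200000 in
set_option maxHeartbeats 3200000 in
/-- **[ND]-H for the Hesse tower, relative form** (twin of `ssm_nl_node_of`): from the level-`N'`
inputs over BOTH bases (`hprime`, `hic`, `hEC`, `F` in the shapes of `ssm_hl_prime1`, `ssm_hl_ic1`,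
`ssm_hl_EC_aeval`, `ssm_fh_facts`) and thickness one over the small base: `ss_NodeAt` at every
maximal crossing point of the `(μ - 1)`-chart over `(O, π)` = the hypothesis `hnode` of
`ssm_fhn_model_of_node`. -/
theorem ssm_nho_node_of
    (σ : L ≃+* L) (hσ : ss_Inert O σ) (hσf : ∀ a : L0, σ (f a) = f a)
    -- level-`N'` inputs over the small base
    (hprime0 : Prime (algebraMap ↥O0
      (fc_chart ↥O0 ({hs_muE h30 N' - 1} : Set ↥(hs_E L0 h30 N'))) ((q : ℕ) : ↥O0)))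
    (hic0 : IsIntegrallyClosed (fc_chart ↥O0 ({hs_muE h30 N' - 1} : Set ↥(hs_E L0 h30 N')) ⧸
      (Ideal.span {algebraMap ↥O0 (fc_chart ↥O0 ({hs_muE h30 N' - 1} : Set ↥(hs_E L0 h30 N')))
          ((q : ℕ) : ↥O0)} :
        Ideal (fc_chart ↥O0 ({hs_muE h30 N' - 1} : Set ↥(hs_E L0 h30 N'))))))
    (hEC0 : ∀ 𝔫' : Ideal (fc_chart ↥O0 ({hs_muE h30 N' - 1} : Set ↥(hs_E L0 h30 N'))),
      𝔫'.IsMaximal →
      algebraMap ↥O0 (fc_chart ↥O0 ({hs_muE h30 N' - 1} : Set ↥(hs_E L0 h30 N')))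
        ((q : ℕ) : ↥O0) ∈ 𝔫' →
      ssm_hl_x h30 O0 N' ∉ 𝔫' →
      aeval (ssm_hl_x h30 O0 N') (X ^ 2 + 3 * X + 3 : ℤ[X]) ∉ 𝔫' →
      ssm_hl_x h30 O0 N' ^ (q ^ 2) - ssm_hl_x h30 O0 N' ∈ 𝔫' →
      tq_GenBy (algebraMap ↥O0 (fc_chart ↥O0 ({hs_muE h30 N' - 1} : Set ↥(hs_E L0 h30 N')))
          ((q : ℕ) : ↥O0))
        (ssm_hl_x h30 O0 N' ^ (q ^ 2) - ssm_hl_x h30 O0 N') 𝔫')
    (F0 : ssm_i1g_Facts ↥O0 q (hs_muE h30 (N' * q) - 1)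
      (ssm_fh_W h30 N' q hq3 hqN' (hs_muE h30 (N' * q)) - 1)
      (hs_muE h30 (N' * q) ^ 2 + hs_muE h30 (N' * q) + 1)
      (ssm_fh_W h30 N' q hq3 hqN' (hs_muE h30 (N' * q)) ^ 2 +
        ssm_fh_W h30 N' q hq3 hqN' (hs_muE h30 (N' * q)) + 1)
      (ssm_fh_V1 h30 O0 h3O0 hπ0 N' q) (ssm_fh_V2 h30 O0 h3O0 hπ0 N' q hq3 hqN'))
    -- level-`N'` inputs over the big base
    (hprime : Prime (algebraMap ↥O
      (fc_chart ↥O ({hs_muE h3 N' - 1} : Set ↥(hs_E L h3 N'))) π))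
    (hic : IsIntegrallyClosed (fc_chart ↥O ({hs_muE h3 N' - 1} : Set ↥(hs_E L h3 N')) ⧸
      (Ideal.span {algebraMap ↥O (fc_chart ↥O ({hs_muE h3 N' - 1} : Set ↥(hs_E L h3 N'))) π} :
        Ideal (fc_chart ↥O ({hs_muE h3 N' - 1} : Set ↥(hs_E L h3 N'))))))
    (hEC : ∀ 𝔫' : Ideal (fc_chart ↥O ({hs_muE h3 N' - 1} : Set ↥(hs_E L h3 N'))), 𝔫'.IsMaximal →
      algebraMap ↥O (fc_chart ↥O ({hs_muE h3 N' - 1} : Set ↥(hs_E L h3 N'))) π ∈ 𝔫' →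
      ssm_hl_x h3 O N' ∉ 𝔫' →
      aeval (ssm_hl_x h3 O N') (X ^ 2 + 3 * X + 3 : ℤ[X]) ∉ 𝔫' →
      ssm_hl_x h3 O N' ^ (q ^ 2) - ssm_hl_x h3 O N' ∈ 𝔫' →
      tq_GenBy (algebraMap ↥O (fc_chart ↥O ({hs_muE h3 N' - 1} : Set ↥(hs_E L h3 N'))) π)
        (ssm_hl_x h3 O N' ^ (q ^ 2) - ssm_hl_x h3 O N') 𝔫')
    (F : ssm_i1g_Facts ↥O q (hs_muE h3 (N' * q) - 1)
      (ssm_fh_W h3 N' q hq3 hqN' (hs_muE h3 (N' * q)) - 1)
      (hs_muE h3 (N' * q) ^ 2 + hs_muE h3 (N' * q) + 1)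
      (ssm_fh_W h3 N' q hq3 hqN' (hs_muE h3 (N' * q)) ^ 2 +
        ssm_fh_W h3 N' q hq3 hqN' (hs_muE h3 (N' * q)) + 1)
      (ssm_fh_V1 h3 O h3O hπ N' q) (ssm_fh_V2 h3 O h3O hπ N' q hq3 hqN'))
    -- thickness one over the small base
    (hthick : ∀ 𝔫0 : Ideal (fc_chart ↥O0
        ({hs_muE h30 (N' * q) - 1} : Set ↥(hs_E L0 h30 (N' * q)))),
      𝔫0.IsMaximal →
      ssm_tp_P (fc_chart ↥O0 ({hs_muE h30 (N' * q) - 1} : Set ↥(hs_E L0 h30 (N' * q))))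
        (ssm_fh_V1 h30 O0 h3O0 hπ0 N' q) ≤ 𝔫0 →
      ssm_tp_P (fc_chart ↥O0 ({hs_muE h30 (N' * q) - 1} : Set ↥(hs_E L0 h30 (N' * q))))
        (ssm_fh_V2 h30 O0 h3O0 hπ0 N' q hq3 hqN') ≤ 𝔫0 →
      ∃ u v : ↥(hs_E L0 h30 (N' * q)), u * v = ((q : ℕ) : ↥(hs_E L0 h30 (N' * q))) ∧
        (∃ s t : fc_chart ↥O0 ({hs_muE h30 (N' * q) - 1} : Set ↥(hs_E L0 h30 (N' * q))),
          s ∉ 𝔫0 ∧
          t ∈ ssm_tp_P (fc_chart ↥O0 ({hs_muE h30 (N' * q) - 1} : Set ↥(hs_E L0 h30 (N' * q))))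
            (ssm_fh_V2 h30 O0 h3O0 hπ0 N' q hq3 hqN') ∧ (s : ↥(hs_E L0 h30 (N' * q))) * u = t) ∧
        (∃ s t : fc_chart ↥O0 ({hs_muE h30 (N' * q) - 1} : Set ↥(hs_E L0 h30 (N' * q))),
          s ∉ 𝔫0 ∧
          t ∈ ssm_tp_P (fc_chart ↥O0 ({hs_muE h30 (N' * q) - 1} : Set ↥(hs_E L0 h30 (N' * q))))
            (ssm_fh_V1 h30 O0 h3O0 hπ0 N' q) ∧ (s : ↥(hs_E L0 h30 (N' * q))) * v = t) ∧
        (∀ z ∈ ssm_tp_P (fc_chart ↥O0 ({hs_muE h30 (N' * q) - 1} : Set ↥(hs_E L0 h30 (N' * q))))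
            (ssm_fh_V2 h30 O0 h3O0 hπ0 N' q hq3 hqN'),
          ∃ s c : fc_chart ↥O0 ({hs_muE h30 (N' * q) - 1} : Set ↥(hs_E L0 h30 (N' * q))),
            s ∉ 𝔫0 ∧
            (s : ↥(hs_E L0 h30 (N' * q))) * (z : ↥(hs_E L0 h30 (N' * q))) = u * c) ∧
        (∀ z ∈ ssm_tp_P (fc_chart ↥O0 ({hs_muE h30 (N' * q) - 1} : Set ↥(hs_E L0 h30 (N' * q))))
            (ssm_fh_V1 h30 O0 h3O0 hπ0 N' q),
          ∃ s c : fc_chart ↥O0 ({hs_muE h30 (N' * q) - 1} : Set ↥(hs_E L0 h30 (N' * q))),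
            s ∉ 𝔫0 ∧
            (s : ↥(hs_E L0 h30 (N' * q))) * (z : ↥(hs_E L0 h30 (N' * q))) = v * c) ∧
        (∃ s t : fc_chart ↥O0 ({hs_muE h30 (N' * q) - 1} : Set ↥(hs_E L0 h30 (N' * q))),
          s ∉ 𝔫0 ∧
          t ∉ ssm_tp_P (fc_chart ↥O0 ({hs_muE h30 (N' * q) - 1} : Set ↥(hs_E L0 h30 (N' * q))))
            (ssm_fh_V1 h30 O0 h3O0 hπ0 N' q) ∧ (s : ↥(hs_E L0 h30 (N' * q))) * u = t) ∧
        (∃ s t : fc_chart ↥O0 ({hs_muE h30 (N' * q) - 1} : Set ↥(hs_E L0 h30 (N' * q))),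
          s ∉ 𝔫0 ∧
          t ∉ ssm_tp_P (fc_chart ↥O0 ({hs_muE h30 (N' * q) - 1} : Set ↥(hs_E L0 h30 (N' * q))))
            (ssm_fh_V2 h30 O0 h3O0 hπ0 N' q hq3 hqN') ∧
          (s : ↥(hs_E L0 h30 (N' * q))) * v = t)) :
    ∀ 𝔫 : Ideal (fc_chart ↥O ({hs_muE h3 (N' * q) - 1} : Set ↥(hs_E L h3 (N' * q)))),
      𝔫.IsMaximal →
      ssm_tp_P (fc_chart ↥O ({hs_muE h3 (N' * q) - 1} : Set ↥(hs_E L h3 (N' * q))))
        (ssm_fh_V1 h3 O h3O hπ N' q) ≤ 𝔫 →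
      ssm_tp_P (fc_chart ↥O ({hs_muE h3 (N' * q) - 1} : Set ↥(hs_E L h3 (N' * q))))
        (ssm_fh_V2 h3 O h3O hπ N' q hq3 hqN') ≤ 𝔫 →
      ss_NodeAt π (ssm_sgh_aut h3 (N' * q) σ) (ssm_sg_base O σ hσ)
        (fc_chart1_le (hs_muE h3 (N' * q) - 1))
        (ssm_tp_P (fc_chart ↥O ({hs_muE h3 (N' * q) - 1, (hs_muE h3 (N' * q) - 1)⁻¹} :
          Set ↥(hs_E L h3 (N' * q)))) (ssm_fh_V1 h3 O h3O hπ N' q))
        (ssm_tp_P (fc_chart ↥O ({hs_muE h3 (N' * q) - 1, (hs_muE h3 (N' * q) - 1)⁻¹} :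
          Set ↥(hs_E L h3 (N' * q)))) (ssm_fh_V2 h3 O h3O hπ N' q hq3 hqN')) 𝔫 := by
  exact ssm_nho_node_of_cross h30 h3 f O0 O hO h3O0 h3O hπ N' q hq3 hqN' hπ0 σ hσ hσf hprime0
    hprime (ssm_crh_Wx_mem h30 O0 h3O0 hπ0 N' q hq3 hqN' F0)
    (ssm_crh_Wx_mem h3 O h3O hπ N' q hq3 hqN' F)
    (ssm_crh_cross h30 O0 h3O0 hπ0 N' q hq3 hqN' hprime0 hic0 hEC0 F0)
    (ssm_crh_cross h3 O h3O hπ N' q hq3 hqN' hprime hic hEC F) hthick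

end Node

/-! ### level inputs from a primitive `3N'`-th root of unity -/

section Level

variable {L : Type*} [Field L] [CharZero L] [Algebra L (AlgebraicClosure ℚ)] (h3 : (3 : L) ≠ 0)
  (O : ValuationSubring L) [IsDiscreteValuationRing O] (h3O : IsUnit (3 : O)) {π : O}
  (hπ : Irreducible π)
variable (N' q : ℕ) [NeZero N'] [NeZero q] [hq : Fact q.Prime] [CharP (ResidueField O) q]
  (hq3 : ¬ 3 ∣ q) (hqN' : ¬ q ∣ N')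

set_option synthInstance.maxHeartbeats 200000 in
set_option maxHeartbeats 1600000 in
/-- **the level-`N'` inputs of `ssm_crh_cross` over a base containing `ζ_{3N'}`**: `hprime`, `hic`,
`hEC` (shape of `ssm_hl_EC_aeval`) and `F` (`ssm_fh_facts`). -/
theorem ssm_nho_level (ζ : L) (hζ : IsPrimitiveRoot ζ (3 * N')) :
    Prime (algebraMap ↥O (fc_chart ↥O ({hs_muE h3 N' - 1} : Set ↥(hs_E L h3 N'))) π) ∧
    IsIntegrallyClosed (fc_chart ↥O ({hs_muE h3 N' - 1} : Set ↥(hs_E L h3 N')) ⧸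
      (Ideal.span {algebraMap ↥O (fc_chart ↥O ({hs_muE h3 N' - 1} : Set ↥(hs_E L h3 N'))) π} :
        Ideal (fc_chart ↥O ({hs_muE h3 N' - 1} : Set ↥(hs_E L h3 N'))))) ∧
    (∀ 𝔫' : Ideal (fc_chart ↥O ({hs_muE h3 N' - 1} : Set ↥(hs_E L h3 N'))), 𝔫'.IsMaximal →
      algebraMap ↥O (fc_chart ↥O ({hs_muE h3 N' - 1} : Set ↥(hs_E L h3 N'))) π ∈ 𝔫' →
      ssm_hl_x h3 O N' ∉ 𝔫' →
      aeval (ssm_hl_x h3 O N') (X ^ 2 + 3 * X + 3 : ℤ[X]) ∉ 𝔫' →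
      ssm_hl_x h3 O N' ^ (q ^ 2) - ssm_hl_x h3 O N' ∈ 𝔫' →
      tq_GenBy (algebraMap ↥O (fc_chart ↥O ({hs_muE h3 N' - 1} : Set ↥(hs_E L h3 N'))) π)
        (ssm_hl_x h3 O N' ^ (q ^ 2) - ssm_hl_x h3 O N') 𝔫') ∧
    ssm_i1g_Facts ↥O q (hs_muE h3 (N' * q) - 1)
      (ssm_fh_W h3 N' q hq3 hqN' (hs_muE h3 (N' * q)) - 1)
      (hs_muE h3 (N' * q) ^ 2 + hs_muE h3 (N' * q) + 1)
      (ssm_fh_W h3 N' q hq3 hqN' (hs_muE h3 (N' * q)) ^ 2 +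
        ssm_fh_W h3 N' q hq3 hqN' (hs_muE h3 (N' * q)) + 1)
      (ssm_fh_V1 h3 O h3O hπ N' q) (ssm_fh_V2 h3 O h3O hπ N' q hq3 hqN') := by
  have hqO : ((q : ℕ) : O) ∈ maximalIdeal O := by
    rw [← residue_eq_zero_iff, map_natCast]
    exact CharP.cast_eq_zero _ q
  have hq3' : q ≠ 3 := by
    rintro rfl
    exact hq3 dvd_rfl
  obtain ⟨-, -, hprime1, -, -, hded1, -⟩ := ssm_hlr_main h3 O N' hπ q hqO hq3' hqN' ζ hζ
  refine ⟨hprime1, ?_, ?_, ssm_fh_facts h3 O h3O hπ N' q hq3 hqN' hprime1⟩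
  · haveI := hded1
    infer_instance
  · intro 𝔫' h𝔫' hπ𝔫' h0 ht hmem
    refine ssm_hlr_EC_sq h3 O N' hπ q hqO hq3' hqN' ζ hζ 𝔫' h𝔫' hπ𝔫' h0 ?_ hmem
    rwa [ssm_hl_aeval_mid] at ht

end Level

section NodeZeta

variable {L0 L : Type*} [Field L0] [Field L] [CharZero L0] [CharZero L]
  [Algebra L0 (AlgebraicClosure ℚ)] [Algebra L (AlgebraicClosure ℚ)]
  (h30 : (3 : L0) ≠ 0) (h3 : (3 : L) ≠ 0)
  (f : L0 →+* L) (O0 : ValuationSubring L0) (O : ValuationSubring L)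
  (hO : ∀ x : L0, x ∈ O0 ↔ f x ∈ O)
  [IsDiscreteValuationRing O0] [IsDiscreteValuationRing O]
  (h3O0 : IsUnit (3 : O0)) (h3O : IsUnit (3 : O))
  {π : O} (hπ : Irreducible π)
  (N' q : ℕ) [NeZero N'] [NeZero q] [hq : Fact q.Prime]
  [CharP (ResidueField O0) q] [CharP (ResidueField O) q]
  (hq3 : ¬ 3 ∣ q) (hqN' : ¬ q ∣ N')
  (hπ0 : Irreducible ((q : ℕ) : ↥O0))

include hO in
set_option synthInstance.maxHeartbeats 200000 in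
set_option maxHeartbeats 3200000 in
/-- **[ND]-H, relative form, level inputs discharged**: `(L0, O0)` a base with uniformiser `q`
containing a primitive `3N'`-th root of unity `ζ0`, inside `(L, O)` (`O0 = f⁻¹ O`), `σ` inert at `O`
fixing `f L0`.  Thickness one over the small base ⟹ the node clause over `(O, π)`. -/
theorem ssm_nho_node_of_zeta
    (σ : L ≃+* L) (hσ : ss_Inert O σ) (hσf : ∀ a : L0, σ (f a) = f a)
    (ζ0 : L0) (hζ0 : IsPrimitiveRoot ζ0 (3 * N'))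
    -- thickness one over the small base
    (hthick : ∀ 𝔫0 : Ideal (fc_chart ↥O0
        ({hs_muE h30 (N' * q) - 1} : Set ↥(hs_E L0 h30 (N' * q)))),
      𝔫0.IsMaximal →
      ssm_tp_P (fc_chart ↥O0 ({hs_muE h30 (N' * q) - 1} : Set ↥(hs_E L0 h30 (N' * q))))
        (ssm_fh_V1 h30 O0 h3O0 hπ0 N' q) ≤ 𝔫0 →
      ssm_tp_P (fc_chart ↥O0 ({hs_muE h30 (N' * q) - 1} : Set ↥(hs_E L0 h30 (N' * q))))
        (ssm_fh_V2 h30 O0 h3O0 hπ0 N' q hq3 hqN') ≤ 𝔫0 →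
      ∃ u v : ↥(hs_E L0 h30 (N' * q)), u * v = ((q : ℕ) : ↥(hs_E L0 h30 (N' * q))) ∧
        (∃ s t : fc_chart ↥O0 ({hs_muE h30 (N' * q) - 1} : Set ↥(hs_E L0 h30 (N' * q))),
          s ∉ 𝔫0 ∧
          t ∈ ssm_tp_P (fc_chart ↥O0 ({hs_muE h30 (N' * q) - 1} : Set ↥(hs_E L0 h30 (N' * q))))
            (ssm_fh_V2 h30 O0 h3O0 hπ0 N' q hq3 hqN') ∧ (s : ↥(hs_E L0 h30 (N' * q))) * u = t) ∧
        (∃ s t : fc_chart ↥O0 ({hs_muE h30 (N' * q) - 1} : Set ↥(hs_E L0 h30 (N' * q))),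
          s ∉ 𝔫0 ∧
          t ∈ ssm_tp_P (fc_chart ↥O0 ({hs_muE h30 (N' * q) - 1} : Set ↥(hs_E L0 h30 (N' * q))))
            (ssm_fh_V1 h30 O0 h3O0 hπ0 N' q) ∧ (s : ↥(hs_E L0 h30 (N' * q))) * v = t) ∧
        (∀ z ∈ ssm_tp_P (fc_chart ↥O0 ({hs_muE h30 (N' * q) - 1} : Set ↥(hs_E L0 h30 (N' * q))))
            (ssm_fh_V2 h30 O0 h3O0 hπ0 N' q hq3 hqN'),
          ∃ s c : fc_chart ↥O0 ({hs_muE h30 (N' * q) - 1} : Set ↥(hs_E L0 h30 (N' * q))),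
            s ∉ 𝔫0 ∧
            (s : ↥(hs_E L0 h30 (N' * q))) * (z : ↥(hs_E L0 h30 (N' * q))) = u * c) ∧
        (∀ z ∈ ssm_tp_P (fc_chart ↥O0 ({hs_muE h30 (N' * q) - 1} : Set ↥(hs_E L0 h30 (N' * q))))
            (ssm_fh_V1 h30 O0 h3O0 hπ0 N' q),
          ∃ s c : fc_chart ↥O0 ({hs_muE h30 (N' * q) - 1} : Set ↥(hs_E L0 h30 (N' * q))),
            s ∉ 𝔫0 ∧
            (s : ↥(hs_E L0 h30 (N' * q))) * (z : ↥(hs_E L0 h30 (N' * q))) = v * c) ∧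
        (∃ s t : fc_chart ↥O0 ({hs_muE h30 (N' * q) - 1} : Set ↥(hs_E L0 h30 (N' * q))),
          s ∉ 𝔫0 ∧
          t ∉ ssm_tp_P (fc_chart ↥O0 ({hs_muE h30 (N' * q) - 1} : Set ↥(hs_E L0 h30 (N' * q))))
            (ssm_fh_V1 h30 O0 h3O0 hπ0 N' q) ∧ (s : ↥(hs_E L0 h30 (N' * q))) * u = t) ∧
        (∃ s t : fc_chart ↥O0 ({hs_muE h30 (N' * q) - 1} : Set ↥(hs_E L0 h30 (N' * q))),
          s ∉ 𝔫0 ∧
          t ∉ ssm_tp_P (fc_chart ↥O0 ({hs_muE h30 (N' * q) - 1} : Set ↥(hs_E L0 h30 (N' * q))))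
            (ssm_fh_V2 h30 O0 h3O0 hπ0 N' q hq3 hqN') ∧
          (s : ↥(hs_E L0 h30 (N' * q))) * v = t)) :
    ∀ 𝔫 : Ideal (fc_chart ↥O ({hs_muE h3 (N' * q) - 1} : Set ↥(hs_E L h3 (N' * q)))),
      𝔫.IsMaximal →
      ssm_tp_P (fc_chart ↥O ({hs_muE h3 (N' * q) - 1} : Set ↥(hs_E L h3 (N' * q))))
        (ssm_fh_V1 h3 O h3O hπ N' q) ≤ 𝔫 →
      ssm_tp_P (fc_chart ↥O ({hs_muE h3 (N' * q) - 1} : Set ↥(hs_E L h3 (N' * q))))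
        (ssm_fh_V2 h3 O h3O hπ N' q hq3 hqN') ≤ 𝔫 →
      ss_NodeAt π (ssm_sgh_aut h3 (N' * q) σ) (ssm_sg_base O σ hσ)
        (fc_chart1_le (hs_muE h3 (N' * q) - 1))
        (ssm_tp_P (fc_chart ↥O ({hs_muE h3 (N' * q) - 1, (hs_muE h3 (N' * q) - 1)⁻¹} :
          Set ↥(hs_E L h3 (N' * q)))) (ssm_fh_V1 h3 O h3O hπ N' q))
        (ssm_tp_P (fc_chart ↥O ({hs_muE h3 (N' * q) - 1, (hs_muE h3 (N' * q) - 1)⁻¹} :
          Set ↥(hs_E L h3 (N' * q)))) (ssm_fh_V2 h3 O h3O hπ N' q hq3 hqN')) 𝔫 := by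
  have hζ : IsPrimitiveRoot (f ζ0) (3 * N') := hζ0.map_of_injective f.injective
  obtain ⟨hprime0, hic0, hEC0, F0⟩ := ssm_nho_level h30 O0 h3O0 hπ0 N' q hq3 hqN' ζ0 hζ0
  obtain ⟨hprime, hic, hEC, F⟩ := ssm_nho_level h3 O h3O hπ N' q hq3 hqN' (f ζ0) hζ
  exact ssm_nho_node_of h30 h3 f O0 O hO h3O0 h3O hπ N' q hq3 hqN' hπ0 σ hσ hσf hprime0 hic0 hEC0
    F0 hprime hic hEC F hthick

end NodeZeta

end Fermat.Agent.SS
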