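/-
Project SS (S34), cell [M], final instantiation, HESSE tower (`q ≠ 3` prime; `q = 2` in the
application; coordinate `x = μ - 1`, "Option M"): THE CLAUSE [SG]-H of the final assembly (helper20).

Context = helper12's `FactsHesse.lean` (`hF9` discharged): `E = hs_E L h3 (N' q)`, `W = ssm_fh_W`,
`V₁ = ssm_fh_V1`, `V₂ = ssm_fh_V2`; `σ : L ≃+* L` inert at `O`, `σ_E = ssm_sgh_aut h3 (N' q) σ`,
`σ_O = ssm_sg_base O σ hσ`.  The five `σ`-fields of `ss_Model` / `ssm_asm_model`: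

* `ssm_sghi_base`  : `σ_E (a) = σ_O a` on `O`                                   (`σ_base`);
* `ssm_sghi_dvd`   : `π ∣ σ_O a - a`                                            (`σ0_triv`);
* `ssm_sghi_x`     : `σ_E x = x`                                                (`σ_x`);
* `ssm_sghi_triv1`, `ssm_sghi_triv2` : `σ_E b - b ∈ π B` on the charts `{x}`, `{x⁻¹}`
                                                                                (`σ_triv1/2`);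
* `ssm_sghi_all`   : the conjunction.
The only hypothesis left is `hprime` (= a component of `ssm_hl_main` / `ssm_hlr_main`).
Prefix `ssm_sghi_`.
-/
import Mathlib
import Fermat.Agent.SS.Model.FactsHesse
import Fermat.Agent.SS.Model.SigmaW

set_option autoImplicit false
set_option linter.unusedSectionVars false
set_option linter.unusedVariables false
set_option linter.style.haveILetI false

noncomputable section

open ModularCurve IntermediateField IsLocalRing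
open Fermat.Agent.JT3

namespace Fermat.Agent.SS

section SigmaHesseInst

variable {L : Type*} [Field L] [CharZero L] [Algebra L (AlgebraicClosure ℚ)] (h3 : (3 : L) ≠ 0)
  (O : ValuationSubring L) [IsDiscreteValuationRing O] (h3O : IsUnit (3 : O)) {π : O}
  (hπ : Irreducible π)
variable (N' q : ℕ) [NeZero N'] [NeZero q] [hq : Fact q.Prime] [CharP (ResidueField O) q]
  (hq3 : ¬ 3 ∣ q) (hqN' : ¬ q ∣ N') (σ : L ≃+* L) (hσ : ss_Inert O σ)

/-- `σ_base`. -/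
theorem ssm_sghi_base (a : ↥O) :
    ssm_sgh_aut h3 (N' * q) σ (algebraMap ↥O ↥(hs_E L h3 (N' * q)) a) =
      algebraMap ↥O ↥(hs_E L h3 (N' * q)) (ssm_sg_base O σ hσ a) :=
  ssm_sgh_aut_base h3 O (N' * q) σ hσ a

include hπ in
/-- `σ0_triv`. -/
theorem ssm_sghi_dvd (a : ↥O) : π ∣ ssm_sg_base O σ hσ a - a :=
  ssm_sg_base_dvd O σ hσ hπ.maximalIdeal_eq a

/-- `σ_x`. -/
theorem ssm_sghi_x :
    ssm_sgh_aut h3 (N' * q) σ (hs_muE h3 (N' * q) - 1) = hs_muE h3 (N' * q) - 1 :=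
  ssm_sgm_aut_x h3 (N' * q) σ

/-- `hW`: the involution commutes with `σ_E`. -/
theorem ssm_sghi_comm (z : ↥(hs_E L h3 (N' * q))) :
    ssm_fh_W h3 N' q hq3 hqN' (ssm_sgh_aut h3 (N' * q) σ z) =
      ssm_sgh_aut h3 (N' * q) σ (ssm_fh_W h3 N' q hq3 hqN' z) :=
  ssm_sgw_comm_hes L h3 (ssm_fh_hF9 h3) N' q hq.out hq3 hqN' σ z

include h3O hπ hq3 hqN' hσ in
/-- `σ_triv1`: `σ_E` is trivial modulo `π` on the chart `{x}`. -/
theorem ssm_sghi_triv1
    (hprime : Prime (algebraMap ↥O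
      (fc_chart ↥O ({hs_muE h3 N' - 1} : Set ↥(hs_E L h3 N'))) π)) :
    ∀ b ∈ fc_chart ↥O ({hs_muE h3 (N' * q) - 1} : Set ↥(hs_E L h3 (N' * q))),
      ∃ c ∈ fc_chart ↥O ({hs_muE h3 (N' * q) - 1} : Set ↥(hs_E L h3 (N' * q))),
        ssm_sgh_aut h3 (N' * q) σ b - b = algebraMap ↥O ↥(hs_E L h3 (N' * q)) π * c := by
  haveI := ssm_go_isScalarTower O (hs_E L h3 (N' * q))
  exact ssm_sgh_triv_tp h3 O h3O (N' * q) σ hπ hσ (ssm_fh_W h3 N' q hq3 hqN')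
    (ssm_sghi_comm h3 N' q hq3 hqN' σ) (ssm_sgm_transcendental h3 (N' * q)) _
    (ssm_sgm_aut_fix1 h3 (N' * q) σ) (ssm_fh_hyp h3 O h3O hπ N' q hq3 hqN' hprime)
    (ssm_tp_ff_chart (L := L) hπ (ssm_sgm_transcendental h3 (N' * q)))

include h3O hπ hq3 hqN' hσ in
/-- `σ_triv2`: `σ_E` is trivial modulo `π` on the chart `{x⁻¹}`. -/
theorem ssm_sghi_triv2
    (hprime : Prime (algebraMap ↥O
      (fc_chart ↥O ({hs_muE h3 N' - 1} : Set ↥(hs_E L h3 N'))) π)) :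
    ∀ b ∈ fc_chart ↥O ({(hs_muE h3 (N' * q) - 1)⁻¹} : Set ↥(hs_E L h3 (N' * q))),
      ∃ c ∈ fc_chart ↥O ({(hs_muE h3 (N' * q) - 1)⁻¹} : Set ↥(hs_E L h3 (N' * q))),
        ssm_sgh_aut h3 (N' * q) σ b - b = algebraMap ↥O ↥(hs_E L h3 (N' * q)) π * c := by
  haveI := ssm_go_isScalarTower O (hs_E L h3 (N' * q))
  haveI := ssm_glh_finite h3 (N' * q)
  exact ssm_sgh_triv_tp h3 O h3O (N' * q) σ hπ hσ (ssm_fh_W h3 N' q hq3 hqN')
    (ssm_sghi_comm h3 N' q hq3 hqN' σ) (ssm_sgm_transcendental_inv h3 (N' * q)) _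
    (ssm_sgm_aut_fix2 h3 (N' * q) σ)
    (ssm_tp_ff_hyp_inv (L := L) hπ (ssm_sgm_transcendental h3 (N' * q))
      (ssm_fh_hyp h3 O h3O hπ N' q hq3 hqN' hprime))
    (ssm_tp_ff_chart (L := L) hπ (ssm_sgm_transcendental_inv h3 (N' * q)))

include h3O hπ hq3 hqN' in
/-- **[SG]-H**: the five `σ`-fields of the model, in the shapes of `ssm_asm_model` at
`x := hs_muE h3 (N' q) - 1`, `σ := ssm_sgh_aut h3 (N' q) σ`, `σ0 := ssm_sg_base O σ hσ`. -/
theorem ssm_sghi_all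
    (hprime : Prime (algebraMap ↥O
      (fc_chart ↥O ({hs_muE h3 N' - 1} : Set ↥(hs_E L h3 N'))) π)) :
    (∀ a : ↥O, ssm_sgh_aut h3 (N' * q) σ (algebraMap ↥O ↥(hs_E L h3 (N' * q)) a) =
      algebraMap ↥O ↥(hs_E L h3 (N' * q)) (ssm_sg_base O σ hσ a)) ∧
    (∀ a : ↥O, π ∣ ssm_sg_base O σ hσ a - a) ∧
    ssm_sgh_aut h3 (N' * q) σ (hs_muE h3 (N' * q) - 1) = hs_muE h3 (N' * q) - 1 ∧
    (∀ b ∈ fc_chart ↥O ({hs_muE h3 (N' * q) - 1} : Set ↥(hs_E L h3 (N' * q))),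
      ∃ c ∈ fc_chart ↥O ({hs_muE h3 (N' * q) - 1} : Set ↥(hs_E L h3 (N' * q))),
        ssm_sgh_aut h3 (N' * q) σ b - b = algebraMap ↥O ↥(hs_E L h3 (N' * q)) π * c) ∧
    (∀ b ∈ fc_chart ↥O ({(hs_muE h3 (N' * q) - 1)⁻¹} : Set ↥(hs_E L h3 (N' * q))),
      ∃ c ∈ fc_chart ↥O ({(hs_muE h3 (N' * q) - 1)⁻¹} : Set ↥(hs_E L h3 (N' * q))),
        ssm_sgh_aut h3 (N' * q) σ b - b = algebraMap ↥O ↥(hs_E L h3 (N' * q)) π * c) :=
  ⟨ssm_sghi_base h3 O N' q σ hσ, ssm_sghi_dvd O hπ σ hσ, ssm_sghi_x h3 N' q σ,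
    ssm_sghi_triv1 h3 O h3O hπ N' q hq3 hqN' σ hσ hprime,
    ssm_sghi_triv2 h3 O h3O hπ N' q hq3 hqN' σ hσ hprime⟩

end SigmaHesseInst

end Fermat.Agent.SS
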