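/-
SS [M] / [TH-I] sub-cell, leaf [TH-S], LEGENDRE INSTANCE: the local base at a point of the special
fibre of the `λ`-chart (resp. `λ⁻¹`-chart) of `E' = lg_E L N` off the cusps.

Inputs: `lg_regAt_lam` / `lg_regAt_lam_inv` (S18 regularity), `cn_prime_funField` (`π` prime on the
charts), `ssm_ec_lam` / `ssm_ec_lam_inv` ([EC]: the explicit parameter `G(λ)`), `ssm_ths_ff`.
-/
import Mathlib
import Fermat.Agent.SS.Model.ThickBase
import Fermat.Agent.SS.Model.EtaleCoordInst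
import Fermat.Agent.JT3.Inst.FunFieldFacts
import Fermat.Agent.JT3.Model.Connected

set_option autoImplicit false
set_option linter.unusedSectionVars false
set_option linter.style.haveILetI false

noncomputable section

open Polynomial IntermediateField ModularCurve

namespace Fermat.Agent.SS

open Fermat.Agent.JT3

section Inst

variable {L : Type*} [Field L] [CharZero L] (O : ValuationSubring L) [IsDiscreteValuationRing O]
  (N : ℕ) [NeZero N]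

/-- `π` is prime on the two standard Legendre charts (from the S18 regularity). -/
theorem ssm_ths_lam_prime {π : O} (hπ : Irreducible π) (ℓ : ℕ) [Fact ℓ.Prime]
    (hℓ : ((ℓ : ℕ) : O) ∈ IsLocalRing.maximalIdeal O) (hℓ2 : ℓ ≠ 2) (hℓN : ¬ ℓ ∣ N)
    (ζ : L) (hζ : IsPrimitiveRoot ζ N)
    (hram : lg_RamHyp N (lgh_lamK L)) (hram' : lg_RamHyp N (lgh_lamK L)⁻¹) :
    Prime (algebraMap O (fc_chart O ({lg_lamE N} : Set (lg_E L N))) π) ∧
      Prime (algebraMap O (fc_chart O ({(lg_lamE N)⁻¹} : Set (lg_E L N))) π) := by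
  have hr1 := lg_regAt_lam O N hπ ℓ hℓ hℓ2 hℓN ζ hζ hram
  have hr2 := lg_regAt_lam_inv O N hπ ℓ hℓ hℓ2 hℓN ζ hζ hram'
  have hx : Transcendental L (lg_lamE (L := L) N) := lgf_lam_transcendental L N two_ne_zero
  haveI := lgf_finite L N
  have hconst : ∀ z : lg_E L N, IsAlgebraic L z → z ∈ (algebraMap L (lg_E L N)).range :=
    fun z hz => lgf_hconst (lg_E L N) z hz
  obtain ⟨hp1, hp2, -⟩ := cn_prime_funField (K0 := L) hπ hx hconst
    (fun n hn hπn => (hr1 n hn hπn).2) (fun n hn hπn => (hr2 n hn hπn).2)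
  exact ⟨hp1, hp2⟩

/-- **[TH-S] on the `λ`-chart.** At a maximal ideal `n ∋ π` of `B' = fc_chart O {λ}` off the cusps
(`λ, λ - 1 ∉ n`), for `G ∈ O[X]` with `G(λ) ∈ n`, `G'(λ) ∉ n`, and `V` a valuation subring of
`E'` over the Gauss ring of `O[λ]`: the local ring `S = fc_locAt E' n` is a noetherian integrally
closed local domain with fraction field `E'`, `𝔪_S = (π, G(λ))`, `π` is prime in `S`, `V` lies over
`S_(π)` and is the only valuation subring of `E'` doing so (bundled as `ssm_ths_Out`). -/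
theorem ssm_ths_lam {π : O} (hπ : Irreducible π) (ℓ : ℕ) [Fact ℓ.Prime]
    (hℓ : ((ℓ : ℕ) : O) ∈ IsLocalRing.maximalIdeal O) (hℓ2 : ℓ ≠ 2) (hℓN : ¬ ℓ ∣ N)
    (ζ : L) (hζ : IsPrimitiveRoot ζ N)
    (hram : lg_RamHyp N (lgh_lamK L)) (hram' : lg_RamHyp N (lgh_lamK L)⁻¹)
    (n : Ideal (fc_chart O ({lg_lamE N} : Set (lg_E L N)))) [hn : n.IsMaximal]
    (hπn : algebraMap O (fc_chart O ({lg_lamE N} : Set (lg_E L N))) π ∈ n)
    (h0 : ∀ y : fc_chart O ({lg_lamE N} : Set (lg_E L N)), (y : lg_E L N) = lg_lamE N → y ∉ n)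
    (h1 : ∀ y : fc_chart O ({lg_lamE N} : Set (lg_E L N)),
      (y : lg_E L N) = lg_lamE N - 1 → y ∉ n)
    (G : O[X]) (y : fc_chart O ({lg_lamE N} : Set (lg_E L N)))
    (hy : (y : lg_E L N) = aeval (lg_lamE N : lg_E L N) G) (hyn : y ∈ n)
    (hG' : ∀ y' : fc_chart O ({lg_lamE N} : Set (lg_E L N)),
      (y' : lg_E L N) = aeval (lg_lamE N : lg_E L N) (derivative G) → y' ∉ n)
    {V : ValuationSubring (lg_E L N)}
    (hV : ssm_tp_Over (algebraMap O (Algebra.adjoin O ({lg_lamE N} : Set (lg_E L N))) π) V) :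
    haveI := lgf_finite L N
    haveI := ssm_ths_chart_isFractionRing (A0 := O) (L := L) (lg_lamE N : lg_E L N)
    haveI : n.IsPrime := hn.isPrime
    ssm_ths_Out (A0 := ↥O) π (lg_lamE N : lg_E L N) n y V := by
  haveI := lgf_finite L N
  haveI := ssm_ths_chart_isFractionRing (A0 := O) (L := L) (lg_lamE N : lg_E L N)
  haveI : n.IsPrime := hn.isPrime
  have hx : Transcendental L (lg_lamE (L := L) N) := lgf_lam_transcendental L N two_ne_zero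
  have hp := (ssm_ths_lam_prime O N hπ ℓ hℓ hℓ2 hℓN ζ hζ hram hram').1
  have hr1 := lg_regAt_lam O N hπ ℓ hℓ hℓ2 hℓN ζ hζ hram
  have hgen := ssm_ec_lam O N hπ ℓ hℓ hℓ2 hℓN hram n hπn h0 h1 G y hy hyn hG'
  exact ssm_ths_ff_out (L := L) hx hp n hgen (hr1 n hn hπn).2 hV

/-- `E'` is finite over `L(λ⁻¹)`. -/
theorem ssm_ths_lam_inv_finite :
    FiniteDimensional L⟮((lg_lamE N)⁻¹ : lg_E L N)⟯ (lg_E L N) := by
  haveI := lgf_finite L N
  rw [rt_adjoin_inv]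
  infer_instance

/-- **[TH-S] on the `λ⁻¹`-chart** (the twin of `ssm_ths_lam` at the points with `λ⁻¹, λ⁻¹ - 1 ∉ n`
of `fc_chart O {λ⁻¹}`). -/
theorem ssm_ths_lam_inv {π : O} (hπ : Irreducible π) (ℓ : ℕ) [Fact ℓ.Prime]
    (hℓ : ((ℓ : ℕ) : O) ∈ IsLocalRing.maximalIdeal O) (hℓ2 : ℓ ≠ 2) (hℓN : ¬ ℓ ∣ N)
    (ζ : L) (hζ : IsPrimitiveRoot ζ N)
    (hram : lg_RamHyp N (lgh_lamK L)) (hram' : lg_RamHyp N (lgh_lamK L)⁻¹)
    (n : Ideal (fc_chart O ({(lg_lamE N)⁻¹} : Set (lg_E L N)))) [hn : n.IsMaximal]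
    (hπn : algebraMap O (fc_chart O ({(lg_lamE N)⁻¹} : Set (lg_E L N))) π ∈ n)
    (h0 : ∀ y : fc_chart O ({(lg_lamE N)⁻¹} : Set (lg_E L N)),
      (y : lg_E L N) = (lg_lamE N)⁻¹ → y ∉ n)
    (h1 : ∀ y : fc_chart O ({(lg_lamE N)⁻¹} : Set (lg_E L N)),
      (y : lg_E L N) = (lg_lamE N)⁻¹ - 1 → y ∉ n)
    (G : O[X]) (y : fc_chart O ({(lg_lamE N)⁻¹} : Set (lg_E L N)))
    (hy : (y : lg_E L N) = aeval ((lg_lamE N)⁻¹ : lg_E L N) G) (hyn : y ∈ n)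
    (hG' : ∀ y' : fc_chart O ({(lg_lamE N)⁻¹} : Set (lg_E L N)),
      (y' : lg_E L N) = aeval ((lg_lamE N)⁻¹ : lg_E L N) (derivative G) → y' ∉ n)
    {V : ValuationSubring (lg_E L N)}
    (hV : ssm_tp_Over
      (algebraMap O (Algebra.adjoin O ({(lg_lamE N)⁻¹} : Set (lg_E L N))) π) V) :
    haveI := ssm_ths_lam_inv_finite (L := L) N
    haveI := ssm_ths_chart_isFractionRing (A0 := O) (L := L) ((lg_lamE N)⁻¹ : lg_E L N)
    haveI : n.IsPrime := hn.isPrime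
    ssm_ths_Out (A0 := ↥O) π ((lg_lamE N)⁻¹ : lg_E L N) n y V := by
  haveI := ssm_ths_lam_inv_finite (L := L) N
  haveI := ssm_ths_chart_isFractionRing (A0 := O) (L := L) ((lg_lamE N)⁻¹ : lg_E L N)
  haveI : n.IsPrime := hn.isPrime
  have hx : Transcendental L (lg_lamE (L := L) N) := lgf_lam_transcendental L N two_ne_zero
  have hxi : Transcendental L ((lg_lamE N)⁻¹ : lg_E L N) :=
    fun h => hx (IsAlgebraic.inv_iff.mp h)
  have hp := (ssm_ths_lam_prime O N hπ ℓ hℓ hℓ2 hℓN ζ hζ hram hram').2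
  have hr2 := lg_regAt_lam_inv O N hπ ℓ hℓ hℓ2 hℓN ζ hζ hram'
  have hgen := ssm_ec_lam_inv O N hπ ℓ hℓ hℓ2 hℓN hram' n hπn h0 h1 G y hy hyn hG'
  exact ssm_ths_ff_out (L := L) hxi hp n hgen (hr2 n hn hπn).2 hV

/-- **[TH-S] on the `λ`-chart, Frobenius parameter** `u = λ ^ m - λ` (`m ∈ 𝔪_O`, e.g. `m = ℓ ^ 2`). -/
theorem ssm_ths_lam_frob {π : O} (hπ : Irreducible π) (ℓ : ℕ) [Fact ℓ.Prime]
    (hℓ : ((ℓ : ℕ) : O) ∈ IsLocalRing.maximalIdeal O) (hℓ2 : ℓ ≠ 2) (hℓN : ¬ ℓ ∣ N)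
    (ζ : L) (hζ : IsPrimitiveRoot ζ N)
    (hram : lg_RamHyp N (lgh_lamK L)) (hram' : lg_RamHyp N (lgh_lamK L)⁻¹)
    (n : Ideal (fc_chart O ({lg_lamE N} : Set (lg_E L N)))) [hn : n.IsMaximal]
    (hπn : algebraMap O (fc_chart O ({lg_lamE N} : Set (lg_E L N))) π ∈ n)
    (h0 : ∀ y : fc_chart O ({lg_lamE N} : Set (lg_E L N)), (y : lg_E L N) = lg_lamE N → y ∉ n)
    (h1 : ∀ y : fc_chart O ({lg_lamE N} : Set (lg_E L N)),
      (y : lg_E L N) = lg_lamE N - 1 → y ∉ n)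
    (m : ℕ) (hm : ((m : ℕ) : O) ∈ IsLocalRing.maximalIdeal O)
    (y : fc_chart O ({lg_lamE N} : Set (lg_E L N)))
    (hy : (y : lg_E L N) = (lg_lamE N : lg_E L N) ^ m - lg_lamE N) (hyn : y ∈ n)
    {V : ValuationSubring (lg_E L N)}
    (hV : ssm_tp_Over (algebraMap O (Algebra.adjoin O ({lg_lamE N} : Set (lg_E L N))) π) V) :
    haveI := lgf_finite L N
    haveI := ssm_ths_chart_isFractionRing (A0 := O) (L := L) (lg_lamE N : lg_E L N)
    haveI : n.IsPrime := hn.isPrime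
    ssm_ths_Out (A0 := ↥O) π (lg_lamE N : lg_E L N) n y V := by
  haveI := lgf_finite L N
  haveI := ssm_ths_chart_isFractionRing (A0 := O) (L := L) (lg_lamE N : lg_E L N)
  haveI : n.IsPrime := hn.isPrime
  have hx : Transcendental L (lg_lamE (L := L) N) := lgf_lam_transcendental L N two_ne_zero
  have hp := (ssm_ths_lam_prime O N hπ ℓ hℓ hℓ2 hℓN ζ hζ hram hram').1
  have hr1 := lg_regAt_lam O N hπ ℓ hℓ hℓ2 hℓN ζ hζ hram
  have hgen := ssm_ec_lam_frob O N hπ ℓ hℓ hℓ2 hℓN hram n hπn h0 h1 m hm y hy hyn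
  exact ssm_ths_ff_out (L := L) hx hp n hgen (hr1 n hn hπn).2 hV

/-- **[TH-S] on the `λ⁻¹`-chart, Frobenius parameter** `u = λ⁻¹ ^ m - λ⁻¹`. -/
theorem ssm_ths_lam_inv_frob {π : O} (hπ : Irreducible π) (ℓ : ℕ) [Fact ℓ.Prime]
    (hℓ : ((ℓ : ℕ) : O) ∈ IsLocalRing.maximalIdeal O) (hℓ2 : ℓ ≠ 2) (hℓN : ¬ ℓ ∣ N)
    (ζ : L) (hζ : IsPrimitiveRoot ζ N)
    (hram : lg_RamHyp N (lgh_lamK L)) (hram' : lg_RamHyp N (lgh_lamK L)⁻¹)
    (n : Ideal (fc_chart O ({(lg_lamE N)⁻¹} : Set (lg_E L N)))) [hn : n.IsMaximal]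
    (hπn : algebraMap O (fc_chart O ({(lg_lamE N)⁻¹} : Set (lg_E L N))) π ∈ n)
    (h0 : ∀ y : fc_chart O ({(lg_lamE N)⁻¹} : Set (lg_E L N)),
      (y : lg_E L N) = (lg_lamE N)⁻¹ → y ∉ n)
    (h1 : ∀ y : fc_chart O ({(lg_lamE N)⁻¹} : Set (lg_E L N)),
      (y : lg_E L N) = (lg_lamE N)⁻¹ - 1 → y ∉ n)
    (m : ℕ) (hm : ((m : ℕ) : O) ∈ IsLocalRing.maximalIdeal O)
    (y : fc_chart O ({(lg_lamE N)⁻¹} : Set (lg_E L N)))
    (hy : (y : lg_E L N) = ((lg_lamE N)⁻¹ : lg_E L N) ^ m - (lg_lamE N)⁻¹) (hyn : y ∈ n)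
    {V : ValuationSubring (lg_E L N)}
    (hV : ssm_tp_Over
      (algebraMap O (Algebra.adjoin O ({(lg_lamE N)⁻¹} : Set (lg_E L N))) π) V) :
    haveI := ssm_ths_lam_inv_finite (L := L) N
    haveI := ssm_ths_chart_isFractionRing (A0 := O) (L := L) ((lg_lamE N)⁻¹ : lg_E L N)
    haveI : n.IsPrime := hn.isPrime
    ssm_ths_Out (A0 := ↥O) π ((lg_lamE N)⁻¹ : lg_E L N) n y V := by
  haveI := ssm_ths_lam_inv_finite (L := L) N
  haveI := ssm_ths_chart_isFractionRing (A0 := O) (L := L) ((lg_lamE N)⁻¹ : lg_E L N)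
  haveI : n.IsPrime := hn.isPrime
  have hx : Transcendental L (lg_lamE (L := L) N) := lgf_lam_transcendental L N two_ne_zero
  have hxi : Transcendental L ((lg_lamE N)⁻¹ : lg_E L N) :=
    fun h => hx (IsAlgebraic.inv_iff.mp h)
  have hp := (ssm_ths_lam_prime O N hπ ℓ hℓ hℓ2 hℓN ζ hζ hram hram').2
  have hr2 := lg_regAt_lam_inv O N hπ ℓ hℓ hℓ2 hℓN ζ hζ hram'
  have hgen := ssm_ec_lam_inv_frob O N hπ ℓ hℓ hℓ2 hℓN hram' n hπn h0 h1 m hm y hy hyn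
  exact ssm_ths_ff_out (L := L) hxi hp n hgen (hr2 n hn hπn).2 hV

end Inst

end Fermat.Agent.SS
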